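import Mathlib

/-!
# S36 / G-N2, piece N2-abs (helper20): conjugates, norms and minimal polynomials — abstract

`F / F'` a finite separable extension of fields of degree `n`, `L` ANY field, `e₀ : F' →+* L`,
`σ : ι → (F →+* L)` an injective family of ring homomorphisms with `σ i ∘ algebraMap = e₀` and
`card ι = n` ("the conjugates").  Then, for every `x : F`:

* `s36n2_norm_eq_prod`  : `e₀ (Algebra.norm F' x) = ∏ i, σ i x`;
* `s36n2_trace_eq_sum`  : `e₀ (Algebra.trace F' F x) = ∑ i, σ i x`;
* `s36n2_minpoly_coeff_mem` : for a subring `G ≤ L` with `σ i x ∈ G` for all `i`, every coefficient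
  of the minimal polynomial of `x` over `F'` is mapped into `G` by `e₀`;
* `s36n2_charpoly_coeff_mem`, `s36n2_norm_mem`, `s36n2_trace_mem` : the same for the
  characteristic polynomial, the norm, the trace;
* `s36n2_minpoly_map_eval` : `σ i x` is a root of `(minpoly F' x).map e₀`.

Ring homomorphism forms (`φ : F' →+* F`, algebra structure `φ.toAlgebra`, as in
`STB/NormSquare.lean`): `s36n2_hom_norm_eq_prod`, `s36n2_hom_minpoly_coeff_mem`.

Mathlib only.
-/

set_option autoImplicit false
set_option linter.style.haveILetI false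
set_option linter.unusedSectionVars false

noncomputable section

namespace Fermat.Agent.S36

open Polynomial

section Subring

variable {Ω : Type*} [Field Ω]

/-- a product of `X - C r`, `r` in a subring `S`, has its coefficients in `S` -/
theorem s36n2_prod_coeff_mem (S : Subring Ω) (m : Multiset Ω) (hm : ∀ r ∈ m, r ∈ S) (k : ℕ) :
    ((m.map fun r => (X - C r : Polynomial Ω)).prod).coeff k ∈ S := by
  have h : (m.map fun r => (X - C r : Polynomial Ω)).prod ∈ Polynomial.lifts S.subtype := by
    refine Subsemiring.multiset_prod_mem _ _ ?_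
    intro p hp
    obtain ⟨r, hr, rfl⟩ := Multiset.mem_map.1 hp
    rw [Polynomial.mem_lifts]
    refine ⟨X - C ⟨r, hm r hr⟩, ?_⟩
    rw [Polynomial.map_sub, Polynomial.map_X, Polynomial.map_C]
    rfl
  rw [Polynomial.lifts_iff_coeff_lifts] at h
  obtain ⟨s, hs⟩ := h k
  rw [← hs]
  exact s.2

end Subring

section Alg

variable {F' F L : Type*} [Field F'] [Field F] [Field L] [Algebra F' F]
  [FiniteDimensional F' F] [Algebra.IsSeparable F' F]

/-- the conjugates, as `F'`-embeddings into the algebraic closure of `L` -/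
def s36n2Emb (e₀ : F' →+* L) {ι : Type*} (σ : ι → F →+* L)
    (hσ : ∀ i x, σ i (algebraMap F' F x) = e₀ x) (i : ι) :
    letI := ((algebraMap L (AlgebraicClosure L)).comp e₀).toAlgebra
    F →ₐ[F'] AlgebraicClosure L :=
  letI := ((algebraMap L (AlgebraicClosure L)).comp e₀).toAlgebra
  { (algebraMap L (AlgebraicClosure L)).comp (σ i) with
    commutes' := fun x => by
      show algebraMap L (AlgebraicClosure L) (σ i (algebraMap F' F x)) =
        algebraMap L (AlgebraicClosure L) (e₀ x)
      rw [hσ] }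

theorem s36n2Emb_apply (e₀ : F' →+* L) {ι : Type*} (σ : ι → F →+* L)
    (hσ : ∀ i x, σ i (algebraMap F' F x) = e₀ x) (i : ι) (x : F) :
    s36n2Emb e₀ σ hσ i x = algebraMap L (AlgebraicClosure L) (σ i x) := rfl

/-- the conjugates are ALL the embeddings -/
theorem s36n2Emb_bijective (e₀ : F' →+* L) {ι : Type*} [Fintype ι] (σ : ι → F →+* L)
    (hσ : ∀ i x, σ i (algebraMap F' F x) = e₀ x) (hinj : Function.Injective σ)
    (hcard : Fintype.card ι = Module.finrank F' F) :
    letI := ((algebraMap L (AlgebraicClosure L)).comp e₀).toAlgebra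
    Function.Bijective (s36n2Emb e₀ σ hσ) := by
  classical
  letI := ((algebraMap L (AlgebraicClosure L)).comp e₀).toAlgebra
  have he : Function.Injective (s36n2Emb e₀ σ hσ) := by
    intro i i' h
    apply hinj
    apply RingHom.ext
    intro x
    have h1 := congrArg (fun g : F →ₐ[F'] AlgebraicClosure L => g x) h
    exact (algebraMap L (AlgebraicClosure L)).injective h1
  rw [Fintype.bijective_iff_injective_and_card]
  refine ⟨he, ?_⟩
  rw [hcard, AlgHom.card F' F (AlgebraicClosure L)]

/-- **(b)** the norm is the product of the conjugates -/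
theorem s36n2_norm_eq_prod (e₀ : F' →+* L) {ι : Type*} [Fintype ι] (σ : ι → F →+* L)
    (hσ : ∀ i x, σ i (algebraMap F' F x) = e₀ x) (hinj : Function.Injective σ)
    (hcard : Fintype.card ι = Module.finrank F' F) (x : F) :
    e₀ (Algebra.norm F' x) = ∏ i, σ i x := by
  classical
  letI := ((algebraMap L (AlgebraicClosure L)).comp e₀).toAlgebra
  have hbij := s36n2Emb_bijective e₀ σ hσ hinj hcard
  have h1 : algebraMap F' (AlgebraicClosure L) (Algebra.norm F' x) =
      ∏ τ : F →ₐ[F'] AlgebraicClosure L, τ x :=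
    Algebra.norm_eq_prod_embeddings F' (AlgebraicClosure L) x
  have h2 : ∏ i, s36n2Emb e₀ σ hσ i x = ∏ τ : F →ₐ[F'] AlgebraicClosure L, τ x :=
    Function.Bijective.prod_comp hbij (fun τ : F →ₐ[F'] AlgebraicClosure L => τ x)
  apply (algebraMap L (AlgebraicClosure L)).injective
  rw [map_prod]
  exact h1.trans h2.symm

/-- the trace is the sum of the conjugates -/
theorem s36n2_trace_eq_sum (e₀ : F' →+* L) {ι : Type*} [Fintype ι] (σ : ι → F →+* L)
    (hσ : ∀ i x, σ i (algebraMap F' F x) = e₀ x) (hinj : Function.Injective σ)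
    (hcard : Fintype.card ι = Module.finrank F' F) (x : F) :
    e₀ (Algebra.trace F' F x) = ∑ i, σ i x := by
  classical
  letI := ((algebraMap L (AlgebraicClosure L)).comp e₀).toAlgebra
  have hbij := s36n2Emb_bijective e₀ σ hσ hinj hcard
  have h1 : algebraMap F' (AlgebraicClosure L) (Algebra.trace F' F x) =
      ∑ τ : F →ₐ[F'] AlgebraicClosure L, τ x :=
    trace_eq_sum_embeddings (AlgebraicClosure L)
  have h2 : ∑ i, s36n2Emb e₀ σ hσ i x = ∑ τ : F →ₐ[F'] AlgebraicClosure L, τ x :=
    Function.Bijective.sum_comp hbij (fun τ : F →ₐ[F'] AlgebraicClosure L => τ x)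
  apply (algebraMap L (AlgebraicClosure L)).injective
  rw [map_sum]
  exact h1.trans h2.symm

/-- every conjugate of `x` is a root of the minimal polynomial (no hypothesis on the family) -/
theorem s36n2_minpoly_map_eval (e₀ : F' →+* L) (τ : F →+* L)
    (hτ : ∀ x, τ (algebraMap F' F x) = e₀ x) (x : F) :
    ((minpoly F' x).map e₀).eval (τ x) = 0 := by
  have h1 : (minpoly F' x).eval₂ (algebraMap F' F) x = 0 := minpoly.aeval F' x
  have h2 := congrArg τ h1
  rw [Polynomial.hom_eval₂, map_zero] at h2
  rw [Polynomial.eval_map]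
  have h3 : τ.comp (algebraMap F' F) = e₀ := RingHom.ext hτ
  rw [h3] at h2
  exact h2

/-- **(a)** if all the conjugates of `x` lie in the subring `G`, then so do the coefficients of
the minimal polynomial of `x`. -/
theorem s36n2_minpoly_coeff_mem (e₀ : F' →+* L) {ι : Type*} [Fintype ι] (σ : ι → F →+* L)
    (hσ : ∀ i x, σ i (algebraMap F' F x) = e₀ x) (hinj : Function.Injective σ)
    (hcard : Fintype.card ι = Module.finrank F' F) (G : Subring L) (x : F)
    (hx : ∀ i, σ i x ∈ G) (k : ℕ) :
    e₀ ((minpoly F' x).coeff k) ∈ G := by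
  classical
  letI := ((algebraMap L (AlgebraicClosure L)).comp e₀).toAlgebra
  have hbij := s36n2Emb_bijective e₀ σ hσ hinj hcard
  set j : L →+* AlgebraicClosure L := algebraMap L (AlgebraicClosure L) with hj
  set P : Polynomial (AlgebraicClosure L) := (minpoly F' x).map (algebraMap F' (AlgebraicClosure L))
    with hP
  have hmonic : P.Monic := (minpoly.monic (Algebra.IsIntegral.isIntegral x)).map _
  have hsplit : P.Splits := IsAlgClosed.splits P
  have hroots : ∀ r ∈ P.roots, r ∈ G.map j := by
    intro r hr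
    have h1 : r ∈ (minpoly F' x).rootSet (AlgebraicClosure L) := by
      rw [Polynomial.mem_rootSet']
      refine ⟨hmonic.ne_zero, ?_⟩
      have := (Polynomial.mem_roots hmonic.ne_zero).1 hr
      rw [Polynomial.IsRoot.def, hP, Polynomial.eval_map, ← Polynomial.aeval_def] at this
      exact this
    have halg : Algebra.IsAlgebraic F' F := Algebra.IsAlgebraic.of_finite F' F
    rw [← halg.range_eval_eq_rootSet_minpoly (AlgebraicClosure L) x] at h1
    obtain ⟨τ, hτ⟩ := h1
    obtain ⟨i, rfl⟩ := hbij.2 τ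
    rw [← hτ]
    exact ⟨σ i x, hx i, rfl⟩
  have hcoef : P.coeff k ∈ G.map j := by
    rw [hsplit.eq_prod_roots_of_monic hmonic]
    exact s36n2_prod_coeff_mem (G.map j) P.roots hroots k
  obtain ⟨g, hg, hgk⟩ := hcoef
  have h2 : P.coeff k = j (e₀ ((minpoly F' x).coeff k)) := by
    rw [hP, Polynomial.coeff_map]
    rfl
  rw [h2] at hgk
  have h3 : g = e₀ ((minpoly F' x).coeff k) := j.injective hgk
  rw [← h3]
  exact hg

/-- the norm of `x` lies in `G` -/
theorem s36n2_norm_mem (e₀ : F' →+* L) {ι : Type*} [Fintype ι] (σ : ι → F →+* L)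
    (hσ : ∀ i x, σ i (algebraMap F' F x) = e₀ x) (hinj : Function.Injective σ)
    (hcard : Fintype.card ι = Module.finrank F' F) (G : Subring L) (x : F)
    (hx : ∀ i, σ i x ∈ G) :
    e₀ (Algebra.norm F' x) ∈ G := by
  rw [s36n2_norm_eq_prod e₀ σ hσ hinj hcard x]
  exact Subring.prod_mem G fun i _ => hx i

/-- the trace of `x` lies in `G` -/
theorem s36n2_trace_mem (e₀ : F' →+* L) {ι : Type*} [Fintype ι] (σ : ι → F →+* L)
    (hσ : ∀ i x, σ i (algebraMap F' F x) = e₀ x) (hinj : Function.Injective σ)
    (hcard : Fintype.card ι = Module.finrank F' F) (G : Subring L) (x : F)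
    (hx : ∀ i, σ i x ∈ G) :
    e₀ (Algebra.trace F' F x) ∈ G := by
  rw [s36n2_trace_eq_sum e₀ σ hσ hinj hcard x]
  exact Subring.sum_mem G fun i _ => hx i

end Alg

section Hom

variable {F' F L : Type*} [Field F'] [Field F] [Field L]

/-- **(b)**, ring homomorphism form -/
theorem s36n2_hom_norm_eq_prod (φ : F' →+* F)
    (hfin : letI := φ.toAlgebra; Module.Finite F' F)
    (hsep : letI := φ.toAlgebra; Algebra.IsSeparable F' F)
    (e₀ : F' →+* L) {ι : Type*} [Fintype ι] (σ : ι → F →+* L)
    (hσ : ∀ i x, σ i (φ x) = e₀ x) (hinj : Function.Injective σ)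
    (hcard : letI := φ.toAlgebra; Fintype.card ι = Module.finrank F' F) (x : F) :
    letI := φ.toAlgebra
    e₀ (Algebra.norm F' x) = ∏ i, σ i x := by
  letI := φ.toAlgebra
  haveI : FiniteDimensional F' F := hfin
  haveI : Algebra.IsSeparable F' F := hsep
  exact s36n2_norm_eq_prod e₀ σ hσ hinj hcard x

/-- **(a)**, ring homomorphism form -/
theorem s36n2_hom_minpoly_coeff_mem (φ : F' →+* F)
    (hfin : letI := φ.toAlgebra; Module.Finite F' F)
    (hsep : letI := φ.toAlgebra; Algebra.IsSeparable F' F)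
    (e₀ : F' →+* L) {ι : Type*} [Fintype ι] (σ : ι → F →+* L)
    (hσ : ∀ i x, σ i (φ x) = e₀ x) (hinj : Function.Injective σ)
    (hcard : letI := φ.toAlgebra; Fintype.card ι = Module.finrank F' F) (G : Subring L) (x : F)
    (hx : ∀ i, σ i x ∈ G) (k : ℕ) :
    letI := φ.toAlgebra
    e₀ ((minpoly F' x).coeff k) ∈ G := by
  letI := φ.toAlgebra
  haveI : FiniteDimensional F' F := hfin
  haveI : Algebra.IsSeparable F' F := hsep
  exact s36n2_minpoly_coeff_mem e₀ σ hσ hinj hcard G x hx k

end Hom

end Fermat.Agent.S36
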