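import Fermat.Agent.S36.DescentFF
import Fermat.Agent.UNIP.MGConcrete

/-!
# S36 geometry, piece G-desc: Hilbert 90 by monic normalisation

`A` a valuation ring of `ℚ̄` over `q`, `I` its inertia group, `E₀ = beta0Field A = ℚ̄^I`.

* `s36d_orbit_finite` : the orbit of an element of `F_N(ℚ̄)` under the coefficientwise Galois
  action is finite.
* `s36d_hilbert` : (abstract core) `G` a group of automorphisms of `ℚ̄`, `Fb` a `G`-stable
  subfield of `ℚ̄((Q))`, `U ∈ Fb` nonzero with finite orbit and `σ U = a_σ h_σ^m U` (`σ ∈ G`).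
  Then there is `γ ∈ Fb`, `γ ≠ 0`, such that `(U / lc U) γ^m` is fixed by `G`.
* `s36d_descent` : `u ∈ F_N(ℚ̄)^×` with `σ u = a_σ h_σ^m u` for all `σ ∈ I` is
  `b · g^m · u₀` with `u₀ ∈ F_N(E₀)`, `b ∈ ℚ̄^×`, `g ∈ F_N(ℚ̄)^×`.
* `s36d_root_descent` : `y ∈ F_N(E₀)` which is (constant)·(`m`-th power) in `F_N(ℚ̄)` is
  (constant)·(`m`-th power) in `F_N(E₀)`.
-/

set_option autoImplicit false
set_option linter.unusedSectionVars false
set_option linter.style.haveILetI false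

noncomputable section

open ModularCurve Fermat.Agent.INJ Fermat.Agent.UNIP

namespace Fermat.Agent.S36

section LC

variable {K : Type*} [Field K]

theorem s36d_leadingCoeff_C (a : K) : (HahnSeries.C a : LaurentSeries K).leadingCoeff = a := by
  show (HahnSeries.single 0 a).leadingCoeff = a
  exact HahnSeries.leadingCoeff_of_single

theorem s36d_C_ne_zero {a : K} (ha : a ≠ 0) : (HahnSeries.C a : LaurentSeries K) ≠ 0 := by
  intro h
  have h2 := s36d_leadingCoeff_C a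
  rw [h, HahnSeries.leadingCoeff_zero] at h2
  exact ha h2.symm

theorem s36d_order_C (a : K) : (HahnSeries.C a : LaurentSeries K).order = 0 := by
  by_cases ha : a = 0
  · subst ha; simp
  · show (HahnSeries.single 0 a).order = 0
    exact HahnSeries.order_single ha

theorem s36d_coeffMap_C' {K' : Type*} [Field K'] (f : K →+* K') (a : K) :
    coeffMap f (HahnSeries.C a : LaurentSeries K) = HahnSeries.C (f a) := by
  rw [HahnSeries.C_apply, coeffMap_single, HahnSeries.C_apply]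

theorem s36d_algebraMap_eq_C (a : K) :
    algebraMap K (LaurentSeries K) a = HahnSeries.C a := by
  rw [algebraMap_laurentSeries_eq_single, HahnSeries.C_apply]

theorem s36d_leadingCoeff_pow (x : LaurentSeries K) (m : ℕ) :
    (x ^ m).leadingCoeff = x.leadingCoeff ^ m := by
  induction m with
  | zero => rw [pow_zero, pow_zero]; exact HahnSeries.leadingCoeff_one
  | succ m ih => rw [pow_succ, pow_succ, HahnSeries.leadingCoeff_mul, ih]

theorem s36d_order_pow {x : LaurentSeries K} (hx : x ≠ 0) (m : ℕ) :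
    (x ^ m).order = m • x.order := by
  induction m with
  | zero => rw [pow_zero, zero_smul]; exact HahnSeries.order_one
  | succ m ih =>
    rw [pow_succ, HahnSeries.order_mul (pow_ne_zero m hx) hx, ih, succ_nsmul]

/-- the normalisation `x / C (lc x)` -/
def s36dNorm (x : LaurentSeries K) : LaurentSeries K := x / HahnSeries.C x.leadingCoeff

theorem s36dNorm_ne_zero {x : LaurentSeries K} (hx : x ≠ 0) : s36dNorm x ≠ 0 :=
  div_ne_zero hx (s36d_C_ne_zero (HahnSeries.leadingCoeff_ne_zero.mpr hx))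

theorem s36dNorm_leadingCoeff {x : LaurentSeries K} (hx : x ≠ 0) :
    (s36dNorm x).leadingCoeff = 1 := s36d_leadingCoeff_div_C hx

theorem s36dNorm_mul_C {x : LaurentSeries K} (hx : x ≠ 0) :
    HahnSeries.C x.leadingCoeff * s36dNorm x = x := by
  rw [s36dNorm, mul_div_cancel₀ _ (s36d_C_ne_zero (HahnSeries.leadingCoeff_ne_zero.mpr hx))]

theorem s36dNorm_order {x : LaurentSeries K} (hx : x ≠ 0) : (s36dNorm x).order = x.order := by
  have h := s36dNorm_mul_C hx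
  have h2 : (HahnSeries.C x.leadingCoeff * s36dNorm x).order = x.order := by rw [h]
  rw [HahnSeries.order_mul (s36d_C_ne_zero (HahnSeries.leadingCoeff_ne_zero.mpr hx))
    (s36dNorm_ne_zero hx), s36d_order_C, zero_add] at h2
  exact h2

theorem s36dNorm_coeffMap {K' : Type*} [Field K'] (f : K →+* K') (x : LaurentSeries K) :
    coeffMap f (s36dNorm x) = s36dNorm (coeffMap f x) := by
  rw [s36dNorm, s36dNorm, map_div₀, s36d_coeffMap_C', s36d_leadingCoeff_coeffMap]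

/-- `x = C a * h ^ m * y` ⇒ the normalisations satisfy `x̃ = h̃ ^ m * ỹ` -/
theorem s36dNorm_eq {x y h : LaurentSeries K} {a : K} {m : ℕ} (ha : a ≠ 0) (hh : h ≠ 0)
    (hy : y ≠ 0) (h1 : x = HahnSeries.C a * h ^ m * y) :
    s36dNorm x = s36dNorm h ^ m * s36dNorm y := by
  have hlh : h.leadingCoeff ≠ 0 := HahnSeries.leadingCoeff_ne_zero.mpr hh
  have hly : y.leadingCoeff ≠ 0 := HahnSeries.leadingCoeff_ne_zero.mpr hy
  have hlc : x.leadingCoeff = a * h.leadingCoeff ^ m * y.leadingCoeff := by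
    rw [h1, HahnSeries.leadingCoeff_mul, HahnSeries.leadingCoeff_mul, s36d_leadingCoeff_C,
      s36d_leadingCoeff_pow]
  have hCa := s36d_C_ne_zero ha
  have hCh := s36d_C_ne_zero hlh
  have hCy := s36d_C_ne_zero hly
  rw [s36dNorm, s36dNorm, s36dNorm, hlc, map_mul, map_mul, map_pow, h1, div_pow]
  field_simp

/-- two series with leading coefficient `1` and the same `m`-th power are equal -/
theorem s36d_root_unique {x y : LaurentSeries K} (hx : x.leadingCoeff = 1)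
    (hy : y.leadingCoeff = 1) {m : ℕ} (hm : (m : K) ≠ 0) (h : x ^ m = y ^ m) : x = y := by
  have hx0 : x ≠ 0 := by
    rintro rfl
    rw [HahnSeries.leadingCoeff_zero] at hx
    exact zero_ne_one hx
  have hy0 : y ≠ 0 := by
    rintro rfl
    rw [HahnSeries.leadingCoeff_zero] at hy
    exact zero_ne_one hy
  have hm0 : m ≠ 0 := by
    rintro rfl
    exact hm Nat.cast_zero
  have hord : x.order = y.order := by
    have h2 : (x ^ m).order = (y ^ m).order := by rw [h]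
    rw [s36d_order_pow hx0, s36d_order_pow hy0] at h2
    have h3 : (m : ℤ) * x.order = (m : ℤ) * y.order := by
      simpa [nsmul_eq_mul] using h2
    exact mul_left_cancel₀ (Nat.cast_ne_zero.mpr hm0) h3
  have hz : S36Monic (x / y) := by
    refine ⟨?_, ?_⟩
    · have h2 : (x / y * y).order = x.order := by rw [div_mul_cancel₀ _ hy0]
      rw [HahnSeries.order_mul (div_ne_zero hx0 hy0) hy0, hord] at h2
      linarith
    · have h2 : (x / y * y).leadingCoeff = x.leadingCoeff := by rw [div_mul_cancel₀ _ hy0]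
      rw [HahnSeries.leadingCoeff_mul, hx, hy, mul_one] at h2
      exact h2
  have h1 : (x / y) ^ m = 1 := by
    rw [div_pow, h, div_self (pow_ne_zero _ hy0)]
  exact (div_eq_one_iff_eq hy0).mp (hz.eq_one_of_pow hm h1)

end LC

section Orbit

variable (N : ℕ) [NeZero N]

/-- the Galois orbit of an element of `F_N(ℚ̄)` is finite -/
theorem s36d_orbit_finite {x : LaurentSeries NfQb} (hx : x ∈ modularFunctionFieldBar N) :
    Set.Finite {z : LaurentSeries NfQb | ∃ σ : NfQb ≃ₐ[ℚ] NfQb,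
      z = coeffMap ((σ : NfQb ≃ₐ[ℚ] NfQb) : NfQb →+* NfQb) x} := by
  obtain ⟨K₀, hK₀, y₀, hy₀, rfl⟩ := nf_exists_descent hx
  haveI := hK₀
  haveI : Finite (K₀ →ₐ[ℚ] NfQb) := Finite.of_fintype _
  refine Set.Finite.subset
    (Set.finite_range fun τ : K₀ →ₐ[ℚ] NfQb => coeffMap (τ : K₀ →+* NfQb) y₀) ?_
  rintro z ⟨σ, rfl⟩
  refine ⟨(σ : NfQb →ₐ[ℚ] NfQb).comp K₀.val, ?_⟩
  show coeffMap _ y₀ = coeffMap _ (coeffMap _ y₀)
  rw [coeffMap_coeffMap]
  exact coeffMap_congr (RingHom.ext fun c => rfl) y₀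

end Orbit

section Core

variable (G : Subgroup (NfQb ≃ₐ[ℚ] NfQb))
  (Fb : IntermediateField NfQb (LaurentSeries NfQb))

/-- the set of monic solutions `g` of `g ^ m * ũ = σ ũ`, `σ ∈ G` -/
def s36dGamma (m : ℕ) (ũ : LaurentSeries NfQb) : Set (LaurentSeries NfQb) :=
  {g | g ∈ Fb ∧ S36Monic g ∧
    ∃ σ ∈ G, g ^ m * ũ = coeffMap ((σ : NfQb ≃ₐ[ℚ] NfQb) : NfQb →+* NfQb) ũ}

variable {G Fb}

theorem s36dGamma_finite {m : ℕ} (hm : m ≠ 0) {ũ : LaurentSeries NfQb} (hũ : ũ ≠ 0)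
    (horb : Set.Finite {z : LaurentSeries NfQb | ∃ σ : NfQb ≃ₐ[ℚ] NfQb,
      z = coeffMap ((σ : NfQb ≃ₐ[ℚ] NfQb) : NfQb →+* NfQb) ũ}) :
    (s36dGamma G Fb m ũ).Finite := by
  have hmK : ((m : ℕ) : NfQb) ≠ 0 := Nat.cast_ne_zero.mpr hm
  refine Set.Finite.of_finite_image (f := fun g => g ^ m * ũ) (horb.subset ?_) ?_
  · rintro _ ⟨g, ⟨-, -, σ, -, hσ⟩, rfl⟩
    exact ⟨σ, hσ⟩
  · intro g hg g' hg' h
    have h2 : g ^ m = g' ^ m := mul_right_cancel₀ hũ h
    exact s36d_monic_root_unique hg.2.1 hg'.2.1 hmK h2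

theorem s36dGamma_one_mem (m : ℕ) (ũ : LaurentSeries NfQb) : (1 : LaurentSeries NfQb) ∈
    s36dGamma G Fb m ũ := by
  refine ⟨Fb.one_mem, s36Monic_one, 1, G.one_mem, ?_⟩
  rw [one_pow, one_mul]
  have : (((1 : NfQb ≃ₐ[ℚ] NfQb) : NfQb ≃ₐ[ℚ] NfQb) : NfQb →+* NfQb) = RingHom.id NfQb :=
    RingHom.ext fun c => rfl
  rw [coeffMap_congr this, coeffMap_id]

/-- the twisted translation `x ↦ g_σ · σ x` maps `Γ` to `Γ` -/
theorem s36dGamma_translate (hstab : ∀ σ ∈ G, ∀ x ∈ Fb,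
      coeffMap ((σ : NfQb ≃ₐ[ℚ] NfQb) : NfQb →+* NfQb) x ∈ Fb)
    {m : ℕ} {ũ : LaurentSeries NfQb} {σ : NfQb ≃ₐ[ℚ] NfQb} (hσ : σ ∈ G)
    {g : LaurentSeries NfQb} (hgF : g ∈ Fb) (hgm : S36Monic g)
    (hg : g ^ m * ũ = coeffMap ((σ : NfQb ≃ₐ[ℚ] NfQb) : NfQb →+* NfQb) ũ)
    {x : LaurentSeries NfQb} (hx : x ∈ s36dGamma G Fb m ũ) :
    g * coeffMap ((σ : NfQb ≃ₐ[ℚ] NfQb) : NfQb →+* NfQb) x ∈ s36dGamma G Fb m ũ := by
  obtain ⟨hxF, hxm, τ, hτ, hxτ⟩ := hx
  refine ⟨Fb.mul_mem hgF (hstab σ hσ x hxF), hgm.mul (hxm.coeffMap _), σ * τ,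
    G.mul_mem hσ hτ, ?_⟩
  have e1 : coeffMap (((σ * τ : NfQb ≃ₐ[ℚ] NfQb) : NfQb ≃ₐ[ℚ] NfQb) : NfQb →+* NfQb) ũ
      = coeffMap ((σ : NfQb ≃ₐ[ℚ] NfQb) : NfQb →+* NfQb)
          (coeffMap ((τ : NfQb ≃ₐ[ℚ] NfQb) : NfQb →+* NfQb) ũ) := by
    rw [coeffMap_coeffMap]
    exact coeffMap_congr (RingHom.ext fun c => rfl) ũ
  rw [e1, ← hxτ, map_mul, map_pow, ← hg]
  ring

/-- **Hilbert 90 by monic normalisation** (abstract core) -/
theorem s36d_hilbert (hstab : ∀ σ ∈ G, ∀ x ∈ Fb,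
      coeffMap ((σ : NfQb ≃ₐ[ℚ] NfQb) : NfQb →+* NfQb) x ∈ Fb)
    {m : ℕ} (hm : m ≠ 0) {ũ : LaurentSeries NfQb} (hũ : ũ ≠ 0)
    (horb : Set.Finite {z : LaurentSeries NfQb | ∃ σ : NfQb ≃ₐ[ℚ] NfQb,
      z = coeffMap ((σ : NfQb ≃ₐ[ℚ] NfQb) : NfQb →+* NfQb) ũ})
    (hI : ∀ σ ∈ G, ∃ g : LaurentSeries NfQb, g ∈ Fb ∧ S36Monic g ∧
      g ^ m * ũ = coeffMap ((σ : NfQb ≃ₐ[ℚ] NfQb) : NfQb →+* NfQb) ũ) :
    ∃ γ : LaurentSeries NfQb, γ ∈ Fb ∧ γ ≠ 0 ∧
      ∀ σ ∈ G, coeffMap ((σ : NfQb ≃ₐ[ℚ] NfQb) : NfQb →+* NfQb) (ũ * γ ^ m) = ũ * γ ^ m := by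
  classical
  have hfin := s36dGamma_finite (G := G) (Fb := Fb) hm hũ horb
  set S : Finset (LaurentSeries NfQb) := hfin.toFinset with hS
  have hmemS : ∀ x, x ∈ S ↔ x ∈ s36dGamma G Fb m ũ := fun x => hfin.mem_toFinset
  set γ : LaurentSeries NfQb := ∑ x ∈ S, x with hγ
  have hγF : γ ∈ Fb := Fb.sum_mem fun x hx => ((hmemS x).mp hx).1
  have hcoeff : γ.coeff 0 = (S.card : NfQb) := by
    have h1 : γ.coeff 0 = ∑ x ∈ S, x.coeff 0 := by
      rw [hγ]
      exact map_sum (HahnSeries.coeff.addMonoidHom (0 : ℤ) :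
        LaurentSeries NfQb →+ NfQb) (fun x => x) S
    rw [h1, Finset.sum_congr rfl fun x hx => ((hmemS x).mp hx).2.1.coeff_zero]
    simp
  have hSne : S.card ≠ 0 := by
    rw [Finset.card_ne_zero]
    exact ⟨1, (hmemS 1).mpr (s36dGamma_one_mem m ũ)⟩
  have hγ0 : γ ≠ 0 := by
    intro h
    rw [h, HahnSeries.coeff_zero] at hcoeff
    exact hSne (Nat.cast_eq_zero.mp hcoeff.symm)
  refine ⟨γ, hγF, hγ0, ?_⟩
  intro σ hσ
  obtain ⟨g, hgF, hgm, hg⟩ := hI σ hσ
  set φ : LaurentSeries NfQb →+* LaurentSeries NfQb :=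
    coeffMap ((σ : NfQb ≃ₐ[ℚ] NfQb) : NfQb →+* NfQb) with hφ
  have hg0 : g ≠ 0 := hgm.ne_zero
  -- the translation is a bijection of `S`
  have hT : ∀ x ∈ S, g * φ x ∈ S := fun x hx =>
    (hmemS _).mpr (s36dGamma_translate hstab hσ hgF hgm hg ((hmemS x).mp hx))
  have hinj : Set.InjOn (fun x => g * φ x) (S : Set (LaurentSeries NfQb)) := by
    intro x _ y _ h
    have h2 : φ x = φ y := mul_left_cancel₀ hg0 h
    exact nf_coeffMap_injective _ h2
  have himg : S.image (fun x => g * φ x) = S := by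
    apply Finset.eq_of_subset_of_card_le
    · intro y hy
      obtain ⟨x, hx, rfl⟩ := Finset.mem_image.mp hy
      exact hT x hx
    · rw [Finset.card_image_of_injOn hinj]
  have hsum : g * φ γ = γ := by
    have h1 : ∑ y ∈ S.image (fun x => g * φ x), y = ∑ x ∈ S, g * φ x :=
      Finset.sum_image fun x hx y hy h => hinj hx hy h
    rw [himg] at h1
    rw [hγ, map_sum, Finset.mul_sum]
    exact h1.symm
  have hφγ : φ γ = γ / g := by
    rw [eq_div_iff hg0, mul_comm]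
    exact hsum
  rw [map_mul, map_pow, hφγ, ← hg, div_pow]
  field_simp

end Core

section Main

variable {q : ℕ} (hq : q.Prime) {A : ValuationSubring NfQb} (hA : A.LiesOverPrime q)
  (N : ℕ) [NeZero N]

theorem s36d_C_mem (a : NfQb) :
    (HahnSeries.C a : LaurentSeries NfQb) ∈ modularFunctionFieldBar N := by
  rw [← s36d_algebraMap_eq_C]
  exact (modularFunctionFieldBar N).algebraMap_mem a

theorem s36dNorm_mem {x : LaurentSeries NfQb} (hx : x ∈ modularFunctionFieldBar N) :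
    s36dNorm x ∈ modularFunctionFieldBar N :=
  (modularFunctionFieldBar N).div_mem hx (s36d_C_mem N _)

include hq hA in
/-- **G-desc, main lemma**: `u ∈ F_N(ℚ̄)^×` with `σ u = a_σ h_σ^m u` for all `σ ∈ I` is
`b · g^m · u₀` with `u₀ ∈ F_N(E₀)`. -/
theorem s36d_descent {m : ℕ} (hm : m ≠ 0) (u : modularFunctionFieldBar N) (hu : u ≠ 0)
    (hI : ∀ σ ∈ A.inertiaSubgroupIn ℚ, ∃ (a : NfQb) (h : modularFunctionFieldBar N),
      arithmeticGalois (modularFunctionFieldFull N) σ • u =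
        algebraMap NfQb (modularFunctionFieldBar N) a * h ^ m * u) :
    ∃ (u₀ : modularFunctionFieldFullC (beta0Field A) N) (b : NfQb)
      (g : modularFunctionFieldBar N), u₀ ≠ 0 ∧ b ≠ 0 ∧ g ≠ 0 ∧
        u = algebraMap NfQb (modularFunctionFieldBar N) b * g ^ m *
          nfEmb (beta0Field A) N u₀ := by
  classical
  set U : LaurentSeries NfQb := (u : LaurentSeries NfQb) with hU
  have hU0 : U ≠ 0 := fun h => hu (Subtype.ext h)
  have hUF : U ∈ modularFunctionFieldBar N := u.2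
  set ũ : LaurentSeries NfQb := s36dNorm U with hũ
  have hũ0 : ũ ≠ 0 := s36dNorm_ne_zero hU0
  have hũF : ũ ∈ modularFunctionFieldBar N := s36dNorm_mem N hUF
  have hstab : ∀ σ ∈ A.inertiaSubgroupIn ℚ, ∀ x ∈ modularFunctionFieldBar N,
      coeffMap ((σ : NfQb ≃ₐ[ℚ] NfQb) : NfQb →+* NfQb) x ∈ modularFunctionFieldBar N :=
    fun σ _ x hx => coeffMap_mem_laurentBaseChange σ hx
  have hI' : ∀ σ ∈ A.inertiaSubgroupIn ℚ, ∃ g : LaurentSeries NfQb,
      g ∈ modularFunctionFieldBar N ∧ S36Monic g ∧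
        g ^ m * ũ = coeffMap ((σ : NfQb ≃ₐ[ℚ] NfQb) : NfQb →+* NfQb) ũ := by
    intro σ hσ
    obtain ⟨a, h, hah⟩ := hI σ hσ
    have e1 : coeffMap ((σ : NfQb ≃ₐ[ℚ] NfQb) : NfQb →+* NfQb) U
        = HahnSeries.C a * (h : LaurentSeries NfQb) ^ m * U := by
      have := congrArg (fun z : modularFunctionFieldBar N => (z : LaurentSeries NfQb)) hah
      simp only [coe_arithmeticGalois_smul] at this
      rw [this, ← s36d_algebraMap_eq_C]
      rfl
    have hσU0 : coeffMap ((σ : NfQb ≃ₐ[ℚ] NfQb) : NfQb →+* NfQb) U ≠ 0 :=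
      fun h0 => hU0 ((s36d_coeffMap_eq_zero_iff _ U).mp h0)
    have ha : a ≠ 0 := by
      rintro rfl
      apply hσU0
      rw [e1, map_zero, zero_mul, zero_mul]
    have hh : (h : LaurentSeries NfQb) ≠ 0 := by
      intro h0
      apply hσU0
      rw [e1, h0, zero_pow hm, mul_zero, zero_mul]
    have e2 := s36dNorm_eq ha hh hU0 e1
    rw [← s36dNorm_coeffMap] at e2
    refine ⟨s36dNorm (h : LaurentSeries NfQb), s36dNorm_mem N h.2, ⟨?_, s36dNorm_leadingCoeff hh⟩,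
      e2.symm⟩
    -- order `0`
    have e3 : (coeffMap ((σ : NfQb ≃ₐ[ℚ] NfQb) : NfQb →+* NfQb) U).order = U.order :=
      s36d_order_coeffMap _ U
    rw [e1, HahnSeries.order_mul (mul_ne_zero (s36d_C_ne_zero ha) (pow_ne_zero m hh)) hU0,
      HahnSeries.order_mul (s36d_C_ne_zero ha) (pow_ne_zero m hh), s36d_order_C,
      s36d_order_pow hh, zero_add] at e3
    rw [s36dNorm_order hh]
    have e4 : (m : ℤ) * (h : LaurentSeries NfQb).order = 0 := by
      have : m • (h : LaurentSeries NfQb).order = 0 := by linarith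
      simpa [nsmul_eq_mul] using this
    rcases mul_eq_zero.mp e4 with h5 | h5
    · exact absurd (Nat.cast_eq_zero.mp h5) hm
    · exact h5
  obtain ⟨γ, hγF, hγ0, hfix⟩ :=
    s36d_hilbert (G := A.inertiaSubgroupIn ℚ) (Fb := modularFunctionFieldBar N) hstab hm hũ0
      (s36d_orbit_finite N hũF) hI'
  obtain ⟨u₀, hu₀, hu₀x⟩ := s36d_fixed hq hA N (ũ * γ ^ m)
    ((modularFunctionFieldBar N).mul_mem hũF ((modularFunctionFieldBar N).pow_mem hγF m)) hfix
  have hℓ : U.leadingCoeff ≠ 0 := HahnSeries.leadingCoeff_ne_zero.mpr hU0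
  refine ⟨⟨u₀, hu₀⟩, U.leadingCoeff, ⟨γ⁻¹, (modularFunctionFieldBar N).inv_mem hγF⟩, ?_, hℓ, ?_, ?_⟩
  · intro h0
    have h1 : u₀ = 0 := congrArg Subtype.val h0
    rw [h1, map_zero] at hu₀x
    exact mul_ne_zero hũ0 (pow_ne_zero m hγ0) hu₀x.symm
  · intro h0
    have h1 : γ⁻¹ = 0 := congrArg Subtype.val h0
    exact inv_ne_zero hγ0 h1
  · apply Subtype.ext
    show U = algebraMap NfQb (LaurentSeries NfQb) U.leadingCoeff * γ⁻¹ ^ m *
      coeffMap (algebraMap (beta0Field A) NfQb) u₀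
    rw [hu₀x, s36d_algebraMap_eq_C, hũ, inv_pow]
    have hγm : γ ^ m ≠ 0 := pow_ne_zero m hγ0
    have := s36dNorm_mul_C hU0
    field_simp
    exact this.symm

include hq hA in
/-- **descent of roots**: `y ∈ F_N(E₀)` which is (constant)·(`m`-th power) in `F_N(ℚ̄)` is
(constant)·(`m`-th power) in `F_N(E₀)`. -/
theorem s36d_root_descent {m : ℕ} (hm : m ≠ 0) (y : modularFunctionFieldFullC (beta0Field A) N)
    (hy : y ≠ 0)
    (h : ∃ (a : NfQb) (f : modularFunctionFieldBar N),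
      nfEmb (beta0Field A) N y = algebraMap NfQb (modularFunctionFieldBar N) a * f ^ m) :
    ∃ (a : beta0Field A) (f : modularFunctionFieldFullC (beta0Field A) N),
      y = algebraMap (beta0Field A) (modularFunctionFieldFullC (beta0Field A) N) a * f ^ m := by
  classical
  obtain ⟨a, f, haf⟩ := h
  set ι : beta0Field A →+* NfQb := algebraMap (beta0Field A) NfQb with hι
  set Y : LaurentSeries (beta0Field A) := (y : LaurentSeries (beta0Field A)) with hY
  have hY0 : Y ≠ 0 := fun h => hy (Subtype.ext h)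
  have e1 : coeffMap ι Y = HahnSeries.C a * (f : LaurentSeries NfQb) ^ m * 1 := by
    have := congrArg (fun z : modularFunctionFieldBar N => (z : LaurentSeries NfQb)) haf
    rw [mul_one, ← s36d_algebraMap_eq_C]
    exact this
  have hιY0 : coeffMap ι Y ≠ 0 := fun h0 => hY0 ((s36d_coeffMap_eq_zero_iff _ Y).mp h0)
  have ha : a ≠ 0 := by
    rintro rfl
    apply hιY0
    rw [e1, map_zero, zero_mul, zero_mul]
  have hf : (f : LaurentSeries NfQb) ≠ 0 := by
    intro h0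
    apply hιY0
    rw [e1, h0, zero_pow hm, mul_zero, zero_mul]
  have e2 := s36dNorm_eq ha hf one_ne_zero e1
  have h1 : s36dNorm (1 : LaurentSeries NfQb) = 1 := by
    rw [s36dNorm, HahnSeries.leadingCoeff_one, map_one, div_one]
  rw [h1, mul_one, ← s36dNorm_coeffMap] at e2
  -- `f̂ := f / lc f` is fixed by the inertia group
  set fh : LaurentSeries NfQb := s36dNorm (f : LaurentSeries NfQb) with hfh
  have hfhF : fh ∈ modularFunctionFieldBar N := s36dNorm_mem N f.2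
  have hmK : ((m : ℕ) : NfQb) ≠ 0 := Nat.cast_ne_zero.mpr hm
  have hfix : ∀ σ ∈ A.inertiaSubgroupIn ℚ,
      coeffMap ((σ : NfQb ≃ₐ[ℚ] NfQb) : NfQb →+* NfQb) fh = fh := by
    intro σ hσ
    apply s36d_root_unique _ (s36dNorm_leadingCoeff hf) hmK
    · rw [← map_pow, ← e2, coeffMap_coeffMap]
      refine coeffMap_congr (RingHom.ext fun c => ?_) _
      exact mga_fix_beta0 hσ _ c.2
    · rw [s36d_leadingCoeff_coeffMap, s36dNorm_leadingCoeff hf, map_one]
  obtain ⟨f₀, hf₀, hf₀x⟩ := s36d_fixed hq hA N fh hfhF hfix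
  refine ⟨Y.leadingCoeff, ⟨f₀, hf₀⟩, ?_⟩
  apply Subtype.ext
  show Y = algebraMap (beta0Field A) (LaurentSeries (beta0Field A)) Y.leadingCoeff * f₀ ^ m
  apply nf_coeffMap_injective ι
  rw [map_mul, map_pow, hf₀x, ← e2, s36d_algebraMap_eq_C, s36d_coeffMap_C',
    s36dNorm_coeffMap, ← s36d_leadingCoeff_coeffMap]
  exact (s36dNorm_mul_C hιY0).symm

end Main

end Fermat.Agent.S36
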