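import Fermat.Agent.S36.Plan
import Fermat.Agent.STB.Descent
import Fermat.Agent.STB.PushHeckeDiv

/-!
# S36 / G-aux: descent from an auxiliary level (helper52)

`q` a prime with `q ∣ M₁`, `d ≥ 1` prime to `q`.  Levels `N = M₁ q` and `N' = M₁ d q`;
`ι = stbdUp M₁ q d : F_{M₁ q} → F_{M₁ d q}` is the inclusion (of subfields of `ℚ̄((Q))`),
`ι' = heckeAlphaBar ℚ̄ M₁ d : F_{M₁} → F_{M₁ d}`.

* `s36aux_relfinrank_ne_zero` : `[F_{N d} : F_N]` is finite (Igusa's degree theorem);
* `s36aux_up_isIntegral`, `s36aux_dvd_ord` : `m ∣ div u` ascends along `ι`;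
* `s36aux_up_smul` : `σ • ι u = ι (σ • u)` for the arithmetic Galois action;
* `s36aux_norm_beta`, `s36aux_norm_alpha` : THE NORMS ASCEND,
    `N_{β'} (ι u) = ι' (N_β u)`, `N_{α'} (ι u) = ι' (N_α u)`
  (`α, β : F_{M₁} → F_{M₁ q}`, `α', β' : F_{M₁ d} → F_{M₁ d q}`; no coprimality of degrees is
  needed: the `q` conjugates of `ι u` over `β' F_{M₁ d}` are `u (ζ Q)`, `ζ ^ q = 1`, and those over
  `α' F_{M₁ d}` are `(w u) (ζ Q)`, `w` the Fricke involution of level `M₁ d q`; they are separated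
  by `j` resp. by `j (Q^{M₁ q})`, because `w j (Q^{M₁ q}) = j (Q^d)` and `gcd (d, q) = 1`);
* `s36aux_norm_up` : `N_ι (ι x) = x ^ D`, `D = [F_{M₁ d q} : F_{M₁ q}]`;
* `s36aux_descent` : **G-aux**,
    `StmtCarayolKummerAt (M₁ * d) q p → StmtCarayolKummerAt M₁ q p`
  (the constant `c` becomes `c * D`).
-/

set_option autoImplicit false
set_option linter.style.haveILetI false
set_option linter.unusedSectionVars false

noncomputable section

namespace Fermat.Agent.S36

open AlgebraicCurve ModularCurve IntermediateField Fermat.Agent.ES Fermat.Agent.ES.G2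
  Fermat.Agent.S24 Fermat.Agent.ES.M Fermat.Agent.STB Fermat.Agent.UNIP Module

/-! ## Finiteness of `F_{N d} / F_N` -/

section Degree

/-- Igusa + tower law: `[L(j(q^e) : e ∣ N d) : L(j(q^e) : e ∣ N)]` is finite. -/
theorem s36aux_relfinrank_fullC_ne_zero (L : Type*) [Field L] [CharZero L] (N d : ℕ) [NeZero N]
    [NeZero d] :
    (modularFunctionFieldFullC L N).relfinrank (modularFunctionFieldFullC L (N * d)) ≠ 0 := by
  have hN : ((N : ℕ) : L) ≠ 0 := Nat.cast_ne_zero.mpr (NeZero.ne N)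
  have hNd : ((N * d : ℕ) : L) ≠ 0 := Nat.cast_ne_zero.mpr (NeZero.ne (N * d))
  have h2 := Fermat.Agent.S28.relfinrank_full_eq_dedekindPsi L (N * d) hNd
  have hle1 : adjoin L {jqModC L} ≤ modularFunctionFieldFullC L N :=
    Fermat.Agent.S28.UB.K0_le_full L N
  have hle2 : modularFunctionFieldFullC L N ≤ modularFunctionFieldFullC L (N * d) :=
    Fermat.Agent.S28.UB.full_mono L (Dvd.intro _ rfl)
  have h3 := relfinrank_mul_relfinrank hle1 hle2
  have hpos : dedekindPsi (N * d) ≠ 0 := by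
    intro h0
    rw [h0] at h2
    have hfin := Fermat.Agent.S28.relrank_full_lt_aleph0_of_ne_zero L (N * d) hNd
    have hne := Fermat.Agent.S28.UB.relrank_ne_zero (adjoin L {jqModC L})
      (modularFunctionFieldFullC L (N * d))
    rw [relfinrank_eq_toNat_relrank, Cardinal.toNat_eq_zero] at h2
    rcases h2 with h2 | h2
    · exact hne h2
    · exact absurd hfin (not_lt.mpr h2)
  intro h0
  rw [h0, Nat.mul_zero, h2] at h3
  exact hpos h3.symm

/-- `[F_{N d} : F_N]` is finite. -/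
theorem s36aux_relfinrank_ne_zero (N d : ℕ) [NeZero N] [NeZero d] :
    (modularFunctionFieldBar N).relfinrank (modularFunctionFieldBar (N * d)) ≠ 0 := by
  show (laurentBaseChange (AlgebraicClosure ℚ) (modularFunctionFieldFull N)).relfinrank
    (laurentBaseChange (AlgebraicClosure ℚ) (modularFunctionFieldFull (N * d))) ≠ 0
  rw [hdeg_laurentBaseChange_full, hdeg_laurentBaseChange_full]
  exact s36aux_relfinrank_fullC_ne_zero (AlgebraicClosure ℚ) N d

end Degree

/-! ## Generic: the norm along a ring homomorphism of fields -/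

section Generic

variable {K L : Type*} [Field K] [Field L]

theorem s36aux_norm_hom_apply (φ : K →+* L) (x : K) : stbdNorm φ (φ x) = x ^ stbdDeg φ := by
  letI := φ.toAlgebra
  exact Algebra.norm_algebraMap (R := K) (S := L) x

theorem s36aux_norm_hom_pow (φ : K →+* L) (y : L) (n : ℕ) :
    stbdNorm φ (y ^ n) = stbdNorm φ y ^ n := by
  letI := φ.toAlgebra
  exact map_pow (Algebra.norm K) y n

theorem s36aux_deg_ne_zero_of_finite (φ : K →+* L)
    (h : letI := φ.toAlgebra; FiniteDimensional K L) : stbdDeg φ ≠ 0 := by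
  letI := φ.toAlgebra
  haveI : FiniteDimensional K L := h
  exact (Module.finrank_pos (R := K) (M := L)).ne'

end Generic

/-! ## The inclusion `ι : F_{M₁ q} → F_{M₁ d q}` -/

section Up

variable (M₁ q d : ℕ) [NeZero M₁] [NeZero q] [NeZero d]

theorem s36aux_up_relfinrank_ne_zero :
    (modularFunctionFieldBar (M₁ * q)).relfinrank (modularFunctionFieldBar (M₁ * d * q)) ≠ 0 := by
  rw [← stb_d_level_eq]
  exact s36aux_relfinrank_ne_zero (M₁ * q) d

theorem s36aux_up_finite :
    letI := (stbdUp M₁ q d).toRingHom.toAlgebra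
    FiniteDimensional (modularFunctionFieldBar (M₁ * q)) (modularFunctionFieldBar (M₁ * d * q)) :=
  hdeg_finite_inclusion (stb_d_le M₁ q d) (s36aux_up_relfinrank_ne_zero M₁ q d)

theorem s36aux_up_isIntegral : (stbdUp M₁ q d).toRingHom.IsIntegral :=
  unip_isIntegral_of_finite _ (s36aux_up_finite M₁ q d)

/-- `m ∣ div u` ascends. -/
theorem s36aux_dvd_ord (m : ℕ) (u : modularFunctionFieldBar (M₁ * q))
    (hdvd : ∀ P : Place Qb (modularFunctionFieldBar (M₁ * q)), (m : ℤ) ∣ P.ord u)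
    (P : Place Qb (modularFunctionFieldBar (M₁ * d * q))) :
    (m : ℤ) ∣ P.ord (stbdUp M₁ q d u) := by
  rw [Place.ord_restrictAlong (stbdUp M₁ q d) (s36aux_up_isIntegral M₁ q d) P u]
  exact Dvd.dvd.mul_left (hdvd _) _

/-- the arithmetic Galois action commutes with `ι` -/
theorem s36aux_up_smul (σ : Qb ≃ₐ[ℚ] Qb) (u : modularFunctionFieldBar (M₁ * q)) :
    arithmeticGalois (modularFunctionFieldFull (M₁ * d * q)) σ • stbdUp M₁ q d u =
      stbdUp M₁ q d (arithmeticGalois (modularFunctionFieldFull (M₁ * q)) σ • u) := by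
  apply Subtype.ext
  rw [coe_stbdUp]
  show coeffMap (σ : Qb →+* Qb) ((stbdUp M₁ q d u : modularFunctionFieldBar (M₁ * d * q)) :
      LaurentSeries Qb) = coeffMap (σ : Qb →+* Qb) (u : LaurentSeries Qb)
  rw [coe_stbdUp]

/-- the degree of `ι` -/
def s36auxDeg : ℕ := stbdDeg (stbdUp M₁ q d).toRingHom

theorem s36auxDeg_ne_zero : s36auxDeg M₁ q d ≠ 0 :=
  s36aux_deg_ne_zero_of_finite _ (s36aux_up_finite M₁ q d)

/-- `N_ι (ι x) = x ^ D` -/
theorem s36aux_norm_up (x : modularFunctionFieldBar (M₁ * q)) :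
    stbdNorm (stbdUp M₁ q d).toRingHom (stbdUp M₁ q d x) = x ^ s36auxDeg M₁ q d :=
  s36aux_norm_hom_apply (stbdUp M₁ q d).toRingHom x

theorem s36aux_norm_pow (y : modularFunctionFieldBar (M₁ * d * q)) (n : ℕ) :
    stbdNorm (stbdUp M₁ q d).toRingHom (y ^ n) = stbdNorm (stbdUp M₁ q d).toRingHom y ^ n :=
  s36aux_norm_hom_pow (stbdUp M₁ q d).toRingHom y n

/-- **The conclusion descends**: `(ι u) ^ c = a h ^ m` ⇒ `u ^ (c D) = a ^ D (N_ι h) ^ m`. -/
theorem s36aux_pow_descent (c m : ℕ) (u : modularFunctionFieldBar (M₁ * q)) (a : Qb)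
    (h : modularFunctionFieldBar (M₁ * d * q))
    (huh : stbdUp M₁ q d u ^ c =
      algebraMap Qb (modularFunctionFieldBar (M₁ * d * q)) a * h ^ m) :
    u ^ (c * s36auxDeg M₁ q d) =
      algebraMap Qb (modularFunctionFieldBar (M₁ * q)) (a ^ s36auxDeg M₁ q d) *
        stbdNorm (stbdUp M₁ q d).toRingHom h ^ m := by
  have h1 := congrArg (stbdNorm (stbdUp M₁ q d).toRingHom) huh
  rw [← map_pow, s36aux_norm_up, stbdNorm_mul, s36aux_norm_pow,
    ← AlgHom.commutes (stbdUp M₁ q d) a, s36aux_norm_up] at h1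
  rw [pow_mul, h1, map_pow]

end Up

/-! ## The norms ascend -/

section Norms

variable (N q d : ℕ) [NeZero N] [NeZero q] [NeZero d]

/-- **the norm ascends**, `β`-version, `q ∣ N` -/
theorem s36aux_norm_beta (hq : q.Prime) (hqN : q ∣ N) (u : modularFunctionFieldBar (N * q)) :
    stbNorm (heckeBetaBar Qb (N * d) q).toRingHom (stbdUp N q d u) =
      heckeAlphaBar Qb N d (stbNorm (heckeBetaBar Qb N q).toRingHom u) := by
  haveI := stb_charZero_bar N
  obtain ⟨ζ, hζ⟩ := frob_exists_primitiveRoot q hq.ne_zero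
  refine stb_norm_square_charZero (Ω := HnOmegaBar) (heckeBetaBar Qb N q).toRingHom
    (heckeBetaBar Qb (N * d) q).toRingHom (heckeAlphaBar Qb N d).toRingHom
    (stbdUp N q d).toRingHom
    (fun x => (stb_d_sq_beta N q d x).symm) (stbFinite_beta N q) (stbFinite_beta (N * d) q)
    (hnBase (N * d) q) (fun b : Fin q => stbdRotB (N * d) q (ζ ^ (b : ℕ)))
    (fun b x => stbdRotB_beta (N * d) q _ (stbd_pow_pow_eq_one q hζ.pow_eq_one _) x) ?_ ?_ ?_ u
  · rw [Fintype.card_fin, stbd_deg_beta (N * d) q hq (hqN.mul_right d)]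
  · rw [Fintype.card_fin, stbd_deg_beta N q hq hqN]
  · intro b b' h
    apply stbd_rot_injective_at_one q ζ hζ
    have h1 := congrArg (fun f : modularFunctionFieldBar (N * q) →+* HnOmegaBar =>
      f (hnJ (N * q))) h
    have h2 : ∀ c : Qbˣ, (stbdRotB (N * d) q c).comp (stbdUp N q d).toRingHom (hnJ (N * q))
        = algebraMap HnOmega HnOmegaBar (kronRot c (coeffEmb Qb jq)) := by
      intro c
      show stbdRotB (N * d) q c (stbdUp N q d (hnJ (N * q))) = _
      rw [stbdRotB_apply, coe_stbdUp, hnJ_coe]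
    simp only [h2] at h1
    exact hn_algebraMap_injective h1

/-- `ι (j (Q^{N q})) = j (Q^{N q})` goes to `j (Q^d)` under the Fricke involution of level
`N d q` -/
theorem s36aux_fricke_top :
    ((stbdW (N * d * q) (stbdUp N q d (jdF (N * q) (N * q) dvd_rfl)) :
        modularFunctionFieldBar (N * d * q)) : LaurentSeries Qb) =
      qExpand Qb d (coeffEmb Qb jq) := by
  have hdvd : N * q ∣ N * d * q := ⟨d, by ring⟩
  have h1 : stbdUp N q d (jdF (N * q) (N * q) dvd_rfl) = jdF (N * d * q) (N * q) hdvd := by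
    apply Subtype.ext
    rw [coe_stbdUp]
    rfl
  have hdiv : N * d * q / (N * q) = d := by
    have hpos : 0 < N * q := Nat.pos_of_ne_zero (NeZero.ne (N * q))
    rw [show N * d * q = N * q * d by ring]
    exact Nat.mul_div_cancel_left d hpos
  rw [h1, stbdW_apply, frickeAut_jdF]
  haveI : NeZero (N * d * q / (N * q)) := ⟨by rw [hdiv]; exact NeZero.ne d⟩
  rw [jdF_coe]
  show coeffMap (algebraMap ℚ Qb) (qExpand ℚ (N * d * q / (N * q)) jq) = _
  rw [coeffMap_qExpand]
  exact qExpand_congr hdiv _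

/-- **the norm ascends**, `α`-version, `q ∣ N`, `gcd (d, q) = 1` -/
theorem s36aux_norm_alpha (hq : q.Prime) (hqN : q ∣ N) (hdq : Nat.Coprime d q)
    (u : modularFunctionFieldBar (N * q)) :
    stbNorm (heckeAlphaBar Qb (N * d) q).toRingHom (stbdUp N q d u) =
      heckeAlphaBar Qb N d (stbNorm (heckeAlphaBar Qb N q).toRingHom u) := by
  haveI := stb_charZero_bar N
  obtain ⟨ζ, hζ⟩ := frob_exists_primitiveRoot q hq.ne_zero
  refine stb_norm_square_charZero (Ω := HnOmegaBar) (heckeAlphaBar Qb N q).toRingHom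
    (heckeAlphaBar Qb (N * d) q).toRingHom (heckeAlphaBar Qb N d).toRingHom
    (stbdUp N q d).toRingHom
    (fun x => (stb_d_sq_alpha N q d x).symm) (stbFinite_alpha N q) (stbFinite_alpha (N * d) q)
    (stbdBaseA (N * d) q) (fun b : Fin q => stbdRotA (N * d) q (ζ ^ (b : ℕ)))
    (fun b x => stbdRotA_alpha (N * d) q _ (stbd_pow_pow_eq_one q hζ.pow_eq_one _) x) ?_ ?_ ?_ u
  · rw [Fintype.card_fin, stbd_deg_alpha (N * d) q hq (hqN.mul_right d)]
  · rw [Fintype.card_fin, stbd_deg_alpha N q hq hqN]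
  · intro b b' h
    apply stbd_rot_injective_at q d hdq ζ hζ
    have h1 := congrArg (fun f : modularFunctionFieldBar (N * q) →+* HnOmegaBar =>
      f (jdF (N * q) (N * q) dvd_rfl)) h
    have h2 : ∀ c : Qbˣ, (stbdRotA (N * d) q c).comp (stbdUp N q d).toRingHom
        (jdF (N * q) (N * q) dvd_rfl)
        = algebraMap HnOmega HnOmegaBar (kronRot c (qExpand Qb d (coeffEmb Qb jq))) := by
      intro c
      show stbdRotA (N * d) q c (stbdUp N q d (jdF (N * q) (N * q) dvd_rfl)) = _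
      rw [stbdRotA_apply, stbdRotB_apply, s36aux_fricke_top]
    simp only [h2] at h1
    exact hn_algebraMap_injective h1

end Norms

/-! ## The descent -/

section Main

variable (M₁ q p d : ℕ) [NeZero M₁] [NeZero q] [NeZero d]

/-- **G-aux.** (G36-K) descends from the level `M₁ d q` to the level `M₁ q`
(`q ∣ M₁` a prime, `gcd (d, q) = 1`); the constant `c` becomes `c [F_{M₁ d q} : F_{M₁ q}]`. -/
theorem s36aux_descent (hq : q.Prime) (hd : Nat.Coprime d q) (hqM : q ∣ M₁) :
    StmtCarayolKummerAt (M₁ * d) q p → StmtCarayolKummerAt M₁ q p := by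
  intro H A hA
  obtain ⟨c, hc, Hc⟩ := H A hA
  refine ⟨c * s36auxDeg M₁ q d, Nat.mul_ne_zero hc (s36auxDeg_ne_zero M₁ q d), ?_⟩
  intro n u hu hdvd hα hβ hin
  obtain ⟨a, f, hf⟩ := hα
  obtain ⟨a', f', hf'⟩ := hβ
  have hup0 : stbdUp M₁ q d u ≠ 0 :=
    (map_ne_zero_iff _ (stbdUp_injective M₁ q d)).mpr hu
  have hNα : stbNormAlpha (M₁ * d) q (stbdUp M₁ q d u) =
      algebraMap Qb (modularFunctionFieldBar (M₁ * d)) a *
        (heckeAlphaBar Qb M₁ d f) ^ (p ^ n) := by
    have h1 := s36aux_norm_alpha M₁ q d hq hqM hd u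
    have h2 : stbNorm (heckeAlphaBar Qb M₁ q).toRingHom u =
        algebraMap Qb (modularFunctionFieldBar M₁) a * f ^ (p ^ n) := hf
    rw [h2] at h1
    refine Eq.trans (b := heckeAlphaBar Qb M₁ d
      (algebraMap Qb (modularFunctionFieldBar M₁) a * f ^ (p ^ n))) h1 ?_
    rw [map_mul, map_pow, AlgHom.commutes]
  have hNβ : stbNormBeta (M₁ * d) q (stbdUp M₁ q d u) =
      algebraMap Qb (modularFunctionFieldBar (M₁ * d)) a' *
        (heckeAlphaBar Qb M₁ d f') ^ (p ^ n) := by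
    have h1 := s36aux_norm_beta M₁ q d hq hqM u
    have h2 : stbNorm (heckeBetaBar Qb M₁ q).toRingHom u =
        algebraMap Qb (modularFunctionFieldBar M₁) a' * f' ^ (p ^ n) := hf'
    rw [h2] at h1
    refine Eq.trans (b := heckeAlphaBar Qb M₁ d
      (algebraMap Qb (modularFunctionFieldBar M₁) a' * f' ^ (p ^ n))) h1 ?_
    rw [map_mul, map_pow, AlgHom.commutes]
  have hin' : ∀ σ ∈ A.inertiaSubgroupIn ℚ,
      ∃ (b : Qb) (h : modularFunctionFieldBar (M₁ * d * q)),
        arithmeticGalois (modularFunctionFieldFull (M₁ * d * q)) σ • stbdUp M₁ q d u =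
          algebraMap Qb (modularFunctionFieldBar (M₁ * d * q)) b * h ^ (p ^ n) *
            stbdUp M₁ q d u := by
    intro σ hσ
    obtain ⟨b, h, hbh⟩ := hin σ hσ
    refine ⟨b, stbdUp M₁ q d h, ?_⟩
    rw [s36aux_up_smul, hbh, map_mul, map_mul, map_pow, AlgHom.commutes]
  obtain ⟨b, h, hbh⟩ := Hc n (stbdUp M₁ q d u) hup0
    (s36aux_dvd_ord M₁ q d (p ^ n) u hdvd) ⟨a, _, hNα⟩ ⟨a', _, hNβ⟩ hin'
  exact ⟨_, _, s36aux_pow_descent M₁ q d c (p ^ n) u b h hbh⟩

end Main

end Fermat.Agent.S36
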