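import Fermat.Agent.S36.DescentAbs
import Fermat.Agent.UNIP.MGGalAct

/-!
# S36 geometry, piece G-desc (fixed field)

`A` a valuation ring of `ℚ̄` over `q`, `I` its inertia group, `E₀ = ℚ̄^I = beta0Field A`.

* `s36d_fixed_finite` : `F / ℚ` finite Galois, `H ≤ Gal(F/ℚ)`, `T = F^H`: an element of `F_N(F)`
  fixed (coefficientwise) by `H` comes from `F_N(T)`.
* `s36d_fixed` : an element of `F_N(ℚ̄)` fixed (coefficientwise) by `I` comes from `F_N(E₀)`.
-/

set_option autoImplicit false
set_option linter.unusedSectionVars false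
set_option linter.style.haveILetI false

noncomputable section

open ModularCurve Fermat.Agent.INJ Fermat.Agent.UNIP

namespace Fermat.Agent.S36

section Finite

variable (F : IntermediateField ℚ NfQb) [FiniteDimensional ℚ F]
  (H : Subgroup (F ≃ₐ[ℚ] F)) (N : ℕ) [NeZero N]

/-- constants of `F` are integral over any subfield of `F((Q))` -/
theorem s36d_const_isIntegral (F₀ : Subfield (LaurentSeries F)) (c : F) :
    IsIntegral F₀ (algebraMap F (LaurentSeries F) c) := by
  have hc : IsIntegral ℚ c := Algebra.IsIntegral.isIntegral c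
  obtain ⟨p, hp, hpc⟩ := hc
  haveI : CharZero (LaurentSeries F) :=
    charZero_of_injective_algebraMap (algebraMap F (LaurentSeries F)).injective
  haveI : CharZero F₀ := ⟨fun a b h => by
    have h2 : ((a : F₀) : LaurentSeries F) = ((b : F₀) : LaurentSeries F) := congrArg Subtype.val h
    exact_mod_cast h2⟩
  refine ⟨p.map (Rat.castHom F₀), hp.map _, ?_⟩
  rw [Polynomial.eval₂_map]
  have e1 : (algebraMap F₀ (LaurentSeries F)).comp (Rat.castHom F₀)
      = (algebraMap F (LaurentSeries F)).comp (algebraMap ℚ F) := RingHom.ext_rat _ _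
  rw [e1, ← Polynomial.hom_eval₂, hpc, map_zero]

theorem s36d_fixed_finite (x : LaurentSeries F) (hx : x ∈ modularFunctionFieldFullC F N)
    (hfix : ∀ s ∈ H, coeffMap ((s : F ≃ₐ[ℚ] F) : F →+* F) x = x) :
    ∃ y : LaurentSeries (FixedPoints.intermediateField H : IntermediateField ℚ F),
      y ∈ modularFunctionFieldFullC (FixedPoints.intermediateField H : IntermediateField ℚ F) N ∧
        coeffMap (algebraMap (FixedPoints.intermediateField H : IntermediateField ℚ F) F) y
          = x := by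
  classical
  set T : IntermediateField ℚ F := FixedPoints.intermediateField H with hT
  set ι : T →+* F := algebraMap T F with hι
  haveI : Fintype H := Fintype.ofFinite H
  haveI : CharZero (LaurentSeries F) :=
    charZero_of_injective_algebraMap (algebraMap F (LaurentSeries F)).injective
  let act : H → LaurentSeries F →+* LaurentSeries F :=
    fun s => coeffMap (((s : F ≃ₐ[ℚ] F) : F ≃ₐ[ℚ] F) : F →+* F)
  have hperm : ∀ t : H, ∃ e : H ≃ H, ∀ s z, act t (act s z) = act (e s) z := by
    intro t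
    refine ⟨Equiv.mulLeft t, fun s z => ?_⟩
    show coeffMap _ (coeffMap _ z) = coeffMap _ z
    rw [coeffMap_coeffMap]
    exact coeffMap_congr (RingHom.ext fun c => rfl) z
  let F₀ : Subfield (LaurentSeries F) :=
    (modularFunctionFieldFullC T N).toSubfield.map (coeffMap ι)
  let C : Subfield (LaurentSeries F) := (algebraMap F (LaurentSeries F)).fieldRange
  have hsT : ∀ s : H, ∀ t : T, ((s : F ≃ₐ[ℚ] F) : F →+* F) (ι t) = ι t := by
    intro s t
    exact t.2 s
  have hF : ∀ s, ∀ y ∈ F₀, act s y = y := by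
    rintro s y ⟨y', -, rfl⟩
    show coeffMap _ (coeffMap ι y') = coeffMap ι y'
    rw [coeffMap_coeffMap]
    exact coeffMap_congr (RingHom.ext fun t => hsT s t) y'
  have hC : ∀ s, ∀ c ∈ C, act s c ∈ C := by
    rintro s c ⟨c₀, rfl⟩
    exact ⟨((s : F ≃ₐ[ℚ] F) : F →+* F) c₀, (nf_coeffMap_algebraMap _ c₀).symm⟩
  have hCH : ∀ c ∈ C, (∀ s, act s c = c) → c ∈ F₀ := by
    rintro c ⟨c₀, rfl⟩ hc
    have hc₀ : c₀ ∈ T := by
      intro s
      have h1 := hc s
      have h2 : act s (algebraMap F (LaurentSeries F) c₀)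
          = algebraMap F (LaurentSeries F) (((s : F ≃ₐ[ℚ] F) : F →+* F) c₀) :=
        nf_coeffMap_algebraMap _ c₀
      rw [h2] at h1
      exact (algebraMap F (LaurentSeries F)).injective h1
    refine ⟨algebraMap T (LaurentSeries T) ⟨c₀, hc₀⟩,
      (modularFunctionFieldFullC T N).algebraMap_mem _, ?_⟩
    exact nf_coeffMap_algebraMap ι ⟨c₀, hc₀⟩
  have halg : ∀ c ∈ C, IsIntegral F₀ c := by
    rintro c ⟨c₀, rfl⟩
    exact s36d_const_isIntegral F F₀ c₀
  have hgen : x ∈ Subfield.closure ((F₀ : Set (LaurentSeries F)) ∪ (C : Set (LaurentSeries F))) := by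
    have hx' : x ∈ Subfield.closure
        (Set.range (algebraMap F (LaurentSeries F)) ∪ divisorExpansionsC F N) := hx
    refine Subfield.closure_mono ?_ hx'
    rintro z (⟨c₀, rfl⟩ | ⟨d, hd, hdN, rfl⟩)
    · exact Or.inr ⟨c₀, rfl⟩
    · refine Or.inl ⟨qExpand T d (jqModC T), jqModCd_mem_full T N hdN, ?_⟩
      rw [coeffMap_qExpand, coeffMap_jqModC]
  have hfix' : ∀ s : H, act s x = x := fun s => hfix s s.2
  haveI : Nonempty H := ⟨1⟩
  obtain ⟨y, hy, hyx⟩ := s36d_fixed_mem act hperm F₀ C hF hC hCH halg x hgen hfix'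
  exact ⟨y, hy, hyx⟩

end Finite

section Absolute

variable {q : ℕ} (hq : q.Prime) {A : ValuationSubring NfQb} (hA : A.LiesOverPrime q)
  (N : ℕ) [NeZero N]

include hq hA in
/-- **fixed field of the inertia group on `F_N(ℚ̄)`** -/
theorem s36d_fixed (x : LaurentSeries NfQb) (hx : x ∈ modularFunctionFieldBar N)
    (hfix : ∀ σ ∈ A.inertiaSubgroupIn ℚ, coeffMap ((σ : NfQb ≃ₐ[ℚ] NfQb) : NfQb →+* NfQb) x = x) :
    ∃ u₀ : LaurentSeries (beta0Field A), u₀ ∈ modularFunctionFieldFullC (beta0Field A) N ∧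
      coeffMap (algebraMap (beta0Field A) NfQb) u₀ = x := by
  classical
  obtain ⟨K₀, hK₀, y₀, hy₀, rfl⟩ := nf_exists_descent hx
  set F : IntermediateField ℚ NfQb := IntermediateField.normalClosure ℚ K₀ NfQb with hF
  have hle : K₀ ≤ F := IntermediateField.le_normalClosure K₀
  haveI hFfin : FiniteDimensional ℚ F := normalClosure.is_finiteDimensional ℚ K₀ NfQb
  haveI := Fermat.Agent.Common.isAlgClosure_rat_qbar
  haveI : Normal ℚ F := normalClosure.normal ℚ K₀ NfQb
  haveI : IsGalois ℚ F := IsGalois.mk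
  haveI : NumberField F := { to_charZero := inferInstance, to_finiteDimensional := hFfin }
  set y₁ : LaurentSeries F := coeffMap (IntermediateField.inclusion hle).toRingHom y₀ with hy₁
  have hy₁F : y₁ ∈ modularFunctionFieldFullC F N := NfDescends.mono_aux hle hy₀
  have hy₁x : coeffMap (algebraMap F NfQb) y₁ = coeffMap (algebraMap K₀ NfQb) y₀ :=
    nf_coeffMap_inclusion hle y₀
  set H : Subgroup (F ≃ₐ[ℚ] F) := (beta0Prime A (beta0ιF F)).inertia (F ≃ₐ[ℚ] F) with hH
  have hfixH : ∀ s ∈ H, coeffMap ((s : F ≃ₐ[ℚ] F) : F →+* F) y₁ = y₁ := by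
    intro s hs
    obtain ⟨σ, hσ, hσs⟩ := beta0_exists_lift F hq hA s hs
    apply nf_coeffMap_injective (algebraMap F NfQb)
    rw [coeffMap_coeffMap]
    have h1 := hfix σ hσ
    rw [← hy₁x, coeffMap_coeffMap] at h1
    rw [← h1]
    exact coeffMap_congr (RingHom.ext fun c => (hσs c).symm) y₁
  obtain ⟨y, hy, hyx⟩ := s36d_fixed_finite F H N y₁ hy₁F hfixH
  -- `T = F^H ⊆ E₀`
  let j : (FixedPoints.intermediateField H : IntermediateField ℚ F) →+* beta0Field A :=
    { toFun := fun t => ⟨((t : F) : NfQb), beta0_T_le A F (t : F) t.2⟩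
      map_one' := rfl
      map_mul' := fun _ _ => rfl
      map_zero' := rfl
      map_add' := fun _ _ => rfl }
  refine ⟨coeffMap j y, nf_coeffMap_mem_fullC j N hy, ?_⟩
  rw [coeffMap_coeffMap, ← hy₁x, ← hyx, coeffMap_coeffMap]
  exact coeffMap_congr (RingHom.ext fun c => rfl) y

end Absolute

end Fermat.Agent.S36
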