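import Mathlib
import Fermat.Agent.UNIP.MGVertGauss

/-!
# S36 / G-N2, piece N2-ext (helper19): the vertical valuation subring `vtSub` is a DVR

`vtSub hB e hfrac : ValuationSubring F` (UNIP/MGVertGauss) for an embedding
`e : F →+* E((Q))` and a constant `c : F` with `e c = π`:

* `s36n2e_vtSub_unif` : `𝔪(V) = c V`;
* `s36n2e_vtSub_decomp` : every nonzero `x ∈ V` is `c ^ d · u`, `u` a unit of `V`;
* `s36n2e_vtSub_isDVR` : `V` is a discrete valuation ring.
-/

set_option autoImplicit false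
set_option linter.unusedSectionVars false
set_option linter.style.haveILetI false

noncomputable section

namespace Fermat.Agent.S36

open Fermat.Agent.UNIP Fermat.Agent.INJ

variable {A E k : Type*} [CommRing A] [Field E] [Field k]
  {ι : A →+* E} {r : A →+* k} {π : A} {F : Type*} [Field F]
  (hB : VtBase ι r π) (e : F →+* LaurentSeries E) (hfrac : ∀ x : F, VtFrac ι (e x))

/-- every nonzero element of `V` is `c ^ d · u` with `u` a unit of `V` -/
theorem s36n2e_vtSub_decomp {c : F} (hc : e c = HahnSeries.C (ι π)) {x : F} (hx0 : x ≠ 0)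
    (hx : x ∈ vtSub hB e hfrac) :
    ∃ (d : ℕ) (u : F), (vtSub hB e hfrac).valuation u = 1 ∧ x = c ^ d * u := by
  have hex0 : e x ≠ 0 := (map_ne_zero e).mpr hx0
  have hc0 : c ≠ 0 := by
    intro h0
    have : e c = 0 := by rw [h0, map_zero]
    rw [hc] at this
    exact hB.Cιπ_ne this
  obtain ⟨d, u, hu, h | h⟩ := vt_exists_pow_mul hB hex0 (hfrac x)
  · refine ⟨d, x / c ^ d, ?_, ?_⟩
    · rw [vtSub_valuation_eq_one_iff, map_div₀, map_pow, hc, h,
        mul_div_cancel_left₀ _ (pow_ne_zero d hB.Cιπ_ne)]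
      exact hu
    · field_simp
  · -- `x⁻¹ ∈ V` as well, so `x` is a unit
    refine ⟨0, x, ?_, by rw [pow_zero, one_mul]⟩
    rw [vtSub_valuation_eq_one_iff]
    apply vtUnit_of_mem_of_inv_mem hB.inj hex0 hx
    rw [h]
    exact (gaussRing ι r).mul_mem ((gaussRing ι r).pow_mem (hahnC_mem_gaussRing r π) d) hu.mem

/-- `𝔪(V) = c V` -/
theorem s36n2e_vtSub_unif {c : F} (hc : e c = HahnSeries.C (ι π)) {x : F}
    (hx : x ∈ (vtSub hB e hfrac).nonunits) :
    ∃ y ∈ vtSub hB e hfrac, x = c * y := by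
  by_cases hx0 : x = 0
  · exact ⟨0, (vtSub hB e hfrac).zero_mem, by rw [hx0, mul_zero]⟩
  have hxV : x ∈ vtSub hB e hfrac := vt_mem_of_mem_nonunits _ hx
  have hcV : c ∈ vtSub hB e hfrac := vtSub_const_mem hB e hfrac hc
  obtain ⟨d, u, hu, hxu⟩ := s36n2e_vtSub_decomp hB e hfrac hc hx0 hxV
  have huV : u ∈ vtSub hB e hfrac := by
    rw [← ValuationSubring.valuation_le_one_iff, hu]
  rcases Nat.eq_zero_or_pos d with hd | hd
  · exfalso
    rw [hd, pow_zero, one_mul] at hxu
    rw [ValuationSubring.mem_nonunits_iff, hxu, hu] at hx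
    exact lt_irrefl _ hx
  · obtain ⟨d', rfl⟩ := Nat.exists_eq_succ_of_ne_zero (Nat.pos_iff_ne_zero.mp hd)
    refine ⟨c ^ d' * u, (vtSub hB e hfrac).mul_mem _ _ (pow_mem hcV d') huV, ?_⟩
    rw [hxu, pow_succ]
    ring

/-- **`vtSub` is a discrete valuation ring** (uniformizer `c`, `e c = π`). -/
theorem s36n2e_vtSub_isDVR {c : F} (hc : e c = HahnSeries.C (ι π)) :
    IsDiscreteValuationRing (vtSub hB e hfrac) := by
  set V := vtSub hB e hfrac with hV
  have hcV : c ∈ V := vtSub_const_mem hB e hfrac hc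
  have hcm : c ∈ V.nonunits := vtSub_unif_mem_nonunits hB e hfrac hc
  have hc0 : c ≠ 0 := by
    intro h0
    have : e c = 0 := by rw [h0, map_zero]
    rw [hc] at this
    exact hB.Cιπ_ne this
  let c' : V := ⟨c, hcV⟩
  have hc'0 : c' ≠ 0 := fun h => hc0 (congrArg Subtype.val h)
  have hnu : ¬ IsUnit c' := by
    intro hu
    have h1 : V.valuation c = 1 := (ValuationSubring.valuation_eq_one_iff V c').mp hu
    rw [ValuationSubring.mem_nonunits_iff, h1] at hcm
    exact lt_irrefl _ hcm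
  have hunit : ∀ a : V, ¬ IsUnit a → ∃ b : V, a = c' * b := by
    intro a ha
    have ha' : (a : F) ∈ V.nonunits := by
      rw [ValuationSubring.mem_nonunits_iff]
      rcases ValuationSubring.valuation_lt_one_or_eq_one V a with h1 | h1
      · exact h1
      · exact absurd ((ValuationSubring.valuation_eq_one_iff V a).mpr h1) ha
    obtain ⟨y, hy, hay⟩ := s36n2e_vtSub_unif hB e hfrac hc ha'
    exact ⟨⟨y, hy⟩, Subtype.ext hay⟩
  have hirr : Irreducible c' := by
    refine ⟨hnu, ?_⟩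
    intro a b hab
    by_contra hcon
    push Not at hcon
    obtain ⟨a₁, ha₁⟩ := hunit a hcon.1
    obtain ⟨b₁, hb₁⟩ := hunit b hcon.2
    apply hnu
    have h1 : c' * 1 = c' * (c' * (a₁ * b₁)) := by
      rw [mul_one]
      calc c' = a * b := hab
        _ = c' * a₁ * (c' * b₁) := by rw [← ha₁, ← hb₁]
        _ = c' * (c' * (a₁ * b₁)) := by ring
    have h2 := mul_left_cancel₀ hc'0 h1
    exact IsUnit.of_mul_eq_one _ h2.symm
  apply IsDiscreteValuationRing.ofHasUnitMulPowIrreducibleFactorization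
  refine ⟨c', hirr, ?_⟩
  intro x hx
  have hx0 : (x : F) ≠ 0 := fun h => hx (Subtype.ext h)
  obtain ⟨d, u, hu, hxu⟩ := s36n2e_vtSub_decomp hB e hfrac hc hx0 x.2
  have huV : u ∈ V := by
    rw [← ValuationSubring.valuation_le_one_iff, hu]
  have hu' : IsUnit (⟨u, huV⟩ : V) := (ValuationSubring.valuation_eq_one_iff V ⟨u, huV⟩).mpr hu
  refine ⟨d, ?_⟩
  obtain ⟨w, hw⟩ := hu'
  refine ⟨w, ?_⟩
  rw [hw]
  apply Subtype.ext
  show c ^ d * u = (x : F)
  exact hxu.symm

end Fermat.Agent.S36
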