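import Mathlib
import Fermat.Agent.UNIP.NodesAbs

/-!
# S36 / G-N2, piece N2-ext, abstract part 1 (helper19): counting primes in a fibre

Pure algebra (Mathlib + the Mathlib-only file `UNIP/NodesAbs.lean`).

* `s36n2e_two_primes` : `S/R` finite flat of rank `n + 1`, two distinct primes `P₁ ≠ P₂` over `p`
  with `n ≤ e(P₂) f(P₂)`: they are the only primes over `p`, `e(P₁) = f(P₁) = 1` and
  `e(P₂) f(P₂) = n`.
* `s36n2e_one_prime` : `S/R` finite flat of rank `n`, one prime `P` over `p` with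
  `n ≤ e(P) f(P)`: it is the only prime over `p`.
* `s36n2e_le_ramificationIdx` : in a Dedekind domain `S`, torsion free over the domain `R`,
  `p S ≤ P ^ n` implies `n ≤ e(P)`.
-/

set_option autoImplicit false

namespace Fermat.Agent.S36

open Module IsDedekindDomain IsLocalRing

/-- Two distinct primes over `p` in a finite flat extension of rank `n + 1`, the second one with
`e f ≥ n`, exhaust the fibre; the first one has `e = f = 1`, the second one `e f = n`. -/
theorem s36n2e_two_primes {R S : Type*} [CommRing R] [IsDomain R] [CommRing S] [Algebra R S]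
    [Module.Finite R S] [Module.Flat R S] (p : Ideal R) [p.IsPrime]
    (P₁ P₂ : Ideal S) [P₁.IsPrime] [P₂.IsPrime] [P₁.LiesOver p] [P₂.LiesOver p] (hne : P₁ ≠ P₂)
    (n : ℕ) (hrank : Module.finrank R S = n + 1)
    (hf : n ≤ P₂.ramificationIdx R * P₂.inertiaDeg R) :
    (∀ P : Ideal S, P.IsPrime → P.LiesOver p → P = P₁ ∨ P = P₂) ∧
      P₁.ramificationIdx R = 1 ∧ P₁.inertiaDeg R = 1 ∧
      P₂.ramificationIdx R * P₂.inertiaDeg R = n := by
  classical
  let _ : Fintype (p.primesOver S) := (Algebra.QuasiFinite.finite_primesOver p).fintype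
  set g : p.primesOver S → ℕ := fun q => q.1.ramificationIdx R * q.1.inertiaDeg R with hg
  have hsum : ∑ q, g q = n + 1 := by
    rw [← hrank]
    exact Ideal.sum_ramification_inertia_eq_finrank p S
  have hpos : ∀ q : p.primesOver S, 1 ≤ g q := by
    intro q
    have := q.2.1
    exact Nat.mul_pos (Ideal.ramificationIdx_pos q.1 R) (Ideal.inertiaDeg_pos q.1 R)
  let Q₁ : p.primesOver S := ⟨P₁, ‹P₁.IsPrime›, ‹P₁.LiesOver p›⟩
  let Q₂ : p.primesOver S := ⟨P₂, ‹P₂.IsPrime›, ‹P₂.LiesOver p›⟩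
  have hQ : Q₁ ≠ Q₂ := fun h => hne (congrArg Subtype.val h)
  have hg₂ : n ≤ g Q₂ := hf
  have hsplit : ∑ q, g q = g Q₁ + g Q₂ + ∑ q ∈ (Finset.univ.erase Q₁).erase Q₂, g q := by
    rw [← Finset.add_sum_erase Finset.univ g (Finset.mem_univ Q₁),
      ← Finset.add_sum_erase (Finset.univ.erase Q₁) g
        (Finset.mem_erase.mpr ⟨hQ.symm, Finset.mem_univ Q₂⟩), add_assoc]
  have hrest : (Finset.univ.erase Q₁).erase Q₂ = ∅ := by
    by_contra hne'
    obtain ⟨q, hq⟩ := Finset.nonempty_iff_ne_empty.mpr hne'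
    have h1 : g q ≤ ∑ q ∈ (Finset.univ.erase Q₁).erase Q₂, g q :=
      Finset.single_le_sum (f := g) (fun _ _ => Nat.zero_le _) hq
    have := hpos q
    have := hpos Q₁
    omega
  rw [hrest, Finset.sum_empty, add_zero] at hsplit
  have hg₁ : g Q₁ = 1 := by have := hpos Q₁; omega
  have hg₂' : g Q₂ = n := by omega
  have h11 : P₁.ramificationIdx R * P₁.inertiaDeg R = 1 := hg₁
  have h22 : P₂.ramificationIdx R * P₂.inertiaDeg R = n := hg₂'
  refine ⟨?_, ?_, ?_, h22⟩
  · intro P hP hPp
    by_contra hcon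
    push Not at hcon
    have hmem : (⟨P, hP, hPp⟩ : p.primesOver S) ∈ (Finset.univ.erase Q₁).erase Q₂ := by
      refine Finset.mem_erase.mpr ⟨?_, Finset.mem_erase.mpr ⟨?_, Finset.mem_univ _⟩⟩
      · intro h; exact hcon.2 (congrArg Subtype.val h)
      · intro h; exact hcon.1 (congrArg Subtype.val h)
    rw [hrest] at hmem
    exact absurd hmem (Finset.notMem_empty _)
  · exact (Nat.eq_one_of_mul_eq_one_right h11)
  · exact (Nat.eq_one_of_mul_eq_one_left h11)

/-- One prime over `p` with `e f ≥ n` in a finite flat extension of rank `n`: it is the only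
prime over `p`, and `e f = n`. -/
theorem s36n2e_one_prime {R S : Type*} [CommRing R] [IsDomain R] [CommRing S] [Algebra R S]
    [Module.Finite R S] [Module.Flat R S] (p : Ideal R) [p.IsPrime]
    (P₁ : Ideal S) [P₁.IsPrime] [P₁.LiesOver p]
    (n : ℕ) (hrank : Module.finrank R S = n)
    (hf : n ≤ P₁.ramificationIdx R * P₁.inertiaDeg R) :
    (∀ P : Ideal S, P.IsPrime → P.LiesOver p → P = P₁) ∧
      P₁.ramificationIdx R * P₁.inertiaDeg R = n := by
  classical
  let _ : Fintype (p.primesOver S) := (Algebra.QuasiFinite.finite_primesOver p).fintype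
  set g : p.primesOver S → ℕ := fun q => q.1.ramificationIdx R * q.1.inertiaDeg R with hg
  have hsum : ∑ q, g q = n := by
    rw [← hrank]
    exact Ideal.sum_ramification_inertia_eq_finrank p S
  have hpos : ∀ q : p.primesOver S, 1 ≤ g q := by
    intro q
    have := q.2.1
    exact Nat.mul_pos (Ideal.ramificationIdx_pos q.1 R) (Ideal.inertiaDeg_pos q.1 R)
  let Q₁ : p.primesOver S := ⟨P₁, ‹P₁.IsPrime›, ‹P₁.LiesOver p›⟩
  have hg₁ : n ≤ g Q₁ := hf
  have hsplit : ∑ q, g q = g Q₁ + ∑ q ∈ Finset.univ.erase Q₁, g q := by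
    rw [← Finset.add_sum_erase Finset.univ g (Finset.mem_univ Q₁)]
  have hrest : Finset.univ.erase Q₁ = ∅ := by
    by_contra hne'
    obtain ⟨q, hq⟩ := Finset.nonempty_iff_ne_empty.mpr hne'
    have h1 : g q ≤ ∑ q ∈ Finset.univ.erase Q₁, g q :=
      Finset.single_le_sum (f := g) (fun _ _ => Nat.zero_le _) hq
    have := hpos q
    omega
  rw [hrest, Finset.sum_empty, add_zero] at hsplit
  refine ⟨?_, ?_⟩
  · intro P hP hPp
    by_contra hcon
    have hmem : (⟨P, hP, hPp⟩ : p.primesOver S) ∈ Finset.univ.erase Q₁ := by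
      refine Finset.mem_erase.mpr ⟨?_, Finset.mem_univ _⟩
      intro h; exact hcon (congrArg Subtype.val h)
    rw [hrest] at hmem
    exact absurd hmem (Finset.notMem_empty _)
  · show g Q₁ = n
    omega

/-- In a Dedekind domain, `p S ≤ P ^ n` implies `n ≤ e(P / p)`. -/
theorem s36n2e_le_ramificationIdx {R S : Type*} [CommRing R] [IsDomain R] [CommRing S]
    [IsDedekindDomain S] [Algebra R S] [Module.IsTorsionFree R S] (p : Ideal R) (hp : p ≠ ⊥)
    (P : Ideal S) [hP : P.IsPrime] [P.LiesOver p] (n : ℕ)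
    (h : p.map (algebraMap R S) ≤ P ^ n) : n ≤ P.ramificationIdx R := by
  have hpS : p.map (algebraMap R S) ≠ ⊥ := Ideal.map_ne_bot_of_ne_bot hp
  rw [Ideal.IsDedekindDomain.ramificationIdx_eq_multiplicity p P hpS]
  have hP0 : P ≠ ⊥ :=
    ne_bot_of_le_ne_bot hpS (Ideal.map_le_of_le_comap (P.over_def p).le)
  have hfin : FiniteMultiplicity P (p.map (algebraMap R S)) := by
    apply FiniteMultiplicity.of_not_isUnit
    · rw [Ideal.isUnit_iff]
      exact hP.ne_top
    · exact hpS
  exact hfin.le_multiplicity_of_pow_dvd (Ideal.dvd_iff_le.mpr h)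

end Fermat.Agent.S36
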