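import Mathlib
import Fermat.Agent.UNIP.NodesAbs
import Fermat.Agent.S36.N2ExtPrimes

/-!
# S36 / G-N2, piece N2-ext, abstract part 2 (helper19): valuations exhausting a fibre

`R` a discrete valuation ring with fraction field `K`, `L/K` finite separable, `O`, `O₁`, `O₂`
valuation rings of `L` dominating `R`.

* `s36n2e_key` : every `x ∈ O` is `a / b` with `a, b` integral over `R`, `b` a unit of `O`.
* `S36TwoVal R O₁ O₂ n` + `s36n2e_twoVal_main` : if `O₁ ≠ O₂`, `ϖ = Π ^ n · z` at `O₂`
  (`e(O₂) ≥ n`) and `[L : K] = n + 1`, then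
  (EXT) `x ∈ O₁ ∩ O₂ → IsIntegral R x`, (F) both residue fields are that of `R`,
  (RAM) `x ∈ 𝔪(O₂) → x ^ n ∈ ϖ O₂`.
* `S36OneVal R O n` + `s36n2e_oneVal_main` : if `O` has `n` integral elements with independent
  residues and `[L : K] = n`, then (EXT) `x ∈ O → IsIntegral R x`.
-/

set_option autoImplicit false
set_option linter.unusedSectionVars false

namespace Fermat.Agent.S36

open Module IsDedekindDomain IsLocalRing
open Fermat.Agent.UNIP

section Key

variable {R K L : Type*} [CommRing R] [IsDomain R] [IsDiscreteValuationRing R]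
  [Field K] [Field L] [Algebra R K] [IsFractionRing R K] [Algebra K L] [Algebra R L]
  [IsScalarTower R K L] [FiniteDimensional K L] [Algebra.IsSeparable K L]

include K in
set_option synthInstance.maxHeartbeats 400000 in
set_option maxHeartbeats 1600000 in
/-- the prime cut out by a dominating valuation ring is not zero -/
theorem s36n2e_prime_ne_bot (O : ValuationSubring L) (hO : ∀ r : R, algebraMap R L r ∈ O)
    (hdom : ∀ r ∈ maximalIdeal R, algebraMap R L r ∈ O.nonunits) :
    unipPrime O hO ≠ ⊥ := by
  have : IsTorsionFree R L := .trans_faithfulSMul R K L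
  have : IsTorsionFree R (integralClosure R L) := IsIntegralClosure.isTorsionFree R L
  have hlo : (unipPrime O hO).LiesOver (maximalIdeal R) := unipPrime_liesOver O hO hdom
  exact Ideal.ne_bot_of_liesOver_of_ne_bot (IsDiscreteValuationRing.not_a_field R) (unipPrime O hO)

include K in
set_option synthInstance.maxHeartbeats 400000 in
set_option maxHeartbeats 1600000 in
/-- the prime cut out by a dominating valuation ring is maximal -/
theorem s36n2e_prime_isMaximal (O : ValuationSubring L) (hO : ∀ r : R, algebraMap R L r ∈ O)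
    (hdom : ∀ r ∈ maximalIdeal R, algebraMap R L r ∈ O.nonunits) :
    (unipPrime O hO).IsMaximal := by
  have hlo : (unipPrime O hO).LiesOver (maximalIdeal R) := unipPrime_liesOver O hO hdom
  have : Algebra.IsIntegral R (integralClosure R L) := inferInstance
  apply Ideal.isMaximal_of_isIntegral_of_isMaximal_comap (R := R)
  have := hlo.over
  rw [Ideal.under] at this
  rw [← this]
  exact maximalIdeal.isMaximal R

include K in
set_option synthInstance.maxHeartbeats 400000 in
set_option maxHeartbeats 1600000 in
/-- **Key comparison.**  Every element of a valuation ring `O` of `L` dominating `R` is a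
quotient `a / b` of elements integral over `R`, with `b` a unit of `O`. -/
theorem s36n2e_key (O : ValuationSubring L) (hO : ∀ r : R, algebraMap R L r ∈ O)
    (hdom : ∀ r ∈ maximalIdeal R, algebraMap R L r ∈ O.nonunits) {x : L} (hx : x ∈ O) :
    ∃ a b : integralClosure R L, b ∉ unipPrime O hO ∧ x * (b : L) = (a : L) := by
  classical
  have : IsTorsionFree R L := .trans_faithfulSMul R K L
  have : IsDedekindDomain (integralClosure R L) := integralClosure.isDedekindDomain R K L
  have : IsFractionRing (integralClosure R L) L :=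
    integralClosure.isFractionRing_of_finite_extension K L
  let v : HeightOneSpectrum (integralClosure R L) :=
    ⟨unipPrime O hO, inferInstance, s36n2e_prime_ne_bot (K := K) O hO hdom⟩
  obtain ⟨a, d, hd | hd⟩ := v.exists_primeCompl_mul_eq_or_mul_eq (K := L) x
  · exact ⟨a, d.1, d.2, hd⟩
  · have hd' : (d.1 : L) ∉ O.nonunits := by
      intro hmem
      have hd2 : d.1 ∈ unipPrime O hO := (mem_unipPrime O hO d.1).mpr hmem
      exact d.2 hd2
    have ha : a ∉ unipPrime O hO := by
      intro hmem
      rw [mem_unipPrime] at hmem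
      apply hd'
      have : (d.1 : L) = x * (a : L) := hd.symm
      rw [this, ValuationSubring.mem_nonunits_iff, map_mul]
      rw [ValuationSubring.mem_nonunits_iff] at hmem
      have hx1 : O.valuation x ≤ 1 := (ValuationSubring.valuation_le_one_iff O x).mpr hx
      calc O.valuation x * O.valuation (a : L) ≤ 1 * O.valuation (a : L) :=
            mul_le_mul_left hx1 _
        _ = O.valuation (a : L) := one_mul _
        _ < 1 := hmem
    exact ⟨d.1, a, ha, hd⟩

include K in
/-- the same for elements of the maximal ideal: the numerator lies in the prime -/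
theorem s36n2e_key_nonunits (O : ValuationSubring L) (hO : ∀ r : R, algebraMap R L r ∈ O)
    (hdom : ∀ r ∈ maximalIdeal R, algebraMap R L r ∈ O.nonunits) {x : L}
    (hx : x ∈ O.nonunits) :
    ∃ a b : integralClosure R L, a ∈ unipPrime O hO ∧ b ∉ unipPrime O hO ∧
      x * (b : L) = (a : L) := by
  have hxO : x ∈ O := by
    rw [← ValuationSubring.valuation_le_one_iff]
    exact le_of_lt ((ValuationSubring.mem_nonunits_iff O).mp hx)
  obtain ⟨a, b, hb, hab⟩ := s36n2e_key (K := K) O hO hdom hxO
  refine ⟨a, b, ?_, hb, hab⟩
  rw [mem_unipPrime, ← hab, ValuationSubring.mem_nonunits_iff, map_mul]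
  have hb1 : O.valuation (b : L) ≤ 1 :=
    (ValuationSubring.valuation_le_one_iff O _).mpr (unip_mem_of_isIntegral O hO b.2)
  calc O.valuation x * O.valuation (b : L) ≤ O.valuation x * 1 := mul_le_mul_right hb1 _
    _ = O.valuation x := mul_one _
    _ < 1 := (ValuationSubring.mem_nonunits_iff O).mp hx

/-- an integral element outside the prime is a unit of `O` -/
theorem s36n2e_val_eq_one (O : ValuationSubring L) (hO : ∀ r : R, algebraMap R L r ∈ O)
    {b : integralClosure R L} (hb : b ∉ unipPrime O hO) : O.valuation (b : L) = 1 := by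
  have hbO : (b : L) ∈ O := unip_mem_of_isIntegral O hO b.2
  rcases ValuationSubring.valuation_lt_one_or_eq_one O ⟨(b : L), hbO⟩ with h1 | h1
  · exact absurd ((mem_unipPrime O hO b).mpr ((ValuationSubring.mem_nonunits_iff O).mpr h1)) hb
  · exact h1

include K in
set_option synthInstance.maxHeartbeats 400000 in
set_option maxHeartbeats 1600000 in
/-- **(F)** residue degree one, valuation form: if the prime cut out by `O` has inertia degree
`1`, every element of `O` is congruent to an element of `R` modulo the maximal ideal of `O`. -/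
theorem s36n2e_resid (O : ValuationSubring L) (hO : ∀ r : R, algebraMap R L r ∈ O)
    (hdom : ∀ r ∈ maximalIdeal R, algebraMap R L r ∈ O.nonunits)
    (hf : (unipPrime O hO).inertiaDeg R = 1) {x : L} (hx : x ∈ O) :
    ∃ c : R, x - algebraMap R L c ∈ O.nonunits := by
  classical
  set P := unipPrime O hO with hP
  have hlo : P.LiesOver (maximalIdeal R) := unipPrime_liesOver O hO hdom
  obtain ⟨a, b, hb, hab⟩ := s36n2e_key (K := K) O hO hdom hx
  have hmax : P.IsMaximal := s36n2e_prime_isMaximal (K := K) O hO hdom
  rw [Ideal.inertiaDeg_eq_of_isMaximal (maximalIdeal R) P] at hf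
  let : Algebra (R ⧸ maximalIdeal R) (integralClosure R L ⧸ P) :=
    Ideal.Quotient.algebraOfLiesOver _ _
  have hone : (1 : integralClosure R L ⧸ P) ≠ 0 := by
    intro h0
    have h1 : (Ideal.Quotient.mk P) 1 = 0 := by rw [map_one]; exact h0
    rw [Ideal.Quotient.eq_zero_iff_mem] at h1
    exact hmax.ne_top ((Ideal.eq_top_iff_one _).mpr h1)
  let : Field (R ⧸ maximalIdeal R) := Ideal.Quotient.field _
  have hspan : ∀ w : integralClosure R L ⧸ P, ∃ c : R ⧸ maximalIdeal R, c • 1 = w :=
    (finrank_eq_one_iff_of_nonzero' (1 : integralClosure R L ⧸ P) hone).mp hf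
  have hlift : ∀ s : integralClosure R L, ∃ α : R,
      ((s : L) - algebraMap R L α) ∈ O.nonunits := by
    intro s
    obtain ⟨c, hc⟩ := hspan (Ideal.Quotient.mk P s)
    obtain ⟨α, rfl⟩ := Ideal.Quotient.mk_surjective c
    refine ⟨α, ?_⟩
    rw [Algebra.smul_def, mul_one, Ideal.Quotient.algebraMap_mk_of_liesOver] at hc
    have h1 : s - algebraMap R (integralClosure R L) α ∈ P :=
      Ideal.Quotient.eq.mp hc.symm
    exact (mem_unipPrime O hO _).mp h1
  obtain ⟨α, hα⟩ := hlift a
  obtain ⟨β, hβ⟩ := hlift b
  have hbO : (b : L) ∈ O := unip_mem_of_isIntegral O hO b.2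
  have hbnon : (b : L) ∉ O.nonunits := fun hmem => hb ((mem_unipPrime O hO b).mpr hmem)
  have hvb : O.valuation (b : L) = 1 := s36n2e_val_eq_one O hO hb
  have hβu : IsUnit β := by
    rw [← notMem_maximalIdeal]
    intro hmem
    apply hbnon
    have h1 := hdom β hmem
    rw [ValuationSubring.mem_nonunits_iff] at h1 hβ ⊢
    have h2 := Valuation.map_add_lt O.valuation hβ h1
    rwa [sub_add_cancel] at h2
  obtain ⟨u, rfl⟩ := hβu
  refine ⟨α * ((u⁻¹ : Rˣ) : R), ?_⟩
  rw [ValuationSubring.mem_nonunits_iff] at hα hβ ⊢
  have hc1 : O.valuation (algebraMap R L (α * ((u⁻¹ : Rˣ) : R))) ≤ 1 :=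
    (ValuationSubring.valuation_le_one_iff O _).mpr (hO _)
  have hprod : (x - algebraMap R L (α * ((u⁻¹ : Rˣ) : R))) * (b : L) =
      ((a : L) - algebraMap R L α) -
        algebraMap R L (α * ((u⁻¹ : Rˣ) : R)) * ((b : L) - algebraMap R L (u : R)) := by
    have h1 : algebraMap R L (α * ((u⁻¹ : Rˣ) : R)) * algebraMap R L (u : R) =
        algebraMap R L α := by
      rw [← map_mul, mul_assoc, Units.inv_mul, mul_one]
    rw [sub_mul, hab, mul_sub, h1]
    ring
  have h3 : O.valuation ((x - algebraMap R L (α * ((u⁻¹ : Rˣ) : R))) * (b : L)) < 1 := by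
    rw [hprod]
    apply Valuation.map_sub_lt _ hα
    rw [map_mul]
    calc O.valuation (algebraMap R L (α * ((u⁻¹ : Rˣ) : R))) *
          O.valuation ((b : L) - algebraMap R L (u : R))
        ≤ 1 * O.valuation ((b : L) - algebraMap R L (u : R)) := mul_le_mul_left hc1 _
      _ = O.valuation ((b : L) - algebraMap R L (u : R)) := one_mul _
      _ < 1 := hβ
  rwa [map_mul, hvb, mul_one] at h3

include K in
set_option synthInstance.maxHeartbeats 400000 in
set_option maxHeartbeats 1600000 in
/-- **(EXT)**, general form: if every prime of the integral closure over the maximal ideal of `R`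
is cut out by one of the valuation rings `O i ∋ x`, then `x` is integral over `R`. -/
theorem s36n2e_ext {ι : Type*} (O : ι → ValuationSubring L)
    (hO : ∀ i, ∀ r : R, algebraMap R L r ∈ O i)
    (hdom : ∀ i, ∀ r ∈ maximalIdeal R, algebraMap R L r ∈ (O i).nonunits)
    (hall : ∀ P : Ideal (integralClosure R L), P.IsPrime → P.LiesOver (maximalIdeal R) →
      ∃ i, P = unipPrime (O i) (hO i))
    {x : L} (hx : ∀ i, x ∈ O i) : IsIntegral R x := by
  classical
  have : IsTorsionFree R L := .trans_faithfulSMul R K L
  have : IsDedekindDomain (integralClosure R L) := integralClosure.isDedekindDomain R K L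
  have : IsFractionRing (integralClosure R L) L :=
    integralClosure.isFractionRing_of_finite_extension K L
  have hmem : x ∈ (algebraMap (integralClosure R L) L).range := by
    apply HeightOneSpectrum.mem_integers_of_valuation_le_one L x
    intro v
    have : v.asIdeal.IsMaximal := v.isMaximal
    have hmax : (v.asIdeal.comap (algebraMap R (integralClosure R L))).IsMaximal :=
      Ideal.isMaximal_comap_of_isIntegral_of_isMaximal (R := R) v.asIdeal
    obtain ⟨i, hi⟩ := hall v.asIdeal v.isPrime ⟨(eq_maximalIdeal hmax).symm⟩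
    obtain ⟨a, b, hb, hab⟩ := s36n2e_key (K := K) (O i) (hO i) (hdom i) (hx i)
    rw [← hi] at hb
    have hb1 : v.valuation L (algebraMap (integralClosure R L) L b) = 1 :=
      (HeightOneSpectrum.valuation_eq_one_iff_notMem v).mpr hb
    have ha1 : v.valuation L (algebraMap (integralClosure R L) L a) ≤ 1 :=
      HeightOneSpectrum.valuation_le_one v a
    have h3 : v.valuation L x * v.valuation L (algebraMap (integralClosure R L) L b) =
        v.valuation L (algebraMap (integralClosure R L) L a) := by
      rw [← map_mul]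
      exact congrArg _ hab
    rw [hb1, mul_one] at h3
    rw [h3]
    exact ha1
  obtain ⟨s, hs⟩ := hmem
  rw [← hs]
  exact s.2

end Key

end Fermat.Agent.S36
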