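import Mathlib
import Fermat.Agent.UNIP.NodesAbs
import Fermat.Agent.S36.N2ExtPrimes
import Fermat.Agent.S36.N2ExtAbs

/-!
# S36 / G-N2, piece N2-ext, abstract part 3 (helper19): the two patterns

`R` a discrete valuation ring with fraction field `K`, uniformizer `ϖ`, `L/K` finite separable.

* `S36TwoVal R O₁ O₂ n ϖ` + `s36n2e_twoVal_main` (pattern `(α, ∞)`, `(β, 0)`):
  `O₁ ≠ O₂` (separated by some `g`, either direction) dominate `R`, `ϖ = t ^ n · z` at `O₂`, `[L : K] = n + 1`.  Then
  (EXT) `x ∈ O₁ ∩ O₂ → IsIntegral R x`; (F₁), (F₂) the residue fields of `O₁`, `O₂` are that of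
  `R`; (U₁) `𝔪(O₁) = ϖ O₁`; (RAM₂) `x ∈ 𝔪(O₂) → x ^ n ∈ ϖ O₂`.
* `S36OneVal R O n` + `s36n2e_oneVal_main` (pattern `(α, 0)`, `(β, ∞)`):
  `O` dominates `R` and carries `n` integral elements with `R`-independent residues,
  `[L : K] = n`.  Then (EXT) `x ∈ O → IsIntegral R x` and (U) `𝔪(O) = ϖ O`.
-/

set_option autoImplicit false
set_option linter.unusedSectionVars false

namespace Fermat.Agent.S36

open Module IsDedekindDomain IsLocalRing
open Fermat.Agent.UNIP

section Ord

variable {R K L : Type*} [CommRing R] [IsDomain R] [IsDiscreteValuationRing R]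
  [Field K] [Field L] [Algebra R K] [IsFractionRing R K] [Algebra K L] [Algebra R L]
  [IsScalarTower R K L] [FiniteDimensional K L] [Algebra.IsSeparable K L]

/-- `x` has order at least `k` at the prime cut out by `O`: `x = a / b`, `a ∈ P ^ k`, `b ∉ P`. -/
def S36Ord (O : ValuationSubring L) (hO : ∀ r : R, algebraMap R L r ∈ O) (k : ℕ) (x : L) : Prop :=
  ∃ a b : integralClosure R L, a ∈ unipPrime O hO ^ k ∧ b ∉ unipPrime O hO ∧
    x * (b : L) = (a : L)

include K in
theorem s36Ord_zero (O : ValuationSubring L) (hO : ∀ r : R, algebraMap R L r ∈ O)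
    (hdom : ∀ r ∈ maximalIdeal R, algebraMap R L r ∈ O.nonunits) {x : L} (hx : x ∈ O) :
    S36Ord O hO 0 x := by
  obtain ⟨a, b, hb, hab⟩ := s36n2e_key (K := K) O hO hdom hx
  exact ⟨a, b, by rw [pow_zero, Ideal.one_eq_top]; trivial, hb, hab⟩

include K in
theorem s36Ord_one (O : ValuationSubring L) (hO : ∀ r : R, algebraMap R L r ∈ O)
    (hdom : ∀ r ∈ maximalIdeal R, algebraMap R L r ∈ O.nonunits) {x : L}
    (hx : x ∈ O.nonunits) : S36Ord O hO 1 x := by
  obtain ⟨a, b, ha, hb, hab⟩ := s36n2e_key_nonunits (K := K) O hO hdom hx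
  exact ⟨a, b, by rw [pow_one]; exact ha, hb, hab⟩

theorem s36Ord_mul (O : ValuationSubring L) (hO : ∀ r : R, algebraMap R L r ∈ O)
    {k l : ℕ} {x y : L} (hx : S36Ord O hO k x) (hy : S36Ord O hO l y) :
    S36Ord O hO (k + l) (x * y) := by
  obtain ⟨a, b, ha, hb, hab⟩ := hx
  obtain ⟨a', b', ha', hb', hab'⟩ := hy
  refine ⟨a * a', b * b', ?_, ?_, ?_⟩
  · rw [pow_add]
    exact Ideal.mul_mem_mul ha ha'
  · intro h
    rcases (unipPrime_isPrime O hO).mem_or_mem h with h1 | h1
    · exact hb h1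
    · exact hb' h1
  · push_cast
    rw [← hab, ← hab']
    ring

theorem s36Ord_pow (O : ValuationSubring L) (hO : ∀ r : R, algebraMap R L r ∈ O)
    {k : ℕ} {x : L} (hx : S36Ord O hO k x) (m : ℕ) : S36Ord O hO (m * k) (x ^ m) := by
  obtain ⟨a, b, ha, hb, hab⟩ := hx
  refine ⟨a ^ m, b ^ m, ?_, ?_, ?_⟩
  · rw [mul_comm, pow_mul]
    exact Ideal.pow_mem_pow ha m
  · intro h
    exact hb ((unipPrime_isPrime O hO).mem_of_pow_mem m h)
  · push_cast
    rw [← hab]
    ring

include K in
set_option synthInstance.maxHeartbeats 400000 in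
set_option maxHeartbeats 1600000 in
/-- an integral element of order `≥ k` lies in `P ^ k` (`P` is maximal, so `P ^ k` is primary) -/
theorem s36Ord_mem (O : ValuationSubring L) (hO : ∀ r : R, algebraMap R L r ∈ O)
    (hdom : ∀ r ∈ maximalIdeal R, algebraMap R L r ∈ O.nonunits)
    {k : ℕ} {s : integralClosure R L} (hs : S36Ord O hO k (s : L)) :
    s ∈ unipPrime O hO ^ k := by
  obtain ⟨a, b, ha, hb, hab⟩ := hs
  rcases Nat.eq_zero_or_pos k with hk | hk
  · subst hk
    rw [pow_zero, Ideal.one_eq_top]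
    trivial
  have hmax : (unipPrime O hO).IsMaximal := s36n2e_prime_isMaximal (K := K) O hO hdom
  have hrad : (unipPrime O hO ^ k).radical = unipPrime O hO := by
    rw [Ideal.radical_pow _ (Nat.pos_iff_ne_zero.mp hk), Ideal.IsPrime.radical inferInstance]
  have hprim : (unipPrime O hO ^ k).IsPrimary := by
    apply Ideal.isPrimary_of_isMaximal_radical
    rw [hrad]
    exact hmax
  have hsb : s * b ∈ unipPrime O hO ^ k := by
    have : s * b = a := by
      apply Subtype.ext
      push_cast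
      exact hab
    rw [this]
    exact ha
  rcases (Ideal.isPrimary_iff.mp hprim).2 hsb with h1 | h1
  · exact h1
  · rw [hrad] at h1
    exact absurd h1 hb

include K in
set_option synthInstance.maxHeartbeats 400000 in
set_option maxHeartbeats 1600000 in
/-- if the uniformizer `ϖ` of `R` has order `≥ k` at `O`, then `k ≤ e` -/
theorem s36Ord_le_ramificationIdx (O : ValuationSubring L)
    (hO : ∀ r : R, algebraMap R L r ∈ O)
    (hdom : ∀ r ∈ maximalIdeal R, algebraMap R L r ∈ O.nonunits)
    {ϖ : R} (hϖ : maximalIdeal R ≤ Ideal.span {ϖ})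
    {k : ℕ} (hk : S36Ord O hO k (algebraMap R L ϖ)) :
    k ≤ (unipPrime O hO).ramificationIdx R := by
  have : IsTorsionFree R L := .trans_faithfulSMul R K L
  have : IsDedekindDomain (integralClosure R L) := integralClosure.isDedekindDomain R K L
  have : IsTorsionFree R (integralClosure R L) := IsIntegralClosure.isTorsionFree R L
  have hlo : (unipPrime O hO).LiesOver (maximalIdeal R) := unipPrime_liesOver O hO hdom
  apply s36n2e_le_ramificationIdx (maximalIdeal R) (IsDiscreteValuationRing.not_a_field R)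
  have h1 : algebraMap R (integralClosure R L) ϖ ∈ unipPrime O hO ^ k :=
    s36Ord_mem (K := K) O hO hdom hk
  calc (maximalIdeal R).map (algebraMap R (integralClosure R L))
      ≤ (Ideal.span {ϖ}).map (algebraMap R (integralClosure R L)) := Ideal.map_mono hϖ
    _ = Ideal.span {algebraMap R (integralClosure R L) ϖ} := by
        rw [Ideal.map_span, Set.image_singleton]
    _ ≤ unipPrime O hO ^ k := (Ideal.span_singleton_le_iff_mem _).mpr h1

include K in
set_option synthInstance.maxHeartbeats 400000 in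
set_option maxHeartbeats 1600000 in
/-- **(RAM)**: if `e ≤ m` then `x ^ m ∈ ϖ O` for every `x` in the maximal ideal of `O`. -/
theorem s36n2e_ram (O : ValuationSubring L)
    (hO : ∀ r : R, algebraMap R L r ∈ O)
    (hdom : ∀ r ∈ maximalIdeal R, algebraMap R L r ∈ O.nonunits)
    {ϖ : R} (hϖ : maximalIdeal R ≤ Ideal.span {ϖ}) (hϖ0 : ϖ ≠ 0)
    {m : ℕ} (he : (unipPrime O hO).ramificationIdx R ≤ m)
    {x : L} (hx : x ∈ O.nonunits) : ∃ z ∈ O, x ^ m = algebraMap R L ϖ * z := by
  have : IsTorsionFree R L := .trans_faithfulSMul R K L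
  have hϖL : algebraMap R L ϖ ≠ 0 := by
    intro h
    apply hϖ0
    have hinj : Function.Injective (algebraMap R L) := FaithfulSMul.algebraMap_injective R L
    exact hinj (by rw [h, map_zero])
  by_cases hz : x ^ m / algebraMap R L ϖ ∈ O
  · exact ⟨_, hz, by field_simp⟩
  exfalso
  -- `y := ϖ / x ^ m` lies in the maximal ideal
  have hy : algebraMap R L ϖ / x ^ m ∈ O.nonunits := by
    rw [ValuationSubring.mem_nonunits_iff]
    have h1 : ¬ O.valuation (x ^ m / algebraMap R L ϖ) ≤ 1 := by
      rw [ValuationSubring.valuation_le_one_iff]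
      exact hz
    have h2 : O.valuation (algebraMap R L ϖ / x ^ m) = (O.valuation (x ^ m / algebraMap R L ϖ))⁻¹ := by
      rw [← map_inv₀, inv_div]
    rw [h2]
    exact inv_lt_one_of_one_lt₀ (not_le.mp h1)
  have hxm : x ^ m ≠ 0 := by
    intro h
    apply hz
    rw [h, zero_div]
    exact O.zero_mem
  have hord : S36Ord O hO (m * 1 + 1) (algebraMap R L ϖ) := by
    have h1 := s36Ord_mul O hO (s36Ord_pow O hO (s36Ord_one (K := K) O hO hdom hx) m)
      (s36Ord_one (K := K) O hO hdom hy)
    have h2 : x ^ m * (algebraMap R L ϖ / x ^ m) = algebraMap R L ϖ := by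
      field_simp
    rwa [h2] at h1
  have := s36Ord_le_ramificationIdx (K := K) O hO hdom hϖ hord
  omega

include K in
/-- two dominating valuation rings cutting out the same prime have the same maximal ideal -/
theorem s36n2e_mem_of_prime_eq (O₁ O₂ : ValuationSubring L)
    (h₁ : ∀ r : R, algebraMap R L r ∈ O₁)
    (hdom₁ : ∀ r ∈ maximalIdeal R, algebraMap R L r ∈ O₁.nonunits)
    (h₂ : ∀ r : R, algebraMap R L r ∈ O₂)
    (heq : unipPrime O₁ h₁ = unipPrime O₂ h₂) {g : L} (hg : g ∈ O₁.nonunits) :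
    g ∈ O₂.nonunits := by
  obtain ⟨a, b, ha, hb, hab⟩ := s36n2e_key_nonunits (K := K) O₁ h₁ hdom₁ hg
  have ha2 : (a : L) ∈ O₂.nonunits := by
    rw [← mem_unipPrime O₂ h₂, ← heq]
    exact ha
  have hb2 : O₂.valuation (b : L) = 1 := by
    apply s36n2e_val_eq_one O₂ h₂
    rw [← heq]
    exact hb
  rw [ValuationSubring.mem_nonunits_iff] at ha2 ⊢
  rw [← hab, map_mul, hb2, mul_one] at ha2
  exact ha2

end Ord

/-- Hypotheses of the two-valuation theorem at level `q²`: two valuation rings `O₁ ≠ O₂` of `L`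
dominating the discrete valuation ring `R` (uniformizer `ϖ`), the second one ramified of index
`≥ n` (`ϖ = t ^ n · z`). -/
structure S36TwoVal (R : Type*) {L : Type*} [CommRing R] [IsLocalRing R] [Field L] [Algebra R L]
    (O₁ O₂ : ValuationSubring L) (n : ℕ) (ϖ : R) : Prop where
  le₁ : ∀ r : R, algebraMap R L r ∈ O₁
  le₂ : ∀ r : R, algebraMap R L r ∈ O₂
  dom₁ : ∀ r ∈ maximalIdeal R, algebraMap R L r ∈ O₁.nonunits
  dom₂ : ∀ r ∈ maximalIdeal R, algebraMap R L r ∈ O₂.nonunits
  unif : maximalIdeal R ≤ Ideal.span {ϖ}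
  sep : ∃ g : L, (g ∈ O₁.nonunits ∧ g ∉ O₂.nonunits) ∨ (g ∈ O₂.nonunits ∧ g ∉ O₁.nonunits)
  ram : ∃ t z : L, t ∈ O₂.nonunits ∧ z ∈ O₂ ∧ algebraMap R L ϖ = t ^ n * z

/-- Hypotheses of the one-valuation theorem: a valuation ring `O` of `L` dominating `R` with `n`
integral elements whose residues are independent over the residue field of `R`. -/
structure S36OneVal (R : Type*) {L : Type*} [CommRing R] [IsLocalRing R] [Field L] [Algebra R L]
    (O : ValuationSubring L) (n : ℕ) (ϖ : R) : Prop where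
  le : ∀ r : R, algebraMap R L r ∈ O
  dom : ∀ r ∈ maximalIdeal R, algebraMap R L r ∈ O.nonunits
  unif : maximalIdeal R ≤ Ideal.span {ϖ}
  indep : ∃ y : Fin n → L, (∀ i, IsIntegral R (y i)) ∧
    ∀ c : Fin n → R, (∑ i, algebraMap R L (c i) * y i) ∈ O.nonunits →
      ∀ i, c i ∈ maximalIdeal R

section Main

variable {R K L : Type*} [CommRing R] [IsDomain R] [IsDiscreteValuationRing R]
  [Field K] [Field L] [Algebra R K] [IsFractionRing R K] [Algebra K L] [Algebra R L]
  [IsScalarTower R K L] [FiniteDimensional K L] [Algebra.IsSeparable K L]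

include K in
set_option synthInstance.maxHeartbeats 400000 in
set_option maxHeartbeats 1600000 in
/-- **Two-valuation theorem, level `q²`.**  In the situation `S36TwoVal` with `[L : K] = n + 1`:
(EXT) the integral closure of `R` in `L` is `O₁ ∩ O₂`; (F₁), (F₂) the residue fields of `O₁` and
`O₂` are that of `R`; (U₁) `O₁` is unramified; (RAM₂) `e(O₂) = n`. -/
theorem s36n2e_twoVal_main {n : ℕ} (hdeg : finrank K L = n + 1)
    {O₁ O₂ : ValuationSubring L} {ϖ : R} (h : S36TwoVal R O₁ O₂ n ϖ) :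
    (∀ x ∈ O₁, x ∈ O₂ → IsIntegral R x) ∧
      (∀ x ∈ O₁, ∃ c : R, x - algebraMap R L c ∈ O₁.nonunits) ∧
      (∀ x ∈ O₂, ∃ c : R, x - algebraMap R L c ∈ O₂.nonunits) ∧
      (∀ x ∈ O₁.nonunits, ∃ z ∈ O₁, x = algebraMap R L ϖ * z) ∧
      (∀ x ∈ O₂.nonunits, ∃ z ∈ O₂, x ^ n = algebraMap R L ϖ * z) := by
  classical
  have : IsTorsionFree R L := .trans_faithfulSMul R K L
  have : IsDedekindDomain (integralClosure R L) := integralClosure.isDedekindDomain R K L
  have : IsFractionRing (integralClosure R L) L :=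
    integralClosure.isFractionRing_of_finite_extension K L
  have : Module.Finite R (integralClosure R L) :=
    IsIntegralClosure.finite R K L (integralClosure R L)
  have : IsTorsionFree R (integralClosure R L) := IsIntegralClosure.isTorsionFree R L
  have : Module.Flat R (integralClosure R L) := inferInstance
  have hrank : finrank R (integralClosure R L) = n + 1 := by
    rw [IsIntegralClosure.rank R K L (integralClosure R L), hdeg]
  set P₁ := unipPrime O₁ h.le₁ with hP₁
  set P₂ := unipPrime O₂ h.le₂ with hP₂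
  have hlo₁ : P₁.LiesOver (maximalIdeal R) := unipPrime_liesOver O₁ h.le₁ h.dom₁
  have hlo₂ : P₂.LiesOver (maximalIdeal R) := unipPrime_liesOver O₂ h.le₂ h.dom₂
  have hϖ0 : ϖ ≠ 0 := by
    intro h0
    have h1 := h.unif
    rw [h0, Ideal.span_singleton_zero, le_bot_iff] at h1
    exact IsDiscreteValuationRing.not_a_field R h1
  -- the two primes are distinct
  have hne : P₁ ≠ P₂ := by
    obtain ⟨g, ⟨hg1, hg2⟩ | ⟨hg2, hg1⟩⟩ := h.sep
    · intro heq
      exact hg2 (s36n2e_mem_of_prime_eq (K := K) O₁ O₂ h.le₁ h.dom₁ h.le₂ heq hg1)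
    · intro heq
      exact hg1 (s36n2e_mem_of_prime_eq (K := K) O₂ O₁ h.le₂ h.dom₂ h.le₁ heq.symm hg2)
  -- ramification of the second one
  have he : n ≤ P₂.ramificationIdx R := by
    obtain ⟨t, z, ht, hz, htz⟩ := h.ram
    have hord : S36Ord O₂ h.le₂ (n * 1 + 0) (algebraMap R L ϖ) := by
      rw [htz]
      exact s36Ord_mul O₂ h.le₂
        (s36Ord_pow O₂ h.le₂ (s36Ord_one (K := K) O₂ h.le₂ h.dom₂ ht) n)
        (s36Ord_zero (K := K) O₂ h.le₂ h.dom₂ hz)
    have h1 := s36Ord_le_ramificationIdx (K := K) O₂ h.le₂ h.dom₂ h.unif hord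
    have h2 : n * 1 + 0 = n := by omega
    rw [h2] at h1
    exact h1
  have hf₂pos : 0 < P₂.inertiaDeg R := Ideal.inertiaDeg_pos P₂ R
  have he₂pos : 0 < P₂.ramificationIdx R := Ideal.ramificationIdx_pos P₂ R
  have hef : n ≤ P₂.ramificationIdx R * P₂.inertiaDeg R :=
    le_trans he (Nat.le_mul_of_pos_right _ hf₂pos)
  obtain ⟨hall, he₁, hf₁, hef₂⟩ := s36n2e_two_primes (maximalIdeal R) P₁ P₂ hne n hrank hef
  have hn : 0 < n := by
    rw [← hef₂]
    exact Nat.mul_pos he₂pos hf₂pos
  have hf₂ : P₂.inertiaDeg R = 1 := by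
    have h1 : n * P₂.inertiaDeg R ≤ n * 1 := by
      calc n * P₂.inertiaDeg R ≤ P₂.ramificationIdx R * P₂.inertiaDeg R :=
            Nat.mul_le_mul_right _ he
        _ = n := hef₂
        _ = n * 1 := (mul_one n).symm
    have h2 := Nat.le_of_mul_le_mul_left h1 hn
    omega
  have he₂ : P₂.ramificationIdx R = n := by
    rw [hf₂, mul_one] at hef₂
    exact hef₂
  refine ⟨?_, ?_, ?_, ?_, ?_⟩
  · intro x hx₁ hx₂
    let O : Bool → ValuationSubring L := fun b => cond b O₁ O₂
    have hO : ∀ i, ∀ r : R, algebraMap R L r ∈ O i := by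
      intro i
      cases i
      · exact h.le₂
      · exact h.le₁
    have hdom : ∀ i, ∀ r ∈ maximalIdeal R, algebraMap R L r ∈ (O i).nonunits := by
      intro i
      cases i
      · exact h.dom₂
      · exact h.dom₁
    refine s36n2e_ext (K := K) O hO hdom ?_ ?_
    · intro P hP hPl
      rcases hall P hP hPl with h1 | h1
      · exact ⟨true, h1⟩
      · exact ⟨false, h1⟩
    · intro i
      cases i
      · exact hx₂
      · exact hx₁
  · intro x hx
    exact s36n2e_resid (K := K) O₁ h.le₁ h.dom₁ hf₁ hx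
  · intro x hx
    exact s36n2e_resid (K := K) O₂ h.le₂ h.dom₂ hf₂ hx
  · intro x hx
    obtain ⟨z, hz, hxz⟩ := s36n2e_ram (K := K) O₁ h.le₁ h.dom₁ h.unif hϖ0 (m := 1)
      (le_of_eq he₁) hx
    exact ⟨z, hz, by rw [← hxz, pow_one]⟩
  · intro x hx
    exact s36n2e_ram (K := K) O₂ h.le₂ h.dom₂ h.unif hϖ0 (le_of_eq he₂) hx

include K in
set_option synthInstance.maxHeartbeats 400000 in
set_option maxHeartbeats 1600000 in
/-- **One-valuation theorem.**  In the situation `S36OneVal` with `[L : K] = n`: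
(EXT) the integral closure of `R` in `L` is `O`; (U) `O` is unramified over `R`. -/
theorem s36n2e_oneVal_main {n : ℕ} (hdeg : finrank K L = n)
    {O : ValuationSubring L} {ϖ : R} (h : S36OneVal R O n ϖ) :
    (∀ x ∈ O, IsIntegral R x) ∧
      (∀ x ∈ O.nonunits, ∃ z ∈ O, x = algebraMap R L ϖ * z) := by
  classical
  have : IsTorsionFree R L := .trans_faithfulSMul R K L
  have : IsDedekindDomain (integralClosure R L) := integralClosure.isDedekindDomain R K L
  have : IsFractionRing (integralClosure R L) L :=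
    integralClosure.isFractionRing_of_finite_extension K L
  have : Module.Finite R (integralClosure R L) :=
    IsIntegralClosure.finite R K L (integralClosure R L)
  have : IsTorsionFree R (integralClosure R L) := IsIntegralClosure.isTorsionFree R L
  have : Module.Flat R (integralClosure R L) := inferInstance
  have hrank : finrank R (integralClosure R L) = n := by
    rw [IsIntegralClosure.rank R K L (integralClosure R L), hdeg]
  set P := unipPrime O h.le with hP
  have hlo : P.LiesOver (maximalIdeal R) := unipPrime_liesOver O h.le h.dom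
  have hϖ0 : ϖ ≠ 0 := by
    intro h0
    have h1 := h.unif
    rw [h0, Ideal.span_singleton_zero, le_bot_iff] at h1
    exact IsDiscreteValuationRing.not_a_field R h1
  have hf : n ≤ P.inertiaDeg R := by
    obtain ⟨y, hy, hind⟩ := h.indep
    exact unip_le_inertiaDeg (K := K) O h.le h.dom y hy hind
  have hepos : 0 < P.ramificationIdx R := Ideal.ramificationIdx_pos P R
  have hfpos : 0 < P.inertiaDeg R := Ideal.inertiaDeg_pos P R
  have hef : n ≤ P.ramificationIdx R * P.inertiaDeg R :=
    le_trans hf (Nat.le_mul_of_pos_left _ hepos)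
  obtain ⟨hall, hef'⟩ := s36n2e_one_prime (maximalIdeal R) P n hrank hef
  have he : P.ramificationIdx R = 1 := by
    have h1 : P.ramificationIdx R * P.inertiaDeg R ≤ 1 * P.inertiaDeg R := by
      rw [hef', one_mul]
      exact hf
    have h2 := Nat.le_of_mul_le_mul_right h1 hfpos
    omega
  refine ⟨?_, ?_⟩
  · intro x hx
    refine s36n2e_ext (K := K) (fun _ : Unit => O) (fun _ => h.le) (fun _ => h.dom) ?_
      (fun _ => hx)
    intro P' hP' hPl
    exact ⟨(), hall P' hP' hPl⟩
  · intro x hx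
    obtain ⟨z, hz, hxz⟩ := s36n2e_ram (K := K) O h.le h.dom h.unif hϖ0 (m := 1)
      (le_of_eq he) hx
    exact ⟨z, hz, by rw [← hxz, pow_one]⟩

end Main

end Fermat.Agent.S36
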