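import Mathlib
import Fermat.Agent.UNIP.NodesAbs
import Fermat.Agent.S36.N2ExtPrimes
import Fermat.Agent.S36.N2ExtAbs
import Fermat.Agent.S36.N2ExtMain

/-!
# S36 / G-N2, piece N2-ext, ring homomorphism form (helper19)

`φ : F₁ →+* F` a finite separable extension of fields (algebra structure `φ.toAlgebra`, as in
`S36/N2Abs.lean`), `W` a discrete valuation subring of `F₁` with uniformizer `ϖ`
(`𝔪(W) = ϖ W`), `V₁`, `V₂`, `V` valuation subrings of `F`.

* `S36TwoHom φ W ϖ V₁ V₂ n` + `s36n2e_two_hom` : patterns `(α, ∞)` and `(β, 0)`.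
* `S36OneHom φ W ϖ V n` + `s36n2e_one_hom` : patterns `(α, 0)` and `(β, ∞)`.

Outputs: `S36ExtOut φ W x` (integrality of `x` over `φ W`, in three equivalent forms),
residue surjectivity (F), and the ramification statements (U), (RAM).
-/

set_option autoImplicit false
set_option linter.unusedSectionVars false
set_option linter.style.haveILetI false

noncomputable section

namespace Fermat.Agent.S36

open Module IsLocalRing Polynomial
open Fermat.Agent.UNIP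

variable {F₁ F : Type*} [Field F₁] [Field F]

/-- the algebra structure `W → F₁ → F` -/
@[reducible] def s36n2eAlg (φ : F₁ →+* F) (W : ValuationSubring F₁) : Algebra W F :=
  (φ.comp W.subtype).toAlgebra

/-- Hypotheses of the two-valuation theorem, ring homomorphism form. -/
structure S36TwoHom (φ : F₁ →+* F) (W : ValuationSubring F₁) (ϖ : F₁)
    (V₁ V₂ : ValuationSubring F) (n : ℕ) : Prop where
  unif_mem : ϖ ∈ W
  unif : ∀ x ∈ W.nonunits, ∃ y ∈ W, x = ϖ * y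
  le₁ : ∀ z ∈ W, φ z ∈ V₁
  le₂ : ∀ z ∈ W, φ z ∈ V₂
  dom₁ : ∀ z ∈ W.nonunits, φ z ∈ V₁.nonunits
  dom₂ : ∀ z ∈ W.nonunits, φ z ∈ V₂.nonunits
  sep : ∃ g : F, (g ∈ V₁.nonunits ∧ g ∉ V₂.nonunits) ∨ (g ∈ V₂.nonunits ∧ g ∉ V₁.nonunits)
  ram : ∃ t z : F, t ∈ V₂.nonunits ∧ z ∈ V₂ ∧ φ ϖ = t ^ n * z

/-- Hypotheses of the one-valuation theorem, ring homomorphism form. -/
structure S36OneHom (φ : F₁ →+* F) (W : ValuationSubring F₁) (ϖ : F₁)
    (V : ValuationSubring F) (n : ℕ) : Prop where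
  unif_mem : ϖ ∈ W
  unif : ∀ x ∈ W.nonunits, ∃ y ∈ W, x = ϖ * y
  le : ∀ z ∈ W, φ z ∈ V
  dom : ∀ z ∈ W.nonunits, φ z ∈ V.nonunits
  indep : ∃ y : Fin n → F,
    (∀ i, ∃ p : F₁[X], p.Monic ∧ (∀ k, p.coeff k ∈ W) ∧ p.eval₂ φ (y i) = 0) ∧
    ∀ c : Fin n → F₁, (∀ i, c i ∈ W) → (∑ i, φ (c i) * y i) ∈ V.nonunits →
      ∀ i, c i ∈ W.nonunits

/-- a monic polynomial with coefficients in `W` is the image of a monic polynomial over `W` -/
theorem s36n2e_lift_poly (W : ValuationSubring F₁) {p : F₁[X]} (hp : p.Monic)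
    (hc : ∀ k, p.coeff k ∈ W) :
    ∃ P : (W : Type _)[X], P.Monic ∧ P.map W.subtype = p := by
  have hlift : p ∈ Polynomial.lifts W.subtype := by
    rw [Polynomial.lifts_iff_coeff_lifts]
    intro k
    exact ⟨⟨p.coeff k, hc k⟩, rfl⟩
  obtain ⟨P, hP, -, hPm⟩ := Polynomial.lifts_and_degree_eq_and_monic hlift hp
  exact ⟨P, hPm, hP⟩

/-- integrality over `W` via `φ`, explicit form ⇒ `IsIntegral` -/
theorem s36n2e_isIntegral_of_poly (φ : F₁ →+* F) (W : ValuationSubring F₁) {x : F}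
    (h : ∃ p : F₁[X], p.Monic ∧ (∀ k, p.coeff k ∈ W) ∧ p.eval₂ φ x = 0) :
    letI := s36n2eAlg φ W
    IsIntegral W x := by
  letI := s36n2eAlg φ W
  obtain ⟨p, hp, hc, hx⟩ := h
  obtain ⟨P, hP, hPp⟩ := s36n2e_lift_poly W hp hc
  refine ⟨P, hP, ?_⟩
  rw [← hx, ← hPp, Polynomial.eval₂_map]
  rfl

/-- `IsIntegral` ⇒ explicit form -/
theorem s36n2e_poly_of_isIntegral (φ : F₁ →+* F) (W : ValuationSubring F₁) {x : F}
    (h : letI := s36n2eAlg φ W; IsIntegral W x) :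
    ∃ p : F₁[X], p.Monic ∧ (∀ k, p.coeff k ∈ W) ∧ p.eval₂ φ x = 0 := by
  letI := s36n2eAlg φ W
  obtain ⟨P, hP, hPx⟩ := h
  refine ⟨P.map W.subtype, hP.map _, ?_, ?_⟩
  · intro k
    rw [Polynomial.coeff_map]
    exact (P.coeff k).2
  · rw [Polynomial.eval₂_map]
    exact hPx

/-- `IsIntegral` ⇒ the minimal polynomial over `F₁` has its coefficients in `W` -/
theorem s36n2e_minpoly_of_isIntegral (φ : F₁ →+* F) (W : ValuationSubring F₁) {x : F}
    (h : letI := s36n2eAlg φ W; IsIntegral W x) (k : ℕ) :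
    letI := φ.toAlgebra
    (minpoly F₁ x).coeff k ∈ W := by
  letI := φ.toAlgebra
  letI := s36n2eAlg φ W
  haveI : IsScalarTower W F₁ F := IsScalarTower.of_algebraMap_eq (fun _ => rfl)
  rw [minpoly.isIntegrallyClosed_eq_field_fractions' F₁ h, Polynomial.coeff_map]
  exact ((minpoly W x).coeff k).2

section Inst

variable (φ : F₁ →+* F) (W : ValuationSubring F₁)

/-- membership in the maximal ideal of `W` -/
theorem s36n2e_mem_max {r : W} : r ∈ maximalIdeal W ↔ (r : F₁) ∈ W.nonunits :=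
  ValuationSubring.coe_mem_nonunits_iff.symm

theorem s36n2e_unif {ϖ : F₁} (hϖ : ϖ ∈ W) (h : ∀ x ∈ W.nonunits, ∃ y ∈ W, x = ϖ * y) :
    maximalIdeal W ≤ Ideal.span {(⟨ϖ, hϖ⟩ : W)} := by
  intro r hr
  obtain ⟨y, hy, hry⟩ := h (r : F₁) ((s36n2e_mem_max W).mp hr)
  rw [Ideal.mem_span_singleton']
  refine ⟨⟨y, hy⟩, ?_⟩
  apply Subtype.ext
  show y * ϖ = (r : F₁)
  rw [hry, mul_comm]

end Inst

set_option synthInstance.maxHeartbeats 400000 in
set_option maxHeartbeats 1600000 in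
/-- **Two-valuation theorem, ring homomorphism form** (patterns `(α, ∞)`, `(β, 0)`). -/
theorem s36n2e_two_hom (φ : F₁ →+* F)
    (hfin : letI := φ.toAlgebra; Module.Finite F₁ F)
    (hsep : letI := φ.toAlgebra; Algebra.IsSeparable F₁ F)
    {n : ℕ} (hdeg : letI := φ.toAlgebra; Module.finrank F₁ F = n + 1)
    (W : ValuationSubring F₁) (hW : IsDiscreteValuationRing W) {ϖ : F₁}
    {V₁ V₂ : ValuationSubring F} (h : S36TwoHom φ W ϖ V₁ V₂ n) :
    (∀ x ∈ V₁, x ∈ V₂ →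
        ∃ p : F₁[X], p.Monic ∧ (∀ k, p.coeff k ∈ W) ∧ p.eval₂ φ x = 0) ∧
      (∀ x ∈ V₁, ∃ c ∈ W, x - φ c ∈ V₁.nonunits) ∧
      (∀ x ∈ V₂, ∃ c ∈ W, x - φ c ∈ V₂.nonunits) ∧
      (∀ x ∈ V₁.nonunits, ∃ z ∈ V₁, x = φ ϖ * z) ∧
      (∀ x ∈ V₂.nonunits, ∃ z ∈ V₂, x ^ n = φ ϖ * z) := by
  letI := φ.toAlgebra
  letI := s36n2eAlg φ W
  haveI : IsScalarTower W F₁ F := IsScalarTower.of_algebraMap_eq (fun _ => rfl)
  haveI : FiniteDimensional F₁ F := hfin
  haveI : Algebra.IsSeparable F₁ F := hsep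
  haveI := hW
  have hT : S36TwoVal W V₁ V₂ n (⟨ϖ, h.unif_mem⟩ : W) :=
    { le₁ := fun r => h.le₁ _ r.2
      le₂ := fun r => h.le₂ _ r.2
      dom₁ := fun r hr => h.dom₁ _ ((s36n2e_mem_max W).mp hr)
      dom₂ := fun r hr => h.dom₂ _ ((s36n2e_mem_max W).mp hr)
      unif := s36n2e_unif W h.unif_mem h.unif
      sep := h.sep
      ram := h.ram }
  obtain ⟨h1, h2, h3, h4, h5⟩ := s36n2e_twoVal_main (K := F₁) hdeg hT
  refine ⟨?_, ?_, ?_, h4, h5⟩
  · intro x hx₁ hx₂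
    exact s36n2e_poly_of_isIntegral φ W (h1 x hx₁ hx₂)
  · intro x hx
    obtain ⟨c, hc⟩ := h2 x hx
    exact ⟨c, c.2, hc⟩
  · intro x hx
    obtain ⟨c, hc⟩ := h3 x hx
    exact ⟨c, c.2, hc⟩

set_option synthInstance.maxHeartbeats 400000 in
set_option maxHeartbeats 1600000 in
/-- **One-valuation theorem, ring homomorphism form** (patterns `(α, 0)`, `(β, ∞)`). -/
theorem s36n2e_one_hom (φ : F₁ →+* F)
    (hfin : letI := φ.toAlgebra; Module.Finite F₁ F)
    (hsep : letI := φ.toAlgebra; Algebra.IsSeparable F₁ F)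
    {n : ℕ} (hdeg : letI := φ.toAlgebra; Module.finrank F₁ F = n)
    (W : ValuationSubring F₁) (hW : IsDiscreteValuationRing W) {ϖ : F₁}
    {V : ValuationSubring F} (h : S36OneHom φ W ϖ V n) :
    (∀ x ∈ V, ∃ p : F₁[X], p.Monic ∧ (∀ k, p.coeff k ∈ W) ∧ p.eval₂ φ x = 0) ∧
      (∀ x ∈ V.nonunits, ∃ z ∈ V, x = φ ϖ * z) := by
  letI := φ.toAlgebra
  letI := s36n2eAlg φ W
  haveI : IsScalarTower W F₁ F := IsScalarTower.of_algebraMap_eq (fun _ => rfl)
  haveI : FiniteDimensional F₁ F := hfin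
  haveI : Algebra.IsSeparable F₁ F := hsep
  haveI := hW
  have hT : S36OneVal W V n (⟨ϖ, h.unif_mem⟩ : W) :=
    { le := fun r => h.le _ r.2
      dom := fun r hr => h.dom _ ((s36n2e_mem_max W).mp hr)
      unif := s36n2e_unif W h.unif_mem h.unif
      indep := by
        obtain ⟨y, hy, hind⟩ := h.indep
        refine ⟨y, fun i => s36n2e_isIntegral_of_poly φ W (hy i), ?_⟩
        intro c hc i
        rw [s36n2e_mem_max]
        exact hind (fun i => (c i : F₁)) (fun i => (c i).2) hc i }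
  obtain ⟨h1, h2⟩ := s36n2e_oneVal_main (K := F₁) hdeg hT
  refine ⟨?_, h2⟩
  intro x hx
  exact s36n2e_poly_of_isIntegral φ W (h1 x hx)

end Fermat.Agent.S36
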