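/-
S36 (Carayol at `q² ∥ M`), geometric clause, piece "NormGlue" (helper19), part 0:
the calculus of multiplicative congruences at a valuation subring.

`NgC V x y` ("`x ≡ y` at `V`, multiplicatively") means `x / y - 1 ∈ 𝔪(V)`.  It forces
`x ≠ 0`, `y ≠ 0` and `v(x) = v(y)`; it is an equivalence relation on `Fˣ`, compatible with
products, powers, inverses and quotients, with ring homomorphisms that respect the maximal
ideals, and `m`-th roots can be extracted up to an `m`-th root of unity.

Mathlib + `UNIP/PowerInd.lean` (Mathlib only) + `STB/GluingInv.lean` (Mathlib only).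
-/
import Mathlib
import Fermat.Agent.UNIP.PowerInd
import Fermat.Agent.STB.GluingInv

set_option autoImplicit false

namespace Fermat.Agent.S36

open Fermat.Agent.UNIP Fermat.Agent.STB

variable {F : Type*} [Field F]

/-- multiplicative congruence at a valuation subring: `x / y ≡ 1` -/
def NgC (V : ValuationSubring F) (x y : F) : Prop := x / y - 1 ∈ V.nonunits

namespace NgC

variable {V : ValuationSubring F} {x y z x' y' : F}

theorem ne_zero_left (h : NgC V x y) : x ≠ 0 := by
  intro h0
  exact stb_ne_zero_of_congr V h (by rw [h0, zero_div])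

theorem ne_zero_right (h : NgC V x y) : y ≠ 0 := by
  intro h0
  exact stb_ne_zero_of_congr V h (by rw [h0, div_zero])

theorem refl (hx : x ≠ 0) : NgC V x x := by
  unfold NgC
  rw [div_self hx, sub_self]
  exact V.nonunits.zero_mem

theorem of_eq (hx : x ≠ 0) (h : x = y) : NgC V x y := h ▸ refl hx

theorem symm (h : NgC V x y) : NgC V y x := by
  have := stb_congr_inv V h
  unfold NgC
  rwa [inv_div] at this

theorem trans (h₁ : NgC V x y) (h₂ : NgC V y z) : NgC V x z := by
  have hy := h₁.ne_zero_right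
  have hz := h₂.ne_zero_right
  have := pwi_congr_mul V h₁ h₂
  unfold NgC
  have e : x / y * (y / z) = x / z := by field_simp
  rwa [e] at this

theorem mul (h₁ : NgC V x y) (h₂ : NgC V x' y') : NgC V (x * x') (y * y') := by
  have hy := h₁.ne_zero_right
  have hy' := h₂.ne_zero_right
  have := pwi_congr_mul V h₁ h₂
  unfold NgC
  have e : x / y * (x' / y') = x * x' / (y * y') := by field_simp
  rwa [e] at this

theorem inv (h : NgC V x y) : NgC V x⁻¹ y⁻¹ := by
  have := stb_congr_inv V h
  unfold NgC
  have e : (x / y)⁻¹ = x⁻¹ / y⁻¹ := by rw [inv_div, inv_div_inv]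
  rwa [e] at this

theorem div (h₁ : NgC V x y) (h₂ : NgC V x' y') : NgC V (x / x') (y / y') := by
  rw [div_eq_mul_inv, div_eq_mul_inv]
  exact h₁.mul h₂.inv

theorem pow (h : NgC V x y) (n : ℕ) : NgC V (x ^ n) (y ^ n) := by
  have := pwi_congr_pow V h n
  unfold NgC
  rwa [div_pow] at this

theorem val_eq (h : NgC V x y) : V.valuation x = V.valuation y := by
  have h1 := pwi_val_eq_one V h
  have hy := h.ne_zero_right
  rw [map_div₀] at h1
  have hvy : V.valuation y ≠ 0 := (V.valuation.ne_zero_iff).2 hy
  exact (div_eq_one_iff_eq hvy).1 h1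

theorem val_eq_one_left (h : NgC V x y) (hy : V.valuation y = 1) : V.valuation x = 1 :=
  h.val_eq.trans hy

theorem val_eq_one_right (h : NgC V x y) (hx : V.valuation x = 1) : V.valuation y = 1 :=
  h.val_eq.symm.trans hx

/-- additive form: `x ≡ y`, `y ∈ V` ⇒ `x - y ∈ 𝔪(V)` -/
theorem sub_mem (h : NgC V x y) (hy : y ∈ V) : x - y ∈ V.nonunits :=
  stb_sub_of_div_congr V hy h.ne_zero_right h

/-- from the additive form: `x - y ∈ 𝔪(V)`, `y` a unit of `V` ⇒ `x ≡ y` -/
theorem of_sub (hy : V.valuation y = 1) (h : x - y ∈ V.nonunits) : NgC V x y :=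
  stb_div_congr V hy h

end NgC

/-- an element of valuation one is nonzero -/
theorem ng_ne_zero_of_val {V : ValuationSubring F} {x : F} (h : V.valuation x = 1) : x ≠ 0 := by
  intro h0
  rw [h0, map_zero] at h
  exact zero_ne_one h

/-- an element of valuation one lies in `V` -/
theorem ng_mem_of_val {V : ValuationSubring F} {x : F} (h : V.valuation x = 1) : x ∈ V :=
  (V.valuation_le_one_iff x).1 h.le

/-- valuation of a power -/
theorem ng_val_pow {V : ValuationSubring F} {x : F} (h : V.valuation x = 1) (n : ℕ) :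
    V.valuation (x ^ n) = 1 := by
  rw [map_pow, h, one_pow]

/-- valuation of a product -/
theorem ng_val_mul {V : ValuationSubring F} {x y : F} (hx : V.valuation x = 1)
    (hy : V.valuation y = 1) : V.valuation (x * y) = 1 := by
  rw [map_mul, hx, hy, one_mul]

/-- valuation of a quotient -/
theorem ng_val_div {V : ValuationSubring F} {x y : F} (hx : V.valuation x = 1)
    (hy : V.valuation y = 1) : V.valuation (x / y) = 1 := by
  rw [map_div₀, hx, hy, div_one]

/-- **Roots.**  `x ^ m ≡ y ^ m` at `V` ⇒ `x ≡ ζ ^ k · y` for some `k < m`. -/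
theorem NgC.root {V : ValuationSubring F} {m : ℕ} (hm : 0 < m) {ζ : F}
    (hζ : IsPrimitiveRoot ζ m) {x y : F} (h : NgC V (x ^ m) (y ^ m)) :
    ∃ k, k < m ∧ NgC V x (ζ ^ k * y) := by
  have hy0 : y ≠ 0 := fun h0 => h.ne_zero_right (by rw [h0, zero_pow hm.ne'])
  have h1 : (x / y) ^ m - 1 ∈ V.nonunits := by
    have := h
    unfold NgC at this
    rwa [← div_pow] at this
  obtain ⟨k, hk, hk'⟩ := pwi_exists_root_val V hm hζ h1
  refine ⟨k, hk, ?_⟩
  have hζ0 : ζ ^ k ≠ 0 := pow_ne_zero _ (hζ.ne_zero hm.ne')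
  have hvζ : V.valuation (ζ ^ k) = 1 := by
    rw [map_pow, pwi_val_root V hm hζ, one_pow]
  have h2 : NgC V (x / y) (ζ ^ k) := NgC.of_sub hvζ hk'
  have h3 := h2.mul (NgC.refl (V := V) hy0)
  have e : x / y * y = x := by field_simp
  rwa [e] at h3

/-- transport of a congruence along a ring homomorphism respecting the maximal ideals -/
theorem NgC.map {F₁ : Type*} [Field F₁] {W : ValuationSubring F₁} {V : ValuationSubring F}
    (φ : F₁ →+* F) (hφ : ∀ z, z ∈ W.nonunits → φ z ∈ V.nonunits) {x y : F₁}
    (h : NgC W x y) : NgC V (φ x) (φ y) := by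
  have := hφ _ h
  unfold NgC
  rwa [map_sub, map_div₀, map_one] at this

/-- reflection of a congruence along a ring homomorphism reflecting the maximal ideals -/
theorem NgC.comap {F₁ : Type*} [Field F₁] {W : ValuationSubring F₁} {V : ValuationSubring F}
    (φ : F₁ →+* F) (hφ : ∀ z, φ z ∈ V.nonunits → z ∈ W.nonunits) {x y : F₁}
    (h : NgC V (φ x) (φ y)) : NgC W x y := by
  apply hφ
  unfold NgC at h
  rwa [map_sub, map_div₀, map_one]

end Fermat.Agent.S36
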