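/-
S36 (Carayol at `q² ∥ M`), geometric clause, piece "NormGlue" (helper19).

ABSTRACT ALGEBRA (no modular forms): from the four norm–residue formulas of level `q²` to
(A) "new ⇒ toric" and (B) "new + toric ⇒ the gluing of `y ^ (q² − 1)` is trivial at every
triple point".

Setting.  `F₁ ⊂ F` function fields of level `M₁ = q M'` and `N = q² M'` over the small field,
`φ : F₁ → F` one of the two degeneracy embeddings (`α` or `β`), `N : F →* F₁` the norm along it.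
`W` a vertical valuation of `F₁`; `V₁, V₂` the two vertical valuations of `F` over `W`
(`e = f = 1` for `V₁`; `e = r`, `f = 1` for `V₂`), `V₃` the third vertical valuation of `F`
(over the other vertical valuation of `F₁`, purely inseparable of degree `Q`).
  for `φ = α` : `W = W_∞`, `(V₁, V₂, V₃) = (V_a, V_c, V_b)`,   `r = q − 1`, `Q = q`;
  for `φ = β` : `W = W_0`, `(V₁, V₂, V₃) = (V_b, V_c, V_a)`,   `r = q − 1`, `Q = q`.
`NgDir φ N W V₁ V₂ V₃ r Q` is the package of hypotheses ("Kronecker at level `q²`"):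
  `split` : `N x ≡ x₁ · x₂ ^ r` at `W` if `φ x₁ ≡ x` at `V₁`, `φ x₂ ≡ x` at `V₂`  (x a unit at both),
  `insep` : `φ (N x) ≡ x ^ Q` at `V₃`                                              (x a unit),
  + residue surjectivity (`f = 1`) and `𝔪(W) = φ⁻¹ 𝔪(V_i)`, `i = 1, 2`.

Results.
* `ng_toric_insep`, `ng_toric_split`, `ng_toric` : (A).
* `ng_hol_global`, `ng_hol_local` : one direction of (B): with GLOBAL exponents `k, k'`,
  at every triple point  `ζ^k · a₁ · a₂^r = ζ^k' · a₃^Q`  (values at the point of the branch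
  units `a_i ≡ t_i / γ` of a local factorisation `y = ε γ^m`).
* `ng_combine`, `ng_hol` : both directions together: `ζ^{n_a} a_a^c = a_c^c = ζ^{n_b} a_b^c`,
  `c = (Q − 1)(Q + 1)`, with GLOBAL `n_a, n_b`.

See NOTES/S36-NormGlue.md.
-/
import Mathlib
import Fermat.Agent.S36.NormGlueCalc

set_option autoImplicit false

namespace Fermat.Agent.S36

open Fermat.Agent.UNIP Fermat.Agent.STB

universe uK

variable {F₁ F : Type*} [Field F₁] [Field F]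

/-- The norm–residue package of one degeneracy embedding `φ : F₁ → F` with norm `N`. -/
structure NgDir (φ : F₁ →+* F) (N : F →* F₁) (W : ValuationSubring F₁)
    (V₁ V₂ V₃ : ValuationSubring F) (r Q : ℕ) : Prop where
  map₁ : ∀ z, z ∈ W.nonunits → φ z ∈ V₁.nonunits
  map₂ : ∀ z, z ∈ W.nonunits → φ z ∈ V₂.nonunits
  comap₁ : ∀ z, φ z ∈ V₁.nonunits → z ∈ W.nonunits
  comap₂ : ∀ z, φ z ∈ V₂.nonunits → z ∈ W.nonunits
  surj₁ : ∀ x, V₁.valuation x = 1 → ∃ z, NgC V₁ (φ z) x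
  surj₂ : ∀ x, V₂.valuation x = 1 → ∃ z, NgC V₂ (φ z) x
  split : ∀ x x₁ x₂, V₁.valuation x = 1 → V₂.valuation x = 1 →
    NgC V₁ (φ x₁) x → NgC V₂ (φ x₂) x → NgC W (N x) (x₁ * x₂ ^ r)
  insep : ∀ x, V₃.valuation x = 1 → NgC V₃ (φ (N x)) (x ^ Q)

section Aux

/-- the norm of a nonzero element is nonzero -/
theorem ng_norm_ne_zero (N : F →* F₁) {x : F} (hx : x ≠ 0) : N x ≠ 0 := by
  intro h
  have h1 : N x * N x⁻¹ = 1 := by rw [← map_mul, mul_inv_cancel₀ hx, map_one]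
  rw [h, zero_mul] at h1
  exact zero_ne_one h1

/-- the norm of a quotient -/
theorem ng_norm_div (N : F →* F₁) (x : F) {y : F} (hy : y ≠ 0) : N (x / y) = N x / N y := by
  have hNy := ng_norm_ne_zero N hy
  rw [eq_div_iff hNy, ← map_mul, div_mul_cancel₀ x hy]

/-- Bézout in `ℕ`: `Q > 0` prime to `m > 0` ⇒ `Q a = 1 + m b`. -/
theorem ng_bezout {Q m : ℕ} (hQm : Nat.Coprime Q m) (hQ : 0 < Q) (hm : 0 < m) :
    ∃ a b : ℕ, Q * a = 1 + m * b := by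
  rcases Nat.lt_or_ge 1 m with h1 | h1
  · obtain ⟨a, -, ha⟩ := Nat.exists_mul_mod_eq_one_of_coprime hQm h1
    refine ⟨a, Q * a / m, ?_⟩
    have := Nat.div_add_mod (Q * a) m
    omega
  · have hm1 : m = 1 := by omega
    subst hm1
    exact ⟨1, Q - 1, by omega⟩

end Aux

section Toric

variable {φ : F₁ →+* F} {N : F →* F₁} {W : ValuationSubring F₁}
  {V₁ V₂ V₃ : ValuationSubring F} {r Q : ℕ}

/-- **(A), inseparable side.**  `N y = f ^ m`, `(Q, m) = 1` ⇒ `y` is toric at `V₃`. -/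
theorem ng_toric_insep (D : NgDir φ N W V₁ V₂ V₃ r Q) {m : ℕ} (hQm : Nat.Coprime Q m)
    (hQ : 0 < Q) (hm : 0 < m) {y : F} {f : F₁} (hy : V₃.valuation y = 1)
    (hN : N y = f ^ m) :
    ∃ t : F, NgC V₃ y (t ^ m) := by
  obtain ⟨a, b, hab⟩ := ng_bezout hQm hQ hm
  have hy0 : y ≠ 0 := ng_ne_zero_of_val hy
  have h1 : NgC V₃ ((φ f) ^ m) (y ^ Q) := by
    have := D.insep y hy
    rwa [hN, map_pow] at this
  have h2 : NgC V₃ (y ^ (Q * a)) (((φ f) ^ m) ^ a) := by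
    rw [pow_mul]
    exact (h1.symm).pow a
  refine ⟨(φ f) ^ a / y ^ b, ?_⟩
  have hyb : y ^ (m * b) ≠ 0 := pow_ne_zero _ hy0
  have h3 := h2.div (NgC.refl (V := V₃) hyb)
  have e1 : y ^ (Q * a) / y ^ (m * b) = y := by
    rw [hab, pow_add, pow_one]
    field_simp
  have e2 : ((φ f) ^ m) ^ a / y ^ (m * b) = ((φ f) ^ a / y ^ b) ^ m := by
    rw [div_pow, ← pow_mul, ← pow_mul, ← pow_mul, mul_comm m a, mul_comm m b]
  rwa [e1, e2] at h3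

/-- **(A), split side.**  `N y = f ^ m`, `y` toric at `V₁` ⇒ `y ^ r` is toric at `V₂`. -/
theorem ng_toric_split (D : NgDir φ N W V₁ V₂ V₃ r Q) {m : ℕ} (hm : 0 < m)
    {y t₁ : F} {f : F₁} (hy₁ : V₁.valuation y = 1) (hy₂ : V₂.valuation y = 1)
    (hN : N y = f ^ m) (ht₁ : NgC V₁ y (t₁ ^ m)) :
    ∃ t : F, NgC V₂ (y ^ r) (t ^ m) := by
  have hvt : V₁.valuation t₁ = 1 := stb_val_of_pow V₁ hm (ht₁.val_eq_one_right hy₁)
  obtain ⟨τ₁, hτ₁⟩ := D.surj₁ t₁ hvt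
  obtain ⟨x₂, hx₂⟩ := D.surj₂ y hy₂
  have hτ0 : τ₁ ≠ 0 := fun h => hτ₁.ne_zero_left (by rw [h, map_zero])
  have h1 : NgC V₁ (φ (τ₁ ^ m)) y := by
    rw [map_pow]
    exact (hτ₁.pow m).trans ht₁.symm
  have h2 := D.split y (τ₁ ^ m) x₂ hy₁ hy₂ h1 hx₂
  rw [hN] at h2
  have h3 := h2.div (NgC.refl (V := W) (pow_ne_zero m hτ0))
  have e1 : τ₁ ^ m * x₂ ^ r / τ₁ ^ m = x₂ ^ r := by
    field_simp
  have e2 : f ^ m / τ₁ ^ m = (f / τ₁) ^ m := by rw [div_pow]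
  rw [e1, e2] at h3
  have h4 : NgC V₂ (φ ((f / τ₁) ^ m)) (φ (x₂ ^ r)) := h3.map φ D.map₂
  rw [map_pow, map_pow] at h4
  exact ⟨φ (f / τ₁), ((hx₂.pow r).symm).trans h4.symm⟩

end Toric

section Units

variable {φ : F₁ →+* F} {N : F →* F₁} {W : ValuationSubring F₁}
  {V₁ V₂ V₃ : ValuationSubring F} {r Q : ℕ}

/-- units of `W` ↔ units of `V₁` -/
theorem NgDir.val₁ (D : NgDir φ N W V₁ V₂ V₃ r Q) {z : F₁} (hz : V₁.valuation (φ z) = 1) :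
    W.valuation z = 1 := by
  have hz0 : z ≠ 0 := fun h => ng_ne_zero_of_val hz (by rw [h, map_zero])
  have h1 : ¬ W.valuation z < 1 := by
    intro hlt
    have := D.map₁ z ((ValuationSubring.mem_nonunits_iff W).2 hlt)
    rw [ValuationSubring.mem_nonunits_iff, hz] at this
    exact lt_irrefl _ this
  have h2 : ¬ W.valuation z⁻¹ < 1 := by
    intro hlt
    have := D.map₁ z⁻¹ ((ValuationSubring.mem_nonunits_iff W).2 hlt)
    rw [ValuationSubring.mem_nonunits_iff, map_inv₀, map_inv₀, hz, inv_one] at this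
    exact lt_irrefl _ this
  rw [map_inv₀] at h2
  have h3 : W.valuation z ≤ 1 := by
    by_contra hgt
    push Not at hgt
    apply h2
    have hv0 : W.valuation z ≠ 0 := (W.valuation.ne_zero_iff).2 hz0
    exact (inv_lt_one₀ (zero_lt_iff.2 hv0)).2 hgt
  exact le_antisymm h3 (not_lt.1 h1)

/-- units of `W` ↔ units of `V₂` -/
theorem NgDir.val₂ (D : NgDir φ N W V₁ V₂ V₃ r Q) {z : F₁} (hz : V₂.valuation (φ z) = 1) :
    W.valuation z = 1 := by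
  have hz0 : z ≠ 0 := fun h => ng_ne_zero_of_val hz (by rw [h, map_zero])
  have h1 : ¬ W.valuation z < 1 := by
    intro hlt
    have := D.map₂ z ((ValuationSubring.mem_nonunits_iff W).2 hlt)
    rw [ValuationSubring.mem_nonunits_iff, hz] at this
    exact lt_irrefl _ this
  have h2 : ¬ W.valuation z⁻¹ < 1 := by
    intro hlt
    have := D.map₂ z⁻¹ ((ValuationSubring.mem_nonunits_iff W).2 hlt)
    rw [ValuationSubring.mem_nonunits_iff, map_inv₀, map_inv₀, hz, inv_one] at this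
    exact lt_irrefl _ this
  rw [map_inv₀] at h2
  have h3 : W.valuation z ≤ 1 := by
    by_contra hgt
    push Not at hgt
    apply h2
    have hv0 : W.valuation z ≠ 0 := (W.valuation.ne_zero_iff).2 hz0
    exact (inv_lt_one₀ (zero_lt_iff.2 hv0)).2 hgt
  exact le_antisymm h3 (not_lt.1 h1)

end Units

/-- an element of a subring `O ⊆ V` whose inverse lies in `O` is a unit of `V` -/
theorem ng_val_of_mem_inv {V : ValuationSubring F} {O : Subring F} (hO : ∀ x ∈ O, x ∈ V)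
    {e : F} (he0 : e ≠ 0) (he : e ∈ O) (he' : e⁻¹ ∈ O) : V.valuation e = 1 := by
  have h1 : V.valuation e ≤ 1 := (V.valuation_le_one_iff _).2 (hO _ he)
  have h2 : V.valuation e⁻¹ ≤ 1 := (V.valuation_le_one_iff _).2 (hO _ he')
  rw [map_inv₀] at h2
  have hv0 : V.valuation e ≠ 0 := (V.valuation.ne_zero_iff).2 he0
  have h3 : 1 ≤ V.valuation e := (inv_le_one₀ (zero_lt_iff.2 hv0)).1 h2
  exact le_antisymm h1 h3

/-- the inverse of a unit of a subring of a field lies in the subring -/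
theorem ng_inv_mem_of_isUnit {O : Subring F} {a : O} (ha : IsUnit a) : ((a : O) : F)⁻¹ ∈ O := by
  obtain ⟨u, rfl⟩ := ha
  rw [← stb_coe_inv O u]
  exact ((u⁻¹ : Oˣ) : O).2

/-- a unit of a subring of a field is nonzero -/
theorem ng_ne_zero_of_isUnit {O : Subring F} {a : O} (ha : IsUnit a) : ((a : O) : F) ≠ 0 := by
  obtain ⟨u, rfl⟩ := ha
  intro h
  have h1 : ((u : O) : F) * (((u⁻¹ : Oˣ) : O) : F) = 1 := by
    rw [← Subring.coe_mul, Units.mul_inv, Subring.coe_one]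
  rw [h, zero_mul] at h1
  exact zero_ne_one h1

section Hol

variable {φ : F₁ →+* F} {N : F →* F₁} {W : ValuationSubring F₁}
  {V₁ V₂ V₃ : ValuationSubring F} {r Q : ℕ}

/-- **(B), global part of one direction.**  The norm `f` of the toric function `y` is
congruent to `ζ^k τ₁ τ₂^r` at `W` and to `ζ^k' t₃^Q` at `V₃`, with exponents `k, k'` that depend
only on the global data. -/
theorem ng_hol_global (D : NgDir φ N W V₁ V₂ V₃ r Q) {m : ℕ} (hm : 0 < m) {ζ₁ : F₁}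
    (hζ : IsPrimitiveRoot ζ₁ m) {y t₁ t₂ t₃ : F} {f τ₁ τ₂ : F₁}
    (hy₁ : V₁.valuation y = 1) (hy₂ : V₂.valuation y = 1) (hy₃ : V₃.valuation y = 1)
    (hN : N y = f ^ m)
    (ht₁ : NgC V₁ y (t₁ ^ m)) (ht₂ : NgC V₂ y (t₂ ^ m)) (ht₃ : NgC V₃ y (t₃ ^ m))
    (hτ₁ : NgC V₁ (φ τ₁) t₁) (hτ₂ : NgC V₂ (φ τ₂) t₂) :
    ∃ k k' : ℕ, NgC W f (ζ₁ ^ k * (τ₁ * τ₂ ^ r)) ∧ NgC V₃ (φ f) (φ ζ₁ ^ k' * t₃ ^ Q) := by
  have h1 : NgC V₁ (φ (τ₁ ^ m)) y := by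
    rw [map_pow]
    exact (hτ₁.pow m).trans ht₁.symm
  have h2 : NgC V₂ (φ (τ₂ ^ m)) y := by
    rw [map_pow]
    exact (hτ₂.pow m).trans ht₂.symm
  have h3 := D.split y (τ₁ ^ m) (τ₂ ^ m) hy₁ hy₂ h1 h2
  have e3 : τ₁ ^ m * (τ₂ ^ m) ^ r = (τ₁ * τ₂ ^ r) ^ m := by
    rw [mul_pow, ← pow_mul, ← pow_mul, mul_comm m r]
  rw [hN, e3] at h3
  obtain ⟨k, -, hk⟩ := h3.root hm hζ
  have h4 := D.insep y hy₃
  rw [hN, map_pow] at h4
  have h5 : NgC V₃ ((φ f) ^ m) ((t₃ ^ Q) ^ m) := by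
    have := h4.trans (ht₃.pow Q)
    rwa [← pow_mul, mul_comm m Q, pow_mul] at this
  have hζ' : IsPrimitiveRoot (φ ζ₁) m := hζ.map_of_injective φ.injective
  obtain ⟨k', -, hk'⟩ := h5.root hm hζ'
  exact ⟨k, k', hk, hk'⟩

/-- The local package at a triple point, for one direction: `O ⊂ F` the local ring of the
point, `O' ⊂ F₁` the local ring of its image. -/
structure NgLoc (φ : F₁ →+* F) (N : F →* F₁) (V₁ V₂ : ValuationSubring F) (m : ℕ) (ζ₁ : F₁)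
    (O : Subring F) (O' : Subring F₁) : Prop where
  map : ∀ z ∈ O', φ z ∈ O
  norm : ∀ e : F, e ∈ O → e⁻¹ ∈ O → N e ∈ O'
  root : ∀ z : F₁, z ^ m ∈ O' → z ∈ O'
  zeta : ζ₁ ∈ O'
  surj₁ : ∀ a : F, a ≠ 0 → a ∈ O → a⁻¹ ∈ O → ∃ x ∈ O', NgC V₁ (φ x) a
  surj₂ : ∀ a : F, a ≠ 0 → a ∈ O → a⁻¹ ∈ O → ∃ x ∈ O', NgC V₂ (φ x) a

/-- A component `V` through the point with local ring `O` and "value at the point" `ev`. -/
structure NgPt (V : ValuationSubring F) (O : Subring F) {K : Type*} [CommRing K]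
    (ev : O →+* K) : Prop where
  le : ∀ x ∈ O, x ∈ V
  ev_eq_zero : ∀ x : O, (x : F) ∈ V.nonunits → ev x = 0

/-- **(B), local part of one direction.**  At a triple point, for every local factorisation
`y = ε γ ^ m` and all branch units `a_i ≡ t_i / γ` at `V_i`:
`ζ^k · a₁ · a₂^r = ζ^k' · a₃^Q` at the point. -/
theorem ng_hol_local (D : NgDir φ N W V₁ V₂ V₃ r Q) {m : ℕ} (hm : 0 < m) {ζ₁ : F₁}
    (hζ : IsPrimitiveRoot ζ₁ m) {y t₁ t₂ t₃ : F} {f τ₁ τ₂ : F₁}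
    (hy₁ : V₁.valuation y = 1) (hy₂ : V₂.valuation y = 1) (hy₃ : V₃.valuation y = 1)
    (hN : N y = f ^ m)
    (hτ₁ : NgC V₁ (φ τ₁) t₁) (hτ₂ : NgC V₂ (φ τ₂) t₂)
    {k k' : ℕ} (hk : NgC W f (ζ₁ ^ k * (τ₁ * τ₂ ^ r)))
    (hk' : NgC V₃ (φ f) (φ ζ₁ ^ k' * t₃ ^ Q))
    {O : Subring F} {O' : Subring F₁} {K : Type*} [CommRing K] {ev : O →+* K}
    (P₁ : NgPt V₁ O ev) (P₂ : NgPt V₂ O ev) (P₃ : NgPt V₃ O ev)
    (L : NgLoc φ N V₁ V₂ m ζ₁ O O')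
    {ε γ : F} (hε : ε ∈ O) (hε' : ε⁻¹ ∈ O) (hyε : y = ε * γ ^ m)
    (z a₁ a₂ a₃ : O) (hz : (z : F) = φ ζ₁) (ha₁ : IsUnit a₁) (ha₂ : IsUnit a₂)
    (hat₁ : NgC V₁ (a₁ : F) (t₁ / γ)) (hat₂ : NgC V₂ (a₂ : F) (t₂ / γ))
    (hat₃ : NgC V₃ (a₃ : F) (t₃ / γ)) :
    ev z ^ k * ev a₁ * ev a₂ ^ r = ev z ^ k' * ev a₃ ^ Q := by
  have hy0 : y ≠ 0 := ng_ne_zero_of_val hy₁
  have hγ0 : γ ≠ 0 := by
    intro h
    apply hy0
    rw [hyε, h, zero_pow hm.ne', mul_zero]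
  have hε0 : ε ≠ 0 := by
    intro h
    apply hy0
    rw [hyε, h, zero_mul]
  have hvγ : ∀ V : ValuationSubring F, (∀ x ∈ O, x ∈ V) → V.valuation y = 1 →
      V.valuation γ = 1 := by
    intro V hV hy
    apply stb_val_of_pow V hm
    have h := hy
    rw [hyε, map_mul, ng_val_of_mem_inv hV hε0 hε hε', one_mul] at h
    exact h
  have hγ₁ := hvγ V₁ P₁.le hy₁
  have hγ₂ := hvγ V₂ P₂.le hy₂
  have hγ₃ := hvγ V₃ P₃.le hy₃
  obtain ⟨γ₁, hγ₁'⟩ := D.surj₁ γ hγ₁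
  obtain ⟨γ₂, hγ₂'⟩ := D.surj₂ γ hγ₂
  have hγ₁0 : γ₁ ≠ 0 := fun h => hγ₁'.ne_zero_left (by rw [h, map_zero])
  have hγ₂0 : γ₂ ≠ 0 := fun h => hγ₂'.ne_zero_left (by rw [h, map_zero])
  have hNγ : NgC W (N γ) (γ₁ * γ₂ ^ r) := D.split γ γ₁ γ₂ hγ₁ hγ₂ hγ₁' hγ₂'
  have hNγ0 : N γ ≠ 0 := ng_norm_ne_zero N hγ0
  -- the local root `g` of the norm of `ε`
  have hgm : (f / N γ) ^ m = N ε := by
    rw [div_pow, ← hN, hyε, map_mul, map_pow]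
    field_simp
  have hgO' : f / N γ ∈ O' := L.root _ (hgm ▸ L.norm ε hε hε')
  have hgW : NgC W (f / N γ) (ζ₁ ^ k * (τ₁ * τ₂ ^ r) / (γ₁ * γ₂ ^ r)) := hk.div hNγ
  -- local lifts of the branch units
  have ha₁0 := ng_ne_zero_of_isUnit ha₁
  have ha₂0 := ng_ne_zero_of_isUnit ha₂
  obtain ⟨x₁, hx₁O, hx₁⟩ := L.surj₁ a₁ (ng_ne_zero_of_isUnit ha₁) a₁.2
    (ng_inv_mem_of_isUnit ha₁)
  obtain ⟨x₂, hx₂O, hx₂⟩ := L.surj₂ a₂ (ng_ne_zero_of_isUnit ha₂) a₂.2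
    (ng_inv_mem_of_isUnit ha₂)
  have hva₁ : V₁.valuation (a₁ : F) = 1 :=
    ng_val_of_mem_inv P₁.le ha₁0 a₁.2 (ng_inv_mem_of_isUnit ha₁)
  have hva₂ : V₂.valuation (a₂ : F) = 1 :=
    ng_val_of_mem_inv P₂.le ha₂0 a₂.2 (ng_inv_mem_of_isUnit ha₂)
  have hvx₁ : W.valuation x₁ = 1 := D.val₁ (hx₁.val_eq_one_left hva₁)
  have hvx₂ : W.valuation x₂ = 1 := D.val₂ (hx₂.val_eq_one_left hva₂)
  have h5 : NgC W (τ₁ / γ₁) x₁ := by
    apply NgC.comap φ D.comap₁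
    rw [map_div₀]
    exact (hτ₁.div hγ₁').trans (hat₁.symm.trans hx₁.symm)
  have h6 : NgC W (τ₂ / γ₂) x₂ := by
    apply NgC.comap φ D.comap₂
    rw [map_div₀]
    exact (hτ₂.div hγ₂').trans (hat₂.symm.trans hx₂.symm)
  have hζ0 : ζ₁ ≠ 0 := hζ.ne_zero hm.ne'
  have hvζ : W.valuation ζ₁ = 1 := pwi_val_root W hm hζ
  have hgW' : NgC W (f / N γ) (ζ₁ ^ k * (x₁ * x₂ ^ r)) := by
    have e : ζ₁ ^ k * (τ₁ * τ₂ ^ r) / (γ₁ * γ₂ ^ r) = ζ₁ ^ k * (τ₁ / γ₁ * (τ₂ / γ₂) ^ r) := by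
      rw [div_pow]
      field_simp
    rw [e] at hgW
    exact hgW.trans ((NgC.refl (pow_ne_zero k hζ0)).mul (h5.mul (h6.pow r)))
  have hRW : ζ₁ ^ k * (x₁ * x₂ ^ r) ∈ W :=
    ng_mem_of_val (ng_val_mul (ng_val_pow hvζ k) (ng_val_mul hvx₁ (ng_val_pow hvx₂ r)))
  have hsubW : f / N γ - ζ₁ ^ k * (x₁ * x₂ ^ r) ∈ W.nonunits := hgW'.sub_mem hRW
  -- elements of `O`
  let gO : O := ⟨φ (f / N γ), L.map _ hgO'⟩
  let x₁O : O := ⟨φ x₁, L.map _ hx₁O⟩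
  let x₂O : O := ⟨φ x₂, L.map _ hx₂O⟩
  have hev1 : ev gO = ev z ^ k * (ev x₁O * ev x₂O ^ r) := by
    have h := P₁.ev_eq_zero (gO - z ^ k * (x₁O * x₂O ^ r)) (by
      have := D.map₁ _ hsubW
      simpa [gO, x₁O, x₂O, hz, map_sub, map_mul, map_pow] using this)
    rw [map_sub, sub_eq_zero] at h
    rw [h, map_mul, map_pow, map_mul, map_pow]
  have hevx₁ : ev x₁O = ev a₁ := by
    have h := P₁.ev_eq_zero (x₁O - a₁) (by
      have := hx₁.sub_mem (P₁.le _ a₁.2)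
      simpa [x₁O] using this)
    rwa [map_sub, sub_eq_zero] at h
  have hevx₂ : ev x₂O = ev a₂ := by
    have h := P₂.ev_eq_zero (x₂O - a₂) (by
      have := hx₂.sub_mem (P₂.le _ a₂.2)
      simpa [x₂O] using this)
    rwa [map_sub, sub_eq_zero] at h
  -- the third branch
  have h7 : NgC V₃ (φ (N γ)) (γ ^ Q) := D.insep γ hγ₃
  have h8 : NgC V₃ (φ (f / N γ)) (φ ζ₁ ^ k' * (a₃ : F) ^ Q) := by
    have h := hk'.div h7
    rw [← map_div₀] at h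
    have e : φ ζ₁ ^ k' * t₃ ^ Q / γ ^ Q = φ ζ₁ ^ k' * (t₃ / γ) ^ Q := by
      rw [div_pow, mul_div_assoc]
    rw [e] at h
    have hφζ0 : φ ζ₁ ^ k' ≠ 0 := pow_ne_zero _ ((_root_.map_ne_zero φ).2 hζ0)
    exact h.trans ((NgC.refl hφζ0).mul ((hat₃.symm).pow Q))
  have hR3 : φ ζ₁ ^ k' * (a₃ : F) ^ Q ∈ V₃ := by
    have : (((z ^ k' * a₃ ^ Q : O)) : F) ∈ V₃ := P₃.le _ (z ^ k' * a₃ ^ Q).2
    simpa [hz] using this
  have hev3 : ev gO = ev z ^ k' * ev a₃ ^ Q := by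
    have h := P₃.ev_eq_zero (gO - z ^ k' * a₃ ^ Q) (by
      have := h8.sub_mem hR3
      simpa [gO, hz] using this)
    rw [map_sub, sub_eq_zero] at h
    rw [h, map_mul, map_pow, map_pow]
  rw [mul_assoc, ← hevx₁, ← hevx₂, ← hev1, hev3]

end Hol

section Combine

/-- **Combination of the two directions** (commutative algebra in the residue ring). -/
theorem ng_combine {K : Type*} [CommRing K] {Z A B C : K} {m Q k₁ k₁' k₂ k₂' : ℕ}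
    (hQ : 0 < Q) (hm : 0 < m) (hZ : Z ^ m = 1) (hA : IsUnit A) (hB : IsUnit B)
    (hα : Z ^ k₁ * A * C ^ (Q - 1) = Z ^ k₁' * B ^ Q)
    (hβ : Z ^ k₂ * B * C ^ (Q - 1) = Z ^ k₂' * A ^ Q) :
    Z ^ (k₁' + Q * k₂' + (m - 1) * (k₁ + Q * k₂)) * A ^ ((Q - 1) * (Q + 1))
        = C ^ ((Q - 1) * (Q + 1)) ∧
      Z ^ (k₂' + Q * k₁' + (m - 1) * (k₂ + Q * k₁)) * B ^ ((Q - 1) * (Q + 1))
        = C ^ ((Q - 1) * (Q + 1)) := by
  obtain ⟨r, rfl⟩ : ∃ r, Q = r + 1 := ⟨Q - 1, by omega⟩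
  obtain ⟨n, rfl⟩ : ∃ n, m = n + 1 := ⟨m - 1, by omega⟩
  simp only [Nat.add_sub_cancel] at hα hβ ⊢
  have key : ∀ {A B : K} {k₁ k₁' k₂ k₂' : ℕ}, IsUnit A →
      Z ^ k₁ * A * C ^ r = Z ^ k₁' * B ^ (r + 1) →
      Z ^ k₂ * B * C ^ r = Z ^ k₂' * A ^ (r + 1) →
      Z ^ (k₁' + (r + 1) * k₂' + n * (k₁ + (r + 1) * k₂)) * A ^ (r * (r + 1 + 1))
        = C ^ (r * (r + 1 + 1)) := by
    intro A B k₁ k₁' k₂ k₂' hA hα hβ
    have h1 : Z ^ (k₁ + (r + 1) * k₂) * A * C ^ (r * (r + 1 + 1))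
        = Z ^ (k₁' + (r + 1) * k₂') * A * A ^ (r * (r + 1 + 1)) := by
      calc Z ^ (k₁ + (r + 1) * k₂) * A * C ^ (r * (r + 1 + 1))
          = (Z ^ k₁ * A * C ^ r) * (Z ^ k₂ * C ^ r) ^ (r + 1) := by ring
        _ = (Z ^ k₁' * B ^ (r + 1)) * (Z ^ k₂ * C ^ r) ^ (r + 1) := by rw [hα]
        _ = Z ^ k₁' * (Z ^ k₂ * B * C ^ r) ^ (r + 1) := by ring
        _ = Z ^ k₁' * (Z ^ k₂' * A ^ (r + 1)) ^ (r + 1) := by rw [hβ]
        _ = Z ^ (k₁' + (r + 1) * k₂') * A * A ^ (r * (r + 1 + 1)) := by ring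
    obtain ⟨u, rfl⟩ := hA
    have h2 : Z ^ (k₁ + (r + 1) * k₂) * C ^ (r * (r + 1 + 1))
        = Z ^ (k₁' + (r + 1) * k₂') * (u : K) ^ (r * (r + 1 + 1)) := by
      have := congrArg (fun x => ((u⁻¹ : Kˣ) : K) * x) h1
      beta_reduce at this
      have e1 : ((u⁻¹ : Kˣ) : K) * (Z ^ (k₁ + (r + 1) * k₂) * (u : K) * C ^ (r * (r + 1 + 1)))
          = (((u⁻¹ : Kˣ) : K) * (u : K)) * (Z ^ (k₁ + (r + 1) * k₂) * C ^ (r * (r + 1 + 1))) := by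
        ring
      have e2 : ((u⁻¹ : Kˣ) : K) *
          (Z ^ (k₁' + (r + 1) * k₂') * (u : K) * (u : K) ^ (r * (r + 1 + 1)))
          = (((u⁻¹ : Kˣ) : K) * (u : K)) *
            (Z ^ (k₁' + (r + 1) * k₂') * (u : K) ^ (r * (r + 1 + 1))) := by
        ring
      rw [e1, e2, Units.inv_mul, one_mul, one_mul] at this
      exact this
    have hZs : Z ^ ((n + 1) * (k₁ + (r + 1) * k₂)) = 1 := by
      rw [pow_mul, hZ, one_pow]
    calc Z ^ (k₁' + (r + 1) * k₂' + n * (k₁ + (r + 1) * k₂)) * (u : K) ^ (r * (r + 1 + 1))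
        = Z ^ (n * (k₁ + (r + 1) * k₂)) *
            (Z ^ (k₁' + (r + 1) * k₂') * (u : K) ^ (r * (r + 1 + 1))) := by ring
      _ = Z ^ (n * (k₁ + (r + 1) * k₂)) *
            (Z ^ (k₁ + (r + 1) * k₂) * C ^ (r * (r + 1 + 1))) := by rw [h2]
      _ = Z ^ ((n + 1) * (k₁ + (r + 1) * k₂)) * C ^ (r * (r + 1 + 1)) := by ring
      _ = C ^ (r * (r + 1 + 1)) := by rw [hZs, one_mul]
  exact ⟨key hA hα hβ, key hB hβ hα⟩

end Combine

section Final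

variable {α β : F₁ →+* F} {Nα Nβ : F →* F₁} {Winf W0 : ValuationSubring F₁}
  {Va Vb Vc : ValuationSubring F} {Q : ℕ}

/-- **(A) NEW ⇒ TORIC.**  `y` a unit at the three vertical valuations, `N_α y = f₁ ^ m`,
`N_β y = f₂ ^ m`, `(Q, m) = 1`  ⇒  `y` is toric at `V_a`, `V_b` and `y ^ (Q − 1)` is toric at
`V_c`. -/
theorem ng_toric (Dα : NgDir α Nα Winf Va Vc Vb (Q - 1) Q)
    (Dβ : NgDir β Nβ W0 Vb Vc Va (Q - 1) Q) {m : ℕ} (hQm : Nat.Coprime Q m) (hQ : 0 < Q)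
    (hm : 0 < m) {y : F} {f₁ f₂ : F₁}
    (hya : Va.valuation y = 1) (hyb : Vb.valuation y = 1) (hyc : Vc.valuation y = 1)
    (hNα : Nα y = f₁ ^ m) (hNβ : Nβ y = f₂ ^ m) :
    ∃ ta tb tc : F, NgC Va y (ta ^ m) ∧ NgC Vb y (tb ^ m) ∧ NgC Vc (y ^ (Q - 1)) (tc ^ m) := by
  obtain ⟨tb, htb⟩ := ng_toric_insep Dα hQm hQ hm hyb hNα
  obtain ⟨ta, hta⟩ := ng_toric_insep Dβ hQm hQ hm hya hNβ
  obtain ⟨tc, htc⟩ := ng_toric_split Dα hm hya hyc hNα hta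
  exact ⟨ta, tb, tc, hta, htb, htc⟩

/-- the same for `Y := y ^ (Q − 1)`, which is toric at all three valuations and has the norms
`(f₁ ^ (Q − 1)) ^ m`, `(f₂ ^ (Q − 1)) ^ m`. -/
theorem ng_toric_pow (Dα : NgDir α Nα Winf Va Vc Vb (Q - 1) Q)
    (Dβ : NgDir β Nβ W0 Vb Vc Va (Q - 1) Q) {m : ℕ} (hQm : Nat.Coprime Q m) (hQ : 0 < Q)
    (hm : 0 < m) {y : F} {f₁ f₂ : F₁}
    (hya : Va.valuation y = 1) (hyb : Vb.valuation y = 1) (hyc : Vc.valuation y = 1)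
    (hNα : Nα y = f₁ ^ m) (hNβ : Nβ y = f₂ ^ m) :
    ∃ ta tb tc : F, NgC Va (y ^ (Q - 1)) (ta ^ m) ∧ NgC Vb (y ^ (Q - 1)) (tb ^ m) ∧
      NgC Vc (y ^ (Q - 1)) (tc ^ m) ∧
      Nα (y ^ (Q - 1)) = (f₁ ^ (Q - 1)) ^ m ∧ Nβ (y ^ (Q - 1)) = (f₂ ^ (Q - 1)) ^ m := by
  obtain ⟨ta, tb, tc, hta, htb, htc⟩ := ng_toric Dα Dβ hQm hQ hm hya hyb hyc hNα hNβ
  refine ⟨ta ^ (Q - 1), tb ^ (Q - 1), tc, ?_, ?_, htc, ?_, ?_⟩
  · have := hta.pow (Q - 1)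
    rwa [← pow_mul, mul_comm m, pow_mul] at this
  · have := htb.pow (Q - 1)
    rwa [← pow_mul, mul_comm m, pow_mul] at this
  · rw [map_pow, hNα, ← pow_mul, mul_comm m, pow_mul]
  · rw [map_pow, hNβ, ← pow_mul, mul_comm m, pow_mul]

/-- **(B) NEW + TORIC ⇒ the gluing of `y ^ c`, `c = (Q − 1)(Q + 1)`, is constant.**
There are GLOBAL exponents `na, nb` such that at every triple point (local ring `O`, value at
the point `ev`, local rings `Oα`, `Oβ` of its two images at the lower level), for every local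
factorisation `y = ε γ ^ m` and all branch units `a_x ≡ t_x / γ` at `V_x`:
`ζ ^ na · a_a ^ c = a_c ^ c = ζ ^ nb · a_b ^ c` at the point. -/
theorem ng_hol (Dα : NgDir α Nα Winf Va Vc Vb (Q - 1) Q)
    (Dβ : NgDir β Nβ W0 Vb Vc Va (Q - 1) Q) (hQ : 0 < Q) {m : ℕ} (hm : 0 < m) {ζ₁ : F₁}
    (hζ : IsPrimitiveRoot ζ₁ m) (hαβ : α ζ₁ = β ζ₁) {y ta tb tc : F} {f₁ f₂ : F₁}
    (hya : Va.valuation y = 1) (hyb : Vb.valuation y = 1) (hyc : Vc.valuation y = 1)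
    (hNα : Nα y = f₁ ^ m) (hNβ : Nβ y = f₂ ^ m)
    (hta : NgC Va y (ta ^ m)) (htb : NgC Vb y (tb ^ m)) (htc : NgC Vc y (tc ^ m)) :
    ∃ na nb : ℕ, ∀ (O : Subring F) (Oα Oβ : Subring F₁) (K : Type uK) [CommRing K]
      (ev : O →+* K), NgPt Va O ev → NgPt Vb O ev → NgPt Vc O ev →
      NgLoc α Nα Va Vc m ζ₁ O Oα → NgLoc β Nβ Vb Vc m ζ₁ O Oβ →
      ∀ ε γ : F, ε ∈ O → ε⁻¹ ∈ O → y = ε * γ ^ m →
      ∀ z aa ab ac : O, (z : F) = α ζ₁ → IsUnit aa → IsUnit ab → IsUnit ac →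
        NgC Va (aa : F) (ta / γ) → NgC Vb (ab : F) (tb / γ) → NgC Vc (ac : F) (tc / γ) →
        ev z ^ na * ev aa ^ ((Q - 1) * (Q + 1)) = ev ac ^ ((Q - 1) * (Q + 1)) ∧
        ev z ^ nb * ev ab ^ ((Q - 1) * (Q + 1)) = ev ac ^ ((Q - 1) * (Q + 1)) := by
  have hvta : Va.valuation ta = 1 := stb_val_of_pow Va hm (hta.val_eq_one_right hya)
  have hvtb : Vb.valuation tb = 1 := stb_val_of_pow Vb hm (htb.val_eq_one_right hyb)
  have hvtc : Vc.valuation tc = 1 := stb_val_of_pow Vc hm (htc.val_eq_one_right hyc)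
  obtain ⟨τa, hτa⟩ := Dα.surj₁ ta hvta
  obtain ⟨τc, hτc⟩ := Dα.surj₂ tc hvtc
  obtain ⟨σb, hσb⟩ := Dβ.surj₁ tb hvtb
  obtain ⟨σc, hσc⟩ := Dβ.surj₂ tc hvtc
  obtain ⟨k₁, k₁', hk₁, hk₁'⟩ :=
    ng_hol_global Dα hm hζ hya hyc hyb hNα hta htc htb hτa hτc
  obtain ⟨k₂, k₂', hk₂, hk₂'⟩ :=
    ng_hol_global Dβ hm hζ hyb hyc hya hNβ htb htc hta hσb hσc
  refine ⟨k₁' + Q * k₂' + (m - 1) * (k₁ + Q * k₂), k₂' + Q * k₁' + (m - 1) * (k₂ + Q * k₁), ?_⟩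
  intro O Oα Oβ K _ ev Pa Pb Pc Lα Lβ ε γ hε hε' hyε z aa ab ac hz haa hab hac hata hatb hatc
  have h1 := ng_hol_local Dα hm hζ hya hyc hyb hNα hτa hτc hk₁ hk₁' Pa Pc Pb Lα hε hε' hyε
    z aa ac ab hz haa hac hata hatc hatb
  have h2 := ng_hol_local Dβ hm hζ hyb hyc hya hNβ hσb hσc hk₂ hk₂' Pb Pc Pa Lβ hε hε' hyε
    z ab ac aa (hz.trans hαβ) hab hac hatb hatc hata
  have hzm : z ^ m = 1 := by
    apply Subtype.ext
    rw [Subring.coe_pow, hz, ← map_pow, hζ.pow_eq_one, map_one, Subring.coe_one]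
  have hZ : ev z ^ m = 1 := by rw [← map_pow, hzm, map_one]
  exact ng_combine hQ hm hZ (haa.map ev) (hab.map ev) h1 h2

/-- **(B) in the form consumed by G-AT2: TRIVIAL GLUING of `Y := y ^ c`.**
With the GLOBAL roots `T_a := ζ^na t_a^c`, `T_b := ζ^nb t_b^c`, `T_c := t_c^c` of `Y`
(`Y ≡ T_x ^ m` at `V_x`), at every triple point and for every local factorisation
`y = ε γ^m` with branch units `a_x`, the elements `b_a := z^na a_a^c`, `b_b := z^nb a_b^c`,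
`b_c := a_c^c` are units of `O`, branch units of `Y = ε^c (γ^c)^m` with respect to the `T_x`
(`b_x ≡ T_x / γ^c` at `V_x`), and they have THE SAME VALUE at the point. -/
theorem s36ng_trivial_gluing (Dα : NgDir α Nα Winf Va Vc Vb (Q - 1) Q)
    (Dβ : NgDir β Nβ W0 Vb Vc Va (Q - 1) Q) (hQ : 0 < Q) {m : ℕ} (hm : 0 < m) {ζ₁ : F₁}
    (hζ : IsPrimitiveRoot ζ₁ m) (hαβ : α ζ₁ = β ζ₁) {y ta tb tc : F} {f₁ f₂ : F₁}
    (hya : Va.valuation y = 1) (hyb : Vb.valuation y = 1) (hyc : Vc.valuation y = 1)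
    (hNα : Nα y = f₁ ^ m) (hNβ : Nβ y = f₂ ^ m)
    (hta : NgC Va y (ta ^ m)) (htb : NgC Vb y (tb ^ m)) (htc : NgC Vc y (tc ^ m)) :
    ∃ na nb : ℕ,
      NgC Va (y ^ ((Q - 1) * (Q + 1))) ((α ζ₁ ^ na * ta ^ ((Q - 1) * (Q + 1))) ^ m) ∧
      NgC Vb (y ^ ((Q - 1) * (Q + 1))) ((α ζ₁ ^ nb * tb ^ ((Q - 1) * (Q + 1))) ^ m) ∧
      NgC Vc (y ^ ((Q - 1) * (Q + 1))) ((tc ^ ((Q - 1) * (Q + 1))) ^ m) ∧
      ∀ (O : Subring F) (Oα Oβ : Subring F₁) (K : Type uK) [CommRing K]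
      (ev : O →+* K), NgPt Va O ev → NgPt Vb O ev → NgPt Vc O ev →
      NgLoc α Nα Va Vc m ζ₁ O Oα → NgLoc β Nβ Vb Vc m ζ₁ O Oβ →
      ∀ ε γ : F, ε ∈ O → ε⁻¹ ∈ O → y = ε * γ ^ m →
      ∀ z aa ab ac : O, (z : F) = α ζ₁ → IsUnit aa → IsUnit ab → IsUnit ac →
        NgC Va (aa : F) (ta / γ) → NgC Vb (ab : F) (tb / γ) → NgC Vc (ac : F) (tc / γ) →
        ∃ ba bb bc : O, IsUnit ba ∧ IsUnit bb ∧ IsUnit bc ∧
          NgC Va (ba : F) (α ζ₁ ^ na * ta ^ ((Q - 1) * (Q + 1)) / γ ^ ((Q - 1) * (Q + 1))) ∧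
          NgC Vb (bb : F) (α ζ₁ ^ nb * tb ^ ((Q - 1) * (Q + 1)) / γ ^ ((Q - 1) * (Q + 1))) ∧
          NgC Vc (bc : F) (tc ^ ((Q - 1) * (Q + 1)) / γ ^ ((Q - 1) * (Q + 1))) ∧
          ev ba = ev bc ∧ ev bb = ev bc := by
  obtain ⟨na, nb, H⟩ := ng_hol Dα Dβ hQ hm hζ hαβ hya hyb hyc hNα hNβ hta htb htc
  have hζ0 : α ζ₁ ≠ 0 := (_root_.map_ne_zero α).2 (hζ.ne_zero hm.ne')
  have hζm : (α ζ₁) ^ m = 1 := by rw [← map_pow, hζ.pow_eq_one, map_one]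
  have hroot : ∀ (V : ValuationSubring F) (t : F) (n : ℕ), NgC V y (t ^ m) →
      NgC V (y ^ ((Q - 1) * (Q + 1))) ((α ζ₁ ^ n * t ^ ((Q - 1) * (Q + 1))) ^ m) := by
    intro V t n ht
    have h := ht.pow ((Q - 1) * (Q + 1))
    have e : (α ζ₁ ^ n * t ^ ((Q - 1) * (Q + 1))) ^ m = (t ^ m) ^ ((Q - 1) * (Q + 1)) := by
      rw [mul_pow, ← pow_mul, mul_comm n m, pow_mul, hζm, one_pow, one_mul, ← pow_mul,
        ← pow_mul, mul_comm]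
    rwa [e]
  refine ⟨na, nb, hroot Va ta na hta, hroot Vb tb nb htb, ?_, ?_⟩
  · have := hroot Vc tc 0 htc
    rwa [pow_zero, one_mul] at this
  intro O Oα Oβ K _ ev Pa Pb Pc Lα Lβ ε γ hε hε' hyε z aa ab ac hz haa hab hac hata hatb hatc
  obtain ⟨h1, h2⟩ := H O Oα Oβ K ev Pa Pb Pc Lα Lβ ε γ hε hε' hyε z aa ab ac hz haa hab hac
    hata hatb hatc
  have hzu : IsUnit z := by
    have hzm : z ^ m = 1 := by
      apply Subtype.ext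
      rw [Subring.coe_pow, hz, hζm, Subring.coe_one]
    exact IsUnit.of_pow_eq_one hzm hm.ne'
  have hbr : ∀ (V : ValuationSubring F) (t : F) (a : O) (n : ℕ), NgC V (a : F) (t / γ) →
      NgC V ((z ^ n * a ^ ((Q - 1) * (Q + 1)) : O) : F)
        (α ζ₁ ^ n * t ^ ((Q - 1) * (Q + 1)) / γ ^ ((Q - 1) * (Q + 1))) := by
    intro V t a n ha
    have h := (NgC.refl (V := V) (pow_ne_zero n hζ0)).mul (ha.pow ((Q - 1) * (Q + 1)))
    rw [div_pow, ← mul_div_assoc] at h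
    simpa [hz] using h
  refine ⟨z ^ na * aa ^ ((Q - 1) * (Q + 1)), z ^ nb * ab ^ ((Q - 1) * (Q + 1)),
    ac ^ ((Q - 1) * (Q + 1)), (hzu.pow na).mul (haa.pow _), (hzu.pow nb).mul (hab.pow _),
    hac.pow _, hbr Va ta aa na hata, hbr Vb tb ab nb hatb, ?_, ?_, ?_⟩
  · have := hbr Vc tc ac 0 hatc
    simpa using this
  · rw [map_mul, map_pow, map_pow, map_pow, h1]
  · rw [map_mul, map_pow, map_pow, map_pow, h2]

end Final

section Vertical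

/-- an additive order function vanishes at `1` and is additive on powers -/
theorem ng_ord_pow {w : F₁ → ℤ} (hw : ∀ x y : F₁, x ≠ 0 → y ≠ 0 → w (x * y) = w x + w y)
    {f : F₁} (hf : f ≠ 0) (n : ℕ) : w (f ^ n) = n * w f := by
  have h1 : w 1 = 0 := by
    have := hw 1 1 one_ne_zero one_ne_zero
    rw [mul_one] at this
    linarith
  induction n with
  | zero => simp [h1]
  | succ n ih =>
    rw [pow_succ, hw _ _ (pow_ne_zero n hf) hf, ih]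
    push_cast
    ring

/-- **(b) VERTICAL ORDERS.**  Integer-valued orders `va, vb, vc` on `F`, `winf, w0` on `F₁` with
the norm formulas (`Σ e f = Q`), and constants having the same order at `winf` and `w0`.
If `N_α y = c₁ f₁^m` and `N_β y = c₂ f₂^m` with constants `c₁, c₂`, then the orders of
`y ^ (Q + 1)` are congruent modulo `m` to `(k, k, (Q − 1) k)` — the orders of the constant
`q ^ k` (`k = (Q + 1) v_a(y)`). -/
theorem ng_vertical {va vb vc : F → ℤ} {winf w0 : F₁ → ℤ} {Nα Nβ : F →* F₁} {Q m : ℕ}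
    (hm : 0 < m)
    (hwinf : ∀ x y : F₁, x ≠ 0 → y ≠ 0 → winf (x * y) = winf x + winf y)
    (hw0 : ∀ x y : F₁, x ≠ 0 → y ≠ 0 → w0 (x * y) = w0 x + w0 y)
    (hαinf : ∀ x : F, x ≠ 0 → winf (Nα x) = va x + vc x)
    (hα0 : ∀ x : F, x ≠ 0 → w0 (Nα x) = Q * vb x)
    (hβinf : ∀ x : F, x ≠ 0 → winf (Nβ x) = Q * va x)
    (hβ0 : ∀ x : F, x ≠ 0 → w0 (Nβ x) = vc x + vb x)
    {y : F} (hy : y ≠ 0) {c₁ c₂ f₁ f₂ : F₁} (hc₁ : winf c₁ = w0 c₁) (hc₂ : winf c₂ = w0 c₂)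
    (hc₁0 : c₁ ≠ 0) (hc₂0 : c₂ ≠ 0)
    (hNα : Nα y = c₁ * f₁ ^ m) (hNβ : Nβ y = c₂ * f₂ ^ m) :
    ∃ k : ℤ, (m : ℤ) ∣ (Q + 1) * va y - k ∧ (m : ℤ) ∣ (Q + 1) * vb y - k ∧
      (m : ℤ) ∣ (Q + 1) * vc y - (Q - 1) * k := by
  have hf₁ : f₁ ≠ 0 := by
    intro h
    apply ng_norm_ne_zero Nα hy
    rw [hNα, h, zero_pow hm.ne', mul_zero]
  have hf₂ : f₂ ≠ 0 := by
    intro h
    apply ng_norm_ne_zero Nβ hy
    rw [hNβ, h, zero_pow hm.ne', mul_zero]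
  have e1 : va y + vc y = winf c₁ + m * winf f₁ := by
    rw [← hαinf y hy, hNα, hwinf _ _ hc₁0 (pow_ne_zero m hf₁), ng_ord_pow hwinf hf₁]
  have e2 : (Q : ℤ) * vb y = w0 c₁ + m * w0 f₁ := by
    rw [← hα0 y hy, hNα, hw0 _ _ hc₁0 (pow_ne_zero m hf₁), ng_ord_pow hw0 hf₁]
  have e3 : (Q : ℤ) * va y = winf c₂ + m * winf f₂ := by
    rw [← hβinf y hy, hNβ, hwinf _ _ hc₂0 (pow_ne_zero m hf₂), ng_ord_pow hwinf hf₂]
  have e4 : vc y + vb y = w0 c₂ + m * w0 f₂ := by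
    rw [← hβ0 y hy, hNβ, hw0 _ _ hc₂0 (pow_ne_zero m hf₂), ng_ord_pow hw0 hf₂]
  refine ⟨(Q + 1) * va y, ⟨0, by ring⟩,
    ⟨-((winf f₁ - w0 f₁) + (winf f₂ - w0 f₂)), ?_⟩,
    ⟨(winf f₁ - w0 f₁) - Q * (winf f₂ - w0 f₂), ?_⟩⟩
  · linear_combination -(e1 - e2 + hc₁) - (e3 - e4 + hc₂)
  · linear_combination (e1 - e2 + hc₁) - (Q : ℤ) * (e3 - e4 + hc₂)

end Vertical

end Fermat.Agent.S36
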