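import Mathlib
import Fermat.Agent.S36.N2ExtHom
import Fermat.Agent.S36.NormGlueCalc
import Fermat.Agent.S36.NormGlue

/-!
# S36 / G-N2, piece N2-ext → G-ng (helper19): the residue surjectivity fields of `NgDir`

* `s36n2e_ngc_of_resid` : additive congruence `x − c ∈ 𝔪(V)`, `x` a unit ⇒ `NgC V c x`.
* `s36n2e_ngSurj` : (F) in the multiplicative form of `NgDir.surj₁ / surj₂`.
* `s36n2e_ngDir` : the package `NgDir` from the two-valuation hypotheses `S36TwoHom`
  (map/comap/surj) and the two norm–residue formulas `split`, `insep` (piece G-nr).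
-/

set_option autoImplicit false
set_option linter.unusedSectionVars false
set_option linter.style.haveILetI false

noncomputable section

namespace Fermat.Agent.S36

open Module IsLocalRing Polynomial

variable {F₁ F : Type*} [Field F₁] [Field F]

/-- additive ⇒ multiplicative congruence for units -/
theorem s36n2e_ngc_of_resid (V : ValuationSubring F) {x c : F} (hx : V.valuation x = 1)
    (h : x - c ∈ V.nonunits) : NgC V c x := by
  have hx0 : x ≠ 0 := by
    intro h0
    rw [h0, map_zero] at hx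
    exact zero_ne_one hx
  unfold NgC
  have h1 : c / x - 1 = -(x - c) * x⁻¹ := by
    field_simp
    ring
  rw [h1, ValuationSubring.mem_nonunits_iff, map_mul, map_inv₀, hx, inv_one, mul_one,
    Valuation.map_neg]
  exact (ValuationSubring.mem_nonunits_iff V).mp h

/-- (F) in the form of `NgDir.surj` -/
theorem s36n2e_ngSurj (φ : F₁ →+* F) (W : ValuationSubring F₁) (V : ValuationSubring F)
    (hF : ∀ x ∈ V, ∃ c ∈ W, x - φ c ∈ V.nonunits) (x : F) (hx : V.valuation x = 1) :
    ∃ z, NgC V (φ z) x := by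
  have hxV : x ∈ V := by
    rw [← ValuationSubring.valuation_le_one_iff, hx]
  obtain ⟨c, -, hc⟩ := hF x hxV
  exact ⟨c, s36n2e_ngc_of_resid V hx hc⟩

/-- a valuation ring dominated by `V` along `φ`: membership of the maximal ideal descends -/
theorem s36n2e_comap (φ : F₁ →+* F) (W : ValuationSubring F₁) (V : ValuationSubring F)
    (hle : ∀ z ∈ W, φ z ∈ V) (z : F₁) (hz : φ z ∈ V.nonunits) : z ∈ W.nonunits := by
  by_contra hcon
  -- then `z⁻¹ ∈ W`, so `φ z⁻¹ ∈ V`, and `1 = φ z · φ z⁻¹ ∈ 𝔪(V)`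
  have hz0 : z ≠ 0 := by
    intro h0
    apply hcon
    rw [h0, ValuationSubring.mem_nonunits_iff, map_zero]
    exact zero_lt_one
  have hinv : z⁻¹ ∈ W := by
    rw [ValuationSubring.mem_nonunits_iff, not_lt] at hcon
    rw [← ValuationSubring.valuation_le_one_iff, map_inv₀]
    exact inv_le_one_of_one_le₀ hcon
  have h1 := hle _ hinv
  rw [ValuationSubring.mem_nonunits_iff] at hz
  rw [← ValuationSubring.valuation_le_one_iff] at h1
  have h2 : V.valuation (φ z * φ z⁻¹) < 1 := by
    rw [map_mul]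
    calc V.valuation (φ z) * V.valuation (φ z⁻¹) ≤ V.valuation (φ z) * 1 :=
          mul_le_mul_right h1 _
      _ = V.valuation (φ z) := mul_one _
      _ < 1 := hz
  rw [← map_mul, mul_inv_cancel₀ hz0, map_one, map_one] at h2
  exact lt_irrefl _ h2

set_option synthInstance.maxHeartbeats 400000 in
set_option maxHeartbeats 1600000 in
/-- **The package `NgDir` of one direction** from the two-valuation hypotheses and the two
norm–residue formulas (G-nr). -/
theorem s36n2e_ngDir (φ : F₁ →+* F) (N : F →* F₁)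
    (hfin : letI := φ.toAlgebra; Module.Finite F₁ F)
    (hsep : letI := φ.toAlgebra; Algebra.IsSeparable F₁ F)
    {n : ℕ} (hdeg : letI := φ.toAlgebra; Module.finrank F₁ F = n + 1)
    (W : ValuationSubring F₁) (hW : IsDiscreteValuationRing W) {ϖ : F₁}
    {V₁ V₂ V₃ : ValuationSubring F} (h : S36TwoHom φ W ϖ V₁ V₂ n) {r Q : ℕ}
    (hsplit : ∀ x x₁ x₂, V₁.valuation x = 1 → V₂.valuation x = 1 →
      NgC V₁ (φ x₁) x → NgC V₂ (φ x₂) x → NgC W (N x) (x₁ * x₂ ^ r))
    (hinsep : ∀ x, V₃.valuation x = 1 → NgC V₃ (φ (N x)) (x ^ Q)) :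
    NgDir φ N W V₁ V₂ V₃ r Q := by
  obtain ⟨-, hF₁, hF₂, -, -⟩ := s36n2e_two_hom φ hfin hsep hdeg W hW h
  exact
    { map₁ := h.dom₁
      map₂ := h.dom₂
      comap₁ := s36n2e_comap φ W V₁ h.le₁
      comap₂ := s36n2e_comap φ W V₂ h.le₂
      surj₁ := s36n2e_ngSurj φ W V₁ hF₁
      surj₂ := s36n2e_ngSurj φ W V₂ hF₂
      split := hsplit
      insep := hinsep }

end Fermat.Agent.S36
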