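import Mathlib
import Fermat.Agent.UNIP.MGVertGauss
import Fermat.Agent.UNIP.MGVertCompat
import Fermat.Agent.S36.N2ExtHom
import Fermat.Agent.S36.N2ExtNg
import Fermat.Agent.S36.N2ExtDVR
import Fermat.Agent.S36.N2Abs

/-!
# S36 / G-N2, piece N2-ext (X), generic part (helper19): `S36TwoHom` for vertical valuations

`W = vtSub hB e₁ hfrac₁` a vertical valuation subring of `F₁` (uniformizer the constant `c₁`,
`e₁ c₁ = π`), `φ : F₁ →+* F`, `V₁`, `V₂` valuation subrings of `F` with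
`V_i.comap φ = W` (piece (C) of N2-val).

* `s36n2x_le_of_comap`, `s36n2x_dom_of_comap` : dominance from `V.comap φ = W`;
* `s36n2x_twoHom` : the hypotheses `S36TwoHom` from (C) + (RAM) + (SEP);
* `s36n2x_two` : conclusions (EXT), (F₁), (F₂), (U₁), (RAM₂);
* `s36n2x_ngSurj₁`, `s36n2x_ngSurj₂` : the residue surjectivity fields of `NgDir`;
* `s36n2x_ext_of_conj` : (EXT) of the ONE-valuation pattern from the conjugates
  (`S36/N2Abs.lean`): if all conjugates of `x` lie in a subring `G` of `L` and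
  `e₀ ⁻¹ G ⊆ W`, then `x` is a root of a monic polynomial with coefficients in `W`.
-/

set_option autoImplicit false
set_option linter.unusedSectionVars false
set_option linter.style.haveILetI false

noncomputable section

namespace Fermat.Agent.S36

open Fermat.Agent.UNIP Fermat.Agent.INJ Polynomial

section Comap

variable {F₁ F : Type*} [Field F₁] [Field F]

theorem s36n2x_le_of_comap {φ : F₁ →+* F} {V : ValuationSubring F} {W : ValuationSubring F₁}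
    (hC : V.comap φ = W) : ∀ z ∈ W, φ z ∈ V := by
  intro z hz
  rw [← hC] at hz
  exact hz

theorem s36n2x_dom_of_comap {φ : F₁ →+* F} {V : ValuationSubring F} {W : ValuationSubring F₁}
    (hC : V.comap φ = W) : ∀ z ∈ W.nonunits, φ z ∈ V.nonunits := by
  intro z hz
  rw [← hC] at hz
  exact (vt_mem_nonunits_comap V φ z).mp hz

theorem s36n2x_comap_of_dom {φ : F₁ →+* F} {V : ValuationSubring F} {W : ValuationSubring F₁}
    (hle : ∀ z ∈ W, φ z ∈ V) (hdom : ∀ z ∈ W.nonunits, φ z ∈ V.nonunits) : V.comap φ = W := by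
  ext z
  rw [ValuationSubring.mem_comap]
  constructor
  · intro hz
    by_contra hcon
    -- `z ∉ W` ⇒ `z⁻¹ ∈ 𝔪(W)` ⇒ `φ z⁻¹ ∈ 𝔪(V)` ⇒ `φ z ∉ V`
    have hz0 : z ≠ 0 := fun h0 => hcon (by rw [h0]; exact W.zero_mem)
    have hinv : z⁻¹ ∈ W.nonunits := by
      rw [ValuationSubring.mem_nonunits_iff, map_inv₀]
      rw [← ValuationSubring.valuation_le_one_iff, not_le] at hcon
      exact inv_lt_one_of_one_lt₀ hcon
    have h1 := hdom _ hinv
    rw [ValuationSubring.mem_nonunits_iff, map_inv₀, map_inv₀] at h1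
    rw [← ValuationSubring.valuation_le_one_iff] at hz
    have hv0 : V.valuation (φ z) ≠ 0 := (Valuation.ne_zero_iff _).mpr ((map_ne_zero φ).mpr hz0)
    have h2 : 1 < V.valuation (φ z) := by
      rwa [inv_lt_one₀ (zero_lt_iff.mpr hv0)] at h1
    exact absurd hz (not_le.mpr h2)
  · exact hle z

end Comap

section Two

variable {A E k : Type*} [CommRing A] [Field E] [Field k]
  {ι : A →+* E} {r : A →+* k} {π : A} {F₁ F : Type*} [Field F₁] [Field F]
  (hB : VtBase ι r π) (e₁ : F₁ →+* LaurentSeries E) (hfrac₁ : ∀ x : F₁, VtFrac ι (e₁ x))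

/-- **`S36TwoHom` for a vertical valuation subring `W`** from the restrictions (C), (RAM),
(SEP). -/
theorem s36n2x_twoHom {c₁ : F₁} (hc₁ : e₁ c₁ = HahnSeries.C (ι π)) {φ : F₁ →+* F}
    {V₁ V₂ : ValuationSubring F} (hC₁ : V₁.comap φ = vtSub hB e₁ hfrac₁)
    (hC₂ : V₂.comap φ = vtSub hB e₁ hfrac₁) {n : ℕ}
    (hsep : ∃ g : F, (g ∈ V₁.nonunits ∧ g ∉ V₂.nonunits) ∨ (g ∈ V₂.nonunits ∧ g ∉ V₁.nonunits))
    (hram : ∃ t z : F, t ∈ V₂.nonunits ∧ z ∈ V₂ ∧ φ c₁ = t ^ n * z) :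
    S36TwoHom φ (vtSub hB e₁ hfrac₁) c₁ V₁ V₂ n where
  unif_mem := vtSub_const_mem hB e₁ hfrac₁ hc₁
  unif := fun _ hx => s36n2e_vtSub_unif hB e₁ hfrac₁ hc₁ hx
  le₁ := s36n2x_le_of_comap hC₁
  le₂ := s36n2x_le_of_comap hC₂
  dom₁ := s36n2x_dom_of_comap hC₁
  dom₂ := s36n2x_dom_of_comap hC₂
  sep := hsep
  ram := hram

/-- **The two-valuation theorem for vertical valuations**: (EXT), (F₁), (F₂), (U₁), (RAM₂). -/
theorem s36n2x_two {c₁ : F₁} (hc₁ : e₁ c₁ = HahnSeries.C (ι π)) {φ : F₁ →+* F}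
    (hfin : letI := φ.toAlgebra; Module.Finite F₁ F)
    (hsep' : letI := φ.toAlgebra; Algebra.IsSeparable F₁ F)
    {n : ℕ} (hdeg : letI := φ.toAlgebra; Module.finrank F₁ F = n + 1)
    {V₁ V₂ : ValuationSubring F} (hC₁ : V₁.comap φ = vtSub hB e₁ hfrac₁)
    (hC₂ : V₂.comap φ = vtSub hB e₁ hfrac₁)
    (hsep : ∃ g : F, (g ∈ V₁.nonunits ∧ g ∉ V₂.nonunits) ∨ (g ∈ V₂.nonunits ∧ g ∉ V₁.nonunits))
    (hram : ∃ t z : F, t ∈ V₂.nonunits ∧ z ∈ V₂ ∧ φ c₁ = t ^ n * z) :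
    (∀ x ∈ V₁, x ∈ V₂ →
        ∃ p : F₁[X], p.Monic ∧ (∀ k, p.coeff k ∈ vtSub hB e₁ hfrac₁) ∧ p.eval₂ φ x = 0) ∧
      (∀ x ∈ V₁, ∃ c ∈ vtSub hB e₁ hfrac₁, x - φ c ∈ V₁.nonunits) ∧
      (∀ x ∈ V₂, ∃ c ∈ vtSub hB e₁ hfrac₁, x - φ c ∈ V₂.nonunits) ∧
      (∀ x ∈ V₁.nonunits, ∃ z ∈ V₁, x = φ c₁ * z) ∧
      (∀ x ∈ V₂.nonunits, ∃ z ∈ V₂, x ^ n = φ c₁ * z) :=
  s36n2e_two_hom φ hfin hsep' hdeg (vtSub hB e₁ hfrac₁)
    (s36n2e_vtSub_isDVR hB e₁ hfrac₁ hc₁)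
    (s36n2x_twoHom hB e₁ hfrac₁ hc₁ hC₁ hC₂ hsep hram)

end Two

section Conj

variable {F₁ F L : Type*} [Field F₁] [Field F] [Field L]

/-- **(EXT) from the conjugates** (ONE-valuation pattern, or any pattern): if the `deg φ`
conjugates `σ i` of `φ` over `e₀` map `x` into a subring `G` of `L`, and `e₀ ⁻¹ G ⊆ W`, then `x`
is a root of a monic polynomial with coefficients in `W` (its minimal polynomial). -/
theorem s36n2x_ext_of_conj (φ : F₁ →+* F)
    (hfin : letI := φ.toAlgebra; Module.Finite F₁ F)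
    (hsep : letI := φ.toAlgebra; Algebra.IsSeparable F₁ F)
    (e₀ : F₁ →+* L) {J : Type*} [Fintype J] (σ : J → F →+* L)
    (hσ : ∀ i x, σ i (φ x) = e₀ x) (hinj : Function.Injective σ)
    (hcard : letI := φ.toAlgebra; Fintype.card J = Module.finrank F₁ F) (G : Subring L)
    (W : ValuationSubring F₁) (hW : ∀ z : F₁, e₀ z ∈ G → z ∈ W)
    {x : F} (hx : ∀ i, σ i x ∈ G) :
    ∃ p : F₁[X], p.Monic ∧ (∀ k, p.coeff k ∈ W) ∧ p.eval₂ φ x = 0 := by
  letI := φ.toAlgebra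
  haveI : FiniteDimensional F₁ F := hfin
  have hint : IsIntegral F₁ x := IsIntegral.of_finite F₁ x
  refine ⟨minpoly F₁ x, minpoly.monic hint, fun k => hW _ ?_, ?_⟩
  · exact s36n2_hom_minpoly_coeff_mem φ hfin hsep e₀ σ hσ hinj hcard G x hx k
  · have h := minpoly.aeval F₁ x
    rwa [Polynomial.aeval_def] at h

end Conj

end Fermat.Agent.S36
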