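import Fermat.Agent.S34.ALMain
import Fermat.Agent.ES.Kronecker

/-!
# S36 / G-mid — the expansion at the middle cusp `1/(qM)` of `X₀(M q²)`: INTERFACE

`K` a field, `ζ : Kˣ`, `q` a prime, `q ∤ M`, `N = M * q * q`, `F = modularFunctionFieldFullC K N`,
`F′ = modularFunctionFieldFullC K (M * q)`.

`S36MidEmb K q M ζ` is the DATA of a `K`-algebra embedding `μ : F →ₐ[K] K((Q))` with
* (M1a) `μ (j(Q^e)) = j(Q^e)` for `e ∣ M q`,
* (M1b) `μ (j(Q^{d q²})) = j(ζ Q^d)` (`= kronRot ζ (j(Q^d))`) for `d ∣ M`.

Consequences proved here (for every such datum):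
* `S36MidEmb.emb_of_mem_low` (M2α) : `μ f = f` for `f ∈ F′`;
* `S36MidEmb.emb_qExpand`    (M2β) : `μ (f(Q^q)) = kronRot ζ (w′ f)` for `f ∈ F′` (`ζ ^ q = 1`,
  `w′` the Atkin–Lehner involution of level `M q`);
* `S36MidEmb.emb_base_sq` : `μ (f(Q^{q²})) = kronRot ζ f` for `f ∈ F_M`;
* `S36MidEmb.ext` : uniqueness;  `S36MidEmb.emb_coeffMap` (M3) : Galois equivariance;
* `S36MidEmb.emb_injective`.

The existence (`s36mid_exists`, for `ζ` a primitive `q`-th root of unity and `K ↪ ℂ`) is in
`Fermat/Agent/S36/MidCusp.lean`.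
-/

set_option autoImplicit false
set_option linter.unusedSectionVars false

noncomputable section

namespace Fermat.Agent.S36

open ModularCurve Fermat.Agent.AL Fermat.Agent.ES

/-- The divisors of `M q²` (`q ∤ M` is not needed): either a divisor of `M q`, or `d q²`. -/
theorem s36mid_divisor_cases {q M : ℕ} (hq : q.Prime) {e : ℕ} (he : e ∣ M * q * q) :
    e ∣ M * q ∨ ∃ d, d ∣ M ∧ e = d * q * q := by
  obtain ⟨a, b, ha, hb, rfl⟩ := (Nat.dvd_mul).1 he
  rcases (Nat.dvd_prime hq).1 hb with rfl | rfl
  · left; simpa using ha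
  · obtain ⟨a₁, b₁, ha₁, hb₁, rfl⟩ := (Nat.dvd_mul).1 ha
    rcases (Nat.dvd_prime hq).1 hb₁ with rfl | rfl
    · left
      simpa using Nat.mul_dvd_mul_right ha₁ b
    · right
      exact ⟨a₁, ha₁, rfl⟩

section Data

variable (K : Type*) [Field K] (q M : ℕ) [NeZero q] [NeZero M] [NeZero (M * q)]
  [NeZero (M * q * q)]

/-- **G-mid as data**: the expansion at the middle cusp. -/
structure S36MidEmb (ζ : Kˣ) where
  /-- the embedding `F_{Mq²} → K((Q))` -/
  emb : modularFunctionFieldFullC K (M * q * q) →ₐ[K] LaurentSeries K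
  /-- (M1a) -/
  emb_low : ∀ (e : ℕ) [NeZero e] (he : e ∣ M * q),
    emb ⟨qExpand K e (jqModC K), jqModCd_mem_full K (M * q * q) (he.mul_right q)⟩ =
      qExpand K e (jqModC K)
  /-- (M1b) -/
  emb_high : ∀ (d : ℕ) [NeZero d] [NeZero (d * q * q)] (hd : d ∣ M),
    emb ⟨qExpand K (d * q * q) (jqModC K),
        jqModCd_mem_full K (M * q * q) (Nat.mul_dvd_mul_right (Nat.mul_dvd_mul_right hd q) q)⟩ =
      kronRot ζ (qExpand K d (jqModC K))

end Data

section Consequences

variable {K : Type*} [Field K] {q M : ℕ} [NeZero q] [NeZero M] [NeZero (M * q)]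
  [NeZero (M * q * q)] {ζ : Kˣ}

theorem s36mid_low_le :
    modularFunctionFieldFullC K (M * q) ≤ modularFunctionFieldFullC K (M * q * q) :=
  full_degeneracyC_le K (Dvd.intro q rfl)

theorem s36mid_base_le :
    modularFunctionFieldFullC K M ≤ modularFunctionFieldFullC K (M * q * q) :=
  full_degeneracyC_le K ⟨q * q, by ring⟩

theorem s36mid_qExpand_mem {f : LaurentSeries K} (hf : f ∈ modularFunctionFieldFullC K (M * q)) :
    qExpand K q f ∈ modularFunctionFieldFullC K (M * q * q) :=
  full_degeneracyC_map_le K (M * q) q ⟨f, hf, rfl⟩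

theorem s36mid_qExpand_sq_mem {f : LaurentSeries K} (hf : f ∈ modularFunctionFieldFullC K M) :
    qExpand K q (qExpand K q f) ∈ modularFunctionFieldFullC K (M * q * q) :=
  s36mid_qExpand_mem (al_qExpand_mem K hf)

/-- `kronRot ζ` is `K`-linear. -/
theorem s36mid_kronRot_algebraMap (ζ : Kˣ) (c : K) :
    kronRot ζ (algebraMap K (LaurentSeries K) c) = algebraMap K (LaurentSeries K) c := by
  rw [algebraMap_laurentSeries_eq_single]
  ext n
  rw [kronRot_coeff]
  by_cases hn : n = 0
  · subst hn
    simp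
  · rw [HahnSeries.coeff_single_of_ne hn, mul_zero]

/-- (M2α) `μ f = f` on `F_{Mq}`. -/
theorem S36MidEmb.emb_of_mem_low (h : S36MidEmb K q M ζ) {f : LaurentSeries K}
    (hf : f ∈ modularFunctionFieldFullC K (M * q)) :
    h.emb ⟨f, s36mid_low_le hf⟩ = f := by
  set φ₁ : modularFunctionFieldFullC K (M * q) →+* LaurentSeries K :=
    h.emb.toRingHom.comp
      (IntermediateField.inclusion (s36mid_low_le (K := K) (q := q) (M := M)) :
        modularFunctionFieldFullC K (M * q) →ₐ[K]
          modularFunctionFieldFullC K (M * q * q)).toRingHom with hφ₁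
  set φ₂ : modularFunctionFieldFullC K (M * q) →+* LaurentSeries K :=
    (modularFunctionFieldFullC K (M * q)).val.toRingHom with hφ₂
  have key : φ₁ = φ₂ := by
    apply al_ringHom_ext K (M * q)
    · intro c
      show h.emb (algebraMap K _ c) = algebraMap K (LaurentSeries K) c
      exact h.emb.commutes c
    · intro d _ hd
      exact h.emb_low d hd
  exact congrArg (fun φ : modularFunctionFieldFullC K (M * q) →+* LaurentSeries K => φ ⟨f, hf⟩) key

variable (ι : K →+* ℂ) (hq : q.Prime) (hqM : ¬ q ∣ M)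

/-- (M2β) `μ (f(Q^q)) = (w′ f)(ζ Q)` on `F_{Mq}`. -/
theorem S36MidEmb.emb_qExpand (h : S36MidEmb K q M ζ) (hζ : ζ ^ q = 1) {f : LaurentSeries K}
    (hf : f ∈ modularFunctionFieldFullC K (M * q)) :
    h.emb ⟨qExpand K q f, s36mid_qExpand_mem hf⟩ =
      kronRot ζ ((atkinLehner K ι hq hqM ⟨f, hf⟩ : modularFunctionFieldFullC K (M * q)) :
        LaurentSeries K) := by
  set β : modularFunctionFieldFullC K (M * q) →+* modularFunctionFieldFullC K (M * q * q) :=
    { toFun := fun x => ⟨qExpand K q (x : LaurentSeries K), s36mid_qExpand_mem x.2⟩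
      map_one' := Subtype.ext (map_one (qExpand K q))
      map_mul' := fun x y => Subtype.ext (map_mul (qExpand K q) _ _)
      map_zero' := Subtype.ext (map_zero (qExpand K q))
      map_add' := fun x y => Subtype.ext (map_add (qExpand K q) _ _) } with hβ
  set φ₁ : modularFunctionFieldFullC K (M * q) →+* LaurentSeries K :=
    h.emb.toRingHom.comp β with hφ₁
  set φ₂ : modularFunctionFieldFullC K (M * q) →+* LaurentSeries K :=
    (kronRot ζ).comp ((modularFunctionFieldFullC K (M * q)).val.toRingHom.comp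
      (atkinLehner K ι hq hqM).toRingEquiv.toRingHom) with hφ₂
  have key : φ₁ = φ₂ := by
    apply al_ringHom_ext K (M * q)
    · intro c
      show h.emb ⟨qExpand K q (algebraMap K (LaurentSeries K) c), _⟩ =
        kronRot ζ ((atkinLehner K ι hq hqM (algebraMap K _ c) :
          modularFunctionFieldFullC K (M * q)) : LaurentSeries K)
      rw [AlgEquiv.commutes]
      have e1 : (⟨qExpand K q (algebraMap K (LaurentSeries K) c),
          s36mid_qExpand_mem (IntermediateField.algebraMap_mem _ c)⟩ :
          modularFunctionFieldFullC K (M * q * q)) = algebraMap K _ c :=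
        Subtype.ext ((qExpandAlgHomC K q).commutes c)
      rw [e1, h.emb.commutes]
      exact (s36mid_kronRot_algebraMap ζ c).symm
    · intro e _ he
      show h.emb ⟨qExpand K q (qExpand K e (jqModC K)), _⟩ =
        kronRot ζ ((atkinLehner K ι hq hqM ⟨qExpand K e (jqModC K), _⟩ :
          modularFunctionFieldFullC K (M * q)) : LaurentSeries K)
      rcases al_divisor_cases hq hqM he with hd | ⟨d, hd, rfl⟩
      · -- `e ∣ M`
        have : NeZero (e * q) := ⟨Nat.mul_ne_zero (NeZero.ne e) (NeZero.ne q)⟩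
        rw [atkinLehner_low K ι hq hqM hd]
        have e1 : qExpand K q (qExpand K e (jqModC K)) = qExpand K (e * q) (jqModC K) := by
          rw [qExpand_qExpand]; exact qExpand_congr (mul_comm q e) _
        have e2 : (⟨qExpand K q (qExpand K e (jqModC K)),
            s36mid_qExpand_mem (jqModCd_mem_full K (M * q) he)⟩ :
            modularFunctionFieldFullC K (M * q * q)) =
            ⟨qExpand K (e * q) (jqModC K), jqModCd_mem_full K (M * q * q)
              ((Nat.mul_dvd_mul_right hd q).mul_right q)⟩ := Subtype.ext e1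
        rw [e2, h.emb_low (e * q) (Nat.mul_dvd_mul_right hd q)]
        have e3 : qExpand K (e * q) (jqModC K) = qExpand K q (qExpand K e (jqModC K)) := e1.symm
        rw [e3, qExpand_kronRot_pow, hζ, kronRot_one]
      · -- `e = d q`, `d ∣ M`
        have hd0 : d ≠ 0 := fun h0 => NeZero.ne M (by rw [h0, zero_dvd_iff] at hd; exact hd)
        have : NeZero d := ⟨hd0⟩
        have : NeZero (d * q * q) :=
          ⟨Nat.mul_ne_zero (Nat.mul_ne_zero hd0 (NeZero.ne q)) (NeZero.ne q)⟩
        rw [atkinLehner_high K ι hq hqM hd]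
        have e1 : qExpand K q (qExpand K (d * q) (jqModC K)) =
            qExpand K (d * q * q) (jqModC K) := by
          rw [qExpand_qExpand]; exact qExpand_congr (mul_comm q (d * q)) _
        have e2 : (⟨qExpand K q (qExpand K (d * q) (jqModC K)),
            s36mid_qExpand_mem (jqModCd_mem_full K (M * q) he)⟩ :
            modularFunctionFieldFullC K (M * q * q)) =
            ⟨qExpand K (d * q * q) (jqModC K), jqModCd_mem_full K (M * q * q)
              (Nat.mul_dvd_mul_right (Nat.mul_dvd_mul_right hd q) q)⟩ := Subtype.ext e1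
        rw [e2, h.emb_high d hd]
  exact congrArg (fun φ : modularFunctionFieldFullC K (M * q) →+* LaurentSeries K => φ ⟨f, hf⟩) key

include ι hq hqM in
/-- `μ (f(Q^{q²})) = f(ζ Q)` on `F_M`. -/
theorem S36MidEmb.emb_base_sq (h : S36MidEmb K q M ζ) (hζ : ζ ^ q = 1) {f : LaurentSeries K}
    (hf : f ∈ modularFunctionFieldFullC K M) :
    h.emb ⟨qExpand K q (qExpand K q f), s36mid_qExpand_sq_mem hf⟩ = kronRot ζ f := by
  have h1 := h.emb_qExpand ι hq hqM hζ (al_qExpand_mem K (q := q) hf)
  rw [h1, atkinLehner_qExpand K ι hq hqM hf]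

/-- Uniqueness of the middle-cusp expansion. -/
theorem S36MidEmb.ext_emb (hq : q.Prime) (h h' : S36MidEmb K q M ζ) : h.emb = h'.emb := by
  have key : h.emb.toRingHom = h'.emb.toRingHom := by
    apply al_ringHom_ext K (M * q * q)
    · intro c
      show h.emb (algebraMap K _ c) = h'.emb (algebraMap K _ c)
      rw [h.emb.commutes, h'.emb.commutes]
    · intro e _ he
      show h.emb ⟨qExpand K e (jqModC K), _⟩ = h'.emb ⟨qExpand K e (jqModC K), _⟩
      rcases s36mid_divisor_cases hq he with he' | ⟨d, hd, rfl⟩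
      · rw [h.emb_low e he', h'.emb_low e he']
      · have hd0 : d ≠ 0 := fun h0 => NeZero.ne M (by rw [h0, zero_dvd_iff] at hd; exact hd)
        have : NeZero d := ⟨hd0⟩
        rw [h.emb_high d hd, h'.emb_high d hd]
  apply AlgHom.ext
  intro x
  exact congrArg (fun φ : modularFunctionFieldFullC K (M * q * q) →+* LaurentSeries K => φ x) key

/-- (M3) Galois equivariance: `μ_{σ ζ} (σ x) = σ (μ_ζ x)`. -/
theorem S36MidEmb.emb_coeffMap (hq : q.Prime) {ζ' : Kˣ} (h : S36MidEmb K q M ζ)
    (h' : S36MidEmb K q M ζ') (σ : K →+* K) (hσ : σ (ζ : K) = (ζ' : K))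
    (x : modularFunctionFieldFullC K (M * q * q)) :
    h'.emb ⟨coeffMap σ (x : LaurentSeries K), al_coeffMap_mem K (M * q * q) σ x.2⟩ =
      coeffMap σ (h.emb x) := by
  set c : modularFunctionFieldFullC K (M * q * q) →+* modularFunctionFieldFullC K (M * q * q) :=
    { toFun := fun x => ⟨coeffMap σ (x : LaurentSeries K), al_coeffMap_mem K (M * q * q) σ x.2⟩
      map_one' := Subtype.ext (map_one (coeffMap σ))
      map_mul' := fun x y => Subtype.ext (map_mul (coeffMap σ) _ _)
      map_zero' := Subtype.ext (map_zero (coeffMap σ))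
      map_add' := fun x y => Subtype.ext (map_add (coeffMap σ) _ _) } with hc
  set φ₁ : modularFunctionFieldFullC K (M * q * q) →+* LaurentSeries K :=
    h'.emb.toRingHom.comp c with hφ₁
  set φ₂ : modularFunctionFieldFullC K (M * q * q) →+* LaurentSeries K :=
    (coeffMap σ).comp h.emb.toRingHom with hφ₂
  have hζu : Units.map (σ : K →* K) ζ = ζ' := Units.ext hσ
  have key : φ₁ = φ₂ := by
    apply al_ringHom_ext K (M * q * q)
    · intro a
      show h'.emb ⟨coeffMap σ (algebraMap K (LaurentSeries K) a), _⟩ =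
        coeffMap σ (h.emb (algebraMap K _ a))
      rw [h.emb.commutes]
      have e1 : coeffMap σ (algebraMap K (LaurentSeries K) a) =
          algebraMap K (LaurentSeries K) (σ a) := by
        rw [algebraMap_laurentSeries_eq_single, coeffMap_single,
          ← algebraMap_laurentSeries_eq_single]
      have e2 : (⟨coeffMap σ (algebraMap K (LaurentSeries K) a),
          al_coeffMap_mem K (M * q * q) σ (IntermediateField.algebraMap_mem _ a)⟩ :
          modularFunctionFieldFullC K (M * q * q)) = algebraMap K _ (σ a) := Subtype.ext e1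
      rw [e2, h'.emb.commutes, e1]
    · intro e _ he
      show h'.emb ⟨coeffMap σ (qExpand K e (jqModC K)), _⟩ =
        coeffMap σ (h.emb ⟨qExpand K e (jqModC K), _⟩)
      have e0 : ∀ (n : ℕ) [NeZero n], coeffMap σ (qExpand K n (jqModC K)) =
          qExpand K n (jqModC K) := by
        intro n _
        have := coeffMap_jqNModC σ n
        rwa [jqNModC] at this
      have e1 : (⟨coeffMap σ (qExpand K e (jqModC K)),
          al_coeffMap_mem K (M * q * q) σ (jqModCd_mem_full K (M * q * q) he)⟩ :
          modularFunctionFieldFullC K (M * q * q)) =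
          ⟨qExpand K e (jqModC K), jqModCd_mem_full K (M * q * q) he⟩ := Subtype.ext (e0 e)
      rw [e1]
      rcases s36mid_divisor_cases hq he with he' | ⟨d, hd, rfl⟩
      · rw [h.emb_low e he', h'.emb_low e he', e0 e]
      · have hd0 : d ≠ 0 := fun h0 => NeZero.ne M (by rw [h0, zero_dvd_iff] at hd; exact hd)
        have : NeZero d := ⟨hd0⟩
        rw [h.emb_high d hd, h'.emb_high d hd, coeffMap_kronRot, hζu, e0 d]
  exact congrArg
    (fun φ : modularFunctionFieldFullC K (M * q * q) →+* LaurentSeries K => φ x) key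

/-- The expansion is injective (a homomorphism of fields). -/
theorem S36MidEmb.emb_injective (h : S36MidEmb K q M ζ) : Function.Injective h.emb :=
  h.emb.toRingHom.injective

/-- The expansion of `j(Q^{q²})` is `j(ζ Q)`. -/
theorem S36MidEmb.emb_jqq (h : S36MidEmb K q M ζ) [NeZero (1 * q * q)] :
    h.emb ⟨qExpand K (1 * q * q) (jqModC K), jqModCd_mem_full K (M * q * q)
        (Nat.mul_dvd_mul_right (Nat.mul_dvd_mul_right (one_dvd M) q) q)⟩ =
      kronRot ζ (jqModC K) := by
  rw [h.emb_high 1 (one_dvd M), qExpand_one_apply]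

end Consequences

end Fermat.Agent.S36

end
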