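import Fermat.Agent.S36.ALQ

/-!
# S36 / G-N2, piece N2-w: the Atkin–Lehner involution `w_{q²}` at level `M q²` (helper92)

Convention of `NOTES/S36-N2.md`: `q` prime, `q ∤ M`, `E` a field with `ι : E →+* ℂ`,
`F″ = modularFunctionFieldFullC E M`, `F′ = … E (M * q)`, `F = … E (M * q * q)`, `α` = inclusion,
`β = qExpand E q`, `w′ = AL.atkinLehner E ι hq hqM` (level `M * q`).

* `s36n2W E ι hq hqM : F ≃ₐ[E] F`, the specialisation `Q = q * q` of `atkinLehnerQ` (`ALQ.lean`);
* `s36n2W_invol`, `s36n2W_symm`, `s36n2W_coeffMap`;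
* `s36n2W_low`, `s36n2W_mid`, `s36n2W_high` : `w j_d = j_{dqq}`, `w j_{dq} = j_{dq}`,
  `w j_{dqq} = j_d` for `d ∣ M`;
* **(W1)** `s36n2W_alpha : w f = qExpand q (w′ f)`, **(W2)** `s36n2W_beta : w (qExpand q f) = w′ f`
  for `f ∈ F′`;
* `s36n2W_base`, `s36n2W_qExpand_sq` : `w f = f(Q^{q²})`, `w (f(Q^{q²})) = f` for `f ∈ F″`;
* `alq_eq_atkinLehner` : for `Q = q` prime `atkinLehnerQ` is helper90's `AL.atkinLehner`;
  `atkinLehnerQ_one` : `w_1 = id`.
-/

set_option autoImplicit false
set_option linter.unusedSectionVars false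
set_option linter.style.haveILetI false

noncomputable section

namespace Fermat.Agent.S36

open ModularCurve MvPolynomial
open Fermat.Agent.S23 Fermat.Agent.S24 Fermat.Agent.S28 Fermat.Agent.AL

/-! ### Two automorphisms with the same swap agree; `w_1 = id`; `w_q` of `S34/ALMain.lean` -/

section Compare

variable (K : Type*) [Field K] (ι : K →+* ℂ)

/-- an algebra endomorphism of `F_N` which fixes the generators is the identity -/
theorem alq_eq_id_of_gen {N : ℕ} [NeZero N]
    (w : modularFunctionFieldFullC K N ≃ₐ[K] modularFunctionFieldFullC K N)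
    (hw : ∀ (d : ℕ) [NeZero d] (hd : d ∣ N),
      w ⟨qExpand K d (jqModC K), jqModCd_mem_full K N hd⟩ =
        ⟨qExpand K d (jqModC K), jqModCd_mem_full K N hd⟩)
    (y : modularFunctionFieldFullC K N) : w y = y := by
  have key : (w.toRingEquiv.toRingHom : modularFunctionFieldFullC K N →+* _)
      = RingHom.id _ := by
    apply al_ringHom_ext K N
    · intro c
      exact w.commutes c
    · intro d _ hd
      exact hw d hd
  exact congrArg (fun φ : modularFunctionFieldFullC K N →+* modularFunctionFieldFullC K N =>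
    φ y) key

/-- `w_1 = id` -/
theorem atkinLehnerQ_one {N : ℕ} [NeZero N] (h1 : 1 ∣ N) (hcop : Nat.Coprime 1 (N / 1))
    (y : modularFunctionFieldFullC K N) : atkinLehnerQ K ι h1 hcop y = y := by
  refine alq_eq_id_of_gen K _ (fun d _ hd => ?_) y
  apply Subtype.ext
  have hsw : alqSwap 1 N d = d := by
    rw [alqSwap, if_pos hd, Nat.gcd_one_right, Nat.div_one, Nat.div_one, one_mul]
  haveI : NeZero (alqSwap 1 N d) := ⟨by rw [hsw]; exact NeZero.ne d⟩
  rw [atkinLehnerQ_jq K ι h1 hcop hd]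
  exact qExpand_congr hsw _

variable {q M : ℕ} [NeZero q] [NeZero M] [NeZero (M * q)] (hq : q.Prime) (hqM : ¬ q ∣ M)

include hq hqM in
theorem alq_dvd_prime : q ∣ M * q := Dvd.intro_left M rfl

include hq hqM in
theorem alq_coprime_prime : Nat.Coprime q (M * q / q) := by
  rw [Nat.mul_div_cancel _ hq.pos]
  exact (Nat.Prime.coprime_iff_not_dvd hq).mpr hqM

include hq hqM in
theorem alqSwap_eq_alSwap (e : ℕ) : alqSwap q (M * q) e = alSwap q (M * q) e := by
  by_cases he : e ∣ M * q
  · rcases al_divisor_cases hq hqM he with hd | ⟨d, hd, rfl⟩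
    · have hcop : Nat.Coprime e q :=
        (Nat.Coprime.symm ((Nat.Prime.coprime_iff_not_dvd hq).mpr fun h => hqM (h.trans hd)))
      rw [alSwap_low hq hqM hd, alqSwap, if_pos he, hcop.gcd_eq_one, Nat.div_one, Nat.div_one,
        mul_comm]
    · have hg : Nat.gcd (d * q) q = q := Nat.gcd_eq_right (Dvd.intro_left d rfl)
      rw [alSwap_high hq hqM hd, alqSwap, if_pos he, hg, Nat.div_self hq.pos, one_mul,
        Nat.mul_div_cancel _ hq.pos]
  · rw [alqSwap, if_neg he, alSwap, if_neg he]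

/-- for `Q = q` prime, `w_Q` is the Atkin–Lehner involution of `S34/ALMain.lean` -/
theorem alq_eq_atkinLehner (y : modularFunctionFieldFullC K (M * q)) :
    atkinLehnerQ K ι (alq_dvd_prime hq hqM) (alq_coprime_prime hq hqM) y
      = atkinLehner K ι hq hqM y := by
  have key : ((atkinLehnerQ K ι (alq_dvd_prime hq hqM)
      (alq_coprime_prime hq hqM)).toRingEquiv.toRingHom :
        modularFunctionFieldFullC K (M * q) →+* _)
      = (atkinLehner K ι hq hqM).toRingEquiv.toRingHom := by
    apply al_ringHom_ext K (M * q)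
    · intro c
      show atkinLehnerQ K ι _ _ (algebraMap K _ c) = atkinLehner K ι hq hqM (algebraMap K _ c)
      rw [AlgEquiv.commutes, AlgEquiv.commutes]
    · intro d _ hd
      apply Subtype.ext
      have e0 : (⟨qExpand K d (jqModC K), jqModCd_mem_full K (M * q) hd⟩ :
          modularFunctionFieldFullC K (M * q)) = ⟨alGen K (M * q) d, alqGen_mem K d⟩ :=
        Subtype.ext (alGen_of_dvd K hd).symm
      have e1 : (⟨qExpand K d (jqModC K), jqModCd_mem_full K (M * q) hd⟩ :
          modularFunctionFieldFullC K (M * q)) = ⟨alGen K (M * q) d, alGen_mem K d⟩ :=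
        Subtype.ext (alGen_of_dvd K hd).symm
      show ((atkinLehnerQ K ι _ _ ⟨qExpand K d (jqModC K), _⟩ :
          modularFunctionFieldFullC K (M * q)) : LaurentSeries K)
        = ((atkinLehner K ι hq hqM ⟨qExpand K d (jqModC K), _⟩ :
          modularFunctionFieldFullC K (M * q)) : LaurentSeries K)
      rw [e0, atkinLehnerQ_gen, ← e0, e1, atkinLehner_gen, alqSwap_eq_alSwap hq hqM]
  exact congrArg (fun φ : modularFunctionFieldFullC K (M * q) →+*
    modularFunctionFieldFullC K (M * q) => φ y) key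

end Compare

/-! ### `w_{q²}` at level `M q²` -/

section N2W

variable (E : Type*) [Field E] (ι : E →+* ℂ) {q M : ℕ} [NeZero q] [NeZero M] [NeZero (M * q)]
  [NeZero (M * q * q)] (hq : q.Prime) (hqM : ¬ q ∣ M)

include hq hqM in
theorem s36n2_dvd : q * q ∣ M * q * q := ⟨M, by ring⟩

include hq hqM in
theorem s36n2_coprime : Nat.Coprime (q * q) (M * q * q / (q * q)) := by
  have h : M * q * q / (q * q) = M := by
    rw [mul_assoc]
    exact Nat.mul_div_cancel _ (Nat.mul_pos hq.pos hq.pos)
  rw [h]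
  have h1 : Nat.Coprime q M := (Nat.Prime.coprime_iff_not_dvd hq).mpr hqM
  exact Nat.Coprime.mul_left h1 h1

/-- **the Atkin–Lehner involution `w_{q²}`** of `F = E(j(Q^e) : e ∣ M q²)` -/
def s36n2W : modularFunctionFieldFullC E (M * q * q) ≃ₐ[E]
    modularFunctionFieldFullC E (M * q * q) :=
  atkinLehnerQ E ι (s36n2_dvd hq hqM) (s36n2_coprime hq hqM)

theorem s36n2W_invol (y : modularFunctionFieldFullC E (M * q * q)) :
    s36n2W E ι hq hqM (s36n2W E ι hq hqM y) = y :=
  atkinLehnerQ_invol E ι _ _ y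

theorem s36n2W_symm : (s36n2W E ι hq hqM).symm = s36n2W E ι hq hqM :=
  atkinLehnerQ_symm E ι _ _

/-- `w_{q²}` commutes with the action of ring endomorphisms of `E` on the coefficients -/
theorem s36n2W_coeffMap (σ : E →+* E) (y : modularFunctionFieldFullC E (M * q * q)) :
    ((s36n2W E ι hq hqM ⟨coeffMap σ (y : LaurentSeries E),
        al_coeffMap_mem E (M * q * q) σ y.2⟩ :
      modularFunctionFieldFullC E (M * q * q)) : LaurentSeries E) =
      coeffMap σ ((s36n2W E ι hq hqM y : modularFunctionFieldFullC E (M * q * q)) :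
        LaurentSeries E) :=
  atkinLehnerQ_coeffMap E ι _ _ σ y

/-- **(W1)** `w f = (w′ f)(Q^q)` for `f ∈ F′`: `w ∘ α = β ∘ w′` -/
theorem s36n2W_alpha {f : LaurentSeries E} (hf : f ∈ modularFunctionFieldFullC E (M * q)) :
    ((s36n2W E ι hq hqM ⟨f, alq_mem_of_mem_lower E hf⟩ :
      modularFunctionFieldFullC E (M * q * q)) : LaurentSeries E) =
      qExpand E q ((atkinLehner E ι hq hqM ⟨f, hf⟩ : modularFunctionFieldFullC E (M * q)) :
        LaurentSeries E) := by
  rw [← alq_eq_atkinLehner E ι hq hqM]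
  exact atkinLehnerQ_of_lower E ι (alq_dvd_prime hq hqM) (alq_coprime_prime hq hqM)
    (s36n2_dvd hq hqM) (s36n2_coprime hq hqM) hf

/-- **(W2)** `w (f(Q^q)) = w′ f` for `f ∈ F′`: `w ∘ β = α ∘ w′` -/
theorem s36n2W_beta {f : LaurentSeries E} (hf : f ∈ modularFunctionFieldFullC E (M * q)) :
    ((s36n2W E ι hq hqM ⟨qExpand E q f, alq_qExpand_mem E hf⟩ :
      modularFunctionFieldFullC E (M * q * q)) : LaurentSeries E) =
      ((atkinLehner E ι hq hqM ⟨f, hf⟩ : modularFunctionFieldFullC E (M * q)) :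
        LaurentSeries E) := by
  rw [← alq_eq_atkinLehner E ι hq hqM]
  exact atkinLehnerQ_qExpand E ι (alq_dvd_prime hq hqM) (alq_coprime_prime hq hqM)
    (s36n2_dvd hq hqM) (s36n2_coprime hq hqM) hf

theorem s36n2_mem_of_mem_base {f : LaurentSeries E} (hf : f ∈ modularFunctionFieldFullC E M) :
    f ∈ modularFunctionFieldFullC E (M * q * q) :=
  alq_mem_of_mem_lower E (al_mem_of_mem_low E hf)

/-- `w f = f(Q^{q²})` for `f ∈ F″` -/
theorem s36n2W_base {f : LaurentSeries E} (hf : f ∈ modularFunctionFieldFullC E M) :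
    ((s36n2W E ι hq hqM ⟨f, s36n2_mem_of_mem_base E hf⟩ :
      modularFunctionFieldFullC E (M * q * q)) : LaurentSeries E) =
      qExpand E q (qExpand E q f) := by
  rw [s36n2W_alpha E ι hq hqM (al_mem_of_mem_low E hf),
    atkinLehner_of_mem_low E ι hq hqM hf]

/-- `w (f(Q^{q²})) = f` for `f ∈ F″` -/
theorem s36n2W_qExpand_sq {f : LaurentSeries E} (hf : f ∈ modularFunctionFieldFullC E M) :
    ((s36n2W E ι hq hqM ⟨qExpand E q (qExpand E q f),
        alq_qExpand_mem E (al_qExpand_mem E hf)⟩ :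
      modularFunctionFieldFullC E (M * q * q)) : LaurentSeries E) = f := by
  rw [s36n2W_beta E ι hq hqM (al_qExpand_mem E hf), atkinLehner_qExpand E ι hq hqM hf]

/-- `w (f(Q^q)) = f(Q^q)` for `f ∈ F″`: the middle generators are fixed -/
theorem s36n2W_mid {f : LaurentSeries E} (hf : f ∈ modularFunctionFieldFullC E M) :
    ((s36n2W E ι hq hqM ⟨qExpand E q f, alq_mem_of_mem_lower E (al_qExpand_mem E hf)⟩ :
      modularFunctionFieldFullC E (M * q * q)) : LaurentSeries E) = qExpand E q f := by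
  rw [s36n2W_alpha E ι hq hqM (al_qExpand_mem E hf), atkinLehner_qExpand E ι hq hqM hf]

end N2W

end Fermat.Agent.S36

end
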