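import Fermat.Agent.UNIP.MGVloc
import Fermat.Agent.S36.N2W
import Fermat.Agent.S36.MidCuspPlan

/-!
# S36 / G-N2, piece N2-val: the three vertical valuation subrings of `F = F_{M q²}(E)`

Bases: `(A, E, k, r, π)` (`hB : VtBase (algebraMap A E) r π`, the small field) and
`(A', E', k', r', π')` (`hB'`, the field `E' = E(ζ)`), `ψ : E →+* E'`, `κ : k →+* k'` compatible
(`hc : VtCompat …`), `ζ : E'ˣ` the image of a unit `z : A'ˣ`, `h : S36MidEmb E' q M ζ` (G-mid).

* embeddings `s36n2EmbA = incl`, `s36n2EmbB = incl ∘ w_{q²}` into `E((Q))`,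
  `s36n2EmbC = μ ∘ base change` into `E'((Q))`;
* `s36n2VA`, `s36n2VB`, `s36n2VC : ValuationSubring F` and the family
  `s36n2V : S36Comp → ValuationSubring F` (`S36Comp = {a, b, c}`);
* restrictions to `F′ = F_{Mq}(E)` along `α` (inclusion) and `β` (`Q ↦ Q^q`):
  `s36n2VA_comap_alpha = V′_∞`, `s36n2VC_comap_alpha = V′_∞`, `s36n2VB_comap_alpha = V′_0`,
  `s36n2VA_comap_beta = V′_∞`, `s36n2VB_comap_beta = V′_0`, `s36n2VC_comap_beta = V′_0`;
* `s36n2V_ne` (pairwise distinct), `s36n2V_const_mem`, `s36n2V_unif_mem_nonunits`,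
  `s36n2V_J_valuation`, `s36n2V_mem_of_isIntegral`, `s36n2V_arch`, `s36n2V_hU_a`, `s36n2V_hU_b`,
  `s36n2V_hram`.
-/

set_option autoImplicit false
set_option linter.unusedSectionVars false
set_option linter.style.haveILetI false

noncomputable section

namespace Fermat.Agent.S36

open ModularCurve Fermat.Agent.UNIP Fermat.Agent.INJ Fermat.Agent.AL Fermat.Agent.ES

/-! ### A. `Q ↦ Q^n` and `Q ↦ z Q` on the Gauss ring -/

section Reflect

variable {A E k : Type*} [CommRing A] [Field E] [Field k]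
  {ι : A →+* E} {r : A →+* k} {π : A}

theorem s36n2_qExpand_mem (n : ℕ) [NeZero n] {x : LaurentSeries E}
    (hx : x ∈ gaussRing ι r) : qExpand E n x ∈ gaussRing ι r := by
  obtain ⟨T, b, hb, h⟩ := hx
  refine ⟨qExpand A n T, qExpand A n b, ?_, ?_⟩
  · rw [coeffMap_qExpand]
    exact fun h0 => hb (qExpand_injective n (by rw [h0, map_zero]))
  · rw [coeffMap_qExpand, coeffMap_qExpand, ← map_mul, h]

theorem s36n2_gaussRed_qExpand (hι : Function.Injective ι) (n : ℕ) [NeZero n]
    (x : gaussRing ι r) :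
    gaussRed r hι ⟨qExpand E n (x : LaurentSeries E), s36n2_qExpand_mem n x.2⟩ =
      qExpand k n (gaussRed r hι x) := by
  obtain ⟨T, b, hb, h⟩ := x.2
  have hb' : coeffMap r (qExpand A n b) ≠ 0 := by
    rw [coeffMap_qExpand]
    exact fun h0 => hb (qExpand_injective n (by rw [h0, map_zero]))
  rw [gaussRed_eq r hι x T b hb h,
    gaussRed_eq r hι _ (qExpand A n T) (qExpand A n b) hb'
      (by
        show coeffMap ι (qExpand A n b) * qExpand E n (x : LaurentSeries E) = _
        rw [coeffMap_qExpand, coeffMap_qExpand, ← map_mul, h]),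
    coeffMap_qExpand, coeffMap_qExpand, map_div₀]

/-- abstract reflection: a ring endomorphism `Φ` of `E((Q))` preserving the Gauss ring and
quotients of series over `A`, and whose reduction is injective, reflects the Gauss ring. -/
theorem s36n2_reflect (hB : VtBase ι r π) (Φ : LaurentSeries E →+* LaurentSeries E)
    (Φk : LaurentSeries k →+* LaurentSeries k)
    (hmem : ∀ x, x ∈ gaussRing ι r → Φ x ∈ gaussRing ι r)
    (hred : ∀ (x : LaurentSeries E) (hx : x ∈ gaussRing ι r),
      gaussRed r hB.inj ⟨Φ x, hmem x hx⟩ = Φk (gaussRed r hB.inj ⟨x, hx⟩))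
    {x : LaurentSeries E} (hfrac : VtFrac ι x) (hx : Φ x ∈ gaussRing ι r) :
    x ∈ gaussRing ι r := by
  rcases vt_mem_or_inv_mem (r := r) hB hfrac with h | h
  · exact h
  · by_contra hxG
    have hx0 : x ≠ 0 := fun h0 => hxG (h0 ▸ (gaussRing ι r).zero_mem)
    -- `x⁻¹` is not a unit of the Gauss ring
    have hnu : gaussRed r hB.inj ⟨x⁻¹, h⟩ = 0 := by
      by_contra hne
      have hu : VtUnit ι r x⁻¹ := (vtUnit_iff hB.inj).mpr ⟨h, hne⟩
      have := (hu.inv hB.inj).mem
      rw [inv_inv] at this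
      exact hxG this
    have h1 : (⟨Φ x, hx⟩ : gaussRing ι r) * ⟨Φ x⁻¹, hmem _ h⟩ = 1 := by
      apply Subtype.ext
      show Φ x * Φ x⁻¹ = 1
      rw [← map_mul, mul_inv_cancel₀ hx0, map_one]
    have h2 := congrArg (gaussRed r hB.inj) h1
    rw [map_mul, map_one, hred _ h, hnu, map_zero, mul_zero] at h2
    exact zero_ne_one h2

theorem s36n2_qExpand_mem_iff (hB : VtBase ι r π) (n : ℕ) [NeZero n] {x : LaurentSeries E}
    (hfrac : VtFrac ι x) : qExpand E n x ∈ gaussRing ι r ↔ x ∈ gaussRing ι r :=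
  ⟨fun hx => s36n2_reflect hB (qExpand E n) (qExpand k n) (fun _ => s36n2_qExpand_mem n)
    (fun x hx => s36n2_gaussRed_qExpand hB.inj n ⟨x, hx⟩) hfrac hx,
   s36n2_qExpand_mem n⟩

theorem s36n2_kronRot_coeffMap (z : Aˣ) (T : LaurentSeries A) :
    kronRot (Units.map (ι : A →* E) z) (coeffMap ι T) = coeffMap ι (kronRot z T) :=
  (coeffMap_kronRot ι z T).symm

theorem s36n2_kronRot_ne_zero {R : Type*} [CommRing R] (c : Rˣ) {f : LaurentSeries R}
    (hf : f ≠ 0) : kronRot c f ≠ 0 := by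
  intro h
  apply hf
  ext n
  have h1 := congrArg (fun g : LaurentSeries R => g.coeff n) h
  simp only [kronRot_coeff, HahnSeries.coeff_zero] at h1
  rw [Units.mul_right_eq_zero] at h1
  rw [h1, HahnSeries.coeff_zero]

theorem s36n2_kronRot_mem (z : Aˣ) {x : LaurentSeries E} (hx : x ∈ gaussRing ι r) :
    kronRot (Units.map (ι : A →* E) z) x ∈ gaussRing ι r := by
  obtain ⟨T, b, hb, h⟩ := hx
  refine ⟨kronRot z T, kronRot z b, ?_, ?_⟩
  · rw [coeffMap_kronRot]
    exact s36n2_kronRot_ne_zero _ hb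
  · rw [← s36n2_kronRot_coeffMap, ← s36n2_kronRot_coeffMap, ← map_mul, h]

theorem s36n2_kronRot_mem_iff (z : Aˣ) {x : LaurentSeries E} :
    kronRot (Units.map (ι : A →* E) z) x ∈ gaussRing ι r ↔ x ∈ gaussRing ι r := by
  refine ⟨fun hx => ?_, s36n2_kronRot_mem z⟩
  have h1 := s36n2_kronRot_mem (r := r) z⁻¹ hx
  rw [kronRot_kronRot, ← map_mul, inv_mul_cancel, map_one, kronRot_one] at h1
  exact h1

theorem s36n2_kronRot_frac (z : Aˣ) {x : LaurentSeries E} (hx : VtFrac ι x) :
    VtFrac ι (kronRot (Units.map (ι : A →* E) z) x) := by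
  obtain ⟨T, b, hb, h⟩ := hx
  refine ⟨kronRot z T, kronRot z b, s36n2_kronRot_ne_zero _ hb, ?_⟩
  rw [← s36n2_kronRot_coeffMap, ← s36n2_kronRot_coeffMap, ← map_mul, h]

end Reflect

/-! ### B. The three embeddings and the three valuation subrings -/

/-- The three vertical components of the special fibre of `X₀(M q²)`: `a` (cusp `∞`),
`b` (cusp `0`), `c` (the middle cusps, multiplicity `q − 1`). -/
inductive S36Comp : Type
  | a : S36Comp
  | b : S36Comp
  | c : S36Comp

instance : Finite S36Comp :=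
  Finite.of_surjective (fun i : Fin 3 => match i with
    | 0 => S36Comp.a
    | 1 => S36Comp.b
    | 2 => S36Comp.c) (by
      intro x
      cases x
      · exact ⟨0, rfl⟩
      · exact ⟨1, rfl⟩
      · exact ⟨2, rfl⟩)

section Emb

variable {A E k A' E' k' : Type*} [CommRing A] [IsDomain A] [Field E] [Algebra A E]
  [IsFractionRing A E] [Field k] [CommRing A'] [Field E'] [Field k']
  {r : A →+* k} {π : A} {ι' : A' →+* E'} {r' : A' →+* k'} {π' : A'}
  (hB : VtBase (algebraMap A E) r π) (hB' : VtBase ι' r' π')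
  (ψ : E →+* E') (ιC : E →+* ℂ)
  {q M : ℕ} [NeZero q] [NeZero M] [NeZero (M * q)] [NeZero (M * q * q)]
  (hq : q.Prime) (hqM : ¬ q ∣ M)
  {ζ : E'ˣ} (h : S36MidEmb E' q M ζ) (z : A'ˣ) (hz : Units.map (ι' : A' →* E') z = ζ)

/-- the expansion at `0`: `incl ∘ w_{q²}` -/
def s36n2EmbB : modularFunctionFieldFullC E (M * q * q) →+* LaurentSeries E :=
  (vtEmb E (M * q * q)).comp (s36n2W E ιC hq hqM).toRingEquiv.toRingHom

theorem s36n2EmbB_apply (x : modularFunctionFieldFullC E (M * q * q)) :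
    s36n2EmbB ιC hq hqM x =
      ((s36n2W E ιC hq hqM x : modularFunctionFieldFullC E (M * q * q)) : LaurentSeries E) :=
  rfl

/-- the expansion at the middle cusp: `μ ∘ base change` -/
def s36n2EmbC : modularFunctionFieldFullC E (M * q * q) →+* LaurentSeries E' :=
  h.emb.toRingHom.comp (mgaCoeffHom ψ (M * q * q))

theorem s36n2EmbC_apply (x : modularFunctionFieldFullC E (M * q * q)) :
    s36n2EmbC ψ h x = h.emb (mgaCoeffHom ψ (M * q * q) x) := rfl

include hB' hq hz in
/-- the image of `μ` consists of quotients of series over `A'` -/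
theorem s36n2_frac_emb (y : modularFunctionFieldFullC E' (M * q * q)) :
    VtFrac ι' (h.emb y) := by
  obtain ⟨y, hy⟩ := y
  refine IntermediateField.adjoin_induction (F := E') (s := divisorExpansionsC E' (M * q * q))
    (p := fun x hx => VtFrac ι' (h.emb ⟨x, hx⟩)) ?_ ?_ ?_ ?_ ?_ hy
  · rintro x ⟨d, hne, hdvd, rfl⟩
    haveI := hne
    have e0 : ∀ (n : ℕ) [NeZero n], qExpand E' n (jqModC E') =
        coeffMap ι' (qExpand A' n (jqModC A')) := fun n _ => (coeffMap_jqNModC ι' n).symm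
    rcases s36mid_divisor_cases hq hdvd with hd' | ⟨d', hd', rfl⟩
    · rw [h.emb_low d hd', e0 d]
      exact vtFrac_coeffMap _
    · have hd0 : d' ≠ 0 := fun h0 => NeZero.ne M (by rw [h0, zero_dvd_iff] at hd'; exact hd')
      haveI : NeZero d' := ⟨hd0⟩
      rw [h.emb_high d' hd', e0 d', ← hz, s36n2_kronRot_coeffMap]
      exact vtFrac_coeffMap _
  · intro c
    show VtFrac ι' (h.emb (algebraMap E' _ c))
    rw [h.emb.commutes, algebraMap_laurentSeries_eq_single]
    exact vtFrac_C hB'.frac c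
  · intro x y hx hy h1 h2
    have e : (⟨x + y, add_mem hx hy⟩ : modularFunctionFieldFullC E' (M * q * q)) =
        ⟨x, hx⟩ + ⟨y, hy⟩ := rfl
    rw [e, map_add]
    exact h1.add hB'.inj h2
  · intro x hx h1
    have e : (⟨x⁻¹, inv_mem hx⟩ : modularFunctionFieldFullC E' (M * q * q)) = (⟨x, hx⟩)⁻¹ := rfl
    rw [e, map_inv₀]
    exact h1.inv hB'.inj
  · intro x y hx hy h1 h2
    have e : (⟨x * y, mul_mem hx hy⟩ : modularFunctionFieldFullC E' (M * q * q)) =
        ⟨x, hx⟩ * ⟨y, hy⟩ := rfl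
    rw [e, map_mul]
    exact h1.mul hB'.inj h2

/-- **`V_a`**: the Gauss valuation of the expansion at `∞`. -/
def s36n2VA : ValuationSubring (modularFunctionFieldFullC E (M * q * q)) :=
  vtInf hB (M * q * q)

/-- **`V_b = V_a.comap w_{q²}`**: the Gauss valuation of the expansion at `0`. -/
def s36n2VB : ValuationSubring (modularFunctionFieldFullC E (M * q * q)) :=
  vtSub hB (s36n2EmbB ιC hq hqM)
    (fun x => vt_frac_fullC hB (M * q * q) (s36n2W E ιC hq hqM x).2)

/-- **`V_c`**: the Gauss valuation of the expansion at the middle cusp. -/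
def s36n2VC : ValuationSubring (modularFunctionFieldFullC E (M * q * q)) :=
  vtSub hB' (s36n2EmbC ψ h) (fun _ => s36n2_frac_emb hB' hq h z hz _)

theorem mem_s36n2VA {x : modularFunctionFieldFullC E (M * q * q)} :
    x ∈ s36n2VA (q := q) (M := M) hB ↔ (x : LaurentSeries E) ∈ gaussRing (algebraMap A E) r :=
  Iff.rfl

theorem mem_s36n2VB {x : modularFunctionFieldFullC E (M * q * q)} :
    x ∈ s36n2VB hB ιC hq hqM ↔
      ((s36n2W E ιC hq hqM x : modularFunctionFieldFullC E (M * q * q)) : LaurentSeries E) ∈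
        gaussRing (algebraMap A E) r := Iff.rfl

theorem mem_s36n2VC {x : modularFunctionFieldFullC E (M * q * q)} :
    x ∈ s36n2VC hB' ψ hq h z hz ↔ h.emb (mgaCoeffHom ψ (M * q * q) x) ∈ gaussRing ι' r' :=
  Iff.rfl

theorem s36n2VB_eq_comap :
    s36n2VB hB ιC hq hqM =
      (s36n2VA hB).comap (s36n2W E ιC hq hqM).toRingEquiv.toRingHom := rfl

/-- **The three vertical valuation subrings.** -/
def s36n2V : S36Comp → ValuationSubring (modularFunctionFieldFullC E (M * q * q))
  | S36Comp.a => s36n2VA hB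
  | S36Comp.b => s36n2VB hB ιC hq hqM
  | S36Comp.c => s36n2VC hB' ψ hq h z hz

end Emb

end Fermat.Agent.S36

end
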