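/-
S36 (Carayol at `q² ∥ M`), geometric clause, piece G-AT (helper84): the ABSTRACT INJECTIVITY
theorem over the small field, for a NON-REDUCED special fibre ("shape ⇒ power").

Chart setting of UNIP (T′) (`UNIP/AbstractT.lean`): `A₀` a DVR with uniformizer `π`,
`E = Frac A₀` of characteristic `0`, algebraically closed in `F`, `F / E(t)` finite; charts
`B_t`, `B_{t⁻¹}` (integral closures of `A₀[t]`, `A₀[t⁻¹]` in `F`); `V : κ → ValuationSubring F` the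
vertical valuation rings.  The special fibre need NOT be reduced: (SS1) is replaced by

* (KR)  `π x` integral over `A₀[t]`, `x ∈ V c` for all `c` ⇒ `x` integral   (Krull property);
* (RAM) `x ∈ 𝔪(V c)` ⇒ `x ^ (q ^ N) ∈ π V c`  (bounded ramification; `q` = residue
        characteristic, `π ∣ q`);
* (U0)  one component `c₀` with `𝔪(V c₀) = π V c₀`, lying over the Gauss valuation.

Main results:
* `aq_hP`           : every `w` of shape `PwiShape V O J inc p w` is a `p`-th power (`J` ANY family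
                      of ideals: the condition `ε ≡ 1 mod J` is not used here).
* `aq_pow_of_shape` : `PwiShape V atO (aqJ V) atInc (p ^ r) w ⇒ ∃ h, h ^ (p ^ r) = w`, where
                      `aqJ V 𝔫` is the RADICAL ideal `{x ∈ (B_u)_𝔫 | x ∈ 𝔪(V c) ∀ c through 𝔫}`.

Proof of `aq_hP`: replace `w` by `w ^ (q ^ N)`; then `w ^ (q ^ N) ≡ 1` modulo `π V c` and the local
factors `γ ^ (q ^ N) ≡ 1` modulo `π V c`, so the Kummer glue `ks_main_pow'` (which only knows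
`π · C_(π)`) applies; `q ^ N` is prime to `p`.
-/
import Fermat.Agent.UNIP.AbstractT

set_option autoImplicit false
set_option linter.unusedSectionVars false
set_option linter.unusedVariables false
set_option linter.style.haveILetI false

namespace Fermat.Agent.S36

open Polynomial IntermediateField Fermat.Agent.INJ AlgebraicCurve Fermat.Agent.UNIP

section Val

variable {F : Type*} [Field F]

/-- `(1 + x) ^ (q ^ N) ≡ 1` modulo `ϖ W` if `q ∈ ϖ W` and `x ^ (q ^ N) ∈ ϖ W`. -/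
theorem aq_pow_sub_one (W : ValuationSubring F) (ϖ : F) {q : ℕ} (hq : q.Prime) (N : ℕ)
    (hqϖ : ∃ z ∈ W, (q : F) = ϖ * z) {x : F} (hx : x ∈ W)
    (hxQ : ∃ z ∈ W, x ^ (q ^ N) = ϖ * z) :
    ∃ z ∈ W, (1 + x) ^ (q ^ N) - 1 = ϖ * z := by
  obtain ⟨z₁, hz₁, hq1⟩ := hqϖ
  obtain ⟨z₂, hz₂, hx2⟩ := hxQ
  obtain ⟨r, hr⟩ := exists_add_pow_prime_pow_eq hq (1 : W) (⟨x, hx⟩ : W) N
  have hr' : (1 + x) ^ (q ^ N) = 1 + x ^ (q ^ N) + (q : F) * 1 * x * (r : F) := by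
    have := congrArg (fun y : W => (y : F)) hr
    simpa using this
  refine ⟨z₂ + z₁ * x * r, W.add_mem _ _ hz₂ (W.mul_mem _ _ (W.mul_mem _ _ hz₁ hx) r.2), ?_⟩
  rw [hr', hx2, hq1]
  ring

/-- the same for `γ` with `γ − 1 ∈ 𝔪_W`. -/
theorem aq_pow_sub_one' (W : ValuationSubring F) (ϖ : F) {q : ℕ} (hq : q.Prime) (N : ℕ)
    (hqϖ : ∃ z ∈ W, (q : F) = ϖ * z)
    (hram : ∀ x : F, x ∈ W.nonunits → ∃ z ∈ W, x ^ (q ^ N) = ϖ * z)
    {γ : F} (hγ : γ - 1 ∈ W.nonunits) :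
    ∃ z ∈ W, γ ^ (q ^ N) - 1 = ϖ * z := by
  have h := aq_pow_sub_one W ϖ hq N hqϖ (W.nonunits_subset hγ) (hram _ hγ)
  simpa using h

/-- `𝔪_W` is closed under addition. -/
theorem aq_add_mem_nonunits (W : ValuationSubring F) {a b : F} (ha : a ∈ W.nonunits)
    (hb : b ∈ W.nonunits) : a + b ∈ W.nonunits := by
  rw [ValuationSubring.mem_nonunits_iff] at ha hb ⊢
  exact Valuation.map_add_lt _ ha hb

theorem aq_zero_mem_nonunits (W : ValuationSubring F) : (0 : F) ∈ W.nonunits := by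
  rw [ValuationSubring.mem_nonunits_iff, map_zero]
  exact zero_lt_one

/-- an element `≡ 1` modulo `𝔪_W` is a unit of `W`. -/
theorem aq_inv_mem (W : ValuationSubring F) {γ : F} (hγ : γ - 1 ∈ W.nonunits) : γ⁻¹ ∈ W := by
  have h1 : W.valuation γ = 1 := pwi_val_eq_one W hγ
  rw [← W.valuation_le_one_iff, map_inv₀, h1, inv_one]

end Val

section Dict

variable {A₀ E F : Type*} [CommRing A₀] [IsDomain A₀] [IsDiscreteValuationRing A₀]
  [Field E] [Algebra A₀ E] [IsFractionRing A₀ E] [CharZero E]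
  [Field F] [Algebra E F] [Algebra A₀ F] [IsScalarTower A₀ E F]
  {π : A₀} {u : F} {κ : Type*}

/-- (KR) iterated: `π ^ k · y` integral and `y ∈ V c` for all `c` ⇒ `y` integral. -/
theorem aq_KR_pow (V : κ → ValuationSubring F)
    (hBV : ∀ c (b : F), IsIntegral ↥(Algebra.adjoin A₀ {u}) b → b ∈ V c)
    (hKR : ∀ x : F, IsIntegral ↥(Algebra.adjoin A₀ {u}) (algebraMap A₀ F π * x) →
      (∀ c, x ∈ V c) → IsIntegral ↥(Algebra.adjoin A₀ {u}) x)
    {y : F} (hy : ∀ c, y ∈ V c) (k : ℕ)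
    (h : IsIntegral ↥(Algebra.adjoin A₀ {u}) (algebraMap A₀ F π ^ k * y)) :
    IsIntegral ↥(Algebra.adjoin A₀ {u}) y := by
  have hπint : IsIntegral ↥(Algebra.adjoin A₀ {u}) (algebraMap A₀ F π) :=
    isIntegral_algebraMap (R := ↥(Algebra.adjoin A₀ {u}))
      (x := algebraMap A₀ ↥(Algebra.adjoin A₀ {u}) π)
  induction k with
  | zero => rwa [pow_zero, one_mul] at h
  | succ k ih =>
    apply ih
    apply hKR
    · have e : algebraMap A₀ F π * (algebraMap A₀ F π ^ k * y)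
          = algebraMap A₀ F π ^ (k + 1) * y := by ring
      rw [e]
      exact h
    · intro c
      exact (V c).mul_mem _ _ (hBV c _ (hπint.pow k)) (hy c)

/-- **DICTIONARY, non-reduced form.**  (KR) ⇒ every `x ∈ ⋂_c π V c` lies in `π · (B_u)_(π)`. -/
theorem aq_dict (hu : Transcendental E u) (hπ : Irreducible π)
    [FiniteDimensional E⟮u⟯ F] (V : κ → ValuationSubring F)
    (hBV : ∀ c (b : F), IsIntegral ↥(Algebra.adjoin A₀ {u}) b → b ∈ V c)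
    (hKR : ∀ x : F, IsIntegral ↥(Algebra.adjoin A₀ {u}) (algebraMap A₀ F π * x) →
      (∀ c, x ∈ V c) → IsIntegral ↥(Algebra.adjoin A₀ {u}) x)
    {x : F} (hx : ∀ c, ∃ z ∈ V c, x = algebraMap A₀ F π * z) : EIPiLoc hu hπ x := by
  have hπ0 : algebraMap A₀ F π ≠ 0 := ei_algebraMap_ne_zero (E := E) hπ
  set z : F := x / algebraMap A₀ F π with hz
  have hxz : x = algebraMap A₀ F π * z := by
    rw [hz]; field_simp
  have hzV : ∀ c, z ∈ V c := by
    intro c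
    obtain ⟨z', hz', hxz'⟩ := hx c
    have : z = z' := by
      apply mul_left_cancel₀ hπ0
      rw [← hxz, hxz']
    rw [this]
    exact hz'
  obtain ⟨k, s, hs, hint⟩ := ad_exists_primeTo_pow_mul_isIntegral (E := E) hu hπ z
  have hsint : IsIntegral ↥(Algebra.adjoin A₀ {u}) s :=
    isIntegral_algebraMap (R := ↥(Algebra.adjoin A₀ {u})) (x := ⟨s, hs.1⟩)
  have hszV : ∀ c, s * z ∈ V c := fun c => (V c).mul_mem _ _ (hBV c s hsint) (hzV c)
  have hsz : IsIntegral ↥(Algebra.adjoin A₀ {u}) (s * z) := by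
    refine aq_KR_pow V hBV hKR hszV k ?_
    rw [← mul_assoc]
    exact hint
  refine (eiPiLoc_iff hu hπ).mpr ⟨s, hs, s * z, hsz, ?_⟩
  rw [hxz]
  ring

/-- Elements of `π · (B_u)_(π)` lie in `π · W` for a valuation ring `W ⊇ B_u` over the Gauss
valuation (`s ∈ A₀[u]` prime to `π` is a unit of `W`). -/
theorem aq_piLoc_mem (hu : Transcendental E u) (hπ : Irreducible π)
    (W : ValuationSubring F)
    (hBW : ∀ b : F, IsIntegral ↥(Algebra.adjoin A₀ {u}) b → b ∈ W)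
    (hG : ∀ s : F, EIPrimeTo π u s → s ∉ W.nonunits)
    {x : F} (hx : EIPiLoc hu hπ x) : ∃ z ∈ W, x = algebraMap A₀ F π * z := by
  obtain ⟨z, ⟨s, hs, hsz⟩, rfl⟩ := hx
  refine ⟨z, ?_, rfl⟩
  have hsint : IsIntegral ↥(Algebra.adjoin A₀ {u}) s :=
    isIntegral_algebraMap (R := ↥(Algebra.adjoin A₀ {u})) (x := ⟨s, hs.1⟩)
  have hs1 : W.valuation s = 1 := ats_valuation_eq_one W (hBW s hsint) (hG s hs)
  have h2 : W.valuation (s * z) ≤ 1 := (W.valuation_le_one_iff _).mpr (hBW _ hsz)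
  rw [map_mul, hs1, one_mul] at h2
  exact (W.valuation_le_one_iff _).mp h2

/-- **The constants**: if one component `W` has `𝔪_W = π W` and lies over the Gauss valuation, and
the units of `A₀` are `p`-th powers, then the constants `c ∈ E^×` with `c · h ^ p ≡ 1` on the
special fibre are `p`-th powers. -/
theorem aq_hconst (hu : Transcendental E u) (hπ : Irreducible π)
    (W : ValuationSubring F)
    (hBW : ∀ b : F, IsIntegral ↥(Algebra.adjoin A₀ {u}) b → b ∈ W)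
    (hπW : algebraMap A₀ F π ∈ W.nonunits)
    (hU : ∀ x : F, x ∈ W.nonunits → ∃ z ∈ W, x = algebraMap A₀ F π * z)
    (hG : ∀ s : F, EIPrimeTo π u s → s ∉ W.nonunits)
    {p : ℕ} (hp : 0 < p) (hunit : ∀ a : A₀, IsUnit a → ∃ d : A₀, d ^ p = a) :
    ∀ c : E, c ≠ 0 →
      (∃ h : F, EIPiLoc hu hπ (algebraMap E F c * h ^ p - 1)) → ∃ d : E, d ^ p = c := by
  intro c hc ⟨h, hh⟩
  obtain ⟨d, r, hrp, hd⟩ := ks_const_decomp hπ hp hunit hc
  rcases Nat.eq_zero_or_pos r with hr0 | hr0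
  · subst hr0
    exact ⟨d, by rw [← hd, pow_zero, one_mul]⟩
  exfalso
  set ϖ : F := algebraMap A₀ F π with hϖ
  have hϖ0 : ϖ ≠ 0 := ei_algebraMap_ne_zero (E := E) hπ
  set h₁ : F := algebraMap E F d * h with hh₁
  have e : ϖ ^ r * h₁ ^ p = algebraMap E F c * h ^ p := by
    rw [← hd, map_mul, map_pow, map_pow, hh₁, mul_pow, hϖ,
      ← IsScalarTower.algebraMap_apply A₀ E F]
    ring
  rw [← e] at hh
  obtain ⟨z, hz, hxz⟩ := aq_piLoc_mem hu hπ W hBW hG hh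
  -- `ϖ ^ r h₁ ^ p ≡ 1` modulo `𝔪_W`
  have hmem : ϖ ^ r * h₁ ^ p - 1 ∈ W.nonunits := by
    rw [hxz, mul_comm]
    exact pwi_mul_mem_nonunits W hz hπW
  have hval : W.valuation (ϖ ^ r * h₁ ^ p) = 1 := pwi_val_eq_one W hmem
  have ha1 : W.valuation ϖ < 1 := (ValuationSubring.mem_nonunits_iff W).mp hπW
  have ha0 : W.valuation ϖ ≠ 0 := (_root_.map_ne_zero _).mpr hϖ0
  have hh₁0 : h₁ ≠ 0 := by
    rintro h0
    rw [h0, zero_pow hp.ne', mul_zero, map_zero] at hval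
    exact zero_ne_one hval
  -- `y := h₁⁻¹ ∈ 𝔪_W`
  set y : F := h₁⁻¹ with hy
  have hyp : W.valuation y ^ p = W.valuation ϖ ^ r := by
    rw [map_mul, map_pow, map_pow] at hval
    rw [hy, map_inv₀, inv_pow]
    exact (eq_inv_of_mul_eq_one_left hval).symm
  have hylt : W.valuation y < 1 := by
    by_contra hcon
    have h1 : 1 ≤ W.valuation y ^ p := one_le_pow₀ (not_lt.mp hcon)
    rw [hyp] at h1
    exact absurd (pow_lt_one₀ zero_le ha1 hr0.ne') (not_lt.mpr h1)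
  obtain ⟨z', hz', hyz'⟩ := hU y ((ValuationSubring.mem_nonunits_iff W).mpr hylt)
  have hyle : W.valuation y ≤ W.valuation ϖ := by
    rw [hyz', map_mul]
    exact mul_le_of_le_one_right zero_le ((W.valuation_le_one_iff _).mpr hz')
  have h3 : W.valuation ϖ ^ r ≤ W.valuation ϖ ^ p := by
    rw [← hyp]
    exact pow_le_pow_left₀ zero_le hyle p
  have h4 : W.valuation ϖ ^ p < W.valuation ϖ ^ r :=
    pow_lt_pow_right_of_lt_one₀ (zero_lt_iff.mpr ha0) ha1 hrp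
  exact absurd h4 (not_lt.mpr h3)

end Dict

section Adapter

variable {A₀ E F : Type*} [CommRing A₀] [IsDomain A₀] [IsDiscreteValuationRing A₀]
  [Field E] [Algebra A₀ E] [IsFractionRing A₀ E] [CharZero E]
  [Field F] [Algebra E F] [Algebra A₀ F] [IsScalarTower A₀ E F]
  {π : A₀} {u : F} {κ ι : Type*}

/-- **ADAPTER at one closed point, `π`-divisible form.**  As `UNIP.ad_ksLocal_point`, with
"`≡` modulo `π V c`" in place of "`≡` modulo `𝔪(V c)`". -/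
theorem aq_ksLocal_point (hu : Transcendental E u) (hπ : Irreducible π)
    [Finite κ] (V : κ → ValuationSubring F)
    (hBV : ∀ c (b : F), IsIntegral ↥(Algebra.adjoin A₀ {u}) b → b ∈ V c)
    (hπV : ∀ c, algebraMap A₀ F π ∈ (V c).nonunits)
    (hdict : ∀ x : F, (∀ c, ∃ z ∈ V c, x = algebraMap A₀ F π * z) → EIPiLoc hu hπ x)
    (harch : ∀ c (a x : F), a ∈ (V c).nonunits → ∃ N : ℕ, a ^ N * x ∈ (V c).nonunits)
    (𝔫 : Ideal ↥(zchClosure (A₀ := A₀) ({u} : Set F))) [h𝔫 : 𝔫.IsPrime]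
    (thr : κ → Prop)
    (hthr : ∀ c, ¬ thr c →
      ∃ b : ↥(zchClosure (A₀ := A₀) ({u} : Set F)), b ∉ 𝔫 ∧ (b : F) ∈ (V c).nonunits)
    {p : ℕ} (hp : 0 < p) {w ε γ : F} (hγ0 : γ ≠ 0)
    (hε : ∃ b s₁ : ↥(zchClosure (A₀ := A₀) ({u} : Set F)), s₁ ∉ 𝔫 ∧ (s₁ : F) * ε = b)
    (hγ : ∀ c, thr c → ∃ z ∈ V c, γ - 1 = algebraMap A₀ F π * z) (hw : w = ε * γ ^ p) :
    ∃ s : ↥(zchClosure (A₀ := A₀) ({u} : Set F)), s ∉ 𝔫 ∧ ∃ g : F,
      IsIntegral ↥(Algebra.adjoin A₀ {u}) (g ^ p * w) ∧ EIPiLoc hu hπ ((s : F) - g) := by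
  classical
  haveI : Fintype κ := Fintype.ofFinite κ
  obtain ⟨b, s₁, hs₁, hsb⟩ := hε
  set ϖ : F := algebraMap A₀ F π with hϖ
  have hϖ0 : ϖ ≠ 0 := ei_algebraMap_ne_zero (E := E) hπ
  have h1𝔫 : (1 : ↥(zchClosure (A₀ := A₀) ({u} : Set F))) ∉ 𝔫 := fun h =>
    h𝔫.ne_top ((Ideal.eq_top_iff_one 𝔫).mpr h)
  -- the multipliers
  have hmult : ∀ c, ∃ bc : ↥(zchClosure (A₀ := A₀) ({u} : Set F)), bc ∉ 𝔫 ∧
      ∃ z ∈ V c, (bc : F) * ((γ - 1) / γ) = ϖ * z := by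
    intro c
    by_cases hc : thr c
    · obtain ⟨z, hz, hγz⟩ := hγ c hc
      have hγm : γ - 1 ∈ (V c).nonunits := by
        rw [hγz, mul_comm]
        exact pwi_mul_mem_nonunits (V c) hz (hπV c)
      refine ⟨1, h1𝔫, z * γ⁻¹, (V c).mul_mem _ _ hz (aq_inv_mem (V c) hγm), ?_⟩
      push_cast
      rw [one_mul, hγz]
      field_simp
    · obtain ⟨b', hb', hb'V⟩ := hthr c hc
      obtain ⟨N, hN⟩ := harch c (b' : F) ((γ - 1) / γ / ϖ) hb'V
      refine ⟨b' ^ N, fun h => hb' (h𝔫.mem_of_pow_mem N h), _, (V c).nonunits_subset hN, ?_⟩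
      push_cast
      field_simp
  choose bc hbc zc hzc hbcz using hmult
  set b₀ : ↥(zchClosure (A₀ := A₀) ({u} : Set F)) := ∏ c, bc c with hb₀
  have hb₀𝔫 : b₀ ∉ 𝔫 := by
    intro h
    obtain ⟨c, -, hc⟩ := (Ideal.IsPrime.prod_mem_iff).mp h
    exact hbc c hc
  have hmemV : ∀ (x : ↥(zchClosure (A₀ := A₀) ({u} : Set F))) (c : κ), (x : F) ∈ V c :=
    fun x c => hBV c _ (mem_zchClosure.mp x.2)
  refine ⟨b₀ * s₁, fun h => ?_, ((b₀ * s₁ : ↥(zchClosure (A₀ := A₀) ({u} : Set F))) : F) / γ,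
    ?_, ?_⟩
  · rcases h𝔫.mem_or_mem h with h' | h'
    · exact hb₀𝔫 h'
    · exact hs₁ h'
  · have e : (((b₀ * s₁ : ↥(zchClosure (A₀ := A₀) ({u} : Set F))) : F) / γ) ^ p * w
        = ((b₀ ^ p * s₁ ^ (p - 1) * b : ↥(zchClosure (A₀ := A₀) ({u} : Set F))) : F) := by
      have h2 : (s₁ : F) ^ p = (s₁ : F) ^ (p - 1) * (s₁ : F) := by
        rw [← pow_succ, Nat.sub_add_cancel hp]
      push_cast
      rw [hw, div_pow, mul_pow, h2, ← hsb]
      field_simp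
    rw [e]
    exact mem_zchClosure.mp (b₀ ^ p * s₁ ^ (p - 1) * b).2
  · apply hdict
    intro c
    refine ⟨((s₁ * ∏ c' ∈ Finset.univ.erase c, bc c' :
      ↥(zchClosure (A₀ := A₀) ({u} : Set F))) : F) * zc c,
      (V c).mul_mem _ _ (hmemV _ c) (hzc c), ?_⟩
    have e : ((b₀ * s₁ : ↥(zchClosure (A₀ := A₀) ({u} : Set F))) : F)
          - ((b₀ * s₁ : ↥(zchClosure (A₀ := A₀) ({u} : Set F))) : F) / γ
        = ((s₁ * ∏ c' ∈ Finset.univ.erase c, bc c' :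
            ↥(zchClosure (A₀ := A₀) ({u} : Set F))) : F) * ((bc c : F) * ((γ - 1) / γ)) := by
      have hprod : b₀ = bc c * ∏ c' ∈ Finset.univ.erase c, bc c' := by
        rw [hb₀, Finset.mul_prod_erase _ _ (Finset.mem_univ c)]
      rw [hprod]
      push_cast
      field_simp
    rw [e, hbcz c]
    ring

/-- **ADAPTER** `PwiShape ⇒ KSLocal'` for `w ^ (q ^ N)` at the chart `u`. -/
theorem aq_ksLocal' (hu : Transcendental E u) (hπ : Irreducible π)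
    [Finite κ] (V : κ → ValuationSubring F) (O : ι → Subring F) (J : ∀ i, Ideal (O i))
    (inc : ι → κ → Prop)
    (hBV : ∀ c (b : F), IsIntegral ↥(Algebra.adjoin A₀ {u}) b → b ∈ V c)
    (hπV : ∀ c, algebraMap A₀ F π ∈ (V c).nonunits)
    (hdict : ∀ x : F, (∀ c, ∃ z ∈ V c, x = algebraMap A₀ F π * z) → EIPiLoc hu hπ x)
    (harch : ∀ c (a x : F), a ∈ (V c).nonunits → ∃ N : ℕ, a ^ N * x ∈ (V c).nonunits)
    {q : ℕ} (hq : q.Prime) (N : ℕ)
    (hqπ : ∀ c, ∃ z ∈ V c, (q : F) = algebraMap A₀ F π * z)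
    (hram : ∀ c (x : F), x ∈ (V c).nonunits → ∃ z ∈ V c, x ^ (q ^ N) = algebraMap A₀ F π * z)
    (hcov : ∀ 𝔫 : Ideal ↥(zchClosure (A₀ := A₀) ({u} : Set F)), 𝔫.IsMaximal →
      algebraMap A₀ ↥(zchClosure (A₀ := A₀) ({u} : Set F)) π ∈ 𝔫 → ∃ i : ι,
        (∀ x ∈ O i, ∃ b s : ↥(zchClosure (A₀ := A₀) ({u} : Set F)), s ∉ 𝔫 ∧ (s : F) * x = b) ∧
        (∀ c, ¬ inc i c →
          ∃ b : ↥(zchClosure (A₀ := A₀) ({u} : Set F)), b ∉ 𝔫 ∧ (b : F) ∈ (V c).nonunits))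
    {p : ℕ} (hp : 0 < p) {w : F} (hw0 : w ≠ 0) (hw : PwiShape V O J inc p w) :
    KSLocal' hu hπ p (w ^ (q ^ N)) := by
  intro 𝔫 h𝔫 hπ𝔫
  haveI := h𝔫.isPrime
  obtain ⟨i, hOi, hinc⟩ := hcov 𝔫 h𝔫 hπ𝔫
  obtain ⟨ε, γ, hε, -, hγ, hwε⟩ := hw.2 i
  have hγ0 : γ ≠ 0 := by
    rintro rfl
    rw [zero_pow hp.ne', mul_zero] at hwε
    exact hw0 hwε
  refine aq_ksLocal_point hu hπ V hBV hπV hdict harch 𝔫 (inc i) hinc hp
    (w := w ^ (q ^ N)) (ε := ε ^ (q ^ N)) (γ := γ ^ (q ^ N)) (pow_ne_zero _ hγ0)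
    (hOi _ (Subring.pow_mem _ hε _)) ?_ ?_
  · intro c hc
    exact aq_pow_sub_one' (V c) _ hq N (hqπ c) (hram c) (hγ c hc)
  · rw [hwε, mul_pow, ← pow_mul, ← pow_mul, mul_comm p]

end Adapter

section Base

variable {A₀ E F : Type*} [CommRing A₀] [IsDomain A₀] [IsDiscreteValuationRing A₀]
  [Field E] [Algebra A₀ E] [IsFractionRing A₀ E] [CharZero E]
  [Field F] [Algebra E F] [Algebra A₀ F] [IsScalarTower A₀ E F]
  {π : A₀} {κ ι : Type*}

/-- a `p`-th power root of `w ^ Q`, `Q` prime to `p`, gives a `p`-th root of `w`. -/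
theorem aq_root_of_pow_coprime {p Q : ℕ} (hQp : Nat.Coprime Q p) {w h : F} (hw0 : w ≠ 0)
    (hh : h ^ p = w ^ Q) : ∃ h' : F, h' ^ p = w := by
  have hco : IsCoprime (Q : ℤ) (p : ℤ) := Nat.isCoprime_iff_coprime.mpr hQp
  obtain ⟨a, b, hab⟩ := hco
  refine ⟨h ^ a * w ^ b, ?_⟩
  have h1 : (h ^ a * w ^ b) ^ p = (h ^ p) ^ a * (w ^ b) ^ (p : ℤ) := by
    rw [mul_pow, ← zpow_natCast (h ^ a) p, ← zpow_mul, mul_comm a (p : ℤ), zpow_mul,
      zpow_natCast, ← zpow_natCast (w ^ b) p]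
  rw [h1, hh, ← zpow_natCast w Q, ← zpow_mul, ← zpow_mul, ← zpow_add₀ hw0]
  have e : (Q : ℤ) * a + b * (p : ℤ) = 1 := by rw [← hab]; ring
  rw [e, zpow_one]

/-- **Base case (`hP` of D5), non-reduced special fibre.**  In the chart setting for `F`, with
(KR), (RAM), (U0), every `w` of shape `p` is a `p`-th power.  (`J` is arbitrary.) -/
theorem aq_hP (hπ : Irreducible π) {t : F} (ht : Transcendental E t)
    [FiniteDimensional E⟮t⟯ F]
    (hcl : ∀ x : F, IsAlgebraic E x → x ∈ (algebraMap E F).range)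
    {p : ℕ} (hp : p.Prime) (hpu : IsUnit (p : A₀)) {ζ : A₀} (hζ : IsPrimitiveRoot ζ p)
    (hunit : ∀ a : A₀, IsUnit a → ∃ d : A₀, d ^ p = a)
    {q : ℕ} (hq : q.Prime) (hqp : q ≠ p) (hqπ : π ∣ (q : A₀)) (N : ℕ)
    [Finite κ] (V : κ → ValuationSubring F) (O : ι → Subring F) (J : ∀ i, Ideal (O i))
    (inc : ι → κ → Prop)
    (hBV₁ : ∀ c (b : F), IsIntegral ↥(Algebra.adjoin A₀ {t}) b → b ∈ V c)
    (hBV₂ : ∀ c (b : F), IsIntegral ↥(Algebra.adjoin A₀ {t⁻¹}) b → b ∈ V c)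
    (hπV : ∀ c, algebraMap A₀ F π ∈ (V c).nonunits)
    (hKR : ∀ x : F, IsIntegral ↥(Algebra.adjoin A₀ {t}) (algebraMap A₀ F π * x) →
      (∀ c, x ∈ V c) → IsIntegral ↥(Algebra.adjoin A₀ {t}) x)
    (hram : ∀ c (x : F), x ∈ (V c).nonunits → ∃ z ∈ V c, x ^ (q ^ N) = algebraMap A₀ F π * z)
    (c₀ : κ)
    (hU : ∀ x : F, x ∈ (V c₀).nonunits → ∃ z ∈ V c₀, x = algebraMap A₀ F π * z)
    (hG : ∀ s : F, EIPrimeTo π t s → s ∉ (V c₀).nonunits)
    (harch : ∀ c (a x : F), a ∈ (V c).nonunits → ∃ N : ℕ, a ^ N * x ∈ (V c).nonunits)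
    (hcov₁ : ∀ 𝔫 : Ideal ↥(zchClosure (A₀ := A₀) ({t} : Set F)), 𝔫.IsMaximal →
      algebraMap A₀ ↥(zchClosure (A₀ := A₀) ({t} : Set F)) π ∈ 𝔫 → ∃ i : ι,
        (∀ x ∈ O i, ∃ b s : ↥(zchClosure (A₀ := A₀) ({t} : Set F)), s ∉ 𝔫 ∧ (s : F) * x = b) ∧
        (∀ c, ¬ inc i c →
          ∃ b : ↥(zchClosure (A₀ := A₀) ({t} : Set F)), b ∉ 𝔫 ∧ (b : F) ∈ (V c).nonunits))
    (hcov₂ : ∀ 𝔫 : Ideal ↥(zchClosure (A₀ := A₀) ({t⁻¹} : Set F)), 𝔫.IsMaximal →
      algebraMap A₀ ↥(zchClosure (A₀ := A₀) ({t⁻¹} : Set F)) π ∈ 𝔫 → ∃ i : ι,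
        (∀ x ∈ O i, ∃ b s : ↥(zchClosure (A₀ := A₀) ({t⁻¹} : Set F)), s ∉ 𝔫 ∧ (s : F) * x = b) ∧
        (∀ c, ¬ inc i c →
          ∃ b : ↥(zchClosure (A₀ := A₀) ({t⁻¹} : Set F)), b ∉ 𝔫 ∧ (b : F) ∈ (V c).nonunits))
    (w : F) (hw : PwiShape V O J inc p w) : ∃ h : F, h ^ p = w := by
  by_cases hw0 : w = 0
  · exact ⟨0, by rw [hw0, zero_pow hp.ne_zero]⟩
  have hdict₁ : ∀ x : F, (∀ c, ∃ z ∈ V c, x = algebraMap A₀ F π * z) → EIPiLoc ht hπ x :=
    fun x hx => aq_dict ht hπ V hBV₁ hKR hx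
  have hdict₂ : ∀ x : F, (∀ c, ∃ z ∈ V c, x = algebraMap A₀ F π * z) →
      EIPiLoc (zch_transcendental_inv ht) hπ x := fun x hx =>
    (eiPiLoc_inv_iff ht hπ).mpr (hdict₁ x hx)
  have hqV : ∀ c, ∃ z ∈ V c, (q : F) = algebraMap A₀ F π * z := by
    intro c
    obtain ⟨a, ha⟩ := hqπ
    refine ⟨algebraMap A₀ F a, hBV₁ c _ (isIntegral_algebraMap (R := ↥(Algebra.adjoin A₀ {t}))
      (x := algebraMap A₀ ↥(Algebra.adjoin A₀ {t}) a)), ?_⟩
    rw [← map_mul, ← ha, map_natCast]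
  have hconst := aq_hconst (E := E) ht hπ (V c₀) (hBV₁ c₀) (hπV c₀) hU hG hp.pos hunit
  have hGl : EIPiLoc ht hπ (w ^ (q ^ N) - 1) :=
    hdict₁ _ (fun c => aq_pow_sub_one' (V c) _ hq N (hqV c) (hram c) (hw.1 c))
  obtain ⟨h, hh⟩ := ks_main_pow' hπ ht hcl hp hpu hζ hconst (pow_ne_zero _ hw0) hGl
    (aq_ksLocal' ht hπ V O J inc hBV₁ hπV hdict₁ harch hq N hqV hram hcov₁ hp.pos hw0 hw)
    (aq_ksLocal' (zch_transcendental_inv ht) hπ V O J inc hBV₂ hπV hdict₂ harch hq N hqV hram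
      hcov₂ hp.pos hw0 hw)
  refine aq_root_of_pow_coprime ?_ hw0 hh
  exact Nat.Coprime.pow_left N ((Nat.coprime_primes hq hp).mpr hqp)

end Base

section Main

variable {A₀ E F : Type*} [CommRing A₀] [IsDomain A₀] [IsDiscreteValuationRing A₀]
  [Field E] [Algebra A₀ E] [IsFractionRing A₀ E] [CharZero E]
  [Field F] [Algebra E F] [Algebra A₀ F] [IsScalarTower A₀ E F]
  {κ : Type*}

/-- The RADICAL ideal of the local ring `(B_u)_𝔫` of a closed point: the elements whose multiples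
all lie in `𝔪(V c)` for every component `c` through `𝔫`. -/
def aqLocIdeal (V : κ → ValuationSubring F) {π : A₀} {u : F} (𝔫 : AtPt (F := F) π u) :
    Ideal (atLoc 𝔫) where
  carrier := {x | ∀ c, atThrough 𝔫 (V c) → ∀ y : atLoc 𝔫, (y : F) * (x : F) ∈ (V c).nonunits}
  add_mem' := by
    intro a b ha hb c hc y
    have e : (y : F) * ((a + b : atLoc 𝔫) : F) = (y : F) * (a : F) + (y : F) * (b : F) := by
      push_cast; ring
    rw [e]
    exact aq_add_mem_nonunits (V c) (ha c hc y) (hb c hc y)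
  zero_mem' := by
    intro c hc y
    simp only [ZeroMemClass.coe_zero, mul_zero]
    exact aq_zero_mem_nonunits (V c)
  smul_mem' := by
    intro a x hx c hc y
    have e : (y : F) * ((a • x : atLoc 𝔫) : F) = ((y * a : atLoc 𝔫) : F) * (x : F) := by
      rw [smul_eq_mul]; push_cast; ring
    rw [e]
    exact hx c hc (y * a)


/-- `J i` of `PwiShape` for a non-reduced special fibre: the radical ideals. -/
def aqJ (V : κ → ValuationSubring F) (π : A₀) (t : F) :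
    (i : AtPt (F := F) π t ⊕ AtPt (F := F) π t⁻¹) → Ideal (atO π t i)
  | Sum.inl 𝔫 => aqLocIdeal V 𝔫
  | Sum.inr 𝔫 => aqLocIdeal V 𝔫

variable {π : A₀}

/-- the local ring of a closed point lies in the valuation rings of the components through it -/
theorem aq_atLoc_le (W : ValuationSubring F) {u : F}
    (hBW : ∀ b : F, IsIntegral ↥(Algebra.adjoin A₀ {u}) b → b ∈ W)
    (𝔫 : AtPt (F := F) π u) (hthr : atThrough 𝔫 W) {x : F} (hx : x ∈ atLoc 𝔫) : x ∈ W := by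
  obtain ⟨b, s, hs, hsx⟩ := hx
  have hs1 : W.valuation (s : F) = 1 :=
    ats_valuation_eq_one W (hBW _ (mem_zchClosure.mp s.2)) fun h => hs (hthr s h)
  have h2 : W.valuation ((s : F) * x) ≤ 1 := by
    rw [show ((s : F) * x) = (b : F) from hsx]
    exact (W.valuation_le_one_iff _).mpr (hBW _ (mem_zchClosure.mp b.2))
  rw [map_mul, hs1, one_mul] at h2
  exact (W.valuation_le_one_iff _).mp h2

/-- membership in the radical ideal -/
theorem aq_mem_locIdeal (V : κ → ValuationSubring F) {u : F}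
    (hBV : ∀ c (b : F), IsIntegral ↥(Algebra.adjoin A₀ {u}) b → b ∈ V c)
    (𝔫 : AtPt (F := F) π u) (x : atLoc 𝔫) :
    x ∈ aqLocIdeal V 𝔫 ↔ ∀ c, atThrough 𝔫 (V c) → (x : F) ∈ (V c).nonunits := by
  constructor
  · intro h c hc
    have := h c hc 1
    simpa using this
  · intro h c hc y
    exact pwi_mul_mem_nonunits (V c) (aq_atLoc_le (V c) (hBV c) 𝔫 hc y.2) (h c hc)

/-- (KR) on the chart `t⁻¹` from (KR) on the chart `t`. -/
theorem aq_KR_inv (hπ : Irreducible π) {t : F} (ht : Transcendental E t)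
    [FiniteDimensional E⟮t⟯ F] (V : κ → ValuationSubring F)
    (hBV₁ : ∀ c (b : F), IsIntegral ↥(Algebra.adjoin A₀ {t}) b → b ∈ V c)
    (hKR : ∀ x : F, IsIntegral ↥(Algebra.adjoin A₀ {t}) (algebraMap A₀ F π * x) →
      (∀ c, x ∈ V c) → IsIntegral ↥(Algebra.adjoin A₀ {t}) x) :
    ∀ x : F, IsIntegral ↥(Algebra.adjoin A₀ {t⁻¹}) (algebraMap A₀ F π * x) →
      (∀ c, x ∈ V c) → IsIntegral ↥(Algebra.adjoin A₀ {t⁻¹}) x := by
  intro x hx hxV
  have hπ0 : algebraMap A₀ F π ≠ 0 := ei_algebraMap_ne_zero (E := E) hπ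
  have h1 : EIPiLoc ht hπ (algebraMap A₀ F π * x) :=
    aq_dict ht hπ V hBV₁ hKR (fun c => ⟨x, hxV c, rfl⟩)
  have h2 : EIPiLoc (zch_transcendental_inv ht) hπ (algebraMap A₀ F π * x) :=
    (eiPiLoc_inv_iff ht hπ).mpr h1
  obtain ⟨c, hc, hxc⟩ := h2.piInt (zch_transcendental_inv ht) hπ hx
  have : x = c := mul_left_cancel₀ hπ0 hxc
  rw [this]
  exact hc

/-- **`hpt`**: every closed point of the special fibre lies on a component, by (KR) + (RAM). -/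
theorem aq_hpt [Finite κ] {u : F} (V : κ → ValuationSubring F)
    (hBV : ∀ c (b : F), IsIntegral ↥(Algebra.adjoin A₀ {u}) b → b ∈ V c)
    (hKR : ∀ x : F, IsIntegral ↥(Algebra.adjoin A₀ {u}) (algebraMap A₀ F π * x) →
      (∀ c, x ∈ V c) → IsIntegral ↥(Algebra.adjoin A₀ {u}) x)
    {Q : ℕ}
    (hram : ∀ c (x : F), x ∈ (V c).nonunits → ∃ z ∈ V c, x ^ Q = algebraMap A₀ F π * z)
    (hπ0 : algebraMap A₀ F π ≠ 0)
    (𝔫 : AtPt (F := F) π u) : ∃ c, atThrough 𝔫 (V c) := by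
  classical
  haveI := 𝔫.2.1.isPrime
  by_contra hcon
  simp only [not_exists, atThrough, not_forall] at hcon
  choose f hf hf' using hcon
  haveI : Fintype κ := Fintype.ofFinite κ
  set g : ↥(zchClosure (A₀ := A₀) ({u} : Set F)) := ∏ c' : κ, f c' with hg
  have hprod : ∀ c, (g : F) ∈ (V c).nonunits := by
    intro c
    have e : (g : F) = ((∏ c' ∈ Finset.univ.erase c, f c' :
        ↥(zchClosure (A₀ := A₀) ({u} : Set F))) : F) * (f c : F) := by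
      rw [hg, ← Finset.mul_prod_erase Finset.univ f (Finset.mem_univ c), mul_comm]
      rfl
    rw [e]
    exact pwi_mul_mem_nonunits (V c)
      (hBV c _ (mem_zchClosure.mp (∏ c' ∈ Finset.univ.erase c, f c').2)) (hf c)
  -- `g ^ Q / π` is integral
  have hint : IsIntegral ↥(Algebra.adjoin A₀ {u}) ((g : F) ^ Q / algebraMap A₀ F π) := by
    apply hKR
    · have e : algebraMap A₀ F π * ((g : F) ^ Q / algebraMap A₀ F π) = ((g ^ Q :
          ↥(zchClosure (A₀ := A₀) ({u} : Set F))) : F) := by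
        push_cast; field_simp
      rw [e]
      exact mem_zchClosure.mp (g ^ Q).2
    · intro c
      obtain ⟨z, hz, hgz⟩ := hram c _ (hprod c)
      have : (g : F) ^ Q / algebraMap A₀ F π = z := by
        rw [hgz]; field_simp
      rw [this]
      exact hz
  have hmem : g ^ Q ∈ 𝔫.1 := by
    have e : g ^ Q = algebraMap A₀ ↥(zchClosure (A₀ := A₀) ({u} : Set F)) π *
        ⟨(g : F) ^ Q / algebraMap A₀ F π, mem_zchClosure.mpr hint⟩ := by
      apply Subtype.ext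
      push_cast
      show (g : F) ^ Q = algebraMap A₀ F π * ((g : F) ^ Q / algebraMap A₀ F π)
      field_simp
    rw [e]
    exact 𝔫.1.mul_mem_right _ 𝔫.2.2
  have hgm : g ∈ 𝔫.1 := Ideal.IsPrime.mem_of_pow_mem inferInstance Q hmem
  obtain ⟨c, -, hc⟩ := Ideal.IsPrime.prod_mem_iff.mp hgm
  exact hf' c hc

/-- the radical ideal is proper -/
theorem aq_locIdeal_ne_top (V : κ → ValuationSubring F) {u : F}
    (𝔫 : AtPt (F := F) π u) (hpt : ∃ c, atThrough 𝔫 (V c)) : aqLocIdeal V 𝔫 ≠ ⊤ := by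
  intro htop
  obtain ⟨c, hc⟩ := hpt
  have h1 : (1 : atLoc 𝔫) ∈ aqLocIdeal V 𝔫 := by rw [htop]; exact Submodule.mem_top
  have := h1 c hc 1
  simp only [OneMemClass.coe_one, mul_one] at this
  exact crossing_one_not_mem_nonunits (V c) this

/-- **Shape ⇒ power, NON-REDUCED special fibre.**  In the chart setting with (KR), (RAM), (U0) and
connected special fibre, every `w` of shape `PwiShape V atO (aqJ V) atInc (p ^ r)` is a
`p ^ r`-th power in `F`. -/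
theorem aq_pow_of_shape (hπ : Irreducible π) {t : F} (ht : Transcendental E t)
    [FiniteDimensional E⟮t⟯ F]
    (hcl : ∀ x : F, IsAlgebraic E x → x ∈ (algebraMap E F).range)
    {p : ℕ} (hp : p.Prime) (hpu : IsUnit (p : A₀)) {ζ : A₀} (hζ : IsPrimitiveRoot ζ p)
    (hunit : ∀ a : A₀, IsUnit a → ∃ d : A₀, d ^ p = a)
    {q : ℕ} (hq : q.Prime) (hqp : q ≠ p) (hqπ : π ∣ (q : A₀)) (N : ℕ)
    [Finite κ] (V : κ → ValuationSubring F)
    (hBV₁ : ∀ c (b : F), IsIntegral ↥(Algebra.adjoin A₀ {t}) b → b ∈ V c)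
    (hBV₂ : ∀ c (b : F), IsIntegral ↥(Algebra.adjoin A₀ {t⁻¹}) b → b ∈ V c)
    (hπV : ∀ c, algebraMap A₀ F π ∈ (V c).nonunits)
    (hKR : ∀ x : F, IsIntegral ↥(Algebra.adjoin A₀ {t}) (algebraMap A₀ F π * x) →
      (∀ c, x ∈ V c) → IsIntegral ↥(Algebra.adjoin A₀ {t}) x)
    (hram : ∀ c (x : F), x ∈ (V c).nonunits → ∃ z ∈ V c, x ^ (q ^ N) = algebraMap A₀ F π * z)
    (c₀ : κ)
    (hU : ∀ x : F, x ∈ (V c₀).nonunits → ∃ z ∈ V c₀, x = algebraMap A₀ F π * z)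
    (hG : ∀ s : F, EIPrimeTo π t s → s ∉ (V c₀).nonunits)
    (harch : ∀ c (a x : F), a ∈ (V c).nonunits → ∃ N : ℕ, a ^ N * x ∈ (V c).nonunits)
    (hconn : ∀ c c' : κ, Relation.ReflTransGen
      (fun a b => ∃ i, atInc π t V i a ∧ atInc π t V i b) c c')
    (r : ℕ) (w : F) (hw : PwiShape V (atO π t) (aqJ V π t) (atInc π t V) (p ^ r) w) :
    ∃ h : F, h ^ (p ^ r) = w := by
  have hπ0 : algebraMap A₀ F π ≠ 0 := ei_algebraMap_ne_zero (E := E) hπ
  have hKR' := aq_KR_inv hπ ht V hBV₁ hKR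
  have hAV : ∀ c (a : A₀), algebraMap A₀ F a ∈ V c := fun c a =>
    hBV₁ c _ (mem_zchClosure.mp ((zchClosure (A₀ := A₀) ({t} : Set F)).algebraMap_mem a))
  have hζF : IsPrimitiveRoot (algebraMap A₀ F ζ) p :=
    hζ.map_of_injective (zch_algebraMap_injective (A₀ := A₀) (E := E) (L := F))
  have hpt : ∀ i : AtPt (F := F) π t ⊕ AtPt (F := F) π t⁻¹, ∃ c, atInc π t V i c := by
    rintro (𝔫 | 𝔫)
    · exact aq_hpt V hBV₁ hKR hram hπ0 𝔫
    · exact aq_hpt V hBV₂ hKR' hram hπ0 𝔫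
  refine pwi_exists_pow_eq (V := V) (O := atO π t) (J := aqJ V π t) (inc := atInc π t V)
    ?_ ?_ ?_ ?_ hpt hconn hp.pos hζF ?_ ?_ ?_ ?_ r w hw
  · rintro (𝔫 | 𝔫)
    · haveI := 𝔫.2.1.isPrime
      exact ls_localSubring_isLocalRing Subtype.val_injective 𝔫.1
    · haveI := 𝔫.2.1.isPrime
      exact ls_localSubring_isLocalRing Subtype.val_injective 𝔫.1
  · rintro (𝔫 | 𝔫)
    · exact aq_locIdeal_ne_top V 𝔫 (hpt (Sum.inl 𝔫))
    · exact aq_locIdeal_ne_top V 𝔫 (hpt (Sum.inr 𝔫))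
  · rintro (𝔫 | 𝔫)
    · haveI := 𝔫.2.1.isPrime
      exact ls_isIntegral_mem_localSubring (at_chart_integrallyClosed _) 𝔫.1
    · haveI := 𝔫.2.1.isPrime
      exact ls_isIntegral_mem_localSubring (at_chart_integrallyClosed _) 𝔫.1
  · rintro (𝔫 | 𝔫) c hinc x hx
    · have := hx c hinc 1
      simpa using this
    · have := hx c hinc 1
      simpa using this
  · rintro (𝔫 | 𝔫)
    · haveI := 𝔫.2.1.isPrime
      exact ats_hζO 𝔫.1 ζ
    · haveI := 𝔫.2.1.isPrime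
      exact ats_hζO 𝔫.1 ζ
  · rintro (𝔫 | 𝔫) k hk0 hkp
    · haveI := 𝔫.2.1.isPrime
      exact ats_hζu 𝔫.1 hpu hζ hk0 hkp
    · haveI := 𝔫.2.1.isPrime
      exact ats_hζu 𝔫.1 hpu hζ hk0 hkp
  · intro c k hk0 hkp
    exact ats_hζV (V c) (hAV c) hpu hζ hk0 hkp
  · refine aq_hP hπ ht hcl hp hpu hζ hunit hq hqp hqπ N V (atO π t) (aqJ V π t) (atInc π t V)
      hBV₁ hBV₂ hπV hKR hram c₀ hU hG harch ?_ ?_
    · intro 𝔫 h𝔫 hπ𝔫
      refine ⟨Sum.inl ⟨𝔫, h𝔫, hπ𝔫⟩, fun x hx => ?_, fun c hc => ats_cov (V c) 𝔫 hc⟩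
      obtain ⟨b, s, hs, hsx⟩ := hx
      exact ⟨b, s, hs, hsx⟩
    · intro 𝔫 h𝔫 hπ𝔫
      refine ⟨Sum.inr ⟨𝔫, h𝔫, hπ𝔫⟩, fun x hx => ?_, fun c hc => ats_cov (V c) 𝔫 hc⟩
      obtain ⟨b, s, hs, hsx⟩ := hx
      exact ⟨b, s, hs, hsx⟩

end Main

end Fermat.Agent.S36
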