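/-
S36 (Carayol at `q² ∥ M`), geometric clause, piece G-AT (helper84): **`hconn` is FREE**.

Chart setting of `S36/AbstractQ.lean` (`A₀` a DVR, charts `B_t`, `B_{t⁻¹}`, finitely many vertical
valuation rings `V c`, NON-reduced special fibre allowed), with (KR) and (RAM).  For every
partition of the components into two non-empty classes some closed point of one of the two charts
lies on a component of each class (`aq_exists_cross`): otherwise the classes give idempotents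
modulo `π` on both charts, compatible on the overlap, which contradicts Zariski connectedness
(`INJ.zariski_connected_charts`).  Hence the incidence graph of the components is connected:
`aq_hconn`, the hypothesis `hconn` of `aq_pow_of_shape`.
(For two components and a reduced fibre this is `UNIP.crossing_exists_maximal` of helper20.)
-/
import Fermat.Agent.S36.AbstractQ
import Fermat.Agent.UNIP.Crossing

set_option autoImplicit false
set_option linter.unusedSectionVars false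
set_option linter.unusedVariables false
set_option linter.style.haveILetI false

namespace Fermat.Agent.S36

open Polynomial IntermediateField Fermat.Agent.INJ Fermat.Agent.UNIP

section Conn

variable {A₀ E F : Type*} [CommRing A₀] [IsDomain A₀] [IsDiscreteValuationRing A₀]
  [Field E] [Algebra A₀ E] [IsFractionRing A₀ E] [CharZero E]
  [Field F] [Algebra E F] [Algebra A₀ F] [IsScalarTower A₀ E F]
  {π : A₀} {κ : Type*}

/-- **(RAD)** on a chart `S`: an integral element lying in every `𝔪(V c)` has its `Q`-th power in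
`π · B_S`. -/
theorem aq_rad (S : Subalgebra A₀ F) (V : κ → ValuationSubring F)
    (hKR : ∀ x : F, IsIntegral S (algebraMap A₀ F π * x) → (∀ c, x ∈ V c) → IsIntegral S x)
    {Q : ℕ}
    (hram : ∀ c (x : F), x ∈ (V c).nonunits → ∃ z ∈ V c, x ^ Q = algebraMap A₀ F π * z)
    (hπ0 : algebraMap A₀ F π ≠ 0)
    {x : F} (hx : IsIntegral S x) (hxV : ∀ c, x ∈ (V c).nonunits) :
    ∃ z : F, IsIntegral S z ∧ x ^ Q = algebraMap A₀ F π * z := by
  have e : x ^ Q = algebraMap A₀ F π * (x ^ Q / algebraMap A₀ F π) := by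
    field_simp
  refine ⟨x ^ Q / algebraMap A₀ F π, hKR _ ?_ fun c => ?_, e⟩
  · rw [← e]
    exact hx.pow Q
  · obtain ⟨z, hz, hxz⟩ := hram c x (hxV c)
    have : x ^ Q / algebraMap A₀ F π = z := by
      rw [hxz]
      field_simp
    rw [this]
    exact hz

/-- (KR) on the overlap chart `A₀[t, t⁻¹]` from (KR) on the chart `A₀[t]` -/
theorem aq_KR_overlap {t : F} (ht0 : t ≠ 0) (V : κ → ValuationSubring F)
    (hBV₁ : ∀ c (b : F), IsIntegral ↥(Algebra.adjoin A₀ {t}) b → b ∈ V c)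
    (hKR : ∀ x : F, IsIntegral ↥(Algebra.adjoin A₀ {t}) (algebraMap A₀ F π * x) →
      (∀ c, x ∈ V c) → IsIntegral ↥(Algebra.adjoin A₀ {t}) x) :
    ∀ x : F, IsIntegral ↥(Algebra.adjoin A₀ {t, t⁻¹}) (algebraMap A₀ F π * x) →
      (∀ c, x ∈ V c) → IsIntegral ↥(Algebra.adjoin A₀ {t, t⁻¹}) x := by
  intro x hx hxV
  have htt' : t * t⁻¹ = 1 := mul_inv_cancel₀ ht0
  have hsub₁ : Algebra.adjoin A₀ ({t} : Set F) ≤ Algebra.adjoin A₀ {t, t⁻¹} :=
    Algebra.adjoin_mono (by intro x hx; exact Or.inl hx)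
  have htV : ∀ c, t ∈ V c := fun c =>
    hBV₁ c _ (isIntegral_algebraMap (R := ↥(Algebra.adjoin A₀ ({t} : Set F)))
      (x := ⟨t, Algebra.subset_adjoin (Set.mem_singleton t)⟩))
  obtain ⟨s, hs⟩ := zch_exists_pow_mul_isIntegral (A₀ := A₀) htt' hx
  have h1 : IsIntegral ↥(Algebra.adjoin A₀ {t}) (t ^ s * x) := by
    refine hKR _ ?_ fun c => (V c).mul_mem _ _ ((V c).pow_mem (htV c) s) (hxV c)
    have e : algebraMap A₀ F π * (t ^ s * x) = t ^ s * (algebraMap A₀ F π * x) := by ring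
    rw [e]
    exact hs
  have h2 : x = t⁻¹ ^ s * (t ^ s * x) := by
    rw [← mul_assoc, ← mul_pow, inv_mul_cancel₀ ht0, one_pow, one_mul]
  rw [h2]
  refine IsIntegral.mul (IsIntegral.pow ?_ s) (zch_isIntegral_mono hsub₁ h1)
  exact isIntegral_algebraMap (R := Algebra.adjoin A₀ ({t, t⁻¹} : Set F))
    (x := ⟨t⁻¹, Algebra.subset_adjoin (Or.inr rfl)⟩)

/-- **The idempotent of a partition** on one chart `S`: if the two classes `P`, `¬ P` of
components are comaximal on the chart (`a + b = 1`, `a` vanishing on the class `P`, `b` on the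
class `¬ P`), there is `e` vanishing on `P`, `≡ 1` on `¬ P`, idempotent modulo `π`. -/
theorem aq_idem_of_comax (S : Subalgebra A₀ F) (V : κ → ValuationSubring F)
    (hBV : ∀ c (b : F), IsIntegral S b → b ∈ V c)
    (hKR : ∀ x : F, IsIntegral S (algebraMap A₀ F π * x) → (∀ c, x ∈ V c) → IsIntegral S x)
    {Q : ℕ}
    (hram : ∀ c (x : F), x ∈ (V c).nonunits → ∃ z ∈ V c, x ^ Q = algebraMap A₀ F π * z)
    (hπ0 : algebraMap A₀ F π ≠ 0) (P : κ → Prop)
    {a b : F} (ha : IsIntegral S a) (hb : IsIntegral S b)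
    (haP : ∀ c, P c → a ∈ (V c).nonunits) (hbP : ∀ c, ¬ P c → b ∈ (V c).nonunits)
    (hab : a + b = 1) :
    ∃ e : F, IsIntegral S e ∧ (∀ c, P c → e ∈ (V c).nonunits) ∧
      (∀ c, ¬ P c → 1 - e ∈ (V c).nonunits) ∧
      ∃ z : F, IsIntegral S z ∧ e * e - e = algebraMap A₀ F π * z := by
  classical
  -- coprimality in the integral closure
  let α : integralClosure S F := ⟨a, ha⟩
  let β : integralClosure S F := ⟨b, hb⟩
  have hcop : IsCoprime α β := ⟨1, 1, by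
    apply Subtype.ext
    show (1 : F) * a + 1 * b = 1
    rw [one_mul, one_mul, hab]⟩
  obtain ⟨x, y, hxy⟩ := (hcop.pow (m := Q + 1) (n := Q + 1))
  have hxyF : (x : F) * a ^ (Q + 1) + (y : F) * b ^ (Q + 1) = 1 := by
    have := congrArg (fun z : integralClosure S F => (z : F)) hxy
    simpa [α, β] using this
  have hxI : IsIntegral S (x : F) := x.2
  have hyI : IsIntegral S (y : F) := y.2
  -- `a b` lies in every `𝔪(V c)`
  have habV : ∀ c, a * b ∈ (V c).nonunits := by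
    intro c
    by_cases hc : P c
    · rw [mul_comm]
      exact pwi_mul_mem_nonunits (V c) (hBV c b hb) (haP c hc)
    · exact pwi_mul_mem_nonunits (V c) (hBV c a ha) (hbP c hc)
  obtain ⟨z, hz, hzab⟩ := aq_rad S V hKR hram hπ0 (ha.mul hb) habV
  refine ⟨(x : F) * a ^ (Q + 1), hxI.mul (ha.pow _), fun c hc => ?_, fun c hc => ?_,
    -((x : F) * (y : F) * (a * b) * z), ?_, ?_⟩
  · rw [pow_succ, ← mul_assoc]
    exact pwi_mul_mem_nonunits (V c)
      ((V c).mul_mem _ _ (hBV c _ hxI) ((V c).pow_mem (hBV c a ha) Q)) (haP c hc)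
  · have e1 : 1 - (x : F) * a ^ (Q + 1) = (y : F) * b ^ (Q + 1) := by
      rw [← hxyF]; ring
    rw [e1, pow_succ, ← mul_assoc]
    exact pwi_mul_mem_nonunits (V c)
      ((V c).mul_mem _ _ (hBV c _ hyI) ((V c).pow_mem (hBV c b hb) Q)) (hbP c hc)
  · exact ((((hxI.mul hyI).mul (ha.mul hb)).mul hz)).neg
  · have e1 : (y : F) * b ^ (Q + 1) = 1 - (x : F) * a ^ (Q + 1) := by
      rw [← hxyF]; ring
    have e2 : (x : F) * a ^ (Q + 1) * ((x : F) * a ^ (Q + 1)) - (x : F) * a ^ (Q + 1)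
        = -((x : F) * a ^ (Q + 1) * (1 - (x : F) * a ^ (Q + 1))) := by ring
    rw [e2, ← e1]
    have e3 : (x : F) * a ^ (Q + 1) * ((y : F) * b ^ (Q + 1))
        = (x : F) * (y : F) * (a * b) * (a * b) ^ Q := by ring
    rw [e3, hzab]
    ring

/-- **Two classes of components cannot be disjoint on both charts.** -/
theorem aq_not_comax (hπ : Irreducible π) {t : F} (ht : Transcendental E t)
    [FiniteDimensional E⟮t⟯ F]
    (hcl : ∀ x : F, IsAlgebraic E x → x ∈ (algebraMap E F).range)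
    (V : κ → ValuationSubring F)
    (hBV₁ : ∀ c (b : F), IsIntegral ↥(Algebra.adjoin A₀ {t}) b → b ∈ V c)
    (hBV₂ : ∀ c (b : F), IsIntegral ↥(Algebra.adjoin A₀ {t⁻¹}) b → b ∈ V c)
    (hπV : ∀ c, algebraMap A₀ F π ∈ (V c).nonunits)
    (hKR : ∀ x : F, IsIntegral ↥(Algebra.adjoin A₀ {t}) (algebraMap A₀ F π * x) →
      (∀ c, x ∈ V c) → IsIntegral ↥(Algebra.adjoin A₀ {t}) x)
    {Q : ℕ}
    (hram : ∀ c (x : F), x ∈ (V c).nonunits → ∃ z ∈ V c, x ^ Q = algebraMap A₀ F π * z)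
    (P : κ → Prop) {c₁ c₂ : κ} (hc₁ : P c₁) (hc₂ : ¬ P c₂)
    {a₁ b₁ a₂ b₂ : F}
    (ha₁ : IsIntegral ↥(Algebra.adjoin A₀ {t}) a₁) (hb₁ : IsIntegral ↥(Algebra.adjoin A₀ {t}) b₁)
    (ha₂ : IsIntegral ↥(Algebra.adjoin A₀ {t⁻¹}) a₂)
    (hb₂ : IsIntegral ↥(Algebra.adjoin A₀ {t⁻¹}) b₂)
    (ha₁P : ∀ c, P c → a₁ ∈ (V c).nonunits) (hb₁P : ∀ c, ¬ P c → b₁ ∈ (V c).nonunits)
    (ha₂P : ∀ c, P c → a₂ ∈ (V c).nonunits) (hb₂P : ∀ c, ¬ P c → b₂ ∈ (V c).nonunits)
    (h₁ : a₁ + b₁ = 1) (h₂ : a₂ + b₂ = 1) : False := by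
  have hπ0 : algebraMap A₀ F π ≠ 0 := ei_algebraMap_ne_zero (E := E) hπ
  have ht0 : t ≠ 0 := by
    rintro rfl
    exact ht isAlgebraic_zero
  have hKR' := aq_KR_inv hπ ht V hBV₁ hKR
  have hKR12 := aq_KR_overlap ht0 V hBV₁ hKR
  have hsub₁ : Algebra.adjoin A₀ ({t} : Set F) ≤ Algebra.adjoin A₀ {t, t⁻¹} :=
    Algebra.adjoin_mono (by intro x hx; exact Or.inl hx)
  have hsub₂ : Algebra.adjoin A₀ ({t⁻¹} : Set F) ≤ Algebra.adjoin A₀ {t, t⁻¹} :=
    Algebra.adjoin_mono (by intro x hx; exact Or.inr hx)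
  obtain ⟨e₁, he₁, he₁P, he₁P', z₁, hz₁, hid₁⟩ :=
    aq_idem_of_comax _ V hBV₁ hKR hram hπ0 P ha₁ hb₁ ha₁P hb₁P h₁
  obtain ⟨e₂, he₂, he₂P, he₂P', z₂, hz₂, hid₂⟩ :=
    aq_idem_of_comax _ V hBV₂ hKR' hram hπ0 P ha₂ hb₂ ha₂P hb₂P h₂
  -- the difference
  have he₁' := zch_isIntegral_mono hsub₁ he₁
  have he₂' := zch_isIntegral_mono hsub₂ he₂
  have hz₁' := zch_isIntegral_mono hsub₁ hz₁
  have hz₂' := zch_isIntegral_mono hsub₂ hz₂
  have hd : IsIntegral ↥(Algebra.adjoin A₀ {t, t⁻¹}) (e₁ - e₂) := he₁'.sub he₂'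
  have hdV : ∀ c, e₁ - e₂ ∈ (V c).nonunits := by
    intro c
    by_cases hc : P c
    · have := aq_add_mem_nonunits (V c) (he₁P c hc) ((V c).nonunits.neg_mem (he₂P c hc))
      rwa [← sub_eq_add_neg] at this
    · have e : e₁ - e₂ = (1 - e₂) + -(1 - e₁) := by ring
      rw [e]
      exact aq_add_mem_nonunits (V c) (he₂P' c hc) ((V c).nonunits.neg_mem (he₁P' c hc))
  obtain ⟨z₃, hz₃, hdz⟩ := aq_rad _ V hKR12 hram hπ0 hd hdV
  -- `d ^ 3 = d + π g`
  set d : F := e₁ - e₂ with hddef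
  set g : F := z₁ * (1 + e₁ - (e₂ + e₂ + e₂)) + z₂ * ((e₁ + e₁ + e₁) - 1 - e₂) with hg
  have hgI : IsIntegral ↥(Algebra.adjoin A₀ {t, t⁻¹}) g := by
    refine IsIntegral.add (hz₁'.mul ?_) (hz₂'.mul ?_)
    · exact (isIntegral_one.add he₁').sub ((he₂'.add he₂').add he₂')
    · exact (((he₁'.add he₁').add he₁').sub isIntegral_one).sub he₂'
  have hd3 : d ^ 3 = d + algebraMap A₀ F π * g := by
    have e : d ^ 3 = d + ((e₁ * e₁ - e₁) * (1 + e₁ - 3 * e₂)
        + (e₂ * e₂ - e₂) * (3 * e₁ - 1 - e₂)) := by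
      rw [hddef]; ring
    rw [e, hid₁, hid₂, hg]
    ring
  have hodd : ∀ j : ℕ, ∃ gj : F, IsIntegral ↥(Algebra.adjoin A₀ {t, t⁻¹}) gj ∧
      d ^ (1 + 2 * j) = d + algebraMap A₀ F π * gj := by
    intro j
    induction j with
    | zero => exact ⟨0, isIntegral_zero, by simp⟩
    | succ j ih =>
      obtain ⟨gj, hgj, hj⟩ := ih
      refine ⟨g + gj * d ^ 2, hgI.add (hgj.mul (hd.pow 2)), ?_⟩
      have e : d ^ (1 + 2 * (j + 1)) = d ^ (1 + 2 * j) * d ^ 2 := by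
        rw [← pow_add]
        congr 1
      rw [e, hj]
      have e2 : (d + algebraMap A₀ F π * gj) * d ^ 2 = d ^ 3 + algebraMap A₀ F π * (gj * d ^ 2) := by
        ring
      rw [e2, hd3]
      ring
  obtain ⟨gQ, hgQ, hQ⟩ := hodd Q
  have hcomp : ∃ c : F, IsIntegral ↥(Algebra.adjoin A₀ {t, t⁻¹}) c ∧
      e₁ - e₂ = algebraMap A₀ F π * c := by
    refine ⟨z₃ * d ^ (Q + 1) - gQ, (hz₃.mul (hd.pow _)).sub hgQ, ?_⟩
    have e : d ^ (1 + 2 * Q) = d ^ Q * d ^ (Q + 1) := by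
      rw [← pow_add]
      congr 1
      omega
    rw [e, hdz] at hQ
    show d = algebraMap A₀ F π * (z₃ * d ^ (Q + 1) - gQ)
    linear_combination (-1 : F) * hQ
  rcases zariski_connected_charts hπ ht hcl he₁ he₂ ⟨z₁, hz₁, hid₁⟩ ⟨z₂, hz₂, hid₂⟩ hcomp with
    ⟨y, hy, hy1⟩ | ⟨y, hy, hy1⟩
  · apply crossing_one_not_mem_nonunits (V c₂)
    have e : (1 : F) = algebraMap A₀ F π * y + (1 - e₁) := by rw [← hy1]; ring
    rw [e]
    refine aq_add_mem_nonunits (V c₂) ?_ (he₁P' c₂ hc₂)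
    rw [mul_comm]
    exact pwi_mul_mem_nonunits (V c₂) (hBV₁ c₂ y hy) (hπV c₂)
  · apply crossing_one_not_mem_nonunits (V c₁)
    have e : (1 : F) = e₁ + -(algebraMap A₀ F π * y) := by rw [← hy1]; ring
    rw [e]
    refine aq_add_mem_nonunits (V c₁) (he₁P c₁ hc₁) ((V c₁).nonunits.neg_mem ?_)
    rw [mul_comm]
    exact pwi_mul_mem_nonunits (V c₁) (hBV₁ c₁ y hy) (hπV c₁)

/-- the ideal of a class of components on a chart -/
def aqClassIdeal (u : F) (V : κ → ValuationSubring F)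
    (hBV : ∀ c (b : F), IsIntegral ↥(Algebra.adjoin A₀ {u}) b → b ∈ V c) (P : κ → Prop) :
    Ideal ↥(zchClosure (A₀ := A₀) ({u} : Set F)) where
  carrier := {x | ∀ c, P c → (x : F) ∈ (V c).nonunits}
  zero_mem' := fun c _ => aq_zero_mem_nonunits (V c)
  add_mem' := fun {x y} hx hy c hc => aq_add_mem_nonunits (V c) (hx c hc) (hy c hc)
  smul_mem' := fun a x hx c hc =>
    pwi_mul_mem_nonunits (V c) (hBV c _ (mem_zchClosure.mp a.2)) (hx c hc)

/-- a maximal ideal containing the ideal of a non-empty class lies on a component of the class -/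
theorem aq_through_of_class_le [Finite κ] {u : F} (V : κ → ValuationSubring F)
    (hBV : ∀ c (b : F), IsIntegral ↥(Algebra.adjoin A₀ {u}) b → b ∈ V c) (P : κ → Prop)
    (𝔫 : Ideal ↥(zchClosure (A₀ := A₀) ({u} : Set F))) [h𝔫 : 𝔫.IsPrime]
    (hle : aqClassIdeal u V hBV P ≤ 𝔫) :
    ∃ c, P c ∧ ∀ b : ↥(zchClosure (A₀ := A₀) ({u} : Set F)), (b : F) ∈ (V c).nonunits → b ∈ 𝔫 := by
  classical
  letI : Fintype κ := Fintype.ofFinite κ
  by_contra hcon
  have hcov : ∀ c, P c → ∃ b : ↥(zchClosure (A₀ := A₀) ({u} : Set F)),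
      b ∉ 𝔫 ∧ (b : F) ∈ (V c).nonunits := by
    intro c hc
    by_contra h
    apply hcon
    refine ⟨c, hc, fun b hb => ?_⟩
    by_contra hb'
    exact h ⟨b, hb', hb⟩
  choose! f hf using hcov
  set S : Finset κ := Finset.univ.filter (fun c => P c) with hS
  have hprod : (∏ c ∈ S, f c) ∈ aqClassIdeal u V hBV P := by
    intro c hc
    have hcS : c ∈ S := Finset.mem_filter.mpr ⟨Finset.mem_univ c, hc⟩
    rw [← Finset.mul_prod_erase S f hcS, mul_comm]
    show ((∏ c' ∈ S.erase c, f c' : ↥(zchClosure (A₀ := A₀) ({u} : Set F))) : F) * (f c : F)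
      ∈ (V c).nonunits
    exact pwi_mul_mem_nonunits (V c) (hBV c _ (mem_zchClosure.mp (∏ c' ∈ S.erase c, f c').2))
      (hf c hc).2
  obtain ⟨c, hc, hfc⟩ := (Ideal.IsPrime.prod_mem_iff).mp (hle hprod)
  exact (hf c (Finset.mem_filter.mp hc).2).1 hfc

/-- **Crossing.**  For a partition of the components into two non-empty classes, some closed
point of one of the two charts lies on a component of each class. -/
theorem aq_exists_cross (hπ : Irreducible π) {t : F} (ht : Transcendental E t)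
    [FiniteDimensional E⟮t⟯ F]
    (hcl : ∀ x : F, IsAlgebraic E x → x ∈ (algebraMap E F).range)
    [Finite κ] (V : κ → ValuationSubring F)
    (hBV₁ : ∀ c (b : F), IsIntegral ↥(Algebra.adjoin A₀ {t}) b → b ∈ V c)
    (hBV₂ : ∀ c (b : F), IsIntegral ↥(Algebra.adjoin A₀ {t⁻¹}) b → b ∈ V c)
    (hπV : ∀ c, algebraMap A₀ F π ∈ (V c).nonunits)
    (hKR : ∀ x : F, IsIntegral ↥(Algebra.adjoin A₀ {t}) (algebraMap A₀ F π * x) →
      (∀ c, x ∈ V c) → IsIntegral ↥(Algebra.adjoin A₀ {t}) x)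
    {Q : ℕ}
    (hram : ∀ c (x : F), x ∈ (V c).nonunits → ∃ z ∈ V c, x ^ Q = algebraMap A₀ F π * z)
    (P : κ → Prop) {c₁ c₂ : κ} (hc₁ : P c₁) (hc₂ : ¬ P c₂) :
    ∃ (i : AtPt (F := F) π t ⊕ AtPt (F := F) π t⁻¹) (c c' : κ),
      P c ∧ ¬ P c' ∧ atInc π t V i c ∧ atInc π t V i c' := by
  classical
  have key : ∀ (u : F) (hBV : ∀ c (b : F), IsIntegral ↥(Algebra.adjoin A₀ {u}) b → b ∈ V c),
      aqClassIdeal u V hBV P ⊔ aqClassIdeal u V hBV (fun c => ¬ P c) ≠ ⊤ →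
      ∃ (𝔫 : AtPt (F := F) π u) (c c' : κ), P c ∧ ¬ P c' ∧ atThrough 𝔫 (V c) ∧
        atThrough 𝔫 (V c') := by
    intro u hBV hne
    obtain ⟨𝔫, h𝔫, hle⟩ := Ideal.exists_le_maximal _ hne
    haveI := h𝔫.isPrime
    obtain ⟨c, hc, hthr⟩ := aq_through_of_class_le V hBV P 𝔫 (le_trans le_sup_left hle)
    obtain ⟨c', hc', hthr'⟩ := aq_through_of_class_le V hBV (fun c => ¬ P c) 𝔫
      (le_trans le_sup_right hle)
    exact ⟨⟨𝔫, h𝔫, hthr _ (hπV c)⟩, c, c', hc, hc', hthr, hthr'⟩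
  by_cases h1 : aqClassIdeal t V hBV₁ P ⊔ aqClassIdeal t V hBV₁ (fun c => ¬ P c) = ⊤
  · by_cases h2 : aqClassIdeal t⁻¹ V hBV₂ P ⊔ aqClassIdeal t⁻¹ V hBV₂ (fun c => ¬ P c) = ⊤
    · exfalso
      have m1 : (1 : ↥(zchClosure (A₀ := A₀) ({t} : Set F))) ∈
          aqClassIdeal t V hBV₁ P ⊔ aqClassIdeal t V hBV₁ (fun c => ¬ P c) := by
        rw [h1]; exact Submodule.mem_top
      have m2 : (1 : ↥(zchClosure (A₀ := A₀) ({t⁻¹} : Set F))) ∈
          aqClassIdeal t⁻¹ V hBV₂ P ⊔ aqClassIdeal t⁻¹ V hBV₂ (fun c => ¬ P c) := by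
        rw [h2]; exact Submodule.mem_top
      obtain ⟨a₁, ha₁, b₁, hb₁, hab₁⟩ := Submodule.mem_sup.mp m1
      obtain ⟨a₂, ha₂, b₂, hb₂, hab₂⟩ := Submodule.mem_sup.mp m2
      exact aq_not_comax hπ ht hcl V hBV₁ hBV₂ hπV hKR hram P hc₁ hc₂
        (mem_zchClosure.mp a₁.2) (mem_zchClosure.mp b₁.2) (mem_zchClosure.mp a₂.2)
        (mem_zchClosure.mp b₂.2) ha₁ hb₁ ha₂ hb₂
        (congrArg Subtype.val hab₁) (congrArg Subtype.val hab₂)
    · obtain ⟨𝔫, c, c', hc, hc', h, h'⟩ := key t⁻¹ hBV₂ h2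
      exact ⟨Sum.inr 𝔫, c, c', hc, hc', h, h'⟩
  · obtain ⟨𝔫, c, c', hc, hc', h, h'⟩ := key t hBV₁ h1
    exact ⟨Sum.inl 𝔫, c, c', hc, hc', h, h'⟩

/-- **`hconn` is free**: with (KR) and (RAM) the incidence graph of the components of the special
fibre is connected. -/
theorem aq_hconn (hπ : Irreducible π) {t : F} (ht : Transcendental E t)
    [FiniteDimensional E⟮t⟯ F]
    (hcl : ∀ x : F, IsAlgebraic E x → x ∈ (algebraMap E F).range)
    [Finite κ] (V : κ → ValuationSubring F)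
    (hBV₁ : ∀ c (b : F), IsIntegral ↥(Algebra.adjoin A₀ {t}) b → b ∈ V c)
    (hBV₂ : ∀ c (b : F), IsIntegral ↥(Algebra.adjoin A₀ {t⁻¹}) b → b ∈ V c)
    (hπV : ∀ c, algebraMap A₀ F π ∈ (V c).nonunits)
    (hKR : ∀ x : F, IsIntegral ↥(Algebra.adjoin A₀ {t}) (algebraMap A₀ F π * x) →
      (∀ c, x ∈ V c) → IsIntegral ↥(Algebra.adjoin A₀ {t}) x)
    {Q : ℕ}
    (hram : ∀ c (x : F), x ∈ (V c).nonunits → ∃ z ∈ V c, x ^ Q = algebraMap A₀ F π * z) :
    ∀ c c' : κ, Relation.ReflTransGen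
      (fun a b => ∃ i, atInc π t V i a ∧ atInc π t V i b) c c' := by
  intro c c'
  by_contra hcon
  obtain ⟨i, a, b, ha, hb, hia, hib⟩ := aq_exists_cross hπ ht hcl V hBV₁ hBV₂ hπV hKR hram
    (fun x => Relation.ReflTransGen (fun a b => ∃ i, atInc π t V i a ∧ atInc π t V i b) c x)
    (c₁ := c) (c₂ := c') Relation.ReflTransGen.refl hcon
  exact hb (Relation.ReflTransGen.tail ha ⟨i, hia, hib⟩)

end Conn

end Fermat.Agent.S36
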