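/-
S36 (Carayol at `q² ∥ M`), geometric clause, piece G-AT2 (helper84): the LOCAL SHAPE at a closed
point of the special fibre from a factorisation `w = ε₀ · g₀ ^ m` (UFD), `w ≡ 1` on the components
through the point, branch units and TRIVIAL GLUING.

* `aq_lift_roots` (pure algebra, "conductor induction"): `O` local, `m` a unit of `O`, ideals
  `I c ⊆ 𝔪` (the branches), `a c ∈ O` with `a c ^ m ≡ e` modulo `I c` (`e` a unit), the `a c`
  pairwise congruent modulo `𝔪` (trivial gluing), and a conductor exponent `K` (every family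
  `x c ∈ 𝔪 ^ K` comes from one element modulo the `I c`).  Then there is ONE `η ∈ O` with
  `η ≡ a c` modulo `I c` for all `c`.   (No additive obstruction at a triple point: `m` is a unit.)
* `aq_cond_of_generators` : the conductor hypothesis from elements `e c` vanishing on the other
  branches with `𝔪 ^ K ⊆ (e c) + I c`.
* `aq_shape_point` : the datum `(ε, γ)` of `PwiShape` at the point.
-/
import Fermat.Agent.S36.AbstractQ
import Fermat.Agent.S36.ConnQ
import Fermat.Agent.S36.WeakApproxN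
import Fermat.Agent.STB.AbstractT2

set_option autoImplicit false
set_option linter.unusedSectionVars false
set_option linter.unusedVariables false
set_option linter.style.haveILetI false

namespace Fermat.Agent.S36

open Polynomial IntermediateField Fermat.Agent.INJ Fermat.Agent.UNIP Fermat.Agent.STB

section Lift

variable {O : Type*} [CommRing O] [IsLocalRing O] {κ : Type*}

/-- a unit modulo the maximal ideal is a unit -/
theorem aq_isUnit_of_sub_mem {x y : O} (hy : IsUnit y)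
    (h : x - y ∈ IsLocalRing.maximalIdeal O) : IsUnit x := by
  by_contra hx
  have hxm : x ∈ IsLocalRing.maximalIdeal O := (IsLocalRing.mem_maximalIdeal x).mpr hx
  have : y ∈ IsLocalRing.maximalIdeal O := by
    have := (IsLocalRing.maximalIdeal O).sub_mem hxm h
    simpa using this
  exact (IsLocalRing.mem_maximalIdeal y).mp this hy

/-- **Conductor induction.**  See the header. -/
theorem aq_lift_roots (I : κ → Ideal O) (hI : ∀ c, I c ≤ IsLocalRing.maximalIdeal O)
    {m : ℕ} (hm : IsUnit (m : O)) {e : O} (he : IsUnit e) (a : κ → O)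
    (ha : ∀ c, a c ^ m - e ∈ I c)
    (hglue : ∀ c c', a c - a c' ∈ IsLocalRing.maximalIdeal O)
    (K : ℕ)
    (hcond : ∀ x : κ → O, (∀ c, x c ∈ IsLocalRing.maximalIdeal O ^ K) →
      ∃ y : O, ∀ c, y - x c ∈ I c) :
    ∃ η : O, ∀ c, η - a c ∈ I c := by
  classical
  rcases isEmpty_or_nonempty κ with hκ | ⟨⟨c₁⟩⟩
  · exact ⟨0, fun c => (hκ.false c).elim⟩
  set 𝔪 := IsLocalRing.maximalIdeal O with h𝔪
  have hm0 : m ≠ 0 := by
    rintro rfl
    rw [Nat.cast_zero] at hm
    exact not_isUnit_zero hm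
  -- the `a c` are units
  have hau : ∀ c, IsUnit (a c) := by
    intro c
    have h1 : IsUnit (a c ^ m) := aq_isUnit_of_sub_mem he (hI c (ha c))
    exact (isUnit_pow_iff hm0).mp h1
  -- the induction
  have key : ∀ k : ℕ, 1 ≤ k → ∃ η : O, ∀ c, η - a c ∈ I c ⊔ 𝔪 ^ k := by
    intro k hk
    induction k, hk using Nat.le_induction with
    | base =>
      refine ⟨a c₁, fun c => ?_⟩
      rw [pow_one]
      exact Ideal.mem_sup_right (hglue c₁ c)
    | succ k hk ih =>
      obtain ⟨η, hη⟩ := ih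
      have hle : ∀ c, I c ⊔ 𝔪 ^ k ≤ 𝔪 := fun c =>
        sup_le (hI c) (Ideal.pow_le_self (by omega))
      have hηu : IsUnit η := aq_isUnit_of_sub_mem (hau c₁) (hle c₁ (hη c₁))
      have hden : IsUnit ((m : O) * η ^ (m - 1)) := hm.mul (hηu.pow _)
      obtain ⟨v, hv⟩ := hden
      set z : O := (e - η ^ m) * (v⁻¹ : Oˣ) with hz
      have hzv : z * ((m : O) * η ^ (m - 1)) = e - η ^ m := by
        rw [hz, ← hv, mul_assoc, Units.inv_mul, mul_one]
      refine ⟨η + z, fun c => ?_⟩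
      set d : O := a c - η with hd
      have hdm : d ∈ I c ⊔ 𝔪 ^ k := by
        have := (I c ⊔ 𝔪 ^ k).neg_mem (hη c)
        rwa [neg_sub] at this
      -- binomial expansion
      obtain ⟨r, hr⟩ := Polynomial.powAddExpansion η d m
      have hac : a c = η + d := by rw [hd]; ring
      -- `d ^ 2 ∈ I c ⊔ 𝔪 ^ (k + 1)`
      have hd2 : d ^ 2 ∈ I c ⊔ 𝔪 ^ (k + 1) := by
        obtain ⟨i, hi, y, hy, hiy⟩ := Submodule.mem_sup.mp hdm
        have e1 : d ^ 2 = i * (i + 2 * y) + y * y := by rw [← hiy]; ring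
        rw [e1]
        refine Ideal.add_mem _ (Ideal.mem_sup_left (Ideal.mul_mem_right _ _ hi))
          (Ideal.mem_sup_right ?_)
        have h2 : y * y ∈ 𝔪 ^ (k + k) := by
          rw [pow_add]; exact Ideal.mul_mem_mul hy hy
        exact Ideal.pow_le_pow_right (by omega) h2
      -- `(m η^(m-1)) (z − d) ∈ I c ⊔ 𝔪^(k+1)`
      have h1 : ((m : O) * η ^ (m - 1)) * (z - d) ∈ I c ⊔ 𝔪 ^ (k + 1) := by
        have e2 : ((m : O) * η ^ (m - 1)) * (z - d) = -(a c ^ m - e) + r * d ^ 2 := by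
          rw [hac, hr, mul_sub, mul_comm _ z, hzv]
          ring
        rw [e2]
        exact Ideal.add_mem _ (Ideal.mem_sup_left ((I c).neg_mem (ha c)))
          (Ideal.mul_mem_left _ _ hd2)
      have h2 : z - d ∈ I c ⊔ 𝔪 ^ (k + 1) := by
        have := Ideal.mul_mem_left (I c ⊔ 𝔪 ^ (k + 1)) ((v⁻¹ : Oˣ) : O) h1
        rwa [← hv, ← mul_assoc, Units.inv_mul, one_mul] at this
      have e3 : η + z - a c = z - d := by rw [hd]; ring
      rw [e3]
      exact h2
  -- the conductor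
  obtain ⟨η, hη⟩ := key (K + 1) (by omega)
  have hdec : ∀ c, ∃ x ∈ 𝔪 ^ K, η - a c - x ∈ I c := by
    intro c
    obtain ⟨i, hi, y, hy, hiy⟩ := Submodule.mem_sup.mp (hη c)
    refine ⟨y, Ideal.pow_le_pow_right (Nat.le_succ K) hy, ?_⟩
    have : η - a c - y = i := by rw [← hiy]; ring
    rw [this]
    exact hi
  choose x hx hxI using hdec
  obtain ⟨y, hy⟩ := hcond x hx
  refine ⟨η - y, fun c => ?_⟩
  have e4 : η - y - a c = (η - a c - x c) - (y - x c) := by ring
  rw [e4]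
  exact (I c).sub_mem (hxI c) (hy c)

/-- **The conductor hypothesis from generators.**  `ec c` vanishes on the other branches and
`𝔪 ^ K ⊆ (ec c) + I c`. -/
theorem aq_cond_of_generators [Finite κ] (I : κ → Ideal O) (ec : κ → O)
    (h1 : ∀ c c', c' ≠ c → ec c' ∈ I c) (K : ℕ)
    (h2 : ∀ c, ∀ x ∈ IsLocalRing.maximalIdeal O ^ K, ∃ b : O, x - b * ec c ∈ I c) :
    ∀ x : κ → O, (∀ c, x c ∈ IsLocalRing.maximalIdeal O ^ K) →
      ∃ y : O, ∀ c, y - x c ∈ I c := by
  classical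
  haveI : Fintype κ := Fintype.ofFinite κ
  intro x hx
  choose b hb using fun c => h2 c (x c) (hx c)
  refine ⟨∑ c, b c * ec c, fun c => ?_⟩
  rw [← Finset.add_sum_erase Finset.univ _ (Finset.mem_univ c)]
  have e : b c * ec c + ∑ c' ∈ Finset.univ.erase c, b c' * ec c' - x c
      = -(x c - b c * ec c) + ∑ c' ∈ Finset.univ.erase c, b c' * ec c' := by ring
  rw [e]
  refine (I c).add_mem ((I c).neg_mem (hb c)) (Ideal.sum_mem _ fun c' hc' => ?_)
  exact Ideal.mul_mem_left _ _ (h1 c c' (Finset.ne_of_mem_erase hc'))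

end Lift

section Shape

variable {F : Type*} [Field F] {κ : Type*}

/-- the trace on `O` of the maximal ideal of a valuation ring `W ⊇ O` -/
def aqTrace (O : Subring F) (W : ValuationSubring F) (hOW : ∀ x : F, x ∈ O → x ∈ W) :
    Ideal O where
  carrier := {x | (x : F) ∈ W.nonunits}
  add_mem' := fun {a b} ha hb => by
    show ((a + b : O) : F) ∈ W.nonunits
    push_cast
    exact aq_add_mem_nonunits W ha hb
  zero_mem' := aq_zero_mem_nonunits W
  smul_mem' := fun a x hx => by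
    show ((a • x : O) : F) ∈ W.nonunits
    rw [smul_eq_mul]
    push_cast
    exact pwi_mul_mem_nonunits W (hOW _ a.2) hx

theorem aq_mem_trace (O : Subring F) (W : ValuationSubring F) (hOW : ∀ x : F, x ∈ O → x ∈ W)
    (x : O) : x ∈ aqTrace O W hOW ↔ (x : F) ∈ W.nonunits := Iff.rfl

theorem aq_trace_le (O : Subring F) [IsLocalRing O] (W : ValuationSubring F)
    (hOW : ∀ x : F, x ∈ O → x ∈ W) : aqTrace O W hOW ≤ IsLocalRing.maximalIdeal O := by
  intro x hx
  rw [IsLocalRing.mem_maximalIdeal]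
  intro hu
  obtain ⟨y, hy⟩ := hu.exists_right_inv
  have h1 : (x : F) * (y : F) = 1 := by
    have := congrArg (fun z : O => (z : F)) hy
    simpa using this
  have h2 : (1 : F) ∈ W.nonunits := by
    rw [← h1, mul_comm]
    exact pwi_mul_mem_nonunits W (hOW _ y.2) hx
  exact crossing_one_not_mem_nonunits W h2

/-- **G-AT2: the local shape at a closed point.**  `O ⊆ F` a local ring (the local ring of the
point), `W c ⊇ O` the valuation rings of the components through the point, `m` invertible in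
`O`.  If `w = ε₀ · g₀ ^ m` with `ε₀ ∈ O^×`, `w ≡ 1` at every `W c`, the branch units `a c ∈ O`
(`a c · g₀ ≡ 1` at `W c`) are pairwise congruent modulo `𝔪_O` (TRIVIAL GLUING) and the conductor
hypothesis holds, then `w = ε · γ ^ m` with `ε ∈ O`, `ε ≡ 1` and `γ ≡ 1` at every `W c`. -/
theorem aq_shape_point (O : Subring F) [IsLocalRing O] (W : κ → ValuationSubring F)
    (hOW : ∀ c (x : F), x ∈ O → x ∈ W c)
    {m : ℕ} (hm : IsUnit ((m : ℕ) : O))
    {w ε₀ g₀ : F} (hε₀ : ε₀ ∈ O) (hε₀' : ε₀⁻¹ ∈ O) (hε₀0 : ε₀ ≠ 0) (hw : w = ε₀ * g₀ ^ m)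
    (hw1 : ∀ c, w - 1 ∈ (W c).nonunits)
    (a : κ → O) (ha : ∀ c, (a c : F) * g₀ - 1 ∈ (W c).nonunits)
    (hglue : ∀ c c', a c - a c' ∈ IsLocalRing.maximalIdeal O)
    (K : ℕ)
    (hcond : ∀ x : κ → O, (∀ c, x c ∈ IsLocalRing.maximalIdeal O ^ K) →
      ∃ y : O, ∀ c, ((y - x c : O) : F) ∈ (W c).nonunits) :
    ∃ ε γ : F, ε ∈ O ∧ (∀ c, ε - 1 ∈ (W c).nonunits) ∧ (∀ c, γ - 1 ∈ (W c).nonunits) ∧
      w = ε * γ ^ m := by
  classical
  rcases isEmpty_or_nonempty κ with hκ | ⟨⟨c₁⟩⟩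
  · exact ⟨ε₀, g₀, hε₀, fun c => (hκ.false c).elim, fun c => (hκ.false c).elim, hw⟩
  set I : κ → Ideal O := fun c => aqTrace O (W c) (hOW c) with hI
  have hIle : ∀ c, I c ≤ IsLocalRing.maximalIdeal O := fun c => aq_trace_le O (W c) (hOW c)
  set e : O := ⟨ε₀, hε₀⟩ with he
  have heu : IsUnit e := by
    refine IsUnit.of_mul_eq_one (⟨ε₀⁻¹, hε₀'⟩ : O) ?_
    apply Subtype.ext
    show ε₀ * ε₀⁻¹ = 1
    exact mul_inv_cancel₀ hε₀0
  have hm0 : m ≠ 0 := by
    rintro rfl
    rw [Nat.cast_zero] at hm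
    exact not_isUnit_zero hm
  -- `g₀` is a unit of every `W c`
  have hag : ∀ c, (W c).valuation ((a c : F) * g₀) = 1 := fun c => pwi_val_eq_one (W c) (ha c)
  have hg0 : g₀ ≠ 0 := by
    rintro rfl
    have := hag c₁
    rw [mul_zero, map_zero] at this
    exact zero_ne_one this
  -- `a c ^ m ≡ ε₀`
  have haI : ∀ c, a c ^ m - e ∈ I c := by
    intro c
    show ((a c ^ m - e : O) : F) ∈ (W c).nonunits
    push_cast
    have h1 : ((a c : F) * g₀) ^ m - 1 ∈ (W c).nonunits := pwi_congr_pow (W c) (ha c) m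
    have hgm : g₀ ^ m = w / ε₀ := by rw [hw]; field_simp
    have h2 : (a c : F) ^ m * ε₀⁻¹ ∈ W c :=
      (W c).mul_mem _ _ ((W c).pow_mem (hOW c _ (a c).2) m) (hOW c _ hε₀')
    have e1 : (a c : F) ^ m - ε₀ = ε₀ * ((((a c : F) * g₀) ^ m - 1)
        - ((a c : F) ^ m * ε₀⁻¹) * (w - 1)) := by
      rw [mul_pow, hgm]
      field_simp
      ring
    rw [he, e1]
    refine pwi_mul_mem_nonunits (W c) (hOW c _ hε₀) ?_
    have h3 : -(((a c : F) ^ m * ε₀⁻¹) * (w - 1)) ∈ (W c).nonunits := by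
      rw [← neg_mul]
      exact pwi_mul_mem_nonunits (W c) ((W c).neg_mem _ h2) (hw1 c)
    have := aq_add_mem_nonunits (W c) h1 h3
    rwa [← sub_eq_add_neg] at this
  obtain ⟨η, hη⟩ := aq_lift_roots I hIle hm heu a haI hglue K (fun x hx => hcond x hx)
  -- `η` is a unit
  have hau : IsUnit (a c₁) := by
    have h1 : IsUnit (a c₁ ^ m) := aq_isUnit_of_sub_mem heu (hIle c₁ (haI c₁))
    exact (isUnit_pow_iff hm0).mp h1
  have hηu : IsUnit η := aq_isUnit_of_sub_mem hau (hIle c₁ (hη c₁))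
  obtain ⟨η', hη'⟩ := hηu.exists_right_inv
  have hηη' : (η : F) * (η' : F) = 1 := by
    have := congrArg (fun z : O => (z : F)) hη'
    simpa using this
  have hη0 : (η : F) ≠ 0 := left_ne_zero_of_mul_eq_one hηη'
  have hη'eq : (η' : F) = (η : F)⁻¹ := eq_inv_of_mul_eq_one_right hηη'
  -- the datum
  have hγ : ∀ c, (η : F) * g₀ - 1 ∈ (W c).nonunits := by
    intro c
    have hgW : g₀ ∈ W c := by
      rw [← (W c).valuation_le_one_iff]
      have hac : (W c).valuation (a c : F) = 1 := by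
        have hacu : IsUnit (a c) := by
          have h1 : IsUnit (a c ^ m) := aq_isUnit_of_sub_mem heu (hIle c (haI c))
          exact (isUnit_pow_iff hm0).mp h1
        obtain ⟨b, hb⟩ := hacu.exists_right_inv
        have hab : (a c : F) * (b : F) = 1 := by
          have := congrArg (fun z : O => (z : F)) hb
          simpa using this
        have h1 : (W c).valuation (a c : F) ≤ 1 :=
          (W c).valuation_le_one_iff _ |>.mpr (hOW c _ (a c).2)
        have h2 : (W c).valuation (b : F) ≤ 1 :=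
          (W c).valuation_le_one_iff _ |>.mpr (hOW c _ b.2)
        have h3 : (W c).valuation (a c : F) * (W c).valuation (b : F) = 1 := by
          rw [← map_mul, hab, map_one]
        refine le_antisymm h1 ?_
        calc (1 : (W c).ValueGroup) = (W c).valuation (a c : F) * (W c).valuation (b : F) :=
              h3.symm
          _ ≤ (W c).valuation (a c : F) * 1 := mul_le_mul_right h2 _
          _ = (W c).valuation (a c : F) := mul_one _
      have := hag c
      rw [map_mul, hac, one_mul] at this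
      exact this.le
    have e2 : (η : F) * g₀ - 1 = ((η - a c : O) : F) * g₀ + ((a c : F) * g₀ - 1) := by
      push_cast; ring
    rw [e2]
    refine aq_add_mem_nonunits (W c) ?_ (ha c)
    rw [mul_comm]
    exact pwi_mul_mem_nonunits (W c) hgW (hη c)
  refine ⟨ε₀ * (η' : F) ^ m, (η : F) * g₀, ?_, ?_, hγ, ?_⟩
  · exact O.mul_mem hε₀ (O.pow_mem η'.2 m)
  · intro c
    have hγm : ((η : F) * g₀) ^ m - 1 ∈ (W c).nonunits := pwi_congr_pow (W c) (hγ c) m
    have hγinv : (((η : F) * g₀) ^ m)⁻¹ ∈ W c := aq_inv_mem (W c) hγm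
    have e3 : ε₀ * (η' : F) ^ m - 1
        = (((η : F) * g₀) ^ m)⁻¹ * ((w - 1) + -(((η : F) * g₀) ^ m - 1)) := by
      rw [hη'eq, inv_pow, hw, mul_pow]
      field_simp
      ring
    rw [e3]
    refine pwi_mul_mem_nonunits (W c) hγinv (aq_add_mem_nonunits (W c) (hw1 c) ?_)
    have := pwi_mul_mem_nonunits (W c) ((W c).neg_mem _ (W c).one_mem) hγm
    simpa using this
  · rw [hw, hη'eq, inv_pow, mul_pow]
    field_simp

end Shape

section Transversal

variable {O : Type*} [CommRing O] [IsLocalRing O] {κ : Type*}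

/-- `(A ⊔ C) * (B ⊔ C) ≤ A * B ⊔ C` -/
theorem aq_sup_mul_sup_le (A B C : Ideal O) : (A ⊔ C) * (B ⊔ C) ≤ A * B ⊔ C := by
  rw [Ideal.mul_le]
  intro x hx y hy
  obtain ⟨a, ha, c, hc, rfl⟩ := Submodule.mem_sup.mp hx
  obtain ⟨b, hb, c', hc', rfl⟩ := Submodule.mem_sup.mp hy
  have e : (a + c) * (b + c') = a * b + (a * c' + c * (b + c')) := by ring
  rw [e]
  exact Submodule.add_mem_sup (Ideal.mul_mem_mul ha hb)
    (C.add_mem (C.mul_mem_left _ hc') (C.mul_mem_right _ hc))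

/-- pairwise transversal branches: `𝔪 ^ |S| ⊆ (∏_{c' ∈ S} I c') + I c` -/
theorem aq_pow_le_prod_sup (I : κ → Ideal O) (c : κ) (S : Finset κ)
    (htr : ∀ c' ∈ S, IsLocalRing.maximalIdeal O ≤ I c' ⊔ I c) :
    IsLocalRing.maximalIdeal O ^ S.card ≤ (∏ c' ∈ S, I c') ⊔ I c := by
  classical
  induction S using Finset.induction_on with
  | empty =>
    rw [Finset.card_empty, pow_zero, Finset.prod_empty]
    exact le_sup_left
  | insert a S ha ih =>
    rw [Finset.card_insert_of_notMem ha, pow_succ', Finset.prod_insert ha]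
    refine le_trans (Ideal.mul_mono (htr a (Finset.mem_insert_self a S))
      (ih fun c' hc' => htr c' (Finset.mem_insert_of_mem hc'))) ?_
    exact aq_sup_mul_sup_le _ _ _

/-- **The conductor hypothesis from pairwise transversality** (`I c + I c' ⊇ 𝔪` for `c ≠ c'`):
every family in `𝔪 ^ |κ|` comes from one element (three concurrent pairwise transversal branches:
`𝔪 ^ 2` suffices). -/
theorem aq_cond_of_transversal [Finite κ] (I : κ → Ideal O)
    (htr : ∀ c c', c ≠ c' → IsLocalRing.maximalIdeal O ≤ I c ⊔ I c') :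
    ∀ x : κ → O, (∀ c, x c ∈ IsLocalRing.maximalIdeal O ^ Nat.card κ) →
      ∃ y : O, ∀ c, y - x c ∈ I c := by
  classical
  letI : Fintype κ := Fintype.ofFinite κ
  intro x hx
  have hdec : ∀ c, ∃ e : O, (∀ c', c' ≠ c → e ∈ I c') ∧ x c - e ∈ I c := by
    intro c
    have h1 : IsLocalRing.maximalIdeal O ^ Nat.card κ ≤
        IsLocalRing.maximalIdeal O ^ ((Finset.univ : Finset κ).erase c).card := by
      refine Ideal.pow_le_pow_right ?_
      rw [Nat.card_eq_fintype_card, ← Finset.card_univ]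
      exact Finset.card_le_card (Finset.erase_subset _ _)
    have h2 := aq_pow_le_prod_sup I c ((Finset.univ : Finset κ).erase c)
      (fun c' hc' => htr c' c (Finset.ne_of_mem_erase hc'))
    obtain ⟨e, he, i, hi, hei⟩ := Submodule.mem_sup.mp (h2 (h1 (hx c)))
    refine ⟨e, fun c' hc' => ?_, ?_⟩
    · have h3 : (∏ c'' ∈ (Finset.univ : Finset κ).erase c, I c'') ≤ I c' :=
        le_trans Ideal.prod_le_inf
          (Finset.inf_le (Finset.mem_erase.mpr ⟨hc', Finset.mem_univ _⟩))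
      exact h3 he
    · have : x c - e = i := by rw [← hei]; ring
      rw [this]
      exact hi
  choose e he1 he2 using hdec
  refine ⟨∑ c, e c, fun c => ?_⟩
  rw [← Finset.add_sum_erase Finset.univ _ (Finset.mem_univ c)]
  have e' : e c + ∑ c' ∈ Finset.univ.erase c, e c' - x c
      = -(x c - e c) + ∑ c' ∈ Finset.univ.erase c, e c' := by ring
  rw [e']
  refine (I c).add_mem ((I c).neg_mem (he2 c)) (Ideal.sum_mem _ fun c' hc' => ?_)
  exact he1 c' c (Ne.symm (Finset.ne_of_mem_erase hc'))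

end Transversal

section PointData

variable {F : Type*} [Field F] {κ : Type*}

/-- **The data at a closed point** `O` of the special fibre for a toric `Y` (`Y ≡ (T c) ^ m` at
`V c`), `thr c` = "the component `c` passes through the point":
* a local factorisation `Y = ε γ ^ m`, `ε ∈ O^×` (UFD);
* branch elements `b c ∈ O`, `b c ≡ T c / γ` at `V c` (normal branches);
* TRIVIAL GLUING: the `b c` are pairwise congruent modulo `𝔪_O`;
* a conductor exponent `K`: every family in `𝔪_O ^ K` is the family of branch values of one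
  element of `O`. -/
def AqPointData (O : Subring F) [IsLocalRing O] (thr : κ → Prop) (V : κ → ValuationSubring F)
    (m : ℕ) (Y : F) (T : κ → F) : Prop :=
  ∃ (γ : F) (ε : O), IsUnit ε ∧ Y = (ε : F) * γ ^ m ∧
    ∃ b : κ → O, (∀ c, thr c → (b c : F) * γ / T c - 1 ∈ (V c).nonunits) ∧
      (∀ c c', thr c → thr c' → b c - b c' ∈ IsLocalRing.maximalIdeal O) ∧
      ∃ K : ℕ, ∀ x : κ → O, (∀ c, thr c → x c ∈ IsLocalRing.maximalIdeal O ^ K) →
        ∃ y : O, ∀ c, thr c → ((y - x c : O) : F) ∈ (V c).nonunits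

/-- the conductor clause of `AqPointData` from pairwise transversality of the branches through
the point -/
theorem aq_cond_thr_of_transversal [Finite κ] (O : Subring F) [IsLocalRing O] (thr : κ → Prop)
    (V : κ → ValuationSubring F) (hOV : ∀ c, thr c → ∀ x ∈ O, x ∈ V c)
    (htr : ∀ c c', thr c → thr c' → c ≠ c' → ∀ x : O, x ∈ IsLocalRing.maximalIdeal O →
      ∃ a b : O, (a : F) ∈ (V c).nonunits ∧ (b : F) ∈ (V c').nonunits ∧ x = a + b) :
    ∃ K : ℕ, ∀ x : κ → O, (∀ c, thr c → x c ∈ IsLocalRing.maximalIdeal O ^ K) →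
        ∃ y : O, ∀ c, thr c → ((y - x c : O) : F) ∈ (V c).nonunits := by
  classical
  refine ⟨Nat.card {c // thr c}, fun x hx => ?_⟩
  have h := aq_cond_of_transversal (κ := {c // thr c})
    (fun c => aqTrace O (V c.1) (fun x hx => hOV c.1 c.2 x hx))
    (fun c c' hcc' x hx => by
      obtain ⟨a, b, ha, hb, hab⟩ := htr c.1 c'.1 c.2 c'.2 (fun h => hcc' (Subtype.ext h)) x hx
      rw [hab]
      exact Submodule.add_mem_sup ha hb)
    (fun c => x c.1) (fun c => hx c.1 c.2)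
  obtain ⟨y, hy⟩ := h
  exact ⟨y, fun c hc => hy ⟨c, hc⟩⟩

/-- **The shape at a point from the point data.**  `H ≡ T c` at the `V c` through the point
(weak approximation): `Y / H ^ m = ε γ ^ m` with `ε ∈ O`, `ε ≡ 1`, `γ ≡ 1` at these `V c`. -/
theorem aq_shape_of_pointData (O : Subring F) [IsLocalRing O] (thr : κ → Prop)
    (V : κ → ValuationSubring F) (hOV : ∀ c, thr c → ∀ x ∈ O, x ∈ V c)
    {m : ℕ} (hm : IsUnit ((m : ℕ) : O)) {Y H : F} (T : κ → F)
    (hH : ∀ c, thr c → H / T c - 1 ∈ (V c).nonunits)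
    (htoric : ∀ c, thr c → Y / T c ^ m - 1 ∈ (V c).nonunits)
    (hdata : AqPointData O thr V m Y T) :
    ∃ ε γ : F, ε ∈ O ∧ (∀ c, thr c → ε - 1 ∈ (V c).nonunits) ∧
      (∀ c, thr c → γ - 1 ∈ (V c).nonunits) ∧ Y / H ^ m = ε * γ ^ m := by
  classical
  obtain ⟨γ, ε, hε, hY, b, hb, hglue, K, hcond⟩ := hdata
  obtain ⟨ε', hε'⟩ := hε.exists_right_inv
  have hεε' : (ε : F) * (ε' : F) = 1 := by
    have := congrArg (fun z : O => (z : F)) hε'
    simpa using this
  have hε0 : (ε : F) ≠ 0 := left_ne_zero_of_mul_eq_one hεε'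
  have hε'eq : (ε' : F) = (ε : F)⁻¹ := eq_inv_of_mul_eq_one_right hεε'
  have hTH : ∀ c, thr c → T c / H - 1 ∈ (V c).nonunits := fun c hc => by
    have := Fermat.Agent.STB.stb_congr_inv (V c) (hH c hc)
    rwa [inv_div] at this
  have h := aq_shape_point (κ := {c // thr c}) O (fun c => V c.1)
    (fun c x hx => hOV c.1 c.2 x hx) hm (w := Y / H ^ m) (ε₀ := (ε : F)) (g₀ := γ / H)
    ε.2 (by rw [← hε'eq]; exact ε'.2) hε0
    (by rw [hY, div_pow, mul_div_assoc])
    (fun c => by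
      have hT0 : T c.1 ≠ 0 := fun h0 => by
        have := stb_ne_zero_of_congr (V c.1) (hH c.1 c.2)
        rw [h0, div_zero] at this
        exact this rfl
      have hH0 : H ≠ 0 := fun h0 => by
        have := stb_ne_zero_of_congr (V c.1) (hH c.1 c.2)
        rw [h0, zero_div] at this
        exact this rfl
      have e : Y / H ^ m = (Y / T c.1 ^ m) * (T c.1 / H) ^ m := by
        rw [div_pow]
        field_simp
      rw [e]
      exact stb_congr_mul (htoric c.1 c.2) (stb_congr_pow (hTH c.1 c.2) m))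
    (fun c => b c.1)
    (fun c => by
      have hT0 : T c.1 ≠ 0 := fun h0 => by
        have := stb_ne_zero_of_congr (V c.1) (hH c.1 c.2)
        rw [h0, div_zero] at this
        exact this rfl
      have hH0 : H ≠ 0 := fun h0 => by
        have := stb_ne_zero_of_congr (V c.1) (hH c.1 c.2)
        rw [h0, zero_div] at this
        exact this rfl
      have e : (b c.1 : F) * (γ / H) = ((b c.1 : F) * γ / T c.1) * (T c.1 / H) := by
        field_simp
      rw [e]
      exact stb_congr_mul (hb c.1 c.2) (hTH c.1 c.2))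
    (fun c c' => hglue c.1 c'.1 c.2 c'.2) K
    (fun x hx => by
      obtain ⟨y, hy⟩ := hcond (fun c => if h : thr c then x ⟨c, h⟩ else 0)
        (fun c hc => by rw [dif_pos hc]; exact hx ⟨c, hc⟩)
      refine ⟨y, fun c => ?_⟩
      have := hy c.1 c.2
      rwa [dif_pos c.2] at this)
  obtain ⟨ε₁, γ₁, hε₁, hε₁1, hγ₁, hw⟩ := h
  exact ⟨ε₁, γ₁, hε₁, fun c hc => hε₁1 ⟨c, hc⟩, fun c hc => hγ₁ ⟨c, hc⟩, hw⟩

/-- **Point data at a point with ONE component** (no gluing): a local factorisation and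
normality of the branch. -/
theorem aq_pointData_one (O : Subring F) [IsLocalRing O] (thr : κ → Prop)
    (V : κ → ValuationSubring F) (c₁ : κ) (hc₁ : thr c₁) (honly : ∀ c, thr c → c = c₁)
    (hOV : ∀ x ∈ O, x ∈ V c₁) (hres : StbRes O (V c₁))
    {m : ℕ} (hm : 0 < m) {Y : F} (T : κ → F) (htoric : Y / T c₁ ^ m - 1 ∈ (V c₁).nonunits)
    (hfac : StbFacAt O m Y) : AqPointData O thr V m Y T := by
  obtain ⟨γ, ε, hε, hY⟩ := hfac
  obtain ⟨α, hα, hαt, hvα⟩ := stb_branch_unit O (V c₁) hOV hres hm ε hε hY htoric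
  refine ⟨γ, ε, hε, hY, fun _ => α, fun c hc => ?_, fun c c' _ _ => ?_, 0, fun x _ => ?_⟩
  · rw [honly c hc]
    have hα' : (α : F) - T c₁ / γ ∈ (V c₁).nonunits := by
      have := (V c₁).nonunits.neg_mem hαt
      rwa [neg_sub] at this
    have hva : (V c₁).valuation (T c₁ / γ) = 1 := stb_val_of_sub (V c₁) hvα hαt
    have hne : T c₁ / γ ≠ 0 := fun h0 => by
      rw [h0, map_zero] at hva
      exact zero_ne_one hva
    have hT0 : T c₁ ≠ 0 := fun h0 => hne (by rw [h0, zero_div])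
    have hγ0 : γ ≠ 0 := fun h0 => hne (by rw [h0, div_zero])
    have hinv : (T c₁ / γ)⁻¹ ∈ V c₁ := by
      rw [← (V c₁).valuation_le_one_iff, map_inv₀, hva, inv_one]
    have e : (α : F) * γ / T c₁ - 1 = (T c₁ / γ)⁻¹ * ((α : F) - T c₁ / γ) := by
      field_simp
    rw [e]
    exact pwi_mul_mem_nonunits (V c₁) hinv hα'
  · rw [sub_self]
    exact Ideal.zero_mem _
  · exact ⟨x c₁, fun c hc => by
      rw [honly c hc, sub_self]
      exact aq_zero_mem_nonunits (V c₁)⟩

end PointData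

section Assemble

variable {A₀ E F : Type*} [CommRing A₀] [IsDomain A₀] [IsDiscreteValuationRing A₀]
  [Field E] [Algebra A₀ E] [IsFractionRing A₀ E] [CharZero E]
  [Field F] [Algebra E F] [Algebra A₀ F] [IsScalarTower A₀ E F]
  {π : A₀} {κ : Type*}

/-- a natural number which is a unit of `A₀` is a unit of every local ring `atO π t i` -/
theorem aq_natCast_isUnit_atO (t : F) (i : AtPt (F := F) π t ⊕ AtPt (F := F) π t⁻¹)
    {n : ℕ} (hn : IsUnit (n : A₀)) : IsUnit ((n : ℕ) : atO π t i) := by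
  obtain ⟨d, hd⟩ := hn.exists_right_inv
  have hdF : (n : F) * algebraMap A₀ F d = 1 := by
    have := congrArg (algebraMap A₀ F) hd
    simpa using this
  have hmem : ∀ (u : F) (𝔫 : AtPt (F := F) π u), algebraMap A₀ F d ∈ atLoc 𝔫 := by
    intro u 𝔫
    haveI := 𝔫.2.1.isPrime
    exact ls_algebraMap_mem 𝔫.1
      (algebraMap A₀ ↥(zchClosure (A₀ := A₀) ({u} : Set F)) d)
  have hmem' : algebraMap A₀ F d ∈ atO π t i := by
    rcases i with 𝔫 | 𝔫
    · exact hmem t 𝔫
    · exact hmem t⁻¹ 𝔫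
  refine IsUnit.of_mul_eq_one (⟨algebraMap A₀ F d, hmem'⟩ : atO π t i) ?_
  apply Subtype.ext
  show (((n : ℕ) : atO π t i) : F) * algebraMap A₀ F d = 1
  rw [show (((n : ℕ) : atO π t i) : F) = (n : F) by push_cast; rfl]
  exact hdF

/-- **(G-AT + G-AT2) assembled, with `hconn` as a hypothesis.**  See `aq_main`. -/
theorem aq_main_of_hconn (hπ : Irreducible π) {t : F} (ht : Transcendental E t)
    [FiniteDimensional E⟮t⟯ F]
    (hcl : ∀ x : F, IsAlgebraic E x → x ∈ (algebraMap E F).range)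
    {p : ℕ} (hp : p.Prime) (hpu : IsUnit (p : A₀)) {ζ : A₀} (hζ : IsPrimitiveRoot ζ p)
    (hunit : ∀ a : A₀, IsUnit a → ∃ d : A₀, d ^ p = a)
    {q : ℕ} (hq : q.Prime) (hqp : q ≠ p) (hqπ : π ∣ (q : A₀)) (N : ℕ)
    [Finite κ] (V : κ → ValuationSubring F) (hne : ∀ c c', c ≠ c' → V c ≠ V c')
    (hBV₁ : ∀ c (b : F), IsIntegral ↥(Algebra.adjoin A₀ {t}) b → b ∈ V c)
    (hBV₂ : ∀ c (b : F), IsIntegral ↥(Algebra.adjoin A₀ {t⁻¹}) b → b ∈ V c)
    (hπV : ∀ c, algebraMap A₀ F π ∈ (V c).nonunits)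
    (hKR : ∀ x : F, IsIntegral ↥(Algebra.adjoin A₀ {t}) (algebraMap A₀ F π * x) →
      (∀ c, x ∈ V c) → IsIntegral ↥(Algebra.adjoin A₀ {t}) x)
    (hram : ∀ c (x : F), x ∈ (V c).nonunits → ∃ z ∈ V c, x ^ (q ^ N) = algebraMap A₀ F π * z)
    (c₀ : κ)
    (hU : ∀ x : F, x ∈ (V c₀).nonunits → ∃ z ∈ V c₀, x = algebraMap A₀ F π * z)
    (hG : ∀ s : F, EIPrimeTo π t s → s ∉ (V c₀).nonunits)
    (harch : ∀ c (a x : F), a ∈ (V c).nonunits → ∃ N : ℕ, a ^ N * x ∈ (V c).nonunits)
    (hconn : ∀ c c' : κ, Relation.ReflTransGen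
      (fun a b => ∃ i, atInc π t V i a ∧ atInc π t V i b) c c')
    (r : ℕ) {Y : F} (T : κ → F) (htoric : ∀ c, Y / T c ^ (p ^ r) - 1 ∈ (V c).nonunits)
    (hpts : ∀ i : AtPt (F := F) π t ⊕ AtPt (F := F) π t⁻¹,
      @AqPointData F _ κ (atO π t i) (stb_atO_isLocalRing (π := π) t i) (atInc π t V i) V
        (p ^ r) Y T) :
    ∃ h : F, h ^ (p ^ r) = Y := by
  have hm : 0 < p ^ r := pow_pos hp.pos r
  have hπ0 : algebraMap A₀ F π ≠ 0 :=
    (map_ne_zero_iff _ (zch_algebraMap_injective (A₀ := A₀) (E := E) (L := F))).mpr hπ.ne_zero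
  have hT0 : ∀ c, T c ≠ 0 := by
    intro c h
    have h1 := stb_ne_zero_of_congr (V c) (htoric c)
    rw [h, zero_pow hm.ne', div_zero] at h1
    exact h1 rfl
  have hA : ∀ c, StbArch (V c) := by
    intro c x z hz
    obtain ⟨N, hN⟩ := harch c z x hz
    exact ⟨N, by rwa [mul_comm] at hN⟩
  have hinc : ∀ c c', c ≠ c' → ¬ V c ≤ V c' := fun c c' hcc' =>
    stb_not_le_of_ne (hA c) hπ0 (hπV c') (hne c c' hcc')
  obtain ⟨H, hH0, hH⟩ := aqw_weakApprox V hinc hA T hT0
  have hpu' : IsUnit ((p ^ r : ℕ) : A₀) := by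
    rw [Nat.cast_pow]
    exact hpu.pow r
  have hw1 : ∀ c, Y / H ^ (p ^ r) - 1 ∈ (V c).nonunits := by
    intro c
    have hTH : T c / H - 1 ∈ (V c).nonunits := by
      have := Fermat.Agent.STB.stb_congr_inv (V c) (hH c)
      rwa [inv_div] at this
    have e : Y / H ^ (p ^ r) = (Y / T c ^ (p ^ r)) * (T c / H) ^ (p ^ r) := by
      have := hT0 c
      rw [div_pow]
      field_simp
    rw [e]
    exact stb_congr_mul (htoric c) (stb_congr_pow hTH _)
  have hshape : PwiShape V (atO π t) (aqJ V π t) (atInc π t V) (p ^ r) (Y / H ^ (p ^ r)) := by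
    refine ⟨hw1, fun i => ?_⟩
    haveI := stb_atO_isLocalRing (π := π) t i
    obtain ⟨ε, γ, hε, hε1, hγ, hw⟩ := aq_shape_of_pointData (atO π t i) (atInc π t V i) V
      (fun c hc => stb_atO_le V hBV₁ hBV₂ i c hc) (aq_natCast_isUnit_atO t i hpu') T
      (fun c _ => hH c) (fun c _ => htoric c) (hpts i)
    refine ⟨ε, γ, hε, ?_, hγ, hw⟩
    rcases i with 𝔫 | 𝔫
    · exact (aq_mem_locIdeal V hBV₁ 𝔫 _).mpr fun c hc => by
        have := hε1 c hc
        simpa using this
    · exact (aq_mem_locIdeal V hBV₂ 𝔫 _).mpr fun c hc => by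
        have := hε1 c hc
        simpa using this
  obtain ⟨h, hh⟩ := aq_pow_of_shape hπ ht hcl hp hpu hζ hunit hq hqp hqπ N V hBV₁ hBV₂ hπV hKR
    hram c₀ hU hG harch hconn r _ hshape
  refine ⟨h * H, ?_⟩
  rw [mul_pow, hh]
  field_simp

/-- **Shape ⇒ power, NON-REDUCED special fibre, without `hconn`** (`aq_pow_of_shape` +
`aq_hconn`). -/
theorem aq_pow_of_shape' (hπ : Irreducible π) {t : F} (ht : Transcendental E t)
    [FiniteDimensional E⟮t⟯ F]
    (hcl : ∀ x : F, IsAlgebraic E x → x ∈ (algebraMap E F).range)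
    {p : ℕ} (hp : p.Prime) (hpu : IsUnit (p : A₀)) {ζ : A₀} (hζ : IsPrimitiveRoot ζ p)
    (hunit : ∀ a : A₀, IsUnit a → ∃ d : A₀, d ^ p = a)
    {q : ℕ} (hq : q.Prime) (hqp : q ≠ p) (hqπ : π ∣ (q : A₀)) (N : ℕ)
    [Finite κ] (V : κ → ValuationSubring F)
    (hBV₁ : ∀ c (b : F), IsIntegral ↥(Algebra.adjoin A₀ {t}) b → b ∈ V c)
    (hBV₂ : ∀ c (b : F), IsIntegral ↥(Algebra.adjoin A₀ {t⁻¹}) b → b ∈ V c)
    (hπV : ∀ c, algebraMap A₀ F π ∈ (V c).nonunits)
    (hKR : ∀ x : F, IsIntegral ↥(Algebra.adjoin A₀ {t}) (algebraMap A₀ F π * x) →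
      (∀ c, x ∈ V c) → IsIntegral ↥(Algebra.adjoin A₀ {t}) x)
    (hram : ∀ c (x : F), x ∈ (V c).nonunits → ∃ z ∈ V c, x ^ (q ^ N) = algebraMap A₀ F π * z)
    (c₀ : κ)
    (hU : ∀ x : F, x ∈ (V c₀).nonunits → ∃ z ∈ V c₀, x = algebraMap A₀ F π * z)
    (hG : ∀ s : F, EIPrimeTo π t s → s ∉ (V c₀).nonunits)
    (harch : ∀ c (a x : F), a ∈ (V c).nonunits → ∃ N : ℕ, a ^ N * x ∈ (V c).nonunits)
    (r : ℕ) (w : F) (hw : PwiShape V (atO π t) (aqJ V π t) (atInc π t V) (p ^ r) w) :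
    ∃ h : F, h ^ (p ^ r) = w :=
  aq_pow_of_shape hπ ht hcl hp hpu hζ hunit hq hqp hqπ N V hBV₁ hBV₂ hπV hKR hram c₀ hU hG harch
    (aq_hconn hπ ht hcl V hBV₁ hBV₂ hπV hKR hram) r w hw

/-- **(G-AT + G-AT2) assembled.**  Chart setting of `aq_pow_of_shape` (non-reduced special fibre,
finitely many pairwise distinct vertical valuations `V c`; (KR), (RAM), one component `c₀` with
`e = 1` over the Gauss valuation).  `Y` TORIC (`Y ≡ (T c) ^ (p ^ r)` at `V c`) with the point data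
`AqPointData` at every closed point of both charts (local factorisation, branch elements, trivial
gluing, conductor).  Then `Y` is a `p ^ r`-th power in `F`.  (Connectedness of the special fibre
is NOT a hypothesis: `aq_hconn`.) -/
theorem aq_main (hπ : Irreducible π) {t : F} (ht : Transcendental E t)
    [FiniteDimensional E⟮t⟯ F]
    (hcl : ∀ x : F, IsAlgebraic E x → x ∈ (algebraMap E F).range)
    {p : ℕ} (hp : p.Prime) (hpu : IsUnit (p : A₀)) {ζ : A₀} (hζ : IsPrimitiveRoot ζ p)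
    (hunit : ∀ a : A₀, IsUnit a → ∃ d : A₀, d ^ p = a)
    {q : ℕ} (hq : q.Prime) (hqp : q ≠ p) (hqπ : π ∣ (q : A₀)) (N : ℕ)
    [Finite κ] (V : κ → ValuationSubring F) (hne : ∀ c c', c ≠ c' → V c ≠ V c')
    (hBV₁ : ∀ c (b : F), IsIntegral ↥(Algebra.adjoin A₀ {t}) b → b ∈ V c)
    (hBV₂ : ∀ c (b : F), IsIntegral ↥(Algebra.adjoin A₀ {t⁻¹}) b → b ∈ V c)
    (hπV : ∀ c, algebraMap A₀ F π ∈ (V c).nonunits)
    (hKR : ∀ x : F, IsIntegral ↥(Algebra.adjoin A₀ {t}) (algebraMap A₀ F π * x) →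
      (∀ c, x ∈ V c) → IsIntegral ↥(Algebra.adjoin A₀ {t}) x)
    (hram : ∀ c (x : F), x ∈ (V c).nonunits → ∃ z ∈ V c, x ^ (q ^ N) = algebraMap A₀ F π * z)
    (c₀ : κ)
    (hU : ∀ x : F, x ∈ (V c₀).nonunits → ∃ z ∈ V c₀, x = algebraMap A₀ F π * z)
    (hG : ∀ s : F, EIPrimeTo π t s → s ∉ (V c₀).nonunits)
    (harch : ∀ c (a x : F), a ∈ (V c).nonunits → ∃ N : ℕ, a ^ N * x ∈ (V c).nonunits)
    (r : ℕ) {Y : F} (T : κ → F) (htoric : ∀ c, Y / T c ^ (p ^ r) - 1 ∈ (V c).nonunits)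
    (hpts : ∀ i : AtPt (F := F) π t ⊕ AtPt (F := F) π t⁻¹,
      @AqPointData F _ κ (atO π t i) (stb_atO_isLocalRing (π := π) t i) (atInc π t V i) V
        (p ^ r) Y T) :
    ∃ h : F, h ^ (p ^ r) = Y :=
  aq_main_of_hconn hπ ht hcl hp hpu hζ hunit hq hqp hqπ N V hne hBV₁ hBV₂ hπV hKR hram c₀ hU hG
    harch (aq_hconn hπ ht hcl V hBV₁ hBV₂ hπV hKR hram) r T htoric hpts

end Assemble

end Fermat.Agent.S36
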