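/-
S36 (Carayol at `q² ∥ M`), geometry, piece N2-pts (helper45), ABSTRACT part 1: branches at a
closed point of a chart with several vertical components.

Setting of `STB/GluingChart.lean`: `B` a chart (`Algebra B F`, injective), `𝔫` a prime of `B`,
`O = ls_localSubring 𝔫 = B_𝔫 ⊆ F`, `V` a valuation subring of `F` containing `B` ("vertical
component"), `𝔭_V = 𝔪(V) ∩ B`.

* `S36n2pGen 𝔫 V Y` : the branch `V` is REGULAR at `𝔫` with local parameter `Y`
  (`𝔫 = 𝔭_V + (Y)` locally at `𝔫`; `= hgen` of `STB.stb_gc_res`).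
* `s36n2p_gen_of_smoothAt` : from `UNIP.NodesSmoothAt f 𝔫 Y`, `ker f = 𝔭_V`.
* `s36n2p_gen_of_lower` **(A)** : from the chart `C` of the level below, `g : C → B`,
  `(F1) : B = g C + 𝔭_V` and `𝔫 ∩ C = (π, s)` locally: parameter `g s`.
* `s36n2p_gen_sub_pow` **(B)** : change of parameter, `Y ≡ s - t ^ Q` modulo `𝔭_V`, `t ∈ 𝔫`,
  `2 ≤ Q`.   `s36n2p_gen_neg`, `s36n2p_gen_congr`.
* `s36n2p_tr` **(C)** : TRANSVERSALITY `𝔪_O = 𝔭_{V₁} O + 𝔭_{V₂} O` from a local parameter of the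
  branch `V₂` lying in `𝔭_{V₁}`, in the exact form `htr` of `aq_cond_thr_of_transversal`.
* `s36n2p_res` **(D)** : normality of the branch, `STB.StbRes O V`.
* `s36n2p_cond` : the conductor clause of `AqPointData` at a point, from parameters.
-/
import Fermat.Agent.STB.GluingChart
import Fermat.Agent.S36.AbstractQ2

set_option autoImplicit false
set_option linter.unusedSectionVars false
set_option linter.unusedVariables false
set_option linter.style.haveILetI false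

namespace Fermat.Agent.S36

open Fermat.Agent.UNIP Fermat.Agent.STB

section Gen

variable {F : Type*} [Field F] {B : Type*} [CommRing B] [Algebra B F]

/-- The branch `V` of the chart `B` is regular at `𝔫` with local parameter `Y`:
`𝔫 = (𝔪(V) ∩ B) + (Y)` locally at `𝔫`. -/
def S36n2pGen (𝔫 : Ideal B) (V : ValuationSubring F) (Y : B) : Prop :=
  ∀ b ∈ 𝔫, ∃ u : B, u ∉ 𝔫 ∧ ∃ c : B, algebraMap B F (u * b - c * Y) ∈ V.nonunits

/-- from the ring-hom form `NodesSmoothAt` of UNIP -/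
theorem s36n2p_gen_of_smoothAt {R : Type*} [CommRing R] (f : B →+* R) (𝔫 : Ideal B)
    (V : ValuationSubring F)
    (hker : ∀ b : B, f b = 0 → algebraMap B F b ∈ V.nonunits)
    {Y : B} (h : NodesSmoothAt f 𝔫 Y) : S36n2pGen 𝔫 V Y := by
  intro b hb
  obtain ⟨u, v, hu, huv⟩ := h.2 b hb
  exact ⟨u, hu, v, hker _ (by rw [map_sub, huv, sub_self])⟩

/-- to the ring-hom form `NodesSmoothAt` of UNIP -/
theorem S36n2pGen.smoothAt {R : Type*} [CommRing R] (f : B →+* R) {𝔫 : Ideal B}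
    {V : ValuationSubring F}
    (hker : ∀ b : B, algebraMap B F b ∈ V.nonunits → f b = 0)
    {Y : B} (hY : Y ∈ 𝔫) (h : S36n2pGen 𝔫 V Y) : NodesSmoothAt f 𝔫 Y := by
  refine ⟨hY, fun b hb => ?_⟩
  obtain ⟨u, hu, c, hc⟩ := h b hb
  refine ⟨u, c, hu, ?_⟩
  have := hker _ hc
  rwa [map_sub, sub_eq_zero] at this

/-- **(A)** the local parameter from the level below. -/
theorem s36n2p_gen_of_lower {C : Type*} [CommRing C] (g : C →+* B) (𝔫 : Ideal B)
    (V : ValuationSubring F) (hBV : ∀ b : B, algebraMap B F b ∈ V)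
    (hthrough : ∀ b : B, algebraMap B F b ∈ V.nonunits → b ∈ 𝔫)
    (hF1 : ∀ b : B, ∃ c : C, algebraMap B F (b - g c) ∈ V.nonunits)
    (π s : C) (hπ : algebraMap B F (g π) ∈ V.nonunits)
    (hgen : NodesLocGen (𝔫.comap g) {π, s}) :
    S36n2pGen 𝔫 V (g s) := by
  intro b hb
  obtain ⟨c, hc⟩ := hF1 b
  have hgc : g c ∈ 𝔫 := by
    have h1 : b - g c ∈ 𝔫 := hthrough _ hc
    have h2 := 𝔫.sub_mem hb h1
    rwa [sub_sub_cancel] at h2
  obtain ⟨u, hu, hub⟩ := hgen c hgc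
  rw [Ideal.mem_span_pair] at hub
  obtain ⟨c₁, c₂, hub⟩ := hub
  refine ⟨g u, hu, g c₂, ?_⟩
  have e : g u * b - g c₂ * g s = g u * (b - g c) + g c₁ * g π := by
    have : g (u * c) = g (c₁ * π + c₂ * s) := by rw [hub]
    simp only [map_mul, map_add] at this
    linear_combination this
  rw [e, map_add, map_mul, map_mul]
  exact V.nonunits.add_mem (pwi_mul_mem_nonunits V (hBV _) hc)
    (pwi_mul_mem_nonunits V (hBV _) hπ)

/-- a congruent parameter -/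
theorem s36n2p_gen_congr (𝔫 : Ideal B) (V : ValuationSubring F)
    (hBV : ∀ b : B, algebraMap B F b ∈ V) {Y Y' : B}
    (hYY' : algebraMap B F (Y' - Y) ∈ V.nonunits) (h : S36n2pGen 𝔫 V Y) :
    S36n2pGen 𝔫 V Y' := by
  intro b hb
  obtain ⟨u, hu, c, hc⟩ := h b hb
  refine ⟨u, hu, c, ?_⟩
  have e : u * b - c * Y' = (u * b - c * Y) - c * (Y' - Y) := by ring
  rw [e, map_sub, map_mul]
  exact V.nonunits.sub_mem hc (pwi_mul_mem_nonunits V (hBV _) hYY')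

/-- the opposite parameter -/
theorem s36n2p_gen_neg (𝔫 : Ideal B) (V : ValuationSubring F) {Y : B}
    (h : S36n2pGen 𝔫 V Y) : S36n2pGen 𝔫 V (-Y) := by
  intro b hb
  obtain ⟨u, hu, c, hc⟩ := h b hb
  refine ⟨u, hu, -c, ?_⟩
  have e : u * b - -c * -Y = u * b - c * Y := by ring
  rwa [e]

/-- **(B)** change of parameter: `s - t ^ Q`, `t ∈ 𝔫`, `2 ≤ Q`. -/
theorem s36n2p_gen_sub_pow (𝔫 : Ideal B) [h𝔫 : 𝔫.IsPrime] (V : ValuationSubring F)
    (hBV : ∀ b : B, algebraMap B F b ∈ V) {s t : B} (hs : s ∈ 𝔫) (ht : t ∈ 𝔫)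
    {Q : ℕ} (hQ : 2 ≤ Q) (h : S36n2pGen 𝔫 V s) : S36n2pGen 𝔫 V (s - t ^ Q) := by
  have h1 : NodesSmoothAt (Ideal.Quotient.mk (stbGcVert V hBV)) 𝔫 s :=
    S36n2pGen.smoothAt (Ideal.Quotient.mk (stbGcVert V hBV))
      (fun b hb => Ideal.Quotient.eq_zero_iff_mem.mpr hb) hs h
  exact s36n2p_gen_of_smoothAt (Ideal.Quotient.mk (stbGcVert V hBV)) 𝔫 V
    (fun b hb => Ideal.Quotient.eq_zero_iff_mem.mp hb) (nodes_smoothAt_sub_pow h1 ht hQ)

/-- **(B′)** change of parameter, congruence form: `Y ≡ s - t ^ Q` at `V`. -/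
theorem s36n2p_gen_change (𝔫 : Ideal B) [h𝔫 : 𝔫.IsPrime] (V : ValuationSubring F)
    (hBV : ∀ b : B, algebraMap B F b ∈ V) {s t Y : B} (hs : s ∈ 𝔫) (ht : t ∈ 𝔫)
    {Q : ℕ} (hQ : 2 ≤ Q) (hY : algebraMap B F (Y - (s - t ^ Q)) ∈ V.nonunits)
    (h : S36n2pGen 𝔫 V s) : S36n2pGen 𝔫 V Y :=
  s36n2p_gen_congr 𝔫 V hBV hY (s36n2p_gen_sub_pow 𝔫 V hBV hs ht hQ h)

end Gen

section Local

variable {F : Type*} [Field F] {B : Type*} [CommRing B] [Algebra B F]
variable (hinj : Function.Injective (algebraMap B F)) (𝔫 : Ideal B) [h𝔫 : 𝔫.IsPrime]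

include hinj in
/-- **(C) TRANSVERSALITY** of the branches `V₁`, `V₂` at `𝔫`, from a local parameter `Y` of the
branch `V₂` which vanishes on `V₁`. -/
theorem s36n2p_tr [IsLocalRing (ls_localSubring (F := F) 𝔫)] (V₁ V₂ : ValuationSubring F)
    (hB₁ : ∀ b : B, algebraMap B F b ∈ V₁) (hB₂ : ∀ b : B, algebraMap B F b ∈ V₂)
    (hthr₁ : ∀ b : B, algebraMap B F b ∈ V₁.nonunits → b ∈ 𝔫)
    (hthr₂ : ∀ b : B, algebraMap B F b ∈ V₂.nonunits → b ∈ 𝔫)
    {Y : B} (hY : algebraMap B F Y ∈ V₁.nonunits) (hgen : S36n2pGen 𝔫 V₂ Y) :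
    ∀ x ∈ IsLocalRing.maximalIdeal (ls_localSubring (F := F) 𝔫),
      ∃ a b : ls_localSubring (F := F) 𝔫,
        (a : F) ∈ V₁.nonunits ∧ (b : F) ∈ V₂.nonunits ∧ x = a + b := by
  intro x hx
  obtain ⟨b, s, hb, hs, h⟩ := stb_gc_exists_of_mem_maximalIdeal hinj 𝔫 x hx
  obtain ⟨u, hu, c, hc⟩ := hgen b hb
  have hus : u * s ∉ 𝔫 := fun h' => by
    rcases h𝔫.mem_or_mem h' with h'' | h''
    · exact hu h''
    · exact hs h''
  have hus0 : algebraMap B F (u * s) ≠ 0 := stb_gc_algebraMap_ne_zero hinj 𝔫 hus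
  have hv1 : V₁.valuation (algebraMap B F (u * s)) = 1 :=
    stb_gc_val_eq_one V₁ (hB₁ _) (fun h' => hus (hthr₁ _ h'))
  have hv2 : V₂.valuation (algebraMap B F (u * s)) = 1 :=
    stb_gc_val_eq_one V₂ (hB₂ _) (fun h' => hus (hthr₂ _ h'))
  refine ⟨⟨algebraMap B F (c * Y) / algebraMap B F (u * s), ⟨c * Y, u * s, hus, by field_simp⟩⟩,
    ⟨algebraMap B F (u * b - c * Y) / algebraMap B F (u * s),
      ⟨u * b - c * Y, u * s, hus, by field_simp⟩⟩, ?_, ?_, ?_⟩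
  · show algebraMap B F (c * Y) / algebraMap B F (u * s) ∈ V₁.nonunits
    rw [div_eq_inv_mul]
    refine pwi_mul_mem_nonunits V₁ ?_ ?_
    · rw [← V₁.valuation_le_one_iff, map_inv₀, hv1, inv_one]
    · rw [map_mul]
      exact pwi_mul_mem_nonunits V₁ (hB₁ _) hY
  · show algebraMap B F (u * b - c * Y) / algebraMap B F (u * s) ∈ V₂.nonunits
    rw [div_eq_inv_mul]
    refine pwi_mul_mem_nonunits V₂ ?_ hc
    rw [← V₂.valuation_le_one_iff, map_inv₀, hv2, inv_one]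
  · apply Subtype.ext
    show (x : F) = algebraMap B F (c * Y) / algebraMap B F (u * s)
      + algebraMap B F (u * b - c * Y) / algebraMap B F (u * s)
    rw [← add_div, ← map_add]
    have e : c * Y + (u * b - c * Y) = u * b := by ring
    rw [e, eq_div_iff hus0, map_mul, map_mul, ← h]
    ring

include hinj in
/-- **(C), symmetric form.** -/
theorem s36n2p_tr_symm [IsLocalRing (ls_localSubring (F := F) 𝔫)] (V₁ V₂ : ValuationSubring F)
    (hB₁ : ∀ b : B, algebraMap B F b ∈ V₁) (hB₂ : ∀ b : B, algebraMap B F b ∈ V₂)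
    (hthr₁ : ∀ b : B, algebraMap B F b ∈ V₁.nonunits → b ∈ 𝔫)
    (hthr₂ : ∀ b : B, algebraMap B F b ∈ V₂.nonunits → b ∈ 𝔫)
    {Y : B} (hY : algebraMap B F Y ∈ V₁.nonunits) (hgen : S36n2pGen 𝔫 V₂ Y) :
    ∀ x ∈ IsLocalRing.maximalIdeal (ls_localSubring (F := F) 𝔫),
      ∃ a b : ls_localSubring (F := F) 𝔫,
        (a : F) ∈ V₂.nonunits ∧ (b : F) ∈ V₁.nonunits ∧ x = a + b := by
  intro x hx
  obtain ⟨a, b, ha, hb, hab⟩ := s36n2p_tr hinj 𝔫 V₁ V₂ hB₁ hB₂ hthr₁ hthr₂ hY hgen x hx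
  exact ⟨b, a, hb, ha, by rw [hab, add_comm]⟩

include hinj in
/-- **(D) NORMALITY** of a regular branch: `STB.StbRes (B_𝔫) V`. -/
theorem s36n2p_res [IsNoetherianRing B] (V : ValuationSubring F)
    (hBV : ∀ b : B, algebraMap B F b ∈ V)
    (hthrough : ∀ b : B, algebraMap B F b ∈ V.nonunits → b ∈ 𝔫)
    (hVloc : ∀ x : F, x ∈ V → ∃ b s : B, algebraMap B F s ∉ V.nonunits ∧
      algebraMap B F s * x = algebraMap B F b)
    {Y : B} (hY : Y ∈ 𝔫) (hgen : S36n2pGen 𝔫 V Y) :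
    StbRes (ls_localSubring (F := F) 𝔫) V := fun a e n he hn h =>
  stb_gc_res hinj 𝔫 V hBV hthrough hVloc Y hY hgen a e n he hn h

end Local

end Fermat.Agent.S36
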