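import Mathlib

/-!
# S36 (Carayol), wall Q2-loc: local factoriality — the commutative algebra (helper37)

See NOTES/S36-REG.md.  Mathlib only.

* `s36reg_prime_principal` (R0): `x` a prime element in the Jacobson radical of a noetherian
  domain `O` with `O ⧸ (x)` a principal ideal ring; then every prime ideal `𝔓 ∌ x` is principal.
* `s36reg_ufd` (R0): under the same hypotheses `O` is a UFD.
* `s36reg_isUnit_of_ord` / `s36reg_associated_pow` (R1, unit part): `u ∣ s ^ n`, and the images of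
  `u` and `s ^ n` in a domain quotient `O ⧸ 𝔮` of the local ring `O` are associated, nonzero
  `⇒ u` and `s ^ n` are associated.
* `s36reg_span_eq` (R1): `O` integrally closed local domain, `s ∈ 𝔭`, `u ∣ f ^ n` for all `f ∈ 𝔭`
  (`u` generates the `n`-th symbolic power), orders as above `⇒ 𝔭 = (s)`.
* `s36reg_exists_transversal`: `𝔭 ⊔ 𝔮 = 𝔪` and `O ⧸ 𝔮` a DVR `⇒` there is `s ∈ 𝔭` whose image in
  `O ⧸ 𝔮` is a uniformizer.
* `s36reg_ufd_of_crossing` (R0 + R1): the factoriality criterion at a crossing point.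
-/

set_option autoImplicit false
set_option linter.style.haveILetI false
set_option linter.unusedSectionVars false
set_option linter.unnecessarySimpa false

namespace Fermat.Agent.S36

open Ideal

section R0

variable {O : Type*} [CommRing O] [IsDomain O] [IsNoetherianRing O]

/-- **(R0)** `x` in the Jacobson radical, `O ⧸ (x)` a principal ideal ring: every prime ideal
which does not contain `x` is principal. -/
theorem s36reg_prime_principal {x : O} (hJ : x ∈ Ideal.jacobson (⊥ : Ideal O))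
    [IsPrincipalIdealRing (O ⧸ Ideal.span {x})] (𝔓 : Ideal O) [𝔓.IsPrime] (hx : x ∉ 𝔓) :
    ∃ f ∈ 𝔓, 𝔓 = Ideal.span {f} := by
  classical
  -- a generator of the image of `𝔓` in `O ⧸ (x)`
  obtain ⟨g, hg⟩ := (IsPrincipalIdealRing.principal
    (Ideal.map (Ideal.Quotient.mk (Ideal.span {x})) 𝔓)).principal
  have hgmem : g ∈ Ideal.map (Ideal.Quotient.mk (Ideal.span {x})) 𝔓 := by
    rw [hg]; exact Submodule.mem_span_singleton_self g
  obtain ⟨f, hf𝔓, hfg⟩ :=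
    (Ideal.mem_map_iff_of_surjective _ Ideal.Quotient.mk_surjective).1 hgmem
  refine ⟨f, hf𝔓, le_antisymm ?_ ((Ideal.span_singleton_le_iff_mem _).2 hf𝔓)⟩
  -- `𝔓 ≤ (f) ⊔ (x) • 𝔓`, then Nakayama
  have key : 𝔓 ≤ Ideal.span {f} ⊔ Ideal.span {x} • 𝔓 := by
    intro y hy
    have hy' : Ideal.Quotient.mk (Ideal.span {x}) y ∈
        Ideal.map (Ideal.Quotient.mk (Ideal.span {x})) 𝔓 := Ideal.mem_map_of_mem _ hy
    rw [hg] at hy'
    obtain ⟨a, ha⟩ := Submodule.mem_span_singleton.1 hy'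
    obtain ⟨a', rfl⟩ := Ideal.Quotient.mk_surjective a
    rw [smul_eq_mul, ← hfg, ← map_mul, eq_comm, Ideal.Quotient.eq,
      Ideal.mem_span_singleton] at ha
    obtain ⟨c, hc⟩ := ha
    -- `y - a' f = x c`, so `x c ∈ 𝔓` and `c ∈ 𝔓`
    have hxc : x * c ∈ 𝔓 := by
      rw [← hc]
      exact 𝔓.sub_mem hy (𝔓.mul_mem_left _ hf𝔓)
    have hc𝔓 : c ∈ 𝔓 := ((Ideal.IsPrime.mem_or_mem ‹_› hxc).resolve_left hx)
    have e : y = a' * f + x * c := by rw [← hc]; ring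
    rw [e]
    refine Submodule.add_mem_sup (Ideal.mem_span_singleton'.2 ⟨a', rfl⟩) ?_
    exact Submodule.smul_mem_smul (Ideal.mem_span_singleton_self x) hc𝔓
  have hfg' : (𝔓 : Submodule O O).FG := IsNoetherian.noetherian 𝔓
  have hxJ : Ideal.span {x} ≤ Ideal.jacobson (⊥ : Ideal O) :=
    (Ideal.span_singleton_le_iff_mem _).2 hJ
  exact Submodule.le_of_le_smul_of_le_jacobson_bot hfg' hxJ key

/-- **(R0)** a noetherian domain with a prime element `x` in the Jacobson radical such that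
`O ⧸ (x)` is a principal ideal ring is a unique factorisation domain. -/
theorem s36reg_ufd {x : O} (hx : Prime x) (hJ : x ∈ Ideal.jacobson (⊥ : Ideal O))
    [IsPrincipalIdealRing (O ⧸ Ideal.span {x})] : UniqueFactorizationMonoid O := by
  rw [UniqueFactorizationMonoid.iff_exists_prime_mem_of_isPrime]
  intro I hI hIp
  by_cases hxI : x ∈ I
  · exact ⟨x, hxI, hx⟩
  · haveI := hIp
    obtain ⟨f, hfI, hIf⟩ := s36reg_prime_principal hJ I hxI
    have hf0 : f ≠ 0 := by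
      rintro rfl
      apply hI
      rw [hIf]
      simp
    refine ⟨f, hfI, ?_⟩
    rw [← Ideal.span_singleton_prime hf0, ← hIf]
    exact hIp

/-- **(R0)**, local form. -/
theorem s36reg_ufd_local [IsLocalRing O] {x : O} (hx : Prime x)
    [IsPrincipalIdealRing (O ⧸ Ideal.span {x})] : UniqueFactorizationMonoid O := by
  refine s36reg_ufd hx ?_
  rw [IsLocalRing.jacobson_eq_maximalIdeal ⊥ bot_ne_top]
  exact (IsLocalRing.mem_maximalIdeal x).2 hx.not_isUnit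

end R0

section R1

variable {O : Type*} [CommRing O] [IsLocalRing O]

/-- **(R1), unit part.**  `s ^ n = u * c` and the images of `u`, `s ^ n` in the domain `O ⧸ 𝔮`
are associated and nonzero: then `c` is a unit. -/
theorem s36reg_isUnit_of_ord (𝔮 : Ideal O) [𝔮.IsPrime] {s u c : O} {n : ℕ}
    (h : s ^ n = u * c) (hs : s ∉ 𝔮)
    (hord : Associated (Ideal.Quotient.mk 𝔮 u) (Ideal.Quotient.mk 𝔮 s ^ n)) : IsUnit c := by
  have hsn : Ideal.Quotient.mk 𝔮 s ^ n ≠ 0 := by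
    apply pow_ne_zero
    rwa [Ne, Ideal.Quotient.eq_zero_iff_mem]
  obtain ⟨w, hw⟩ := hord
  -- `mk u * w = mk s ^ n = mk u * mk c`
  have h1 : Ideal.Quotient.mk 𝔮 u * (w : O ⧸ 𝔮) = Ideal.Quotient.mk 𝔮 u * Ideal.Quotient.mk 𝔮 c := by
    rw [hw, ← map_mul, ← h, map_pow]
  have hu0 : Ideal.Quotient.mk 𝔮 u ≠ 0 := by
    intro h0
    rw [h0, zero_mul] at hw
    exact hsn hw.symm
  have h2 : (w : O ⧸ 𝔮) = Ideal.Quotient.mk 𝔮 c := mul_left_cancel₀ hu0 h1
  have h3 : IsUnit (Ideal.Quotient.mk 𝔮 c) := h2 ▸ w.isUnit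
  by_contra hc
  have hcm : c ∈ IsLocalRing.maximalIdeal O := (IsLocalRing.mem_maximalIdeal c).2 hc
  have hq : 𝔮 ≤ IsLocalRing.maximalIdeal O := IsLocalRing.le_maximalIdeal (Ideal.IsPrime.ne_top ‹_›)
  -- the image of a non-unit is a non-unit
  obtain ⟨d, hd⟩ := h3.exists_right_inv
  obtain ⟨d', rfl⟩ := Ideal.Quotient.mk_surjective d
  rw [← map_mul, ← map_one (Ideal.Quotient.mk 𝔮), Ideal.Quotient.eq] at hd
  have h4 : c * d' - 1 ∈ IsLocalRing.maximalIdeal O := hq hd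
  have h5 : (1 : O) ∈ IsLocalRing.maximalIdeal O := by
    have := (IsLocalRing.maximalIdeal O).sub_mem
      ((IsLocalRing.maximalIdeal O).mul_mem_right d' hcm) h4
    simpa using this
  exact (Ideal.ne_top_iff_one _).1 (IsLocalRing.maximalIdeal.isMaximal O).ne_top h5

/-- **(R1), unit part.**  `u ∣ s ^ n` and equal orders along `𝔮`: `u` and `s ^ n` are
associated. -/
theorem s36reg_associated_pow (𝔮 : Ideal O) [𝔮.IsPrime] {s u : O} {n : ℕ}
    (h : u ∣ s ^ n) (hs : s ∉ 𝔮)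
    (hord : Associated (Ideal.Quotient.mk 𝔮 u) (Ideal.Quotient.mk 𝔮 s ^ n)) :
    Associated u (s ^ n) := by
  obtain ⟨c, hc⟩ := h
  obtain ⟨w, hw⟩ := s36reg_isUnit_of_ord 𝔮 hc hs hord
  exact ⟨w, by rw [hw, hc]⟩

variable [IsDomain O] [IsIntegrallyClosed O]

/-- **(R1)**: `𝔭 = (s)`.  `O` an integrally closed local domain, `s ∈ 𝔭`, `u ∣ f ^ n` for every
`f ∈ 𝔭` ("`div u = n · 𝔭`"), and `u`, `s ^ n` have the same order along `𝔮 ∌ s`. -/
theorem s36reg_span_eq (𝔭 𝔮 : Ideal O) [𝔮.IsPrime] {s u : O} {n : ℕ} (hn : n ≠ 0)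
    (hs𝔭 : s ∈ 𝔭) (hs : s ∉ 𝔮) (hu : ∀ f ∈ 𝔭, u ∣ f ^ n)
    (hord : Associated (Ideal.Quotient.mk 𝔮 u) (Ideal.Quotient.mk 𝔮 s ^ n)) :
    𝔭 = Ideal.span {s} := by
  refine le_antisymm ?_ ((Ideal.span_singleton_le_iff_mem _).2 hs𝔭)
  have hass := s36reg_associated_pow 𝔮 (hu s hs𝔭) hs hord
  intro f hf
  rw [Ideal.mem_span_singleton]
  -- `s ^ n ∣ f ^ n`, and `O` is integrally closed
  have h1 : s ^ n ∣ f ^ n := hass.symm.dvd.trans (hu f hf)
  exact (IsIntegrallyClosed.pow_dvd_pow_iff hn).1 h1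

end R1

section Crossing

variable {O : Type*} [CommRing O] [IsLocalRing O]

/-- transversality gives an element of `𝔭` which is a uniformizer along `𝔮` -/
theorem s36reg_exists_transversal (𝔭 𝔮 : Ideal O) [𝔮.IsPrime]
    (htr : 𝔭 ⊔ 𝔮 = IsLocalRing.maximalIdeal O)
    [IsDiscreteValuationRing (O ⧸ 𝔮)] :
    ∃ s ∈ 𝔭, Irreducible (Ideal.Quotient.mk 𝔮 s) := by
  obtain ⟨ϖ, hϖ⟩ := IsDiscreteValuationRing.exists_irreducible (O ⧸ 𝔮)
  obtain ⟨y, rfl⟩ := Ideal.Quotient.mk_surjective ϖ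
  have hy : y ∈ IsLocalRing.maximalIdeal O := by
    rw [IsLocalRing.mem_maximalIdeal]
    intro hyu
    exact hϖ.not_isUnit (hyu.map _)
  rw [← htr] at hy
  obtain ⟨s, hs, t, ht, rfl⟩ := Submodule.mem_sup.1 hy
  refine ⟨s, hs, ?_⟩
  have e : Ideal.Quotient.mk 𝔮 (s + t) = Ideal.Quotient.mk 𝔮 s := by
    rw [map_add, Ideal.Quotient.eq_zero_iff_mem.2 ht, add_zero]
  rwa [e] at hϖ

variable [IsDomain O] [IsNoetherianRing O] [IsIntegrallyClosed O]

/-- **(R0) + (R1): factoriality at a crossing point.**  `O` an integrally closed noetherian local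
domain, `𝔭`, `𝔮` prime ideals meeting transversally (`𝔭 ⊔ 𝔮 = 𝔪`), both `O ⧸ 𝔭` and `O ⧸ 𝔮`
discrete valuation rings, `u ∈ O` with `u ∣ f ^ n` for all `f ∈ 𝔭` and whose image in `O ⧸ 𝔮`
has order exactly `n` (i.e. is associated to the `n`-th power of a uniformizer).  Then `𝔭` is
principal and `O` is a unique factorisation domain. -/
theorem s36reg_ufd_of_crossing (𝔭 𝔮 : Ideal O) [𝔭.IsPrime] [𝔮.IsPrime] (h𝔭 : 𝔭 ≠ ⊥)
    (htr : 𝔭 ⊔ 𝔮 = IsLocalRing.maximalIdeal O)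
    [IsPrincipalIdealRing (O ⧸ 𝔭)] [IsDiscreteValuationRing (O ⧸ 𝔮)]
    {u : O} {n : ℕ} (hn : n ≠ 0) (hu : ∀ f ∈ 𝔭, u ∣ f ^ n)
    (hord : ∀ ϖ : O ⧸ 𝔮, Irreducible ϖ → Associated (Ideal.Quotient.mk 𝔮 u) (ϖ ^ n)) :
    (∃ s : O, Prime s ∧ 𝔭 = Ideal.span {s}) ∧ UniqueFactorizationMonoid O := by
  obtain ⟨s, hs𝔭, hsirr⟩ := s36reg_exists_transversal 𝔭 𝔮 htr
  have hs𝔮 : s ∉ 𝔮 := by
    intro h
    rw [← Ideal.Quotient.eq_zero_iff_mem] at h
    exact hsirr.ne_zero h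
  have hspan : 𝔭 = Ideal.span {s} :=
    s36reg_span_eq 𝔭 𝔮 hn hs𝔭 hs𝔮 hu (hord _ hsirr)
  have hs0 : s ≠ 0 := by
    rintro rfl
    apply h𝔭
    rw [hspan]
    simp
  have hsprime : Prime s := by
    rw [← Ideal.span_singleton_prime hs0, ← hspan]
    infer_instance
  refine ⟨⟨s, hsprime, hspan⟩, ?_⟩
  haveI : IsPrincipalIdealRing (O ⧸ Ideal.span {s}) := hspan ▸ ‹IsPrincipalIdealRing (O ⧸ 𝔭)›
  exact s36reg_ufd_local hsprime

end Crossing

end Fermat.Agent.S36
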