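/-
S36 (Carayol at `q² ∥ M`), geometry, piece N2-pts (helper45), part 3: REG and the LOCAL KRULL
PROPERTY at a closed point of a chart with a NON-REDUCED special fibre.

Setting of `STB/GluingChart.lean`: `B` a chart (`Algebra B F`, injective), `𝔫` a prime of `B`,
`O = ls_localSubring 𝔫 = B_𝔫 ⊆ F`; `V : κ → ValuationSubring F` the vertical valuations
(`κ` finite), `ϖ ∈ B` the uniformizer of the base; the globals of `aq_main`:
 (KR)  `ϖ x ∈ B`, `x ∈ ⋂ V c` ⇒ `x ∈ B`;   (RAM)  `x ∈ 𝔪(V c)` ⇒ `x ^ Q ∈ ϖ V c`.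

* `s36n2p_isLocalization`, `s36n2p_isNoetherianRing` : `B_𝔫` is the localisation, noetherian.
* `s36n2p_KRloc` : LOCAL (KR): `ϖ x ∈ B_𝔫`, `x ∈ V c` for the `c` THROUGH `𝔫` ⇒ `x ∈ B_𝔫`.
* `s36n2p_KRloc_prod` : product form = hypothesis `hKR` of `s36n2p_dict_of_KR`.
* `s36n2p_dvd_of_unif` : `X ∈ B_𝔫` a uniformizer of `V c₁`, a unit at the other components
  through `𝔫`, `X ∣ ϖ`: then `𝔪(V c₁) ∩ B_𝔫 = X B_𝔫`.
* `s36n2p_ufd` : **REG**: if moreover the branch `V c₁` is regular at `𝔫` (`S36n2pGen`), then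
  `B_𝔫` is a UFD (`s36reg_ufd_local`).
* `s36n2p_fac` : the field `fac` of `S36PtInput` at such a point.
-/
import Fermat.Agent.S36.N2PtsAbs
import Fermat.Agent.S36.N2PtsFac
import Fermat.Agent.S36.RegAlg
import Fermat.Agent.UNIP.LocalShapeChart

set_option autoImplicit false
set_option linter.unusedSectionVars false
set_option linter.unusedVariables false
set_option linter.style.haveILetI false

namespace Fermat.Agent.S36

open Fermat.Agent.UNIP Fermat.Agent.STB AlgebraicCurve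

section Loc

variable {F : Type*} [Field F] {B : Type*} [CommRing B] [Algebra B F]
variable (hinj : Function.Injective (algebraMap B F)) (𝔫 : Ideal B) [h𝔫 : 𝔫.IsPrime]

/-- the structure map `B → B_𝔫` -/
def s36n2pToLoc : B →+* ls_localSubring (F := F) 𝔫 where
  toFun b := ⟨algebraMap B F b, ls_algebraMap_mem 𝔫 b⟩
  map_one' := Subtype.ext (map_one _)
  map_mul' x y := Subtype.ext (map_mul _ x y)
  map_zero' := Subtype.ext (map_zero _)
  map_add' x y := Subtype.ext (map_add _ x y)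

theorem s36n2pToLoc_coe (b : B) : ((s36n2pToLoc (F := F) 𝔫 b : ls_localSubring (F := F) 𝔫) : F)
    = algebraMap B F b := rfl

include hinj in
/-- `B_𝔫` is the localisation of `B` at `𝔫` -/
theorem s36n2p_isLocalization :
    @IsLocalization B _ 𝔫.primeCompl (ls_localSubring (F := F) 𝔫) _
      (s36n2pToLoc (F := F) 𝔫).toAlgebra := by
  letI : Algebra B (ls_localSubring (F := F) 𝔫) := (s36n2pToLoc (F := F) 𝔫).toAlgebra
  refine ⟨⟨fun s => ?_, fun z => ?_, fun {x y} hxy => ?_⟩⟩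
  · exact ls_isUnit_of_not_mem hinj 𝔫 (s36n2pToLoc (F := F) 𝔫 s.1) (b := s.1) (s := 1)
      s.2 (fun h => h𝔫.ne_top ((Ideal.eq_top_iff_one 𝔫).mpr h)) (by
        rw [map_one, one_mul]; rfl)
  · obtain ⟨b, s, hs, h⟩ := z.2
    refine ⟨(b, ⟨s, hs⟩), Subtype.ext ?_⟩
    show (z : F) * algebraMap B F s = algebraMap B F b
    rw [mul_comm]; exact h
  · refine ⟨1, ?_⟩
    have : algebraMap B F x = algebraMap B F y := congrArg Subtype.val hxy
    rw [hinj this]

include hinj in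
theorem s36n2p_isNoetherianRing [IsNoetherianRing B] :
    IsNoetherianRing (ls_localSubring (F := F) 𝔫) := by
  letI : Algebra B (ls_localSubring (F := F) 𝔫) := (s36n2pToLoc (F := F) 𝔫).toAlgebra
  haveI := s36n2p_isLocalization (F := F) hinj 𝔫
  exact IsLocalization.isNoetherianRing 𝔫.primeCompl (ls_localSubring (F := F) 𝔫) inferInstance

end Loc

section KR

variable {F : Type*} [Field F] {B : Type*} [CommRing B] [Algebra B F]
variable (hinj : Function.Injective (algebraMap B F)) (𝔫 : Ideal B) [h𝔫 : 𝔫.IsPrime]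
variable {κ : Type*} [Finite κ]

/-- **LOCAL (KR), valuation form.**  `ϖ x ∈ B_𝔫` and `x ∈ V c` for every component `V c`
THROUGH `𝔫` imply `x ∈ B_𝔫`. -/
theorem s36n2p_KRloc (V : κ → ValuationSubring F) (hBV : ∀ c (b : B), algebraMap B F b ∈ V c)
    (ϖ : B)
    (hKR : ∀ x : F, (∃ b : B, algebraMap B F ϖ * x = algebraMap B F b) → (∀ c, x ∈ V c) →
      ∃ b : B, x = algebraMap B F b)
    (Q : ℕ) (hram : ∀ c (x : F), x ∈ (V c).nonunits → ∃ z ∈ V c, x ^ Q = algebraMap B F ϖ * z)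
    (x : F) (hx : algebraMap B F ϖ * x ∈ ls_localSubring (F := F) 𝔫)
    (hxV : ∀ c, (∀ b : B, algebraMap B F b ∈ (V c).nonunits → b ∈ 𝔫) → x ∈ V c) :
    x ∈ ls_localSubring (F := F) 𝔫 := by
  classical
  letI : Fintype κ := Fintype.ofFinite κ
  obtain ⟨b, s, hs, hbs⟩ := hx
  have h1 : (1 : B) ∉ 𝔫 := fun h => h𝔫.ne_top ((Ideal.eq_top_iff_one 𝔫).mpr h)
  -- separating elements for the components not through `𝔫`
  have hsep : ∀ c, ∃ t : B, t ∉ 𝔫 ∧
      ((∀ b : B, algebraMap B F b ∈ (V c).nonunits → b ∈ 𝔫) ∨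
        algebraMap B F t ∈ (V c).nonunits) := by
    intro c
    by_cases h : ∀ b : B, algebraMap B F b ∈ (V c).nonunits → b ∈ 𝔫
    · exact ⟨1, h1, Or.inl h⟩
    · push Not at h
      obtain ⟨t, ht, ht'⟩ := h
      exact ⟨t, ht', Or.inr ht⟩
  choose t ht htV using hsep
  set T : B := ∏ c, t c ^ Q with hT
  have hT𝔫 : T ∉ 𝔫 := by
    intro h
    obtain ⟨c, -, hc⟩ := (Ideal.IsPrime.prod_mem_iff).mp h
    exact ht c (h𝔫.mem_of_pow_mem _ hc)
  have hz : ∀ c, x * algebraMap B F s * algebraMap B F T ∈ V c := by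
    intro c
    rcases htV c with h | h
    · exact mul_mem (mul_mem (hxV c h) (hBV c s)) (hBV c T)
    · obtain ⟨z₀, hz₀, hz₀'⟩ := hram c _ h
      have hTT : T = t c ^ Q * ∏ c' ∈ Finset.univ.erase c, t c' ^ Q := by
        rw [hT]
        exact (Finset.mul_prod_erase Finset.univ (fun c' => t c' ^ Q) (Finset.mem_univ c)).symm
      have e : x * algebraMap B F s * algebraMap B F T
          = algebraMap B F b * z₀ *
            algebraMap B F (∏ c' ∈ Finset.univ.erase c, t c' ^ Q) := by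
        rw [hTT, map_mul, map_pow, hz₀', ← hbs]
        ring
      rw [e]
      exact mul_mem (mul_mem (hBV c b) hz₀) (hBV c _)
  obtain ⟨b', hb'⟩ := hKR (x * algebraMap B F s * algebraMap B F T)
    ⟨b * T, by rw [map_mul, ← hbs]; ring⟩ hz
  refine ⟨b', s * T, fun h => ?_, ?_⟩
  · rcases h𝔫.mem_or_mem h with h' | h'
    · exact hs h'
    · exact hT𝔫 h'
  · rw [← hb', map_mul]; ring

/-- **LOCAL (KR), product form** (hypothesis `hKR` of `s36n2p_dict_of_KR`). -/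
theorem s36n2p_KRloc_prod (V : κ → ValuationSubring F)
    (hBV : ∀ c (b : B), algebraMap B F b ∈ V c) (ϖ : B)
    (hKR : ∀ x : F, (∃ b : B, algebraMap B F ϖ * x = algebraMap B F b) → (∀ c, x ∈ V c) →
      ∃ b : B, x = algebraMap B F b)
    (Q : ℕ) (hram : ∀ c (x : F), x ∈ (V c).nonunits → ∃ z ∈ V c, x ^ Q = algebraMap B F ϖ * z)
    (hϖ0 : algebraMap B F ϖ ≠ 0)
    (S : Finset κ)
    (hS : ∀ c, (∀ b : B, algebraMap B F b ∈ (V c).nonunits → b ∈ 𝔫) → c ∈ S)
    (hS' : ∀ c ∈ S, ∀ b : B, algebraMap B F b ∈ (V c).nonunits → b ∈ 𝔫)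
    (e : κ → ℕ) (he : ∀ c ∈ S, ∀ x : F, x ∈ (V c).nonunits →
      ∃ z ∈ V c, x ^ e c = algebraMap B F ϖ * z)
    (y : κ → ls_localSubring (F := F) 𝔫)
    (hy : ∀ c ∈ S, ((y c : ls_localSubring (F := F) 𝔫) : F) ∈ (V c).nonunits) :
    s36n2pToLoc (F := F) 𝔫 ϖ ∣ ∏ c ∈ S, y c ^ e c := by
  classical
  have hmem : (∏ c ∈ S, ((y c : ls_localSubring (F := F) 𝔫) : F) ^ e c) / algebraMap B F ϖ
      ∈ ls_localSubring (F := F) 𝔫 := by
    refine s36n2p_KRloc 𝔫 V hBV ϖ hKR Q hram _ ?_ ?_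
    · rw [mul_div_cancel₀ _ hϖ0]
      have : (∏ c ∈ S, ((y c : ls_localSubring (F := F) 𝔫) : F) ^ e c)
          = ((∏ c ∈ S, y c ^ e c : ls_localSubring (F := F) 𝔫) : F) := by
        push_cast; rfl
      rw [this]
      exact (∏ c ∈ S, y c ^ e c : ls_localSubring (F := F) 𝔫).2
    · intro c hc
      have hcS := hS c hc
      have hOV := stb_gc_le 𝔫 (V c) (hBV c) hc
      obtain ⟨z₀, hz₀, hz₀'⟩ := he c hcS _ (hy c hcS)
      rw [← Finset.mul_prod_erase S
        (fun c' => ((y c' : ls_localSubring (F := F) 𝔫) : F) ^ e c') hcS]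
      rw [hz₀']
      have e' : algebraMap B F ϖ * z₀ *
          (∏ c' ∈ S.erase c, ((y c' : ls_localSubring (F := F) 𝔫) : F) ^ e c') /
            algebraMap B F ϖ
          = z₀ * ∏ c' ∈ S.erase c, ((y c' : ls_localSubring (F := F) 𝔫) : F) ^ e c' := by
        field_simp
      rw [e']
      refine mul_mem hz₀ (prod_mem fun c' _ => pow_mem (hOV _ (y c').2) _)
  refine ⟨⟨_, hmem⟩, Subtype.ext ?_⟩
  show ((∏ c ∈ S, y c ^ e c : ls_localSubring (F := F) 𝔫) : F) = algebraMap B F ϖ * _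
  rw [mul_div_cancel₀ _ hϖ0]
  push_cast
  rfl

/-- **`𝔪(V c₁) ∩ B_𝔫 = X B_𝔫`**: `X ∈ B_𝔫` a uniformizer of `V c₁`, a unit at the other
components through `𝔫`, `X ∣ ϖ` in `B_𝔫`. -/
theorem s36n2p_dvd_of_unif (V : κ → ValuationSubring F)
    (hBV : ∀ c (b : B), algebraMap B F b ∈ V c) (ϖ : B)
    (hKR : ∀ x : F, (∃ b : B, algebraMap B F ϖ * x = algebraMap B F b) → (∀ c, x ∈ V c) →
      ∃ b : B, x = algebraMap B F b)
    (Q : ℕ) (hram : ∀ c (x : F), x ∈ (V c).nonunits → ∃ z ∈ V c, x ^ Q = algebraMap B F ϖ * z)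
    (c₁ : κ) (X Y : ls_localSubring (F := F) 𝔫) (hXY : X * Y = s36n2pToLoc (F := F) 𝔫 ϖ)
    (hX0 : X ≠ 0)
    (hU : ∀ x ∈ (V c₁).nonunits, ∃ z ∈ V c₁, x = (X : F) * z)
    (hXu : ∀ c, c ≠ c₁ → (∀ b : B, algebraMap B F b ∈ (V c).nonunits → b ∈ 𝔫) →
      (X : F)⁻¹ ∈ V c)
    (y : ls_localSubring (F := F) 𝔫) (hy : (y : F) ∈ (V c₁).nonunits) : X ∣ y := by
  have hXF : (X : F) ≠ 0 := fun h => hX0 (Subtype.ext h)
  have hXYF : (X : F) * (Y : F) = algebraMap B F ϖ := congrArg Subtype.val hXY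
  have hmem : (y : F) / (X : F) ∈ ls_localSubring (F := F) 𝔫 := by
    refine s36n2p_KRloc 𝔫 V hBV ϖ hKR Q hram _ ?_ ?_
    · have e : algebraMap B F ϖ * ((y : F) / (X : F)) = (Y : F) * (y : F) := by
        rw [← hXYF]; field_simp
      rw [e]
      exact (Y * y).2
    · intro c hc
      by_cases hcc : c = c₁
      · subst hcc
        obtain ⟨z, hz, hyz⟩ := hU _ hy
        rw [hyz, mul_div_cancel_left₀ _ hXF]
        exact hz
      · rw [div_eq_mul_inv]
        exact mul_mem (stb_gc_le 𝔫 (V c) (hBV c) hc _ y.2) (hXu c hcc hc)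
  exact ⟨⟨_, hmem⟩, Subtype.ext (by
    show (y : F) = (X : F) * ((y : F) / (X : F))
    field_simp)⟩

end KR

section Reg

variable {F : Type*} [Field F] {B : Type*} [CommRing B] [Algebra B F]
variable (hinj : Function.Injective (algebraMap B F)) (𝔫 : Ideal B) [h𝔫 : 𝔫.IsPrime]

include hinj in
/-- a generator of `𝔪(V) ∩ B_𝔫` is a prime element of `B_𝔫` -/
theorem s36n2p_prime (V : ValuationSubring F) (hBV : ∀ b : B, algebraMap B F b ∈ V)
    (hthr : ∀ b : B, algebraMap B F b ∈ V.nonunits → b ∈ 𝔫)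
    (X : ls_localSubring (F := F) 𝔫) (hX0 : X ≠ 0) (hX1 : (X : F) ∈ V.nonunits)
    (hX2 : ∀ y : ls_localSubring (F := F) 𝔫, (y : F) ∈ V.nonunits → X ∣ y) : Prime X := by
  haveI := ls_localSubring_isLocalRing (F := F) hinj 𝔫
  have hOV := stb_gc_le 𝔫 V hBV hthr
  refine ⟨hX0, fun hu => ?_, fun a b hab => ?_⟩
  · have h1 := stb_val_unit (ls_localSubring (F := F) 𝔫) V hOV hu
    rw [ValuationSubring.mem_nonunits_iff, h1] at hX1
    exact lt_irrefl _ hX1
  · obtain ⟨c, hc⟩ := hab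
    have h1 : ((a * b : ls_localSubring (F := F) 𝔫) : F) ∈ V.nonunits := by
      rw [hc]
      show (X : F) * (c : F) ∈ V.nonunits
      rw [mul_comm]
      exact pwi_mul_mem_nonunits V (hOV _ c.2) hX1
    have h2 : (a : F) ∈ V.nonunits ∨ (b : F) ∈ V.nonunits := by
      by_contra hcon
      rw [not_or] at hcon
      have ha := stb_gc_val_eq_one V (hOV _ a.2) hcon.1
      have hb := stb_gc_val_eq_one V (hOV _ b.2) hcon.2
      rw [ValuationSubring.mem_nonunits_iff] at h1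
      have : V.valuation (((a * b : ls_localSubring (F := F) 𝔫) : F)) = 1 := by
        show V.valuation ((a : F) * (b : F)) = 1
        rw [map_mul, ha, hb, one_mul]
      rw [this] at h1
      exact lt_irrefl _ h1
    rcases h2 with h | h
    · exact Or.inl (hX2 a h)
    · exact Or.inr (hX2 b h)

include hinj in
/-- **REG.**  If the branch `V` is regular at `𝔫` (`S36n2pGen`) and `𝔪(V) ∩ B_𝔫 = X B_𝔫` is
principal, then `B_𝔫` is a UFD. -/
theorem s36n2p_ufd [IsNoetherianRing B] (V : ValuationSubring F)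
    (hBV : ∀ b : B, algebraMap B F b ∈ V)
    (hthr : ∀ b : B, algebraMap B F b ∈ V.nonunits → b ∈ 𝔫)
    {Y₀ : B} (hY₀ : Y₀ ∈ 𝔫) (hgen : S36n2pGen 𝔫 V Y₀)
    (X : ls_localSubring (F := F) 𝔫) (hX0 : X ≠ 0) (hX1 : (X : F) ∈ V.nonunits)
    (hX2 : ∀ y : ls_localSubring (F := F) 𝔫, (y : F) ∈ V.nonunits → X ∣ y) :
    UniqueFactorizationMonoid (ls_localSubring (F := F) 𝔫) := by
  classical
  haveI := ls_localSubring_isLocalRing (F := F) hinj 𝔫
  haveI := s36n2p_isNoetherianRing (F := F) hinj 𝔫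
  have hOV := stb_gc_le 𝔫 V hBV hthr
  have hprime : Prime X := s36n2p_prime hinj 𝔫 V hBV hthr X hX0 hX1 hX2
  haveI hIp : (Ideal.span {X} : Ideal (ls_localSubring (F := F) 𝔫)).IsPrime :=
    (Ideal.span_singleton_prime hX0).2 hprime
  set I : Ideal (ls_localSubring (F := F) 𝔫) := Ideal.span {X} with hI
  let mk : ls_localSubring (F := F) 𝔫 →+* (ls_localSubring (F := F) 𝔫) ⧸ I := Ideal.Quotient.mk I
  have hmk : Function.Surjective mk := Ideal.Quotient.mk_surjective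
  haveI : Nontrivial ((ls_localSubring (F := F) 𝔫) ⧸ I) :=
    Ideal.Quotient.nontrivial_iff.mpr hIp.ne_top
  haveI : IsLocalRing ((ls_localSubring (F := F) 𝔫) ⧸ I) := IsLocalRing.of_surjective' mk hmk
  -- nonunits of the quotient come from nonunits
  have hnon : ∀ r : ls_localSubring (F := F) 𝔫, ¬ IsUnit (mk r) → ¬ IsUnit r :=
    fun r h hr => h (hr.map mk)
  have hnon' : ∀ r : ls_localSubring (F := F) 𝔫, ¬ IsUnit r → ¬ IsUnit (mk r) := by
    intro r hr hu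
    obtain ⟨r', hr'⟩ := hmk (↑hu.unit⁻¹ : (ls_localSubring (F := F) 𝔫) ⧸ I)
    have h1 : mk (r * r' - 1) = 0 := by
      rw [map_sub, map_mul, hr', map_one, IsUnit.mul_val_inv, sub_self]
    have h2 : r * r' - 1 ∈ I := Ideal.Quotient.eq_zero_iff_mem.mp h1
    obtain ⟨d, hd⟩ := Ideal.mem_span_singleton.mp h2
    have h3 : r * r' - X * d = 1 := by rw [← hd]; ring
    have hXm : X ∈ IsLocalRing.maximalIdeal (ls_localSubring (F := F) 𝔫) :=
      (IsLocalRing.mem_maximalIdeal X).2 hprime.not_isUnit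
    have hrm : r ∈ IsLocalRing.maximalIdeal (ls_localSubring (F := F) 𝔫) :=
      (IsLocalRing.mem_maximalIdeal r).2 hr
    have h4 : (1 : ls_localSubring (F := F) 𝔫) ∈
        IsLocalRing.maximalIdeal (ls_localSubring (F := F) 𝔫) := by
      rw [← h3]
      exact Ideal.sub_mem _ (Ideal.mul_mem_right _ _ hrm) (Ideal.mul_mem_right _ _ hXm)
    exact (IsLocalRing.mem_maximalIdeal _).1 h4 isUnit_one
  have hprinc : (IsLocalRing.maximalIdeal ((ls_localSubring (F := F) 𝔫) ⧸ I)).IsPrincipal := by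
    refine ⟨⟨mk (s36n2pToLoc (F := F) 𝔫 Y₀), ?_⟩⟩
    apply le_antisymm
    · intro rb hrb
      obtain ⟨r, rfl⟩ := hmk rb
      have hr : r ∈ IsLocalRing.maximalIdeal (ls_localSubring (F := F) 𝔫) :=
        (IsLocalRing.mem_maximalIdeal r).2 (hnon r ((IsLocalRing.mem_maximalIdeal _).1 hrb))
      obtain ⟨b, s, hb, hs, hbs⟩ := stb_gc_exists_of_mem_maximalIdeal hinj 𝔫 r hr
      obtain ⟨u, hu, c, hc⟩ := hgen b hb
      have hus : u * s ∉ 𝔫 := fun h' => by
        rcases h𝔫.mem_or_mem h' with h'' | h''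
        · exact hu h''
        · exact hs h''
      have hunit : IsUnit (s36n2pToLoc (F := F) 𝔫 (u * s)) :=
        ls_isUnit_of_not_mem hinj 𝔫 _ (b := u * s) (s := 1) hus
          (fun h => h𝔫.ne_top ((Ideal.eq_top_iff_one 𝔫).mpr h)) (by rw [map_one, one_mul]; rfl)
      obtain ⟨d, hd⟩ := hX2 (s36n2pToLoc (F := F) 𝔫 (u * b - c * Y₀)) hc
      have e1 : s36n2pToLoc (F := F) 𝔫 (u * s) * r
          = s36n2pToLoc (F := F) 𝔫 c * s36n2pToLoc (F := F) 𝔫 Y₀ + X * d := by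
        rw [← hd]
        apply Subtype.ext
        show algebraMap B F (u * s) * (r : F)
          = algebraMap B F c * algebraMap B F Y₀ + algebraMap B F (u * b - c * Y₀)
        rw [map_mul, mul_assoc, hbs, map_sub, map_mul, map_mul]
        ring
      have e2 : mk (s36n2pToLoc (F := F) 𝔫 (u * s)) * mk r
          = mk (s36n2pToLoc (F := F) 𝔫 c) * mk (s36n2pToLoc (F := F) 𝔫 Y₀) := by
        rw [← map_mul, e1, map_add, map_mul, map_mul]
        have : mk X = 0 := Ideal.Quotient.eq_zero_iff_mem.mpr (Ideal.mem_span_singleton_self X)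
        rw [this, zero_mul, add_zero]
      obtain ⟨v, hv⟩ := hunit.map mk
      rw [Submodule.mem_span_singleton]
      refine ⟨((v⁻¹ : (((ls_localSubring (F := F) 𝔫) ⧸ I))ˣ) : (ls_localSubring (F := F) 𝔫) ⧸ I)
        * mk (s36n2pToLoc (F := F) 𝔫 c), ?_⟩
      rw [smul_eq_mul, mul_assoc, ← e2, ← hv, ← mul_assoc, Units.inv_mul, one_mul]
    · rw [Submodule.span_le, Set.singleton_subset_iff]
      refine (IsLocalRing.mem_maximalIdeal _).2 (hnon' _ ?_)
      have := stb_gc_mem_maximalIdeal hinj 𝔫 (s36n2pToLoc (F := F) 𝔫 Y₀) (b := Y₀) (s := 1) hY₀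
        (fun h => h𝔫.ne_top ((Ideal.eq_top_iff_one 𝔫).mpr h)) (by rw [map_one, one_mul]; rfl)
      exact (IsLocalRing.mem_maximalIdeal _).1 this
  haveI : IsPrincipalIdealRing ((ls_localSubring (F := F) 𝔫) ⧸ I) :=
    ((tfae_of_isNoetherianRing_of_isLocalRing_of_isDomain
      ((ls_localSubring (F := F) 𝔫) ⧸ I)).out 4 0).1 hprinc
  exact s36reg_ufd_local hprime

end Reg

section Fac

variable {E F : Type*} [Field E] [Field F] [Algebra E F] {B : Type*} [CommRing B] [Algebra B F]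
variable (hinj : Function.Injective (algebraMap B F)) (𝔫 : Ideal B) [h𝔫 : 𝔫.IsPrime]
variable {κ : Type*} [Finite κ]

include hinj in
/-- **The dictionary at a closed point with UFD local ring**, from the globals (KR), (RAM). -/
theorem s36n2p_dict [UniqueFactorizationMonoid (ls_localSubring (F := F) 𝔫)]
    (V : κ → ValuationSubring F) (hBV : ∀ c (b : B), algebraMap B F b ∈ V c) (ϖ : B)
    (hKR : ∀ x : F, (∃ b : B, algebraMap B F ϖ * x = algebraMap B F b) → (∀ c, x ∈ V c) →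
      ∃ b : B, x = algebraMap B F b)
    (Q : ℕ) (hram : ∀ c (x : F), x ∈ (V c).nonunits → ∃ z ∈ V c, x ^ Q = algebraMap B F ϖ * z)
    (hϖ0 : algebraMap B F ϖ ≠ 0) (hϖV : ∀ c, algebraMap B F ϖ ∈ (V c).nonunits)
    (hE : ∀ e : E, ∃ (n : ℕ) (a : B),
      algebraMap E F e * algebraMap B F ϖ ^ n = algebraMap B F a)
    (hfrac : ∀ x : F, ∃ a b : B, b ≠ 0 ∧ x * algebraMap B F b = algebraMap B F a) :
    S36n2pDict E (ls_localSubring (F := F) 𝔫)
      (fun c => ∀ b : B, algebraMap B F b ∈ (V c).nonunits → b ∈ 𝔫) V := by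
  classical
  letI : Fintype κ := Fintype.ofFinite κ
  haveI : IsFractionRing (ls_localSubring (F := F) 𝔫) F :=
    s36n2p_isFractionRing (ls_localSubring (F := F) 𝔫) (fun x => by
      obtain ⟨a, b, hb, h⟩ := hfrac x
      exact ⟨s36n2pToLoc (F := F) 𝔫 a, s36n2pToLoc (F := F) 𝔫 b,
        fun h0 => hb (hinj (by rw [map_zero]; exact h0)), h⟩)
  refine s36n2p_dict_of_KR (E := E) (O := ls_localSubring (F := F) 𝔫) _ V
    (fun c hc x => stb_gc_le 𝔫 (V c) (hBV c) hc _ x.2)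
    (Finset.univ.filter fun c => ∀ b : B, algebraMap B F b ∈ (V c).nonunits → b ∈ 𝔫)
    (fun c hc => (Finset.mem_filter.mp hc).2) (fun _ => Q) (s36n2pToLoc (F := F) 𝔫 ϖ)
    (fun h => hϖ0 (congrArg Subtype.val h)) (fun c _ => hϖV c) ?_ ?_
  · intro y hy
    exact s36n2p_KRloc_prod 𝔫 V hBV ϖ hKR Q hram hϖ0 _
      (fun c hc => Finset.mem_filter.mpr ⟨Finset.mem_univ c, hc⟩)
      (fun c hc => (Finset.mem_filter.mp hc).2) (fun _ => Q)
      (fun c _ x hx => hram c x hx) y hy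
  · intro e
    obtain ⟨n, a, h⟩ := hE e
    exact ⟨n, s36n2pToLoc (F := F) 𝔫 a, h⟩

include hinj in
/-- **The field `fac` of `S36PtInput`** at a closed point with UFD local ring. -/
theorem s36n2p_fac [UniqueFactorizationMonoid (ls_localSubring (F := F) 𝔫)]
    (V : κ → ValuationSubring F) (hBV : ∀ c (b : B), algebraMap B F b ∈ V c) (ϖ : B)
    (hKR : ∀ x : F, (∃ b : B, algebraMap B F ϖ * x = algebraMap B F b) → (∀ c, x ∈ V c) →
      ∃ b : B, x = algebraMap B F b)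
    (Q : ℕ) (hram : ∀ c (x : F), x ∈ (V c).nonunits → ∃ z ∈ V c, x ^ Q = algebraMap B F ϖ * z)
    (hϖ0 : algebraMap B F ϖ ≠ 0) (hϖV : ∀ c, algebraMap B F ϖ ∈ (V c).nonunits)
    (hE : ∀ e : E, ∃ (n : ℕ) (a : B),
      algebraMap E F e * algebraMap B F ϖ ^ n = algebraMap B F a)
    (hfrac : ∀ x : F, ∃ a b : B, b ≠ 0 ∧ x * algebraMap B F b = algebraMap B F a)
    (m : ℕ) (y : F) (hy : y ≠ 0) (hhor : ∀ P : Place E F, (m : ℤ) ∣ P.ord y)
    (hunit : ∀ c, (∀ b : B, algebraMap B F b ∈ (V c).nonunits → b ∈ 𝔫) →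
      (V c).valuation y = 1) :
    StbFacAt (ls_localSubring (F := F) 𝔫) m y := by
  refine s36n2p_facAt (E := E) (ls_localSubring (F := F) 𝔫) ?_
    (fun c => ∀ b : B, algebraMap B F b ∈ (V c).nonunits → b ∈ 𝔫) V
    (fun c hc => stb_gc_le 𝔫 (V c) (hBV c) hc)
    (s36n2p_dict hinj 𝔫 V hBV ϖ hKR Q hram hϖ0 hϖV hE hfrac) m y hy hhor hunit
  intro x
  obtain ⟨a, b, hb, h⟩ := hfrac x
  exact ⟨s36n2pToLoc (F := F) 𝔫 a, s36n2pToLoc (F := F) 𝔫 b,
    fun h0 => hb (hinj (by rw [map_zero]; exact h0)), h⟩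

end Fac

end Fermat.Agent.S36
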