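import Fermat.Agent.S36.Rigid4

/-!
# S36 / GAP D, level 9: the Hauptmodul of `X₀(9)` (helper31)

`h = hm3 K` (Hauptmodul of `X₀(3)`), `k = h(Q³)`.  From the two landed identities
`hm3_j3 : j(Q³)·h = (h+27)(h+3)³` and (dilated) `hm3_j : j(Q³)·k³ = (k+27)(k+243)³`:

  `(h+27)(h+3)³ k³ = (k+27)(k+243)³ h`,   and this difference is `(hk − 729)·Φ₉(h,k)`,
  `Φ₉ = h³k² + 36h²k² + 729h²k + 270hk² + 26244hk + 531441h − k³`.

Since `hk` has order `−4`, `Φ₉(h,k) = 0`, and then
`t := (1458h + k(h²+18h+27)) / (k(h+9) − 243h + 729) ∈ F₉` satisfies `t³ = h (t² + 9t + 27)`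
(`N³ − hN²D − 9hND² − 27hD³ = Φ₉ · 243(h³+21h²+27h−81)`).  **No new Sturm identity.**

* `s36rig_t9 K`, `s36rig_t9_cube : t³ = h (t² + 9 t + 27)`,
* `s36rig_t9_mem : 9 ∣ N → (N : K) ≠ 0 → s36rig_t9 K ∈ modularFunctionFieldFullC K N`.
-/

set_option autoImplicit false

noncomputable section

namespace Fermat.Agent.S36

open ModularCurve Fermat.Agent.INJ HahnSeries

section Ring

variable (K : Type*) [CommRing K]

/-- `h₃(Q³)` -/
def s36rig_h3d : LaurentSeries K := qExpand K 3 (hm3 K)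

/-- `j(Q³)·h₃(Q³)³ = (h₃(Q³)+27)(h₃(Q³)+243)³` -/
theorem s36rig_h3d_j :
    jqNModC K 3 * s36rig_h3d K ^ 3 = (s36rig_h3d K + 27) * (s36rig_h3d K + 243) ^ 3 := by
  have h := congrArg (qExpand K 3) (hm3_j K)
  simpa only [map_mul, map_pow, map_add, map_ofNat, jqNModC, s36rig_h3d] using h

/-- `(h+27)(h+3)³ k³ = (k+27)(k+243)³ h` -/
theorem s36rig_rel9 :
    (hm3 K + 27) * (hm3 K + 3) ^ 3 * s36rig_h3d K ^ 3 =
      (s36rig_h3d K + 27) * (s36rig_h3d K + 243) ^ 3 * hm3 K := by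
  rw [← hm3_j3, ← s36rig_h3d_j]; ring

/-- the modular polynomial `Φ₉` of the pair `(h₃(Q), h₃(Q³))` -/
def s36rig_phi9 {A : Type*} [CommRing A] (h k : A) : A :=
  h ^ 3 * k ^ 2 + 36 * h ^ 2 * k ^ 2 + 729 * h ^ 2 * k + 270 * h * k ^ 2 + 26244 * h * k +
    531441 * h - k ^ 3

theorem s36rig_phi9_mul :
    (hm3 K * s36rig_h3d K - 729) * s36rig_phi9 (hm3 K) (s36rig_h3d K) = 0 := by
  unfold s36rig_phi9
  linear_combination s36rig_rel9 K

end Ring

section Field

variable (K : Type*) [Field K]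

/-- adding a constant to a series with a pole does not change the order -/
theorem s36rig_order_add_C {x : LaurentSeries K} (hx : x.order < 0) (c : K) :
    (x + HahnSeries.C c).order = x.order := by
  have hx0 : x ≠ 0 := by
    rintro rfl
    simp at hx
  have hC : ∀ m : ℤ, m < 0 → (HahnSeries.C c : LaurentSeries K).coeff m = 0 := by
    intro m hm
    rw [HahnSeries.C_apply, HahnSeries.coeff_single_of_ne hm.ne]
  have h1 : (x + HahnSeries.C c).coeff x.order ≠ 0 := by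
    rw [HahnSeries.coeff_add, hC _ hx, add_zero]
    exact HahnSeries.coeff_order_eq_zero.not.mpr hx0
  have hne : x + HahnSeries.C c ≠ 0 := by
    intro h0
    rw [h0] at h1
    simp at h1
  apply le_antisymm (HahnSeries.order_le_of_coeff_ne_zero h1)
  by_contra hlt
  rw [not_le] at hlt
  apply HahnSeries.coeff_order_eq_zero.not.mpr hne
  rw [HahnSeries.coeff_add, hC _ (hlt.trans hx), add_zero]
  exact HahnSeries.coeff_eq_zero_of_lt_order hlt

theorem s36rig_order_h3d : (s36rig_h3d K).order = -3 := by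
  rw [s36rig_h3d, Fermat.Agent.S28.order_qExpand, s36rig_order_hm3]; norm_num

theorem s36rig_h3d_ne_zero : s36rig_h3d K ≠ 0 := by
  intro h
  have := s36rig_order_h3d K
  rw [h, HahnSeries.order_zero] at this
  omega

theorem s36rig_hk9_ne : hm3 K * s36rig_h3d K - 729 ≠ 0 := by
  intro h
  have h1 : hm3 K * s36rig_h3d K = HahnSeries.C (729 : K) := by
    have := s36rig_natCast_eq_C K 729
    rw [← sub_eq_zero]
    rw [← h]
    push_cast at this
    rw [← this]
  refine s36rig_ne_C K ?_ _ h1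
  rw [HahnSeries.order_mul (hm3_ne_zero' K) (s36rig_h3d_ne_zero K), s36rig_order_hm3,
    s36rig_order_h3d]
  norm_num

/-- **the modular equation of level `9`** for the Hauptmodul of `X₀(3)` -/
theorem s36rig_phi9_eq_zero : s36rig_phi9 (hm3 K) (s36rig_h3d K) = 0 :=
  (mul_eq_zero.mp (s36rig_phi9_mul K)).resolve_left (s36rig_hk9_ne K)

/-- the denominator of `t₉` -/
def s36rig_den9 : LaurentSeries K :=
  s36rig_h3d K * (hm3 K + 9) - 243 * hm3 K + 729

/-- the numerator of `t₉` -/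
def s36rig_num9 : LaurentSeries K :=
  1458 * hm3 K + s36rig_h3d K * (hm3 K ^ 2 + 18 * hm3 K + 27)

theorem s36rig_den9_ne : s36rig_den9 K ≠ 0 := by
  intro h
  have e1 : (s36rig_h3d K + HahnSeries.C (-243 : K)) * (hm3 K + HahnSeries.C (9 : K)) =
      HahnSeries.C (-2916 : K) := by
    have h243 := s36rig_natCast_eq_C K 243
    have h9 := s36rig_natCast_eq_C K 9
    have h2916 := s36rig_natCast_eq_C K 2916
    push_cast at h243 h9 h2916
    rw [map_neg, map_neg, ← h243, ← h9, ← h2916]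
    unfold s36rig_den9 at h
    linear_combination h
  refine s36rig_ne_C K ?_ _ e1
  have o1 : (s36rig_h3d K + HahnSeries.C (-243 : K)).order = -3 := by
    rw [s36rig_order_add_C K (by rw [s36rig_order_h3d]; norm_num), s36rig_order_h3d]
  have o2 : (hm3 K + HahnSeries.C (9 : K)).order = -1 := by
    rw [s36rig_order_add_C K (by rw [s36rig_order_hm3]; norm_num), s36rig_order_hm3]
  have n1 : s36rig_h3d K + HahnSeries.C (-243 : K) ≠ 0 := by
    intro h0
    rw [h0, HahnSeries.order_zero] at o1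
    omega
  have n2 : hm3 K + HahnSeries.C (9 : K) ≠ 0 := by
    intro h0
    rw [h0, HahnSeries.order_zero] at o2
    omega
  rw [HahnSeries.order_mul n1 n2, o1, o2]
  norm_num

/-- **the Hauptmodul of `X₀(9)`** (`= η(z)³/η(9z)³`, `h₃ = t³/(t²+9t+27)`). -/
def s36rig_t9 : LaurentSeries K := s36rig_num9 K / s36rig_den9 K

/-- `t³ = h·(t² + 9t + 27)`: the Hauptmodul of `X₀(9)` is integral over `ℤ[h₃]`. -/
theorem s36rig_t9_cube :
    s36rig_t9 K ^ 3 = hm3 K * (s36rig_t9 K ^ 2 + 9 * s36rig_t9 K + 27) := by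
  have h0 := s36rig_den9_ne K
  have hΦ := s36rig_phi9_eq_zero K
  unfold s36rig_phi9 at hΦ
  have key : s36rig_num9 K ^ 3 = hm3 K * (s36rig_num9 K ^ 2 * s36rig_den9 K +
      9 * s36rig_num9 K * s36rig_den9 K ^ 2 + 27 * s36rig_den9 K ^ 3) := by
    unfold s36rig_num9 s36rig_den9
    linear_combination
      (243 * hm3 K ^ 3 + 5103 * hm3 K ^ 2 + 6561 * hm3 K - 19683) * hΦ
  unfold s36rig_t9
  field_simp
  linear_combination key

/-- `(h + 27)(t² + 9t + 27) = (t + 9)³` -/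
theorem s36rig_t9_rel :
    (hm3 K + 27) * (s36rig_t9 K ^ 2 + 9 * s36rig_t9 K + 27) = (s36rig_t9 K + 9) ^ 3 :=
  s36rig_t9_eq (s36rig_t9_cube K)

/-- `t ∈ F_N` for `9 ∣ N`. -/
theorem s36rig_t9_mem {N : ℕ} [NeZero N] (h9 : 9 ∣ N) (hN : (N : K) ≠ 0) :
    s36rig_t9 K ∈ modularFunctionFieldFullC K N := by
  have h3 : 3 ∣ N := (show 3 ∣ 9 by norm_num).trans h9
  have hh : hm3 K ∈ modularFunctionFieldFullC K N := hm3_mem_full K h3 hN
  have h3K : ((3 : ℕ) : K) ≠ 0 := natCast_ne_zero_of_dvd K h3 hN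
  have hh3 : hm3 K ∈ modularFunctionFieldFullC K 3 := by
    have : NeZero (3 : ℕ) := ⟨by norm_num⟩
    exact hm3_mem_full K (dvd_refl 3) h3K
  have hk : s36rig_h3d K ∈ modularFunctionFieldFullC K N := by
    have h1 : s36rig_h3d K ∈ modularFunctionFieldFullC K (3 * 3) :=
      full_degeneracyC_map_le K 3 3 ⟨hm3 K, hh3, rfl⟩
    exact full_degeneracyC_le K (show 3 * 3 ∣ N from h9) h1
  unfold s36rig_t9 s36rig_num9 s36rig_den9
  refine div_mem (add_mem (mul_mem (ofNat_mem _ _) hh)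
    (mul_mem hk (add_mem (add_mem (pow_mem hh 2) (mul_mem (ofNat_mem _ _) hh)) (ofNat_mem _ _))))
    (add_mem (sub_mem (mul_mem hk (add_mem hh (ofNat_mem _ _))) (mul_mem (ofNat_mem _ _) hh))
      (ofNat_mem _ _))

end Field

end Fermat.Agent.S36
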