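import Fermat.Agent.S34.ALMain
import Fermat.Agent.S28.ModUnit
import Fermat.Agent.S28.Transfer
import Fermat.Agent.ES.RC.UnitField
import Fermat.Agent.ES.DescentInj
import Fermat.Agent.ES.G2.HeckeDeg

/-!
# S36 / G-thin (T1), part 2: the Atkin–Lehner involution inverts the modular unit

`K` a field of characteristic `0` with `ι : K →+* ℂ`, `q ∤ M` a prime,
`F = modularFunctionFieldFullC K (M * q)`, `w = AL.atkinLehner K ι hq hqM`,
`u_q = Δ(Q^q)/Δ(Q) = S28.uS K q`.

* `s36tu_uS_mem : uS K q ∈ F`;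
* `s36tu_atkinLehner_uS : w(u_q) · u_q = q⁻¹²`.

Route (as `S15/OggFricke.lean`): write `u_q = P(j_e)/Q(j_e)`; the relation `u_q · Q(j_e) = P(j_e)`
between `q`-expansions is a relation between functions on `ℍ`; substitute `τ ↦ W τ`
(`AL.alW`, `Δ(γ z) = (c z + d)¹² Δ(z)`) and multiply.
-/

set_option autoImplicit false
set_option linter.unusedSectionVars false
set_option linter.style.haveILetI false

noncomputable section

namespace Fermat.Agent.S36

open UpperHalfPlane ModularCurve MvPolynomial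
open Fermat.Agent.S23 Fermat.Agent.S24 Fermat.Agent.S28 Fermat.Agent.AL

local notation "Δ" => ModularForm.discriminant

/-! ### Membership -/

section Mem

variable (K : Type*) [Field K] [CharZero K] (ι : K →+* ℂ)

include ι in
/-- `u_q = Δ(Q^q)/Δ(Q)` lies in `K(j, j(Q^q))`. -/
theorem s36tu_uS_mem_prime (q : ℕ) [NeZero q] : uS K q ∈ modularFunctionFieldFullC K q := by
  letI : Algebra K ℂ := ι.toAlgebra
  have h1 : uS ℂ q ∈ laurentBaseChange ℂ (modularFunctionFieldFull q) := by
    rw [Fermat.Agent.ES.G2.hdeg_laurentBaseChange_full]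
    exact Fermat.Agent.ES.RC.rc_uS_mem_full q
  have h2 : coeffMap (algebraMap K ℂ) (uS K q) = uS ℂ q := coeffMap_uS q (algebraMap K ℂ)
  rw [← h2] at h1
  have h3 := Fermat.Agent.ES.DescentInj.mem_laurentBaseChange_of_coeffMap_mem _ h1
  rwa [Fermat.Agent.ES.G2.hdeg_laurentBaseChange_full] at h3

include ι in
/-- `u_q = Δ(Q^q)/Δ(Q)` lies in `F_{Mq}`. -/
theorem s36tu_uS_mem (M q : ℕ) [NeZero q] [NeZero (M * q)] :
    uS K q ∈ modularFunctionFieldFullC K (M * q) :=
  full_degeneracyC_le K (Dvd.intro_left M rfl) (s36tu_uS_mem_prime K ι q)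

include ι in
/-- `u_q⁻¹ = Δ(Q)/Δ(Q^q)` lies in `F_{Mq}`. -/
theorem s36tu_uInvS_mem (M q : ℕ) [NeZero q] [NeZero (M * q)] :
    uInvS K q ∈ modularFunctionFieldFullC K (M * q) := by
  rw [uInvS_eq_inv]
  exact inv_mem (s36tu_uS_mem K ι M q)

end Mem

/-! ### The analytic substitution -/

section Analytic

variable (q M : ℕ) [NeZero q] [NeZero M] (a b : ℤ) (h : (q : ℤ) * a - (M : ℤ) * b = 1)

/-- The analytic modular unit `Δ(qτ)/Δ(τ)`, as an element of `merInf`. -/
def s36tuX : merInf :=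
  ⟨fun z => Δ (scaleN q z) / Δ z, (isModFun_unit q).isMerInf⟩

theorem s36tuX_apply (τ : ℍ) : (s36tuX q : ℍ → ℂ) τ = Δ (scaleN q τ) / Δ τ := rfl

theorem laurentExp_s36tuX : laurentExp (s36tuX q) = uS ℂ q :=
  laurentOf_unit_eq_uS q

/-- `Δ(q·Wτ)/Δ(Wτ) · Δ(qτ)/Δ(τ) = q⁻¹²`. -/
theorem s36tuX_alW (τ : ℍ) :
    (s36tuX q : ℍ → ℂ) τ * (s36tuX q : ℍ → ℂ) (alW q M a b h τ) = ((q : ℂ) ^ 12)⁻¹ := by
  rw [s36tuX_apply, s36tuX_apply, scaleN_alW, alW, P8_discriminant_smul, P8_discriminant_smul]
  have h1 : Δ τ ≠ 0 := ModularForm.discriminant_ne_zero τ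
  have h2 : Δ (scaleN q τ) ≠ 0 := ModularForm.discriminant_ne_zero _
  have hq0 : (q : ℂ) ≠ 0 := Nat.cast_ne_zero.mpr (NeZero.ne q)
  have hd := P8_denom_ne_zero (alGamma2 q M a b h) τ
  have e1 : ((alGamma2 q M a b h) 1 0 : ℤ) = (M : ℤ) := by simp [alGamma2]
  have e2 : ((alGamma2 q M a b h) 1 1 : ℤ) = 1 := by simp [alGamma2]
  have e3 : ((alGamma1 q M a b h) 1 0 : ℤ) = (M : ℤ) := by simp [alGamma1]
  have e4 : ((alGamma1 q M a b h) 1 1 : ℤ) = (q : ℤ) := by simp [alGamma1]
  rw [e1, e2] at hd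
  rw [e1, e2, e3, e4, coe_scaleN]
  push_cast at hd ⊢
  have e5 : (M : ℂ) * ((q : ℂ) * (τ : ℂ)) + (q : ℂ) = (q : ℂ) * ((M : ℂ) * (τ : ℂ) + 1) := by ring
  rw [e5, mul_pow]
  field_simp

end Analytic

/-! ### The relation between polynomials in the generators -/

section Rel

variable {q M : ℕ} [NeZero q] [NeZero M] (hq : q.Prime) (hqM : ¬ q ∣ M)

theorem s36tu_laurentExp_aeval (N : ℕ) (P : MvPolynomial ℕ ℂ) :
    laurentExp (aeval (alFunM N) P) = aeval (alGen ℂ N) P := by
  rw [comp_aeval_apply]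
  exact congrArg (fun f => aeval f P) (funext fun e => laurentExp_alFunM N e)

theorem s36tu_alEval_aeval (N : ℕ) (P : MvPolynomial ℕ ℂ) (τ : ℍ) :
    alEval τ (aeval (alFunM N) P) = aeval (fun e => alFun N e τ) P := by
  rw [comp_aeval_apply]
  rfl

include hq hqM in
/-- The analytic identity behind `s36tu_atkinLehner_uS`. -/
theorem s36tu_al_analytic (P Q : MvPolynomial ℕ ℂ)
    (h : uS ℂ q * aeval (alGen ℂ (M * q)) Q = aeval (alGen ℂ (M * q)) P) :
    aeval (alGen ℂ (M * q))
      (MvPolynomial.C (((q : ℂ) ^ 12)⁻¹) * (Q * rename (alSwap q (M * q)) Q) -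
        P * rename (alSwap q (M * q)) P) = 0 := by
  -- Bezout
  have hcop : IsCoprime (q : ℤ) (M : ℤ) :=
    Nat.isCoprime_iff_coprime.mpr ((Nat.Prime.coprime_iff_not_dvd hq).mpr hqM)
  obtain ⟨u, v, huv⟩ := hcop
  have hab : (q : ℤ) * u - (M : ℤ) * (-v) = 1 := by linear_combination huv
  -- the relation between functions
  have e1 : s36tuX q * aeval (alFunM (M * q)) Q = aeval (alFunM (M * q)) P := by
    apply laurentExp_injective
    rw [map_mul, laurentExp_s36tuX, s36tu_laurentExp_aeval, s36tu_laurentExp_aeval, h]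
  have e2 : ∀ τ : ℍ, (s36tuX q : ℍ → ℂ) τ * aeval (fun e => alFun (M * q) e τ) Q =
      aeval (fun e => alFun (M * q) e τ) P := by
    intro τ
    have := congrArg (alEval τ) e1
    rw [map_mul, s36tu_alEval_aeval, s36tu_alEval_aeval] at this
    exact this
  rw [← s36tu_laurentExp_aeval]
  have e3 : aeval (alFunM (M * q))
      (MvPolynomial.C (((q : ℂ) ^ 12)⁻¹) * (Q * rename (alSwap q (M * q)) Q) -
        P * rename (alSwap q (M * q)) P) = 0 := by
    apply Subtype.ext
    funext τ
    show alEval τ _ = 0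
    rw [s36tu_alEval_aeval]
    have hW : (fun e => alFun (M * q) e (alW q M u (-v) hab τ)) =
        (fun e => alFun (M * q) e τ) ∘ alSwap q (M * q) := by
      funext e
      exact alFun_alW hq hqM u (-v) hab e τ
    have a1 := e2 τ
    have a2 := e2 (alW q M u (-v) hab τ)
    rw [hW] at a2
    have a3 := s36tuX_alW q M u (-v) hab τ
    simp only [map_sub, map_mul, aeval_C, aeval_rename]
    rw [← a1, ← a2, Algebra.algebraMap_self, RingHom.id_apply, ← a3]
    ring
  rw [e3, map_zero]

end Rel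

/-! ### The relation in the function field -/

section Field

variable (K : Type*) [Field K] [CharZero K] (ι : K →+* ℂ) {q M : ℕ} [NeZero q] [NeZero M]
  [NeZero (M * q)] (hq : q.Prime) (hqM : ¬ q ∣ M)

/-- The generators `j(Q^e)` as elements of `F_{Mq}`. -/
def s36tuGen (e : ℕ) : modularFunctionFieldFullC K (M * q) :=
  ⟨alGen K (M * q) e, alGen_mem K e⟩

theorem s36tu_coe_aeval (P : MvPolynomial ℕ K) :
    ((aeval (s36tuGen K (q := q) (M := M)) P : modularFunctionFieldFullC K (M * q)) :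
      LaurentSeries K) = aeval (alGen K (M * q)) P :=
  comp_aeval_apply (s36tuGen K (q := q) (M := M))
    (IntermediateField.val (modularFunctionFieldFullC K (M * q))) P

theorem s36tu_atkinLehner_aeval (P : MvPolynomial ℕ K) :
    atkinLehner K ι hq hqM (aeval (s36tuGen K (q := q) (M := M)) P) =
      aeval (s36tuGen K (q := q) (M := M)) (rename (alSwap q (M * q)) P) := by
  rw [aeval_rename]
  have h := comp_aeval_apply (s36tuGen K (q := q) (M := M))
    ((atkinLehner K ι hq hqM : modularFunctionFieldFullC K (M * q) ≃ₐ[K]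
      modularFunctionFieldFullC K (M * q)) :
      modularFunctionFieldFullC K (M * q) →ₐ[K] modularFunctionFieldFullC K (M * q)) P
  refine h.trans ?_
  congr 2
  funext e
  exact Subtype.ext (atkinLehner_gen K ι hq hqM e)

/-- The modular unit `u_q = Δ(Q^q)/Δ(Q)` as an element of `F_{Mq}`. -/
def s36tuU0 : modularFunctionFieldFullC K (M * q) := ⟨uS K q, s36tu_uS_mem K ι M q⟩

theorem s36tuU0_coe :
    ((s36tuU0 K ι (q := q) (M := M) : modularFunctionFieldFullC K (M * q)) : LaurentSeries K) =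
      uS K q := rfl

theorem s36tuU0_ne_zero : s36tuU0 K ι (q := q) (M := M) ≠ 0 := by
  intro h
  have := congrArg (fun z : modularFunctionFieldFullC K (M * q) => (z : LaurentSeries K)) h
  exact uS_ne_zero q K this

/-- **The Atkin–Lehner involution inverts the modular unit**: `w_q(u_q) · u_q = q⁻¹²`. -/
theorem s36tu_atkinLehner_uS :
    atkinLehner K ι hq hqM (s36tuU0 K ι) * s36tuU0 K ι =
      algebraMap K (modularFunctionFieldFullC K (M * q)) (((q : K) ^ 12)⁻¹) := by
  -- write `u = r / s`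
  have hu' : uS K q ∈ IntermediateField.adjoin K (Set.range (alGen K (M * q))) := by
    rw [adjoin_range_alGen]; exact s36tu_uS_mem K ι M q
  obtain ⟨P, Q, hPQ⟩ := (IntermediateField.mem_adjoin_range_iff K _ _).1 hu'
  have hQ0 : aeval (alGen K (M * q)) Q ≠ 0 := by
    intro h
    rw [h, div_zero] at hPQ
    exact uS_ne_zero q K hPQ
  have h1 : uS K q * aeval (alGen K (M * q)) Q = aeval (alGen K (M * q)) P := by
    rw [hPQ, div_mul_cancel₀ _ hQ0]
  -- to `ℂ`
  have hgen : (fun e => coeffMap ι (alGen K (M * q) e)) = alGen ℂ (M * q) :=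
    funext fun e => coeffMap_alGen ι (M * q) e
  have h2 : uS ℂ q * aeval (alGen ℂ (M * q)) (MvPolynomial.map ι Q) =
      aeval (alGen ℂ (M * q)) (MvPolynomial.map ι P) := by
    have := congrArg (coeffMap ι) h1
    rw [map_mul, coeffMap_uS, al_coeffMap_aeval, al_coeffMap_aeval, hgen] at this
    exact this
  have h3 := s36tu_al_analytic hq hqM _ _ h2
  -- back to `K`
  have hR : MvPolynomial.map ι
      (MvPolynomial.C (((q : K) ^ 12)⁻¹) * (Q * rename (alSwap q (M * q)) Q) -
        P * rename (alSwap q (M * q)) P) =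
      MvPolynomial.C (((q : ℂ) ^ 12)⁻¹) * (MvPolynomial.map ι Q *
        rename (alSwap q (M * q)) (MvPolynomial.map ι Q)) -
          MvPolynomial.map ι P * rename (alSwap q (M * q)) (MvPolynomial.map ι P) := by
    simp only [map_sub, map_mul, MvPolynomial.map_C, MvPolynomial.map_rename, map_inv₀, map_pow,
      map_natCast]
  have h4 : aeval (alGen K (M * q))
      (MvPolynomial.C (((q : K) ^ 12)⁻¹) * (Q * rename (alSwap q (M * q)) Q) -
        P * rename (alSwap q (M * q)) P) = 0 := by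
    apply al_coeffMap_injective ι
    rw [al_coeffMap_aeval, hgen, hR, h3, map_zero]
  -- in `F`
  set g := s36tuGen K (q := q) (M := M) with hg
  set w := atkinLehner K ι hq hqM with hw
  set U := s36tuU0 K ι (q := q) (M := M) with hU
  have hxs : U * aeval g Q = aeval g P := by
    apply Subtype.ext
    have : ((U * aeval g Q : modularFunctionFieldFullC K (M * q)) : LaurentSeries K) =
        (U : LaurentSeries K) * ((aeval g Q : modularFunctionFieldFullC K (M * q)) :
          LaurentSeries K) := rfl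
    rw [this, s36tu_coe_aeval, s36tu_coe_aeval]
    exact h1
  have hs0 : aeval g Q ≠ 0 := by
    intro h
    apply hQ0
    rw [← s36tu_coe_aeval, ← hg, h]
    rfl
  have hws0 : w (aeval g Q) ≠ 0 := (map_ne_zero w).mpr hs0
  have h5 : algebraMap K (modularFunctionFieldFullC K (M * q)) (((q : K) ^ 12)⁻¹) *
      (aeval g Q * w (aeval g Q)) = aeval g P * w (aeval g P) := by
    rw [← s36tu_coe_aeval] at h4
    have h6 := Subtype.ext (a1 := aeval (s36tuGen K (q := q) (M := M))
      (MvPolynomial.C (((q : K) ^ 12)⁻¹) * (Q * rename (alSwap q (M * q)) Q) -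
        P * rename (alSwap q (M * q)) P)) (a2 := (0 : modularFunctionFieldFullC K (M * q))) h4
    rw [map_sub, map_mul, map_mul, map_mul, aeval_C, ← s36tu_atkinLehner_aeval K ι hq hqM,
      ← s36tu_atkinLehner_aeval K ι hq hqM, sub_eq_zero] at h6
    exact h6
  have h7 : w U * w (aeval g Q) = w (aeval g P) := by
    rw [← map_mul, hxs]
  apply mul_right_cancel₀ (mul_ne_zero hs0 hws0)
  calc w U * U * (aeval g Q * w (aeval g Q))
      = (U * aeval g Q) * (w U * w (aeval g Q)) := by ring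
    _ = aeval g P * w (aeval g P) := by rw [hxs, h7]
    _ = _ := h5.symm

end Field

end Fermat.Agent.S36
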