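import Fermat.Agent.S36.ThinUnitInt
import Fermat.Agent.S36.ThinUnitAL
import Fermat.Agent.UNIP.NodesSwapJ

/-!
# S36 / G-thin (T1) + (T2): the modular unit on the chart of level `M q`

Setting of `UNIP/NodesModular.lean`: `A` a domain with fraction field `E` (characteristic `0`),
`r : A →+* k`, `ker r = (π)`, `char k = q`, `q ∤ M` prime, `ιC : E →+* ℂ`,
`F = modularFunctionFieldFullC E (M * q)`, `w = AL.atkinLehner E ιC hq hqM`.

* `s36tuU E ιC : F` with `q`-expansion `q¹² Δ(Q^q)/Δ(Q)`, `s36tuV E ιC : F` with `q`-expansion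
  `Δ(Q)/Δ(Q^q)`; `s36tuU_mul_V : U V = q¹²`, `s36tu_w_U : w U = V`, `s36tu_w_V : w V = U`;
* `s36tu_isIntegral_U`, `s36tu_isIntegral_V` : `U`, `V` are integral over `A[j]`;
* `s36tu_U_mem_gauss`, `s36tu_V_mem_gauss`, `s36tu_gaussRed_U : Ū = 0`,
  `s36tu_gaussRed_V : V̄ = Δ̄ · (Δ̄⁻¹)^q` (`= Δ̄^{1-q} =: P`);
* `s36tu_mem_of_gauss` (Krull property from (SS1)): `x ∈ F` with `π^n x ∈ B`, `x` and `w x`
  Gauss-integral, lies in `B`;
* `s36tu_hu  : ρ f = 0 → U ∣ f ^ 12` and `s36tu_hu₀ : ρ₀ f = 0 → V ∣ f ^ 12` in `B`;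
* `s36tu_rho_U`, `s36tu_rho_V`, `s36tu_rho₀_U`, `s36tu_rho₀_V` : `ρ U = 0`, `ρ V = P`, `ρ₀ U = P`,
  `ρ₀ V = 0`;
* (T2) `s36tu_PH : P · ((θ j̄)^{q-1})⁶ = G(j̄)^{q-1}` for every `G` with `(θ j̄)⁶ = G(j̄) Δ̄`.
-/

set_option autoImplicit false
set_option linter.unusedSectionVars false
set_option linter.unusedVariables false
set_option linter.style.haveILetI false
set_option synthInstance.maxHeartbeats 400000
set_option maxHeartbeats 1000000

noncomputable section

namespace Fermat.Agent.S36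

open ModularCurve Polynomial IntermediateField
open Fermat.Agent.INJ Fermat.Agent.AL Fermat.Agent.S28 Fermat.Agent.UNIP

/-! ## The two units in the function field -/

section FF

variable (E : Type*) [Field E] [CharZero E] (ιC : E →+* ℂ)
  {q M : ℕ} [NeZero q] [NeZero M] [NeZero (M * q)] (hq : q.Prime) (hqM : ¬ q ∣ M)

/-- `U = q¹² Δ(Q^q)/Δ(Q)` in `F_{Mq}`. -/
def s36tuU : modularFunctionFieldFullC E (M * q) :=
  algebraMap E (modularFunctionFieldFullC E (M * q)) ((q : E) ^ 12) * s36tuU0 E ιC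

/-- `V = Δ(Q)/Δ(Q^q)` in `F_{Mq}`. -/
def s36tuV : modularFunctionFieldFullC E (M * q) := (s36tuU0 E ιC)⁻¹

theorem s36tuU_coe :
    ((s36tuU E ιC (q := q) (M := M) : modularFunctionFieldFullC E (M * q)) : LaurentSeries E) =
      HahnSeries.C ((q : E) ^ 12) * uS E q := by
  show algebraMap E (LaurentSeries E) ((q : E) ^ 12) * uS E q = _
  rw [algebraMap_eq_hahnC']

theorem s36tuV_coe :
    ((s36tuV E ιC (q := q) (M := M) : modularFunctionFieldFullC E (M * q)) : LaurentSeries E) =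
      uInvS E q := by
  show (uS E q)⁻¹ = _
  rw [uInvS_eq_inv]

theorem s36tu_q_ne_zero : ((q : E) ^ 12) ≠ 0 :=
  pow_ne_zero _ (Nat.cast_ne_zero.mpr (NeZero.ne q))

theorem s36tuU_mul_V :
    s36tuU E ιC (q := q) (M := M) * s36tuV E ιC =
      algebraMap E (modularFunctionFieldFullC E (M * q)) ((q : E) ^ 12) := by
  rw [s36tuU, s36tuV, mul_assoc, mul_inv_cancel₀ (s36tuU0_ne_zero E ιC), mul_one]

theorem s36tuU_ne_zero : s36tuU E ιC (q := q) (M := M) ≠ 0 := by
  rw [s36tuU]
  refine mul_ne_zero ?_ (s36tuU0_ne_zero E ιC)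
  rw [Ne, map_eq_zero_iff _ (algebraMap E (modularFunctionFieldFullC E (M * q))).injective]
  exact s36tu_q_ne_zero E

theorem s36tuV_ne_zero : s36tuV E ιC (q := q) (M := M) ≠ 0 :=
  inv_ne_zero (s36tuU0_ne_zero E ιC)

theorem s36tu_w_U0 :
    atkinLehner E ιC hq hqM (s36tuU0 E ιC) =
      algebraMap E (modularFunctionFieldFullC E (M * q)) (((q : E) ^ 12)⁻¹) *
        (s36tuU0 E ιC)⁻¹ := by
  rw [eq_mul_inv_iff_mul_eq₀ (s36tuU0_ne_zero E ιC)]
  exact s36tu_atkinLehner_uS E ιC hq hqM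

/-- `w_q U = V`. -/
theorem s36tu_w_U : atkinLehner E ιC hq hqM (s36tuU E ιC) = s36tuV E ιC := by
  rw [s36tuU, map_mul, AlgEquiv.commutes, s36tu_w_U0, ← mul_assoc, ← map_mul,
    mul_inv_cancel₀ (s36tu_q_ne_zero E), map_one, one_mul]
  rfl

/-- `w_q V = U`. -/
theorem s36tu_w_V : atkinLehner E ιC hq hqM (s36tuV E ιC) = s36tuU E ιC := by
  rw [← s36tu_w_U E ιC hq hqM, atkinLehner_invol]

end FF

/-! ## Integrality over `A[j]` -/

section Int

variable {A E : Type*} [CommRing A] [Field E] [CharZero E] [Algebra A E] (ιC : E →+* ℂ)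
  {q M : ℕ} [NeZero q] [NeZero M] [NeZero (M * q)] (hq : q.Prime)
  [Algebra A (modularFunctionFieldFullC E (M * q))]
  [IsScalarTower A E (modularFunctionFieldFullC E (M * q))]

/-- `W(U, J) = 0` in `F_{Mq}`. -/
theorem s36tu_eval_U :
    (s36tuW q hq).eval₂ (evalInt (nodesFrobJ E M q)) (s36tuU E ιC) = 0 := by
  apply (modularFunctionFieldFullC E (M * q)).val.toRingHom.injective
  rw [map_eval₂_evalInt, map_zero]
  have h := s36tuW_series q hq E
  rw [← s36tuU_coe E ιC (M := M)] at h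
  exact h

/-- `W(V, Jq) = 0` in `F_{Mq}`. -/
theorem s36tu_eval_V :
    (s36tuW q hq).eval₂ (evalInt (nodesFrobJq E M q)) (s36tuV E ιC) = 0 := by
  apply (modularFunctionFieldFullC E (M * q)).val.toRingHom.injective
  rw [map_eval₂_evalInt, map_zero]
  have h := s36tuW_series' q hq E
  rw [← s36tuV_coe E ιC (M := M)] at h
  exact h

include hq in
/-- `U` is integral over `A[j]`. -/
theorem s36tu_isIntegral_U :
    IsIntegral (Algebra.adjoin A {nodesFrobJ E M q}) (s36tuU E ιC (q := q) (M := M)) :=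
  nodesSwap_isIntegral_of_evalInt (A := A) (S := modularFunctionFieldFullC E (M * q))
    (s36tuW_monic q hq) (s36tu_eval_U ιC hq)

include hq in
/-- `V` is integral over `A[j]`. -/
theorem s36tu_isIntegral_V :
    IsIntegral (Algebra.adjoin A {nodesFrobJ E M q}) (s36tuV E ιC (q := q) (M := M)) :=
  cusp_isIntegral_adjoin_trans (A := A) (F := modularFunctionFieldFullC E (M * q))
    (u := nodesFrobJ E M q) (T := nodesFrobJq E M q)
    (nodesSwap_isIntegral_of_evalInt (A := A) (S := modularFunctionFieldFullC E (M * q))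
      (nodesSwapPhi_monic q hq) (nodesSwapPhi_eval q hq E M))
    (nodesSwap_isIntegral_of_evalInt (A := A) (S := modularFunctionFieldFullC E (M * q))
      (s36tuW_monic q hq) (s36tu_eval_V ιC hq))

end Int

/-! ## Gauss ring and reductions -/

section Gauss

variable {A E k : Type*} [CommRing A] [IsDomain A] [Field E] [CharZero E] [Algebra A E]
  [IsFractionRing A E] [Field k] (r : A →+* k) (ιC : E →+* ℂ)
  {q M : ℕ} [NeZero q] [NeZero M] [NeZero (M * q)]

theorem s36tu_uS_coe' : uS E q = coeffMap (algebraMap A E) (uS A q) :=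
  (coeffMap_uS q (algebraMap A E)).symm

theorem s36tu_uInvS_coe' : uInvS E q = coeffMap (algebraMap A E) (uInvS A q) :=
  (coeffMap_uInvS q (algebraMap A E)).symm

theorem s36tu_U_coe' :
    HahnSeries.C ((q : E) ^ 12) * uS E q =
      coeffMap (algebraMap A E) (HahnSeries.C ((q : A) ^ 12) * uS A q) := by
  have h : coeffMap (algebraMap A E) (HahnSeries.C ((q : A) ^ 12) * uS A q) =
      HahnSeries.C ((q : E) ^ 12) * uS E q := by
    rw [map_mul, Fermat.Agent.S28.coeffMap_hahnC, coeffMap_uS, map_pow, map_natCast]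
  exact h.symm

theorem s36tu_uS_mem_gauss : uS E q ∈ gaussRing (algebraMap A E) r := by
  rw [s36tu_uS_coe' (A := A)]
  exact coeffMap_mem_gaussRing _ r _

theorem s36tu_U_mem_gauss :
    ((s36tuU E ιC (q := q) (M := M) : modularFunctionFieldFullC E (M * q)) : LaurentSeries E) ∈
      gaussRing (algebraMap A E) r := by
  rw [s36tuU_coe, s36tu_U_coe' (A := A)]
  exact coeffMap_mem_gaussRing _ r _

theorem s36tu_V_mem_gauss :
    ((s36tuV E ιC (q := q) (M := M) : modularFunctionFieldFullC E (M * q)) : LaurentSeries E) ∈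
      gaussRing (algebraMap A E) r := by
  rw [s36tuV_coe, s36tu_uInvS_coe' (A := A)]
  exact coeffMap_mem_gaussRing _ r _

/-- The reduction of `U = q¹² u_q` vanishes. -/
theorem s36tu_gaussRed_U [CharP k q]
    (h : ((s36tuU E ιC (q := q) (M := M) : modularFunctionFieldFullC E (M * q)) :
      LaurentSeries E) ∈ gaussRing (algebraMap A E) r) :
    gaussRed r (IsFractionRing.injective A E) ⟨_, h⟩ = 0 := by
  have h1 : (⟨_, h⟩ : gaussRing (algebraMap A E) r) =
      ⟨coeffMap (algebraMap A E) (HahnSeries.C ((q : A) ^ 12) * uS A q),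
        coeffMap_mem_gaussRing _ r _⟩ :=
    Subtype.ext ((s36tuU_coe E ιC).trans (s36tu_U_coe' (A := A)))
  rw [h1, gaussRed_coeffMap, map_mul, Fermat.Agent.S28.coeffMap_hahnC, map_pow, map_natCast,
    CharP.cast_eq_zero k q, zero_pow (by norm_num), map_zero, zero_mul]

/-- The reduction of `V = Δ(Q)/Δ(Q^q)` is `P = Δ̄ · (Δ̄⁻¹)^q = Δ̄^{1-q}`. -/
theorem s36tu_gaussRed_V [hqf : Fact q.Prime] [CharP k q]
    (h : ((s36tuV E ιC (q := q) (M := M) : modularFunctionFieldFullC E (M * q)) :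
      LaurentSeries E) ∈ gaussRing (algebraMap A E) r) :
    gaussRed r (IsFractionRing.injective A E) ⟨_, h⟩ = deltaS k * deltaInvS k ^ q := by
  have h1 : (⟨_, h⟩ : gaussRing (algebraMap A E) r) =
      ⟨coeffMap (algebraMap A E) (uInvS A q), coeffMap_mem_gaussRing _ r _⟩ :=
    Subtype.ext ((s36tuV_coe E ιC).trans (s36tu_uInvS_coe' (A := A)))
  rw [h1, gaussRed_coeffMap, coeffMap_uInvS, uInvS_eq_mul_qExpand]
  congr 1
  exact nodesFrob_qExpand_int (k := k) q deltaInvZ

end Gauss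


/-! ## The chart -/

section Chart

variable {A E k : Type*} [CommRing A] [IsDomain A] [WfDvdMonoid A] [Field E] [CharZero E]
  [Algebra A E] [IsFractionRing A E] [Field k] (r : A →+* k) {π : A} (ιC : E →+* ℂ)
  {q M : ℕ} [NeZero q] [NeZero M] [NeZero (M * q)] (hq : q.Prime) (hqM : ¬ q ∣ M)
  [Algebra A (modularFunctionFieldFullC E (M * q))]
  [IsScalarTower A E (modularFunctionFieldFullC E (M * q))]
  (hπ0 : π ≠ 0) (hπ : ¬ IsUnit π) (hr : ∀ a, r a = 0 → π ∣ a) (hrπ : r π = 0)
  (w : modularFunctionFieldFullC E (M * q) →ₐ[E] modularFunctionFieldFullC E (M * q))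
  (T : modularFunctionFieldFullC E (M * q))
  (hT : (T : LaurentSeries E) ∈ gaussRing (algebraMap A E) r)
  (hwT : ((w T : modularFunctionFieldFullC E (M * q)) : LaurentSeries E) ∈
    gaussRing (algebraMap A E) r)

omit [WfDvdMonoid A] [CharZero E] in
theorem s36tu_coe_algebraMap (a : A) :
    ((algebraMap A (modularFunctionFieldFullC E (M * q)) a :
      modularFunctionFieldFullC E (M * q)) : LaurentSeries E) =
      HahnSeries.C (algebraMap A E a) :=
  nodesFrob_algebraMap_coe a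

omit [WfDvdMonoid A] [CharZero E] in
theorem s36tu_coe_algebraMapE (a : E) :
    ((algebraMap E (modularFunctionFieldFullC E (M * q)) a :
      modularFunctionFieldFullC E (M * q)) : LaurentSeries E) = HahnSeries.C a := by
  show algebraMap E (LaurentSeries E) a = _
  rw [algebraMap_eq_hahnC']

omit [WfDvdMonoid A] [CharZero E] in
theorem s36tu_algebraMap_ne_zero {a : A} (ha : a ≠ 0) :
    algebraMap A (modularFunctionFieldFullC E (M * q)) a ≠ 0 := by
  rw [IsScalarTower.algebraMap_apply A E (modularFunctionFieldFullC E (M * q)), Ne,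
    map_eq_zero_iff _ (algebraMap E (modularFunctionFieldFullC E (M * q))).injective,
    map_eq_zero_iff _ (IsFractionRing.injective A E)]
  exact ha

omit [WfDvdMonoid A] [CharZero E] in
theorem s36tu_w_algebraMap (a : A) :
    w (algebraMap A (modularFunctionFieldFullC E (M * q)) a) =
      algebraMap A (modularFunctionFieldFullC E (M * q)) a := by
  rw [IsScalarTower.algebraMap_apply A E (modularFunctionFieldFullC E (M * q)), AlgHom.commutes]

omit [CharZero E] in
/-- **Krull property of the chart, from (SS1)**: an element `x` of the function field with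
`π^n x ∈ B` such that `x` and `w x` are Gauss-integral lies in `B`. -/
theorem s36tu_mem_of_gauss
    (hSS1 : ∀ x : integralClosure (Algebra.adjoin A {T}) (modularFunctionFieldFullC E (M * q)),
      nodesFrobChartRed r hπ0 hπ hr hrπ (nodesFrob_full_le (M * q)) T hT x = 0 →
      nodesSwapRho₀ r hπ0 hπ hr hrπ (nodesFrob_full_le (M * q)) w T hwT x = 0 →
      algebraMap A (integralClosure (Algebra.adjoin A {T})
        (modularFunctionFieldFullC E (M * q))) π ∣ x)
    (n : ℕ) (x : modularFunctionFieldFullC E (M * q))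
    (hx : IsIntegral (Algebra.adjoin A {T})
      (algebraMap A (modularFunctionFieldFullC E (M * q)) (π ^ n) * x))
    (hxG : (x : LaurentSeries E) ∈ gaussRing (algebraMap A E) r)
    (hwxG : ((w x : modularFunctionFieldFullC E (M * q)) : LaurentSeries E) ∈
      gaussRing (algebraMap A E) r) :
    IsIntegral (Algebra.adjoin A {T}) x := by
  induction n with
  | zero => simpa using hx
  | succ n ih =>
    apply ih
    set y : integralClosure (Algebra.adjoin A {T}) (modularFunctionFieldFullC E (M * q)) :=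
      ⟨algebraMap A (modularFunctionFieldFullC E (M * q)) (π ^ (n + 1)) * x, hx⟩ with hy
    have hyG : (((y : modularFunctionFieldFullC E (M * q))) : LaurentSeries E) ∈
        gaussRing (algebraMap A E) r :=
      nodesFrob_G1_id r hπ0 hπ hr hrπ (nodesFrob_full_le (M * q)) T hT y.2
    have hwyG : ((w (y : modularFunctionFieldFullC E (M * q)) :
        modularFunctionFieldFullC E (M * q)) : LaurentSeries E) ∈ gaussRing (algebraMap A E) r :=
      nodesFrob_G1 r hπ0 hπ hr hrπ (nodesFrob_full_le (M * q)) w T hwT y.2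
    have hρ : nodesFrobChartRed r hπ0 hπ hr hrπ (nodesFrob_full_le (M * q)) T hT y = 0 := by
      rw [nodesFrobChartRed_apply r hπ0 hπ hr hrπ (nodesFrob_full_le (M * q)) T hT y hyG,
        gaussRed_eq_zero_iff_dvd r (IsFractionRing.injective A E) hrπ hr]
      refine ⟨⟨HahnSeries.C (algebraMap A E (π ^ n)) * (x : LaurentSeries E),
        Subring.mul_mem _ (hahnC_mem_gaussRing r _) hxG⟩, ?_⟩
      show ((algebraMap A (modularFunctionFieldFullC E (M * q)) (π ^ (n + 1)) :
          modularFunctionFieldFullC E (M * q)) : LaurentSeries E) * (x : LaurentSeries E) =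
        HahnSeries.C (algebraMap A E π) *
          (HahnSeries.C (algebraMap A E (π ^ n)) * (x : LaurentSeries E))
      rw [s36tu_coe_algebraMap, pow_succ', map_mul, map_mul, mul_assoc]
    have hρ₀ : nodesSwapRho₀ r hπ0 hπ hr hrπ (nodesFrob_full_le (M * q)) w T hwT y = 0 := by
      rw [nodesSwapRho₀_apply r hπ0 hπ hr hrπ (nodesFrob_full_le (M * q)) w T hwT y hwyG,
        gaussRed_eq_zero_iff_dvd r (IsFractionRing.injective A E) hrπ hr]
      refine ⟨⟨HahnSeries.C (algebraMap A E (π ^ n)) *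
        ((w x : modularFunctionFieldFullC E (M * q)) : LaurentSeries E),
        Subring.mul_mem _ (hahnC_mem_gaussRing r _) hwxG⟩, ?_⟩
      have e1 : w (y : modularFunctionFieldFullC E (M * q)) =
          algebraMap A (modularFunctionFieldFullC E (M * q)) (π ^ (n + 1)) * w x := by
        show w (algebraMap A (modularFunctionFieldFullC E (M * q)) (π ^ (n + 1)) * x) = _
        rw [map_mul, s36tu_w_algebraMap]
      show ((w (y : modularFunctionFieldFullC E (M * q)) :
          modularFunctionFieldFullC E (M * q)) : LaurentSeries E) =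
        HahnSeries.C (algebraMap A E π) *
          (HahnSeries.C (algebraMap A E (π ^ n)) *
            ((w x : modularFunctionFieldFullC E (M * q)) : LaurentSeries E))
      rw [e1]
      show ((algebraMap A (modularFunctionFieldFullC E (M * q)) (π ^ (n + 1)) :
          modularFunctionFieldFullC E (M * q)) : LaurentSeries E) *
            ((w x : modularFunctionFieldFullC E (M * q)) : LaurentSeries E) = _
      rw [s36tu_coe_algebraMap, pow_succ', map_mul, map_mul, mul_assoc]
    obtain ⟨y', hy'⟩ := hSS1 y hρ hρ₀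
    have h1 : algebraMap A (modularFunctionFieldFullC E (M * q)) (π ^ (n + 1)) * x =
        algebraMap A (modularFunctionFieldFullC E (M * q)) π *
          (y' : modularFunctionFieldFullC E (M * q)) :=
      congrArg (fun z : integralClosure (Algebra.adjoin A {T})
        (modularFunctionFieldFullC E (M * q)) => (z : modularFunctionFieldFullC E (M * q))) hy'
    have h2 : algebraMap A (modularFunctionFieldFullC E (M * q)) (π ^ n) * x =
        (y' : modularFunctionFieldFullC E (M * q)) := by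
      apply mul_left_cancel₀ (s36tu_algebraMap_ne_zero (E := E) (M := M) (q := q) hπ0)
      rw [← h1, ← mul_assoc, ← map_mul, ← pow_succ']
    rw [h2]
    exact y'.2

omit [WfDvdMonoid A] in
/-- Gauss-integrality of `q⁻¹² y¹² v` when `π ∣ y` and `q ∼ π`. -/
theorem s36tu_gauss_aux (hqπ : Associated (q : A) π) {y v : LaurentSeries E}
    (hy : ∃ g : gaussRing (algebraMap A E) r,
      y = HahnSeries.C (algebraMap A E π) * (g : LaurentSeries E))
    (hv : v ∈ gaussRing (algebraMap A E) r) :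
    HahnSeries.C (((q : E) ^ 12)⁻¹) * (y ^ 12 * v) ∈ gaussRing (algebraMap A E) r := by
  obtain ⟨g, hg⟩ := hy
  obtain ⟨c, hc⟩ := hqπ
  have hq0 : (q : E) ≠ 0 := Nat.cast_ne_zero.mpr (NeZero.ne q)
  have hπE : algebraMap A E π = (q : E) * algebraMap A E (c : A) := by
    rw [← hc, map_mul, map_natCast]
  have e : HahnSeries.C (((q : E) ^ 12)⁻¹) * (y ^ 12 * v) =
      HahnSeries.C (algebraMap A E ((c : A) ^ 12)) * ((g : LaurentSeries E) ^ 12 * v) := by
    have e1 : (HahnSeries.C (((q : E) ^ 12)⁻¹) : LaurentSeries E) *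
        HahnSeries.C (algebraMap A E π) ^ 12 = HahnSeries.C (algebraMap A E ((c : A) ^ 12)) := by
      rw [← map_pow, ← map_mul, hπE, map_pow]
      congr 1
      field_simp
    rw [hg, mul_pow, ← e1]
    ring
  rw [e]
  exact Subring.mul_mem _ (hahnC_mem_gaussRing r _)
    (Subring.mul_mem _ (Subring.pow_mem _ g.2 12) hv)

omit [WfDvdMonoid A] [CharZero E] in
theorem s36tu_isIntegral_algebraMap (a : A) :
    IsIntegral (Algebra.adjoin A {T}) (algebraMap A (modularFunctionFieldFullC E (M * q)) a) :=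
  isIntegral_algebraMap (R := Algebra.adjoin A {T})
    (x := (⟨algebraMap A (modularFunctionFieldFullC E (M * q)) a,
      Subalgebra.algebraMap_mem _ a⟩ : Algebra.adjoin A {T}))

omit [WfDvdMonoid A] [CharZero E] in
theorem s36tu_algebraMap_natCast_pow :
    algebraMap A (modularFunctionFieldFullC E (M * q)) ((q : A) ^ 12) =
      algebraMap E (modularFunctionFieldFullC E (M * q)) ((q : E) ^ 12) := by
  rw [IsScalarTower.algebraMap_apply A E (modularFunctionFieldFullC E (M * q)), map_pow,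
    map_natCast]

omit [WfDvdMonoid A] in
/-- `π¹² · (q⁻¹² z) = c¹² z` for `q c = π`. -/
theorem s36tu_pi_pow_mul {c : A} (hc : (q : A) * c = π)
    (z : modularFunctionFieldFullC E (M * q)) :
    algebraMap A (modularFunctionFieldFullC E (M * q)) (π ^ 12) *
      (algebraMap E (modularFunctionFieldFullC E (M * q)) (((q : E) ^ 12)⁻¹) * z) =
      algebraMap A (modularFunctionFieldFullC E (M * q)) (c ^ 12) * z := by
  have hq0 : ((q : E) ^ 12) ≠ 0 := s36tu_q_ne_zero E
  have h1 : algebraMap E (modularFunctionFieldFullC E (M * q)) ((q : E) ^ 12) *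
      algebraMap E (modularFunctionFieldFullC E (M * q)) (((q : E) ^ 12)⁻¹) = 1 := by
    rw [← map_mul, mul_inv_cancel₀ hq0, map_one]
  rw [← hc, mul_pow, map_mul, s36tu_algebraMap_natCast_pow]
  linear_combination (algebraMap A (modularFunctionFieldFullC E (M * q)) (c ^ 12) * z) * h1

/-- **(T1), `hu` at `∞`**: on the chart `B`, `ρ f = 0` implies `U ∣ f ^ 12`
(`U = q¹² Δ(Q^q)/Δ(Q)`). -/
theorem s36tu_hu
    (hw : ∀ x, w x = atkinLehner E ιC hq hqM x) (hqπ : Associated (q : A) π)
    (hSS1 : ∀ x : integralClosure (Algebra.adjoin A {T}) (modularFunctionFieldFullC E (M * q)),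
      nodesFrobChartRed r hπ0 hπ hr hrπ (nodesFrob_full_le (M * q)) T hT x = 0 →
      nodesSwapRho₀ r hπ0 hπ hr hrπ (nodesFrob_full_le (M * q)) w T hwT x = 0 →
      algebraMap A (integralClosure (Algebra.adjoin A {T})
        (modularFunctionFieldFullC E (M * q))) π ∣ x)
    (hU : IsIntegral (Algebra.adjoin A {T}) (s36tuU E ιC (q := q) (M := M)))
    (hV : IsIntegral (Algebra.adjoin A {T}) (s36tuV E ιC (q := q) (M := M)))
    (f : integralClosure (Algebra.adjoin A {T}) (modularFunctionFieldFullC E (M * q)))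
    (hf : nodesFrobChartRed r hπ0 hπ hr hrπ (nodesFrob_full_le (M * q)) T hT f = 0) :
    (⟨s36tuU E ιC, hU⟩ :
      integralClosure (Algebra.adjoin A {T}) (modularFunctionFieldFullC E (M * q))) ∣ f ^ 12 := by
  have hfG := nodesFrob_G1_id r hπ0 hπ hr hrπ (nodesFrob_full_le (M * q)) T hT f.2
  have hwfG := nodesFrob_G1 r hπ0 hπ hr hrπ (nodesFrob_full_le (M * q)) w T hwT f.2
  rw [nodesFrobChartRed_apply r hπ0 hπ hr hrπ (nodesFrob_full_le (M * q)) T hT f hfG,
    gaussRed_eq_zero_iff_dvd r (IsFractionRing.injective A E) hrπ hr] at hf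
  have hq0 : ((q : E) ^ 12) ≠ 0 := s36tu_q_ne_zero E
  have h1 : algebraMap E (modularFunctionFieldFullC E (M * q)) ((q : E) ^ 12) *
      algebraMap E (modularFunctionFieldFullC E (M * q)) (((q : E) ^ 12)⁻¹) = 1 := by
    rw [← map_mul, mul_inv_cancel₀ hq0, map_one]
  have h2 : s36tuU0 E ιC (q := q) (M := M) * (s36tuU0 E ιC (q := q) (M := M))⁻¹ = 1 :=
    mul_inv_cancel₀ (s36tuU0_ne_zero E ιC)
  set x : modularFunctionFieldFullC E (M * q) :=
    algebraMap E (modularFunctionFieldFullC E (M * q)) (((q : E) ^ 12)⁻¹) *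
      ((f : modularFunctionFieldFullC E (M * q)) ^ 12 * s36tuV E ιC) with hx
  -- `π¹² x ∈ B`
  have hxint : IsIntegral (Algebra.adjoin A {T})
      (algebraMap A (modularFunctionFieldFullC E (M * q)) (π ^ 12) * x) := by
    obtain ⟨c, hc⟩ := hqπ
    rw [hx, s36tu_pi_pow_mul hc]
    exact (s36tu_isIntegral_algebraMap T _).mul ((f.2.pow 12).mul hV)
  -- `x` is Gauss-integral
  have hxG : (x : LaurentSeries E) ∈ gaussRing (algebraMap A E) r := by
    have e : (x : LaurentSeries E) = HahnSeries.C (((q : E) ^ 12)⁻¹) *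
        (((f : modularFunctionFieldFullC E (M * q)) : LaurentSeries E) ^ 12 *
          ((s36tuV E ιC (q := q) (M := M) : modularFunctionFieldFullC E (M * q)) :
            LaurentSeries E)) := by
      rw [← s36tu_coe_algebraMapE (E := E) (M := M) (q := q)]
      rfl
    rw [e]
    exact s36tu_gauss_aux r hqπ hf (s36tu_V_mem_gauss r ιC)
  -- `w x` is Gauss-integral
  have hwxG : ((w x : modularFunctionFieldFullC E (M * q)) : LaurentSeries E) ∈
      gaussRing (algebraMap A E) r := by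
    have e2 : w x = w (f : modularFunctionFieldFullC E (M * q)) ^ 12 * s36tuU0 E ιC := by
      rw [hx, map_mul, map_mul, map_pow, AlgHom.commutes, hw (s36tuV E ιC), s36tu_w_V, s36tuU]
      linear_combination (w (f : modularFunctionFieldFullC E (M * q)) ^ 12 * s36tuU0 E ιC) * h1
    rw [e2]
    exact Subring.mul_mem _ (Subring.pow_mem _ hwfG 12) (s36tu_uS_mem_gauss r)
  have hxB := s36tu_mem_of_gauss r hπ0 hπ hr hrπ w T hT hwT hSS1 12 x hxint hxG hwxG
  refine ⟨⟨x, hxB⟩, Subtype.ext ?_⟩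
  show (f : modularFunctionFieldFullC E (M * q)) ^ 12 = s36tuU E ιC * x
  rw [hx, s36tuU, s36tuV]
  linear_combination (-((f : modularFunctionFieldFullC E (M * q)) ^ 12) *
    (s36tuU0 E ιC (q := q) (M := M) * (s36tuU0 E ιC (q := q) (M := M))⁻¹)) * h1 +
    (-((f : modularFunctionFieldFullC E (M * q)) ^ 12)) * h2

/-- **(T1), `hu` at `0`**: on the chart `B`, `ρ₀ f = 0` implies `V ∣ f ^ 12`
(`V = Δ(Q)/Δ(Q^q) = w_q U`). -/
theorem s36tu_hu₀
    (hw : ∀ x, w x = atkinLehner E ιC hq hqM x) (hqπ : Associated (q : A) π)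
    (hSS1 : ∀ x : integralClosure (Algebra.adjoin A {T}) (modularFunctionFieldFullC E (M * q)),
      nodesFrobChartRed r hπ0 hπ hr hrπ (nodesFrob_full_le (M * q)) T hT x = 0 →
      nodesSwapRho₀ r hπ0 hπ hr hrπ (nodesFrob_full_le (M * q)) w T hwT x = 0 →
      algebraMap A (integralClosure (Algebra.adjoin A {T})
        (modularFunctionFieldFullC E (M * q))) π ∣ x)
    (hU : IsIntegral (Algebra.adjoin A {T}) (s36tuU E ιC (q := q) (M := M)))
    (hV : IsIntegral (Algebra.adjoin A {T}) (s36tuV E ιC (q := q) (M := M)))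
    (f : integralClosure (Algebra.adjoin A {T}) (modularFunctionFieldFullC E (M * q)))
    (hf : nodesSwapRho₀ r hπ0 hπ hr hrπ (nodesFrob_full_le (M * q)) w T hwT f = 0) :
    (⟨s36tuV E ιC, hV⟩ :
      integralClosure (Algebra.adjoin A {T}) (modularFunctionFieldFullC E (M * q))) ∣ f ^ 12 := by
  have hfG := nodesFrob_G1_id r hπ0 hπ hr hrπ (nodesFrob_full_le (M * q)) T hT f.2
  have hwfG := nodesFrob_G1 r hπ0 hπ hr hrπ (nodesFrob_full_le (M * q)) w T hwT f.2
  rw [nodesSwapRho₀_apply r hπ0 hπ hr hrπ (nodesFrob_full_le (M * q)) w T hwT f hwfG,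
    gaussRed_eq_zero_iff_dvd r (IsFractionRing.injective A E) hrπ hr] at hf
  have hq0 : ((q : E) ^ 12) ≠ 0 := s36tu_q_ne_zero E
  have h1 : algebraMap E (modularFunctionFieldFullC E (M * q)) ((q : E) ^ 12) *
      algebraMap E (modularFunctionFieldFullC E (M * q)) (((q : E) ^ 12)⁻¹) = 1 := by
    rw [← map_mul, mul_inv_cancel₀ hq0, map_one]
  have h2 : s36tuU0 E ιC (q := q) (M := M) * (s36tuU0 E ιC (q := q) (M := M))⁻¹ = 1 :=
    mul_inv_cancel₀ (s36tuU0_ne_zero E ιC)
  set x : modularFunctionFieldFullC E (M * q) :=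
    algebraMap E (modularFunctionFieldFullC E (M * q)) (((q : E) ^ 12)⁻¹) *
      ((f : modularFunctionFieldFullC E (M * q)) ^ 12 * s36tuU E ιC) with hx
  have hxint : IsIntegral (Algebra.adjoin A {T})
      (algebraMap A (modularFunctionFieldFullC E (M * q)) (π ^ 12) * x) := by
    obtain ⟨c, hc⟩ := hqπ
    rw [hx, s36tu_pi_pow_mul hc]
    exact (s36tu_isIntegral_algebraMap T _).mul ((f.2.pow 12).mul hU)
  have hxG : (x : LaurentSeries E) ∈ gaussRing (algebraMap A E) r := by
    have e2 : x = (f : modularFunctionFieldFullC E (M * q)) ^ 12 * s36tuU0 E ιC := by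
      rw [hx, s36tuU]
      linear_combination ((f : modularFunctionFieldFullC E (M * q)) ^ 12 * s36tuU0 E ιC) * h1
    rw [e2]
    exact Subring.mul_mem _ (Subring.pow_mem _ hfG 12) (s36tu_uS_mem_gauss r)
  have hwxG : ((w x : modularFunctionFieldFullC E (M * q)) : LaurentSeries E) ∈
      gaussRing (algebraMap A E) r := by
    have e3 : w x = algebraMap E (modularFunctionFieldFullC E (M * q)) (((q : E) ^ 12)⁻¹) *
        (w (f : modularFunctionFieldFullC E (M * q)) ^ 12 * s36tuV E ιC) := by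
      rw [hx, map_mul, map_mul, map_pow, AlgHom.commutes, hw (s36tuU E ιC), s36tu_w_U]
    have e : ((w x : modularFunctionFieldFullC E (M * q)) : LaurentSeries E) =
        HahnSeries.C (((q : E) ^ 12)⁻¹) *
        (((w (f : modularFunctionFieldFullC E (M * q)) :
          modularFunctionFieldFullC E (M * q)) : LaurentSeries E) ^ 12 *
          ((s36tuV E ιC (q := q) (M := M) : modularFunctionFieldFullC E (M * q)) :
            LaurentSeries E)) := by
      rw [e3, ← s36tu_coe_algebraMapE (E := E) (M := M) (q := q)]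
      rfl
    rw [e]
    exact s36tu_gauss_aux r hqπ hf (s36tu_V_mem_gauss r ιC)
  have hxB := s36tu_mem_of_gauss r hπ0 hπ hr hrπ w T hT hwT hSS1 12 x hxint hxG hwxG
  refine ⟨⟨x, hxB⟩, Subtype.ext ?_⟩
  show (f : modularFunctionFieldFullC E (M * q)) ^ 12 = s36tuV E ιC * x
  rw [hx, s36tuU, s36tuV]
  linear_combination (-((f : modularFunctionFieldFullC E (M * q)) ^ 12) *
    (s36tuU0 E ιC (q := q) (M := M) * (s36tuU0 E ιC (q := q) (M := M))⁻¹)) * h1 +
    (-((f : modularFunctionFieldFullC E (M * q)) ^ 12)) * h2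

/-! ### The four reductions -/

omit [CharZero E] in
theorem s36tu_gaussRed_congr {x y : LaurentSeries E} (h : x = y)
    (hx : x ∈ gaussRing (algebraMap A E) r) (hy : y ∈ gaussRing (algebraMap A E) r) :
    gaussRed r (IsFractionRing.injective A E) ⟨x, hx⟩ =
      gaussRed r (IsFractionRing.injective A E) ⟨y, hy⟩ := by
  subst h
  rfl

/-- `ρ U = 0`. -/
theorem s36tu_rho_U [CharP k q]
    (hU : IsIntegral (Algebra.adjoin A {T}) (s36tuU E ιC (q := q) (M := M))) :
    nodesFrobChartRed r hπ0 hπ hr hrπ (nodesFrob_full_le (M * q)) T hT ⟨s36tuU E ιC, hU⟩ = 0 := by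
  exact (nodesFrobChartRed_apply r hπ0 hπ hr hrπ (nodesFrob_full_le (M * q)) T hT
    ⟨s36tuU E ιC, hU⟩ (s36tu_U_mem_gauss r ιC)).trans (s36tu_gaussRed_U r ιC _)

/-- `ρ V = P = Δ̄ (Δ̄⁻¹)^q`. -/
theorem s36tu_rho_V [Fact q.Prime] [CharP k q]
    (hV : IsIntegral (Algebra.adjoin A {T}) (s36tuV E ιC (q := q) (M := M))) :
    nodesFrobChartRed r hπ0 hπ hr hrπ (nodesFrob_full_le (M * q)) T hT ⟨s36tuV E ιC, hV⟩ =
      deltaS k * deltaInvS k ^ q := by
  exact (nodesFrobChartRed_apply r hπ0 hπ hr hrπ (nodesFrob_full_le (M * q)) T hT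
    ⟨s36tuV E ιC, hV⟩ (s36tu_V_mem_gauss r ιC)).trans (s36tu_gaussRed_V r ιC _)

/-- `ρ₀ U = P = Δ̄ (Δ̄⁻¹)^q`. -/
theorem s36tu_rho₀_U [Fact q.Prime] [CharP k q]
    (hw : ∀ x, w x = atkinLehner E ιC hq hqM x)
    (hU : IsIntegral (Algebra.adjoin A {T}) (s36tuU E ιC (q := q) (M := M))) :
    nodesSwapRho₀ r hπ0 hπ hr hrπ (nodesFrob_full_le (M * q)) w T hwT ⟨s36tuU E ιC, hU⟩ =
      deltaS k * deltaInvS k ^ q := by
  have e : w (s36tuU E ιC) = s36tuV E ιC := by rw [hw, s36tu_w_U]
  have hG : ((w (s36tuU E ιC (q := q) (M := M)) : modularFunctionFieldFullC E (M * q)) :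
      LaurentSeries E) ∈ gaussRing (algebraMap A E) r := by
    rw [e]; exact s36tu_V_mem_gauss r ιC
  exact ((nodesSwapRho₀_apply r hπ0 hπ hr hrπ (nodesFrob_full_le (M * q)) w T hwT
    ⟨s36tuU E ιC, hU⟩ hG).trans
    (s36tu_gaussRed_congr r (congrArg (fun z : modularFunctionFieldFullC E (M * q) =>
      (z : LaurentSeries E)) e) hG (s36tu_V_mem_gauss r ιC))).trans (s36tu_gaussRed_V r ιC _)

/-- `ρ₀ V = 0`. -/
theorem s36tu_rho₀_V [CharP k q]
    (hw : ∀ x, w x = atkinLehner E ιC hq hqM x)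
    (hV : IsIntegral (Algebra.adjoin A {T}) (s36tuV E ιC (q := q) (M := M))) :
    nodesSwapRho₀ r hπ0 hπ hr hrπ (nodesFrob_full_le (M * q)) w T hwT ⟨s36tuV E ιC, hV⟩ = 0 := by
  have e : w (s36tuV E ιC) = s36tuU E ιC := by rw [hw, s36tu_w_V]
  have hG : ((w (s36tuV E ιC (q := q) (M := M)) : modularFunctionFieldFullC E (M * q)) :
      LaurentSeries E) ∈ gaussRing (algebraMap A E) r := by
    rw [e]; exact s36tu_U_mem_gauss r ιC
  exact ((nodesSwapRho₀_apply r hπ0 hπ hr hrπ (nodesFrob_full_le (M * q)) w T hwT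
    ⟨s36tuV E ιC, hV⟩ hG).trans
    (s36tu_gaussRed_congr r (congrArg (fun z : modularFunctionFieldFullC E (M * q) =>
      (z : LaurentSeries E)) e) hG (s36tu_U_mem_gauss r ιC))).trans (s36tu_gaussRed_U r ιC _)

end Chart

/-! ## (T2): `P · H⁶ = G(j̄)^{q-1}` -/

section T2

variable (k : Type*) [Field k]

/-- **(T2)**: `P = Δ̄ (Δ̄⁻¹)^q`, `H = (θ j̄)^{q-1}`, `(θ j̄)⁶ = G(j̄) Δ̄`  ⟹  `P · H⁶ = G(j̄)^{q-1}`. -/
theorem s36tu_PH (q : ℕ) (hq : 1 ≤ q) (G : Polynomial k)
    (hG : Deriv.thetaFun (jqModC k) ^ 6 = Polynomial.aeval (jqModC k) G * deltaS k) :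
    deltaS k * deltaInvS k ^ q * (Deriv.thetaFun (jqModC k) ^ (q - 1)) ^ 6 =
      Polynomial.aeval (jqModC k) G ^ (q - 1) := by
  obtain ⟨n, rfl⟩ : ∃ n, q = n + 1 := ⟨q - 1, by omega⟩
  have h1 := deltaS_mul_deltaInvS k
  rw [Nat.add_sub_cancel, ← pow_mul, mul_comm n 6, pow_mul, hG, mul_pow]
  calc deltaS k * deltaInvS k ^ (n + 1) * (Polynomial.aeval (jqModC k) G ^ n * deltaS k ^ n)
      = Polynomial.aeval (jqModC k) G ^ n * (deltaS k * deltaInvS k) ^ (n + 1) := by ring
    _ = _ := by rw [h1, one_pow, mul_one]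

/-- (T2) with the polynomial `G` of `S28` (`cprime_field`). -/
theorem s36tu_exists_PH (q : ℕ) (hq : 1 ≤ q) :
    ∃ G : Polynomial k, G ≠ 0 ∧
      Deriv.thetaFun (jqModC k) ^ 6 = Polynomial.aeval (jqModC k) G * deltaS k ∧
      deltaS k * deltaInvS k ^ q * (Deriv.thetaFun (jqModC k) ^ (q - 1)) ^ 6 =
        Polynomial.aeval (jqModC k) G ^ (q - 1) := by
  obtain ⟨G, hG0, hG⟩ := CPrime.cprime_field k
  exact ⟨G, hG0, hG, s36tu_PH k q hq G hG⟩

end T2

end Fermat.Agent.S36
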