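import Fermat.Agent.S36.ThinChartId
import Fermat.Agent.S36.ThinUnit
import Fermat.Agent.S36.Rigid9
import Fermat.Agent.UNIP.NodesFrobU
import Fermat.Agent.UNIP.NodesInstAbs

/-!
# S36 / G-thin (T4c): the thin node on the UNIP chart of level `M q` (helper80)

Setting of `S36/ThinUnit.lean` (= `UNIP/NodesModular.lean`): `A` a domain with fraction field `E`
(characteristic `0`), `r : A →+* k`, `ker r = (π)`, `char k = q`, `F = F_{Mq}(E)`,
`w` the Atkin–Lehner involution, `T ∈ F` a chart coordinate (`T`, `w T` Gauss-integral),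
`B = integralClosure A[T] F`, `ρ = nodesFrobChartRed`, `ρ₀ = nodesSwapRho₀ … w`.

RIGID level: `4 ∣ M` if `q ≠ 2`, `9 ∣ M` if `q = 2`; `j` integral over `A[T]` (`T = j`).

* `s36tm_rho_algebraMap`, `s36tm_rho₀_algebraMap` : `ρ a = ρ₀ a = C (r a)` for `a ∈ A`;
* `s36tm_rho_J` : `ρ j = j̄`;
* `s36tm_exists_JHT_odd`, `s36tm_exists_JHT_two` : `J, H, T ∈ B` with `ρ₀ J = j̄` and the modular
  identities of the Hauptmoduln of `X₀(4)` resp. `X₀(9)` on the branch `ρ₀`;
* `s36tm_node` : **the thin node**: at a prime `𝔫 ⊇ ker ρ, ker ρ₀` with (SS3) coordinates `X, Y`: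
  `ker ρ` is generated by `X` at `𝔫`, `B_𝔫` is factorial, and `u π = X Y″` with `u ∉ 𝔫`,
  `ρ₀ Y″ = 0`, `ρ Y″ ≠ 0`.
-/

set_option autoImplicit false
set_option linter.unusedSectionVars false
set_option linter.unusedVariables false
set_option linter.style.haveILetI false
set_option synthInstance.maxHeartbeats 400000
set_option maxHeartbeats 1000000

noncomputable section

namespace Fermat.Agent.S36

open ModularCurve Polynomial IntermediateField
open Fermat.Agent.INJ Fermat.Agent.AL Fermat.Agent.S28 Fermat.Agent.UNIP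

section Chart

variable {A E k : Type*} [CommRing A] [IsDomain A] [WfDvdMonoid A] [Field E] [CharZero E]
  [Algebra A E] [IsFractionRing A E] [Field k] (r : A →+* k) {π : A} (ιC : E →+* ℂ)
  {q M : ℕ} [NeZero q] [NeZero M] [NeZero (M * q)] (hq : q.Prime) (hqM : ¬ q ∣ M)
  [Algebra A (modularFunctionFieldFullC E (M * q))]
  [IsScalarTower A E (modularFunctionFieldFullC E (M * q))]
  (hπ0 : π ≠ 0) (hπ : ¬ IsUnit π) (hr : ∀ a, r a = 0 → π ∣ a) (hrπ : r π = 0)
  (w : modularFunctionFieldFullC E (M * q) →ₐ[E] modularFunctionFieldFullC E (M * q))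
  (T : modularFunctionFieldFullC E (M * q))
  (hT : (T : LaurentSeries E) ∈ gaussRing (algebraMap A E) r)
  (hwT : ((w T : modularFunctionFieldFullC E (M * q)) : LaurentSeries E) ∈
    gaussRing (algebraMap A E) r)

/-- `ρ a = C (r a)` for a constant `a ∈ A`. -/
theorem s36tm_rho_algebraMap (a : A) :
    nodesFrobChartRed r hπ0 hπ hr hrπ (nodesFrob_full_le (M * q)) T hT
      (algebraMap A (integralClosure (Algebra.adjoin A {T})
        (modularFunctionFieldFullC E (M * q))) a) = HahnSeries.C (r a) := by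
  have hcoe : (((algebraMap A (integralClosure (Algebra.adjoin A {T})
      (modularFunctionFieldFullC E (M * q))) a :
      integralClosure (Algebra.adjoin A {T}) (modularFunctionFieldFullC E (M * q))) :
      modularFunctionFieldFullC E (M * q)) : LaurentSeries E) =
      HahnSeries.C (algebraMap A E a) := s36tu_coe_algebraMap a
  have hG : (((algebraMap A (integralClosure (Algebra.adjoin A {T})
      (modularFunctionFieldFullC E (M * q))) a :
      integralClosure (Algebra.adjoin A {T}) (modularFunctionFieldFullC E (M * q))) :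
      modularFunctionFieldFullC E (M * q)) : LaurentSeries E) ∈ gaussRing (algebraMap A E) r := by
    rw [hcoe]; exact hahnC_mem_gaussRing r a
  exact ((nodesFrobChartRed_apply r hπ0 hπ hr hrπ (nodesFrob_full_le (M * q)) T hT
    (algebraMap A (integralClosure (Algebra.adjoin A {T})
      (modularFunctionFieldFullC E (M * q))) a) hG).trans
    (s36tu_gaussRed_congr r hcoe hG (hahnC_mem_gaussRing r a))).trans
    (nodesFrob_gaussRed_C r a)

/-- `ρ₀ a = C (r a)` for a constant `a ∈ A`. -/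
theorem s36tm_rho₀_algebraMap (a : A) :
    nodesSwapRho₀ r hπ0 hπ hr hrπ (nodesFrob_full_le (M * q)) w T hwT
      (algebraMap A (integralClosure (Algebra.adjoin A {T})
        (modularFunctionFieldFullC E (M * q))) a) = HahnSeries.C (r a) := by
  have hcoe : ((w ((algebraMap A (integralClosure (Algebra.adjoin A {T})
      (modularFunctionFieldFullC E (M * q))) a :
      integralClosure (Algebra.adjoin A {T}) (modularFunctionFieldFullC E (M * q))) :
      modularFunctionFieldFullC E (M * q)) : modularFunctionFieldFullC E (M * q)) :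
      LaurentSeries E) = HahnSeries.C (algebraMap A E a) := by
    have h2 : ((algebraMap A (integralClosure (Algebra.adjoin A {T})
        (modularFunctionFieldFullC E (M * q))) a :
        integralClosure (Algebra.adjoin A {T}) (modularFunctionFieldFullC E (M * q))) :
        modularFunctionFieldFullC E (M * q)) =
        algebraMap A (modularFunctionFieldFullC E (M * q)) a := rfl
    rw [h2, s36tu_w_algebraMap]
    exact s36tu_coe_algebraMap a
  have hG : ((w ((algebraMap A (integralClosure (Algebra.adjoin A {T})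
      (modularFunctionFieldFullC E (M * q))) a :
      integralClosure (Algebra.adjoin A {T}) (modularFunctionFieldFullC E (M * q))) :
      modularFunctionFieldFullC E (M * q)) : modularFunctionFieldFullC E (M * q)) :
      LaurentSeries E) ∈ gaussRing (algebraMap A E) r := by
    rw [hcoe]; exact hahnC_mem_gaussRing r a
  exact ((nodesSwapRho₀_apply r hπ0 hπ hr hrπ (nodesFrob_full_le (M * q)) w T hwT
    (algebraMap A (integralClosure (Algebra.adjoin A {T})
      (modularFunctionFieldFullC E (M * q))) a) hG).trans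
    (s36tu_gaussRed_congr r hcoe hG (hahnC_mem_gaussRing r a))).trans
    (nodesFrob_gaussRed_C r a)

/-- `ρ j = j̄`. -/
theorem s36tm_rho_J (hJ : IsIntegral (Algebra.adjoin A {T}) (nodesFrobJ E M q)) :
    nodesFrobChartRed r hπ0 hπ hr hrπ (nodesFrob_full_le (M * q)) T hT
      ⟨nodesFrobJ E M q, hJ⟩ = jqModC k :=
  (nodesFrobChartRed_apply r hπ0 hπ hr hrπ (nodesFrob_full_le (M * q)) T hT
    ⟨nodesFrobJ E M q, hJ⟩ (nodesFrobU_j_mem r)).trans (nodesFrobU_gaussRed_j r _)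

omit [WfDvdMonoid A] [IsDomain A] [IsFractionRing A E] in
/-- `(M q : E) ≠ 0` -/
theorem s36tm_level_ne_zero : (((M * q : ℕ) : ℕ) : E) ≠ 0 :=
  Nat.cast_ne_zero.mpr (NeZero.ne (M * q))

/-- **`J, H, T` on the branch `ρ₀`, `q` odd** (`4 ∣ M`): elements of the chart with `ρ₀ J = j̄`
and the identities of the Hauptmoduln of `X₀(2)`, `X₀(4)`. -/
theorem s36tm_exists_JHT_odd (h4 : 4 ∣ M)
    (hJ : IsIntegral (Algebra.adjoin A {T}) (nodesFrobJ E M q))
    (swap : ∀ b : integralClosure (Algebra.adjoin A {T}) (modularFunctionFieldFullC E (M * q)),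
      ∃ b' : integralClosure (Algebra.adjoin A {T}) (modularFunctionFieldFullC E (M * q)),
      nodesFrobChartRed r hπ0 hπ hr hrπ (nodesFrob_full_le (M * q)) T hT b' =
        nodesSwapRho₀ r hπ0 hπ hr hrπ (nodesFrob_full_le (M * q)) w T hwT b ∧
      nodesSwapRho₀ r hπ0 hπ hr hrπ (nodesFrob_full_le (M * q)) w T hwT b' =
        nodesFrobChartRed r hπ0 hπ hr hrπ (nodesFrob_full_le (M * q)) T hT b) :
    ∃ J H T' : integralClosure (Algebra.adjoin A {T}) (modularFunctionFieldFullC E (M * q)),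
      nodesSwapRho₀ r hπ0 hπ hr hrπ (nodesFrob_full_le (M * q)) w T hwT J = jqModC k ∧
      nodesSwapRho₀ r hπ0 hπ hr hrπ (nodesFrob_full_le (M * q)) w T hwT J *
        nodesSwapRho₀ r hπ0 hπ hr hrπ (nodesFrob_full_le (M * q)) w T hwT H ^ 2 =
        (nodesSwapRho₀ r hπ0 hπ hr hrπ (nodesFrob_full_le (M * q)) w T hwT H + 256) ^ 3 ∧
      nodesSwapRho₀ r hπ0 hπ hr hrπ (nodesFrob_full_le (M * q)) w T hwT T' ^ 2 =
        nodesSwapRho₀ r hπ0 hπ hr hrπ (nodesFrob_full_le (M * q)) w T hwT H *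
          nodesSwapRho₀ r hπ0 hπ hr hrπ (nodesFrob_full_le (M * q)) w T hwT T' +
        16 * nodesSwapRho₀ r hπ0 hπ hr hrπ (nodesFrob_full_le (M * q)) w T hwT H := by
  have hMq : (((M * q : ℕ) : ℕ) : E) ≠ 0 := s36tm_level_ne_zero
  have h4' : 4 ∣ M * q := Dvd.dvd.mul_right h4 q
  have h2' : 2 ∣ M * q := (show 2 ∣ 4 by norm_num).trans h4'
  -- the elements of the function field
  set J₀ : modularFunctionFieldFullC E (M * q) := nodesFrobJ E M q with hJ₀
  set H₀ : modularFunctionFieldFullC E (M * q) := ⟨hm2 E, hm2_mem_full E h2' hMq⟩ with hH₀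
  set T₀ : modularFunctionFieldFullC E (M * q) := ⟨s36rig_t4 E, s36rig_t4_mem E h4' hMq⟩ with hT₀
  have hinj : Function.Injective
      (modularFunctionFieldFullC E (M * q)).val.toRingHom := Subtype.val_injective
  have e1 : J₀ * H₀ ^ 2 = (H₀ + 256) ^ 3 := by
    apply hinj
    simp only [map_mul, map_pow, map_add, map_ofNat]
    exact hm2_j E
  have e2 : T₀ ^ 2 = H₀ * T₀ + 16 * H₀ := by
    apply hinj
    simp only [map_mul, map_pow, map_add, map_ofNat]
    exact s36rig_t4_sq E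
  -- integrality
  have hHint : IsIntegral (Algebra.adjoin A {T}) H₀ :=
    cusp_isIntegral_adjoin_trans (A := A) (u := T) (T := J₀) hJ (s36rig_integral_h2 A e1)
  have hTint : IsIntegral (Algebra.adjoin A {T}) T₀ :=
    cusp_isIntegral_adjoin_trans (A := A) (u := T) (T := J₀) hJ (s36rig_integral_t4_j A e1 e2)
  -- the identities in the chart
  have f1 : (⟨J₀, hJ⟩ : integralClosure (Algebra.adjoin A {T})
      (modularFunctionFieldFullC E (M * q))) * ⟨H₀, hHint⟩ ^ 2 = (⟨H₀, hHint⟩ + 256) ^ 3 := by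
    apply Subtype.ext
    simp only [MulMemClass.coe_mul, SubmonoidClass.coe_pow, AddMemClass.coe_add]
    exact e1
  have f2 : (⟨T₀, hTint⟩ : integralClosure (Algebra.adjoin A {T})
      (modularFunctionFieldFullC E (M * q))) ^ 2 =
      ⟨H₀, hHint⟩ * ⟨T₀, hTint⟩ + 16 * ⟨H₀, hHint⟩ := by
    apply Subtype.ext
    simp only [MulMemClass.coe_mul, SubmonoidClass.coe_pow, AddMemClass.coe_add]
    exact e2
  obtain ⟨J, -, hJ2⟩ := swap ⟨J₀, hJ⟩
  obtain ⟨H, -, hH2⟩ := swap ⟨H₀, hHint⟩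
  obtain ⟨T', -, hT2⟩ := swap ⟨T₀, hTint⟩
  refine ⟨J, H, T', ?_, ?_, ?_⟩
  · rw [hJ2]
    exact s36tm_rho_J r hπ0 hπ hr hrπ T hT hJ
  · rw [hJ2, hH2]
    have := congrArg (nodesFrobChartRed r hπ0 hπ hr hrπ (nodesFrob_full_le (M * q)) T hT) f1
    simpa only [map_mul, map_pow, map_add, map_ofNat] using this
  · rw [hT2, hH2]
    have := congrArg (nodesFrobChartRed r hπ0 hπ hr hrπ (nodesFrob_full_le (M * q)) T hT) f2
    simpa only [map_mul, map_pow, map_add, map_ofNat] using this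

/-- **`J, H, T` on the branch `ρ₀`, `q = 2`** (`9 ∣ M`): elements of the chart with `ρ₀ J = j̄`
and the identities of the Hauptmoduln of `X₀(3)`, `X₀(9)`. -/
theorem s36tm_exists_JHT_two (h9 : 9 ∣ M)
    (hJ : IsIntegral (Algebra.adjoin A {T}) (nodesFrobJ E M q))
    (swap : ∀ b : integralClosure (Algebra.adjoin A {T}) (modularFunctionFieldFullC E (M * q)),
      ∃ b' : integralClosure (Algebra.adjoin A {T}) (modularFunctionFieldFullC E (M * q)),
      nodesFrobChartRed r hπ0 hπ hr hrπ (nodesFrob_full_le (M * q)) T hT b' =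
        nodesSwapRho₀ r hπ0 hπ hr hrπ (nodesFrob_full_le (M * q)) w T hwT b ∧
      nodesSwapRho₀ r hπ0 hπ hr hrπ (nodesFrob_full_le (M * q)) w T hwT b' =
        nodesFrobChartRed r hπ0 hπ hr hrπ (nodesFrob_full_le (M * q)) T hT b) :
    ∃ J H T' : integralClosure (Algebra.adjoin A {T}) (modularFunctionFieldFullC E (M * q)),
      nodesSwapRho₀ r hπ0 hπ hr hrπ (nodesFrob_full_le (M * q)) w T hwT J = jqModC k ∧
      nodesSwapRho₀ r hπ0 hπ hr hrπ (nodesFrob_full_le (M * q)) w T hwT J *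
        nodesSwapRho₀ r hπ0 hπ hr hrπ (nodesFrob_full_le (M * q)) w T hwT H ^ 3 =
        (nodesSwapRho₀ r hπ0 hπ hr hrπ (nodesFrob_full_le (M * q)) w T hwT H + 27) *
        (nodesSwapRho₀ r hπ0 hπ hr hrπ (nodesFrob_full_le (M * q)) w T hwT H + 243) ^ 3 ∧
      nodesSwapRho₀ r hπ0 hπ hr hrπ (nodesFrob_full_le (M * q)) w T hwT T' ^ 3 =
        nodesSwapRho₀ r hπ0 hπ hr hrπ (nodesFrob_full_le (M * q)) w T hwT H *
          (nodesSwapRho₀ r hπ0 hπ hr hrπ (nodesFrob_full_le (M * q)) w T hwT T' ^ 2 +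
            9 * nodesSwapRho₀ r hπ0 hπ hr hrπ (nodesFrob_full_le (M * q)) w T hwT T' + 27) := by
  have hMq : (((M * q : ℕ) : ℕ) : E) ≠ 0 := s36tm_level_ne_zero
  have h9' : 9 ∣ M * q := Dvd.dvd.mul_right h9 q
  have h3' : 3 ∣ M * q := (show 3 ∣ 9 by norm_num).trans h9'
  set J₀ : modularFunctionFieldFullC E (M * q) := nodesFrobJ E M q with hJ₀
  set H₀ : modularFunctionFieldFullC E (M * q) := ⟨hm3 E, hm3_mem_full E h3' hMq⟩ with hH₀
  set T₀ : modularFunctionFieldFullC E (M * q) := ⟨s36rig_t9 E, s36rig_t9_mem E h9' hMq⟩ with hT₀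
  have hinj : Function.Injective
      (modularFunctionFieldFullC E (M * q)).val.toRingHom := Subtype.val_injective
  have e1 : J₀ * H₀ ^ 3 = (H₀ + 27) * (H₀ + 243) ^ 3 := by
    apply hinj
    simp only [map_mul, map_pow, map_add, map_ofNat]
    exact hm3_j E
  have e2 : T₀ ^ 3 = H₀ * (T₀ ^ 2 + 9 * T₀ + 27) := by
    apply hinj
    simp only [map_mul, map_pow, map_add, map_ofNat]
    exact s36rig_t9_cube E
  have hHJ : IsIntegral (Algebra.adjoin A {J₀}) H₀ := s36rig_integral_h3 A e1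
  have hTJ : IsIntegral (Algebra.adjoin A {J₀}) T₀ :=
    cusp_isIntegral_adjoin_trans (A := A) (u := J₀) (T := H₀) hHJ (s36rig_integral_t9 A e2)
  have hHint : IsIntegral (Algebra.adjoin A {T}) H₀ :=
    cusp_isIntegral_adjoin_trans (A := A) (u := T) (T := J₀) hJ hHJ
  have hTint : IsIntegral (Algebra.adjoin A {T}) T₀ :=
    cusp_isIntegral_adjoin_trans (A := A) (u := T) (T := J₀) hJ hTJ
  have f1 : (⟨J₀, hJ⟩ : integralClosure (Algebra.adjoin A {T})
      (modularFunctionFieldFullC E (M * q))) * ⟨H₀, hHint⟩ ^ 3 =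
      (⟨H₀, hHint⟩ + 27) * (⟨H₀, hHint⟩ + 243) ^ 3 := by
    apply Subtype.ext
    simp only [MulMemClass.coe_mul, SubmonoidClass.coe_pow, AddMemClass.coe_add]
    exact e1
  have f2 : (⟨T₀, hTint⟩ : integralClosure (Algebra.adjoin A {T})
      (modularFunctionFieldFullC E (M * q))) ^ 3 =
      ⟨H₀, hHint⟩ * (⟨T₀, hTint⟩ ^ 2 + 9 * ⟨T₀, hTint⟩ + 27) := by
    apply Subtype.ext
    simp only [MulMemClass.coe_mul, SubmonoidClass.coe_pow, AddMemClass.coe_add]
    exact e2
  obtain ⟨J, -, hJ2⟩ := swap ⟨J₀, hJ⟩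
  obtain ⟨H, -, hH2⟩ := swap ⟨H₀, hHint⟩
  obtain ⟨T', -, hT2⟩ := swap ⟨T₀, hTint⟩
  refine ⟨J, H, T', ?_, ?_, ?_⟩
  · rw [hJ2]
    exact s36tm_rho_J r hπ0 hπ hr hrπ T hT hJ
  · rw [hJ2, hH2]
    have := congrArg (nodesFrobChartRed r hπ0 hπ hr hrπ (nodesFrob_full_le (M * q)) T hT) f1
    simpa only [map_mul, map_pow, map_add, map_ofNat] using this
  · rw [hT2, hH2]
    have := congrArg (nodesFrobChartRed r hπ0 hπ hr hrπ (nodesFrob_full_le (M * q)) T hT) f2
    simpa only [map_mul, map_pow, map_add, map_ofNat] using this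

/-- **The thin node on the UNIP chart** (rigid level: `4 ∣ M` if `q ≠ 2`, `9 ∣ M` if `q = 2`).
At a prime `𝔫` of the chart containing `ker ρ` and `ker ρ₀`, with (SS3) coordinates `X`, `Y`:
`ker ρ` is generated by `X` at `𝔫`, the local ring `B_𝔫` is factorial, and `u π = X Y″` with
`u ∉ 𝔫`, `ρ₀ Y″ = 0`, `ρ Y″ ≠ 0`. -/
theorem s36tm_node [hqf : Fact q.Prime] [CharP k q]
    [IsNoetherianRing (integralClosure (Algebra.adjoin A {T})
      (modularFunctionFieldFullC E (M * q)))]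
    (hw : ∀ x, w x = atkinLehner E ιC hq hqM x) (hqπ : Associated (q : A) π)
    (hrs : Function.Surjective r)
    (rigid : (q ≠ 2 → 4 ∣ M) ∧ (q = 2 → 9 ∣ M))
    (hJ : IsIntegral (Algebra.adjoin A {T}) (nodesFrobJ E M q))
    (hSS1 : ∀ x : integralClosure (Algebra.adjoin A {T}) (modularFunctionFieldFullC E (M * q)),
      nodesFrobChartRed r hπ0 hπ hr hrπ (nodesFrob_full_le (M * q)) T hT x = 0 →
      nodesSwapRho₀ r hπ0 hπ hr hrπ (nodesFrob_full_le (M * q)) w T hwT x = 0 →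
      algebraMap A (integralClosure (Algebra.adjoin A {T})
        (modularFunctionFieldFullC E (M * q))) π ∣ x)
    (swap : ∀ b : integralClosure (Algebra.adjoin A {T}) (modularFunctionFieldFullC E (M * q)),
      ∃ b' : integralClosure (Algebra.adjoin A {T}) (modularFunctionFieldFullC E (M * q)),
      nodesFrobChartRed r hπ0 hπ hr hrπ (nodesFrob_full_le (M * q)) T hT b' =
        nodesSwapRho₀ r hπ0 hπ hr hrπ (nodesFrob_full_le (M * q)) w T hwT b ∧
      nodesSwapRho₀ r hπ0 hπ hr hrπ (nodesFrob_full_le (M * q)) w T hwT b' =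
        nodesFrobChartRed r hπ0 hπ hr hrπ (nodesFrob_full_le (M * q)) T hT b)
    (𝔫 : Ideal (integralClosure (Algebra.adjoin A {T}) (modularFunctionFieldFullC E (M * q))))
    [h𝔫 : 𝔫.IsPrime]
    (h𝔭 : ∀ x, nodesFrobChartRed r hπ0 hπ hr hrπ (nodesFrob_full_le (M * q)) T hT x = 0 → x ∈ 𝔫)
    (h𝔮 : ∀ x, nodesSwapRho₀ r hπ0 hπ hr hrπ (nodesFrob_full_le (M * q)) w T hwT x = 0 → x ∈ 𝔫)
    {X Y : integralClosure (Algebra.adjoin A {T}) (modularFunctionFieldFullC E (M * q))}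
    (hX : nodesFrobChartRed r hπ0 hπ hr hrπ (nodesFrob_full_le (M * q)) T hT X = 0)
    (hY : nodesSwapRho₀ r hπ0 hπ hr hrπ (nodesFrob_full_le (M * q)) w T hwT Y = 0)
    (hsX : NodesSmoothAt (nodesSwapRho₀ r hπ0 hπ hr hrπ (nodesFrob_full_le (M * q)) w T hwT) 𝔫 X)
    (hsY : NodesSmoothAt (nodesFrobChartRed r hπ0 hπ hr hrπ (nodesFrob_full_le (M * q)) T hT) 𝔫 Y) :
    (∀ b, nodesFrobChartRed r hπ0 hπ hr hrπ (nodesFrob_full_le (M * q)) T hT b = 0 →
        ∃ u, u ∉ 𝔫 ∧ X ∣ u * b) ∧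
      UniqueFactorizationMonoid (Localization.AtPrime 𝔫) ∧
      ∃ Y'' u : integralClosure (Algebra.adjoin A {T}) (modularFunctionFieldFullC E (M * q)),
        u ∉ 𝔫 ∧
        u * algebraMap A (integralClosure (Algebra.adjoin A {T})
          (modularFunctionFieldFullC E (M * q))) π = X * Y'' ∧
        nodesSwapRho₀ r hπ0 hπ hr hrπ (nodesFrob_full_le (M * q)) w T hwT Y'' = 0 ∧
        nodesFrobChartRed r hπ0 hπ hr hrπ (nodesFrob_full_le (M * q)) T hT Y'' ≠ 0 := by
  haveI : IsIntegrallyClosed (integralClosure (Algebra.adjoin A {T})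
      (modularFunctionFieldFullC E (M * q))) := nodesInst_isIntegrallyClosed _ _
  -- the unit
  have hU : IsIntegral (Algebra.adjoin A {T}) (s36tuU E ιC (q := q) (M := M)) :=
    cusp_isIntegral_adjoin_trans (A := A) (u := T) (T := nodesFrobJ E M q) hJ
      (s36tu_isIntegral_U ιC hq)
  have hV : IsIntegral (Algebra.adjoin A {T}) (s36tuV E ιC (q := q) (M := M)) :=
    cusp_isIntegral_adjoin_trans (A := A) (u := T) (T := nodesFrobJ E M q) hJ
      (s36tu_isIntegral_V ιC hq)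
  have hρU := s36tu_rho_U r ιC hπ0 hπ hr hrπ T hT hU
  have hρ₀U := s36tu_rho₀_U r ιC hq hqM hπ0 hπ hr hrπ w T hwT hw hU
  have hu := s36tu_hu r ιC hq hqM hπ0 hπ hr hrπ w T hT hwT hw hqπ hSS1 hU hV
  -- constants
  have hρπ := s36tm_rho_algebraMap r hπ0 hπ hr hrπ T hT π
  have hρ₀π := s36tm_rho₀_algebraMap r hπ0 hπ hr hrπ w T hwT π
  rw [hrπ, map_zero] at hρπ hρ₀π
  have hk : ∀ c : k, ∃ b : integralClosure (Algebra.adjoin A {T})
      (modularFunctionFieldFullC E (M * q)),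
      nodesSwapRho₀ r hπ0 hπ hr hrπ (nodesFrob_full_le (M * q)) w T hwT b = HahnSeries.C c := by
    intro c
    obtain ⟨a, rfl⟩ := hrs c
    exact ⟨_, s36tm_rho₀_algebraMap r hπ0 hπ hr hrπ w T hwT a⟩
  have h𝔭' : RingHom.ker (nodesFrobChartRed r hπ0 hπ hr hrπ (nodesFrob_full_le (M * q)) T hT)
      ≤ 𝔫 := fun x hx => h𝔭 x (RingHom.mem_ker.1 hx)
  have h𝔮' : RingHom.ker (nodesSwapRho₀ r hπ0 hπ hr hrπ (nodesFrob_full_le (M * q)) w T hwT)
      ≤ 𝔫 := fun x hx => h𝔮 x (RingHom.mem_ker.1 hx)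
  -- the thin node
  have hnode : (∀ b, nodesFrobChartRed r hπ0 hπ hr hrπ (nodesFrob_full_le (M * q)) T hT b = 0 →
        ∃ u, u ∉ 𝔫 ∧ X ∣ u * b) ∧
      UniqueFactorizationMonoid (Localization.AtPrime 𝔫) := by
    by_cases h2 : q = 2
    · obtain ⟨J, H, T', hJ', hHJ, hTH⟩ := s36tm_exists_JHT_two r hπ0 hπ hr hrπ w T hT hwT
        (rigid.2 h2) hJ swap
      exact s36thin_node_two' q k h2 _ _ 𝔫 h𝔭' h𝔮' hρπ hρ₀π hX hY hsX hsY J H T'
        ⟨s36tuU E ιC, hU⟩ hJ' hHJ hTH hρ₀U hρU hu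
    · obtain ⟨J, H, T', hJ', hHJ, hTH⟩ := s36tm_exists_JHT_odd r hπ0 hπ hr hrπ w T hT hwT
        (rigid.1 h2) hJ swap
      exact s36thin_node_odd' q k h2 _ _ hk 𝔫 h𝔭' h𝔮' hρπ hρ₀π hX hY hsX hsY J H T'
        ⟨s36tuU E ιC, hU⟩ hJ' hHJ hTH hρ₀U hρU hu
  refine ⟨hnode.1, hnode.2, ?_⟩
  -- the splitting `u π = X Y″`
  have hU𝔫 : (⟨s36tuU E ιC, hU⟩ : integralClosure (Algebra.adjoin A {T})
      (modularFunctionFieldFullC E (M * q))) ∈ 𝔫 := h𝔭 _ hρU
  have hU₀ : nodesSwapRho₀ r hπ0 hπ hr hrπ (nodesFrob_full_le (M * q)) w T hwT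
      ⟨s36tuU E ιC, hU⟩ ≠ 0 := by
    rw [hρ₀U]; exact s36thin_P_ne_zero q k
  have hX₀ := s36thin_param_ne_zero _ 𝔫 h𝔮' hsX hU𝔫 hU₀
  have hπB : algebraMap A (integralClosure (Algebra.adjoin A {T})
      (modularFunctionFieldFullC E (M * q))) π ≠ 0 := by
    intro h0
    have h1 := congrArg (fun z : integralClosure (Algebra.adjoin A {T})
      (modularFunctionFieldFullC E (M * q)) => (z : modularFunctionFieldFullC E (M * q))) h0
    exact s36tu_algebraMap_ne_zero hπ0 h1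
  exact s36thin_node_split _ _ 𝔫 hπB hρπ hρ₀π (h𝔭 X hX) hX₀ hSS1 hnode.1

end Chart

end Fermat.Agent.S36
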