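/-
S36 (Carayol at `q² ∥ M`), geometric clause, piece G-AT2 (helper84): WEAK APPROXIMATION for a
finite family of pairwise incomparable archimedean valuation subrings (Artin–Whaples), as needed
for the three vertical valuations `V_a, V_c, V_b` of level `q²`.

* `aqw_sep`          : `V₁, V₂` incomparable ⇒ `y` large at `V₁`, small at `V₂`.
* `aqw_large_small`  : `z` large at `V c`, small at all `V c'`, `c' ∈ S`.
* `aqw_idem`         : `e ≡ 1` at `V c`, `e ≡ 0` at all `V c'`, `c' ≠ c`.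
* `aqw_weakApprox`   : for `T c ≠ 0` there is `H ≠ 0` with `H / T c ≡ 1` at `V c` for ALL `c`.
(the case of two valuations is `STB.stb_weakApprox_of_not_le` of helper28.)
-/
import Fermat.Agent.STB.WeakApprox

set_option autoImplicit false
set_option linter.unusedSectionVars false
set_option linter.unusedVariables false
set_option linter.style.haveILetI false

namespace Fermat.Agent.S36

open Fermat.Agent.STB

variable {F : Type*} [Field F] {κ : Type*}

/-- an element outside `V` has its inverse in `𝔪(V)` -/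
theorem aqw_inv_mem_of_not_mem (V : ValuationSubring F) {x : F} (hx : x ∉ V) :
    x⁻¹ ∈ V.nonunits := by
  have hv : 1 < V.valuation x := by
    by_contra hcon
    exact hx ((V.valuation_le_one_iff x).1 (not_lt.1 hcon))
  rw [stb_mem_nonunits_iff, map_inv₀]
  exact inv_lt_one_of_one_lt₀ hv

/-- an element of `𝔪(V)`, nonzero, has its inverse outside `V` -/
theorem aqw_inv_not_mem (V : ValuationSubring F) {x : F} (hx : x ∈ V.nonunits) (hx0 : x ≠ 0) :
    x⁻¹ ∉ V := by
  intro h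
  have h1 : x⁻¹ * x ∈ V.nonunits := stb_mul_mem_nonunits h hx
  rw [inv_mul_cancel₀ hx0, stb_mem_nonunits_iff, map_one] at h1
  exact lt_irrefl _ h1

/-- `1 + x` is a unit of `V` for `x ∈ 𝔪(V)`, and so is its inverse -/
theorem aqw_one_add_inv (V : ValuationSubring F) {x : F} (hx : x ∈ V.nonunits) :
    StbUnit V (1 + x)⁻¹ := by
  have h1 : StbUnit V (1 : F) := by simp [StbUnit]
  exact (h1.add_nonunit hx).inv

theorem aqw_one_add_inv_sub (V : ValuationSubring F) {x : F} (hx : x ∈ V.nonunits) :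
    (1 + x)⁻¹ - 1 ∈ V.nonunits := by
  have h1 : StbUnit V (1 : F) := by simp [StbUnit]
  have hu := h1.add_nonunit hx
  have e : (1 + x)⁻¹ - 1 = -((1 + x)⁻¹ * x) := by
    have := hu.ne_zero
    field_simp
    ring
  rw [e]
  exact stb_neg_mem_nonunits (hu.inv.mul_nonunit hx)

/-- **Separation** of two incomparable valuation subrings: `y` large at `V₁`, small at `V₂`. -/
theorem aqw_sep {V₁ V₂ : ValuationSubring F} (h12 : ¬ V₁ ≤ V₂) (h21 : ¬ V₂ ≤ V₁) :
    ∃ y : F, y ≠ 0 ∧ y⁻¹ ∈ V₁.nonunits ∧ y ∈ V₂.nonunits := by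
  obtain ⟨x, hx2, hx1⟩ := SetLike.not_le_iff_exists.1 h21
  obtain ⟨x', hx'1, hx'2⟩ := SetLike.not_le_iff_exists.1 h12
  have hx0 : x ≠ 0 := fun h => hx1 (h ▸ V₁.zero_mem)
  have hx'0 : x' ≠ 0 := fun h => hx'2 (h ▸ V₂.zero_mem)
  refine ⟨x * x'⁻¹, mul_ne_zero hx0 (inv_ne_zero hx'0), ?_, ?_⟩
  · have e : (x * x'⁻¹)⁻¹ = x' * x⁻¹ := by
      field_simp
    rw [e]
    exact stb_mul_mem_nonunits hx'1 (aqw_inv_mem_of_not_mem V₁ hx1)
  · exact stb_mul_mem_nonunits hx2 (aqw_inv_mem_of_not_mem V₂ hx'2)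

/-- a uniform bound over a finite set -/
theorem aqw_uniform (S : Finset κ) (P : κ → ℕ → Prop)
    (h : ∀ c ∈ S, ∃ N, ∀ n, N ≤ n → P c n) : ∃ N, ∀ c ∈ S, ∀ n, N ≤ n → P c n := by
  classical
  induction S using Finset.induction_on with
  | empty => exact ⟨0, fun c hc => absurd hc (Finset.notMem_empty c)⟩
  | insert a S ha ih =>
    obtain ⟨N₁, hN₁⟩ := ih fun c hc => h c (Finset.mem_insert_of_mem hc)
    obtain ⟨N₂, hN₂⟩ := h a (Finset.mem_insert_self a S)
    refine ⟨max N₁ N₂, fun c hc n hn => ?_⟩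
    rcases Finset.mem_insert.mp hc with rfl | hc'
    · exact hN₂ n (le_trans (le_max_right _ _) hn)
    · exact hN₁ c hc' n (le_trans (le_max_left _ _) hn)

/-- **Artin–Whaples, inductive step.**  `z` large at `V c` and small at every `V c'`, `c' ∈ S`. -/
theorem aqw_large_small (V : κ → ValuationSubring F)
    (hinc : ∀ c c', c ≠ c' → ¬ V c ≤ V c') (hA : ∀ c, StbArch (V c)) (c : κ)
    {z₀ : F} (hz₀0 : z₀ ≠ 0) (hz₀ : z₀⁻¹ ∈ (V c).nonunits) (S : Finset κ) (hS : c ∉ S) :
    ∃ z : F, z ≠ 0 ∧ z⁻¹ ∈ (V c).nonunits ∧ ∀ c' ∈ S, z ∈ (V c').nonunits := by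
  classical
  induction S using Finset.induction_on with
  | empty => exact ⟨z₀, hz₀0, hz₀, fun c' hc' => absurd hc' (Finset.notMem_empty c')⟩
  | insert c₂ S hc₂ ih =>
    have hcc₂ : c ≠ c₂ := fun h => hS (h ▸ Finset.mem_insert_self _ S)
    have hcS : c ∉ S := fun h => hS (Finset.mem_insert_of_mem h)
    obtain ⟨z, hz0, hzc, hzS⟩ := ih hcS
    obtain ⟨y, hy0, hyc, hyc₂⟩ := aqw_sep (hinc c c₂ hcc₂) (hinc c₂ c (Ne.symm hcc₂))
    -- uniform exponent
    obtain ⟨N, hN⟩ := aqw_uniform S (fun c' n => y * z ^ n ∈ (V c').nonunits)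
      (fun c' hc' => (hA c').exists_forall_ge y (hzS c' hc'))
    have hzcN : ∀ n : ℕ, (z⁻¹) ^ (n + 1) ∈ (V c).nonunits := fun n => by
      rw [pow_succ]
      exact stb_mul_mem_nonunits ((V c).pow_mem (stb_nonunits_subset hzc) n) hzc
    by_cases hz₂ : z ∈ V c₂
    · -- `z' = z ^ (N + 1) * y`
      refine ⟨z ^ (N + 1) * y, mul_ne_zero (pow_ne_zero _ hz0) hy0, ?_, fun c' hc' => ?_⟩
      · have e : (z ^ (N + 1) * y)⁻¹ = (z⁻¹) ^ (N + 1) * y⁻¹ := by
          rw [mul_inv, inv_pow]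
        rw [e]
        exact stb_mul_mem_nonunits (stb_nonunits_subset (hzcN N)) hyc
      · rcases Finset.mem_insert.mp hc' with rfl | hc''
        · exact stb_mul_mem_nonunits ((V c').pow_mem hz₂ _) hyc₂
        · rw [mul_comm]
          exact hN c' hc'' (N + 1) (Nat.le_succ N)
    · -- `z' = y * z ^ (N + 1) / (1 + z ^ (N + 1))`
      have hz₂' : z⁻¹ ∈ (V c₂).nonunits := aqw_inv_mem_of_not_mem (V c₂) hz₂
      have hz₂N : (z⁻¹) ^ (N + 1) ∈ (V c₂).nonunits := by
        rw [pow_succ]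
        exact stb_mul_mem_nonunits ((V c₂).pow_mem (stb_nonunits_subset hz₂') N) hz₂'
      have hden0 : (1 : F) + z ^ (N + 1) ≠ 0 := by
        intro h
        have h1 : (1 : F) + (z⁻¹) ^ (N + 1) = 0 := by
          have e : (1 : F) + (z⁻¹) ^ (N + 1) = (z⁻¹) ^ (N + 1) * (1 + z ^ (N + 1)) := by
            rw [inv_pow]
            field_simp
            ring
          rw [e, h, mul_zero]
        have h2 := (aqw_one_add_inv (V c₂) hz₂N).ne_zero
        exact h2 (by rw [h1, inv_zero])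
      have hu0 : z ^ (N + 1) ≠ 0 := pow_ne_zero _ hz0
      have ekey : z ^ (N + 1) / (1 + z ^ (N + 1)) = (1 + (z⁻¹) ^ (N + 1))⁻¹ := by
        rw [inv_pow]
        apply eq_inv_of_mul_eq_one_left
        rw [div_mul_eq_mul_div, mul_add, mul_one, mul_inv_cancel₀ hu0, add_comm,
          div_self hden0]
      refine ⟨y * (z ^ (N + 1) / (1 + z ^ (N + 1))),
        mul_ne_zero hy0 (div_ne_zero (pow_ne_zero _ hz0) hden0), ?_, fun c' hc' => ?_⟩
      · have e : (y * (z ^ (N + 1) / (1 + z ^ (N + 1))))⁻¹ = (1 + (z⁻¹) ^ (N + 1)) * y⁻¹ := by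
          rw [ekey, mul_inv, inv_inv, mul_comm]
        rw [e]
        have h1 : StbUnit (V c) (1 : F) := by simp [StbUnit]
        exact (h1.add_nonunit (hzcN N)).mul_nonunit hyc
      · rcases Finset.mem_insert.mp hc' with rfl | hc''
        · rw [ekey, mul_comm]
          exact (aqw_one_add_inv (V c') hz₂N).mul_nonunit hyc₂
        · have hzN : z ^ (N + 1) ∈ (V c').nonunits := by
            rw [pow_succ]
            exact stb_mul_mem_nonunits ((V c').pow_mem (stb_nonunits_subset (hzS c' hc'')) N)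
              (hzS c' hc'')
          have e : y * (z ^ (N + 1) / (1 + z ^ (N + 1)))
              = (1 + z ^ (N + 1))⁻¹ * (y * z ^ (N + 1)) := by
            field_simp
          rw [e]
          exact (aqw_one_add_inv (V c') hzN).mul_nonunit (hN c' hc'' (N + 1) (Nat.le_succ N))

/-- **Idempotents.**  `e ≡ 1` at `V c` and `e ≡ 0` at every other `V c'`. -/
theorem aqw_idem [Finite κ] (V : κ → ValuationSubring F)
    (hinc : ∀ c c', c ≠ c' → ¬ V c ≤ V c') (hA : ∀ c, StbArch (V c)) (c : κ) :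
    ∃ e : F, e - 1 ∈ (V c).nonunits ∧ ∀ c', c' ≠ c → e ∈ (V c').nonunits := by
  classical
  letI : Fintype κ := Fintype.ofFinite κ
  by_cases hex : ∃ c₂, c₂ ≠ c
  · obtain ⟨c₂, hc₂⟩ := hex
    obtain ⟨y, hy0, hyc, -⟩ := aqw_sep (hinc c c₂ (Ne.symm hc₂)) (hinc c₂ c hc₂)
    obtain ⟨z, hz0, hzc, hzS⟩ := aqw_large_small V hinc hA c hy0 hyc (Finset.univ.erase c)
      (Finset.notMem_erase c _)
    refine ⟨(1 + z⁻¹)⁻¹, aqw_one_add_inv_sub (V c) hzc, fun c' hc' => ?_⟩
    have hz' : z ∈ (V c').nonunits := hzS c' (Finset.mem_erase.mpr ⟨hc', Finset.mem_univ _⟩)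
    have hden : (1 : F) + z ≠ 0 := by
      intro h
      have := (aqw_one_add_inv (V c') hz').ne_zero
      exact this (by rw [h, inv_zero])
    have e : (1 + z⁻¹)⁻¹ = (1 + z)⁻¹ * z := by
      symm
      apply eq_inv_of_mul_eq_one_left
      rw [mul_assoc, mul_add, mul_one, mul_inv_cancel₀ hz0, add_comm z 1, inv_mul_cancel₀ hden]
    rw [e]
    exact (aqw_one_add_inv (V c') hz').mul_nonunit hz'
  · have hex : ∀ c₂, c₂ = c := fun c₂ => by
      by_contra h
      exact hex ⟨c₂, h⟩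
    exact ⟨1, by rw [sub_self]; exact stb_zero_mem_nonunits _, fun c' hc' => absurd (hex c') hc'⟩

/-- **Weak approximation** for finitely many pairwise incomparable archimedean valuation
subrings: for `T c ≠ 0` there is `H ≠ 0` with `H / T c ≡ 1` at `V c` for all `c`. -/
theorem aqw_weakApprox [Finite κ] (V : κ → ValuationSubring F)
    (hinc : ∀ c c', c ≠ c' → ¬ V c ≤ V c') (hA : ∀ c, StbArch (V c))
    (T : κ → F) (hT : ∀ c, T c ≠ 0) :
    ∃ H : F, H ≠ 0 ∧ ∀ c, H / T c - 1 ∈ (V c).nonunits := by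
  classical
  letI : Fintype κ := Fintype.ofFinite κ
  rcases isEmpty_or_nonempty κ with hκ | ⟨⟨c₁⟩⟩
  · exact ⟨1, one_ne_zero, fun c => (hκ.false c).elim⟩
  choose e he1 he0 using aqw_idem V hinc hA
  -- uniform exponent
  have hN : ∃ N, ∀ c ∈ (Finset.univ : Finset κ), ∀ n, N ≤ n →
      ∀ c' ∈ (Finset.univ : Finset κ), c' ≠ c → T c' / T c * e c' ^ n ∈ (V c).nonunits := by
    refine aqw_uniform _ _ fun c _ => ?_
    obtain ⟨N, hN⟩ := aqw_uniform ((Finset.univ : Finset κ).erase c)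
      (fun c' n => T c' / T c * e c' ^ n ∈ (V c).nonunits)
      (fun c' hc' => (hA c).exists_forall_ge (T c' / T c)
        (he0 c' c (Ne.symm (Finset.ne_of_mem_erase hc'))))
    exact ⟨N, fun n hn c' _ hc' => hN c' (Finset.mem_erase.mpr ⟨hc', Finset.mem_univ _⟩) n hn⟩
  obtain ⟨N, hN⟩ := hN
  have key : ∀ c, (∑ c', T c' * e c' ^ N) / T c - 1 ∈ (V c).nonunits := by
    intro c
    have e1 : (∑ c', T c' * e c' ^ N) / T c - 1
        = (e c ^ N - 1) + ∑ c' ∈ (Finset.univ : Finset κ).erase c, T c' / T c * e c' ^ N := by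
      rw [← Finset.add_sum_erase Finset.univ _ (Finset.mem_univ c), add_div, Finset.sum_div]
      have hTc := hT c
      have e2 : T c * e c ^ N / T c = e c ^ N := by field_simp
      rw [e2]
      have e3 : ∀ c' ∈ (Finset.univ : Finset κ).erase c,
          T c' * e c' ^ N / T c = T c' / T c * e c' ^ N := fun c' _ => by ring
      rw [Finset.sum_congr rfl e3]
      ring
    rw [e1]
    refine stb_add_mem_nonunits (stb_congr_pow (he1 c) N) ?_
    refine Finset.sum_induction _ (fun x => x ∈ (V c).nonunits)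
      (fun a b ha hb => stb_add_mem_nonunits ha hb) (stb_zero_mem_nonunits _) fun c' hc' => ?_
    exact hN c (Finset.mem_univ c) N le_rfl c' (Finset.mem_univ c') (Finset.ne_of_mem_erase hc')
  refine ⟨∑ c', T c' * e c' ^ N, ?_, key⟩
  intro h0
  have h1 := key c₁
  rw [h0, zero_div, zero_sub] at h1
  have := stb_neg_mem_nonunits h1
  rw [neg_neg, stb_mem_nonunits_iff, map_one] at this
  exact lt_irrefl _ this

end Fermat.Agent.S36
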