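import Mathlib

/-!
# S36, piece A1: Wiles' lemma over a commutative ring, and unipotency on a module

`R` a commutative ring in which `2` is invertible, `E` an `R`-algebra (in the application
`E = End_R Z`), `r : G →* E`, `ε, t : G → R` with the Cayley–Hamilton identity
`r σ + ε σ • r σ⁻¹ = t σ • 1`, and `c ∈ G` with `c² = 1`, `ε c = -1`.

To avoid divisions we work with the doubled idempotents `P = 1 + r c`, `Q = 1 - r c`
(`P + Q = 2`, `P² = 2 P`, `P Q = 0`) and the doubled entries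
`A = t x + t (x c)` (`= 2a`), `D = t x - t (x c)` (`= 2d`),
`Ξ x y = 2 A (x y) - A x A y` (`= 4ξ`), `Ξ' x y = 2 D (x y) - D x D y`.

* `S36CH.PxP`, `QxQ`, `PxQyP`, `QxPyQ` : `P r(x) P = A x • P`, …, `P r(x) Q r(y) P = Ξ x y • P`.
* `S36CH.unip` : if the four entries of "`(mat σ − 1)(mat τ − 1)`" vanish and `Ξ' τ₁ σ₁` is
  invertible, then `(r σ − 1)(r τ − 1) = 0` in `E`.
-/

set_option autoImplicit false
set_option linter.unusedSectionVars false

namespace Fermat.Agent.S36

variable {G R E : Type*} [Group G] [CommRing R] [Ring E] [Algebra R E]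

/-- Cayley–Hamilton datum over a commutative ring. -/
structure S36CH (r : G →* E) (ε : G → R) (t : G → R) (c : G) : Prop where
  ch : ∀ σ, r σ + ε σ • r σ⁻¹ = t σ • (1 : E)
  ε_mul : ∀ (x y : G) (e : E), ε (x * y) • e = (ε x * ε y) • e
  c_sq : c * c = 1
  ε_c : ∀ e : E, ε c • e = -e

/-- a Cayley–Hamilton datum from exact identities for `ε` -/
theorem S36CH.of_exact {r : G →* E} {ε : G → R} {t : G → R} {c : G}
    (ch : ∀ σ, r σ + ε σ • r σ⁻¹ = t σ • (1 : E))
    (ε_mul : ∀ x y, ε (x * y) = ε x * ε y) (c_sq : c * c = 1) (ε_c : ε c = -1) :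
    S36CH r ε t c :=
  ⟨ch, fun x y e => by rw [ε_mul], c_sq, fun e => by rw [ε_c, neg_smul, one_smul]⟩

/-- `2a = t(x) + t(xc)`. -/
def s36A (t : G → R) (c : G) (x : G) : R := t x + t (x * c)
/-- `2d = t(x) - t(xc)`. -/
def s36D (t : G → R) (c : G) (x : G) : R := t x - t (x * c)
/-- `4ξ(x,y) = 2·(2a)(xy) - (2a)(x)(2a)(y)`. -/
def s36Xi (t : G → R) (c : G) (x y : G) : R := 2 * s36A t c (x * y) - s36A t c x * s36A t c y
/-- `4ξ'(x,y) = 2·(2d)(xy) - (2d)(x)(2d)(y)`. -/
def s36Xi' (t : G → R) (c : G) (x y : G) : R := 2 * s36D t c (x * y) - s36D t c x * s36D t c y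

/-- `2 e₊ = 1 + r c` -/
def s36P (r : G →* E) (c : G) : E := 1 + r c
/-- `2 e₋ = 1 - r c` -/
def s36Q (r : G →* E) (c : G) : E := 1 - r c

namespace S36CH

variable {r : G →* E} {ε : G → R} {t : G → R} {c : G}

lemma polar (h : S36CH r ε t c) (x y : G) :
    r x * r y + r y * r x - t x • r y - t y • r x + (t x * t y) • (1 : E) = t (x * y) • 1 := by
  have hx : ε x • r x⁻¹ = t x • (1 : E) - r x := eq_sub_of_add_eq' (h.ch x)
  have hy : ε y • r y⁻¹ = t y • (1 : E) - r y := eq_sub_of_add_eq' (h.ch y)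
  have hxy := h.ch (x * y)
  rw [mul_inv_rev, map_mul r x y, map_mul r y⁻¹ x⁻¹, h.ε_mul, mul_comm (ε x) (ε y),
    ← smul_mul_smul_comm, hx, hy] at hxy
  rw [← hxy]
  simp only [sub_mul, mul_sub, smul_mul_assoc, mul_smul_comm, one_mul, mul_one]
  module

lemma c_inv (h : S36CH r ε t c) : c⁻¹ = c := inv_eq_of_mul_eq_one_left h.c_sq

lemma tc_smul (h : S36CH r ε t c) (y : E) : t c • y = 0 := by
  have h1 := h.ch c
  rw [h.c_inv, h.ε_c] at h1
  have h2 : t c • (1 : E) = 0 := by rw [← h1]; abel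
  calc t c • y = (t c • (1 : E)) * y := by rw [smul_mul_assoc, one_mul]
    _ = 0 := by rw [h2, zero_mul]

lemma rc_sq (h : S36CH r ε t c) : r c * r c = 1 := by
  rw [← map_mul, h.c_sq, map_one]

lemma mul_c (h : S36CH r ε t c) (x : G) :
    r x * r c + r c * r x = t x • r c + t (x * c) • (1 : E) := by
  have h1 := h.polar x c
  have h2 : t c • r x = 0 := h.tc_smul _
  have h3 : (t x * t c) • (1 : E) = 0 := by rw [mul_comm, mul_smul, h.tc_smul]
  rw [h2, h3] at h1
  linear_combination (norm := module) h1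

lemma c_mul_c (h : S36CH r ε t c) (x : G) :
    r c * r x * r c = t x • (1 : E) + t (x * c) • r c - r x := by
  have h1 : r c * r x = t x • r c + t (x * c) • (1 : E) - r x * r c :=
    eq_sub_of_add_eq' (h.mul_c x)
  rw [h1, sub_mul, add_mul, smul_mul_assoc, smul_mul_assoc, one_mul, mul_assoc, h.rc_sq, mul_one]

local notation "P" => s36P r c
local notation "Q" => s36Q r c

lemma P_add_Q : P + Q = (2 : R) • (1 : E) := by
  rw [s36P, s36Q]; module

lemma PP (h : S36CH r ε t c) : P * P = (2 : R) • P := by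
  rw [s36P, mul_add, add_mul, add_mul, h.rc_sq]; simp only [one_mul, mul_one]; module

lemma QQ (h : S36CH r ε t c) : Q * Q = (2 : R) • Q := by
  rw [s36Q, mul_sub, sub_mul, sub_mul, h.rc_sq]; simp only [one_mul, mul_one]; module

lemma PQ (h : S36CH r ε t c) : P * Q = 0 := by
  rw [s36P, s36Q, mul_sub, add_mul, add_mul, h.rc_sq]; simp only [one_mul, mul_one]; abel

lemma QP (h : S36CH r ε t c) : Q * P = 0 := by
  rw [s36P, s36Q, mul_add, sub_mul, sub_mul, h.rc_sq]; simp only [one_mul, mul_one]; abel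

/-- `P X P = A(x) P`. -/
lemma PxP (h : S36CH r ε t c) (x : G) : P * r x * P = s36A t c x • P := by
  have h1 := h.mul_c x
  have h2 := h.c_mul_c x
  rw [s36P, s36A]
  simp only [mul_add, add_mul, one_mul, mul_one]
  linear_combination (norm := module) h1 + h2

/-- `Q X Q = D(x) Q`. -/
lemma QxQ (h : S36CH r ε t c) (x : G) : Q * r x * Q = s36D t c x • Q := by
  have h1 := h.mul_c x
  have h2 := h.c_mul_c x
  rw [s36Q, s36D]
  simp only [mul_sub, sub_mul, one_mul, mul_one]
  linear_combination (norm := module) - h1 + h2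

/-- `P X Q Y P = Ξ(x,y) P`. -/
lemma PxQyP (h : S36CH r ε t c) (x y : G) :
    P * r x * Q * r y * P = s36Xi t c x y • P := by
  have e1 := h.PxP (x * y)
  have ex := h.PxP x
  have ey := h.PxP y
  have hQ : Q = (2 : R) • (1 : E) - P := by rw [← P_add_Q (r := r) (c := c)]; abel
  have split : P * r x * Q * r y * P
      = (2 : R) • (P * r (x * y) * P) - (P * r x * P) * r y * P := by
    rw [hQ, map_mul]
    simp only [mul_sub, sub_mul, mul_smul_comm, smul_mul_assoc, mul_one, mul_assoc]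
  rw [split, e1, ex, smul_mul_assoc, smul_mul_assoc, ey, s36Xi]
  module

/-- `Q X P Y Q = Ξ'(x,y) Q`. -/
lemma QxPyQ (h : S36CH r ε t c) (x y : G) :
    Q * r x * P * r y * Q = s36Xi' t c x y • Q := by
  have e1 := h.QxQ (x * y)
  have ex := h.QxQ x
  have ey := h.QxQ y
  have hP : P = (2 : R) • (1 : E) - Q := by rw [← P_add_Q (r := r) (c := c)]; abel
  have split : Q * r x * P * r y * Q
      = (2 : R) • (Q * r (x * y) * Q) - (Q * r x * Q) * r y * Q := by
    rw [hP, map_mul]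
    simp only [mul_sub, sub_mul, mul_smul_comm, smul_mul_assoc, mul_one, mul_assoc]
  rw [split, e1, ex, smul_mul_assoc, smul_mul_assoc, ey, s36Xi']
  module

/-- **Unipotency on a Cayley–Hamilton module.**  If the four (doubled) entries of
`(mat σ − 1)(mat τ − 1)` vanish and `Ξ'(τ₁, σ₁)` and `2` are invertible, then
`(r σ − 1)(r τ − 1) = 0`. -/
theorem unip (h : S36CH r ε t c) (i2 : R) (hi2 : ∀ e : E, (2 * i2) • e = e) (σ₁ τ₁ : G)
    (w : R) (hw : ∀ e : E, (w * s36Xi' t c τ₁ σ₁) • e = e) (σ τ : G)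
    (ha : ∀ e : E, (s36A t c (σ * τ) - s36A t c σ - s36A t c τ + 2) • e = 0)
    (hd : ∀ e : E, (s36D t c (σ * τ) - s36D t c σ - s36D t c τ + 2) • e = 0)
    (hb : ∀ e : E, (s36Xi t c (σ * τ) τ₁ - s36Xi t c σ τ₁ - s36Xi t c τ τ₁) • e = 0)
    (hc : ∀ e : E, (s36Xi t c σ₁ (σ * τ) - s36Xi t c σ₁ σ - s36Xi t c σ₁ τ) • e = 0) :
    (r σ - 1) * (r τ - 1) = 0 := by
  set X : E := r (σ * τ) - r σ - r τ + 1 with hX
  have hXeq : (r σ - 1) * (r τ - 1) = X := by
    rw [hX, map_mul]; noncomm_ring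
  rw [hXeq]
  -- the four blocks
  have hPXP : P * X * P = 0 := by
    have : P * X * P = (s36A t c (σ * τ) - s36A t c σ - s36A t c τ + 2) • P := by
      rw [hX]
      simp only [mul_add, mul_sub, add_mul, sub_mul, mul_one, h.PxP, h.PP]
      module
    rw [this, ha]
  have hQXQ : Q * X * Q = 0 := by
    have : Q * X * Q = (s36D t c (σ * τ) - s36D t c σ - s36D t c τ + 2) • Q := by
      rw [hX]
      simp only [mul_add, mul_sub, add_mul, sub_mul, mul_one, h.QxQ, h.QQ]
      module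
    rw [this, hd]
  have hPXQ : P * X * Q = 0 := by
    have e1 : P * X * Q * r τ₁ * P = 0 := by
      have : P * X * Q * r τ₁ * P
          = (s36Xi t c (σ * τ) τ₁ - s36Xi t c σ τ₁ - s36Xi t c τ τ₁) • P := by
        rw [hX]
        simp only [mul_add, mul_sub, add_mul, sub_mul, mul_one, h.PxQyP, h.PQ, zero_mul]
        module
      rw [this, hb]
    have e2 : P * X * Q * r τ₁ * P * r σ₁ * Q = s36Xi' t c τ₁ σ₁ • (P * X * Q) := by
      have : P * X * Q * r τ₁ * P * r σ₁ * Q = P * X * (Q * r τ₁ * P * r σ₁ * Q) := by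
        simp only [mul_assoc]
      rw [this, h.QxPyQ, mul_smul_comm]
    rw [e1, zero_mul, zero_mul] at e2
    calc P * X * Q = (w * s36Xi' t c τ₁ σ₁) • (P * X * Q) := (hw _).symm
      _ = 0 := by rw [mul_smul, ← e2, smul_zero]
  have hQXP : Q * X * P = 0 := by
    have e1 : P * r σ₁ * Q * X * P = 0 := by
      have : P * r σ₁ * Q * X * P
          = (s36Xi t c σ₁ (σ * τ) - s36Xi t c σ₁ σ - s36Xi t c σ₁ τ) • P := by
        rw [hX]
        simp only [mul_add, mul_sub, add_mul, sub_mul, mul_one, mul_assoc]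
        simp only [← mul_assoc, h.PxQyP]
        have hz : P * r σ₁ * Q * P = 0 := by rw [mul_assoc, h.QP, mul_zero]
        rw [hz]
        module
      rw [this, hc]
    have e2 : Q * r τ₁ * (P * r σ₁ * Q * X * P) = s36Xi' t c τ₁ σ₁ • (Q * X * P) := by
      have : Q * r τ₁ * (P * r σ₁ * Q * X * P) = (Q * r τ₁ * P * r σ₁ * Q) * X * P := by
        simp only [mul_assoc]
      rw [this, h.QxPyQ, smul_mul_assoc, smul_mul_assoc]
    rw [e1, mul_zero] at e2
    calc Q * X * P = (w * s36Xi' t c τ₁ σ₁) • (Q * X * P) := (hw _).symm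
      _ = 0 := by rw [mul_smul, ← e2, smul_zero]
  have h4 : ((2 : R) • (1 : E)) * X * ((2 : R) • (1 : E)) = 0 := by
    rw [← P_add_Q (r := r) (c := c)]
    simp only [mul_add, add_mul]
    rw [hPXP, hQXP, hPXQ, hQXQ]
    simp
  have h5 : ((2 : R) * 2) • X = 0 := by
    rw [← h4]
    simp only [smul_mul_assoc, mul_smul_comm, one_mul, mul_one, smul_smul]
  calc X = (2 * i2) • (2 * i2) • X := by rw [hi2, hi2]
    _ = ((i2 * i2) * ((2 : R) * 2)) • X := by rw [smul_smul]; congr 1; ring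
    _ = 0 := by rw [mul_smul, h5, smul_zero]

end S36CH

end Fermat.Agent.S36
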