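import Fermat.Agent.S36.ALQAnalytic
import Fermat.Agent.S34.ALMain

/-!
# The Atkin–Lehner involution `w_Q` at an exact divisor `Q ∥ N` (helper92; S36 piece N2-w)

`Q ∣ N`, `gcd(Q, N / Q) = 1` (e.g. `Q = q²`, `N = q² M'`, `q ∤ M'`).  For a field `K` with a ring
homomorphism `K →+* ℂ` and `F_N = modularFunctionFieldFullC K N = K(j(Q^e) : e ∣ N)`:

* `alqSwap Q N e = (Q / gcd e Q) * (e / gcd e Q)` (for `e ∣ N`) : the index swap, an involution of
  the divisors of `N`; `alqSwap_mul : alqSwap Q N (c * d) = (Q / c) * d` for `c ∣ Q`, `d ∣ N / Q`;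
* `alqRel` : every polynomial relation over `K` between the `j(Q^e)`, `e ∣ N`, also holds after
  the swap;
* `atkinLehnerQ K ι hQ hcop : F_N ≃ₐ[K] F_N`, with `atkinLehnerQ_gen`, `atkinLehnerQ_jq`
  (`w (j(Q^{cd})) = j(Q^{(Q/c) d})`), `atkinLehnerQ_invol`, `atkinLehnerQ_coeffMap`
  (it commutes with the action of ring endomorphisms of `K` on coefficients).

Fork of helper90's `S34/ALMain.lean` (the case `Q` prime); the abstract part
(`AL.alAbsFieldEquiv`) and the generators (`AL.alGen`, `AL.alFun`) are reused.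
-/

set_option autoImplicit false
set_option linter.unusedSectionVars false
set_option linter.style.haveILetI false

noncomputable section

namespace Fermat.Agent.S36

open ModularCurve MvPolynomial UpperHalfPlane
open Fermat.Agent.S23 Fermat.Agent.S24 Fermat.Agent.S28 Fermat.Agent.AL

/-! ### The index swap -/

/-- The swap `c d ↦ (Q / c) d` (`c ∣ Q`, `d ∣ N / Q`) on the divisors of `N` (identity
elsewhere). -/
def alqSwap (Q N e : ℕ) : ℕ :=
  if e ∣ N then (Q / Nat.gcd e Q) * (e / Nat.gcd e Q) else e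

section Swap

variable {Q N : ℕ} (hN : N ≠ 0) (hQ : Q ∣ N) (hcop : Nat.Coprime Q (N / Q))

include hN hQ hcop

theorem alq_Q_ne_zero : Q ≠ 0 := fun h => hN (by subst h; simpa using hQ)

theorem alq_M_ne_zero : N / Q ≠ 0 := by
  intro h
  have := Nat.div_mul_cancel hQ
  rw [h, zero_mul] at this
  exact hN this.symm

theorem alq_mul_dvd {c d : ℕ} (hc : c ∣ Q) (hd : d ∣ N / Q) : c * d ∣ N := by
  have := Nat.mul_dvd_mul hc hd
  rwa [Nat.mul_div_cancel' hQ] at this

theorem alq_divisor_cases {e : ℕ} (he : e ∣ N) : ∃ c d, c ∣ Q ∧ d ∣ N / Q ∧ e = c * d := by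
  have he' : e ∣ Q * (N / Q) := by rwa [Nat.mul_div_cancel' hQ]
  obtain ⟨c, d, hc, hd, rfl⟩ := (Nat.dvd_mul).1 he'
  exact ⟨c, d, hc, hd, rfl⟩

theorem alq_gcd {c d : ℕ} (hc : c ∣ Q) (hd : d ∣ N / Q) : Nat.gcd (c * d) Q = c := by
  have h1 : Nat.Coprime d Q := (Nat.Coprime.coprime_dvd_left hd hcop.symm)
  rw [Nat.Coprime.gcd_mul_right_cancel c h1]
  exact Nat.gcd_eq_left hc

theorem alqSwap_mul {c d : ℕ} (hc : c ∣ Q) (hd : d ∣ N / Q) :
    alqSwap Q N (c * d) = (Q / c) * d := by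
  have hc0 : c ≠ 0 := fun h => alq_Q_ne_zero hN hQ hcop (by subst h; simpa using hc)
  rw [alqSwap, if_pos (alq_mul_dvd hN hQ hcop hc hd), alq_gcd hN hQ hcop hc hd,
    Nat.mul_div_cancel_left d (Nat.pos_of_ne_zero hc0)]

theorem alqSwap_dvd {e : ℕ} (he : e ∣ N) : alqSwap Q N e ∣ N := by
  obtain ⟨c, d, hc, hd, rfl⟩ := alq_divisor_cases hN hQ hcop he
  rw [alqSwap_mul hN hQ hcop hc hd]
  exact alq_mul_dvd hN hQ hcop (Nat.div_dvd_of_dvd hc) hd

theorem alqSwap_invol (e : ℕ) : alqSwap Q N (alqSwap Q N e) = e := by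
  by_cases he : e ∣ N
  · obtain ⟨c, d, hc, hd, rfl⟩ := alq_divisor_cases hN hQ hcop he
    rw [alqSwap_mul hN hQ hcop hc hd, alqSwap_mul hN hQ hcop (Nat.div_dvd_of_dvd hc) hd,
      Nat.div_div_self hc (alq_Q_ne_zero hN hQ hcop)]
  · have : alqSwap Q N e = e := by rw [alqSwap, if_neg he]
    rw [this, this]

end Swap

/-! ### The analytic substitution on the function family -/

section Analytic

variable {Q N : ℕ} [NeZero N] [NeZero Q] [NeZero (N / Q)] (hQ : Q ∣ N)
  (hcop : Nat.Coprime Q (N / Q))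
  (a b : ℤ) (h : (Q : ℤ) * a - ((N / Q : ℕ) : ℤ) * b = 1)

include hQ hcop

/-- `J_e ∘ W = J_{swap e}`. -/
theorem alqFun_alW (e : ℕ) (τ : ℍ) :
    alFun N e (alW Q (N / Q) a b h τ) = alFun N (alqSwap Q N e) τ := by
  have hN : N ≠ 0 := NeZero.ne N
  by_cases he : e ∣ N
  · obtain ⟨c, d, hc, hd, rfl⟩ := alq_divisor_cases hN hQ hcop he
    have hc0 : c ≠ 0 := fun h0 => NeZero.ne Q (by subst h0; simpa using hc)
    have hd0 : d ≠ 0 := fun h0 => NeZero.ne (N / Q) (by subst h0; simpa using hd)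
    have hc'0 : Q / c ≠ 0 := by
      intro h0
      have := Nat.div_mul_cancel hc
      rw [h0, zero_mul] at this
      exact NeZero.ne Q this.symm
    haveI : NeZero c := ⟨hc0⟩
    haveI : NeZero d := ⟨hd0⟩
    haveI : NeZero (Q / c) := ⟨hc'0⟩
    haveI : NeZero (c * d) := ⟨Nat.mul_ne_zero hc0 hd0⟩
    haveI : NeZero (Q / c * d) := ⟨Nat.mul_ne_zero hc'0 hd0⟩
    have h2 : Q / c * d ∣ N := alq_mul_dvd hN hQ hcop (Nat.div_dvd_of_dvd hc) hd
    rw [alqSwap_mul hN hQ hcop hc hd, alFun_of_dvd he, alFun_of_dvd h2]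
    exact alq_J Q (N / Q) a b h c (Q / c) (Nat.mul_div_cancel' hc) hd τ
  · have : alqSwap Q N e = e := by rw [alqSwap, if_neg he]
    rw [this, alFun_of_not_dvd he]
    rfl

end Analytic

/-! ### Stability of the relations -/

section Rel

variable {Q N : ℕ} [NeZero N] (hQ : Q ∣ N) (hcop : Nat.Coprime Q (N / Q))

include hQ hcop

/-- Stability of the relations over `ℂ`. -/
theorem alqRel_complex (p : MvPolynomial ℕ ℂ) (hp : aeval (alGen ℂ N) p = 0) :
    aeval (alGen ℂ N ∘ alqSwap Q N) p = 0 := by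
  have hN : N ≠ 0 := NeZero.ne N
  haveI : NeZero Q := ⟨alq_Q_ne_zero hN hQ hcop⟩
  haveI : NeZero (N / Q) := ⟨alq_M_ne_zero hN hQ hcop⟩
  -- Bezout
  have hcop' : IsCoprime (Q : ℤ) ((N / Q : ℕ) : ℤ) := Nat.isCoprime_iff_coprime.mpr hcop
  obtain ⟨u, v, huv⟩ := hcop'
  have hab : (Q : ℤ) * u - ((N / Q : ℕ) : ℤ) * (-v) = 1 := by linear_combination huv
  -- the relation between functions
  have e1 : aeval (alGen ℂ N) p = laurentExp (aeval (alFunM N) p) := by
    rw [comp_aeval_apply]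
    exact congrArg (fun f => aeval f p)
      (funext fun e => (laurentExp_alFunM N e).symm)
  have h1 : aeval (alFunM N) p = 0 := by
    apply laurentExp_injective
    rw [← e1, hp, map_zero]
  have h2 : aeval (alFunM N ∘ alqSwap Q N) p = 0 := by
    apply Subtype.ext
    funext τ
    have e2 : alEval τ (aeval (alFunM N ∘ alqSwap Q N) p) =
        alEval (alW Q (N / Q) u (-v) hab τ) (aeval (alFunM N) p) := by
      rw [comp_aeval_apply, comp_aeval_apply]
      exact congrArg (fun f => aeval f p)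
        (funext fun e => (alqFun_alW hQ hcop u (-v) hab e τ).symm)
    rw [h1, map_zero] at e2
    exact e2
  have e3 : aeval (alGen ℂ N ∘ alqSwap Q N) p =
      laurentExp (aeval (alFunM N ∘ alqSwap Q N) p) := by
    rw [comp_aeval_apply]
    exact congrArg (fun f => aeval f p)
      (funext fun e => (laurentExp_alFunM N _).symm)
  rw [e3, h2, map_zero]

/-- **Stability of the relations** between the `j(Q^e)`, `e ∣ N`, under the swap. -/
theorem alqRel {K : Type*} [Field K] (ι : K →+* ℂ) (p : MvPolynomial ℕ K)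
    (hp : aeval (alGen K N) p = 0) :
    aeval (alGen K N ∘ alqSwap Q N) p = 0 := by
  apply al_coeffMap_injective ι
  rw [map_zero, al_coeffMap_aeval]
  have h1 := al_coeffMap_aeval ι (alGen K N) p
  rw [hp, map_zero] at h1
  have h2 : (fun e => coeffMap ι (alGen K N e)) = alGen ℂ N :=
    funext fun e => coeffMap_alGen ι N e
  rw [h2] at h1
  have h3 := alqRel_complex hQ hcop _ h1.symm
  have h4 : (fun e => coeffMap ι ((alGen K N ∘ alqSwap Q N) e)) =
      alGen ℂ N ∘ alqSwap Q N :=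
    funext fun e => coeffMap_alGen ι N _
  rw [h4]
  exact h3

end Rel

/-! ### The automorphism -/

section Main

variable (K : Type*) [Field K] (ι : K →+* ℂ) {Q N : ℕ} [NeZero N] (hQ : Q ∣ N)
  (hcop : Nat.Coprime Q (N / Q))

/-- The Atkin–Lehner automorphism of `K(range alGen)`. -/
def atkinLehnerQAux : IntermediateField.adjoin K (Set.range (alGen K N)) ≃ₐ[K]
    IntermediateField.adjoin K (Set.range (alGen K N)) :=
  alAbsFieldEquiv (x := alGen K N) (σ := alqSwap Q N) (alqSwap_invol (NeZero.ne N) hQ hcop)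
    (fun p hp => alqRel hQ hcop ι p hp)

/-- **The Atkin–Lehner automorphism `w_Q`** of `F_N = K(j(Q^e) : e ∣ N)`, `Q ∥ N`. -/
def atkinLehnerQ : modularFunctionFieldFullC K N ≃ₐ[K] modularFunctionFieldFullC K N :=
  (IntermediateField.equivOfEq (adjoin_range_alGen K N).symm).trans
    ((atkinLehnerQAux K ι hQ hcop).trans (IntermediateField.equivOfEq (adjoin_range_alGen K N)))

theorem alqGen_mem (e : ℕ) : alGen K N e ∈ modularFunctionFieldFullC K N := by
  rw [← adjoin_range_alGen]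
  exact IntermediateField.subset_adjoin K _ ⟨e, rfl⟩

/-- `w_Q (j_e) = j_{swap e}`. -/
theorem atkinLehnerQ_gen (e : ℕ) :
    ((atkinLehnerQ K ι hQ hcop ⟨alGen K N e, alqGen_mem K e⟩ :
      modularFunctionFieldFullC K N) : LaurentSeries K) =
      alGen K N (alqSwap Q N e) :=
  alAbsFieldEquiv_gen (x := alGen K N) (σ := alqSwap Q N)
    (alqSwap_invol (NeZero.ne N) hQ hcop) (fun p hp => alqRel hQ hcop ι p hp) e

/-- `w_Q ∘ w_Q = id`. -/
theorem atkinLehnerQ_invol (y : modularFunctionFieldFullC K N) :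
    atkinLehnerQ K ι hQ hcop (atkinLehnerQ K ι hQ hcop y) = y := by
  unfold atkinLehnerQ
  simp only [AlgEquiv.trans_apply]
  apply Subtype.ext
  have h := alAbsFieldEquiv_invol (x := alGen K N) (σ := alqSwap Q N)
    (alqSwap_invol (NeZero.ne N) hQ hcop) (fun p hp => alqRel hQ hcop ι p hp)
    (IntermediateField.equivOfEq (adjoin_range_alGen K N).symm y)
  exact congrArg (fun z : IntermediateField.adjoin K (Set.range (alGen K N)) =>
    (z : LaurentSeries K)) h

theorem atkinLehnerQ_symm : (atkinLehnerQ K ι hQ hcop).symm = atkinLehnerQ K ι hQ hcop := by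
  apply AlgEquiv.ext
  intro y
  rw [AlgEquiv.symm_apply_eq, atkinLehnerQ_invol]

/-- **`w_Q (j(Q^e)) = j(Q^{e'})`**, `e' = alqSwap Q N e`, for `e ∣ N`. -/
theorem atkinLehnerQ_jq {e : ℕ} [NeZero e] [NeZero (alqSwap Q N e)] (he : e ∣ N) :
    ((atkinLehnerQ K ι hQ hcop ⟨qExpand K e (jqModC K), jqModCd_mem_full K N he⟩ :
      modularFunctionFieldFullC K N) : LaurentSeries K) =
      qExpand K (alqSwap Q N e) (jqModC K) := by
  have h1 := atkinLehnerQ_gen K ι hQ hcop e
  rw [alGen_of_dvd K (alqSwap_dvd (NeZero.ne N) hQ hcop he)] at h1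
  rw [← h1]
  congr 2
  exact Subtype.ext (alGen_of_dvd K he).symm

/-- **`w_Q (j(Q^{cd})) = j(Q^{(Q/c)d})`** for `c ∣ Q`, `d ∣ N / Q`. -/
theorem atkinLehnerQ_jq_mul {c d : ℕ} [NeZero (c * d)] [NeZero (Q / c * d)] (hc : c ∣ Q)
    (hd : d ∣ N / Q) :
    ((atkinLehnerQ K ι hQ hcop ⟨qExpand K (c * d) (jqModC K),
        jqModCd_mem_full K N (alq_mul_dvd (NeZero.ne N) hQ hcop hc hd)⟩ :
      modularFunctionFieldFullC K N) : LaurentSeries K) =
      qExpand K (Q / c * d) (jqModC K) := by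
  have h1 := atkinLehnerQ_gen K ι hQ hcop (c * d)
  rw [alqSwap_mul (NeZero.ne N) hQ hcop hc hd,
    alGen_of_dvd K (alq_mul_dvd (NeZero.ne N) hQ hcop (Nat.div_dvd_of_dvd hc) hd)] at h1
  rw [← h1]
  congr 2
  exact Subtype.ext (alGen_of_dvd K (alq_mul_dvd (NeZero.ne N) hQ hcop hc hd)).symm

/-- **`w_Q` commutes with the action of ring endomorphisms of `K` on the coefficients.** -/
theorem atkinLehnerQ_coeffMap (σ : K →+* K) (y : modularFunctionFieldFullC K N) :
    ((atkinLehnerQ K ι hQ hcop ⟨coeffMap σ (y : LaurentSeries K), al_coeffMap_mem K N σ y.2⟩ :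
      modularFunctionFieldFullC K N) : LaurentSeries K) =
      coeffMap σ ((atkinLehnerQ K ι hQ hcop y : modularFunctionFieldFullC K N) :
        LaurentSeries K) := by
  set τ : modularFunctionFieldFullC K N →+* modularFunctionFieldFullC K N :=
    ((coeffMap σ).comp ((modularFunctionFieldFullC K N).val : _ →+* LaurentSeries K)).codRestrict
      (modularFunctionFieldFullC K N).toSubfield.toSubring
      (fun z => al_coeffMap_mem K N σ z.2) with hτ
  set φ₁ : modularFunctionFieldFullC K N →+* LaurentSeries K :=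
    ((modularFunctionFieldFullC K N).val : _ →+* LaurentSeries K).comp
      ((atkinLehnerQ K ι hQ hcop).toRingEquiv.toRingHom.comp τ) with hφ₁
  set φ₂ : modularFunctionFieldFullC K N →+* LaurentSeries K :=
    (coeffMap σ).comp (((modularFunctionFieldFullC K N).val : _ →+* LaurentSeries K).comp
      (atkinLehnerQ K ι hQ hcop).toRingEquiv.toRingHom) with hφ₂
  have hgenfix : ∀ e : ℕ, coeffMap σ (alGen K N e) = alGen K N e :=
    fun e => coeffMap_alGen σ N e
  have key : φ₁ = φ₂ := by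
    apply al_ringHom_ext K N
    · intro c
      show ((atkinLehnerQ K ι hQ hcop (τ (algebraMap K _ c)) : modularFunctionFieldFullC K N) :
        LaurentSeries K) = coeffMap σ ((atkinLehnerQ K ι hQ hcop (algebraMap K _ c) :
          modularFunctionFieldFullC K N) : LaurentSeries K)
      have e1 : τ (algebraMap K _ c) = algebraMap K _ (σ c) := by
        apply Subtype.ext
        show coeffMap σ (algebraMap K (LaurentSeries K) c) = algebraMap K (LaurentSeries K) (σ c)
        rw [algebraMap_laurentSeries_eq_single, coeffMap_single,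
          ← algebraMap_laurentSeries_eq_single]
      rw [e1, AlgEquiv.commutes, AlgEquiv.commutes]
      show algebraMap K (LaurentSeries K) (σ c) = coeffMap σ (algebraMap K (LaurentSeries K) c)
      rw [algebraMap_laurentSeries_eq_single, algebraMap_laurentSeries_eq_single, coeffMap_single]
    · intro d _ hd
      show ((atkinLehnerQ K ι hQ hcop (τ ⟨qExpand K d (jqModC K), _⟩) :
        modularFunctionFieldFullC K N) : LaurentSeries K) =
          coeffMap σ ((atkinLehnerQ K ι hQ hcop ⟨qExpand K d (jqModC K), _⟩ :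
            modularFunctionFieldFullC K N) : LaurentSeries K)
      have e0 : (⟨qExpand K d (jqModC K), jqModCd_mem_full K N hd⟩ :
          modularFunctionFieldFullC K N) = ⟨alGen K N d, alqGen_mem K d⟩ :=
        Subtype.ext (alGen_of_dvd K hd).symm
      have e1 : τ ⟨alGen K N d, alqGen_mem K d⟩ = ⟨alGen K N d, alqGen_mem K d⟩ :=
        Subtype.ext (hgenfix d)
      rw [e0, e1, atkinLehnerQ_gen, hgenfix]
  exact congrArg (fun φ : modularFunctionFieldFullC K N →+* LaurentSeries K => φ y) key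

end Main

/-! ### Compatibility with the degeneracy maps -/

section Lower

variable (K : Type*) [Field K] (ι : K →+* ℂ) {Q₁ N₁ r : ℕ} [NeZero N₁] [NeZero r]
  [NeZero (N₁ * r)] (hQ₁ : Q₁ ∣ N₁) (hcop₁ : Nat.Coprime Q₁ (N₁ / Q₁))
  (hQ : Q₁ * r ∣ N₁ * r) (hcop : Nat.Coprime (Q₁ * r) (N₁ * r / (Q₁ * r)))

include hQ₁ hcop₁ hQ hcop in
theorem alqSwap_lower {d : ℕ} (hd : d ∣ N₁) :
    alqSwap (Q₁ * r) (N₁ * r) d = alqSwap Q₁ N₁ d * r := by
  have hN₁ : N₁ ≠ 0 := NeZero.ne N₁
  have hr : r ≠ 0 := NeZero.ne r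
  obtain ⟨c, e, hc, he, rfl⟩ := alq_divisor_cases hN₁ hQ₁ hcop₁ hd
  have he' : e ∣ N₁ * r / (Q₁ * r) := by
    rwa [Nat.mul_div_mul_right _ _ (Nat.pos_of_ne_zero hr)]
  rw [alqSwap_mul hN₁ hQ₁ hcop₁ hc he,
    alqSwap_mul (NeZero.ne (N₁ * r)) hQ hcop (hc.mul_right r) he']
  obtain ⟨c', rfl⟩ := hc
  have hc0 : c ≠ 0 := fun h0 => alq_Q_ne_zero hN₁ hQ₁ hcop₁ (by rw [h0, zero_mul])
  rw [Nat.mul_div_cancel_left _ (Nat.pos_of_ne_zero hc0), mul_assoc,
    Nat.mul_div_cancel_left _ (Nat.pos_of_ne_zero hc0)]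
  ring

theorem alq_mem_of_mem_lower {f : LaurentSeries K} (hf : f ∈ modularFunctionFieldFullC K N₁) :
    f ∈ modularFunctionFieldFullC K (N₁ * r) :=
  full_degeneracyC_le K (Dvd.intro r rfl) hf

theorem alq_qExpand_mem {f : LaurentSeries K} (hf : f ∈ modularFunctionFieldFullC K N₁) :
    qExpand K r f ∈ modularFunctionFieldFullC K (N₁ * r) :=
  full_degeneracyC_map_le K N₁ r ⟨f, hf, rfl⟩

/-- **`w_{Q₁ r} f = (w_{Q₁} f)(Q^r)` for `f ∈ F_{N₁}`** (`Q₁ ∥ N₁`, `Q₁ r ∥ N₁ r`):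
`w_{Q₁ r} ∘ α = β ∘ w_{Q₁}`. -/
theorem atkinLehnerQ_of_lower {f : LaurentSeries K} (hf : f ∈ modularFunctionFieldFullC K N₁) :
    ((atkinLehnerQ K ι hQ hcop ⟨f, alq_mem_of_mem_lower K hf⟩ :
      modularFunctionFieldFullC K (N₁ * r)) : LaurentSeries K) =
      qExpand K r ((atkinLehnerQ K ι hQ₁ hcop₁ ⟨f, hf⟩ : modularFunctionFieldFullC K N₁) :
        LaurentSeries K) := by
  set φ₁ : modularFunctionFieldFullC K N₁ →+* LaurentSeries K :=
    ((modularFunctionFieldFullC K (N₁ * r)).val : _ →+* LaurentSeries K).comp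
      ((atkinLehnerQ K ι hQ hcop).toRingEquiv.toRingHom.comp
        (IntermediateField.inclusion (full_degeneracyC_le K (Dvd.intro r rfl)) :
          modularFunctionFieldFullC K N₁ →ₐ[K] modularFunctionFieldFullC K (N₁ * r)).toRingHom)
    with hφ₁
  set φ₂ : modularFunctionFieldFullC K N₁ →+* LaurentSeries K :=
    (qExpand K r).comp (((modularFunctionFieldFullC K N₁).val : _ →+* LaurentSeries K).comp
      (atkinLehnerQ K ι hQ₁ hcop₁).toRingEquiv.toRingHom) with hφ₂
  have key : φ₁ = φ₂ := by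
    apply al_ringHom_ext K N₁
    · intro c
      show ((atkinLehnerQ K ι hQ hcop (algebraMap K _ c) : modularFunctionFieldFullC K (N₁ * r)) :
        LaurentSeries K) = qExpand K r ((atkinLehnerQ K ι hQ₁ hcop₁ (algebraMap K _ c) :
          modularFunctionFieldFullC K N₁) : LaurentSeries K)
      rw [AlgEquiv.commutes, AlgEquiv.commutes]
      exact ((qExpandAlgHomC K r).commutes c).symm
    · intro d _ hd
      have hd' : d ∣ N₁ * r := hd.mul_right r
      have hs0 : alqSwap Q₁ N₁ d ≠ 0 := fun h0 => NeZero.ne N₁ (by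
        have := alqSwap_dvd (NeZero.ne N₁) hQ₁ hcop₁ hd
        rw [h0, zero_dvd_iff] at this
        exact this)
      haveI : NeZero (alqSwap Q₁ N₁ d) := ⟨hs0⟩
      haveI : NeZero (alqSwap (Q₁ * r) (N₁ * r) d) := ⟨by
        rw [alqSwap_lower hQ₁ hcop₁ hQ hcop hd]
        exact Nat.mul_ne_zero hs0 (NeZero.ne r)⟩
      show ((atkinLehnerQ K ι hQ hcop ⟨qExpand K d (jqModC K), _⟩ :
        modularFunctionFieldFullC K (N₁ * r)) : LaurentSeries K) =
          qExpand K r ((atkinLehnerQ K ι hQ₁ hcop₁ ⟨qExpand K d (jqModC K), _⟩ :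
            modularFunctionFieldFullC K N₁) : LaurentSeries K)
      rw [atkinLehnerQ_jq K ι hQ hcop hd', atkinLehnerQ_jq K ι hQ₁ hcop₁ hd, qExpand_qExpand]
      exact qExpand_congr (by rw [alqSwap_lower hQ₁ hcop₁ hQ hcop hd, mul_comm]) _
  exact congrArg (fun φ : modularFunctionFieldFullC K N₁ →+* LaurentSeries K => φ ⟨f, hf⟩) key

/-- **`w_{Q₁ r} (f(Q^r)) = w_{Q₁} f` for `f ∈ F_{N₁}`**: `w_{Q₁ r} ∘ β = α ∘ w_{Q₁}`. -/
theorem atkinLehnerQ_qExpand {f : LaurentSeries K} (hf : f ∈ modularFunctionFieldFullC K N₁) :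
    ((atkinLehnerQ K ι hQ hcop ⟨qExpand K r f, alq_qExpand_mem K hf⟩ :
      modularFunctionFieldFullC K (N₁ * r)) : LaurentSeries K) =
      ((atkinLehnerQ K ι hQ₁ hcop₁ ⟨f, hf⟩ : modularFunctionFieldFullC K N₁) :
        LaurentSeries K) := by
  set g : modularFunctionFieldFullC K N₁ := atkinLehnerQ K ι hQ₁ hcop₁ ⟨f, hf⟩ with hg
  have h1 := atkinLehnerQ_of_lower K ι hQ₁ hcop₁ hQ hcop g.2
  have hgg : atkinLehnerQ K ι hQ₁ hcop₁ ⟨(g : LaurentSeries K), g.2⟩ = ⟨f, hf⟩ := by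
    rw [hg]
    exact atkinLehnerQ_invol K ι hQ₁ hcop₁ ⟨f, hf⟩
  rw [hgg] at h1
  have h2 : (⟨qExpand K r f, alq_qExpand_mem K hf⟩ : modularFunctionFieldFullC K (N₁ * r)) =
      atkinLehnerQ K ι hQ hcop ⟨(g : LaurentSeries K), alq_mem_of_mem_lower K g.2⟩ :=
    Subtype.ext h1.symm
  rw [h2, atkinLehnerQ_invol]

end Lower

end Fermat.Agent.S36

end
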