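import Fermat.Agent.S34.ALAnalytic

/-!
# Atkin–Lehner at an exact divisor `Q ∥ N`: the analytic substitution (helper92)

`N = M · Q`, `gcd(Q, M) = 1`, `Q a - M b = 1`.  The substitution `W τ = γ₁ • (Q τ)`,
`γ₁ = [[a, b], [M, Q]] ∈ SL₂(ℤ)` (`AL.alW Q M a b h`, no primality is used there), satisfies for
`c ∣ Q`, `c c' = Q`, `d ∣ M`:

* `alq_J : J (c d · W τ) = J (c' d · τ)`.
-/

set_option autoImplicit false
set_option linter.unusedSectionVars false

noncomputable section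

namespace Fermat.Agent.S36

open UpperHalfPlane ModularForm
open Fermat.Agent.S23 Fermat.Agent.S24 Fermat.Agent.AL
open scoped MatrixGroups ModularForm

/-- `γ_c = [[a c, b], [M, c']]`, `c c' = Q`. -/
def alqGamma (Q M : ℕ) (a b : ℤ) (h : (Q : ℤ) * a - (M : ℤ) * b = 1) (c c' : ℕ)
    (hc : c * c' = Q) : SL(2, ℤ) :=
  ⟨!![a * (c : ℤ), b; (M : ℤ), (c' : ℤ)], by
    rw [Matrix.det_fin_two_of]
    have hQ : (Q : ℤ) = (c : ℤ) * (c' : ℤ) := by exact_mod_cast hc.symm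
    rw [hQ] at h
    linear_combination h⟩

variable (Q M : ℕ) [NeZero Q] [NeZero M] (a b : ℤ) (h : (Q : ℤ) * a - (M : ℤ) * b = 1)

/-- `c · W τ = γ_c • (c' τ)` -/
theorem alq_scaleN_alW (c c' : ℕ) [NeZero c] [NeZero c'] (hc : c * c' = Q) (τ : ℍ) :
    scaleN c (alW Q M a b h τ) = alqGamma Q M a b h c c' hc • scaleN c' τ := by
  ext1
  have hd1 := denom_ne_zero (alGamma1 Q M a b h) (scaleN Q τ)
  have hd2 := denom_ne_zero (alqGamma Q M a b h c c' hc) (scaleN c' τ)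
  rw [ModularGroup.denom_apply] at hd1 hd2
  rw [alW, coe_scaleN, coe_specialLinearGroup_apply, coe_specialLinearGroup_apply]
  simp only [alGamma1, alqGamma, coe_scaleN] at hd1 hd2 ⊢
  simp at hd1 hd2 ⊢
  have hQ : (Q : ℂ) = (c : ℂ) * (c' : ℂ) := by exact_mod_cast hc.symm
  have hc0 : (c : ℂ) ≠ 0 := by exact_mod_cast NeZero.ne c
  have hc'0 : (c' : ℂ) ≠ 0 := by exact_mod_cast NeZero.ne c'
  rw [hQ] at hd1 ⊢
  field_simp

theorem alqGamma_dvd (c c' : ℕ) (hc : c * c' = Q) {d : ℕ} (hd : d ∣ M) :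
    (d : ℤ) ∣ (alqGamma Q M a b h c c' hc) 1 0 := by
  simp only [alqGamma]
  simpa using Int.natCast_dvd_natCast.mpr hd

/-- **`J (c d · W τ) = J (c' d · τ)`** for `c c' = Q`, `d ∣ M`. -/
theorem alq_J (c c' : ℕ) [NeZero c] [NeZero c'] (hc : c * c' = Q) {d : ℕ} [NeZero d]
    [NeZero (c * d)] [NeZero (c' * d)] (hd : d ∣ M) (τ : ℍ) :
    Jfun (scaleN (c * d) (alW Q M a b h τ)) = Jfun (scaleN (c' * d) τ) := by
  have h1 : scaleN (c * d) (alW Q M a b h τ) = scaleN d (scaleN c (alW Q M a b h τ)) := by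
    rw [scaleN_scaleN d c]
    ext1
    simp only [coe_scaleN]
    push_cast
    ring
  have h2 : scaleN (c' * d) τ = scaleN d (scaleN c' τ) := by
    rw [scaleN_scaleN d c']
    ext1
    simp only [coe_scaleN]
    push_cast
    ring
  rw [h1, h2, alq_scaleN_alW Q M a b h c c' hc,
    P7_thetaCompanion_smul d _ (alqGamma_dvd Q M a b h c c' hc hd), Jfun_smul]

end Fermat.Agent.S36

end
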