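import Fermat.Agent.S36.AuxLevel

/-!
# S36 / G-aux, wiring: (G36-K) at the rigid levels ⇒ (G36-K) at all levels (helper52)

* `s36aux_kummer_of_mul d` : it is enough to prove `StmtCarayolKummerAt M₁ q p` at the levels `M₁`
  divisible by `d q`, for any choice of auxiliary levels `d q ≥ 1` prime to `q`;
* `s36aux_kummer_of_rigid` : the choice `d q = 4` (`q` odd), `d 2 = 9`: it is enough to prove
  `StmtCarayolKummerAt M₁ q p` at the levels with `4 ∣ M₁` (`q ≠ 2`) resp. `9 ∣ M₁` (`q = 2`);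
* `s36aux_kummer_of_rigid36` : the same with `4 ∣ M₁` and `9 ∣ M₁` whenever `q ≥ 5`
  (`d q = 36` for `q ≥ 5`, `d 3 = 4`, `d 2 = 9`).
-/

set_option autoImplicit false
set_option linter.style.haveILetI false

noncomputable section

namespace Fermat.Agent.S36

/-- **G-aux, wiring.** (G36-K) at the levels divisible by the auxiliary level `d q`
(`gcd (d q, q) = 1`) implies (G36-K) at all levels. -/
theorem s36aux_kummer_of_mul (d : ℕ → ℕ) (hd0 : ∀ q, q.Prime → d q ≠ 0)
    (hdq : ∀ q, q.Prime → Nat.Coprime (d q) q)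
    (H : ∀ (M₁ q p : ℕ) [NeZero M₁] [NeZero q], q.Prime → p.Prime → p ≠ q → p ≠ 2 →
      q ∣ M₁ → ¬ q ^ 2 ∣ M₁ → d q ∣ M₁ → StmtCarayolKummerAt M₁ q p) :
    StmtCarayolKummer := by
  intro M₁ q p _ _ hq hp hpq hp2 hqM hq2M
  haveI : NeZero (d q) := ⟨hd0 q hq⟩
  refine s36aux_descent M₁ q p (d q) hq (hdq q hq) hqM ?_
  refine H (M₁ * d q) q p hq hp hpq hp2 (hqM.mul_right _) ?_ (Dvd.intro_left M₁ rfl)
  intro h
  exact hq2M ((Nat.Coprime.pow_left 2 (hdq q hq).symm).dvd_of_dvd_mul_right h)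

/-- **G-aux, wiring**, the rigid levels: `4 ∣ M₁` for odd `q`, `9 ∣ M₁` for `q = 2`. -/
theorem s36aux_kummer_of_rigid
    (H : ∀ (M₁ q p : ℕ) [NeZero M₁] [NeZero q], q.Prime → p.Prime → p ≠ q → p ≠ 2 →
      q ∣ M₁ → ¬ q ^ 2 ∣ M₁ → (q ≠ 2 → 4 ∣ M₁) → (q = 2 → 9 ∣ M₁) →
      StmtCarayolKummerAt M₁ q p) :
    StmtCarayolKummer := by
  refine s36aux_kummer_of_mul (fun q => if q = 2 then 9 else 4) ?_ ?_ ?_
  · intro q _
    by_cases h : q = 2
    · simp [h]
    · simp [h]
  · intro q hq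
    by_cases h : q = 2
    · subst h
      decide
    · simp only [h, if_false]
      have hodd : Nat.Coprime 2 q := (Nat.coprime_primes Nat.prime_two hq).2 (Ne.symm h)
      exact Nat.Coprime.pow_left 2 hodd
  · intro M₁ q p _ _ hq hp hpq hp2 hqM hq2M hd
    refine H M₁ q p hq hp hpq hp2 hqM hq2M ?_ ?_
    · intro h
      simpa [h] using hd
    · intro h
      simpa [h] using hd

/-- **G-aux, wiring**, the rigid levels, strong form: `4 ∣ M₁` unless `q = 2`, `9 ∣ M₁` unless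
`q = 3`. -/
theorem s36aux_kummer_of_rigid36
    (H : ∀ (M₁ q p : ℕ) [NeZero M₁] [NeZero q], q.Prime → p.Prime → p ≠ q → p ≠ 2 →
      q ∣ M₁ → ¬ q ^ 2 ∣ M₁ → (q ≠ 2 → 4 ∣ M₁) → (q ≠ 3 → 9 ∣ M₁) →
      StmtCarayolKummerAt M₁ q p) :
    StmtCarayolKummer := by
  refine s36aux_kummer_of_mul (fun q => if q = 2 then 9 else if q = 3 then 4 else 36) ?_ ?_ ?_
  · intro q _
    by_cases h : q = 2
    · simp [h]
    · by_cases h3 : q = 3
      · simp [h3]
      · simp [h, h3]
  · intro q hq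
    by_cases h : q = 2
    · subst h
      decide
    · have hodd : Nat.Coprime 2 q := (Nat.coprime_primes Nat.prime_two hq).2 (Ne.symm h)
      by_cases h3 : q = 3
      · subst h3
        decide
      · have h3' : Nat.Coprime 3 q := (Nat.coprime_primes Nat.prime_three hq).2 (Ne.symm h3)
        simp only [h, h3, if_false]
        have h36 : (36 : ℕ) = 2 ^ 2 * 3 ^ 2 := by norm_num
        rw [h36]
        exact Nat.Coprime.mul_left (Nat.Coprime.pow_left 2 hodd) (Nat.Coprime.pow_left 2 h3')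
  · intro M₁ q p _ _ hq hp hpq hp2 hqM hq2M hd
    refine H M₁ q p hq hp hpq hp2 hqM hq2M ?_ ?_
    · intro h
      by_cases h3 : q = 3
      · simpa [h, h3] using hd
      · have h36 : 36 ∣ M₁ := by simpa [h, h3] using hd
        exact Dvd.dvd.trans (by norm_num) h36
    · intro h3
      by_cases h : q = 2
      · simpa [h] using hd
      · have h36 : 36 ∣ M₁ := by simpa [h, h3] using hd
        exact Dvd.dvd.trans (by norm_num) h36

end Fermat.Agent.S36
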