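import Fermat.Agent.S36.N2PtsReg

/-!
# S36 / (I6)(b): the uniformizer at a point of `C_c` only, ABSTRACT (helper31)

Chart `B ⊆ F`, prime `𝔫`, `O = B_𝔫 = ls_localSubring 𝔫`, vertical valuations `V : κ → …`, globals
(KR), (RAM) as in `S36/N2PtsReg.lean`; `c₁` the ONLY component through `𝔫`.

* `s36cc_KRloc_pow` : `ϖ ^ n · x ∈ O`, `x ∈ V c₁` ⇒ `x ∈ O`.
* `s36cc_not_isUnit_of_mem_nonunits` : `x ∈ O ∩ 𝔪(V c₁)` is not a unit of `O`.
* `s36cc_exists_XY` : **the uniformizer**.  `X ∈ B`, `U := X ^ e / ϖ ∈ V c₁`; `W W' = ϖ ^ n` in `B`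
  with `W' / ϖ ^ n ∈ V c₁`; `G ∉ 𝔫`, `S ∈ B`, and the congruence `U ^ k · W · S ≡ G` mod `𝔪(V c₁)`
  ⇒ `∃ X' Y ∈ O`, `X' = X`, `X' · Y = ϖ`.
  (Modular use: `X = t(Q^{q²}) − t`, `e = q − 1`, `W = α(Δ/Δ_q)`, `W' = α(q¹²Δ_q/Δ)`, `n = 12`,
  `k = 6`, `G = g(t)^(q−1)`: `S36/PtsCTheta.lean`, `NOTES/S36-PtsC.md`.)
-/

set_option autoImplicit false
set_option linter.unusedSectionVars false
set_option linter.unusedVariables false
set_option linter.style.haveILetI false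

namespace Fermat.Agent.S36

open Fermat.Agent.UNIP Fermat.Agent.STB

section Abs

variable {F : Type*} [Field F] {B : Type*} [CommRing B] [Algebra B F]
variable (hinj : Function.Injective (algebraMap B F)) (𝔫 : Ideal B) [h𝔫 : 𝔫.IsPrime]
variable {κ : Type*} [Finite κ]

/-- iterated local (KR) -/
theorem s36cc_KRloc_pow (V : κ → ValuationSubring F) (hBV : ∀ c (b : B), algebraMap B F b ∈ V c)
    (ϖ : B)
    (hKR : ∀ x : F, (∃ b : B, algebraMap B F ϖ * x = algebraMap B F b) → (∀ c, x ∈ V c) →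
      ∃ b : B, x = algebraMap B F b)
    (Q : ℕ) (hram : ∀ c (x : F), x ∈ (V c).nonunits → ∃ z ∈ V c, x ^ Q = algebraMap B F ϖ * z)
    (n : ℕ) (x : F) (hx : algebraMap B F ϖ ^ n * x ∈ ls_localSubring (F := F) 𝔫)
    (hxV : ∀ c, (∀ b : B, algebraMap B F b ∈ (V c).nonunits → b ∈ 𝔫) → x ∈ V c) :
    x ∈ ls_localSubring (F := F) 𝔫 := by
  induction n with
  | zero => simpa using hx
  | succ n ih =>
    apply ih
    apply s36n2p_KRloc 𝔫 V hBV ϖ hKR Q hram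
    · rw [← mul_assoc, ← pow_succ']
      exact hx
    · intro c hc
      exact (V c).mul_mem _ _ ((V c).pow_mem (hBV c ϖ) n) (hxV c hc)

include hinj in
/-- an element of `O ∩ 𝔪(V)` is not a unit of `O` (`V` through `𝔫`) -/
theorem s36cc_not_isUnit_of_mem_nonunits (V : ValuationSubring F)
    (hBV : ∀ b : B, algebraMap B F b ∈ V)
    (hthr : ∀ b : B, algebraMap B F b ∈ V.nonunits → b ∈ 𝔫)
    (x : ls_localSubring (F := F) 𝔫) (hx : (x : F) ∈ V.nonunits) : ¬ IsUnit x := by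
  rintro ⟨u, rfl⟩
  have h1 : ((u⁻¹ : (ls_localSubring (F := F) 𝔫)ˣ) : ls_localSubring (F := F) 𝔫).1 ∈ V :=
    stb_gc_le 𝔫 V hBV hthr _ (Subtype.property _)
  have h2 : ((u : ls_localSubring (F := F) 𝔫) : F) *
      (((u⁻¹ : (ls_localSubring (F := F) 𝔫)ˣ) : ls_localSubring (F := F) 𝔫) : F) = 1 := by
    have := congrArg Subtype.val (Units.mul_inv u)
    exact this
  have h3 : V.valuation ((u : ls_localSubring (F := F) 𝔫) : F) < 1 :=
    V.mem_nonunits_iff.mp hx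
  have h4 : V.valuation
      ((((u⁻¹ : (ls_localSubring (F := F) 𝔫)ˣ) : ls_localSubring (F := F) 𝔫) : F)) ≤ 1 :=
    (V.valuation_le_one_iff _).mpr h1
  have h5 := congrArg V.valuation h2
  rw [map_mul, map_one] at h5
  have h6 := mul_lt_mul_of_lt_of_le_of_nonneg_of_pos h3 h4 zero_le one_pos
  rw [h5, one_mul] at h6
  exact lt_irrefl _ h6

include hinj in
/-- **the uniformizer at a point with one component** -/
theorem s36cc_exists_XY (V : κ → ValuationSubring F)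
    (hBV : ∀ c (b : B), algebraMap B F b ∈ V c) (ϖ : B)
    (hKR : ∀ x : F, (∃ b : B, algebraMap B F ϖ * x = algebraMap B F b) → (∀ c, x ∈ V c) →
      ∃ b : B, x = algebraMap B F b)
    (Q : ℕ) (hram : ∀ c (x : F), x ∈ (V c).nonunits → ∃ z ∈ V c, x ^ Q = algebraMap B F ϖ * z)
    (hϖ0 : algebraMap B F ϖ ≠ 0)
    (c₁ : κ) (hc₁ : ∀ b : B, algebraMap B F b ∈ (V c₁).nonunits → b ∈ 𝔫)
    (honly : ∀ c, (∀ b : B, algebraMap B F b ∈ (V c).nonunits → b ∈ 𝔫) → c = c₁)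
    (X : B) (e : ℕ) (he : 1 ≤ e) (U : F)
    (hU : algebraMap B F ϖ * U = algebraMap B F X ^ e) (hUV : U ∈ V c₁)
    (W W' : B) (n : ℕ) (hWW' : W * W' = ϖ ^ n) (T : F)
    (hT : algebraMap B F ϖ ^ n * T = algebraMap B F W') (hTV : T ∈ V c₁)
    (k : ℕ) (hk : k ≠ 0) (G S : B) (hG : G ∉ 𝔫)
    (hcong : U ^ k * algebraMap B F W * algebraMap B F S - algebraMap B F G ∈ (V c₁).nonunits) :
    ∃ X' Y : ls_localSubring (F := F) 𝔫, (X' : F) = algebraMap B F X ∧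
      X' * Y = s36n2pToLoc (F := F) 𝔫 ϖ := by
  haveI := ls_localSubring_isLocalRing (F := F) hinj 𝔫
  have h1 : (1 : B) ∉ 𝔫 := fun h => h𝔫.ne_top ((Ideal.eq_top_iff_one 𝔫).mpr h)
  have hV : ∀ x : F, x ∈ V c₁ →
      ∀ c, (∀ b : B, algebraMap B F b ∈ (V c).nonunits → b ∈ 𝔫) → x ∈ V c := by
    intro x hx c hc
    rw [honly c hc]
    exact hx
  -- `U ∈ O`
  have hUO : U ∈ ls_localSubring (F := F) 𝔫 := by
    apply s36n2p_KRloc 𝔫 V hBV ϖ hKR Q hram U _ (hV U hUV)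
    rw [hU, ← map_pow]
    exact ls_algebraMap_mem 𝔫 _
  -- `T ∈ O`, `W T = 1`
  have hTO : T ∈ ls_localSubring (F := F) 𝔫 := by
    apply s36cc_KRloc_pow 𝔫 V hBV ϖ hKR Q hram n T _ (hV T hTV)
    rw [hT]
    exact ls_algebraMap_mem 𝔫 _
  have hWT : algebraMap B F W * T = 1 := by
    have h2 : algebraMap B F ϖ ^ n * (algebraMap B F W * T) = algebraMap B F ϖ ^ n * 1 := by
      rw [mul_one, mul_left_comm, hT, ← map_mul, hWW', map_pow]
    exact mul_left_cancel₀ (pow_ne_zero n hϖ0) h2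
  set u : ls_localSubring (F := F) 𝔫 := ⟨U, hUO⟩ with hu
  set t : ls_localSubring (F := F) 𝔫 := ⟨T, hTO⟩ with ht
  set w : ls_localSubring (F := F) 𝔫 := s36n2pToLoc (F := F) 𝔫 W with hw
  set s : ls_localSubring (F := F) 𝔫 := s36n2pToLoc (F := F) 𝔫 S with hs
  set g : ls_localSubring (F := F) 𝔫 := s36n2pToLoc (F := F) 𝔫 G with hg
  have hgu : IsUnit g :=
    ls_isUnit_of_not_mem hinj 𝔫 g (b := G) (s := 1) hG h1 (by rw [map_one, one_mul]; rfl)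
  have hz : ¬ IsUnit (u ^ k * w * s - g) := by
    apply s36cc_not_isUnit_of_mem_nonunits hinj 𝔫 (V c₁) (hBV c₁) hc₁
    exact hcong
  have hZ : IsUnit (u ^ k * w * s) := by
    by_contra hnu
    have h3 : u ^ k * w * s ∈ nonunits (ls_localSubring (F := F) 𝔫) := hnu
    have h4 : -(u ^ k * w * s - g) ∈ nonunits (ls_localSubring (F := F) 𝔫) := by
      rw [mem_nonunits_iff, IsUnit.neg_iff]
      exact hz
    have h5 := IsLocalRing.nonunits_add h3 h4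
    have e5 : u ^ k * w * s + -(u ^ k * w * s - g) = g := by ring
    rw [e5] at h5
    exact h5 hgu
  have huu : IsUnit u := by
    have h6 : IsUnit (u ^ k) := isUnit_of_mul_isUnit_left (isUnit_of_mul_isUnit_left hZ)
    exact (isUnit_pow_iff hk).mp h6
  obtain ⟨v, hv⟩ := huu
  refine ⟨s36n2pToLoc (F := F) 𝔫 X, s36n2pToLoc (F := F) 𝔫 X ^ (e - 1) * (v⁻¹ : _ˣ), rfl, ?_⟩
  have h7 : s36n2pToLoc (F := F) 𝔫 X ^ e = s36n2pToLoc (F := F) 𝔫 ϖ * u := by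
    apply Subtype.ext
    show (algebraMap B F X) ^ e = algebraMap B F ϖ * U
    rw [hU]
  have h8 : s36n2pToLoc (F := F) 𝔫 X * s36n2pToLoc (F := F) 𝔫 X ^ (e - 1) =
      s36n2pToLoc (F := F) 𝔫 X ^ e := by
    rw [← pow_succ', Nat.sub_add_cancel he]
  rw [← mul_assoc, h8, h7, ← hv, mul_assoc, Units.mul_inv, mul_one]

end Abs

section Val

variable {F : Type*} [Field F]

/-- `hX1`: `X ^ e = ϖ U`, `ϖ ∈ 𝔪(V)`, `U ∈ V` ⇒ `X ∈ 𝔪(V)`. -/
theorem s36cc_hX1 (V : ValuationSubring F) {ϖ X U : F} {e : ℕ}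
    (hU : ϖ * U = X ^ e) (hUV : U ∈ V) (hϖ : ϖ ∈ V.nonunits) : X ∈ V.nonunits := by
  rw [V.mem_nonunits_iff] at hϖ ⊢
  by_contra h
  rw [not_lt] at h
  have h1 : (1 : ValuationSubring.ValueGroup V) ≤ V.valuation X ^ e := one_le_pow₀ h
  rw [← map_pow, ← hU, map_mul] at h1
  have h2 : V.valuation U ≤ 1 := (V.valuation_le_one_iff _).mpr hUV
  have h3 := mul_lt_mul_of_lt_of_le_of_nonneg_of_pos hϖ h2 zero_le one_pos
  rw [one_mul] at h3
  exact lt_irrefl _ (lt_of_le_of_lt h1 h3)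

/-- `hU`: `X ^ e = ϖ U` with `U` a unit of `V`, and `x ∈ 𝔪(V) ⇒ x ^ e ∈ ϖ V`
⇒ `𝔪(V) = X V`. -/
theorem s36cc_hU (V : ValuationSubring F) {ϖ X U : F} {e : ℕ} (he : e ≠ 0)
    (hU : ϖ * U = X ^ e) (hUV : V.valuation U = 1) (hX0 : X ≠ 0)
    (hram : ∀ x : F, x ∈ V.nonunits → ∃ z ∈ V, x ^ e = ϖ * z)
    (x : F) (hx : x ∈ V.nonunits) : ∃ z ∈ V, x = X * z := by
  refine ⟨x / X, ?_, by field_simp⟩
  obtain ⟨z, hz, hxz⟩ := hram x hx
  rw [← V.valuation_le_one_iff]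
  have h1 : V.valuation (x / X) ^ e = V.valuation z := by
    have hϖ0 : ϖ ≠ 0 := by
      rintro rfl
      rw [zero_mul] at hU
      exact pow_ne_zero e hX0 hU.symm
    rw [← map_pow, div_pow, hxz, ← hU, map_div₀, map_mul, map_mul, hUV, mul_one,
      mul_div_assoc, mul_comm, div_mul_cancel₀]
    exact (map_ne_zero _).mpr hϖ0
  have h2 : V.valuation z ≤ 1 := (V.valuation_le_one_iff _).mpr hz
  rw [← h1] at h2
  exact (pow_le_one_iff_of_nonneg zero_le he).mp h2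

end Val

end Fermat.Agent.S36
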