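import Fermat.Agent.S36.PtsMid
import Fermat.Agent.S36.PtsCAbs
import Fermat.Agent.S33.WildPhiDeg

/-!
# S36 (I6): cusp points of `C_c` — the ABSTRACT part (helper58)

* `s36cm_unit` : chart `B`, point `𝔫` with ONE component `V c₁` through it, `X ∈ O = B_𝔫`,
  `U := X ^ e / ϖ ∈ V c₁`, `U · S ≡ G` at `V c₁` with `S, G ∈ B`, `G ∉ 𝔫`
  ⇒ `U` is (the value of) a unit of `O`.  (Then `s36pm_ptInput` (helper93) applies with `g := U`.)
* `s36cm_x0_mem` : MANIFEST integrality of `x₀ = J / Jqq`: `Φ(Jqq, Jq) = 0` for a monic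
  `Φ ∈ ℤ[Y][X]` of `X`-degree `q + 1` with `deg_Y (coeff i) ≤ q` (`1 ≤ i ≤ q`),
  `deg_Y (coeff 0) ≤ q + 1`; `O ⊆ F` an integrally closed subring containing `J⁻¹`, `Jq⁻¹`,
  `J ^ q / Jq` and the inverse of `c̃₀(Jq⁻¹)` (`c̃₀` the reflected constant coefficient)
  ⇒ `J / Jqq ∈ O`.
-/

set_option autoImplicit false
set_option linter.unusedSectionVars false
set_option linter.unusedVariables false
set_option linter.style.haveILetI false

noncomputable section

namespace Fermat.Agent.S36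

open Polynomial Fermat.Agent.UNIP Fermat.Agent.STB Fermat.Agent.S28 Fermat.Agent.S33

section Unit

variable {F : Type*} [Field F] {B : Type*} [CommRing B] [Algebra B F]
variable (hinj : Function.Injective (algebraMap B F)) (𝔫 : Ideal B) [h𝔫 : 𝔫.IsPrime]
variable {κ : Type*} [Finite κ]

include hinj in
/-- `U = X ^ e / ϖ` is a unit of `O` -/
theorem s36cm_unit (V : κ → ValuationSubring F)
    (hBV : ∀ c (b : B), algebraMap B F b ∈ V c) (ϖ : B)
    (hKR : ∀ x : F, (∃ b : B, algebraMap B F ϖ * x = algebraMap B F b) → (∀ c, x ∈ V c) →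
      ∃ b : B, x = algebraMap B F b)
    (Q : ℕ) (hram : ∀ c (x : F), x ∈ (V c).nonunits → ∃ z ∈ V c, x ^ Q = algebraMap B F ϖ * z)
    (hϖ0 : algebraMap B F ϖ ≠ 0)
    (c₁ : κ) (hc₁ : ∀ b : B, algebraMap B F b ∈ (V c₁).nonunits → b ∈ 𝔫)
    (honly : ∀ c, (∀ b : B, algebraMap B F b ∈ (V c).nonunits → b ∈ 𝔫) → c = c₁)
    (X : ls_localSubring (F := F) 𝔫) (e : ℕ)
    (hUV : (X : F) ^ e / algebraMap B F ϖ ∈ V c₁)
    (S G : B) (hG : G ∉ 𝔫)
    (hcong : (X : F) ^ e / algebraMap B F ϖ * algebraMap B F S - algebraMap B F G ∈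
      (V c₁).nonunits) :
    ∃ g : ls_localSubring (F := F) 𝔫, IsUnit g ∧ (g : F) = (X : F) ^ e / algebraMap B F ϖ := by
  haveI := ls_localSubring_isLocalRing (F := F) hinj 𝔫
  have h1 : (1 : B) ∉ 𝔫 := fun h => h𝔫.ne_top ((Ideal.eq_top_iff_one 𝔫).mpr h)
  -- `U ∈ O`
  have hUO : (X : F) ^ e / algebraMap B F ϖ ∈ ls_localSubring (F := F) 𝔫 := by
    refine s36n2p_KRloc 𝔫 V hBV ϖ hKR Q hram _ ?_ ?_
    · rw [mul_div_cancel₀ _ hϖ0]
      exact (X ^ e).2
    · intro c hc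
      rw [honly c hc]
      exact hUV
  set U : ls_localSubring (F := F) 𝔫 := ⟨_, hUO⟩ with hUdef
  refine ⟨U, ?_, rfl⟩
  -- `G` is a unit of `O`
  have hGu : IsUnit (s36n2pToLoc (F := F) 𝔫 G) :=
    ls_isUnit_of_not_mem hinj 𝔫 (s36n2pToLoc (F := F) 𝔫 G) (b := G) (s := 1) hG h1 (by
      rw [map_one, one_mul]; rfl)
  -- `U · S` is a unit of `O`
  have hUS : IsUnit (U * s36n2pToLoc (F := F) 𝔫 S) :=
    s36pm_isUnit_of_congr hinj 𝔫 (V c₁) (hBV c₁) hc₁ (U * s36n2pToLoc (F := F) 𝔫 S)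
      (s36n2pToLoc (F := F) 𝔫 G) hGu hcong
  exact isUnit_of_mul_isUnit_left hUS

end Unit

section Integral

variable {F : Type*} [Field F]

/-- values of integral polynomials at elements of a subring -/
theorem s36cm_evalInt_mem (O : Subring F) {x : F} (hx : x ∈ O) (c : Polynomial ℤ) :
    evalInt x c ∈ O := by
  show Polynomial.eval₂ (Int.castRingHom F) x c ∈ O
  rw [Polynomial.eval₂_eq_sum_range]
  refine O.sum_mem fun i _ => O.mul_mem ?_ (O.pow_mem hx i)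
  rw [eq_intCast]
  exact intCast_mem O _

/-- `c(y) = c̃(y⁻¹) · y ^ N` for `deg c ≤ N` -/
theorem s36cm_evalInt_eq {y : F} (hy : y ≠ 0) (N : ℕ) (c : Polynomial ℤ)
    (hc : c.natDegree ≤ N) : evalInt y c = evalInt y⁻¹ (reflect N c) * y ^ N := by
  rw [wpd_evalInt_reflect hy N c hc, mul_assoc, ← mul_pow, inv_mul_cancel₀ hy, one_pow, mul_one]

/-- **manifest integrality of `J / Jqq`** -/
theorem s36cm_x0_mem (q : ℕ) (hq : 1 ≤ q) (Φ : Polynomial (Polynomial ℤ)) (hΦ : Φ.Monic)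
    (hdeg : Φ.natDegree = q + 1)
    (hpos : ∀ i, 1 ≤ i → i ≤ q → (Φ.coeff i).natDegree ≤ q)
    (hzero : (Φ.coeff 0).natDegree ≤ q + 1)
    (O : Subring F) (hOic : ∀ x : F, IsIntegral O x → x ∈ O)
    {J Jq Jqq : F} (hJ : J ≠ 0) (hJq : Jq ≠ 0) (hJqq : Jqq ≠ 0)
    (hrel : Φ.eval₂ (evalInt Jq) Jqq = 0)
    (hb : J⁻¹ ∈ O) (ha : Jq⁻¹ ∈ O) (hu : J ^ q * Jq⁻¹ ∈ O)
    (γ' : F) (hγ' : γ' ∈ O)
    (hγ : γ' * evalInt Jq⁻¹ (reflect (q + 1) (Φ.coeff 0)) = 1) :
    J * Jqq⁻¹ ∈ O := by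
  classical
  apply hOic
  set x₀ : F := J * Jqq⁻¹ with hx₀
  set γ : F := evalInt Jq⁻¹ (reflect (q + 1) (Φ.coeff 0)) with hγdef
  have hγ0 : γ ≠ 0 := fun h0 => by rw [h0, mul_zero] at hγ; exact zero_ne_one hγ
  have hC0 : evalInt Jq (Φ.coeff 0) = γ * Jq ^ (q + 1) :=
    s36cm_evalInt_eq hJq (q + 1) _ hzero
  have hC0ne : evalInt Jq (Φ.coeff 0) ≠ 0 := by
    rw [hC0]
    exact mul_ne_zero hγ0 (pow_ne_zero _ hJq)
  -- `J · Jq⁻¹ ∈ O`
  have hJa : J * Jq⁻¹ ∈ O := by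
    have e1 : J * Jq⁻¹ = J⁻¹ ^ (q - 1) * (J ^ q * Jq⁻¹) := by
      have : J ^ q = J ^ (q - 1) * J := by rw [← pow_succ, Nat.sub_add_cancel hq]
      rw [this, inv_pow]
      field_simp
    rw [e1]
    exact O.mul_mem (O.pow_mem hb _) hu
  -- the coefficients
  set e : ℕ → F := fun i => evalInt Jq (Φ.coeff (i + 1)) * J ^ (i + 1) /
    evalInt Jq (Φ.coeff 0) with he
  have heO : ∀ i, i < q + 1 → e i ∈ O := by
    intro i hi
    by_cases hiq : i = q
    swap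
    · -- `1 ≤ i + 1 ≤ q`
      have hlt : i < q := by omega
      have h1 := s36cm_evalInt_eq hJq q (Φ.coeff (i + 1)) (hpos (i + 1) (by omega) (by omega))
      have e1 : e i = evalInt Jq⁻¹ (reflect q (Φ.coeff (i + 1))) *
          (J⁻¹ ^ (q - (i + 1)) * (J ^ q * Jq⁻¹)) * γ' := by
        have h3 : J ^ q = J ^ (q - (i + 1)) * J ^ (i + 1) := by
          rw [← pow_add, Nat.sub_add_cancel (by omega)]
        have h4 : γ' = γ⁻¹ := eq_inv_of_mul_eq_one_left hγ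
        rw [he]
        simp only
        rw [h1, hC0, h3, h4, pow_succ Jq q, inv_pow]
        field_simp
      rw [e1]
      exact O.mul_mem (O.mul_mem (s36cm_evalInt_mem O ha _)
        (O.mul_mem (O.pow_mem hb _) hu)) hγ'
    · -- the top coefficient
      have h1 : Φ.coeff (q + 1) = 1 := by
        have := hΦ.coeff_natDegree
        rwa [hdeg] at this
      rw [hiq]
      have e1 : e q = (J * Jq⁻¹) ^ (q + 1) * γ' := by
        have h4 : γ' = γ⁻¹ := eq_inv_of_mul_eq_one_left hγ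
        rw [he]
        simp only
        rw [h1, map_one, one_mul, hC0, h4, mul_pow, inv_pow]
        field_simp
      rw [e1]
      exact O.mul_mem (O.pow_mem hJa _) hγ'
  -- the relation
  have hsum : x₀ ^ (q + 1) + ∑ i ∈ Finset.range (q + 1), e i * x₀ ^ (q - i) = 0 := by
    have h0 := hrel
    rw [Polynomial.eval₂_eq_sum_range, hdeg, Finset.sum_range_succ'] at h0
    have hx : x₀ * Jqq = J := by
      rw [hx₀, mul_assoc, inv_mul_cancel₀ hJqq, mul_one]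
    have h1 : x₀ ^ (q + 1) * (∑ i ∈ Finset.range (q + 1),
        evalInt Jq (Φ.coeff (i + 1)) * Jqq ^ (i + 1) +
          evalInt Jq (Φ.coeff 0) * Jqq ^ 0) = 0 := by rw [h0, mul_zero]
    rw [mul_add, Finset.mul_sum, pow_zero, mul_one] at h1
    have h2 : ∀ i ∈ Finset.range (q + 1),
        x₀ ^ (q + 1) * (evalInt Jq (Φ.coeff (i + 1)) * Jqq ^ (i + 1)) =
          evalInt Jq (Φ.coeff 0) * (e i * x₀ ^ (q - i)) := by
      intro i hi
      have hi' : i < q + 1 := Finset.mem_range.mp hi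
      have h3 : x₀ ^ (q + 1) = x₀ ^ (q - i) * x₀ ^ (i + 1) := by
        rw [← pow_add]
        congr 1
        omega
      rw [he]
      simp only
      rw [h3, ← hx, mul_pow]
      field_simp
      ring
    rw [Finset.sum_congr rfl h2, ← Finset.mul_sum] at h1
    have h4 : evalInt Jq (Φ.coeff 0) *
        (x₀ ^ (q + 1) + ∑ i ∈ Finset.range (q + 1), e i * x₀ ^ (q - i)) = 0 := by
      rw [mul_add, add_comm, mul_comm (evalInt Jq (Φ.coeff 0)) (x₀ ^ (q + 1))]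
      exact h1
    exact (mul_eq_zero.mp h4).resolve_left hC0ne
  -- the monic polynomial
  set eO : ℕ → O := fun i => if h : i < q + 1 then ⟨e i, heO i h⟩ else 0 with heOdef
  set p' : Polynomial O := ∑ i ∈ Finset.range (q + 1), C (eO i) * X ^ (q - i) with hp'
  have hp'deg : p'.degree < ((q + 1 : ℕ) : WithBot ℕ) := by
    rw [hp']
    refine lt_of_le_of_lt (Polynomial.degree_sum_le _ _) ?_
    rw [Finset.sup_lt_iff (WithBot.bot_lt_coe _)]
    intro i _
    refine lt_of_le_of_lt (Polynomial.degree_C_mul_X_pow_le _ _) ?_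
    exact_mod_cast Nat.lt_succ_of_le (Nat.sub_le q i)
  refine ⟨X ^ (q + 1) + p', Polynomial.monic_X_pow_add hp'deg, ?_⟩
  rw [Polynomial.eval₂_add, Polynomial.eval₂_pow, Polynomial.eval₂_X, hp',
    Polynomial.eval₂_finsetSum]
  rw [← hsum]
  congr 1
  refine Finset.sum_congr rfl fun i hi => ?_
  have hi' : i < q + 1 := Finset.mem_range.mp hi
  rw [Polynomial.eval₂_mul, Polynomial.eval₂_C, Polynomial.eval₂_pow, Polynomial.eval₂_X, heOdef]
  simp only [dif_pos hi']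
  rfl

end Integral

end Fermat.Agent.S36

end
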