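/-
S36 (Carayol at `q² ∥ M`), geometric clause, piece G-topA (helper84): INTERFACE.

`S36PtInput` = what the modular side (G-reg, N2-pts, G-inc) delivers at ONE closed point of the
special fibre, with local ring `O ⊆ F` and `thr c` = "the component `V c` passes through the
point".  It is consumed by `s36ta_main` (`S36/TopAbs.lean`), which produces `AqPointData`
(`S36/AbstractQ2.lean`) for the function `Y` made by the chain
`ng_vertical → weak approximation → ng_toric_pow → s36ng_trivial_gluing`.

* `fac`  : LOCAL FACTORISATION (UFD): every `y ≠ 0` whose horizontal orders are divisible by `m`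
           (`Hor y`) and which is a unit at the components through the point is `ε · γ ^ m`,
           `ε ∈ O^×`.
* `res`  : NORMAL BRANCHES: `STB.StbRes O (V c)` for the components through the point.
* `inc`  : INCIDENCE: either exactly ONE component passes through the point, or ALL THREE do
           (a triple point); at a triple point: the local packages `NgLoc` of helper19 for `α`
           and for `β` (local rings of the two images at level `q M'`) and the CONDUCTOR clause
           (from pairwise transversality by `aq_cond_thr_of_transversal`, or from generators by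
           `aq_cond_of_generators`).
-/
import Fermat.Agent.S36.NormGlue
import Fermat.Agent.STB.AbstractT2

set_option autoImplicit false

namespace Fermat.Agent.S36

open Fermat.Agent.UNIP Fermat.Agent.STB

variable {F₁ F : Type*} [Field F₁] [Field F] {κ : Type*}

/-- **The input at a closed point** (see the header). -/
structure S36PtInput (Hor : F → Prop) (m : ℕ) (α β : F₁ →+* F) (Nα Nβ : F →* F₁) (ζ₁ : F₁)
    (V : κ → ValuationSubring F) (ca cb cc : κ) (O : Subring F) [IsLocalRing O]
    (thr : κ → Prop) : Prop where
  /-- local factorisation (UFD + the dictionary "prime elements ↔ components and places") -/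
  fac : ∀ y : F, y ≠ 0 → Hor y → (∀ c, thr c → (V c).valuation y = 1) → StbFacAt O m y
  /-- the branches through the point are normal -/
  res : ∀ c, thr c → StbRes O (V c)
  /-- one component, or a triple point with its local packages and the conductor clause -/
  inc : (∃ c, thr c ∧ ∀ c', thr c' → c' = c) ∨
    (thr ca ∧ thr cb ∧ thr cc ∧
      (∃ Oα : Subring F₁, NgLoc α Nα (V ca) (V cc) m ζ₁ O Oα) ∧
      (∃ Oβ : Subring F₁, NgLoc β Nβ (V cb) (V cc) m ζ₁ O Oβ) ∧
      ∃ K : ℕ, ∀ x : κ → O, (∀ c, thr c → x c ∈ IsLocalRing.maximalIdeal O ^ K) →
        ∃ y : O, ∀ c, thr c → ((y - x c : O) : F) ∈ (V c).nonunits)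

end Fermat.Agent.S36
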