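/-
S36 (Carayol at `q² ∥ M`), geometric clause, input (I6) `hpts` of `s36tb_small`: CHART
INDEPENDENCE (helper84).

`hpts` asks for `S36PtInput … (atO π t i) (atInc π t V i)` at every closed point `i` of BOTH charts
`B_t`, `B_{t⁻¹}` (integral closures of `A₀[t]`, `A₀[t⁻¹]` in `F`).  `S36PtInput` depends only on
the local ring `O = atO π t i ⊆ F` and on `thr = atInc π t V i`, and `thr c ↔ O ⊆ V c`.  A closed
point `𝔫` of `B_{t⁻¹}` with `t⁻¹ ∉ 𝔫` has the same local ring as a closed point of `B_t`.  Hence: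

* `s36pc_congr`       : `S36PtInput` transfers along `O = O'`, `thr ↔ thr'`.
* `s36pc_through_iff` : `atThrough 𝔫 W ↔ atLoc 𝔫 ⊆ W`.
* `s36pc_exists_pt`   : `u u' = 1`, `𝔫` a closed point of `B_u`, `u ∉ 𝔫` ⇒ there is a closed point
                        `𝔫'` of `B_{u'}` with `atLoc 𝔫' = atLoc 𝔫`.
* `s36pc_hpts`        : `hpts` at all points of the chart `t` + at the points of the chart `t⁻¹`
                        with `t⁻¹ ∈ 𝔫` (the points over `t = ∞`) ⇒ `hpts` everywhere.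
-/
import Fermat.Agent.S36.TopAbsDef

set_option autoImplicit false
set_option linter.unusedSectionVars false
set_option linter.unusedVariables false
set_option linter.style.haveILetI false

namespace Fermat.Agent.S36

open Fermat.Agent.UNIP Fermat.Agent.STB Fermat.Agent.INJ Polynomial

section Congr

variable {F₁ F : Type*} [Field F₁] [Field F] {κ : Type*}

/-- `S36PtInput` depends only on the local ring and on the incidence predicate. -/
theorem s36pc_congr {Hor : F → Prop} {m : ℕ} {α β : F₁ →+* F} {Nα Nβ : F →* F₁} {ζ₁ : F₁}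
    {V : κ → ValuationSubring F} {ca cb cc : κ} {O O' : Subring F} [hO : IsLocalRing O]
    [hO' : IsLocalRing O'] (h : O = O') {thr thr' : κ → Prop} (hthr : ∀ c, thr c ↔ thr' c)
    (H : S36PtInput Hor m α β Nα Nβ ζ₁ V ca cb cc O thr) :
    S36PtInput Hor m α β Nα Nβ ζ₁ V ca cb cc O' thr' := by
  subst h
  have h2 : thr = thr' := funext fun c => propext (hthr c)
  subst h2
  exact H

end Congr

section Chart

variable {A₀ E F : Type*} [CommRing A₀] [IsDomain A₀] [IsDiscreteValuationRing A₀]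
  [Field E] [Algebra A₀ E] [IsFractionRing A₀ E] [CharZero E]
  [Field F] [Algebra E F] [Algebra A₀ F] [IsScalarTower A₀ E F]
  {π : A₀} {κ : Type*}

/-- `u ∈ B_u` -/
theorem s36pc_self_mem (u : F) : u ∈ zchClosure (A₀ := A₀) ({u} : Set F) := by
  refine mem_zchClosure.mpr ?_
  have h : u = algebraMap ↥(Algebra.adjoin A₀ ({u} : Set F)) F
      ⟨u, Algebra.subset_adjoin (Set.mem_singleton u)⟩ := rfl
  rw [h]
  exact isIntegral_algebraMap

/-- **Incidence in terms of the local ring**: `W` passes through `𝔫` iff `(B_u)_𝔫 ⊆ W`. -/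
theorem s36pc_through_iff {u : F} (𝔫 : AtPt (F := F) π u) (W : ValuationSubring F)
    (hBW : ∀ b : F, IsIntegral ↥(Algebra.adjoin A₀ {u}) b → b ∈ W) :
    atThrough 𝔫 W ↔ ∀ x ∈ atLoc 𝔫, x ∈ W := by
  haveI := 𝔫.2.1.isPrime
  refine ⟨stb_loc_le 𝔫 W hBW, fun h b hb => ?_⟩
  by_contra hb𝔫
  have hb0 : (b : F) ≠ 0 := by
    intro h0
    apply hb𝔫
    have : b = 0 := Subtype.ext h0
    rw [this]
    exact 𝔫.1.zero_mem
  have hinv : (b : F)⁻¹ ∈ atLoc 𝔫 := by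
    refine ⟨1, b, hb𝔫, ?_⟩
    show (b : F) * (b : F)⁻¹ = ((1 : ↥(zchClosure (A₀ := A₀) ({u} : Set F))) : F)
    rw [mul_inv_cancel₀ hb0]
    rfl
  have h1 : (b : F)⁻¹ ∈ W := h _ hinv
  rcases (W.mem_nonunits_iff_or).mp hb with h0 | h0
  · exact hb0 h0
  · exact h0 h1

/-- incidence depends only on the local ring -/
theorem s36pc_through_congr {u u' : F} (𝔫 : AtPt (F := F) π u) (𝔫' : AtPt (F := F) π u')
    (h : atLoc 𝔫' = atLoc 𝔫) (W : ValuationSubring F)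
    (hBW : ∀ b : F, IsIntegral ↥(Algebra.adjoin A₀ {u}) b → b ∈ W)
    (hBW' : ∀ b : F, IsIntegral ↥(Algebra.adjoin A₀ {u'}) b → b ∈ W) :
    atThrough 𝔫 W ↔ atThrough 𝔫' W := by
  rw [s36pc_through_iff 𝔫 W hBW, s36pc_through_iff 𝔫' W hBW', h]

/-- `B_{u'} ⊆ (B_u)_𝔫` if `u u' = 1` and `u ∉ 𝔫`. -/
theorem s36pc_chart_mem_loc {u u' : F} (huu' : u * u' = 1) (𝔫 : AtPt (F := F) π u)
    (hu𝔫 : (⟨u, s36pc_self_mem u⟩ : ↥(zchClosure (A₀ := A₀) ({u} : Set F))) ∉ 𝔫.1)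
    {b : F} (hb : IsIntegral ↥(Algebra.adjoin A₀ {u'}) b) : b ∈ atLoc 𝔫 := by
  haveI := 𝔫.2.1.isPrime
  have hsub : ({u'} : Set F) ⊆ {u, u'} := by
    intro x hx
    exact Or.inr hx
  have h1 : IsIntegral ↥(Algebra.adjoin A₀ {u, u'}) b :=
    zch_isIntegral_mono (Algebra.adjoin_mono hsub) hb
  obtain ⟨s, hs⟩ := zch_exists_pow_mul_isIntegral huu' h1
  refine ⟨⟨u ^ s * b, mem_zchClosure.mpr hs⟩, ⟨u, s36pc_self_mem u⟩ ^ s, ?_, ?_⟩
  · exact fun h => hu𝔫 (Ideal.IsPrime.mem_of_pow_mem inferInstance s h)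
  · rfl

/-- the chart map `A₀[X] → B_u`, `X ↦ u` -/
noncomputable def s36pcEval (u : F) : A₀[X] →+* ↥(zchClosure (A₀ := A₀) ({u} : Set F)) :=
  (aeval (⟨u, s36pc_self_mem u⟩ : ↥(zchClosure (A₀ := A₀) ({u} : Set F)))).toRingHom

theorem s36pc_eval_coe (u : F) (r : A₀[X]) : ((s36pcEval (A₀ := A₀) u r : _) : F) = aeval u r :=
  (Polynomial.aeval_subalgebra_coe r _ _)

theorem s36pc_eval_X (u : F) :
    s36pcEval (A₀ := A₀) u X = ⟨u, s36pc_self_mem u⟩ := by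
  apply Subtype.ext
  rw [s36pc_eval_coe, aeval_X]

theorem s36pc_eval_C (u : F) (a : A₀) :
    s36pcEval (A₀ := A₀) u (C a) = algebraMap A₀ _ a := by
  apply Subtype.ext
  rw [s36pc_eval_coe, aeval_C]
  rfl

/-- `B_u` is integral over `A₀[X]` -/
theorem s36pc_eval_isIntegral (u : F) : (s36pcEval (A₀ := A₀) (F := F) u).IsIntegral := by
  intro x
  obtain ⟨q, hqm, hq⟩ := (zch_isIntegral_iff u (x : F)).mp (mem_zchClosure.mp x.2)
  refine ⟨q, hqm, Subtype.ext ?_⟩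
  have h := Polynomial.hom_eval₂ q (s36pcEval (A₀ := A₀) u)
    (zchClosure (A₀ := A₀) ({u} : Set F)).val.toRingHom x
  have e : (zchClosure (A₀ := A₀) ({u} : Set F)).val.toRingHom.comp (s36pcEval (A₀ := A₀) u) =
      (aeval u : A₀[X] →ₐ[A₀] F).toRingHom := by
    ext r
    · show ((s36pcEval (A₀ := A₀) u (C r) : _) : F) = aeval u (C r)
      rw [s36pc_eval_coe]
    · show ((s36pcEval (A₀ := A₀) u X : _) : F) = aeval u X
      rw [s36pc_eval_coe]
  rw [e] at h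
  show ((eval₂ (s36pcEval (A₀ := A₀) u) x q : _) : F) = ((0 : ↥(zchClosure (A₀ := A₀) ({u} : Set F))) : F)
  exact h.trans hq

/-- A prime ideal of `A₀[X]` which contains `π` and a polynomial with a coefficient `1` is
maximal. -/
theorem s36pc_poly_isMaximal (hπ : Irreducible π) (P : Ideal A₀[X]) [hP : P.IsPrime]
    (hπP : C π ∈ P) {r : A₀[X]} (hr : r ∈ P) {N : ℕ} (hrN : r.coeff N = 1) : P.IsMaximal := by
  haveI hmax : (Ideal.span {π} : Ideal A₀).IsMaximal :=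
    PrincipalIdealRing.isMaximal_of_irreducible hπ
  letI : Field (A₀ ⧸ (Ideal.span {π} : Ideal A₀)) := Ideal.Quotient.field _
  set ρ : A₀[X] →+* (A₀ ⧸ (Ideal.span {π} : Ideal A₀))[X] :=
    Polynomial.mapRingHom (Ideal.Quotient.mk (Ideal.span {π})) with hρ
  have hρs : Function.Surjective ρ :=
    Polynomial.map_surjective _ Ideal.Quotient.mk_surjective
  have hker : RingHom.ker ρ ≤ P := by
    rw [hρ, Polynomial.ker_mapRingHom, Ideal.mk_ker, Ideal.map_span, Set.image_singleton,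
      Ideal.span_singleton_le_iff_mem]
    exact hπP
  haveI hPb : (P.map ρ).IsPrime := Ideal.map_isPrime_of_surjective hρs hker
  have hne : P.map ρ ≠ ⊥ := by
    intro h0
    have h1 : ρ r ∈ P.map ρ := Ideal.mem_map_of_mem ρ hr
    rw [h0, Ideal.mem_bot] at h1
    have h2 := congrArg (fun f => f.coeff N) h1
    simp only [hρ, coe_mapRingHom, coeff_map, hrN, map_one, coeff_zero] at h2
    exact one_ne_zero h2
  haveI hPm : (P.map ρ).IsMaximal := Ideal.IsPrime.isMaximal hPb hne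
  have hcm : (P.map ρ).comap ρ = P := by
    rw [Ideal.comap_map_of_surjective ρ hρs]
    exact sup_eq_left.mpr hker
  rw [← hcm]
  exact Ideal.comap_isMaximal_of_surjective ρ hρs

/-- an element `b / s` of `B_𝔫` with `b ∈ 𝔫`, `s ∉ 𝔫` is a nonunit of `B_𝔫` -/
theorem s36pc_mem_maximalIdeal {B : Type*} [CommRing B] [Algebra B F]
    (hinj : Function.Injective (algebraMap B F)) (𝔫 : Ideal B) [h𝔫 : 𝔫.IsPrime]
    [IsLocalRing (ls_localSubring (F := F) 𝔫)]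
    (x : ls_localSubring (F := F) 𝔫) {b s : B} (hb : b ∈ 𝔫) (hs : s ∉ 𝔫)
    (h : algebraMap B F s * (x : F) = algebraMap B F b) :
    x ∈ IsLocalRing.maximalIdeal (ls_localSubring (F := F) 𝔫) := by
  rw [IsLocalRing.mem_maximalIdeal, mem_nonunits_iff]
  intro hu
  obtain ⟨v, hv⟩ := hu.exists_left_inv
  obtain ⟨b₂, s₂, hs₂, hv₂⟩ := v.2
  have hvx : (v : F) * (x : F) = 1 := by
    have := congrArg (fun z : ↥(ls_localSubring (F := F) 𝔫) => (z : F)) hv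
    exact this
  have e : algebraMap B F (s₂ * s) = algebraMap B F (b₂ * b) := by
    rw [map_mul, map_mul, ← h, ← hv₂]
    have : algebraMap B F s₂ * (v : F) * (algebraMap B F s * (x : F))
        = algebraMap B F s₂ * algebraMap B F s * ((v : F) * (x : F)) := by ring
    rw [this, hvx, mul_one]
  have h2 : s₂ * s ∈ 𝔫 := by
    rw [hinj e]
    exact 𝔫.mul_mem_left _ hb
  rcases h𝔫.mem_or_mem h2 with h3 | h3
  · exact hs₂ h3
  · exact hs h3

/-- **Chart independence of the closed points.**  If `u u' = 1` and `𝔫` is a closed point of the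
special fibre of `B_u` with `u ∉ 𝔫`, then `(B_u)_𝔫` is the local ring of a closed point of the
special fibre of `B_{u'}`. -/
theorem s36pc_exists_pt (hπ : Irreducible π) {u u' : F} (huu' : u * u' = 1)
    (𝔫 : AtPt (F := F) π u)
    (hu𝔫 : (⟨u, s36pc_self_mem u⟩ : ↥(zchClosure (A₀ := A₀) ({u} : Set F))) ∉ 𝔫.1) :
    ∃ 𝔫' : AtPt (F := F) π u', atLoc 𝔫' = atLoc 𝔫 := by
  classical
  haveI h𝔫p : 𝔫.1.IsPrime := 𝔫.2.1.isPrime
  haveI h𝔫m : 𝔫.1.IsMaximal := 𝔫.2.1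
  have hinj : Function.Injective
      (algebraMap ↥(zchClosure (A₀ := A₀) ({u} : Set F)) F) := Subtype.val_injective
  haveI hloc : IsLocalRing (ls_localSubring (F := F) 𝔫.1) :=
    ls_localSubring_isLocalRing Subtype.val_injective 𝔫.1
  have hu'u : u' * u = 1 := by rw [mul_comm]; exact huu'
  have hu0 : u ≠ 0 := left_ne_zero_of_mul_eq_one huu'
  have hu'0 : u' ≠ 0 := right_ne_zero_of_mul_eq_one huu'
  have hu'inv : u' = u⁻¹ := eq_inv_of_mul_eq_one_right huu'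
  -- `B_{u'} ⊆ O`
  have hB'O : ∀ b : ↥(zchClosure (A₀ := A₀) ({u'} : Set F)),
      algebraMap ↥(zchClosure (A₀ := A₀) ({u'} : Set F)) F b ∈ ls_localSubring (F := F) 𝔫.1 :=
    fun b => s36pc_chart_mem_loc huu' 𝔫 hu𝔫 (mem_zchClosure.mp b.2)
  set ι : ↥(zchClosure (A₀ := A₀) ({u'} : Set F)) →+* ↥(ls_localSubring (F := F) 𝔫.1) :=
    (algebraMap ↥(zchClosure (A₀ := A₀) ({u'} : Set F)) F).codRestrict
      (ls_localSubring (F := F) 𝔫.1) hB'O with hι
  have hιcoe : ∀ b, ((ι b : ↥(ls_localSubring (F := F) 𝔫.1)) : F) = (b : F) := fun b => rfl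
  set 𝔫' : Ideal ↥(zchClosure (A₀ := A₀) ({u'} : Set F)) :=
    (IsLocalRing.maximalIdeal ↥(ls_localSubring (F := F) 𝔫.1)).comap ι with h𝔫'
  haveI h𝔫'p : 𝔫'.IsPrime := Ideal.comap_isPrime ι _
  -- membership in `𝔫'`
  have hmem : ∀ (b' : ↥(zchClosure (A₀ := A₀) ({u'} : Set F)))
      (b s : ↥(zchClosure (A₀ := A₀) ({u} : Set F))), b ∈ 𝔫.1 → s ∉ 𝔫.1 →
      (s : F) * (b' : F) = (b : F) → b' ∈ 𝔫' := by
    intro b' b s hb hs h
    exact s36pc_mem_maximalIdeal hinj 𝔫.1 (ι b') hb hs h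
  have hunit : ∀ (b' : ↥(zchClosure (A₀ := A₀) ({u'} : Set F)))
      (b s : ↥(zchClosure (A₀ := A₀) ({u} : Set F))), b ∉ 𝔫.1 → s ∉ 𝔫.1 →
      (s : F) * (b' : F) = (b : F) → b' ∉ 𝔫' := by
    intro b' b s hb hs h hb'
    have hu : IsUnit (ι b') := ls_isUnit_of_not_mem hinj 𝔫.1 (ι b') hb hs h
    exact (IsLocalRing.mem_maximalIdeal _).1 hb' hu
  -- `π ∈ 𝔫'`
  have hπ' : algebraMap A₀ ↥(zchClosure (A₀ := A₀) ({u'} : Set F)) π ∈ 𝔫' := by
    refine hmem _ (algebraMap A₀ ↥(zchClosure (A₀ := A₀) ({u} : Set F)) π) 1 𝔫.2.2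
      (fun h => h𝔫p.ne_top ((Ideal.eq_top_iff_one _).mpr h)) ?_
    show ((1 : ↥(zchClosure (A₀ := A₀) ({u} : Set F))) : F) * algebraMap A₀ F π
      = algebraMap A₀ F π
    rw [show ((1 : ↥(zchClosure (A₀ := A₀) ({u} : Set F))) : F) = 1 from rfl, one_mul]
  -- maximality
  have hmax : 𝔫'.IsMaximal := by
    haveI hq : (𝔫.1.comap (s36pcEval (A₀ := A₀) u)).IsMaximal :=
      Ideal.isMaximal_comap_of_isIntegral_of_isMaximal' (s36pcEval (A₀ := A₀) u)
        (s36pc_eval_isIntegral u) 𝔫.1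
    have hX : (X : A₀[X]) ∉ 𝔫.1.comap (s36pcEval (A₀ := A₀) u) := by
      rw [Ideal.mem_comap, s36pc_eval_X]
      exact hu𝔫
    obtain ⟨y, i, hi, hyi⟩ := hq.exists_inv hX
    -- `i = 1 - y X`, constant coefficient `1`
    have hi0 : i.coeff 0 = 1 := by
      have h := congrArg (fun f => f.coeff 0) hyi
      simp only [coeff_add, coeff_one_zero, mul_coeff_zero, coeff_X_zero, mul_zero,
        zero_add] at h
      exact h
    set N : ℕ := i.natDegree with hN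
    set r : A₀[X] := reflect N i with hr
    have hrN : r.coeff N = 1 := by
      rw [hr, coeff_reflect, revAt_le le_rfl, Nat.sub_self, hi0]
    have hrmem : r ∈ 𝔫'.comap (s36pcEval (A₀ := A₀) u') := by
      rw [Ideal.mem_comap]
      refine hmem _ (s36pcEval (A₀ := A₀) u i) (⟨u, s36pc_self_mem u⟩ ^ N) hi
        (fun h => hu𝔫 (Ideal.IsPrime.mem_of_pow_mem inferInstance N h)) ?_
      rw [s36pc_eval_coe, s36pc_eval_coe]
      show u ^ N * aeval u' r = aeval u i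
      letI : Invertible u := invertibleOfNonzero hu0
      have hinvu : ⅟u = u' := by
        rw [hu'inv]; exact invOf_eq_inv u
      have h := eval₂_reflect_mul_pow (algebraMap A₀ F) u N i le_rfl
      rw [hinvu] at h
      rw [aeval_def, aeval_def, hr, mul_comm]
      exact h
    have hCπ : C π ∈ 𝔫'.comap (s36pcEval (A₀ := A₀) u') := by
      rw [Ideal.mem_comap, s36pc_eval_C]
      exact hπ'
    haveI : (𝔫'.comap (s36pcEval (A₀ := A₀) u')).IsPrime := Ideal.comap_isPrime _ _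
    have hPmax : (𝔫'.comap (s36pcEval (A₀ := A₀) u')).IsMaximal :=
      s36pc_poly_isMaximal hπ _ hCπ hrmem hrN
    exact Ideal.isMaximal_of_isIntegral_of_isMaximal_comap' (s36pcEval (A₀ := A₀) u')
      (s36pc_eval_isIntegral u') 𝔫' hPmax
  refine ⟨⟨𝔫', hmax, hπ'⟩, ?_⟩
  -- equality of the local rings
  apply le_antisymm
  · rintro x ⟨b', s', hs', hx⟩
    -- `s'` is a unit of `O`
    have hs'u : IsUnit (ι s') := by
      by_contra hnu
      exact hs' ((IsLocalRing.mem_maximalIdeal _).2 hnu)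
    obtain ⟨v, hv⟩ := hs'u.exists_left_inv
    have hx' : x = ((v * ι b' : ↥(ls_localSubring (F := F) 𝔫.1)) : F) := by
      have h1 : ((v : ↥(ls_localSubring (F := F) 𝔫.1)) : F) * (s' : F) = 1 := by
        have := congrArg (fun z : ↥(ls_localSubring (F := F) 𝔫.1) => (z : F)) hv
        exact this
      have hxF : (s' : F) * x = (b' : F) := hx
      show x = ((v : ↥(ls_localSubring (F := F) 𝔫.1)) : F) * (b' : F)
      rw [← hxF, ← mul_assoc, h1, one_mul]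
    rw [hx']
    exact (v * ι b').2
  · rintro x ⟨b, s, hs, hx⟩
    have hxF : (s : F) * x = (b : F) := hx
    -- move numerator and denominator into `B_{u'}`
    have hsub : ({u} : Set F) ⊆ {u', u} := by
      intro z hz
      exact Or.inr hz
    obtain ⟨k₁, hk₁⟩ := zch_exists_pow_mul_isIntegral hu'u
      (zch_isIntegral_mono (Algebra.adjoin_mono hsub) (mem_zchClosure.mp s.2))
    obtain ⟨k₂, hk₂⟩ := zch_exists_pow_mul_isIntegral hu'u
      (zch_isIntegral_mono (Algebra.adjoin_mono hsub) (mem_zchClosure.mp b.2))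
    have hu'mem : ∀ k : ℕ, u' ^ k ∈ zchClosure (A₀ := A₀) ({u'} : Set F) := fun k =>
      (zchClosure (A₀ := A₀) ({u'} : Set F)).pow_mem (s36pc_self_mem u') k
    have hS : u' ^ (k₁ + k₂) * (s : F) ∈ zchClosure (A₀ := A₀) ({u'} : Set F) := by
      have : u' ^ (k₁ + k₂) * (s : F) = u' ^ k₂ * (u' ^ k₁ * (s : F)) := by
        rw [pow_add]; ring
      rw [this]
      exact (zchClosure (A₀ := A₀) ({u'} : Set F)).mul_mem (hu'mem k₂) (mem_zchClosure.mpr hk₁)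
    have hBm : u' ^ (k₁ + k₂) * (b : F) ∈ zchClosure (A₀ := A₀) ({u'} : Set F) := by
      have : u' ^ (k₁ + k₂) * (b : F) = u' ^ k₁ * (u' ^ k₂ * (b : F)) := by
        rw [pow_add]; ring
      rw [this]
      exact (zchClosure (A₀ := A₀) ({u'} : Set F)).mul_mem (hu'mem k₁) (mem_zchClosure.mpr hk₂)
    refine ⟨⟨_, hBm⟩, ⟨_, hS⟩, ?_, ?_⟩
    · -- the new denominator is a unit of `O`
      refine hunit _ s (⟨u, s36pc_self_mem u⟩ ^ (k₁ + k₂)) hs
        (fun h => hu𝔫 (Ideal.IsPrime.mem_of_pow_mem inferInstance _ h)) ?_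
      show u ^ (k₁ + k₂) * (u' ^ (k₁ + k₂) * (s : F)) = (s : F)
      rw [← mul_assoc, ← mul_pow, huu', one_pow, one_mul]
    · show u' ^ (k₁ + k₂) * (s : F) * x = u' ^ (k₁ + k₂) * (b : F)
      rw [mul_assoc, hxF]

section Pts

variable {F₁ : Type*} [Field F₁]

/-- **(I6), reduction to the chart `t` and the points over `t = ∞`.**  `S36PtInput` at every
closed point of the chart `B_t` and at the closed points `𝔫` of `B_{t⁻¹}` with `t⁻¹ ∈ 𝔫` gives
`S36PtInput` at every closed point of both charts (= the hypothesis `hpts` of `s36ta_main`,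
`s36tb_small`). -/
theorem s36pc_hpts (hπ : Irreducible π) {t : F} (ht0 : t ≠ 0) (V : κ → ValuationSubring F)
    (hBV₁ : ∀ c (b : F), IsIntegral ↥(Algebra.adjoin A₀ {t}) b → b ∈ V c)
    (hBV₂ : ∀ c (b : F), IsIntegral ↥(Algebra.adjoin A₀ {t⁻¹}) b → b ∈ V c)
    {Hor : F → Prop} {m : ℕ} {α β : F₁ →+* F} {Nα Nβ : F →* F₁} {ζ₁ : F₁} {ca cb cc : κ}
    (h₁ : ∀ 𝔫 : AtPt (F := F) π t,
      @S36PtInput F₁ F _ _ κ Hor m α β Nα Nβ ζ₁ V ca cb cc (atO π t (Sum.inl 𝔫))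
        (stb_atO_isLocalRing (π := π) t (Sum.inl 𝔫)) (atInc π t V (Sum.inl 𝔫)))
    (h₂ : ∀ 𝔫 : AtPt (F := F) π t⁻¹,
      (⟨t⁻¹, s36pc_self_mem t⁻¹⟩ : ↥(zchClosure (A₀ := A₀) ({t⁻¹} : Set F))) ∈ 𝔫.1 →
      @S36PtInput F₁ F _ _ κ Hor m α β Nα Nβ ζ₁ V ca cb cc (atO π t (Sum.inr 𝔫))
        (stb_atO_isLocalRing (π := π) t (Sum.inr 𝔫)) (atInc π t V (Sum.inr 𝔫))) :
    ∀ i : AtPt (F := F) π t ⊕ AtPt (F := F) π t⁻¹,
      @S36PtInput F₁ F _ _ κ Hor m α β Nα Nβ ζ₁ V ca cb cc (atO π t i)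
        (stb_atO_isLocalRing (π := π) t i) (atInc π t V i) := by
  rintro (𝔫 | 𝔫)
  · exact h₁ 𝔫
  · by_cases h : (⟨t⁻¹, s36pc_self_mem t⁻¹⟩ : ↥(zchClosure (A₀ := A₀) ({t⁻¹} : Set F))) ∈ 𝔫.1
    · exact h₂ 𝔫 h
    · obtain ⟨𝔫', h𝔫'⟩ := s36pc_exists_pt hπ (u := t⁻¹) (u' := t) (inv_mul_cancel₀ ht0) 𝔫 h
      exact @s36pc_congr F₁ F _ _ κ Hor m α β Nα Nβ ζ₁ V ca cb cc
        (atO π t (Sum.inl 𝔫')) (atO π t (Sum.inr 𝔫))
        (stb_atO_isLocalRing (π := π) t (Sum.inl 𝔫')) (stb_atO_isLocalRing (π := π) t (Sum.inr 𝔫))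
        h𝔫' (atInc π t V (Sum.inl 𝔫')) (atInc π t V (Sum.inr 𝔫))
        (fun c => (s36pc_through_congr 𝔫 𝔫' h𝔫' (V c) (hBV₂ c) (hBV₁ c)).symm) (h₁ 𝔫')

/-- the symmetric form: the chart `t⁻¹` and the points of `B_t` with `t ∈ 𝔫` (over `t = 0`) -/
theorem s36pc_hpts' (hπ : Irreducible π) {t : F} (ht0 : t ≠ 0) (V : κ → ValuationSubring F)
    (hBV₁ : ∀ c (b : F), IsIntegral ↥(Algebra.adjoin A₀ {t}) b → b ∈ V c)
    (hBV₂ : ∀ c (b : F), IsIntegral ↥(Algebra.adjoin A₀ {t⁻¹}) b → b ∈ V c)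
    {Hor : F → Prop} {m : ℕ} {α β : F₁ →+* F} {Nα Nβ : F →* F₁} {ζ₁ : F₁} {ca cb cc : κ}
    (h₁ : ∀ 𝔫 : AtPt (F := F) π t,
      (⟨t, s36pc_self_mem t⟩ : ↥(zchClosure (A₀ := A₀) ({t} : Set F))) ∈ 𝔫.1 →
      @S36PtInput F₁ F _ _ κ Hor m α β Nα Nβ ζ₁ V ca cb cc (atO π t (Sum.inl 𝔫))
        (stb_atO_isLocalRing (π := π) t (Sum.inl 𝔫)) (atInc π t V (Sum.inl 𝔫)))
    (h₂ : ∀ 𝔫 : AtPt (F := F) π t⁻¹,
      @S36PtInput F₁ F _ _ κ Hor m α β Nα Nβ ζ₁ V ca cb cc (atO π t (Sum.inr 𝔫))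
        (stb_atO_isLocalRing (π := π) t (Sum.inr 𝔫)) (atInc π t V (Sum.inr 𝔫))) :
    ∀ i : AtPt (F := F) π t ⊕ AtPt (F := F) π t⁻¹,
      @S36PtInput F₁ F _ _ κ Hor m α β Nα Nβ ζ₁ V ca cb cc (atO π t i)
        (stb_atO_isLocalRing (π := π) t i) (atInc π t V i) := by
  rintro (𝔫 | 𝔫)
  · by_cases h : (⟨t, s36pc_self_mem t⟩ : ↥(zchClosure (A₀ := A₀) ({t} : Set F))) ∈ 𝔫.1
    · exact h₁ 𝔫 h
    · obtain ⟨𝔫', h𝔫'⟩ := s36pc_exists_pt hπ (u := t) (u' := t⁻¹) (mul_inv_cancel₀ ht0) 𝔫 h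
      exact @s36pc_congr F₁ F _ _ κ Hor m α β Nα Nβ ζ₁ V ca cb cc
        (atO π t (Sum.inr 𝔫')) (atO π t (Sum.inl 𝔫))
        (stb_atO_isLocalRing (π := π) t (Sum.inr 𝔫')) (stb_atO_isLocalRing (π := π) t (Sum.inl 𝔫))
        h𝔫' (atInc π t V (Sum.inr 𝔫')) (atInc π t V (Sum.inl 𝔫))
        (fun c => (s36pc_through_congr 𝔫 𝔫' h𝔫' (V c) (hBV₁ c) (hBV₂ c)).symm) (h₂ 𝔫')
  · exact h₂ 𝔫

end Pts

end Chart

end Fermat.Agent.S36
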