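/-
S36 (Carayol at `q² ∥ M`), geometric clause, input (I6), part (P2): the closed points of the
chart `t⁻¹` with `t⁻¹ ∈ 𝔫` (`t = j`: the reductions of the cusps).  ABSTRACT FRAMEWORK (helper84).

* `s36cu_pole`        : POLE TRANSFER.  `O ⊆ F` a local subring, integrally closed in `F`,
                        `A₀ ⊆ O`, `t` integral over `A₀[s]`, `t⁻¹ ∈ O`, `t ∉ O`  ⇒  `s⁻¹ ∈ O`,
                        `s ∉ O`  (valuative criterion: Mathlib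
                        `LocalSubring.exists_le_valuationSubring_of_isIntegrallyClosedIn`).
  ((KR) on the chart `t⁻¹` and `hpt` are `aq_KR_inv`, `aq_hpt` of `S36/AbstractQ.lean`.)
* `s36cu_pt_of_local` : a local subring `O`, integrally closed in `F`, with `t⁻¹, π ∈ 𝔪_O`
                        dominates the local ring of a closed point `𝔫` of the chart `t⁻¹`,
                        `t⁻¹ ∈ 𝔫`.
* `s36cu_aut_pt`      : the local rings at `t = ∞` are permuted by an automorphism `w` with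
                        `t` integral over `A₀[w t]` and over `A₀[w⁻¹ t]` (`w = w_{q²}`).
* `s36cu_ptInput_map` : transport of `S36PtInput` (one-component points) along `w`.
* `s36cu_not_both`, `s36cu_honly_a` : separation of the components by a function `y`.
* `s36cu_pow_inv_mem` : `(s⁻¹)^k ∈ 𝔪_O` at the points at `t = ∞` (`t` integral over `A₀[s]`).
* `s36cu_hpts_inf`    : **(P2)** `S36PtInput` at ALL points at `t = ∞` from: `w`, the separating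
                        function, and `S36PtInput` at the one-component points of `C_a`, `C_c`.
* `s36cu_hpts`        : `hpts` of `s36tb_small` from the chart `t` + the above.
-/
import Fermat.Agent.S36.PtsChart
import Fermat.Agent.S36.ConnQ

set_option autoImplicit false
set_option linter.unusedSectionVars false
set_option linter.unusedVariables false
set_option linter.style.haveILetI false

namespace Fermat.Agent.S36

open Fermat.Agent.UNIP Fermat.Agent.STB Fermat.Agent.INJ Polynomial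

section Pole

variable {A₀ F : Type*} [CommRing A₀] [Field F] [Algebra A₀ F]

/-- an element integral over `A₀[s]` lies in every integrally closed subring containing `A₀`
and `s` -/
theorem s36cu_mem_of_isIntegral {O : Subring F} (hic : ∀ x : F, IsIntegral O x → x ∈ O)
    (hA : ∀ a : A₀, algebraMap A₀ F a ∈ O) {s t : F} (hs : s ∈ O)
    (ht : IsIntegral ↥(Algebra.adjoin A₀ {s}) t) : t ∈ O := by
  apply hic
  obtain ⟨p, hp, hpx⟩ := ht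
  have hle : ∀ x ∈ Algebra.adjoin A₀ ({s} : Set F), x ∈ O := by
    intro x hx
    induction hx using Algebra.adjoin_induction with
    | mem x hx => rw [Set.mem_singleton_iff.mp hx]; exact hs
    | algebraMap r => exact hA r
    | add x y _ _ hx hy => exact O.add_mem hx hy
    | mul x y _ _ hx hy => exact O.mul_mem hx hy
  let f : ↥(Algebra.adjoin A₀ ({s} : Set F)) →+* O :=
    { toFun := fun b => ⟨b.1, hle b.1 b.2⟩
      map_one' := rfl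
      map_mul' := fun _ _ => rfl
      map_zero' := rfl
      map_add' := fun _ _ => rfl }
  refine ⟨p.map f, hp.map f, ?_⟩
  rw [eval₂_map]
  exact hpx

/-- **Pole transfer.** -/
theorem s36cu_pole {O : Subring F} [IsLocalRing O] (hic : ∀ x : F, IsIntegral O x → x ∈ O)
    (hA : ∀ a : A₀, algebraMap A₀ F a ∈ O) {s t : F}
    (ht : IsIntegral ↥(Algebra.adjoin A₀ {s}) t) (htO : t⁻¹ ∈ O) (htn : t ∉ O) :
    s⁻¹ ∈ O ∧ s ∉ O := by
  have hsn : s ∉ O := fun hs => htn (s36cu_mem_of_isIntegral hic hA hs ht)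
  refine ⟨?_, hsn⟩
  by_contra hsi
  haveI : IsIntegrallyClosedIn O F := Subring.isIntegrallyClosedIn_iff.mpr fun x hx => hic x hx
  obtain ⟨W, hW, hsW⟩ :=
    LocalSubring.exists_le_valuationSubring_of_isIntegrallyClosedIn (K := F)
      (R := LocalSubring.mk O) (x := s⁻¹) hsi
  obtain ⟨hle, hloc⟩ := hW
  have hle' : ∀ x ∈ O, x ∈ W := fun x hx => hle hx
  -- `s ∈ W`
  have hsW' : s ∈ W := by
    rcases W.mem_or_inv_mem s with h | h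
    · exact h
    · exact absurd h hsW
  -- `t ∈ W`
  have hWic : ∀ x : F, IsIntegral W.toSubring x → x ∈ W.toSubring := by
    intro x hx
    have h1 : IsIntegrallyClosedIn W.toSubring F :=
      inferInstanceAs (IsIntegrallyClosedIn W F)
    exact Subring.isIntegrallyClosedIn_iff.mp h1 hx
  have htW : t ∈ W := s36cu_mem_of_isIntegral (O := W.toSubring) hWic
    (fun a => hle' _ (hA a)) hsW' ht
  -- `t⁻¹` is a unit of `W`, hence of `O`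
  have ht0 : t ≠ 0 := by
    rintro rfl
    exact htn O.zero_mem
  have hu : IsUnit (Subring.inclusion hle ⟨t⁻¹, htO⟩) :=
    IsUnit.of_mul_eq_one ⟨t, htW⟩ (Subtype.ext (inv_mul_cancel₀ ht0))
  have hu' : IsUnit (⟨t⁻¹, htO⟩ : O) := hloc.map_nonunit _ hu
  obtain ⟨v, hv⟩ := hu'.exists_right_inv
  have hvF : t⁻¹ * (v : F) = 1 := congrArg Subtype.val hv
  have : (v : F) = t := by
    have h2 : t * (t⁻¹ * (v : F)) = t := by rw [hvF, mul_one]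
    rw [← mul_assoc, mul_inv_cancel₀ ht0, one_mul] at h2
    exact h2
  exact htn (this ▸ v.2)

end Pole

section Transfer

variable {F₁ F : Type*} [Field F₁] [Field F] {κ : Type*}

/-- membership in `𝔪(V)` is transported by an automorphism -/
theorem s36cu_nonunits_iff {V V' : ValuationSubring F} (w : F ≃+* F)
    (h : ∀ x, x ∈ V' ↔ w x ∈ V) (x : F) : x ∈ V'.nonunits ↔ w x ∈ V.nonunits := by
  rw [V'.mem_nonunits_iff_or, V.mem_nonunits_iff_or, h, map_inv₀, map_eq_zero]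

/-- `v(y) = 1` in terms of membership -/
theorem s36cu_val_eq_one_iff (V : ValuationSubring F) {y : F} (hy : y ≠ 0) :
    V.valuation y = 1 ↔ y ∈ V ∧ y⁻¹ ∈ V := by
  rw [← V.valuation_le_one_iff, ← V.valuation_le_one_iff, map_inv₀]
  have h0 : V.valuation y ≠ 0 := (Valuation.ne_zero_iff _).mpr hy
  constructor
  · intro h
    rw [h]
    simp
  · rintro ⟨h1, h2⟩
    have h3 : 1 ≤ V.valuation y := by
      have := (inv_le_one₀ (zero_lt_iff.mpr h0)).mp h2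
      exact this
    exact le_antisymm h1 h3

/-- an element of `O ∩ 𝔪(V)` is a nonunit of `O` if `O ⊆ V` -/
theorem s36cu_mem_maximalIdeal {O : Subring F} [IsLocalRing O] (V : ValuationSubring F)
    (hOV : ∀ x ∈ O, x ∈ V) (x : O) (hx : (x : F) ∈ V.nonunits) :
    x ∈ IsLocalRing.maximalIdeal O := by
  rw [IsLocalRing.mem_maximalIdeal, mem_nonunits_iff]
  intro hu
  obtain ⟨v, hv⟩ := hu.exists_right_inv
  have hvF : (x : F) * (v : F) = 1 := congrArg Subtype.val hv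
  have hvV : (v : F) ∈ V := hOV _ v.2
  have h1 : V.valuation (x : F) < 1 := V.mem_nonunits_iff.mp hx
  have h2 : V.valuation (v : F) ≤ 1 := (V.valuation_le_one_iff _).mpr hvV
  have h3 : V.valuation ((x : F) * (v : F)) < 1 := by
    rw [map_mul]
    calc V.valuation (x : F) * V.valuation (v : F) ≤ V.valuation (x : F) * 1 :=
          mul_le_mul_right h2 _
      _ = V.valuation (x : F) := mul_one _
      _ < 1 := h1
  rw [hvF, map_one] at h3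
  exact lt_irrefl _ h3

/-- **Separation.**  No local ring lies in `V_a` and in `V_c` if there are `y, z ∈ O`,
`z ∈ 𝔪_O`, with `y ≡ 1` at `V_a` and `y ≡ z` at `V_c`. -/
theorem s36cu_not_both {O : Subring F} [IsLocalRing O] (Va Vc : ValuationSubring F)
    (hOa : ∀ x ∈ O, x ∈ Va) (hOc : ∀ x ∈ O, x ∈ Vc) {y z : F} (hy : y ∈ O) (hz : z ∈ O)
    (hzm : (⟨z, hz⟩ : O) ∈ IsLocalRing.maximalIdeal O)
    (hya : y - 1 ∈ Va.nonunits) (hyc : y - z ∈ Vc.nonunits) : False := by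
  have h1 : (⟨y, hy⟩ - 1 : O) ∈ IsLocalRing.maximalIdeal O :=
    s36cu_mem_maximalIdeal Va hOa _ hya
  have h2 : (⟨y, hy⟩ - ⟨z, hz⟩ : O) ∈ IsLocalRing.maximalIdeal O :=
    s36cu_mem_maximalIdeal Vc hOc _ hyc
  have h3 : (1 : O) ∈ IsLocalRing.maximalIdeal O := by
    have e : (1 : O) = (⟨y, hy⟩ - ⟨z, hz⟩) + ⟨z, hz⟩ - (⟨y, hy⟩ - 1) := by ring
    rw [e]
    exact Ideal.sub_mem _ (Ideal.add_mem _ h2 hzm) h1
  exact (Ideal.ne_top_iff_one _).mp (IsLocalRing.maximalIdeal.isMaximal O).ne_top h3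

/-- units of a subring of a field -/
theorem s36cu_isUnit_iff {O : Subring F} (e : O) :
    IsUnit e ↔ (e : F) ≠ 0 ∧ (e : F)⁻¹ ∈ O := by
  constructor
  · intro hu
    obtain ⟨v, hv⟩ := hu.exists_right_inv
    have hvF : (e : F) * (v : F) = 1 := congrArg Subtype.val hv
    have he0 : (e : F) ≠ 0 := left_ne_zero_of_mul_eq_one hvF
    refine ⟨he0, ?_⟩
    have : (v : F) = (e : F)⁻¹ := eq_inv_of_mul_eq_one_right hvF
    exact this ▸ v.2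
  · rintro ⟨he0, hinv⟩
    exact IsUnit.of_mul_eq_one ⟨(e : F)⁻¹, hinv⟩ (Subtype.ext (mul_inv_cancel₀ he0))

/-- **Transport of `S36PtInput` (one-component points) along an automorphism.**
`O' = w O`, `w` permutes the components by the involution `σ` (`V (σ c) = (V c).comap w`) and
preserves `Hor`. -/
theorem s36cu_ptInput_map {Hor : F → Prop} {m : ℕ} {α β : F₁ →+* F} {Nα Nβ : F →* F₁} {ζ₁ : F₁}
    {V : κ → ValuationSubring F} {ca cb cc : κ} {O O' : Subring F} [hO : IsLocalRing O]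
    [hO' : IsLocalRing O'] (w : F ≃+* F) (hOO' : ∀ x, x ∈ O' ↔ w.symm x ∈ O)
    (σ : κ → κ) (hσ : ∀ c, σ (σ c) = c) (hV : ∀ c x, x ∈ V (σ c) ↔ w x ∈ V c)
    {thr thr' : κ → Prop} (hthr : ∀ c, thr' c ↔ thr (σ c))
    (hHor : ∀ y, Hor y → Hor (w.symm y))
    (H : S36PtInput Hor m α β Nα Nβ ζ₁ V ca cb cc O thr)
    (hone : ∃ c, thr c ∧ ∀ c', thr c' → c' = c) :
    S36PtInput Hor m α β Nα Nβ ζ₁ V ca cb cc O' thr' := by
  have hwO : ∀ x ∈ O, w x ∈ O' := fun x hx => (hOO' _).mpr (by rwa [RingEquiv.symm_apply_apply])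
  have hVsymm : ∀ c x, w.symm x ∈ V (σ c) ↔ x ∈ V c := fun c x => by
    rw [hV c, RingEquiv.apply_symm_apply]
  have hNsymm : ∀ c x, w.symm x ∈ (V (σ c)).nonunits ↔ x ∈ (V c).nonunits := fun c x => by
    rw [s36cu_nonunits_iff w (hV c), RingEquiv.apply_symm_apply]
  refine ⟨fun y' hy' hH' hu' => ?_, fun c' hc' => ?_, ?_⟩
  · -- fac
    have hy0 : w.symm y' ≠ 0 := (_root_.map_ne_zero _).mpr hy'
    have hu : ∀ c, thr c → (V c).valuation (w.symm y') = 1 := by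
      intro c hc
      have hc' : thr' (σ c) := (hthr _).mpr (by rwa [hσ])
      have h1 := (s36cu_val_eq_one_iff (V (σ c)) hy').mp (hu' _ hc')
      rw [s36cu_val_eq_one_iff (V c) hy0]
      have e := hVsymm (σ c)
      rw [hσ] at e
      refine ⟨(e _).mpr h1.1, ?_⟩
      rw [← map_inv₀]
      exact (e _).mpr h1.2
    obtain ⟨γ, ε, hε, hy⟩ := H.fac _ hy0 (hHor _ hH') hu
    obtain ⟨hε0, hεinv⟩ := (s36cu_isUnit_iff ε).mp hε
    refine ⟨w γ, ⟨w (ε : F), hwO _ ε.2⟩, (s36cu_isUnit_iff _).mpr ⟨(_root_.map_ne_zero _).mpr hε0, ?_⟩, ?_⟩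
    · show (w (ε : F))⁻¹ ∈ O'
      rw [← map_inv₀]
      exact hwO _ hεinv
    · show y' = w (ε : F) * w γ ^ m
      rw [← map_pow, ← map_mul, ← hy, RingEquiv.apply_symm_apply]
  · -- res
    intro a' e' n he' hn ha'
    obtain ⟨he0, heinv⟩ := (s36cu_isUnit_iff e').mp he'
    have heO : w.symm (e' : F) ∈ O := (hOO' _).mp e'.2
    have hu : IsUnit (⟨w.symm (e' : F), heO⟩ : O) :=
      (s36cu_isUnit_iff _).mpr ⟨(_root_.map_ne_zero _).mpr he0, by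
        show (w.symm (e' : F))⁻¹ ∈ O
        rw [← map_inv₀]
        exact (hOO' _).mp heinv⟩
    have hc : thr (σ c') := (hthr _).mp hc'
    have h1 : (w.symm a') ^ n - ((⟨w.symm (e' : F), heO⟩ : O) : F) ∈ (V (σ c')).nonunits := by
      show (w.symm a') ^ n - w.symm (e' : F) ∈ (V (σ c')).nonunits
      rw [← map_pow, ← map_sub]
      exact (hNsymm c' _).mpr ha'
    obtain ⟨α₀, hα₀⟩ := H.res _ hc (w.symm a') ⟨w.symm (e' : F), heO⟩ n hu hn h1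
    refine ⟨⟨w (α₀ : F), hwO _ α₀.2⟩, ?_⟩
    show a' - w (α₀ : F) ∈ (V c').nonunits
    rw [← hNsymm c', map_sub, RingEquiv.symm_apply_apply]
    exact hα₀
  · obtain ⟨c, hc, huniq⟩ := hone
    refine Or.inl ⟨σ c, (hthr _).mpr (by rwa [hσ]), fun c' hc' => ?_⟩
    have := huniq _ ((hthr _).mp hc')
    rw [← this, hσ]

end Transfer

section Chart

variable {A₀ E F : Type*} [CommRing A₀] [IsDomain A₀] [IsDiscreteValuationRing A₀]
  [Field E] [Algebra A₀ E] [IsFractionRing A₀ E] [CharZero E]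
  [Field F] [Algebra E F] [Algebra A₀ F] [IsScalarTower A₀ E F]
  {π : A₀} {κ : Type*}

/-- the local ring at a closed point is integrally closed in `F` -/
theorem s36cu_atLoc_ic {u : F} (𝔫 : AtPt (F := F) π u) (x : F)
    (hx : IsIntegral (atLoc 𝔫) x) : x ∈ atLoc 𝔫 := by
  haveI := 𝔫.2.1.isPrime
  exact ls_isIntegral_mem_localSubring (fun y hy => at_chart_integrallyClosed u y hy) 𝔫.1 x hx

/-- `A₀ ⊆ (B_u)_𝔫` -/
theorem s36cu_atLoc_algebraMap {u : F} (𝔫 : AtPt (F := F) π u) (a : A₀) :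
    algebraMap A₀ F a ∈ atLoc 𝔫 := by
  haveI := 𝔫.2.1.isPrime
  exact ls_algebraMap_mem 𝔫.1 (algebraMap A₀ ↥(zchClosure (A₀ := A₀) ({u} : Set F)) a)

/-- `B_u ⊆ (B_u)_𝔫` -/
theorem s36cu_atLoc_chart {u : F} (𝔫 : AtPt (F := F) π u) {b : F}
    (hb : IsIntegral ↥(Algebra.adjoin A₀ {u}) b) : b ∈ atLoc 𝔫 := by
  haveI := 𝔫.2.1.isPrime
  exact ls_algebraMap_mem 𝔫.1 (⟨b, mem_zchClosure.mpr hb⟩ : ↥(zchClosure (A₀ := A₀) ({u} : Set F)))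

/-- the inverse of a nonzero element of `𝔫` is not in `(B_u)_𝔫` -/
theorem s36cu_inv_not_mem {u : F} (𝔫 : AtPt (F := F) π u)
    {b : ↥(zchClosure (A₀ := A₀) ({u} : Set F))} (hb : b ∈ 𝔫.1) (hb0 : (b : F) ≠ 0) :
    (b : F)⁻¹ ∉ atLoc 𝔫 := by
  haveI := 𝔫.2.1.isPrime
  haveI : IsLocalRing (ls_localSubring (F := F) 𝔫.1) :=
    ls_localSubring_isLocalRing Subtype.val_injective 𝔫.1
  intro h
  have hmem : (⟨(b : F), ls_algebraMap_mem 𝔫.1 b⟩ : ls_localSubring (F := F) 𝔫.1) ∈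
      IsLocalRing.maximalIdeal (ls_localSubring (F := F) 𝔫.1) := by
    refine s36pc_mem_maximalIdeal Subtype.val_injective 𝔫.1 _ hb (s := 1)
      (fun h1 => (inferInstance : 𝔫.1.IsPrime).ne_top ((Ideal.eq_top_iff_one _).mpr h1)) ?_
    show ((1 : ↥(zchClosure (A₀ := A₀) ({u} : Set F))) : F) * (b : F) = (b : F)
    rw [show ((1 : ↥(zchClosure (A₀ := A₀) ({u} : Set F))) : F) = 1 from rfl, one_mul]
  rw [IsLocalRing.mem_maximalIdeal, mem_nonunits_iff] at hmem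
  exact hmem (IsUnit.of_mul_eq_one ⟨(b : F)⁻¹, h⟩ (Subtype.ext (mul_inv_cancel₀ hb0)))

/-- **A local ring with `t⁻¹, π ∈ 𝔪` dominates a point at `t = ∞`** (in the twisted form: `φ` a
ring endomorphism of `F` fixing `A₀`, `O` local and integrally closed in `F` with
`φ(t)⁻¹, π ∈ 𝔪_O`): there is a closed point `𝔫'` of the chart `t⁻¹` with `t⁻¹ ∈ 𝔫'`,
`φ ((B_{t⁻¹})_𝔫') ⊆ O` and `φ(𝔫') ⊆ 𝔪_O`. -/
theorem s36cu_pt_of_hom (hπ : Irreducible π) {t : F} (φ : F →+* F)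
    (hφA : ∀ a : A₀, φ (algebraMap A₀ F a) = algebraMap A₀ F a)
    (O : Subring F) [IsLocalRing O] (hic : ∀ x : F, IsIntegral O x → x ∈ O)
    (hA : ∀ a : A₀, algebraMap A₀ F a ∈ O)
    (hπO : (algebraMap A₀ F π)⁻¹ ∉ O) (htO : (φ t)⁻¹ ∈ O) (htn : φ t ∉ O) :
    ∃ 𝔫' : AtPt (F := F) π t⁻¹,
      (⟨t⁻¹, s36pc_self_mem t⁻¹⟩ : ↥(zchClosure (A₀ := A₀) ({t⁻¹} : Set F))) ∈ 𝔫'.1 ∧
      (∀ x ∈ atLoc 𝔫', φ x ∈ O) ∧
      ∀ b : ↥(zchClosure (A₀ := A₀) ({t⁻¹} : Set F)), b ∈ 𝔫'.1 → (φ (b : F))⁻¹ ∉ O ∨ (b : F) = 0 := by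
  classical
  have hφt0 : φ t ≠ 0 := by
    intro h0
    rw [h0] at htn
    exact htn O.zero_mem
  -- `φ (A₀[t⁻¹]) ⊆ O`
  have hadj : ∀ x ∈ Algebra.adjoin A₀ ({t⁻¹} : Set F), φ x ∈ O := by
    intro x hx
    induction hx using Algebra.adjoin_induction with
    | mem x hx =>
      rw [Set.mem_singleton_iff.mp hx, map_inv₀]
      exact htO
    | algebraMap r => rw [hφA]; exact hA r
    | add x y _ _ hx hy => rw [map_add]; exact O.add_mem hx hy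
    | mul x y _ _ hx hy => rw [map_mul]; exact O.mul_mem hx hy
  -- `φ (B_{t⁻¹}) ⊆ O`
  have hB : ∀ b : ↥(zchClosure (A₀ := A₀) ({t⁻¹} : Set F)), φ (b : F) ∈ O := by
    intro b
    apply hic
    obtain ⟨p, hp, hpx⟩ := mem_zchClosure.mp b.2
    let f : ↥(Algebra.adjoin A₀ ({t⁻¹} : Set F)) →+* O :=
      { toFun := fun c => ⟨φ c.1, hadj c.1 c.2⟩
        map_one' := Subtype.ext (map_one φ)
        map_mul' := fun _ _ => Subtype.ext (map_mul φ _ _)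
        map_zero' := Subtype.ext (map_zero φ)
        map_add' := fun _ _ => Subtype.ext (map_add φ _ _) }
    refine ⟨p.map f, hp.map f, ?_⟩
    rw [eval₂_map]
    have h := Polynomial.hom_eval₂ p (algebraMap ↥(Algebra.adjoin A₀ ({t⁻¹} : Set F)) F) φ (b : F)
    rw [hpx, map_zero] at h
    exact h.symm
  set ι : ↥(zchClosure (A₀ := A₀) ({t⁻¹} : Set F)) →+* O :=
    (φ.comp (algebraMap ↥(zchClosure (A₀ := A₀) ({t⁻¹} : Set F)) F)).codRestrict O hB with hι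
  have hιcoe : ∀ b, ((ι b : O) : F) = φ (b : F) := fun b => rfl
  set 𝔫' : Ideal ↥(zchClosure (A₀ := A₀) ({t⁻¹} : Set F)) :=
    (IsLocalRing.maximalIdeal O).comap ι with h𝔫'
  haveI h𝔫'p : 𝔫'.IsPrime := Ideal.comap_isPrime ι _
  -- nonunits
  have hnon : ∀ b : ↥(zchClosure (A₀ := A₀) ({t⁻¹} : Set F)), (φ (b : F))⁻¹ ∉ O → b ∈ 𝔫' := by
    intro b hb
    rw [h𝔫', Ideal.mem_comap, IsLocalRing.mem_maximalIdeal, mem_nonunits_iff]
    intro hu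
    obtain ⟨v, hv⟩ := hu.exists_right_inv
    have hvF : φ (b : F) * (v : F) = 1 := congrArg Subtype.val hv
    have : (v : F) = (φ (b : F))⁻¹ := eq_inv_of_mul_eq_one_right hvF
    exact hb (this ▸ v.2)
  have hπ' : algebraMap A₀ ↥(zchClosure (A₀ := A₀) ({t⁻¹} : Set F)) π ∈ 𝔫' := by
    apply hnon
    show (φ (algebraMap A₀ F π))⁻¹ ∉ O
    rw [hφA]
    exact hπO
  have ht' : (⟨t⁻¹, s36pc_self_mem t⁻¹⟩ : ↥(zchClosure (A₀ := A₀) ({t⁻¹} : Set F))) ∈ 𝔫' := by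
    apply hnon
    show (φ t⁻¹)⁻¹ ∉ O
    rw [map_inv₀, inv_inv]
    exact htn
  have hmax : 𝔫'.IsMaximal := by
    haveI : (𝔫'.comap (s36pcEval (A₀ := A₀) t⁻¹)).IsPrime := Ideal.comap_isPrime _ _
    have hCπ : C π ∈ 𝔫'.comap (s36pcEval (A₀ := A₀) t⁻¹) := by
      rw [Ideal.mem_comap, s36pc_eval_C]
      exact hπ'
    have hX : (X : A₀[X]) ∈ 𝔫'.comap (s36pcEval (A₀ := A₀) t⁻¹) := by
      rw [Ideal.mem_comap, s36pc_eval_X]
      exact ht'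
    have hPmax : (𝔫'.comap (s36pcEval (A₀ := A₀) t⁻¹)).IsMaximal :=
      s36pc_poly_isMaximal hπ _ hCπ hX (N := 1) coeff_X_one
    exact Ideal.isMaximal_of_isIntegral_of_isMaximal_comap' (s36pcEval (A₀ := A₀) t⁻¹)
      (s36pc_eval_isIntegral t⁻¹) 𝔫' hPmax
  refine ⟨⟨𝔫', hmax, hπ'⟩, ht', ?_, ?_⟩
  · rintro x ⟨b, s, hs, hx⟩
    have hsu : IsUnit (ι s) := by
      by_contra hnu
      exact hs ((IsLocalRing.mem_maximalIdeal _).2 hnu)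
    obtain ⟨v, hv⟩ := hsu.exists_left_inv
    have hvF : (v : F) * φ (s : F) = 1 := congrArg Subtype.val hv
    have hxF : (s : F) * x = (b : F) := hx
    have e : φ x = (v : F) * φ (b : F) := by
      rw [← hxF, map_mul, ← mul_assoc, hvF, one_mul]
    rw [e]
    exact O.mul_mem v.2 (hB b)
  · intro b hb
    by_cases hb0 : (b : F) = 0
    · exact Or.inr hb0
    left
    intro hinv
    have hφb0 : φ (b : F) ≠ 0 := (map_ne_zero φ).mpr hb0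
    have hu : IsUnit (ι b) :=
      IsUnit.of_mul_eq_one ⟨(φ (b : F))⁻¹, hinv⟩ (Subtype.ext (mul_inv_cancel₀ hφb0))
    exact (IsLocalRing.mem_maximalIdeal _).1 hb hu

/-- an inclusion of local rings of the same chart at two closed points is an equality -/
theorem s36cu_eq_of_le {u : F} (𝔫 𝔫' : AtPt (F := F) π u)
    (h : ∀ x ∈ atLoc 𝔫', x ∈ atLoc 𝔫) : 𝔫' = 𝔫 := by
  haveI := 𝔫.2.1.isPrime
  haveI := 𝔫'.2.1.isPrime
  have hle : 𝔫.1 ≤ 𝔫'.1 := by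
    intro b hb
    by_contra hb'
    have hb0 : (b : F) ≠ 0 := by
      intro h0
      apply hb'
      have : b = 0 := Subtype.ext h0
      rw [this]
      exact 𝔫'.1.zero_mem
    have hinv : (b : F)⁻¹ ∈ atLoc 𝔫' := by
      refine ⟨1, b, hb', ?_⟩
      show (b : F) * (b : F)⁻¹ = ((1 : ↥(zchClosure (A₀ := A₀) ({u} : Set F))) : F)
      rw [mul_inv_cancel₀ hb0]
      rfl
    exact s36cu_inv_not_mem 𝔫 hb hb0 (h _ hinv)
  have heq : 𝔫.1 = 𝔫'.1 := 𝔫.2.1.eq_of_le 𝔫'.2.1.ne_top hle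
  exact Subtype.ext heq.symm

include E in
/-- the data of a point at `t = ∞` -/
theorem s36cu_pt_data (hπ : Irreducible π) {t : F} (ht0 : t ≠ 0) (𝔪 : AtPt (F := F) π t⁻¹)
    (h𝔪 : (⟨t⁻¹, s36pc_self_mem t⁻¹⟩ : ↥(zchClosure (A₀ := A₀) ({t⁻¹} : Set F))) ∈ 𝔪.1) :
    (algebraMap A₀ F π)⁻¹ ∉ atLoc 𝔪 ∧ t⁻¹ ∈ atLoc 𝔪 ∧ t ∉ atLoc 𝔪 := by
  have hπ0 : algebraMap A₀ F π ≠ 0 := ei_algebraMap_ne_zero (E := E) hπ
  refine ⟨s36cu_inv_not_mem 𝔪 𝔪.2.2 hπ0, ?_, ?_⟩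
  · exact s36cu_atLoc_chart 𝔪 (mem_zchClosure.mp (s36pc_self_mem t⁻¹))
  · have := s36cu_inv_not_mem 𝔪 h𝔪 (inv_ne_zero ht0)
    rwa [inv_inv] at this

include E in
/-- **The local rings at `t = ∞` are permuted by `w`** (`w` an automorphism of `F` fixing `A₀`
with `t` integral over `A₀[w t]` and over `A₀[w⁻¹ t]`; for `t = j`, `w = w_{q²}`:
`w t = j_{q²} = w⁻¹ t`). -/
theorem s36cu_aut_pt (hπ : Irreducible π) {t : F} (ht0 : t ≠ 0) (w : F ≃+* F)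
    (hwA : ∀ a : A₀, w (algebraMap A₀ F a) = algebraMap A₀ F a)
    (h₁ : IsIntegral ↥(Algebra.adjoin A₀ {w t}) t)
    (h₂ : IsIntegral ↥(Algebra.adjoin A₀ {w.symm t}) t)
    (𝔫 : AtPt (F := F) π t⁻¹)
    (h𝔫 : (⟨t⁻¹, s36pc_self_mem t⁻¹⟩ : ↥(zchClosure (A₀ := A₀) ({t⁻¹} : Set F))) ∈ 𝔫.1) :
    ∃ 𝔫' : AtPt (F := F) π t⁻¹,
      (⟨t⁻¹, s36pc_self_mem t⁻¹⟩ : ↥(zchClosure (A₀ := A₀) ({t⁻¹} : Set F))) ∈ 𝔫'.1 ∧
      ∀ x : F, x ∈ atLoc 𝔫' ↔ w.symm x ∈ atLoc 𝔫 := by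
  have hwA' : ∀ a : A₀, w.symm (algebraMap A₀ F a) = algebraMap A₀ F a := fun a => by
    rw [RingEquiv.symm_apply_eq, hwA]
  -- first step: `φ = w⁻¹`, `O = atLoc 𝔫`
  obtain ⟨hπ𝔫, ht𝔫, htn𝔫⟩ := s36cu_pt_data (E := E) hπ ht0 𝔫 h𝔫
  haveI : IsLocalRing (atLoc 𝔫) := stb_atO_isLocalRing (π := π) t (Sum.inr 𝔫)
  obtain ⟨hs1, hs2⟩ := s36cu_pole (A₀ := A₀) (O := atLoc 𝔫) (s36cu_atLoc_ic 𝔫)
    (s36cu_atLoc_algebraMap 𝔫) h₂ ht𝔫 htn𝔫
  obtain ⟨𝔫', ht', hsub', -⟩ := s36cu_pt_of_hom hπ (t := t) (w.symm : F →+* F) hwA' (atLoc 𝔫)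
    (s36cu_atLoc_ic 𝔫) (s36cu_atLoc_algebraMap 𝔫) hπ𝔫 hs1 hs2
  -- second step: `φ = w`, `O = atLoc 𝔫'`
  obtain ⟨hπ𝔫', ht𝔫', htn𝔫'⟩ := s36cu_pt_data (E := E) hπ ht0 𝔫' ht'
  haveI : IsLocalRing (atLoc 𝔫') := stb_atO_isLocalRing (π := π) t (Sum.inr 𝔫')
  obtain ⟨hr1, hr2⟩ := s36cu_pole (A₀ := A₀) (O := atLoc 𝔫') (s36cu_atLoc_ic 𝔫')
    (s36cu_atLoc_algebraMap 𝔫') h₁ ht𝔫' htn𝔫'
  obtain ⟨𝔫'', -, hsub'', -⟩ := s36cu_pt_of_hom hπ (t := t) (w : F →+* F) hwA (atLoc 𝔫')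
    (s36cu_atLoc_ic 𝔫') (s36cu_atLoc_algebraMap 𝔫') hπ𝔫' hr1 hr2
  -- `atLoc 𝔫'' ⊆ atLoc 𝔫`, hence equality
  have hle : ∀ x ∈ atLoc 𝔫'', x ∈ atLoc 𝔫 := by
    intro x hx
    have h1 : w.symm (w x) ∈ atLoc 𝔫 := hsub' _ (hsub'' x hx)
    rwa [RingEquiv.symm_apply_apply] at h1
  have heq : 𝔫'' = 𝔫 := s36cu_eq_of_le 𝔫 𝔫'' hle
  refine ⟨𝔫', ht', fun x => ⟨fun hx => hsub' x hx, fun hx => ?_⟩⟩
  have h2 : w (w.symm x) ∈ atLoc 𝔫' := hsub'' _ (heq ▸ hx)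
  rwa [RingEquiv.apply_symm_apply] at h2

section Cusp

variable {F₁ : Type*} [Field F₁]

/-- a nonunit of the local ring, in terms of `F` -/
theorem s36cu_mem_max_of_inv {O : Subring F} [IsLocalRing O] {z : F} (hz : z ∈ O)
    (hzn : z = 0 ∨ z⁻¹ ∉ O) : (⟨z, hz⟩ : O) ∈ IsLocalRing.maximalIdeal O := by
  rw [IsLocalRing.mem_maximalIdeal, mem_nonunits_iff, s36cu_isUnit_iff]
  rintro ⟨h0, hinv⟩
  rcases hzn with h | h
  · exact h0 h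
  · exact h hinv

include E in
/-- **`(s⁻¹)^k ∈ 𝔪_O` at the points at `t = ∞`**, for `t` integral over `A₀[s]`, `k ≥ 1`. -/
theorem s36cu_pow_inv_mem (hπ : Irreducible π) {t : F} (ht0 : t ≠ 0) {s : F}
    (hs : IsIntegral ↥(Algebra.adjoin A₀ {s}) t) {k : ℕ} (hk : 0 < k)
    (𝔫 : AtPt (F := F) π t⁻¹)
    (h𝔫 : (⟨t⁻¹, s36pc_self_mem t⁻¹⟩ : ↥(zchClosure (A₀ := A₀) ({t⁻¹} : Set F))) ∈ 𝔫.1) :
    s⁻¹ ^ k ∈ atLoc 𝔫 ∧ (s⁻¹ ^ k = 0 ∨ (s⁻¹ ^ k)⁻¹ ∉ atLoc 𝔫) := by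
  obtain ⟨-, ht𝔫, htn𝔫⟩ := s36cu_pt_data (E := E) hπ ht0 𝔫 h𝔫
  haveI : IsLocalRing (atLoc 𝔫) := stb_atO_isLocalRing (π := π) t (Sum.inr 𝔫)
  obtain ⟨hs1, hs2⟩ := s36cu_pole (A₀ := A₀) (O := atLoc 𝔫) (s36cu_atLoc_ic 𝔫)
    (s36cu_atLoc_algebraMap 𝔫) hs ht𝔫 htn𝔫
  refine ⟨(atLoc 𝔫).pow_mem hs1 k, Or.inr fun h => hs2 ?_⟩
  -- `s = (s⁻¹)^(k-1) · ((s⁻¹)^k)⁻¹`
  have hs0 : s ≠ 0 := by
    rintro rfl
    exact hs2 (atLoc 𝔫).zero_mem
  have e : s = s⁻¹ ^ (k - 1) * (s⁻¹ ^ k)⁻¹ := by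
    obtain ⟨n, rfl⟩ : ∃ n, k = n + 1 := ⟨k - 1, by omega⟩
    rw [Nat.add_sub_cancel, pow_succ, mul_inv, inv_inv, ← mul_assoc,
      mul_inv_cancel₀ (pow_ne_zero _ (inv_ne_zero hs0)), one_mul]
  rw [e]
  exact (atLoc 𝔫).mul_mem ((atLoc 𝔫).pow_mem hs1 _) h

/-- **`honly` at the points at `t = ∞` of `C_a`**: separation by `y` (`y ≡ 1` at `V_a`,
`y ≡ z_b` at `V_b`, `y ≡ z_c` at `V_c`, `z_b, z_c ∈ 𝔪_O`). -/
theorem s36cu_honly_a {u : F} (V : κ → ValuationSubring F)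
    (hBV : ∀ c (b : F), IsIntegral ↥(Algebra.adjoin A₀ {u}) b → b ∈ V c)
    (ca cb cc : κ) (hκ : ∀ c, c = ca ∨ c = cb ∨ c = cc)
    (𝔫 : AtPt (F := F) π u) {y zb zc : F} (hy : y ∈ atLoc 𝔫)
    (hzb : zb ∈ atLoc 𝔫 ∧ (zb = 0 ∨ zb⁻¹ ∉ atLoc 𝔫))
    (hzc : zc ∈ atLoc 𝔫 ∧ (zc = 0 ∨ zc⁻¹ ∉ atLoc 𝔫))
    (hya : y - 1 ∈ (V ca).nonunits) (hyb : y - zb ∈ (V cb).nonunits)
    (hyc : y - zc ∈ (V cc).nonunits) (ha : atThrough 𝔫 (V ca)) :
    ∀ c, atThrough 𝔫 (V c) → c = ca := by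
  haveI : IsLocalRing (atLoc 𝔫) := by
    haveI := 𝔫.2.1.isPrime
    exact ls_localSubring_isLocalRing Subtype.val_injective 𝔫.1
  intro c hc
  have hOa := stb_loc_le 𝔫 (V ca) (hBV ca) ha
  have hOc := stb_loc_le 𝔫 (V c) (hBV c) hc
  rcases hκ c with h | h | h
  · exact h
  · exfalso
    rw [h] at hOc
    exact s36cu_not_both (V ca) (V cb) hOa hOc hy hzb.1
      (s36cu_mem_max_of_inv hzb.1 hzb.2) hya hyb
  · exfalso
    rw [h] at hOc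
    exact s36cu_not_both (V ca) (V cc) hOa hOc hy hzc.1
      (s36cu_mem_max_of_inv hzc.1 hzc.2) hya hyc

include E in
/-- **(P2): `S36PtInput` at the points at `t = ∞`.**
Inputs: the automorphism `w` (`V_b = V_a.comap w`, `V_a = V_b.comap w`, `V_c = V_c.comap w`,
`t` integral over `A₀[w t]`, `A₀[w⁻¹ t]`, `Hor` is `w`-invariant); the separating function `y`
(`y ∈ O` at the points of `C_a`, `y ≡ 1` at `V_a`, `y ≡ z_b` at `V_b`, `y ≡ z_c` at `V_c`,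
`z_b, z_c ∈ 𝔪_O`); `S36PtInput` at the one-component points of `C_a` (`hA`) and of `C_c` (`hC`).
The points of `C_b` come from those of `C_a` by `w`. -/
theorem s36cu_hpts_inf [Finite κ] (hπ : Irreducible π) {t : F} (ht : Transcendental E t)
    [FiniteDimensional (IntermediateField.adjoin E {t}) F]
    (V : κ → ValuationSubring F)
    (hBV₁ : ∀ c (b : F), IsIntegral ↥(Algebra.adjoin A₀ {t}) b → b ∈ V c)
    (hBV₂ : ∀ c (b : F), IsIntegral ↥(Algebra.adjoin A₀ {t⁻¹}) b → b ∈ V c)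
    (hKR : ∀ x : F, IsIntegral ↥(Algebra.adjoin A₀ {t}) (algebraMap A₀ F π * x) →
      (∀ c, x ∈ V c) → IsIntegral ↥(Algebra.adjoin A₀ {t}) x)
    {Q : ℕ}
    (hram : ∀ c (x : F), x ∈ (V c).nonunits → ∃ z ∈ V c, x ^ Q = algebraMap A₀ F π * z)
    (ca cb cc : κ) (hκ : ∀ c, c = ca ∨ c = cb ∨ c = cc) (hab : ca ≠ cb) (hac : ca ≠ cc)
    (hbc : cb ≠ cc)
    -- the automorphism
    (w : F ≃+* F) (hwA : ∀ a : A₀, w (algebraMap A₀ F a) = algebraMap A₀ F a)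
    (h₁ : IsIntegral ↥(Algebra.adjoin A₀ {w t}) t)
    (h₂ : IsIntegral ↥(Algebra.adjoin A₀ {w.symm t}) t)
    (hwab : ∀ x, x ∈ V cb ↔ w x ∈ V ca) (hwba : ∀ x, x ∈ V ca ↔ w x ∈ V cb)
    (hwcc : ∀ x, x ∈ V cc ↔ w x ∈ V cc)
    {Hor : F → Prop} (hHor : ∀ y, Hor y → Hor (w y))
    -- the separating function
    {y zb zc : F}
    (hyO : ∀ 𝔫 : AtPt (F := F) π t⁻¹,
      (⟨t⁻¹, s36pc_self_mem t⁻¹⟩ : ↥(zchClosure (A₀ := A₀) ({t⁻¹} : Set F))) ∈ 𝔫.1 →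
      atThrough 𝔫 (V ca) → y ∈ atLoc 𝔫)
    (hzb : ∀ 𝔫 : AtPt (F := F) π t⁻¹,
      (⟨t⁻¹, s36pc_self_mem t⁻¹⟩ : ↥(zchClosure (A₀ := A₀) ({t⁻¹} : Set F))) ∈ 𝔫.1 →
      zb ∈ atLoc 𝔫 ∧ (zb = 0 ∨ zb⁻¹ ∉ atLoc 𝔫))
    (hzc : ∀ 𝔫 : AtPt (F := F) π t⁻¹,
      (⟨t⁻¹, s36pc_self_mem t⁻¹⟩ : ↥(zchClosure (A₀ := A₀) ({t⁻¹} : Set F))) ∈ 𝔫.1 →
      zc ∈ atLoc 𝔫 ∧ (zc = 0 ∨ zc⁻¹ ∉ atLoc 𝔫))
    (hya : y - 1 ∈ (V ca).nonunits) (hyb : y - zb ∈ (V cb).nonunits)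
    (hyc : y - zc ∈ (V cc).nonunits)
    -- the points of `C_a` and of `C_c`
    {m : ℕ} {α β : F₁ →+* F} {Nα Nβ : F →* F₁} {ζ₁ : F₁}
    (hA : ∀ 𝔫 : AtPt (F := F) π t⁻¹,
      (⟨t⁻¹, s36pc_self_mem t⁻¹⟩ : ↥(zchClosure (A₀ := A₀) ({t⁻¹} : Set F))) ∈ 𝔫.1 →
      atThrough 𝔫 (V ca) → (∀ c, atThrough 𝔫 (V c) → c = ca) →
      @S36PtInput F₁ F _ _ κ Hor m α β Nα Nβ ζ₁ V ca cb cc (atO π t (Sum.inr 𝔫))
        (stb_atO_isLocalRing (π := π) t (Sum.inr 𝔫)) (atInc π t V (Sum.inr 𝔫)))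
    (hC : ∀ 𝔫 : AtPt (F := F) π t⁻¹,
      (⟨t⁻¹, s36pc_self_mem t⁻¹⟩ : ↥(zchClosure (A₀ := A₀) ({t⁻¹} : Set F))) ∈ 𝔫.1 →
      atThrough 𝔫 (V cc) → (∀ c, atThrough 𝔫 (V c) → c = cc) →
      @S36PtInput F₁ F _ _ κ Hor m α β Nα Nβ ζ₁ V ca cb cc (atO π t (Sum.inr 𝔫))
        (stb_atO_isLocalRing (π := π) t (Sum.inr 𝔫)) (atInc π t V (Sum.inr 𝔫))) :
    ∀ 𝔫 : AtPt (F := F) π t⁻¹,
      (⟨t⁻¹, s36pc_self_mem t⁻¹⟩ : ↥(zchClosure (A₀ := A₀) ({t⁻¹} : Set F))) ∈ 𝔫.1 →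
      @S36PtInput F₁ F _ _ κ Hor m α β Nα Nβ ζ₁ V ca cb cc (atO π t (Sum.inr 𝔫))
        (stb_atO_isLocalRing (π := π) t (Sum.inr 𝔫)) (atInc π t V (Sum.inr 𝔫)) := by
  classical
  have ht0 : t ≠ 0 := by
    rintro rfl
    exact ht isAlgebraic_zero
  have hπ0 : algebraMap A₀ F π ≠ 0 := ei_algebraMap_ne_zero (E := E) hπ
  have hKR₂ := aq_KR_inv hπ ht V hBV₁ hKR
  -- `honly` at the points of `C_a`
  have honly_a : ∀ 𝔫 : AtPt (F := F) π t⁻¹,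
      (⟨t⁻¹, s36pc_self_mem t⁻¹⟩ : ↥(zchClosure (A₀ := A₀) ({t⁻¹} : Set F))) ∈ 𝔫.1 →
      atThrough 𝔫 (V ca) → ∀ c, atThrough 𝔫 (V c) → c = ca := fun 𝔫 h𝔫 ha =>
    s36cu_honly_a V hBV₂ ca cb cc hκ 𝔫 (hyO 𝔫 h𝔫 ha) (hzb 𝔫 h𝔫) (hzc 𝔫 h𝔫) hya hyb hyc ha
  -- the permutation of the components
  set σ : κ → κ := fun c => if c = ca then cb else if c = cb then ca else c with hσdef
  have hσa : σ ca = cb := by simp [hσdef]
  have hσb : σ cb = ca := by simp [hσdef, hab.symm]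
  have hσc : σ cc = cc := by simp [hσdef, hac.symm, hbc.symm]
  have hσσ : ∀ c, σ (σ c) = c := by
    intro c
    rcases hκ c with rfl | rfl | rfl
    · rw [hσa, hσb]
    · rw [hσb, hσa]
    · rw [hσc, hσc]
  have hVσ : ∀ c x, x ∈ V (σ c) ↔ w x ∈ V c := by
    intro c x
    rcases hκ c with rfl | rfl | rfl
    · rw [hσa]; exact hwab x
    · rw [hσb]; exact hwba x
    · rw [hσc]; exact hwcc x
  intro 𝔫 h𝔫
  by_cases ha : atThrough 𝔫 (V ca)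
  · exact hA 𝔫 h𝔫 ha (honly_a 𝔫 h𝔫 ha)
  -- the transported point
  obtain ⟨𝔫', h𝔫', hloc⟩ := s36cu_aut_pt (E := E) hπ ht0 w hwA h₁ h₂ 𝔫 h𝔫
  have hthr : ∀ c, atThrough 𝔫 (V c) ↔ atThrough 𝔫' (V (σ c)) := by
    intro c
    rw [s36pc_through_iff 𝔫 (V c) (hBV₂ c), s36pc_through_iff 𝔫' (V (σ c)) (hBV₂ (σ c))]
    constructor
    · intro h x hx
      have h1 : w.symm x ∈ V c := h _ ((hloc x).mp hx)
      have e := hVσ (σ c) (w.symm x)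
      rw [hσσ, RingEquiv.apply_symm_apply] at e
      exact e.mp h1
    · intro h x hx
      have h1 : w x ∈ atLoc 𝔫' := (hloc _).mpr (by rwa [RingEquiv.symm_apply_apply])
      have h2 : w x ∈ V (σ c) := h _ h1
      have e := hVσ (σ c) x
      rw [hσσ] at e
      exact e.mpr h2
  by_cases hb : atThrough 𝔫 (V cb)
  · -- a point of `C_b`: transport from the point `𝔫'` of `C_a`
    have ha' : atThrough 𝔫' (V ca) := by
      have := (hthr cb).mp hb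
      rwa [hσb] at this
    have hone' := honly_a 𝔫' h𝔫' ha'
    have H := hA 𝔫' h𝔫' ha' hone'
    refine @s36cu_ptInput_map F₁ F _ _ κ Hor m α β Nα Nβ ζ₁ V ca cb cc
      (atO π t (Sum.inr 𝔫')) (atO π t (Sum.inr 𝔫))
      (stb_atO_isLocalRing (π := π) t (Sum.inr 𝔫')) (stb_atO_isLocalRing (π := π) t (Sum.inr 𝔫))
      w.symm ?_ σ hσσ ?_ (atInc π t V (Sum.inr 𝔫')) (atInc π t V (Sum.inr 𝔫)) ?_ ?_ H
      ⟨ca, ha', hone'⟩
    · intro x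
      show x ∈ atLoc 𝔫 ↔ w.symm.symm x ∈ atLoc 𝔫'
      rw [RingEquiv.symm_symm, hloc, RingEquiv.symm_apply_apply]
    · intro c x
      have e := hVσ (σ c) (w.symm x)
      rw [hσσ, RingEquiv.apply_symm_apply] at e
      exact e.symm
    · intro c
      exact hthr c
    · intro y hy
      rw [RingEquiv.symm_symm]
      exact hHor y hy
  · -- a point of `C_c`
    obtain ⟨c, hc⟩ := aq_hpt V hBV₂ hKR₂ hram hπ0 𝔫
    have hcc : c = cc := by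
      rcases hκ c with h | h | h
      · exact absurd (h ▸ hc) ha
      · exact absurd (h ▸ hc) hb
      · exact h
    rw [hcc] at hc
    refine hC 𝔫 h𝔫 hc fun c' hc' => ?_
    rcases hκ c' with h | h | h
    · exact absurd (h ▸ hc') ha
    · exact absurd (h ▸ hc') hb
    · exact h

include E in
/-- **`hpts` of `s36ta_main` / `s36tb_small`** from: `S36PtInput` at the closed points of the
chart `t` (`h₁`), and at the points at `t = ∞` the data of `s36cu_hpts_inf`. -/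
theorem s36cu_hpts [Finite κ] (hπ : Irreducible π) {t : F} (ht : Transcendental E t)
    [FiniteDimensional (IntermediateField.adjoin E {t}) F]
    (V : κ → ValuationSubring F)
    (hBV₁ : ∀ c (b : F), IsIntegral ↥(Algebra.adjoin A₀ {t}) b → b ∈ V c)
    (hBV₂ : ∀ c (b : F), IsIntegral ↥(Algebra.adjoin A₀ {t⁻¹}) b → b ∈ V c)
    (hKR : ∀ x : F, IsIntegral ↥(Algebra.adjoin A₀ {t}) (algebraMap A₀ F π * x) →
      (∀ c, x ∈ V c) → IsIntegral ↥(Algebra.adjoin A₀ {t}) x)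
    {Q : ℕ}
    (hram : ∀ c (x : F), x ∈ (V c).nonunits → ∃ z ∈ V c, x ^ Q = algebraMap A₀ F π * z)
    (ca cb cc : κ) (hκ : ∀ c, c = ca ∨ c = cb ∨ c = cc) (hab : ca ≠ cb) (hac : ca ≠ cc)
    (hbc : cb ≠ cc)
    (w : F ≃+* F) (hwA : ∀ a : A₀, w (algebraMap A₀ F a) = algebraMap A₀ F a)
    (hw₁ : IsIntegral ↥(Algebra.adjoin A₀ {w t}) t)
    (hw₂ : IsIntegral ↥(Algebra.adjoin A₀ {w.symm t}) t)
    (hwab : ∀ x, x ∈ V cb ↔ w x ∈ V ca) (hwba : ∀ x, x ∈ V ca ↔ w x ∈ V cb)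
    (hwcc : ∀ x, x ∈ V cc ↔ w x ∈ V cc)
    {Hor : F → Prop} (hHor : ∀ y, Hor y → Hor (w y))
    {y zb zc : F}
    (hyO : ∀ 𝔫 : AtPt (F := F) π t⁻¹,
      (⟨t⁻¹, s36pc_self_mem t⁻¹⟩ : ↥(zchClosure (A₀ := A₀) ({t⁻¹} : Set F))) ∈ 𝔫.1 →
      atThrough 𝔫 (V ca) → y ∈ atLoc 𝔫)
    (hzb : ∀ 𝔫 : AtPt (F := F) π t⁻¹,
      (⟨t⁻¹, s36pc_self_mem t⁻¹⟩ : ↥(zchClosure (A₀ := A₀) ({t⁻¹} : Set F))) ∈ 𝔫.1 →
      zb ∈ atLoc 𝔫 ∧ (zb = 0 ∨ zb⁻¹ ∉ atLoc 𝔫))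
    (hzc : ∀ 𝔫 : AtPt (F := F) π t⁻¹,
      (⟨t⁻¹, s36pc_self_mem t⁻¹⟩ : ↥(zchClosure (A₀ := A₀) ({t⁻¹} : Set F))) ∈ 𝔫.1 →
      zc ∈ atLoc 𝔫 ∧ (zc = 0 ∨ zc⁻¹ ∉ atLoc 𝔫))
    (hya : y - 1 ∈ (V ca).nonunits) (hyb : y - zb ∈ (V cb).nonunits)
    (hyc : y - zc ∈ (V cc).nonunits)
    {m : ℕ} {α β : F₁ →+* F} {Nα Nβ : F →* F₁} {ζ₁ : F₁}
    (h₁ : ∀ 𝔫 : AtPt (F := F) π t,
      @S36PtInput F₁ F _ _ κ Hor m α β Nα Nβ ζ₁ V ca cb cc (atO π t (Sum.inl 𝔫))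
        (stb_atO_isLocalRing (π := π) t (Sum.inl 𝔫)) (atInc π t V (Sum.inl 𝔫)))
    (hA : ∀ 𝔫 : AtPt (F := F) π t⁻¹,
      (⟨t⁻¹, s36pc_self_mem t⁻¹⟩ : ↥(zchClosure (A₀ := A₀) ({t⁻¹} : Set F))) ∈ 𝔫.1 →
      atThrough 𝔫 (V ca) → (∀ c, atThrough 𝔫 (V c) → c = ca) →
      @S36PtInput F₁ F _ _ κ Hor m α β Nα Nβ ζ₁ V ca cb cc (atO π t (Sum.inr 𝔫))
        (stb_atO_isLocalRing (π := π) t (Sum.inr 𝔫)) (atInc π t V (Sum.inr 𝔫)))
    (hC : ∀ 𝔫 : AtPt (F := F) π t⁻¹,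
      (⟨t⁻¹, s36pc_self_mem t⁻¹⟩ : ↥(zchClosure (A₀ := A₀) ({t⁻¹} : Set F))) ∈ 𝔫.1 →
      atThrough 𝔫 (V cc) → (∀ c, atThrough 𝔫 (V c) → c = cc) →
      @S36PtInput F₁ F _ _ κ Hor m α β Nα Nβ ζ₁ V ca cb cc (atO π t (Sum.inr 𝔫))
        (stb_atO_isLocalRing (π := π) t (Sum.inr 𝔫)) (atInc π t V (Sum.inr 𝔫))) :
    ∀ i : AtPt (F := F) π t ⊕ AtPt (F := F) π t⁻¹,
      @S36PtInput F₁ F _ _ κ Hor m α β Nα Nβ ζ₁ V ca cb cc (atO π t i)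
        (stb_atO_isLocalRing (π := π) t i) (atInc π t V i) := by
  have ht0 : t ≠ 0 := by
    rintro rfl
    exact ht isAlgebraic_zero
  exact s36pc_hpts hπ ht0 V hBV₁ hBV₂ h₁
    (s36cu_hpts_inf (E := E) hπ ht V hBV₁ hBV₂ hKR hram ca cb cc hκ hab hac hbc w hwA hw₁ hw₂
      hwab hwba hwcc hHor hyO hzb hzc hya hyb hyc hA hC)

end Cusp

end Chart

end Fermat.Agent.S36
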