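import Fermat.Agent.S36.CuspMidRed
import Fermat.Agent.S36.CuspMidAbs
import Fermat.Agent.S36.PtsCusp

/-!
# S36 (I6): cusp points of `C_c` — the local parameter `X = j / j_qq − 1` (helper58)

* `s36cm_main_abs` : ABSTRACT chart `B ⊆ F`, prime `𝔫 ∋ q, b = J⁻¹`, only `V c₁` through `𝔫`,
  `u = Jq / J^q ∈ B` with `u ≡ 1` at `V c₁`, the modular equation `Φ(Jqq, Jq) = 0`, the
  congruence `U · S ≡ G` at `V c₁` (`U = X^{q−1}/q`), `q ∤ (reflect m N)(0)`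
  ⇒ `X ∈ O`, `U ∈ O`, `U⁻¹ ∈ O`, `U ≠ 0` (`O = B_𝔫`).
* **`s36cm_cusp`** : the same at a point `𝔫 : AtPt π J⁻¹` with `J⁻¹ ∈ 𝔫` of the chart `j⁻¹` of
  `F = F_{Mq²}(E₀)`, for a vertical valuation `V c₁ = vtSub hB e hfrac` with the expansions of
  `V_c` (`e j = j`, `e j_q = j(Q^q)`, `e j_qq = j(zQ)`).  These are the inputs `hX hg hg' hg0`
  of helper93's `s36pm_atPt_inr` with `e = q − 1`, `n = 1`, `g = X^{q−1}/q` (`hcong` is then
  `s36cm_hcong_self`).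
-/

set_option autoImplicit false
set_option linter.unusedSectionVars false
set_option linter.unusedVariables false
set_option linter.style.haveILetI false

noncomputable section

namespace Fermat.Agent.S36

open Polynomial ModularCurve
open Fermat.Agent.S28 Fermat.Agent.S33 Fermat.Agent.UNIP Fermat.Agent.STB Fermat.Agent.INJ
open Fermat.Agent.ES Fermat.Agent.AL

section Abs

variable {F : Type*} [Field F] {B : Type*} [CommRing B] [Algebra B F]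
variable (hinj : Function.Injective (algebraMap B F)) (𝔫 : Ideal B) [h𝔫 : 𝔫.IsPrime]
variable {κ : Type*} [Finite κ]

include hinj in
/-- `1 + ϖ s` is a unit of `O` for `ϖ ∈ 𝔫` -/
theorem s36cm_isUnit_one_add (ϖ : B) (hϖ : ϖ ∈ 𝔫) (s : ls_localSubring (F := F) 𝔫) :
    IsUnit (1 + s36n2pToLoc (F := F) 𝔫 ϖ * s) := by
  haveI := ls_localSubring_isLocalRing (F := F) hinj 𝔫
  have h1 : (1 : B) ∉ 𝔫 := fun h => h𝔫.ne_top ((Ideal.eq_top_iff_one 𝔫).mpr h)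
  have hm : s36n2pToLoc (F := F) 𝔫 ϖ ∈ IsLocalRing.maximalIdeal (ls_localSubring (F := F) 𝔫) :=
    s36pc_mem_maximalIdeal hinj 𝔫 _ (b := ϖ) (s := 1) hϖ h1 (by rw [map_one, one_mul]; rfl)
  apply stb_isUnit_of_sub_one
  rw [add_sub_cancel_left]
  exact Ideal.mul_mem_right _ _ hm

theorem s36cm_evalInt_C {R : Type*} [CommRing R] (x : R) (a : ℤ) :
    evalInt x (C a) = (a : R) := by
  show Polynomial.eval₂ (Int.castRingHom R) x (C a) = _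
  rw [Polynomial.eval₂_C, eq_intCast]

theorem s36cm_map_evalInt {R R' : Type*} [CommRing R] [CommRing R'] (f : R →+* R') (x : R)
    (P : Polynomial ℤ) : f (evalInt x P) = evalInt (f x) P := by
  rw [← comp_evalInt]
  rfl

include hinj in
/-- **the abstract statement** -/
theorem s36cm_main_abs (V : κ → ValuationSubring F)
    (hBV : ∀ c (b : B), algebraMap B F b ∈ V c) (ϖ : B)
    (hKR : ∀ x : F, (∃ b : B, algebraMap B F ϖ * x = algebraMap B F b) → (∀ c, x ∈ V c) →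
      ∃ b : B, x = algebraMap B F b)
    (Q : ℕ) (hram : ∀ c (x : F), x ∈ (V c).nonunits → ∃ z ∈ V c, x ^ Q = algebraMap B F ϖ * z)
    (c₁ : κ) (hc₁ : ∀ b : B, algebraMap B F b ∈ (V c₁).nonunits → b ∈ 𝔫)
    (honly : ∀ c, (∀ b : B, algebraMap B F b ∈ (V c).nonunits → b ∈ 𝔫) → c = c₁)
    (hOic : ∀ x : F, IsIntegral (ls_localSubring (F := F) 𝔫) x → x ∈ ls_localSubring (F := F) 𝔫)
    (q : ℕ) [NeZero q] (hq : q.Prime) (hϖq : algebraMap B F ϖ = ((q : ℕ) : F))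
    (hq0 : ((q : ℕ) : F) ≠ 0) (hϖ𝔫 : ϖ ∈ 𝔫)
    {J Jq Jqq : F} (hJ : J ≠ 0) (hJq : Jq ≠ 0) (hJqq : Jqq ≠ 0)
    (hrel : (nodesSwapPhi q hq).eval₂ (evalInt Jq) Jqq = 0)
    (b u : B) (hb : algebraMap B F b = J⁻¹) (hb𝔫 : b ∈ 𝔫)
    (hu : algebraMap B F u = Jq * J⁻¹ ^ q)
    (hu1 : Jq * J⁻¹ ^ q - 1 ∈ (V c₁).nonunits)
    (m d : ℕ) (N : Polynomial ℤ) (hN : ¬ ((q : ℕ) : ℤ) ∣ (reflect m N).coeff 0)
    (hUV : (J * Jqq⁻¹ - 1) ^ (q - 1) / ((q : ℕ) : F) ∈ V c₁)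
    (hcong : (J * Jqq⁻¹ - 1) ^ (q - 1) / ((q : ℕ) : F) *
        ((1 - J⁻¹ ^ (q ^ 2 - 1)) ^ 2 * J⁻¹ ^ (m - d)) -
      -(evalInt J⁻¹ (reflect m N)) ∈ (V c₁).nonunits) :
    J * Jqq⁻¹ - 1 ∈ ls_localSubring (F := F) 𝔫 ∧
      (J * Jqq⁻¹ - 1) ^ (q - 1) / ((q : ℕ) : F) ∈ ls_localSubring (F := F) 𝔫 ∧
      ((J * Jqq⁻¹ - 1) ^ (q - 1) / ((q : ℕ) : F))⁻¹ ∈ ls_localSubring (F := F) 𝔫 ∧
      (J * Jqq⁻¹ - 1) ^ (q - 1) / ((q : ℕ) : F) ≠ 0 := by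
  classical
  haveI := ls_localSubring_isLocalRing (F := F) hinj 𝔫
  have h1 : (1 : B) ∉ 𝔫 := fun h => h𝔫.ne_top ((Ideal.eq_top_iff_one 𝔫).mpr h)
  have hϖ0 : algebraMap B F ϖ ≠ 0 := by rw [hϖq]; exact hq0
  -- `J⁻¹ ∈ O`
  have hbO : J⁻¹ ∈ ls_localSubring (F := F) 𝔫 := hb ▸ ls_algebraMap_mem 𝔫 b
  -- `u ∉ 𝔫`
  have hu𝔫 : u ∉ 𝔫 := by
    intro h
    have h2 : u - 1 ∈ 𝔫 := hc₁ _ (by rw [map_sub, map_one, hu]; exact hu1)
    have h3 := 𝔫.sub_mem h h2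
    rw [sub_sub_cancel] at h3
    exact h1 h3
  -- `J ^ q / Jq ∈ O`
  have huO : J ^ q * Jq⁻¹ ∈ ls_localSubring (F := F) 𝔫 := by
    refine ⟨1, u, hu𝔫, ?_⟩
    rw [hu, map_one, inv_pow]
    field_simp
  have haO : Jq⁻¹ ∈ ls_localSubring (F := F) 𝔫 := by
    have e : Jq⁻¹ = J⁻¹ ^ q * (J ^ q * Jq⁻¹) := by
      rw [inv_pow]
      field_simp
    rw [e]
    exact (ls_localSubring (F := F) 𝔫).mul_mem ((ls_localSubring (F := F) 𝔫).pow_mem hbO q) huO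
  -- the unit `γ`
  haveI : Fact q.Prime := ⟨hq⟩
  have hγ : evalInt Jq⁻¹ (reflect (q + 1) ((nodesSwapPhi q hq).coeff 0)) =
      1 + algebraMap B F ϖ * evalInt Jq⁻¹ (reflect (q + 1) ((s36tkPsi q).coeff 0)) := by
    rw [s36cm_phi_coeff_zero, reflect_add, reflect_C_mul, reflect_monomial, revAt_le le_rfl,
      Nat.sub_self, pow_zero, map_add, map_one, map_mul, s36cm_evalInt_C, hϖq]
    simp
  set sγ : ls_localSubring (F := F) 𝔫 :=
    ⟨evalInt Jq⁻¹ (reflect (q + 1) ((s36tkPsi q).coeff 0)),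
      s36cm_evalInt_mem _ haO _⟩ with hsγ
  obtain ⟨γu, hγu⟩ := s36cm_isUnit_one_add hinj 𝔫 ϖ hϖ𝔫 sγ
  have hγ' : ((↑γu⁻¹ : ls_localSubring (F := F) 𝔫) : F) *
      evalInt Jq⁻¹ (reflect (q + 1) ((nodesSwapPhi q hq).coeff 0)) = 1 := by
    have e1 : ((γu : ls_localSubring (F := F) 𝔫) : F) =
        evalInt Jq⁻¹ (reflect (q + 1) ((nodesSwapPhi q hq).coeff 0)) := by
      rw [hγu, hγ]
      rfl
    rw [← e1]
    have := congrArg (fun z : ls_localSubring (F := F) 𝔫 => (z : F)) (Units.inv_mul γu)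
    exact this
  -- `x₀ ∈ O`
  have hx0 : J * Jqq⁻¹ ∈ ls_localSubring (F := F) 𝔫 :=
    s36cm_x0_mem q hq.one_le (nodesSwapPhi q hq) (nodesSwapPhi_monic q hq)
      (nodesSwapPhi_natDegree q hq) (fun i hi _ => wpd_deg_pos q hq hi) (wpd_deg_zero q hq)
      (ls_localSubring (F := F) 𝔫) hOic hJ hJq hJqq hrel hbO haO huO _
      (↑γu⁻¹ : ls_localSubring (F := F) 𝔫).2 hγ'
  have hX : J * Jqq⁻¹ - 1 ∈ ls_localSubring (F := F) 𝔫 :=
    (ls_localSubring (F := F) 𝔫).sub_mem hx0 (ls_localSubring (F := F) 𝔫).one_mem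
  -- `G ∉ 𝔫`
  have hqB : ((q : ℕ) : B) ∈ 𝔫 := by
    have : ϖ = ((q : ℕ) : B) := hinj (by rw [hϖq, map_natCast])
    rw [← this]
    exact hϖ𝔫
  have hG : -(evalInt b (reflect m N)) ∉ 𝔫 := by
    intro hG
    have hG' : evalInt b (reflect m N) ∈ 𝔫 := by
      have := 𝔫.neg_mem hG
      rwa [neg_neg] at this
    have e1 : evalInt b (reflect m N) =
        evalInt b (reflect m N).divX * b + (((reflect m N).coeff 0 : ℤ) : B) := by
      conv_lhs => rw [← divX_mul_X_add (reflect m N)]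
      rw [map_add, map_mul, evalInt_X, s36cm_evalInt_C]
    have hc0 : (((reflect m N).coeff 0 : ℤ) : B) ∈ 𝔫 := by
      have h2 : (((reflect m N).coeff 0 : ℤ) : B) =
          evalInt b (reflect m N) - evalInt b (reflect m N).divX * b := by
        rw [e1]; ring
      rw [h2]
      exact 𝔫.sub_mem hG' (𝔫.mul_mem_left _ hb𝔫)
    have hcop : IsCoprime ((q : ℕ) : ℤ) ((reflect m N).coeff 0) :=
      (Nat.prime_iff_prime_int.mp hq).irreducible.coprime_iff_not_dvd.mpr hN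
    obtain ⟨a, a', haa⟩ := hcop
    have h3 : ((a : ℤ) : B) * ((q : ℕ) : B) + ((a' : ℤ) : B) * (((reflect m N).coeff 0 : ℤ) : B)
        = 1 := by
      have := congrArg (fun z : ℤ => (z : B)) haa
      push_cast at this
      exact this
    apply h1
    rw [← h3]
    exact 𝔫.add_mem (𝔫.mul_mem_left _ hqB) (𝔫.mul_mem_left _ hc0)
  -- `U` is a unit
  have hmapS : algebraMap B F ((1 - b ^ (q ^ 2 - 1)) ^ 2 * b ^ (m - d)) =
      (1 - J⁻¹ ^ (q ^ 2 - 1)) ^ 2 * J⁻¹ ^ (m - d) := by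
    rw [map_mul, map_pow, map_sub, map_one, map_pow, map_pow, hb]
  have hmapG : algebraMap B F (-(evalInt b (reflect m N))) = -(evalInt J⁻¹ (reflect m N)) := by
    rw [map_neg, s36cm_map_evalInt, hb]
  obtain ⟨g, hgu, hgU⟩ := s36cm_unit hinj 𝔫 V hBV ϖ hKR Q hram hϖ0 c₁ hc₁ honly
    ⟨J * Jqq⁻¹ - 1, hX⟩ (q - 1) (by rw [hϖq]; exact hUV)
    ((1 - b ^ (q ^ 2 - 1)) ^ 2 * b ^ (m - d)) (-(evalInt b (reflect m N))) hG
    (by rw [hϖq, hmapS, hmapG]; exact hcong)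
  rw [hϖq] at hgU
  have hgU' : (g : F) = (J * Jqq⁻¹ - 1) ^ (q - 1) / ((q : ℕ) : F) := hgU
  obtain ⟨hg0, hginv⟩ := (s36cu_isUnit_iff g).mp hgu
  rw [hgU'] at hg0 hginv
  exact ⟨hX, hgU' ▸ g.2, hginv, hg0⟩

end Abs

/-! ### at a closed point of the chart `j⁻¹` -/

section Cusp

variable {A₀ E₀ : Type*} [CommRing A₀] [IsDomain A₀] [IsDiscreteValuationRing A₀]
  [Field E₀] [Algebra A₀ E₀] [IsFractionRing A₀ E₀] [CharZero E₀]
  {M q : ℕ} [NeZero M] [NeZero q] [NeZero (M * q)] [NeZero (M * q * q)]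
  [Algebra A₀ (modularFunctionFieldFullC E₀ (M * q * q))]
  [IsScalarTower A₀ E₀ (modularFunctionFieldFullC E₀ (M * q * q))]
  {π : A₀} {κ : Type*} [Finite κ]
  {A E k : Type*} [CommRing A] [IsDomain A] [Field E] [Field k]
  {ι : A →+* E} {r : A →+* k} {π' : A}
  (hB : VtBase ι r π') (e : modularFunctionFieldFullC E₀ (M * q * q) →+* LaurentSeries E)
  (hfrac : ∀ x : modularFunctionFieldFullC E₀ (M * q * q), VtFrac ι (e x))
  [hqF : Fact q.Prime] [CharP k q]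
  (z : Aˣ) (hzp : IsPrimitiveRoot (z : A) q) (hz : r z = 1) (hq0 : ((q : ℕ) : A) ≠ 0)
  (h₀ : e (s36n2lJ E₀ M q) = jqModC E)
  (h₁ : e (s36n2lJq E₀ M q) = qExpand E q (jqModC E))
  (h₂ : e (s36n2lJqq E₀ M q) = kronRot (Units.map (ι : A →* E) z) (jqModC E))

include hB e hq0 in
theorem s36cm_natCast_ne_zero :
    ((q : ℕ) : modularFunctionFieldFullC E₀ (M * q * q)) ≠ 0 := by
  intro h0
  have h1 := congrArg e h0
  rw [map_natCast, map_zero] at h1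
  have h2 : (HahnSeries.C ((q : ℕ) : E) : LaurentSeries E) = HahnSeries.C 0 := by
    rw [map_natCast, map_zero]
    exact h1
  have h3 : ((q : ℕ) : E) = 0 := HahnSeries.C_injective h2
  exact hq0 (hB.inj (by rw [map_natCast, h3, map_zero]))

include E₀ hzp hz hq0 h₀ h₁ h₂ in
/-- **The local parameter at the cusp points of `C_c`**: at a closed point `𝔫` of the chart
`j⁻¹` with `j⁻¹ ∈ 𝔫`, through which only the component `V c₁ = V_c` passes,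
`X = j / j_qq − 1 ∈ O` and `U = X ^ (q − 1) / π` is a unit of `O = (B_{j⁻¹})_𝔫`. -/
theorem s36cm_cusp
    (hπq : algebraMap A₀ (modularFunctionFieldFullC E₀ (M * q * q)) π =
      ((q : ℕ) : modularFunctionFieldFullC E₀ (M * q * q)))
    (V : κ → ValuationSubring (modularFunctionFieldFullC E₀ (M * q * q)))
    (hBV : ∀ c (b : modularFunctionFieldFullC E₀ (M * q * q)),
      IsIntegral ↥(Algebra.adjoin A₀ {(s36n2lJ E₀ M q)⁻¹}) b → b ∈ V c)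
    (hKR : ∀ x : modularFunctionFieldFullC E₀ (M * q * q),
      IsIntegral ↥(Algebra.adjoin A₀ {(s36n2lJ E₀ M q)⁻¹})
        (algebraMap A₀ (modularFunctionFieldFullC E₀ (M * q * q)) π * x) →
      (∀ c, x ∈ V c) → IsIntegral ↥(Algebra.adjoin A₀ {(s36n2lJ E₀ M q)⁻¹}) x)
    (Q : ℕ) (hram : ∀ c (x : modularFunctionFieldFullC E₀ (M * q * q)), x ∈ (V c).nonunits →
      ∃ z ∈ V c, x ^ Q = algebraMap A₀ (modularFunctionFieldFullC E₀ (M * q * q)) π * z)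
    (𝔫 : AtPt (F := modularFunctionFieldFullC E₀ (M * q * q)) π (s36n2lJ E₀ M q)⁻¹)
    (h𝔫 : (⟨(s36n2lJ E₀ M q)⁻¹, s36pc_self_mem (s36n2lJ E₀ M q)⁻¹⟩ :
      ↥(zchClosure (A₀ := A₀) ({(s36n2lJ E₀ M q)⁻¹} :
        Set (modularFunctionFieldFullC E₀ (M * q * q))))) ∈ 𝔫.1)
    (c₁ : κ) (hVc : V c₁ = vtSub hB e hfrac)
    (hc₁ : atThrough 𝔫 (V c₁)) (honly : ∀ c, atThrough 𝔫 (V c) → c = c₁) :
    s36n2lJ E₀ M q * (s36n2lJqq E₀ M q)⁻¹ - 1 ∈ atLoc 𝔫 ∧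
      (s36n2lJ E₀ M q * (s36n2lJqq E₀ M q)⁻¹ - 1) ^ (q - 1) /
        algebraMap A₀ (modularFunctionFieldFullC E₀ (M * q * q)) π ∈ atLoc 𝔫 ∧
      ((s36n2lJ E₀ M q * (s36n2lJqq E₀ M q)⁻¹ - 1) ^ (q - 1) /
        algebraMap A₀ (modularFunctionFieldFullC E₀ (M * q * q)) π)⁻¹ ∈ atLoc 𝔫 ∧
      (s36n2lJ E₀ M q * (s36n2lJqq E₀ M q)⁻¹ - 1) ^ (q - 1) /
        algebraMap A₀ (modularFunctionFieldFullC E₀ (M * q * q)) π ≠ 0 := by
  haveI := 𝔫.2.1.isPrime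
  have hq := hqF.out
  have hqF0 := s36cm_natCast_ne_zero (E₀ := E₀) (M := M) hB e hq0
  have hJ0 : s36n2lJ E₀ M q ≠ 0 := s36n2l_J_ne_zero
  have hJq0 : s36n2lJq E₀ M q ≠ 0 := by
    intro h0
    have h := congrArg e h0
    rw [h₁, map_zero] at h
    have h3 : qExpand E q (jqModC E) = qExpand E q 0 := by rw [h, map_zero]
    exact jqModC_ne_zero_of_nontrivial E (qExpand_injective q h3)
  have hJqq0 : s36n2lJqq E₀ M q ≠ 0 := by
    intro h0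
    obtain ⟨hx, hr⟩ := s36cm_red_Jqq (k := k) hB e hfrac z hz h₂
    have : (⟨s36n2lJqq E₀ M q, hx⟩ : ↥(vtSub hB e hfrac)) = 0 := Subtype.ext h0
    rw [this, map_zero] at hr
    exact jqModC_ne_zero_of_nontrivial k hr.symm
  rw [hπq]
  refine s36cm_main_abs (B := ↥(zchClosure (A₀ := A₀) ({(s36n2lJ E₀ M q)⁻¹} :
      Set (modularFunctionFieldFullC E₀ (M * q * q))))) Subtype.val_injective 𝔫.1 V
    (fun c b => hBV c b (mem_zchClosure.mp b.2))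
    (algebraMap A₀ _ π) ?_ Q hram c₁ hc₁ honly (s36cu_atLoc_ic 𝔫) q hq hπq hqF0 𝔫.2.2
    hJ0 hJq0 hJqq0 (s36n2l_phi_Jqq hq)
    ⟨(s36n2lJ E₀ M q)⁻¹, s36pc_self_mem (s36n2lJ E₀ M q)⁻¹⟩
    ⟨s36n2lJq E₀ M q * (s36n2lJ E₀ M q)⁻¹ ^ q,
      mem_zchClosure.mpr (wpd_e_integral_of_eval q hq hJ0 (s36n2l_phi_Jq hq))⟩
    rfl h𝔫 rfl ?_ (s36tkN q k).natDegree (2 * q ^ 2 + (q - 1)) (s36cmNZ q)
    (s36cm_not_dvd k) ?_ ?_
  · rintro x ⟨b, hb⟩ hxV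
    have h1 : IsIntegral ↥(Algebra.adjoin A₀ {(s36n2lJ E₀ M q)⁻¹})
        (algebraMap A₀ (modularFunctionFieldFullC E₀ (M * q * q)) π * x) := by
      have : algebraMap A₀ (modularFunctionFieldFullC E₀ (M * q * q)) π * x = (b : _) := hb
      rw [this]
      exact mem_zchClosure.mp b.2
    exact ⟨⟨x, mem_zchClosure.mpr (hKR x h1 hxV)⟩, rfl⟩
  · rw [hVc]
    exact s36cm_u_sub_one hB e hfrac h₀ h₁
  · rw [hVc]
    exact (s36cm_red_U hB e hfrac z hzp hz hq0 h₀ h₂).mem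
  · rw [hVc]
    exact s36cm_cong hB e hfrac z hzp hz hq0 h₀ h₂

end Cusp

end Fermat.Agent.S36

end
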