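import Fermat.Agent.S36.ThinKron
import Fermat.Agent.S28.UpperBound

/-!
# S36 (I6): cusp points of `C_c` — the FORMAL part (helper58)

`k` a field of characteristic `q`, `j̄ = jqModC k`, `b̄ = j̄⁻¹`, `H = (θ j̄)^{q-1}`,
`C = X^{q²} − X`, `N = s36tkN q k = X^{q-1} C² − B' C + B C'` (helper37, `S36/ThinKron.lean`).

* `s36cm_H_identity`   : `H · C(j̄)² = N(j̄)`;
* `s36cm_natDegree_ge` : `2 q² + q − 1 ≤ natDegree N` (orders in `Q`);
* `s36cmNZ`            : the integral lift `N_ℤ ∈ ℤ[X]` of `N`, `s36cmNZ_map`;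
* `s36cm_formal`       : with `m = natDegree N`, `d = 2 q² + (q − 1)`:
  `H · b̄^{q-1} · ((1 − b̄^{q²-1})² · b̄^{m-d}) = (reflect m N)(b̄)`, and `(reflect m N)(0) ≠ 0`.
So `(θ j̄ / j̄)^{q-1}` is a unit at `b̄ = 0`.
-/

set_option autoImplicit false
set_option linter.style.haveILetI false
set_option linter.unusedSectionVars false
set_option linter.unusedVariables false

noncomputable section

namespace Fermat.Agent.S36

open Polynomial ModularCurve
open Fermat.Agent.S28 Fermat.Agent.S28.Deriv Fermat.Agent.UNIP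

section Order

variable (k : Type*) [Field k]

/-- the order of `θ j̄` is `-1` -/
theorem s36cm_order_theta_j : (thetaFun (jqModC k)).order = -1 := by
  have h1 : (thetaFun (jqModC k)).coeff (-1) = -1 := by
    rw [thetaFun_coeff, coeff_jqModC_neg_one]
    simp
  have hne : thetaFun (jqModC k) ≠ 0 := by
    intro h0
    rw [h0] at h1
    simp at h1
  apply le_antisymm
  · exact HahnSeries.order_le_of_coeff_ne_zero (by rw [h1]; exact neg_ne_zero.mpr one_ne_zero)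
  · by_contra hlt
    rw [not_le] at hlt
    apply hne
    apply HahnSeries.coeff_order_eq_zero.mp
    rw [thetaFun_coeff, coeff_jqModC_of_lt k hlt, mul_zero]

theorem s36cm_theta_j_ne_zero : thetaFun (jqModC k) ≠ 0 := by
  intro h0
  have h1 : (thetaFun (jqModC k)).coeff (-1) = -1 := by
    rw [thetaFun_coeff, coeff_jqModC_neg_one]
    simp
  rw [h0] at h1
  simp at h1

/-- `v (j̄) = -1` -/
theorem s36cm_val_j :
    HahnSeries.addVal ℤ k (jqModC k) = (((-1 : ℤ) : ℤ) : WithTop ℤ) := by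
  rw [HahnSeries.addVal_apply_of_ne (jqModC_ne_zero_of_nontrivial k),
    Fermat.Agent.S28.UB.jqModC_order]

/-- `v (θ j̄) = -1` -/
theorem s36cm_val_theta_j :
    HahnSeries.addVal ℤ k (thetaFun (jqModC k)) = (((-1 : ℤ) : ℤ) : WithTop ℤ) := by
  rw [HahnSeries.addVal_apply_of_ne (s36cm_theta_j_ne_zero k), s36cm_order_theta_j]

/-- `v (j̄ ^ n) = -n` -/
theorem s36cm_val_j_pow (n : ℕ) :
    HahnSeries.addVal ℤ k (jqModC k ^ n) = (((-(n : ℤ) : ℤ)) : WithTop ℤ) := by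
  rw [AddValuation.map_pow, s36cm_val_j, ← WithTop.coe_nsmul]
  congr 1
  simp

/-- a polynomial of degree `≤ m` in `j̄` has a pole of order at most `m` -/
theorem s36cm_val_aeval_ge (P : k[X]) :
    (((-(P.natDegree : ℤ) : ℤ)) : WithTop ℤ) ≤ HahnSeries.addVal ℤ k (aeval (jqModC k) P) := by
  rw [aeval_eq_sum_range]
  apply AddValuation.map_le_sum
  intro i hi
  have hi' : i ≤ P.natDegree := Nat.lt_succ_iff.mp (Finset.mem_range.mp hi)
  rw [Algebra.smul_def, AddValuation.map_mul, s36cm_val_j_pow]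
  have h0 : (0 : WithTop ℤ) ≤
      HahnSeries.addVal ℤ k (algebraMap k (LaurentSeries k) (P.coeff i)) := by
    by_cases hc : P.coeff i = 0
    · rw [hc, map_zero, AddValuation.map_zero]
      exact le_top
    · have hne : algebraMap k (LaurentSeries k) (P.coeff i) ≠ 0 := by
        rw [Ne, map_eq_zero]
        exact hc
      rw [HahnSeries.addVal_apply_of_ne hne, algebraMap_eq_C, HahnSeries.order_C]
      rfl
  calc (((-(P.natDegree : ℤ) : ℤ)) : WithTop ℤ) ≤ (((-(i : ℤ) : ℤ)) : WithTop ℤ) := by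
        exact_mod_cast neg_le_neg (by exact_mod_cast hi')
    _ = 0 + (((-(i : ℤ) : ℤ)) : WithTop ℤ) := by rw [zero_add]
    _ ≤ _ := add_le_add_left h0 _

end Order

section Main

variable (q : ℕ) [hq : Fact q.Prime] (k : Type*) [Field k] [CharP k q]

/-- **`H · C(j̄)² = N(j̄)`** -/
theorem s36cm_H_identity :
    thetaFun (jqModC k) ^ (q - 1) * aeval (jqModC k) (X ^ (q ^ 2) - X : k[X]) ^ 2 =
      aeval (jqModC k) (s36tkN q k) := by
  have hj : coeffMap (Int.castRingHom k) (jqModC ℤ) = jqModC k := coeffMap_jqModC _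
  have hq1 : 0 < q := hq.out.pos
  have hθA := s36tf_theta_frobQuot q k (jqModC ℤ) (s36tfFrobQuot q (jqModC ℤ))
    (s36tf_frobQuot_spec q _)
  rw [hj] at hθA
  exact s36tf_H_mul_sq q hq1 (jqModC k) _ (s36cm_theta_j_ne_zero k) hθA (s36tkB q k)
    (X ^ (q ^ 2) - X) (s36tk_beta q k)

theorem s36cm_aeval_C :
    aeval (jqModC k) (X ^ (q ^ 2) - X : k[X]) = jqModC k ^ (q ^ 2) - jqModC k := by
  rw [map_sub, map_pow, aeval_X]

/-- `v (C(j̄)) = -q²` -/
theorem s36cm_val_C :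
    HahnSeries.addVal ℤ k (jqModC k ^ (q ^ 2) - jqModC k) =
      (((-((q ^ 2 : ℕ) : ℤ) : ℤ)) : WithTop ℤ) := by
  have h2 : 2 ≤ q := hq.out.two_le
  have h4 : 1 < q ^ 2 := by nlinarith
  rw [AddValuation.map_sub_eq_of_lt_left, s36cm_val_j_pow]
  rw [s36cm_val_j_pow, s36cm_val_j]
  have h5 : (-((q ^ 2 : ℕ) : ℤ)) < (-1 : ℤ) := by
    have : ((1 : ℕ) : ℤ) < ((q ^ 2 : ℕ) : ℤ) := by exact_mod_cast h4
    simpa using neg_lt_neg this
  exact_mod_cast h5

theorem s36cm_C_ne_zero : jqModC k ^ (q ^ 2) - jqModC k ≠ 0 := by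
  intro h0
  have := s36cm_val_C q k
  rw [h0, AddValuation.map_zero] at this
  exact WithTop.top_ne_coe this

/-- `v (H · C(j̄)²) = -(2 q² + (q − 1))` -/
theorem s36cm_val_HC :
    HahnSeries.addVal ℤ k (thetaFun (jqModC k) ^ (q - 1) *
        (jqModC k ^ (q ^ 2) - jqModC k) ^ 2) =
      (((-((2 * q ^ 2 + (q - 1) : ℕ) : ℤ) : ℤ)) : WithTop ℤ) := by
  rw [AddValuation.map_mul, AddValuation.map_pow, AddValuation.map_pow, s36cm_val_theta_j,
    s36cm_val_C, ← WithTop.coe_nsmul, ← WithTop.coe_nsmul, ← WithTop.coe_add]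
  congr 1
  push_cast
  simp only [nsmul_eq_mul]
  push_cast
  ring

theorem s36cm_N_ne_zero : s36tkN q k ≠ 0 := by
  intro h0
  have h := s36cm_H_identity q k
  rw [h0, map_zero, s36cm_aeval_C] at h
  exact mul_ne_zero (pow_ne_zero _ (s36cm_theta_j_ne_zero k))
    (pow_ne_zero _ (s36cm_C_ne_zero q k)) h

/-- **the degree of `N` is at least `2 q² + (q − 1)`** -/
theorem s36cm_natDegree_ge : 2 * q ^ 2 + (q - 1) ≤ (s36tkN q k).natDegree := by
  have h1 := s36cm_val_aeval_ge k (s36tkN q k)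
  rw [← s36cm_H_identity q k, s36cm_aeval_C, s36cm_val_HC] at h1
  have h2 : (-((s36tkN q k).natDegree : ℤ)) ≤ -((2 * q ^ 2 + (q - 1) : ℕ) : ℤ) := by
    exact_mod_cast h1
  have h3 := neg_le_neg_iff.mp h2
  exact_mod_cast h3

/-- `(reflect N f)(x⁻¹) = x⁻ᴺ f(x)` -/
theorem s36cm_aeval_reflect {L : Type*} [Field L] [Algebra k L] {x : L} (hx : x ≠ 0) (N : ℕ)
    (f : k[X]) (hf : f.natDegree ≤ N) :
    aeval x⁻¹ (reflect N f) = x⁻¹ ^ N * aeval x f := by
  letI : Invertible x := invertibleOfNonzero hx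
  have h := eval₂_reflect_mul_pow (algebraMap k L) x N f hf
  rw [invOf_eq_inv] at h
  rw [aeval_def, aeval_def, ← h, inv_pow]
  field_simp

/-- the formal identity in `b̄ = j̄⁻¹` -/
theorem s36cm_formal :
    thetaFun (jqModC k) ^ (q - 1) * (jqModC k)⁻¹ ^ (q - 1) *
        ((1 - (jqModC k)⁻¹ ^ (q ^ 2 - 1)) ^ 2 *
          (jqModC k)⁻¹ ^ ((s36tkN q k).natDegree - (2 * q ^ 2 + (q - 1)))) =
      aeval (jqModC k)⁻¹ (reflect (s36tkN q k).natDegree (s36tkN q k)) := by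
  have hj0 : jqModC k ≠ 0 := jqModC_ne_zero_of_nontrivial k
  have hge := s36cm_natDegree_ge q k
  have h2 : 2 ≤ q := hq.out.two_le
  have h4 : 1 ≤ q ^ 2 := Nat.one_le_pow _ _ (by omega)
  -- `(reflect m N)(b̄) = b̄^m N(j̄)`
  rw [s36cm_aeval_reflect k hj0 _ _ le_rfl, ← s36cm_H_identity q k, s36cm_aeval_C]
  obtain ⟨e, he⟩ := Nat.exists_eq_add_of_le hge
  rw [he, Nat.add_sub_cancel_left]
  have h5 : jqModC k ^ (q ^ 2) - jqModC k =
      jqModC k ^ (q ^ 2) * (1 - (jqModC k)⁻¹ ^ (q ^ 2 - 1)) := by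
    have : jqModC k ^ (q ^ 2) = jqModC k ^ (q ^ 2 - 1) * jqModC k := by
      rw [← pow_succ, Nat.sub_add_cancel h4]
    rw [mul_sub, mul_one, inv_pow]
    congr 1
    rw [this]
    field_simp
  rw [h5]
  have h6 : (jqModC k)⁻¹ ^ (2 * q ^ 2 + (q - 1) + e) =
      (jqModC k)⁻¹ ^ (q - 1) * (jqModC k)⁻¹ ^ e * ((jqModC k)⁻¹ ^ (q ^ 2)) ^ 2 := by
    rw [← pow_mul, ← pow_add, ← pow_add]
    congr 1
    ring
  rw [h6]
  have h7 : (jqModC k)⁻¹ ^ (q ^ 2) * jqModC k ^ (q ^ 2) = 1 := by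
    rw [← mul_pow, inv_mul_cancel₀ hj0, one_pow]
  generalize (jqModC k)⁻¹ ^ (q ^ 2) = Ji at h7 ⊢
  generalize jqModC k ^ (q ^ 2) = Jp at h7 ⊢
  generalize (jqModC k)⁻¹ ^ (q ^ 2 - 1) = c
  generalize (jqModC k)⁻¹ ^ (q - 1) = b1
  generalize (jqModC k)⁻¹ ^ e = be
  generalize thetaFun (jqModC k) ^ (q - 1) = H
  linear_combination (-(H * b1 * be * (1 - c) ^ 2) * (Ji * Jp + 1)) * h7

/-- the constant term of the reflected polynomial is nonzero -/
theorem s36cm_reflect_coeff_zero :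
    (reflect (s36tkN q k).natDegree (s36tkN q k)).coeff 0 ≠ 0 := by
  rw [coeff_reflect, revAt_zero]
  exact leadingCoeff_ne_zero.mpr (s36cm_N_ne_zero q k)

end Main

/-! ### integral lifts -/

section Lift

variable (q : ℕ) [hq : Fact q.Prime]

/-- the integral lift of `B` -/
def s36cmBZ : Polynomial ℤ := (s36tkPsi q).eval (X ^ q)

/-- the integral lift of `N` -/
def s36cmNZ : Polynomial ℤ :=
  X ^ (q - 1) * (X ^ (q ^ 2) - X) ^ 2 - derivative (s36cmBZ q) * (X ^ (q ^ 2) - X) +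
    s36cmBZ q * derivative (X ^ (q ^ 2) - X : Polynomial ℤ)

variable (k : Type*) [Field k] [CharP k q]

theorem s36cmBZ_map : (s36cmBZ q).map (Int.castRingHom k) = s36tkB q k := by
  rw [s36cmBZ, s36tkB]
  have h := Polynomial.hom_eval₂ (s36tkPsi q) (RingHom.id (Polynomial ℤ))
    (mapRingHom (Int.castRingHom k)) (X ^ q)
  rw [eval₂_id, RingHom.comp_id, coe_mapRingHom, Polynomial.map_pow, Polynomial.map_X] at h
  rw [h, Polynomial.eval_map]

theorem s36cmNZ_map : (s36cmNZ q).map (Int.castRingHom k) = s36tkN q k := by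
  rw [s36cmNZ, s36tkN]
  simp only [Polynomial.map_add, Polynomial.map_sub, Polynomial.map_mul, Polynomial.map_pow,
    Polynomial.map_X, ← Polynomial.derivative_map, s36cmBZ_map]

/-- the constant coefficient (in `X`) of `Φ_q` is `Y^{q+1} + q ψ₀` -/
theorem s36cm_phi_coeff_zero :
    (nodesSwapPhi q hq.out).coeff 0 = X ^ (q + 1) + C (q : ℤ) * (s36tkPsi q).coeff 0 := by
  have h : (nodesSwapPhi q hq.out).coeff 0 =
      ((X - C (X ^ q)) * (X ^ q - C X) + C (C (q : ℤ)) * s36tkPsi q :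
        Polynomial (Polynomial ℤ)).coeff 0 := by
    rw [← s36tkPsi_spec q]
  rw [h]
  have hq0 : q ≠ 0 := hq.out.ne_zero
  simp only [Polynomial.coeff_zero_eq_eval_zero, Polynomial.eval_add, Polynomial.eval_mul,
    Polynomial.eval_sub, Polynomial.eval_X, Polynomial.eval_C, Polynomial.eval_pow,
    zero_pow hq0, zero_sub]
  ring

end Lift

end Fermat.Agent.S36

end
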