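import Fermat.Agent.ES.Kronecker
import Fermat.Agent.S28.Deriv
import Fermat.Agent.UNIP.MGVertGauss

/-!
# S36 / N2-theta, formal part: `s(zQ) − s(Q) = (z − 1) · D_z s`, `D_z ≡ θ`, Wilson

`R` a commutative ring, `z : Rˣ`.

* `s36thQ z n` : the quantum integer `[n]_z` (`n : ℤ`), `(z − 1) [n]_z = z ^ n − 1`
  (`s36thQ_spec`); `[n]_z ↦ n` under every ring homomorphism with `z ↦ 1` (`s36thQ_red`);
* `s36thD z T` : the `z`-derivative `D_z T = ∑ [n]_z a_n Qⁿ` of a Laurent series;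
  - (θ1) `s36th_kronRot_sub` : `kronRot z T − T = C (z − 1) * D_z T`;
  - (θ2) `s36thD_red` : `coeffMap r (D_z T) = θ (coeffMap r T)` if `r z = 1`;
  - `s36thD_coeffMap` : naturality in the coefficient ring;
* (θ3) WILSON `s36th_wilson` : `ζ` a primitive `q`-th root of unity (`q` prime) in a domain:
  `q = u · (1 − ζ) ^ (q − 1)`, `u = ∏_{b < q − 1} [b + 1]_ζ`, and `r u = −1` for every ring
  homomorphism `r` with `r ζ = 1` (`s36th_wilson_red`); then `r q = 0` (`s36th_natCast_red`).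

Gauss ring (`INJ/GaussRing`, `UNIP/MGVertGauss`): `ι : A → E`, `r : A → k`, `S : A((Q))`,
`s = ι̂ S`, `z : Aˣ` with `r z = 1`, `Π := s(zQ) − s(Q)`:

* `s36th_rot_sub_coeffMap` : `Π = C (ι (z − 1)) * ι̂ (D_z S)`;
* `s36th_rot_sub_mem`, `s36th_rot_sub_red` : `Π` is in the Gauss ring with reduction `0`;
* `s36thD_gaussRed` : `ι̂ (D_z S)` has reduction `θ s̄`;
* `s36th_pow_eq` : `Π ^ (q − 1) = C (ι q) * w`, `w` in the Gauss ring with reduction
  `− (θ s̄) ^ (q − 1)` (`z = ζ` a primitive `q`-th root of unity);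
* the same for a vertical valuation subring `vtSub hB e hfrac` of a field `F` embedded in
  `E((Q))`: `s36th_mem_nonunits`, `s36th_div_mem`, `s36th_div_unit_iff`, `s36th_pow_div_mem`,
  `s36th_pow_div_unit_iff`.
-/

set_option autoImplicit false
set_option linter.unusedSectionVars false
set_option linter.unusedVariables false
set_option linter.style.haveILetI false

noncomputable section

namespace Fermat.Agent.S36

open ModularCurve HahnSeries Fermat.Agent.ES Fermat.Agent.INJ Fermat.Agent.UNIP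
open Fermat.Agent.S28.Deriv

/-! ## 1. Quantum integers -/

section QNum

variable {R S : Type*} [CommRing R] [CommRing S]

/-- the quantum integer `[n]_z`, `n : ℤ`: `1 + z + … + z^{n−1}` for `n ≥ 0`,
`− z^n (1 + z + … + z^{−n−1})` for `n < 0`. -/
def s36thQ (z : Rˣ) (n : ℤ) : R :=
  if 0 ≤ n then ∑ i ∈ Finset.range n.toNat, (z : R) ^ i
  else -(((z ^ n : Rˣ) : R) * ∑ i ∈ Finset.range (-n).toNat, (z : R) ^ i)

theorem s36thQ_natCast (z : Rˣ) (m : ℕ) :
    s36thQ z (m : ℤ) = ∑ i ∈ Finset.range m, (z : R) ^ i := by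
  unfold s36thQ
  rw [if_pos (Int.natCast_nonneg m), Int.toNat_natCast]

theorem s36thQ_neg_natCast (z : Rˣ) {m : ℕ} (hm : 0 < m) :
    s36thQ z (-(m : ℤ)) =
      -(((z ^ (-(m : ℤ)) : Rˣ) : R) * ∑ i ∈ Finset.range m, (z : R) ^ i) := by
  unfold s36thQ
  have h : ¬ (0 : ℤ) ≤ -(m : ℤ) := by omega
  rw [if_neg h, neg_neg, Int.toNat_natCast]

theorem s36th_int_cases (n : ℤ) : (∃ m : ℕ, n = m) ∨ ∃ m : ℕ, 0 < m ∧ n = -(m : ℤ) := by
  rcases le_or_gt 0 n with h | h
  · exact Or.inl ⟨n.toNat, (Int.toNat_of_nonneg h).symm⟩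
  · refine Or.inr ⟨(-n).toNat, ?_, ?_⟩
    · omega
    · rw [Int.toNat_of_nonneg (by omega)]; ring

/-- **`(z − 1) · [n]_z = z ^ n − 1`**. -/
theorem s36thQ_spec (z : Rˣ) (n : ℤ) :
    ((z : R) - 1) * s36thQ z n = ((z ^ n : Rˣ) : R) - 1 := by
  rcases s36th_int_cases n with ⟨m, rfl⟩ | ⟨m, hm, rfl⟩
  · rw [s36thQ_natCast, mul_geom_sum, zpow_natCast, Units.val_pow_eq_pow_val]
  · rw [s36thQ_neg_natCast z hm, mul_neg, ← mul_assoc, mul_comm ((z : R) - 1), mul_assoc,
      mul_geom_sum]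
    have h1 : ((z ^ (-(m : ℤ)) : Rˣ) : R) * (z : R) ^ m = 1 := by
      rw [← Units.val_pow_eq_pow_val, ← Units.val_mul, ← zpow_natCast z m, ← zpow_add]
      simp
    calc -(((z ^ (-(m : ℤ)) : Rˣ) : R) * ((z : R) ^ m - 1))
        = -(((z ^ (-(m : ℤ)) : Rˣ) : R) * (z : R) ^ m) + ((z ^ (-(m : ℤ)) : Rˣ) : R) := by ring
      _ = ((z ^ (-(m : ℤ)) : Rˣ) : R) - 1 := by rw [h1]; ring

/-- naturality of `[n]_z` -/
theorem s36thQ_map (φ : R →+* S) (z : Rˣ) (n : ℤ) :
    φ (s36thQ z n) = s36thQ (Units.map (φ : R →* S) z) n := by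
  have hz : ∀ k : ℤ, φ ((z ^ k : Rˣ) : R) = (((Units.map (φ : R →* S) z) ^ k : Sˣ) : S) := by
    intro k
    rw [← map_zpow]
    rfl
  rcases s36th_int_cases n with ⟨m, rfl⟩ | ⟨m, hm, rfl⟩
  · rw [s36thQ_natCast, s36thQ_natCast, map_sum]
    refine Finset.sum_congr rfl fun i _ => ?_
    rw [map_pow]
    rfl
  · rw [s36thQ_neg_natCast z hm, s36thQ_neg_natCast _ hm, map_neg, map_mul, map_sum, hz]
    congr 2
    refine Finset.sum_congr rfl fun i _ => ?_
    rw [map_pow]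
    rfl

/-- `[n]_1 = n` -/
theorem s36thQ_one (n : ℤ) : s36thQ (1 : Rˣ) n = (n : R) := by
  rcases s36th_int_cases n with ⟨m, rfl⟩ | ⟨m, hm, rfl⟩
  · rw [s36thQ_natCast]
    simp
  · rw [s36thQ_neg_natCast _ hm]
    simp

/-- **`[n]_z ↦ n`** under a ring homomorphism with `z ↦ 1`. -/
theorem s36thQ_red (r : R →+* S) {z : Rˣ} (hz : r (z : R) = 1) (n : ℤ) :
    r (s36thQ z n) = (n : S) := by
  rw [s36thQ_map]
  have h1 : Units.map (r : R →* S) z = 1 := Units.ext hz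
  rw [h1, s36thQ_one]

theorem s36thQ_zero (z : Rˣ) : s36thQ z 0 = 0 := by
  have := s36thQ_natCast z 0
  simpa using this

theorem s36thQ_one' (z : Rˣ) : s36thQ z 1 = 1 := by
  have := s36thQ_natCast z 1
  simpa using this

end QNum

/-! ## 2. The `z`-derivative -/

section D

variable {R S : Type*} [CommRing R] [CommRing S]

/-- the `z`-derivative `D_z T = ∑ [n]_z a_n Qⁿ`. -/
def s36thD (z : Rˣ) (T : LaurentSeries R) : LaurentSeries R where
  coeff n := s36thQ z n * T.coeff n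
  isPWO_support' := T.isPWO_support.mono (fun n hn => by
    simp only [Function.mem_support, ne_eq] at hn ⊢
    intro h
    exact hn (by rw [h, mul_zero]))

@[simp]
theorem s36thD_coeff (z : Rˣ) (T : LaurentSeries R) (n : ℤ) :
    (s36thD z T).coeff n = s36thQ z n * T.coeff n := rfl

theorem s36thD_zero (z : Rˣ) : s36thD z (0 : LaurentSeries R) = 0 := by
  ext n
  simp

theorem s36thD_add (z : Rˣ) (T T' : LaurentSeries R) :
    s36thD z (T + T') = s36thD z T + s36thD z T' := by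
  ext n
  simp [mul_add]

theorem s36thD_sub (z : Rˣ) (T T' : LaurentSeries R) :
    s36thD z (T - T') = s36thD z T - s36thD z T' := by
  ext n
  simp [mul_sub]

/-- **(θ1)** `T(zQ) − T(Q) = (z − 1) · D_z T`. -/
theorem s36th_kronRot_sub (z : Rˣ) (T : LaurentSeries R) :
    kronRot z T - T = HahnSeries.C ((z : R) - 1) * s36thD z T := by
  ext n
  rw [HahnSeries.coeff_sub, kronRot_coeff, HahnSeries.C_mul_eq_smul, HahnSeries.coeff_smul,
    s36thD_coeff, smul_eq_mul, ← mul_assoc, s36thQ_spec]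
  ring

/-- naturality of `D_z` in the coefficient ring -/
theorem s36thD_coeffMap (φ : R →+* S) (z : Rˣ) (T : LaurentSeries R) :
    coeffMap φ (s36thD z T) = s36thD (Units.map (φ : R →* S) z) (coeffMap φ T) := by
  ext n
  rw [coeffMap_coeff, s36thD_coeff, s36thD_coeff, coeffMap_coeff, map_mul, s36thQ_map]

/-- `D_1 = θ` -/
theorem s36thD_one (T : LaurentSeries R) : s36thD (1 : Rˣ) T = thetaFun T := by
  ext n
  rw [s36thD_coeff, thetaFun_coeff, s36thQ_one]

/-- **(θ2)** `D_z T` reduces to `θ T̄` under a ring homomorphism with `z ↦ 1`. -/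
theorem s36thD_red (r : R →+* S) {z : Rˣ} (hz : r (z : R) = 1) (T : LaurentSeries R) :
    coeffMap r (s36thD z T) = thetaFun (coeffMap r T) := by
  rw [s36thD_coeffMap]
  have h1 : Units.map (r : R →* S) z = 1 := Units.ext hz
  rw [h1, s36thD_one]

end D

/-! ## 3. Wilson -/

section Wilson

variable {R S : Type*} [CommRing R] [CommRing S]

/-- the unit `u = ∏_{b = 1}^{q − 1} [b]_ζ` with `q = u (1 − ζ)^{q − 1}` -/
def s36thU (q : ℕ) (ζ : Rˣ) : R := ∏ b ∈ Finset.range (q - 1), s36thQ ζ ((b + 1 : ℕ) : ℤ)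

/-- **(θ3) WILSON, part 1**: `q = u · (1 − ζ) ^ (q − 1)`. -/
theorem s36th_wilson [IsDomain R] {q : ℕ} (hq : q.Prime) {ζ : Rˣ}
    (hζ : IsPrimitiveRoot (ζ : R) q) :
    (q : R) = s36thU q ζ * (1 - (ζ : R)) ^ (q - 1) := by
  have hq1 : q - 1 + 1 = q := Nat.sub_add_cancel hq.one_le
  have hζ' : IsPrimitiveRoot (ζ : R) (q - 1 + 1) := by rw [hq1]; exact hζ
  have h1 := hζ'.prod_one_sub_pow_eq_order
  have h2 : (((q - 1 : ℕ) : R) + 1) = (q : R) := by
    have := congrArg (fun n : ℕ => (n : R)) hq1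
    simpa using this
  rw [h2] at h1
  rw [← h1, s36thU]
  have h3 : ∀ b ∈ Finset.range (q - 1),
      (1 - (ζ : R) ^ (b + 1)) = s36thQ ζ ((b + 1 : ℕ) : ℤ) * (1 - (ζ : R)) := by
    intro b _
    have h4 := s36thQ_spec ζ ((b + 1 : ℕ) : ℤ)
    rw [zpow_natCast, Units.val_pow_eq_pow_val] at h4
    calc (1 - (ζ : R) ^ (b + 1)) = -((ζ : R) ^ (b + 1) - 1) := by ring
      _ = -(((ζ : R) - 1) * s36thQ ζ ((b + 1 : ℕ) : ℤ)) := by rw [h4]
      _ = s36thQ ζ ((b + 1 : ℕ) : ℤ) * (1 - (ζ : R)) := by ring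
  rw [Finset.prod_congr rfl h3, Finset.prod_mul_distrib, Finset.prod_const, Finset.card_range]

/-- `q ↦ 0` under a ring homomorphism with `ζ ↦ 1`. -/
theorem s36th_natCast_red [IsDomain R] {q : ℕ} (hq : q.Prime) {ζ : Rˣ}
    (hζ : IsPrimitiveRoot (ζ : R) q) (r : R →+* S) (hr : r (ζ : R) = 1) : (q : S) = 0 := by
  have h1 := congrArg r (s36th_wilson hq hζ)
  rw [map_natCast, map_mul, map_pow, map_sub, map_one, hr, sub_self,
    zero_pow (by have := hq.two_le; omega), mul_zero] at h1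
  exact h1

/-- **(θ3) WILSON, part 2**: `u ↦ −1` under a ring homomorphism with `ζ ↦ 1`. -/
theorem s36th_wilson_red [IsDomain R] {q : ℕ} (hq : q.Prime) {ζ : Rˣ}
    (hζ : IsPrimitiveRoot (ζ : R) q) (r : R →+* S) (hr : r (ζ : R) = 1) :
    r (s36thU q ζ) = -1 := by
  have hq0 : (q : S) = 0 := s36th_natCast_red hq hζ r hr
  rw [s36thU, map_prod]
  have h1 : ∀ b ∈ Finset.range (q - 1), r (s36thQ ζ ((b + 1 : ℕ) : ℤ)) = ((b + 1 : ℕ) : S) := by
    intro b _
    rw [s36thQ_red r hr]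
    simp
  rw [Finset.prod_congr rfl h1, ← Nat.cast_prod, Finset.prod_range_add_one_eq_factorial]
  -- Wilson's theorem
  haveI : Fact q.Prime := ⟨hq⟩
  have h2 : (((q - 1).factorial + 1 : ℕ) : ZMod q) = 0 := by
    rw [Nat.cast_add, ZMod.wilsons_lemma]
    simp
  obtain ⟨c, hc⟩ := (ZMod.natCast_eq_zero_iff _ _).mp h2
  have h3 : (((q - 1).factorial + 1 : ℕ) : S) = 0 := by
    rw [hc, Nat.cast_mul, hq0, zero_mul]
  rw [Nat.cast_add, Nat.cast_one] at h3
  exact eq_neg_of_add_eq_zero_left h3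

/-- in characteristic `q`: `(−1) ^ (q − 1) = 1`. -/
theorem s36th_neg_one_pow {q : ℕ} (hq : q.Prime) (hq0 : (q : S) = 0) :
    (-1 : S) ^ (q - 1) = 1 := by
  rcases hq.eq_two_or_odd' with rfl | hodd
  · have h2 : (2 : S) = 0 := by exact_mod_cast hq0
    have : (-1 : S) = 1 := by
      have : (1 : S) + 1 = 0 := by rw [one_add_one_eq_two]; exact h2
      exact neg_eq_of_add_eq_zero_left this
    simp [this]
  · have : Even (q - 1) := by
      obtain ⟨t, ht⟩ := hodd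
      exact ⟨t, by omega⟩
    exact this.neg_one_pow

end Wilson

/-! ## 4. The Gauss ring -/

section Gauss

variable {A E k : Type*} [CommRing A] [Field E] [Field k] {ι : A →+* E} {r : A →+* k}

/-- `s(zQ) − s(Q) = C (ι (z − 1)) · ι̂ (D_z S)` for `s = ι̂ S`. -/
theorem s36th_rot_sub_coeffMap (ι : A →+* E) (z : Aˣ) (S : LaurentSeries A) :
    kronRot (Units.map (ι : A →* E) z) (coeffMap ι S) - coeffMap ι S =
      HahnSeries.C (ι ((z : A) - 1)) * coeffMap ι (s36thD z S) := by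
  rw [← coeffMap_kronRot, ← map_sub, s36th_kronRot_sub, map_mul, coeffMap_hahnC]

/-- `s(zQ) − s(Q)` is in the Gauss ring. -/
theorem s36th_rot_sub_mem (ι : A →+* E) (r : A →+* k) (z : Aˣ) (S : LaurentSeries A) :
    kronRot (Units.map (ι : A →* E) z) (coeffMap ι S) - coeffMap ι S ∈ gaussRing ι r := by
  rw [← coeffMap_kronRot, ← map_sub]
  exact coeffMap_mem_gaussRing ι r _

/-- `s(zQ) − s(Q)` reduces to `0` if `r z = 1`. -/
theorem s36th_rot_sub_red (hι : Function.Injective ι) {z : Aˣ} (hz : r (z : A) = 1)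
    (S : LaurentSeries A) :
    gaussRed r hι ⟨kronRot (Units.map (ι : A →* E) z) (coeffMap ι S) - coeffMap ι S,
      s36th_rot_sub_mem ι r z S⟩ = 0 := by
  have h1 : (⟨kronRot (Units.map (ι : A →* E) z) (coeffMap ι S) - coeffMap ι S,
      s36th_rot_sub_mem ι r z S⟩ : gaussRing ι r) =
      ⟨coeffMap ι (kronRot z S - S), coeffMap_mem_gaussRing ι r _⟩ :=
    Subtype.ext (show kronRot (Units.map (ι : A →* E) z) (coeffMap ι S) - coeffMap ι S =
      coeffMap ι (kronRot z S - S) by rw [map_sub, coeffMap_kronRot])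
  rw [h1, gaussRed_coeffMap, s36th_kronRot_sub, map_mul, coeffMap_hahnC, map_sub, hz, map_one,
    sub_self, map_zero, zero_mul]

/-- **(θ2) in the Gauss ring**: `ι̂ (D_z S)` reduces to `θ s̄`. -/
theorem s36thD_gaussRed (hι : Function.Injective ι) {z : Aˣ} (hz : r (z : A) = 1)
    (S : LaurentSeries A) :
    gaussRed r hι ⟨coeffMap ι (s36thD z S), coeffMap_mem_gaussRing ι r _⟩ =
      thetaFun (coeffMap r S) := by
  rw [gaussRed_coeffMap, s36thD_red r hz]

/-- **(θ4), the `(q − 1)`-st power**: `(s(ζQ) − s(Q)) ^ (q − 1) = q · w`, `w` in the Gauss ring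
with reduction `− (θ s̄) ^ (q − 1)`. -/
theorem s36th_pow_eq [IsDomain A] (hι : Function.Injective ι) {q : ℕ} (hq : q.Prime) {ζ : Aˣ}
    (hζ : IsPrimitiveRoot (ζ : A) q) (hr : r (ζ : A) = 1) (S : LaurentSeries A) :
    ∃ w : gaussRing ι r,
      (kronRot (Units.map (ι : A →* E) ζ) (coeffMap ι S) - coeffMap ι S) ^ (q - 1) =
        HahnSeries.C (ι (q : A)) * (w : LaurentSeries E) ∧
      gaussRed r hι w = -(thetaFun (coeffMap r S)) ^ (q - 1) := by
  have hq0 : (q : k) = 0 := s36th_natCast_red hq hζ r hr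
  have hu : r (s36thU q ζ) = -1 := s36th_wilson_red hq hζ r hr
  have hW := s36th_wilson hq hζ
  obtain ⟨T, hT⟩ : ∃ T : LaurentSeries A,
      T = HahnSeries.C ((-1 : A) ^ (q - 1)) * s36thD ζ S ^ (q - 1) := ⟨_, rfl⟩
  obtain ⟨b, hb⟩ : ∃ b : LaurentSeries A, b = HahnSeries.C (s36thU q ζ) := ⟨_, rfl⟩
  have hb' : coeffMap r b ≠ 0 := by
    rw [hb, coeffMap_hahnC, hu]
    intro h
    have := congrArg (fun x : LaurentSeries k => x.coeff 0) h
    simp at this
  have hbE : coeffMap ι b ≠ 0 := by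
    intro h0
    apply hb'
    have : b = 0 := coeffMap_inj_of_injective ι hι (by rw [h0, map_zero])
    rw [this, map_zero]
  have hw : coeffMap ι b * (coeffMap ι T / coeffMap ι b) = coeffMap ι T := by
    field_simp
  have hTι : coeffMap ι T =
      (-1 : LaurentSeries E) ^ (q - 1) * coeffMap ι (s36thD ζ S) ^ (q - 1) := by
    rw [hT, map_mul, coeffMap_hahnC, map_pow, map_pow, map_neg, map_one, map_pow, map_neg,
      map_one]
  have hbι : coeffMap ι b = HahnSeries.C (ι (s36thU q ζ)) := by rw [hb, coeffMap_hahnC]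
  have hC : (HahnSeries.C (ι (q : A)) : LaurentSeries E) =
      HahnSeries.C (ι (s36thU q ζ)) * (HahnSeries.C (ι (1 - (ζ : A)))) ^ (q - 1) := by
    rw [hW, map_mul, map_mul, map_pow, map_pow]
  have hc1 : (HahnSeries.C (ι ((ζ : A) - 1)) : LaurentSeries E) =
      -HahnSeries.C (ι (1 - (ζ : A))) := by
    rw [← map_neg, ← map_neg, neg_sub]
  have hTr : coeffMap r T = (thetaFun (coeffMap r S)) ^ (q - 1) := by
    rw [hT, map_mul, coeffMap_hahnC, map_pow, map_neg, map_one, s36th_neg_one_pow hq hq0,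
      map_one, one_mul, map_pow, s36thD_red r hr]
  have hbr : coeffMap r b = -1 := by
    rw [hb, coeffMap_hahnC, hu, map_neg, map_one]
  have hmem : coeffMap ι T / coeffMap ι b ∈ gaussRing ι r := ⟨T, b, hb', hw⟩
  refine ⟨⟨coeffMap ι T / coeffMap ι b, hmem⟩, ?_, ?_⟩
  · show _ = HahnSeries.C (ι (q : A)) * (coeffMap ι T / coeffMap ι b)
    rw [s36th_rot_sub_coeffMap, mul_pow, mul_div_assoc', eq_div_iff hbE, hTι, hbι, hC, hc1,
      neg_pow]
    ring
  · have h5 := gaussRed_eq r hι ⟨coeffMap ι T / coeffMap ι b, hmem⟩ T b hb' hw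
    rw [h5, hTr, hbr, div_neg, div_one]

end Gauss

/-! ## 5. Vertical valuation subrings -/

section Vert

variable {A E k : Type*} [CommRing A] [Field E] [Field k]
  {ι : A →+* E} {r : A →+* k} {π : A} {F : Type*} [Field F]
  (hB : VtBase ι r π) (e : F →+* LaurentSeries E) (hfrac : ∀ x : F, VtFrac ι (e x))

/-- `Π = s(zQ) − s(Q)` lies in the maximal ideal of the vertical valuation (`r z = 1`). -/
theorem s36th_mem_nonunits {z : Aˣ} (hz : r (z : A) = 1) {x : F} {S : LaurentSeries A}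
    (hx : e x = kronRot (Units.map (ι : A →* E) z) (coeffMap ι S) - coeffMap ι S) :
    x ∈ (vtSub hB e hfrac).nonunits := by
  rw [vtSub_mem_nonunits_iff]
  have hmem : e x ∈ gaussRing ι r := by rw [hx]; exact s36th_rot_sub_mem ι r z S
  refine ⟨hmem, ?_⟩
  have h1 : (⟨e x, hmem⟩ : gaussRing ι r) =
      ⟨kronRot (Units.map (ι : A →* E) z) (coeffMap ι S) - coeffMap ι S,
        s36th_rot_sub_mem ι r z S⟩ := Subtype.ext hx
  rw [h1]
  exact s36th_rot_sub_red hB.inj hz S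

/-- `Π / (z − 1)` has the expansion `ι̂ (D_z S)`. -/
theorem s36th_div_eq (hι : Function.Injective ι) (e : F →+* LaurentSeries E) {z : Aˣ}
    (hz1 : (z : A) ≠ 1) {x c : F} {S : LaurentSeries A}
    (hx : e x = kronRot (Units.map (ι : A →* E) z) (coeffMap ι S) - coeffMap ι S)
    (hc : e c = HahnSeries.C (ι ((z : A) - 1))) :
    e (x / c) = coeffMap ι (s36thD z S) := by
  have hc0 : (HahnSeries.C (ι ((z : A) - 1)) : LaurentSeries E) ≠ 0 := by
    refine HahnSeries.C_ne_zero fun h1 => ?_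
    have h2 : (z : A) - 1 = 0 := hι (by rw [h1, map_zero])
    exact hz1 (sub_eq_zero.mp h2)
  rw [map_div₀, hx, hc, s36th_rot_sub_coeffMap, mul_div_assoc, mul_comm, div_mul_cancel₀ _ hc0]

/-- **(θ4)** `Π / (z − 1)` is integral at the vertical valuation, with reduction `θ s̄`. -/
theorem s36th_div_mem {z : Aˣ} (hz : r (z : A) = 1) (hz1 : (z : A) ≠ 1) {x c : F}
    {S : LaurentSeries A}
    (hx : e x = kronRot (Units.map (ι : A →* E) z) (coeffMap ι S) - coeffMap ι S)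
    (hc : e c = HahnSeries.C (ι ((z : A) - 1))) :
    ∃ h : e (x / c) ∈ gaussRing ι r,
      gaussRed r hB.inj ⟨e (x / c), h⟩ = thetaFun (coeffMap r S) := by
  have h1 := s36th_div_eq hB.inj e hz1 hx hc
  have hmem : e (x / c) ∈ gaussRing ι r := by rw [h1]; exact coeffMap_mem_gaussRing ι r _
  refine ⟨hmem, ?_⟩
  have h2 : (⟨e (x / c), hmem⟩ : gaussRing ι r) =
      ⟨coeffMap ι (s36thD z S), coeffMap_mem_gaussRing ι r _⟩ := Subtype.ext h1
  rw [h2]
  exact s36thD_gaussRed hB.inj hz S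

/-- `Π / (z − 1) ∈ V`. -/
theorem s36th_div_mem_vtSub {z : Aˣ} (hz : r (z : A) = 1) (hz1 : (z : A) ≠ 1) {x c : F}
    {S : LaurentSeries A}
    (hx : e x = kronRot (Units.map (ι : A →* E) z) (coeffMap ι S) - coeffMap ι S)
    (hc : e c = HahnSeries.C (ι ((z : A) - 1))) :
    x / c ∈ vtSub hB e hfrac :=
  (s36th_div_mem hB e hz hz1 hx hc).1

/-- `Π / (z − 1)` is a unit of the vertical valuation iff `θ s̄ ≠ 0`. -/
theorem s36th_div_unit_iff {z : Aˣ} (hz : r (z : A) = 1) (hz1 : (z : A) ≠ 1) {x c : F}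
    {S : LaurentSeries A}
    (hx : e x = kronRot (Units.map (ι : A →* E) z) (coeffMap ι S) - coeffMap ι S)
    (hc : e c = HahnSeries.C (ι ((z : A) - 1))) :
    x / c ∉ (vtSub hB e hfrac).nonunits ↔ thetaFun (coeffMap r S) ≠ 0 := by
  obtain ⟨hmem, hred⟩ := s36th_div_mem hB e hz hz1 hx hc
  rw [vtSub_mem_nonunits_iff]
  constructor
  · intro h h0
    exact h ⟨hmem, by rw [hred, h0]⟩
  · rintro h ⟨hmem', h0⟩
    exact h (by rw [← hred]; exact h0)

/-- **(θ4)** `Π ^ (q − 1) / q` is integral at the vertical valuation, with reduction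
`− (θ s̄) ^ (q − 1)`. -/
theorem s36th_pow_div_mem [IsDomain A] {q : ℕ} (hq : q.Prime) {ζ : Aˣ}
    (hζ : IsPrimitiveRoot (ζ : A) q) (hr : r (ζ : A) = 1) {x c : F} {S : LaurentSeries A}
    (hx : e x = kronRot (Units.map (ι : A →* E) ζ) (coeffMap ι S) - coeffMap ι S)
    (hc : e c = HahnSeries.C (ι (q : A))) (hq0 : (q : A) ≠ 0) :
    ∃ h : e (x ^ (q - 1) / c) ∈ gaussRing ι r,
      gaussRed r hB.inj ⟨e (x ^ (q - 1) / c), h⟩ = -(thetaFun (coeffMap r S)) ^ (q - 1) := by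
  obtain ⟨w, hw, hred⟩ := s36th_pow_eq (r := r) hB.inj hq hζ hr S
  have hc0 : (HahnSeries.C (ι (q : A)) : LaurentSeries E) ≠ 0 :=
    HahnSeries.C_ne_zero fun h1 => hq0 (hB.inj (by rw [h1, map_zero]))
  have h1 : e (x ^ (q - 1) / c) = (w : LaurentSeries E) := by
    rw [map_div₀, map_pow, hx, hc, hw, mul_comm, mul_div_assoc, div_self hc0, mul_one]
  have hmem : e (x ^ (q - 1) / c) ∈ gaussRing ι r := by rw [h1]; exact w.2
  refine ⟨hmem, ?_⟩
  have h2 : (⟨e (x ^ (q - 1) / c), hmem⟩ : gaussRing ι r) = w := Subtype.ext h1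
  rw [h2, hred]

/-- `Π ^ (q − 1) / q` is a unit of the vertical valuation iff `θ s̄ ≠ 0`. -/
theorem s36th_pow_div_unit_iff [IsDomain A] {q : ℕ} (hq : q.Prime) {ζ : Aˣ}
    (hζ : IsPrimitiveRoot (ζ : A) q) (hr : r (ζ : A) = 1) {x c : F} {S : LaurentSeries A}
    (hx : e x = kronRot (Units.map (ι : A →* E) ζ) (coeffMap ι S) - coeffMap ι S)
    (hc : e c = HahnSeries.C (ι (q : A))) (hq0 : (q : A) ≠ 0) :
    (x ^ (q - 1) / c ∈ vtSub hB e hfrac ∧ x ^ (q - 1) / c ∉ (vtSub hB e hfrac).nonunits) ↔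
      thetaFun (coeffMap r S) ≠ 0 := by
  obtain ⟨hmem, hred⟩ := s36th_pow_div_mem hB e hq hζ hr hx hc hq0
  rw [vtSub_mem_nonunits_iff]
  constructor
  · rintro ⟨-, h⟩ h0
    refine h ⟨hmem, ?_⟩
    rw [hred, h0, zero_pow (by have := hq.two_le; omega), neg_zero]
  · intro h
    refine ⟨hmem, ?_⟩
    rintro ⟨hmem', h0⟩
    have h1 : -(thetaFun (coeffMap r S)) ^ (q - 1) = 0 := by rw [← hred]; exact h0
    exact h (pow_eq_zero_iff (by have := hq.two_le; omega) |>.mp (neg_eq_zero.mp h1))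

end Vert

end Fermat.Agent.S36
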