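/-
S36 (Carayol at `q² ∥ M`), geometry, piece N2-loc (helper91), CONCRETE part 2:
`hVloc₁`, `hVloc₂` for the family `V = s36n2V … : S36Comp → ValuationSubring F_{M q²}(E)` of
`S36/N2Val.lean` (helper93).

* `s36n2l_prim_of_red`  : abstract — primitive polynomials in `u` are units of a valuation ring
  `V` with a reduction map `ρ : V → K` such that `ρ u` is transcendental over the residue field;
* `s36n2l_hz_inv`       : abstract — separating elements on the chart `t⁻¹` from separating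
  elements on the chart `t`, when `t` is a unit of all `V c`;
* `s36n2l_embA_J`, … : the expansions of `j`, `j_q`, `j_qq` at the three embeddings;
* `s36n2l_Y_in`, `s36n2l_Y_out` : `y_c ∈ 𝔪(V c)`, `y_{c'} ∉ 𝔪(V c)` (`c' ≠ c`);
* `s36n2l_J_val`        : `j` is a unit of the three `V c`;
* `s36n2l_hprim₁`, `s36n2l_hprim₂`, `s36n2l_hz₁`, `s36n2l_hz₂`, `s36n2l_hBV₁`, `s36n2l_hBV₂`,
  `s36n2l_harch`;
* **`s36n2l_hVloc₁`**, **`s36n2l_hVloc₂`** : from (KR) on the chart `j`.
-/
import Fermat.Agent.S36.N2LocElts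
import Fermat.Agent.S36.N2Val

set_option autoImplicit false
set_option linter.unusedSectionVars false
set_option linter.unusedVariables false
set_option linter.style.haveILetI false

noncomputable section

namespace Fermat.Agent.S36

open ModularCurve Polynomial IntermediateField Fermat.Agent.INJ Fermat.Agent.UNIP
open Fermat.Agent.AL Fermat.Agent.ES Fermat.Agent.S28

/-! ### A. primitive polynomials are units (abstract) -/

section PrimAbs

variable {A k K F : Type*} [CommRing A] [Field k] [Field K] [Field F] [Algebra A F]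
  {r : A →+* k} {π : A}

/-- **Primitive polynomials in `u` are units of `V`** if `V` has a reduction map `ρ : V → K`,
compatible with `r : A → k` on the constants, such that `ρ u` is transcendental over `k`. -/
theorem s36n2l_prim_of_red (hker : ∀ a : A, r a = 0 → π ∣ a)
    (V : ValuationSubring F) (ρ : ↥V →+* K)
    (hρ : ∀ x : ↥V, (x : F) ∈ V.nonunits → ρ x = 0)
    (c : k →+* K) (hAV : ∀ a : A, algebraMap A F a ∈ V)
    (hconst : ∀ a : A, ρ ⟨algebraMap A F a, hAV a⟩ = c (r a))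
    {u : F} (hu : u ∈ V) (htr : ∀ P : k[X], P.eval₂ c (ρ ⟨u, hu⟩) = 0 → P = 0)
    {s : F} (hs : EIPrimeTo π u s) : s ∉ V.nonunits := by
  obtain ⟨hmem, hnd⟩ := hs
  rw [Algebra.adjoin_singleton_eq_range_aeval] at hmem
  obtain ⟨P, rfl⟩ := hmem
  have hP : P.map r ≠ 0 := by
    intro h0
    have hdvd : ∀ i, π ∣ P.coeff i := fun i => hker _ (by
      have := congrArg (fun Q : Polynomial k => Q.coeff i) h0
      simpa [Polynomial.coeff_map] using this)
    obtain ⟨P', hP'⟩ := (Polynomial.C_dvd_iff_dvd_coeff π P).mpr hdvd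
    apply hnd (Polynomial.aeval u P')
      (by rw [Algebra.adjoin_singleton_eq_range_aeval]; exact ⟨P', rfl⟩)
    show Polynomial.aeval u P = algebraMap A F π * Polynomial.aeval u P'
    rw [hP', map_mul, Polynomial.aeval_C]
  intro hsV
  set g : A →+* ↥V := (algebraMap A F).codRestrict V.toSubring hAV with hg
  have hval : ((P.eval₂ g ⟨u, hu⟩ : ↥V) : F) = Polynomial.aeval u P := by
    rw [Polynomial.aeval_def]
    exact Polynomial.hom_eval₂ P g V.subtype ⟨u, hu⟩
  have h0 : ρ (P.eval₂ g ⟨u, hu⟩) = 0 := hρ _ (by rw [hval]; exact hsV)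
  rw [Polynomial.hom_eval₂] at h0
  have hcomp : ρ.comp g = c.comp r := RingHom.ext hconst
  rw [hcomp, ← Polynomial.eval₂_map] at h0
  exact hP (htr _ h0)

/-- transcendence over a subfield of the coefficients, `eval₂` form -/
theorem s36n2l_htr {k k' : Type*} [Field k] [Field k'] (κ : k →+* k')
    {x : LaurentSeries k'} (hx : Transcendental k' x) (P : k[X])
    (h : P.eval₂ ((HahnSeries.C : k' →+* LaurentSeries k').comp κ) x = 0) : P = 0 := by
  rw [← Polynomial.eval₂_map] at h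
  have e1 : (algebraMap k' (LaurentSeries k')) = (HahnSeries.C : k' →+* LaurentSeries k') := by
    ext a : 1
    rw [HahnSeries.C_apply]
    exact algebraMap_laurentSeries_eq_single k' a
  have h1 : Polynomial.aeval x (P.map κ) = 0 := by
    rw [Polynomial.aeval_def, e1]
    exact h
  have h2 : P.map κ = 0 := transcendental_iff.mp hx _ h1
  exact Polynomial.map_injective κ κ.injective (by rw [h2, Polynomial.map_zero])

end PrimAbs

/-! ### B. the chart `t⁻¹` (abstract) -/

section InvAbs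

variable {A F : Type*} [CommRing A] [Field F] [Algebra A F] {κ : Type*}

theorem s36n2l_exists_pow_inv_mul_isIntegral {t : F} (ht0 : t ≠ 0) {x : F}
    (hx : IsIntegral (Algebra.adjoin A {t}) x) :
    ∃ s : ℕ, IsIntegral (Algebra.adjoin A {t⁻¹}) ((t⁻¹) ^ s * x) := by
  have hle : Algebra.adjoin A {t} ≤ Algebra.adjoin A {t⁻¹, t} :=
    Algebra.adjoin_mono (by intro y hy; right; exact hy)
  exact zch_exists_pow_mul_isIntegral (A₀ := A) (u := t⁻¹) (u' := t)
    (inv_mul_cancel₀ ht0) (zch_isIntegral_mono hle hx)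

/-- separating elements on the chart `t⁻¹` from separating elements on the chart `t` -/
theorem s36n2l_hz_inv {t : F} (ht0 : t ≠ 0) (V : κ → ValuationSubring F)
    (hval : ∀ c, (V c).valuation t = 1)
    (hz : ∀ c, ∃ z : F, IsIntegral ↥(Algebra.adjoin A {t}) z ∧ z ∉ (V c).nonunits ∧
      ∀ c', c' ≠ c → z ∈ (V c').nonunits) :
    ∀ c, ∃ z : F, IsIntegral ↥(Algebra.adjoin A {t⁻¹}) z ∧ z ∉ (V c).nonunits ∧
      ∀ c', c' ≠ c → z ∈ (V c').nonunits := by
  intro c
  obtain ⟨z, hzint, hzc, hzc'⟩ := hz c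
  obtain ⟨s, hs⟩ := s36n2l_exists_pow_inv_mul_isIntegral (A := A) ht0 hzint
  have hv : ∀ c', (V c').valuation ((t⁻¹) ^ s * z) = (V c').valuation z := by
    intro c'
    rw [map_mul, map_pow, map_inv₀, hval c', inv_one, one_pow, one_mul]
  refine ⟨(t⁻¹) ^ s * z, hs, ?_, fun c' hc' => ?_⟩
  · rw [ValuationSubring.mem_nonunits_iff, hv]
    rw [ValuationSubring.mem_nonunits_iff] at hzc
    exact hzc
  · rw [ValuationSubring.mem_nonunits_iff, hv]
    exact (ValuationSubring.mem_nonunits_iff _).mp (hzc' c' hc')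

/-- elements integral over `A[t]`, `A, t ⊆ V`, are in `V` -/
theorem s36n2l_mem_of_isIntegral (V : ValuationSubring F)
    (hAV : ∀ a : A, algebraMap A F a ∈ V) {t : F} (ht : t ∈ V) {x : F}
    (hx : IsIntegral ↥(Algebra.adjoin A ({t} : Set F)) x) : x ∈ V := by
  refine vt_mem_of_isIntegral V (fun y => ?_) hx
  show ((y : Algebra.adjoin A ({t} : Set F)) : F) ∈ V
  obtain ⟨y, hy⟩ := y
  show y ∈ V
  induction hy using Algebra.adjoin_induction with
  | mem s hs =>
    rw [Set.mem_singleton_iff] at hs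
    rw [hs]
    exact ht
  | algebraMap a => exact hAV a
  | add s t _ _ hs ht => exact V.add_mem _ _ hs ht
  | mul s t _ _ hs ht => exact V.mul_mem _ _ hs ht

end InvAbs

/-! ### C. the expansions of `j`, `j_q`, `j_qq` at the three embeddings -/

section Exp

variable {E E' : Type*} [Field E] [Field E'] (ψ : E →+* E') (ιC : E →+* ℂ)
  {q M : ℕ} [NeZero q] [NeZero M] [NeZero (M * q)] [NeZero (M * q * q)]
  (hq : q.Prime) (hqM : ¬ q ∣ M) {ζ : E'ˣ} (h : S36MidEmb E' q M ζ)

theorem s36n2l_embA_J : vtEmb E (M * q * q) (s36n2lJ E M q) = jqModC E := rfl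

theorem s36n2l_embA_Jq : vtEmb E (M * q * q) (s36n2lJq E M q) = qExpand E q (jqModC E) := rfl

theorem s36n2l_embA_Jqq :
    vtEmb E (M * q * q) (s36n2lJqq E M q) = qExpand E q (qExpand E q (jqModC E)) := rfl

theorem s36n2l_embB_J :
    s36n2EmbB ιC hq hqM (s36n2lJ E M q) = qExpand E q (qExpand E q (jqModC E)) :=
  s36n2W_base E ιC hq hqM (jqModC_mem_full E M)

theorem s36n2l_embB_Jq :
    s36n2EmbB ιC hq hqM (s36n2lJq E M q) = qExpand E q (jqModC E) :=
  s36n2W_mid E ιC hq hqM (jqModC_mem_full E M)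

theorem s36n2l_embB_Jqq :
    s36n2EmbB ιC hq hqM (s36n2lJqq E M q) = jqModC E :=
  s36n2W_qExpand_sq E ιC hq hqM (jqModC_mem_full E M)

theorem s36n2l_embC_J : s36n2EmbC ψ h (s36n2lJ E M q) = jqModC E' := by
  have e1 : mgaCoeffHom ψ (M * q * q) (s36n2lJ E M q) =
      ⟨jqModC E', s36mid_low_le (jqModC_mem_full E' (M * q))⟩ := by
    apply Subtype.ext
    show coeffMap ψ (jqModC E) = jqModC E'
    exact coeffMap_jqModC ψ
  rw [s36n2EmbC_apply, e1]
  exact h.emb_of_mem_low (jqModC_mem_full E' (M * q))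

theorem s36n2l_embC_Jq : s36n2EmbC ψ h (s36n2lJq E M q) = qExpand E' q (jqModC E') := by
  have e1 : mgaCoeffHom ψ (M * q * q) (s36n2lJq E M q) =
      ⟨qExpand E' q (jqModC E'),
        s36mid_low_le (al_qExpand_mem E' (jqModC_mem_full E' M))⟩ := by
    apply Subtype.ext
    show coeffMap ψ (qExpand E q (jqModC E)) = qExpand E' q (jqModC E')
    rw [coeffMap_qExpand, coeffMap_jqModC]
  rw [s36n2EmbC_apply, e1]
  exact h.emb_of_mem_low (al_qExpand_mem E' (jqModC_mem_full E' M))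

theorem s36n2l_embC_Jqq : s36n2EmbC ψ h (s36n2lJqq E M q) = kronRot ζ (jqModC E') := by
  haveI : NeZero (1 * q * q) :=
    ⟨by rw [one_mul]; exact Nat.mul_ne_zero (NeZero.ne q) (NeZero.ne q)⟩
  have e0 : qExpand E' q (qExpand E' q (jqModC E')) = qExpand E' (1 * q * q) (jqModC E') := by
    rw [qExpand_qExpand]
    exact qExpand_congr (by ring) _
  have e1 : mgaCoeffHom ψ (M * q * q) (s36n2lJqq E M q) =
      ⟨qExpand E' (1 * q * q) (jqModC E'), jqModCd_mem_full E' (M * q * q)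
        (Nat.mul_dvd_mul_right (Nat.mul_dvd_mul_right (one_dvd M) q) q)⟩ := by
    apply Subtype.ext
    show coeffMap ψ (qExpand E q (qExpand E q (jqModC E))) = _
    rw [coeffMap_qExpand, coeffMap_qExpand, coeffMap_jqModC, e0]
  rw [s36n2EmbC_apply, e1, h.emb_high 1 (one_dvd M), qExpand_one_apply]

end Exp

/-! ### D. the table for `V = s36n2V` -/

section Fam

variable {A E k A' E' k' : Type*} [CommRing A] [IsDomain A] [Field E] [Algebra A E]
  [IsFractionRing A E] [Field k] [CommRing A'] [Field E'] [Field k']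
  {r : A →+* k} {π : A} {ι' : A' →+* E'} {r' : A' →+* k'} {π' : A'}
  (hB : VtBase (algebraMap A E) r π) (hB' : VtBase ι' r' π')
  (ψ : E →+* E') (ιC : E →+* ℂ)
  {q M : ℕ} [NeZero q] [NeZero M] [NeZero (M * q)] [NeZero (M * q * q)]
  (hq : q.Prime) (hqM : ¬ q ∣ M)
  {ζ : E'ˣ} (h : S36MidEmb E' q M ζ) (z : A'ˣ) (hz : Units.map (ι' : A' →* E') z = ζ)

/-- the element vanishing exactly on the component `c` -/
def s36n2lY (E : Type*) [Field E] (M q : ℕ) [NeZero M] [NeZero q] [NeZero (M * q)]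
    [NeZero (M * q * q)] : S36Comp → modularFunctionFieldFullC E (M * q * q)
  | S36Comp.a => s36n2lYa E M q
  | S36Comp.b => s36n2lYb E M q
  | S36Comp.c => s36n2lYc E M q

theorem s36n2l_Y_isIntegral {A₀ : Type*} [CommRing A₀]
    [Algebra A₀ (modularFunctionFieldFullC E (M * q * q))] (hq : q.Prime) (i : S36Comp) :
    IsIntegral (Algebra.adjoin A₀ {s36n2lJ E M q}) (s36n2lY E M q i) := by
  cases i
  · exact s36n2l_isIntegral_Ya hq
  · exact s36n2l_isIntegral_Yb hq
  · exact s36n2l_isIntegral_Yc hq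

variable [CharP k q] [CharP k' q]

include hq in
theorem s36n2l_tableA :
    s36n2lYa E M q ∈ (s36n2VA (q := q) (M := M) hB).nonunits ∧
      s36n2lYb E M q ∉ (s36n2VA (q := q) (M := M) hB).nonunits ∧
      s36n2lYc E M q ∉ (s36n2VA (q := q) (M := M) hB).nonunits := by
  haveI : Fact q.Prime := ⟨hq⟩
  exact s36n2l_pattern_a hB (vtEmb E (M * q * q))
    (fun x => vt_frac_fullC hB (M * q * q) x.2) rfl rfl rfl

theorem s36n2l_tableB :
    s36n2lYa E M q ∉ (s36n2VB hB ιC hq hqM).nonunits ∧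
      s36n2lYb E M q ∈ (s36n2VB hB ιC hq hqM).nonunits ∧
      s36n2lYc E M q ∉ (s36n2VB hB ιC hq hqM).nonunits := by
  haveI : Fact q.Prime := ⟨hq⟩
  exact s36n2l_pattern_b hB (s36n2EmbB ιC hq hqM)
    (fun x => vt_frac_fullC hB (M * q * q) (s36n2W E ιC hq hqM x).2) (s36n2l_embB_J ιC hq hqM)
    (s36n2l_embB_Jq ιC hq hqM) (s36n2l_embB_Jqq ιC hq hqM)

theorem s36n2l_tableC (hz1 : r' z = 1) :
    s36n2lYa E M q ∉ (s36n2VC hB' ψ hq h z hz).nonunits ∧
      s36n2lYb E M q ∉ (s36n2VC hB' ψ hq h z hz).nonunits ∧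
      s36n2lYc E M q ∈ (s36n2VC hB' ψ hq h z hz).nonunits := by
  haveI : Fact q.Prime := ⟨hq⟩
  exact s36n2l_pattern_c hB' (s36n2EmbC ψ h)
    (fun _ => s36n2_frac_emb hB' hq h z hz _) z hz1 (s36n2l_embC_J ψ h)
    (s36n2l_embC_Jq ψ h) (by rw [hz]; exact s36n2l_embC_Jqq ψ h)

/-- `y_c ∈ 𝔪(V c)` -/
theorem s36n2l_Y_in (hz1 : r' z = 1) (i : S36Comp) :
    s36n2lY E M q i ∈ (s36n2V hB hB' ψ ιC hq hqM h z hz i).nonunits := by
  cases i
  · exact (s36n2l_tableA hB hq).1
  · exact (s36n2l_tableB hB ιC hq hqM).2.1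
  · exact (s36n2l_tableC hB' ψ hq h z hz hz1).2.2

/-- `y_{c'} ∉ 𝔪(V c)` for `c' ≠ c` -/
theorem s36n2l_Y_out (hz1 : r' z = 1) (i i' : S36Comp) (hne : i' ≠ i) :
    s36n2lY E M q i' ∉ (s36n2V hB hB' ψ ιC hq hqM h z hz i).nonunits := by
  cases i <;> cases i'
  · exact absurd rfl hne
  · exact (s36n2l_tableA hB hq).2.1
  · exact (s36n2l_tableA hB hq).2.2
  · exact (s36n2l_tableB hB ιC hq hqM).1
  · exact absurd rfl hne
  · exact (s36n2l_tableB hB ιC hq hqM).2.2
  · exact (s36n2l_tableC hB' ψ hq h z hz hz1).1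
  · exact (s36n2l_tableC hB' ψ hq h z hz hz1).2.1
  · exact absurd rfl hne

end Fam

/-! ### E. reductions -/

section RedAbs

variable {A E k : Type*} [CommRing A] [Field E] [Field k]
  {ι : A →+* E} {r : A →+* k} {π : A} {F : Type*} [Field F]
  (hB : VtBase ι r π) (e : F →+* LaurentSeries E) (hfrac : ∀ x : F, VtFrac ι (e x))

/-- the reduction of an element whose expansion is a series over `A` -/
theorem s36n2l_red_of_coeffMap {x : F} {T : LaurentSeries A} (hx : e x = coeffMap ι T)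
    (hxV : x ∈ vtSub hB e hfrac) : vtSubRed hB e hfrac ⟨x, hxV⟩ = coeffMap r T := by
  rw [vtSubRed_of_eq hB e hfrac hx (coeffMap_mem_gaussRing ι r T)]
  exact gaussRed_coeffMap r hB.inj T

/-- the reduction of an inverse -/
theorem s36n2l_red_inv {K : Type*} [Field K] (V : ValuationSubring F) (ρ : ↥V →+* K) {x : F}
    (hx : x ∈ V) (hx' : x⁻¹ ∈ V) (hx0 : x ≠ 0) : ρ ⟨x⁻¹, hx'⟩ = (ρ ⟨x, hx⟩)⁻¹ := by
  have h1 : (⟨x⁻¹, hx'⟩ : ↥V) * ⟨x, hx⟩ = 1 := Subtype.ext (inv_mul_cancel₀ hx0)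
  have h2 := congrArg ρ h1
  rw [map_mul, map_one] at h2
  exact eq_inv_of_mul_eq_one_left h2

end RedAbs

section PrimSub

variable {A k A' E' k' F : Type*} [CommRing A] [Field k] [CommRing A'] [Field E'] [Field k']
  [Field F] [Algebra A F] {r : A →+* k} {π : A} {ι' : A' →+* E'} {r' : A' →+* k'} {π' : A'}
  (hB' : VtBase ι' r' π') (e : F →+* LaurentSeries E') (hfrac : ∀ x : F, VtFrac ι' (e x))

/-- **primitive polynomials are units of a vertical valuation** (two bases: the polynomials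
have coefficients in `A`, the valuation is the Gauss valuation over `A'`). -/
theorem s36n2l_prim_vtSub (hker : ∀ a : A, r a = 0 → π ∣ a) (κ : k →+* k')
    (hconst : ∀ a : A, ∃ a' : A', e (algebraMap A F a) = HahnSeries.C (ι' a') ∧
      r' a' = κ (r a))
    {u : F} (huV : u ∈ vtSub hB' e hfrac) {x : LaurentSeries k'}
    (hρu : vtSubRed hB' e hfrac ⟨u, huV⟩ = x) (htr : Transcendental k' x)
    {s : F} (hs : EIPrimeTo π u s) : s ∉ (vtSub hB' e hfrac).nonunits := by
  have hAV : ∀ a : A, algebraMap A F a ∈ vtSub hB' e hfrac := fun a => by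
    obtain ⟨a', h1, -⟩ := hconst a
    exact vtSub_const_mem hB' e hfrac h1
  refine s36n2l_prim_of_red hker (vtSub hB' e hfrac) (vtSubRed hB' e hfrac)
    (fun x hx => (vtSubRed_eq_zero_iff hB' e hfrac x).mpr hx)
    ((HahnSeries.C : k' →+* LaurentSeries k').comp κ) hAV ?_ huV ?_ hs
  · intro a
    obtain ⟨a', h1, h2⟩ := hconst a
    have h3 : e (algebraMap A F a) = coeffMap ι' (HahnSeries.C a') := by
      rw [h1, Fermat.Agent.INJ.coeffMap_hahnC]
    rw [s36n2l_red_of_coeffMap hB' e hfrac h3, Fermat.Agent.INJ.coeffMap_hahnC, h2]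
    rfl
  · intro P hP
    rw [hρu] at hP
    exact s36n2l_htr κ htr P hP

end PrimSub

/-! ### F. `j` is a unit; primitive polynomials in `j`, `1 / j` -/

section Units

variable {A E k A' E' k' : Type*} [CommRing A] [IsDomain A] [Field E] [Algebra A E]
  [IsFractionRing A E] [Field k] [CommRing A'] [Field E'] [Field k']
  {r : A →+* k} {π : A} {ι' : A' →+* E'} {r' : A' →+* k'} {π' : A'}
  (hB : VtBase (algebraMap A E) r π) (hB' : VtBase ι' r' π')
  (ψ : E →+* E') (ιC : E →+* ℂ)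
  {q M : ℕ} [NeZero q] [NeZero M] [NeZero (M * q)] [NeZero (M * q * q)]
  (hq : q.Prime) (hqM : ¬ q ∣ M)
  {ζ : E'ˣ} (h : S36MidEmb E' q M ζ) (z : A'ˣ) (hz : Units.map (ι' : A' →* E') z = ζ)

theorem s36n2l_expA : vtEmb E (M * q * q) (s36n2lJ E M q) =
    coeffMap (algebraMap A E) (jqModC A) := (coeffMap_jqModC _).symm

theorem s36n2l_expB : s36n2EmbB ιC hq hqM (s36n2lJ E M q) =
    coeffMap (algebraMap A E) (qExpand A q (qExpand A q (jqModC A))) := by
  rw [s36n2l_embB_J, coeffMap_qExpand, coeffMap_qExpand, coeffMap_jqModC]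

theorem s36n2l_expC : s36n2EmbC ψ h (s36n2lJ E M q) = coeffMap ι' (jqModC A') := by
  rw [s36n2l_embC_J, coeffMap_jqModC]

theorem s36n2l_redB_ne :
    coeffMap r (qExpand A q (qExpand A q (jqModC A))) ≠ 0 := by
  rw [coeffMap_qExpand, coeffMap_qExpand, coeffMap_jqModC]
  intro h0
  exact jqModC_ne_zero_of_nontrivial k
    (qExpand_injective q (qExpand_injective q (by rw [h0, map_zero, map_zero])))

/-- **`j` is a unit of the three vertical valuation rings.** -/
theorem s36n2l_J_val (i : S36Comp) :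
    (s36n2V hB hB' ψ ιC hq hqM h z hz i).valuation (s36n2lJ E M q) = 1 := by
  cases i
  · exact vtSub_valuation_eq_one_of_eq_coeffMap hB (vtEmb E (M * q * q))
      (fun x => vt_frac_fullC hB (M * q * q) x.2) s36n2l_expA
      (by rw [coeffMap_jqModC]; exact jqModC_ne_zero_of_nontrivial k)
  · exact vtSub_valuation_eq_one_of_eq_coeffMap hB (s36n2EmbB ιC hq hqM)
      (fun x => vt_frac_fullC hB (M * q * q) (s36n2W E ιC hq hqM x).2)
      (s36n2l_expB ιC hq hqM) s36n2l_redB_ne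
  · exact vtSub_valuation_eq_one_of_eq_coeffMap hB' (s36n2EmbC ψ h)
      (fun _ => s36n2_frac_emb hB' hq h z hz _) (s36n2l_expC ψ h)
      (by rw [coeffMap_jqModC]; exact jqModC_ne_zero_of_nontrivial k')

theorem s36n2l_J_mem (i : S36Comp) :
    s36n2lJ E M q ∈ s36n2V hB hB' ψ ιC hq hqM h z hz i :=
  ((vt_valuation_eq_one_iff _ _).mp (s36n2l_J_val hB hB' ψ ιC hq hqM h z hz i)).2.1

theorem s36n2l_Jinv_mem (i : S36Comp) :
    (s36n2lJ E M q)⁻¹ ∈ s36n2V hB hB' ψ ιC hq hqM h z hz i :=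
  ((vt_valuation_eq_one_iff _ _).mp (s36n2l_J_val hB hB' ψ ιC hq hqM h z hz i)).2.2

theorem s36n2l_J_ne_zero : s36n2lJ E M q ≠ 0 := by
  intro h0
  have h1 := congrArg (fun x : modularFunctionFieldFullC E (M * q * q) =>
    (x : LaurentSeries E)) h0
  exact jqModC_ne_zero_of_nontrivial E h1

variable [Algebra A (modularFunctionFieldFullC E (M * q * q))]
  [IsScalarTower A E (modularFunctionFieldFullC E (M * q * q))]

/-- constants at `∞` -/
theorem s36n2l_constA (a : A) :
    vtEmb E (M * q * q) (algebraMap A (modularFunctionFieldFullC E (M * q * q)) a) =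
      HahnSeries.C (algebraMap A E a) := by
  rw [IsScalarTower.algebraMap_apply A E (modularFunctionFieldFullC E (M * q * q)),
    HahnSeries.C_apply]
  exact algebraMap_laurentSeries_eq_single E _

/-- constants at `0` -/
theorem s36n2l_constB (a : A) :
    s36n2EmbB ιC hq hqM (algebraMap A (modularFunctionFieldFullC E (M * q * q)) a) =
      HahnSeries.C (algebraMap A E a) := by
  rw [IsScalarTower.algebraMap_apply A E (modularFunctionFieldFullC E (M * q * q)),
    s36n2EmbB_apply, AlgEquiv.commutes, HahnSeries.C_apply]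
  exact algebraMap_laurentSeries_eq_single E _

/-- constants at the middle cusp -/
theorem s36n2l_constC (a : A) :
    s36n2EmbC ψ h (algebraMap A (modularFunctionFieldFullC E (M * q * q)) a) =
      HahnSeries.C (ψ (algebraMap A E a)) := by
  rw [IsScalarTower.algebraMap_apply A E (modularFunctionFieldFullC E (M * q * q)),
    s36n2EmbC_apply, mgaCoeffHom_algebraMap, AlgHom.commutes, HahnSeries.C_apply]
  exact algebraMap_laurentSeries_eq_single E' _

/-- the constants of `A` lie in the three `V i` -/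
theorem s36n2l_const_mem {κ : k →+* k'} (hc : VtCompat (algebraMap A E) r ι' r' ψ κ)
    (i : S36Comp) (a : A) :
    algebraMap A (modularFunctionFieldFullC E (M * q * q)) a ∈
      s36n2V hB hB' ψ ιC hq hqM h z hz i := by
  cases i
  · exact vtSub_const_mem hB (vtEmb E (M * q * q))
      (fun x => vt_frac_fullC hB (M * q * q) x.2) (s36n2l_constA a)
  · exact vtSub_const_mem hB (s36n2EmbB ιC hq hqM)
      (fun x => vt_frac_fullC hB (M * q * q) (s36n2W E ιC hq hqM x).2)
      (s36n2l_constB ιC hq hqM a)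
  · obtain ⟨a', h1, -⟩ := hc a
    exact vtSub_const_mem hB' (s36n2EmbC ψ h)
      (fun _ => s36n2_frac_emb hB' hq h z hz _) ((s36n2l_constC ψ h a).trans (by rw [h1]))

/-- **hBV₁**: the chart `j` lies in the three `V i`. -/
theorem s36n2l_hBV₁ {κ : k →+* k'} (hc : VtCompat (algebraMap A E) r ι' r' ψ κ)
    (i : S36Comp) (b : modularFunctionFieldFullC E (M * q * q))
    (hb : IsIntegral ↥(Algebra.adjoin A
      ({bgJ E (M * q * q)} : Set (modularFunctionFieldFullC E (M * q * q)))) b) :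
    b ∈ s36n2V hB hB' ψ ιC hq hqM h z hz i :=
  s36n2l_mem_of_isIntegral _ (s36n2l_const_mem hB hB' ψ ιC hq hqM h z hz hc i)
    (s36n2l_J_mem hB hB' ψ ιC hq hqM h z hz i) hb

/-- **hBV₂**: the chart `1 / j` lies in the three `V i`. -/
theorem s36n2l_hBV₂ {κ : k →+* k'} (hc : VtCompat (algebraMap A E) r ι' r' ψ κ)
    (i : S36Comp) (b : modularFunctionFieldFullC E (M * q * q))
    (hb : IsIntegral ↥(Algebra.adjoin A
      ({(bgJ E (M * q * q))⁻¹} : Set (modularFunctionFieldFullC E (M * q * q)))) b) :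
    b ∈ s36n2V hB hB' ψ ιC hq hqM h z hz i :=
  s36n2l_mem_of_isIntegral _ (s36n2l_const_mem hB hB' ψ ιC hq hqM h z hz hc i)
    (s36n2l_Jinv_mem hB hB' ψ ιC hq hqM h z hz i) hb

/-- **harch** for the three `V i`. -/
theorem s36n2l_harch (i : S36Comp) (a x : modularFunctionFieldFullC E (M * q * q))
    (ha : a ∈ (s36n2V hB hB' ψ ιC hq hqM h z hz i).nonunits) :
    ∃ n : ℕ, a ^ n * x ∈ (s36n2V hB hB' ψ ιC hq hqM h z hz i).nonunits := by
  cases i
  · exact vtSub_arch hB (vtEmb E (M * q * q))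
      (fun x => vt_frac_fullC hB (M * q * q) x.2) ha x
  · exact vtSub_arch hB (s36n2EmbB ιC hq hqM)
      (fun x => vt_frac_fullC hB (M * q * q) (s36n2W E ιC hq hqM x).2) ha x
  · exact vtSub_arch hB' (s36n2EmbC ψ h)
      (fun _ => s36n2_frac_emb hB' hq h z hz _) ha x

variable [CharP k q] [CharP k' q]

/-- **primitive polynomials in `j` are units of the three `V i`** -/
theorem s36n2l_hprim₁ {κ : k →+* k'} (hc : VtCompat (algebraMap A E) r ι' r' ψ κ)
    (i : S36Comp) (s : modularFunctionFieldFullC E (M * q * q))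
    (hs : EIPrimeTo π (bgJ E (M * q * q)) s) :
    s ∉ (s36n2V hB hB' ψ ιC hq hqM h z hz i).nonunits := by
  haveI : Fact q.Prime := ⟨hq⟩
  cases i
  · refine s36n2l_prim_vtSub hB (vtEmb E (M * q * q))
      (fun x => vt_frac_fullC hB (M * q * q) x.2) hB.ker (RingHom.id k)
      (fun a => ⟨a, s36n2l_constA a, rfl⟩)
      (s36n2l_J_mem hB hB' ψ ιC hq hqM h z hz S36Comp.a)
      (s36n2l_red_of_coeffMap hB _ _ s36n2l_expA _) ?_ hs
    rw [coeffMap_jqModC]
    exact nodesFrobU_transcendental_j k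
  · refine s36n2l_prim_vtSub hB (s36n2EmbB ιC hq hqM)
      (fun x => vt_frac_fullC hB (M * q * q) (s36n2W E ιC hq hqM x).2) hB.ker (RingHom.id k)
      (fun a => ⟨a, s36n2l_constB ιC hq hqM a, rfl⟩)
      (s36n2l_J_mem hB hB' ψ ιC hq hqM h z hz S36Comp.b)
      (s36n2l_red_of_coeffMap hB _ _ (s36n2l_expB ιC hq hqM) _) ?_ hs
    rw [coeffMap_qExpand, coeffMap_qExpand, coeffMap_jqModC, s36n2l_red_qq k q]
    exact ((nodesFrobU_transcendental_j k).pow hq.pos).pow hq.pos
  · refine s36n2l_prim_vtSub hB' (s36n2EmbC ψ h)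
      (fun _ => s36n2_frac_emb hB' hq h z hz _) hB.ker κ
      (fun a => ?_)
      (s36n2l_J_mem hB hB' ψ ιC hq hqM h z hz S36Comp.c)
      (s36n2l_red_of_coeffMap hB' _ _ (s36n2l_expC ψ h) _) ?_ hs
    · obtain ⟨a', h1, h2⟩ := hc a
      exact ⟨a', (s36n2l_constC ψ h a).trans (by rw [h1]), h2⟩
    · rw [coeffMap_jqModC]
      exact nodesFrobU_transcendental_j k'

/-- **primitive polynomials in `1 / j` are units of the three `V i`** -/
theorem s36n2l_hprim₂ {κ : k →+* k'} (hc : VtCompat (algebraMap A E) r ι' r' ψ κ)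
    (i : S36Comp) (s : modularFunctionFieldFullC E (M * q * q))
    (hs : EIPrimeTo π (bgJ E (M * q * q))⁻¹ s) :
    s ∉ (s36n2V hB hB' ψ ιC hq hqM h z hz i).nonunits := by
  haveI : Fact q.Prime := ⟨hq⟩
  have hJ0 : s36n2lJ E M q ≠ 0 := s36n2l_J_ne_zero
  cases i
  · refine s36n2l_prim_vtSub hB (vtEmb E (M * q * q))
      (fun x => vt_frac_fullC hB (M * q * q) x.2) hB.ker (RingHom.id k)
      (fun a => ⟨a, s36n2l_constA a, rfl⟩)
      (s36n2l_Jinv_mem hB hB' ψ ιC hq hqM h z hz S36Comp.a)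
      ((s36n2l_red_inv _ _ (s36n2l_J_mem hB hB' ψ ιC hq hqM h z hz S36Comp.a) _ hJ0).trans
        (congrArg (·⁻¹) (s36n2l_red_of_coeffMap hB _ _ s36n2l_expA _))) ?_ hs
    rw [coeffMap_jqModC]
    exact nodesFrobU_transcendental_jinv k
  · refine s36n2l_prim_vtSub hB (s36n2EmbB ιC hq hqM)
      (fun x => vt_frac_fullC hB (M * q * q) (s36n2W E ιC hq hqM x).2) hB.ker (RingHom.id k)
      (fun a => ⟨a, s36n2l_constB ιC hq hqM a, rfl⟩)
      (s36n2l_Jinv_mem hB hB' ψ ιC hq hqM h z hz S36Comp.b)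
      ((s36n2l_red_inv _ _ (s36n2l_J_mem hB hB' ψ ιC hq hqM h z hz S36Comp.b) _ hJ0).trans
        (congrArg (·⁻¹) (s36n2l_red_of_coeffMap hB _ _ (s36n2l_expB ιC hq hqM) _))) ?_ hs
    rw [coeffMap_qExpand, coeffMap_qExpand, coeffMap_jqModC, s36n2l_red_qq k q, ← inv_pow,
      ← inv_pow]
    exact ((nodesFrobU_transcendental_jinv k).pow hq.pos).pow hq.pos
  · refine s36n2l_prim_vtSub hB' (s36n2EmbC ψ h)
      (fun _ => s36n2_frac_emb hB' hq h z hz _) hB.ker κ
      (fun a => ?_)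
      (s36n2l_Jinv_mem hB hB' ψ ιC hq hqM h z hz S36Comp.c)
      ((s36n2l_red_inv _ _ (s36n2l_J_mem hB hB' ψ ιC hq hqM h z hz S36Comp.c) _ hJ0).trans
        (congrArg (·⁻¹) (s36n2l_red_of_coeffMap hB' _ _ (s36n2l_expC ψ h) _))) ?_ hs
    · obtain ⟨a', h1, h2⟩ := hc a
      exact ⟨a', (s36n2l_constC ψ h a).trans (by rw [h1]), h2⟩
    · rw [coeffMap_jqModC]
      exact nodesFrobU_transcendental_jinv k'

end Units

/-! ### G. `hVloc₁`, `hVloc₂` -/

section Final

variable {A E k A' E' k' : Type*} [CommRing A] [IsDomain A] [IsDiscreteValuationRing A]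
  [Field E] [Algebra A E] [IsFractionRing A E] [CharZero E]
  [Field k] [CommRing A'] [Field E'] [Field k']
  {r : A →+* k} {π : A} {ι' : A' →+* E'} {r' : A' →+* k'} {π' : A'}
  (hB : VtBase (algebraMap A E) r π) (hB' : VtBase ι' r' π')
  (ψ : E →+* E') (ιC : E →+* ℂ)
  {q M : ℕ} [NeZero q] [NeZero M] [NeZero (M * q)] [NeZero (M * q * q)]
  (hq : q.Prime) (hqM : ¬ q ∣ M)
  {ζ : E'ˣ} (h : S36MidEmb E' q M ζ) (z : A'ˣ) (hz : Units.map (ι' : A' →* E') z = ζ)
  [Algebra A (modularFunctionFieldFullC E (M * q * q))]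
  [IsScalarTower A E (modularFunctionFieldFullC E (M * q * q))]
  [CharP k q] [CharP k' q]

/-- **separating elements on the chart `j`** -/
theorem s36n2l_hz₁ {κ : k →+* k'} (hc : VtCompat (algebraMap A E) r ι' r' ψ κ)
    (hz1 : r' z = 1) (i : S36Comp) :
    ∃ y : modularFunctionFieldFullC E (M * q * q),
      IsIntegral ↥(Algebra.adjoin A
        ({bgJ E (M * q * q)} : Set (modularFunctionFieldFullC E (M * q * q)))) y ∧
      y ∉ (s36n2V hB hB' ψ ιC hq hqM h z hz i).nonunits ∧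
      ∀ i', i' ≠ i → y ∈ (s36n2V hB hB' ψ ιC hq hqM h z hz i').nonunits :=
  s36n2l_sep_prod (s36n2V hB hB' ψ ιC hq hqM h z hz)
    (s36n2l_hBV₁ hB hB' ψ ιC hq hqM h z hz hc) (s36n2lY E M q)
    (fun i => s36n2l_Y_isIntegral hq i)
    (s36n2l_Y_in hB hB' ψ ιC hq hqM h z hz hz1)
    (s36n2l_Y_out hB hB' ψ ιC hq hqM h z hz hz1) i

/-- **separating elements on the chart `1 / j`** -/
theorem s36n2l_hz₂ {κ : k →+* k'} (hc : VtCompat (algebraMap A E) r ι' r' ψ κ)
    (hz1 : r' z = 1) (i : S36Comp) :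
    ∃ y : modularFunctionFieldFullC E (M * q * q),
      IsIntegral ↥(Algebra.adjoin A
        ({(bgJ E (M * q * q))⁻¹} : Set (modularFunctionFieldFullC E (M * q * q)))) y ∧
      y ∉ (s36n2V hB hB' ψ ιC hq hqM h z hz i).nonunits ∧
      ∀ i', i' ≠ i → y ∈ (s36n2V hB hB' ψ ιC hq hqM h z hz i').nonunits :=
  s36n2l_hz_inv (A := A) (s36n2l_J_ne_zero (E := E) (M := M) (q := q))
    (s36n2V hB hB' ψ ιC hq hqM h z hz) (s36n2l_J_val hB hB' ψ ιC hq hqM h z hz)
    (s36n2l_hz₁ hB hB' ψ ιC hq hqM h z hz hc hz1) i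

/-- **hVloc₁ at level `M q²`**: on the chart `j`, each of the three vertical valuation rings is
the localisation of the chart at `𝔪(V i) ∩ B`.  From (KR) on the chart `j`. -/
theorem s36n2l_hVloc₁ (hπ : Irreducible π) {κ : k →+* k'}
    (hc : VtCompat (algebraMap A E) r ι' r' ψ κ) (hz1 : r' z = 1)
    (hKR : ∀ x : modularFunctionFieldFullC E (M * q * q),
      IsIntegral ↥(Algebra.adjoin A
        ({bgJ E (M * q * q)} : Set (modularFunctionFieldFullC E (M * q * q))))
        (algebraMap A (modularFunctionFieldFullC E (M * q * q)) π * x) →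
      (∀ i, x ∈ s36n2V hB hB' ψ ιC hq hqM h z hz i) →
      IsIntegral ↥(Algebra.adjoin A
        ({bgJ E (M * q * q)} : Set (modularFunctionFieldFullC E (M * q * q)))) x) :
    ∀ i (x : modularFunctionFieldFullC E (M * q * q)),
      x ∈ s36n2V hB hB' ψ ιC hq hqM h z hz i →
      ∃ b s : modularFunctionFieldFullC E (M * q * q),
        IsIntegral ↥(Algebra.adjoin A
          ({bgJ E (M * q * q)} : Set (modularFunctionFieldFullC E (M * q * q)))) b ∧
        IsIntegral ↥(Algebra.adjoin A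
          ({bgJ E (M * q * q)} : Set (modularFunctionFieldFullC E (M * q * q)))) s ∧
        s ∉ (s36n2V hB hB' ψ ιC hq hqM h z hz i).nonunits ∧ s * x = b := by
  haveI : FiniteDimensional E⟮bgJ E (M * q * q)⟯ (modularFunctionFieldFullC E (M * q * q)) :=
    bgFin_finiteDimensional_full E (M * q * q)
  exact s36n2l_hVloc_all (bgConst_transcendental_bgJ E (M * q * q)) hπ
    (s36n2V hB hB' ψ ιC hq hqM h z hz) (s36n2l_hBV₁ hB hB' ψ ιC hq hqM h z hz hc) hKR
    (s36n2l_harch hB hB' ψ ιC hq hqM h z hz)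
    (s36n2l_hprim₁ hB hB' ψ ιC hq hqM h z hz hc)
    (s36n2l_hz₁ hB hB' ψ ιC hq hqM h z hz hc hz1)

/-- **hVloc₂ at level `M q²`**: the same on the chart `1 / j` (from (KR) on the chart `j`). -/
theorem s36n2l_hVloc₂ (hπ : Irreducible π) {κ : k →+* k'}
    (hc : VtCompat (algebraMap A E) r ι' r' ψ κ) (hz1 : r' z = 1)
    (hKR : ∀ x : modularFunctionFieldFullC E (M * q * q),
      IsIntegral ↥(Algebra.adjoin A
        ({bgJ E (M * q * q)} : Set (modularFunctionFieldFullC E (M * q * q))))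
        (algebraMap A (modularFunctionFieldFullC E (M * q * q)) π * x) →
      (∀ i, x ∈ s36n2V hB hB' ψ ιC hq hqM h z hz i) →
      IsIntegral ↥(Algebra.adjoin A
        ({bgJ E (M * q * q)} : Set (modularFunctionFieldFullC E (M * q * q)))) x) :
    ∀ i (x : modularFunctionFieldFullC E (M * q * q)),
      x ∈ s36n2V hB hB' ψ ιC hq hqM h z hz i →
      ∃ b s : modularFunctionFieldFullC E (M * q * q),
        IsIntegral ↥(Algebra.adjoin A
          ({(bgJ E (M * q * q))⁻¹} : Set (modularFunctionFieldFullC E (M * q * q)))) b ∧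
        IsIntegral ↥(Algebra.adjoin A
          ({(bgJ E (M * q * q))⁻¹} : Set (modularFunctionFieldFullC E (M * q * q)))) s ∧
        s ∉ (s36n2V hB hB' ψ ιC hq hqM h z hz i).nonunits ∧ s * x = b := by
  haveI : FiniteDimensional E⟮bgJ E (M * q * q)⟯ (modularFunctionFieldFullC E (M * q * q)) :=
    bgFin_finiteDimensional_full E (M * q * q)
  haveI : FiniteDimensional E⟮(bgJ E (M * q * q))⁻¹⟯
      (modularFunctionFieldFullC E (M * q * q)) :=
    at_finiteDimensional_inv (bgJ E (M * q * q))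
  have ht := bgConst_transcendental_bgJ E (M * q * q)
  exact s36n2l_hVloc_all (zch_transcendental_inv ht) hπ
    (s36n2V hB hB' ψ ιC hq hqM h z hz) (s36n2l_hBV₂ hB hB' ψ ιC hq hqM h z hz hc)
    (aq_KR_inv hπ ht (s36n2V hB hB' ψ ιC hq hqM h z hz)
      (s36n2l_hBV₁ hB hB' ψ ιC hq hqM h z hz hc) hKR)
    (s36n2l_harch hB hB' ψ ιC hq hqM h z hz)
    (s36n2l_hprim₂ hB hB' ψ ιC hq hqM h z hz hc)
    (s36n2l_hz₂ hB hB' ψ ιC hq hqM h z hz hc hz1)

end Final

end Fermat.Agent.S36
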