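import Fermat.Agent.S36.CuspMidFormal
import Fermat.Agent.S36.MidTheta
import Fermat.Agent.S36.N2LocMain

/-!
# S36 (I6): cusp points of `C_c` — the REDUCTION at `V_c` (helper58)

Setting of `S36/N2LocElts.lean`, `section Table`: an embedding `e : F_{Mq²}(E₀) → E((Q))` with
`e j = j`, `e j_qq = j(zQ)` for a primitive `q`-th root of unity `z` of `A` reducing to `1`,
`V = vtSub hB e hfrac`.

`X := j / j_qq − 1`, `U := X ^ (q − 1) / q`, `b := j⁻¹`,
`S := (1 − b ^ (q² − 1))² · b ^ (m − d)`, `G := − (reflect m N_ℤ)(b)`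
(`m = natDegree N`, `d = 2 q² + q − 1`).

* `S36cmRed V ρ x y` : `x ∈ V` and `ρ x = y`; calculus;
* `s36cm_red_J`, `s36cm_red_Jqq`, `s36cm_red_Jinv`, `s36cm_red_Jqq_inv`;
* `s36cm_red_U`  : `U ∈ V` and `ρ U = − (θ j̄)^{q−1} · (j̄⁻¹)^{q−1}`;
* **`s36cm_cong`** : `U ∈ V` and `U · S − G ∈ 𝔪(V)`.
-/

set_option autoImplicit false
set_option linter.unusedSectionVars false
set_option linter.unusedVariables false
set_option linter.style.haveILetI false

noncomputable section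

namespace Fermat.Agent.S36

open Polynomial ModularCurve
open Fermat.Agent.S28 Fermat.Agent.S28.Deriv Fermat.Agent.UNIP Fermat.Agent.INJ Fermat.Agent.ES
open Fermat.Agent.AL

/-! ### the calculus of reductions -/

section Calc

variable {F K : Type*} [Field F] [Field K] (V : ValuationSubring F) (ρ : ↥V →+* K)

/-- `x ∈ V` and `ρ x = y` -/
def S36cmRed (x : F) (y : K) : Prop := ∃ hx : x ∈ V, ρ ⟨x, hx⟩ = y

variable {V ρ}

theorem S36cmRed.mem {x : F} {y : K} (h : S36cmRed V ρ x y) : x ∈ V := h.1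

theorem S36cmRed.zero : S36cmRed V ρ 0 0 := ⟨V.zero_mem, map_zero ρ⟩

theorem S36cmRed.one : S36cmRed V ρ 1 1 := ⟨V.one_mem, map_one ρ⟩

theorem S36cmRed.mul {x x' : F} {y y' : K} (h : S36cmRed V ρ x y) (h' : S36cmRed V ρ x' y') :
    S36cmRed V ρ (x * x') (y * y') := by
  obtain ⟨hx, rfl⟩ := h
  obtain ⟨hx', rfl⟩ := h'
  exact ⟨V.mul_mem _ _ hx hx', map_mul ρ ⟨x, hx⟩ ⟨x', hx'⟩⟩

theorem S36cmRed.add {x x' : F} {y y' : K} (h : S36cmRed V ρ x y) (h' : S36cmRed V ρ x' y') :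
    S36cmRed V ρ (x + x') (y + y') := by
  obtain ⟨hx, rfl⟩ := h
  obtain ⟨hx', rfl⟩ := h'
  exact ⟨V.add_mem _ _ hx hx', map_add ρ ⟨x, hx⟩ ⟨x', hx'⟩⟩

theorem S36cmRed.neg {x : F} {y : K} (h : S36cmRed V ρ x y) : S36cmRed V ρ (-x) (-y) := by
  obtain ⟨hx, rfl⟩ := h
  exact ⟨V.neg_mem _ hx, map_neg ρ ⟨x, hx⟩⟩

theorem S36cmRed.sub {x x' : F} {y y' : K} (h : S36cmRed V ρ x y) (h' : S36cmRed V ρ x' y') :
    S36cmRed V ρ (x - x') (y - y') := by
  rw [sub_eq_add_neg, sub_eq_add_neg]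
  exact h.add h'.neg

theorem S36cmRed.pow {x : F} {y : K} (h : S36cmRed V ρ x y) (n : ℕ) :
    S36cmRed V ρ (x ^ n) (y ^ n) := by
  induction n with
  | zero => rw [pow_zero, pow_zero]; exact S36cmRed.one
  | succ n ih => rw [pow_succ, pow_succ]; exact ih.mul h

theorem S36cmRed.intCast (n : ℤ) : S36cmRed V ρ (n : F) (n : K) :=
  ⟨intCast_mem V.toSubring n, by
    have : (⟨(n : F), intCast_mem V.toSubring n⟩ : ↥V) = ((n : ℤ) : ↥V) := Subtype.ext (by simp)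
    rw [this, map_intCast]⟩

theorem S36cmRed.congr {x x' : F} {y y' : K} (h : S36cmRed V ρ x y) (hx : x = x')
    (hy : y = y') : S36cmRed V ρ x' y' := by
  subst hx; subst hy; exact h

theorem s36cm_evalInt_monomial {R : Type*} [CommRing R] (w : R) (n : ℕ) (a : ℤ) :
    Fermat.Agent.S28.evalInt w (Polynomial.monomial n a) = (a : R) * w ^ n := by
  show Polynomial.eval₂ (Int.castRingHom R) w (Polynomial.monomial n a) = _
  rw [Polynomial.eval₂_monomial, eq_intCast]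

/-- values of integral polynomials -/
theorem S36cmRed.evalInt {x : F} {y : K} (h : S36cmRed V ρ x y) (P : Polynomial ℤ) :
    S36cmRed V ρ (evalInt x P) (evalInt y P) := by
  induction P using Polynomial.induction_on' with
  | add p p' hp hp' =>
    rw [map_add, map_add]
    exact hp.add hp'
  | monomial n a =>
    rw [s36cm_evalInt_monomial, s36cm_evalInt_monomial]
    exact (S36cmRed.intCast a).mul (h.pow n)

/-- inverses of units -/
theorem S36cmRed.inv (hρ : ∀ x : ↥V, (x : F) ∈ V.nonunits → ρ x = 0) {x : F} {y : K}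
    (h : S36cmRed V ρ x y) (hy : y ≠ 0) : S36cmRed V ρ x⁻¹ y⁻¹ := by
  obtain ⟨hx, rfl⟩ := h
  have hnu : x ∉ V.nonunits := fun hn => hy (hρ ⟨x, hx⟩ hn)
  have hv : V.valuation x = 1 := by
    rw [ValuationSubring.mem_nonunits_iff, not_lt] at hnu
    exact le_antisymm ((V.valuation_le_one_iff x).mpr hx) hnu
  have hx0 : x ≠ 0 := by
    rintro rfl
    rw [map_zero] at hv
    exact zero_ne_one hv
  have hx' : x⁻¹ ∈ V := by
    rw [← V.valuation_le_one_iff, map_inv₀, hv, inv_one]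
  exact ⟨hx', s36n2l_red_inv V ρ hx hx' hx0⟩

/-- the kernel -/
theorem S36cmRed.mem_nonunits (hρ : ∀ x : ↥V, ρ x = 0 → (x : F) ∈ V.nonunits) {x : F}
    (h : S36cmRed V ρ x 0) : x ∈ V.nonunits := by
  obtain ⟨hx, h0⟩ := h
  exact hρ ⟨x, hx⟩ h0

end Calc

/-! ### the reductions at `V_c` -/

section Red

variable {A E₀ E k : Type*} [CommRing A] [IsDomain A] [Field E₀] [Field E] [Field k]
  {ι : A →+* E} {r : A →+* k} {π : A} {M q : ℕ} [NeZero M] [NeZero q] [NeZero (M * q)]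
  [NeZero (M * q * q)]
  (hB : VtBase ι r π) (e : modularFunctionFieldFullC E₀ (M * q * q) →+* LaurentSeries E)
  (hfrac : ∀ x : modularFunctionFieldFullC E₀ (M * q * q), VtFrac ι (e x))

/-- the reduction of an element whose expansion is a series over `A` -/
theorem s36cm_red_of_coeffMap {x : modularFunctionFieldFullC E₀ (M * q * q)}
    {T : LaurentSeries A} (hx : e x = coeffMap ι T) :
    S36cmRed (vtSub hB e hfrac) (vtSubRed hB e hfrac) x (coeffMap r T) :=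
  ⟨s36n2l_mem_of_coeffMap hB e hfrac hx, s36n2l_red_of_coeffMap hB e hfrac hx _⟩

theorem s36cm_red_ker (x : ↥(vtSub hB e hfrac))
    (hx : (x : modularFunctionFieldFullC E₀ (M * q * q)) ∈ (vtSub hB e hfrac).nonunits) :
    vtSubRed hB e hfrac x = 0 :=
  (vtSubRed_eq_zero_iff hB e hfrac x).mpr hx

variable [hqF : Fact q.Prime] [CharP k q]
  (z : Aˣ) (hzp : IsPrimitiveRoot (z : A) q) (hz : r z = 1) (hq0 : (q : A) ≠ 0)
  (h₀ : e (s36n2lJ E₀ M q) = jqModC E)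
  (h₂ : e (s36n2lJqq E₀ M q) = kronRot (Units.map (ι : A →* E) z) (jqModC E))

include h₀ in
/-- `j ↦ j̄` -/
theorem s36cm_red_J :
    S36cmRed (vtSub hB e hfrac) (vtSubRed hB e hfrac) (s36n2lJ E₀ M q) (jqModC k) := by
  have h := s36cm_red_of_coeffMap hB e hfrac (x := s36n2lJ E₀ M q) (T := jqModC A)
    (by rw [h₀, coeffMap_jqModC])
  rwa [coeffMap_jqModC] at h

include hz h₂ in
/-- `j_qq ↦ j̄` -/
theorem s36cm_red_Jqq :
    S36cmRed (vtSub hB e hfrac) (vtSubRed hB e hfrac) (s36n2lJqq E₀ M q) (jqModC k) := by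
  have hz1 : Units.map (r : A →* k) z = 1 := Units.ext hz
  have h := s36cm_red_of_coeffMap hB e hfrac (x := s36n2lJqq E₀ M q)
    (T := kronRot z (jqModC A)) (by rw [h₂, coeffMap_kronRot, coeffMap_jqModC])
  rwa [coeffMap_kronRot, coeffMap_jqModC, hz1, kronRot_one] at h

include h₀ in
/-- `j⁻¹ ↦ j̄⁻¹` -/
theorem s36cm_red_Jinv :
    S36cmRed (vtSub hB e hfrac) (vtSubRed hB e hfrac) (s36n2lJ E₀ M q)⁻¹ (jqModC k)⁻¹ :=
  (s36cm_red_J hB e hfrac h₀).inv (s36cm_red_ker hB e hfrac)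
    (jqModC_ne_zero_of_nontrivial k)

include hz h₂ in
/-- `j_qq⁻¹ ↦ j̄⁻¹` -/
theorem s36cm_red_Jqq_inv :
    S36cmRed (vtSub hB e hfrac) (vtSubRed hB e hfrac) (s36n2lJqq E₀ M q)⁻¹ (jqModC k)⁻¹ :=
  (s36cm_red_Jqq hB e hfrac z hz h₂).inv (s36cm_red_ker hB e hfrac)
    (jqModC_ne_zero_of_nontrivial k)

include hzp hz hq0 h₀ h₂ in
/-- `(j_qq − j) ^ (q − 1) / q ↦ − (θ j̄) ^ (q − 1)` -/
theorem s36cm_red_W :
    S36cmRed (vtSub hB e hfrac) (vtSubRed hB e hfrac)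
      ((s36n2lJqq E₀ M q - s36n2lJ E₀ M q) ^ (q - 1) /
        ((q : ℕ) : modularFunctionFieldFullC E₀ (M * q * q)))
      (-(thetaFun (jqModC k)) ^ (q - 1)) := by
  have hx : e (s36n2lJqq E₀ M q - s36n2lJ E₀ M q) =
      kronRot (Units.map (ι : A →* E) z) (coeffMap ι (jqModC A)) - coeffMap ι (jqModC A) := by
    rw [map_sub, h₀, h₂, coeffMap_jqModC]
  have hc : e ((q : ℕ) : modularFunctionFieldFullC E₀ (M * q * q)) =
      HahnSeries.C (ι ((q : ℕ) : A)) := by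
    rw [map_natCast, map_natCast, map_natCast]
  obtain ⟨hmem, hred⟩ := s36th_pow_div_mem hB e hqF.out hzp hz hx hc hq0
  refine ⟨hmem, ?_⟩
  rw [vtSubRed_apply]
  rw [coeffMap_jqModC] at hred
  exact hred

include hzp hz hq0 h₀ h₂ in
/-- **`U = (j / j_qq − 1) ^ (q − 1) / q ↦ − (θ j̄) ^ (q − 1) · (j̄⁻¹) ^ (q − 1)`** -/
theorem s36cm_red_U :
    S36cmRed (vtSub hB e hfrac) (vtSubRed hB e hfrac)
      ((s36n2lJ E₀ M q * (s36n2lJqq E₀ M q)⁻¹ - 1) ^ (q - 1) /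
        ((q : ℕ) : modularFunctionFieldFullC E₀ (M * q * q)))
      (-(thetaFun (jqModC k)) ^ (q - 1) * (jqModC k)⁻¹ ^ (q - 1)) := by
  have hW := s36cm_red_W hB e hfrac z hzp hz hq0 h₀ h₂
  have hI := s36cm_red_Jqq_inv hB e hfrac z hz h₂
  have hJqq0 : s36n2lJqq E₀ M q ≠ 0 := by
    intro h0
    have h1 := (s36cm_red_Jqq hB e hfrac z hz h₂)
    obtain ⟨hx, hr⟩ := h1
    have : (⟨s36n2lJqq E₀ M q, hx⟩ : ↥(vtSub hB e hfrac)) = 0 := Subtype.ext h0
    rw [this, map_zero] at hr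
    exact jqModC_ne_zero_of_nontrivial k hr.symm
  have hm1 : S36cmRed (vtSub hB e hfrac) (vtSubRed hB e hfrac)
      ((-1 : modularFunctionFieldFullC E₀ (M * q * q)) ^ (q - 1))
      ((-1 : LaurentSeries k) ^ (q - 1)) :=
    (S36cmRed.one.neg).pow _
  have hq0k : ((q : ℕ) : LaurentSeries k) = 0 := by
    have : ((q : ℕ) : k) = 0 := CharP.cast_eq_zero k q
    rw [← map_natCast (HahnSeries.C : k →+* LaurentSeries k), this, map_zero]
  have h := (hm1.mul hW).mul (hI.pow (q - 1))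
  refine h.congr ?_ ?_
  · have e1 : s36n2lJ E₀ M q * (s36n2lJqq E₀ M q)⁻¹ - 1 =
        (-1) * ((s36n2lJqq E₀ M q - s36n2lJ E₀ M q) * (s36n2lJqq E₀ M q)⁻¹) := by
      field_simp
      ring
    rw [e1, mul_pow, mul_pow]
    ring
  · rw [s36th_neg_one_pow hqF.out hq0k, one_mul]

/-- `evalInt` in a `k`-algebra -/
theorem s36cm_evalInt_eq_aeval {L : Type*} [CommRing L] [Algebra k L] (y : L)
    (P : Polynomial ℤ) :
    Fermat.Agent.S28.evalInt y P = aeval y (P.map (Int.castRingHom k)) := by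
  show Polynomial.eval₂ (Int.castRingHom L) y P = _
  rw [aeval_def, Polynomial.eval₂_map]
  congr 1
  exact RingHom.ext_int _ _

include hzp hz hq0 h₀ h₂ in
/-- **the congruence** `U · S ≡ G` modulo `𝔪(V_c)` -/
theorem s36cm_cong :
    (s36n2lJ E₀ M q * (s36n2lJqq E₀ M q)⁻¹ - 1) ^ (q - 1) /
          ((q : ℕ) : modularFunctionFieldFullC E₀ (M * q * q)) *
        ((1 - (s36n2lJ E₀ M q)⁻¹ ^ (q ^ 2 - 1)) ^ 2 *
          (s36n2lJ E₀ M q)⁻¹ ^ ((s36tkN q k).natDegree - (2 * q ^ 2 + (q - 1)))) -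
      -(Fermat.Agent.S28.evalInt (s36n2lJ E₀ M q)⁻¹
          (reflect (s36tkN q k).natDegree (s36cmNZ q))) ∈
      (vtSub hB e hfrac).nonunits := by
  have hU := s36cm_red_U hB e hfrac z hzp hz hq0 h₀ h₂
  have hb := s36cm_red_Jinv hB e hfrac h₀
  have hS := ((S36cmRed.one.sub (hb.pow (q ^ 2 - 1))).pow 2).mul
    (hb.pow ((s36tkN q k).natDegree - (2 * q ^ 2 + (q - 1))))
  have hG := (hb.evalInt (reflect (s36tkN q k).natDegree (s36cmNZ q))).neg
  have h := (hU.mul hS).sub hG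
  refine S36cmRed.mem_nonunits (fun x hx => (vtSubRed_eq_zero_iff hB e hfrac x).mp hx)
    (h.congr rfl ?_)
  rw [s36cm_evalInt_eq_aeval (k := k), ← Polynomial.reflect_map, s36cmNZ_map,
    ← s36cm_formal q k]
  ring

include h₀ in
/-- `u = j_q / j ^ q ≡ 1` modulo `𝔪(V_c)` -/
theorem s36cm_u_sub_one (h₁ : e (s36n2lJq E₀ M q) = qExpand E q (jqModC E)) :
    s36n2lJq E₀ M q * (s36n2lJ E₀ M q)⁻¹ ^ q - 1 ∈ (vtSub hB e hfrac).nonunits := by
  have hJq : S36cmRed (vtSub hB e hfrac) (vtSubRed hB e hfrac) (s36n2lJq E₀ M q)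
      (jqModC k ^ q) := by
    have h := s36cm_red_of_coeffMap hB e hfrac (x := s36n2lJq E₀ M q)
      (T := qExpand A q (jqModC A)) (by rw [h₁, coeffMap_qExpand, coeffMap_jqModC])
    rwa [coeffMap_qExpand, coeffMap_jqModC, s36n2l_red_q k q] at h
  have hb := s36cm_red_Jinv hB e hfrac h₀
  have h := (hJq.mul (hb.pow q)).sub S36cmRed.one
  refine S36cmRed.mem_nonunits (fun x hx => (vtSubRed_eq_zero_iff hB e hfrac x).mp hx)
    (h.congr rfl ?_)
  have hj0 : jqModC k ≠ 0 := jqModC_ne_zero_of_nontrivial k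
  rw [← mul_pow, mul_inv_cancel₀ hj0, one_pow, sub_self]

/-- `q` does not divide the constant term of the reflected `N_ℤ` -/
theorem s36cm_not_dvd (k : Type*) [Field k] [CharP k q] :
    ¬ ((q : ℕ) : ℤ) ∣ (reflect (s36tkN q k).natDegree (s36cmNZ q)).coeff 0 := by
  rintro ⟨c, hc⟩
  have h1 := s36cm_reflect_coeff_zero q k
  apply h1
  rw [← s36cmNZ_map q k, Polynomial.reflect_map, Polynomial.coeff_map, s36cmNZ_map q k, hc]
  rw [map_mul, map_natCast, CharP.cast_eq_zero k q, zero_mul]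

end Red

end Fermat.Agent.S36

end
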