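import Mathlib
import Fermat.Prelude.Def_ModularCurve_LaurentCoeff

/-!
# S36 geometry, piece G-desc (abstract part)

* `s36d_fixed_mem` : abstract fixed-field lemma.  `L` a field of characteristic `0`, `act` a finite
  family of ring endomorphisms of `L` closed under composition (up to a permutation of the
  index set), `F₀, C` subfields of `L`, `F₀` fixed pointwise, `C` stable and algebraic over `F₀`,
  the fixed elements of `C` lie in `F₀`.  Then every fixed element of the field generated by
  `F₀` and `C` lies in `F₀`.
* `s36d_order_coeffMap`, `s36d_leadingCoeff_coeffMap` : `coeffMap f` (`f` injective) preserves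
  the order and maps the leading coefficient.
* `s36d_monic_root_unique` : two Laurent series with the same `m`-th power and the same leading
  coefficient are equal (`m ≠ 0` in the field).
-/

set_option autoImplicit false
set_option linter.unusedSectionVars false

open ModularCurve

namespace Fermat.Agent.S36

section FixedField

variable {L : Type*} [Field L] [CharZero L] {H : Type*} [Fintype H] [Nonempty H]

/-- the sum of the conjugates -/
noncomputable def s36dTr (act : H → L →+* L) : L →+ L :=
  ∑ s : H, (act s : L →+ L)

theorem s36dTr_apply (act : H → L →+* L) (x : L) : s36dTr act x = ∑ s : H, act s x := by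
  simp [s36dTr]

theorem s36d_act_tr (act : H → L →+* L)
    (hperm : ∀ t : H, ∃ e : H ≃ H, ∀ s x, act t (act s x) = act (e s) x) (t : H) (x : L) :
    act t (s36dTr act x) = s36dTr act x := by
  obtain ⟨e, he⟩ := hperm t
  rw [s36dTr_apply, map_sum]
  simp_rw [he]
  exact Equiv.sum_comp e (fun s => act s x)

/-- **abstract fixed-field lemma** -/
theorem s36d_fixed_mem (act : H → L →+* L)
    (hperm : ∀ t : H, ∃ e : H ≃ H, ∀ s x, act t (act s x) = act (e s) x)
    (F₀ C : Subfield L)
    (hF : ∀ s, ∀ y ∈ F₀, act s y = y)
    (hC : ∀ s, ∀ c ∈ C, act s c ∈ C)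
    (hCH : ∀ c ∈ C, (∀ s, act s c = c) → c ∈ F₀)
    (halg : ∀ c ∈ C, IsIntegral F₀ c)
    (x : L) (hx : x ∈ Subfield.closure ((F₀ : Set L) ∪ (C : Set L)))
    (hfix : ∀ s, act s x = x) : x ∈ F₀ := by
  classical
  -- Step 1: `x` lies in the subalgebra generated by `C` over `F₀`
  set S : Subalgebra F₀ L := Algebra.adjoin F₀ (C : Set L) with hS
  have hint : ∀ y ∈ S, IsIntegral F₀ y := by
    intro y hy
    have hle : S ≤ integralClosure F₀ L := Algebra.adjoin_le (fun c hc => halg c hc)
    exact hle hy
  have hclos : ∀ y, y ∈ Subfield.closure ((F₀ : Set L) ∪ (C : Set L)) → y ∈ S := by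
    intro y hy
    induction hy using Subfield.closure_induction with
    | mem y hy =>
        rcases hy with hy | hy
        · exact S.algebraMap_mem ⟨y, hy⟩
        · exact Algebra.subset_adjoin hy
    | one => exact one_mem S
    | add x y _ _ hx hy => exact add_mem hx hy
    | neg x _ hx => exact neg_mem hx
    | inv x _ hx =>
        exact Subalgebra.inv_mem_of_algebraic (x := ⟨x, hx⟩) S (hint x hx).isAlgebraic
    | mul x y _ _ hx hy => exact mul_mem hx hy
  have hxS : x ∈ S := hclos x hx
  -- Step 2: `S` is the `F₀`-span of `C`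
  have hspan : x ∈ Submodule.span F₀ (C : Set L) := by
    have h1 : (S : Set L) = Submodule.span F₀ (Submonoid.closure (C : Set L) : Set L) := by
      have := Algebra.adjoin_eq_span (R := F₀) (s := (C : Set L))
      rw [hS]
      exact congrArg (fun M : Submodule F₀ L => (M : Set L)) this
    have h2 : (Submonoid.closure (C : Set L) : Set L) = (C : Set L) := by
      have : Submonoid.closure (C : Set L) = C.toSubmonoid :=
        Submonoid.closure_eq C.toSubmonoid
      rw [this]; rfl
    rw [h2] at h1
    have : x ∈ (S : Set L) := hxS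
    rw [h1] at this
    exact this
  -- Step 3: the trace of an element of the span lies in `F₀`
  have htr : ∀ y ∈ Submodule.span F₀ (C : Set L), s36dTr act y ∈ F₀ := by
    intro y hy
    induction hy using Submodule.span_induction with
    | mem c hc =>
        apply hCH
        · rw [s36dTr_apply]
          exact sum_mem (fun s _ => hC s c hc)
        · intro t
          exact s36d_act_tr act hperm t c
    | zero => simp
    | add a b _ _ ha hb => rw [map_add]; exact add_mem ha hb
    | smul r a _ ha =>
        have : s36dTr act (r • a) = (r : L) * s36dTr act a := by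
          rw [s36dTr_apply, s36dTr_apply, Finset.mul_sum]
          refine Finset.sum_congr rfl (fun s _ => ?_)
          rw [Algebra.smul_def, map_mul]
          congr 1
          exact hF s _ r.2
        rw [this]
        exact mul_mem r.2 ha
  have h1 : s36dTr act x = (Fintype.card H : L) * x := by
    rw [s36dTr_apply]
    simp [hfix, Finset.sum_const, Finset.card_univ, nsmul_eq_mul]
  have h2 := htr x hspan
  rw [h1] at h2
  have hcard : (Fintype.card H : L) ≠ 0 := by
    exact_mod_cast Fintype.card_ne_zero
  have h3 : (Fintype.card H : L) ∈ F₀ := natCast_mem F₀ _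
  have : x = (Fintype.card H : L)⁻¹ * ((Fintype.card H : L) * x) := by
    field_simp
  rw [this]
  exact mul_mem (inv_mem h3) h2

end FixedField

section Laurent

variable {K K' : Type*} [Field K] [Field K']

theorem s36d_coeffMap_eq_zero_iff (f : K →+* K') (x : LaurentSeries K) :
    coeffMap f x = 0 ↔ x = 0 := by
  constructor
  · intro h
    ext n
    have := congrArg (fun z : LaurentSeries K' => z.coeff n) h
    simp only [coeffMap_coeff, HahnSeries.coeff_zero] at this
    simpa using (map_eq_zero f).mp this
  · rintro rfl
    exact map_zero _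

theorem s36d_order_coeffMap (f : K →+* K') (x : LaurentSeries K) :
    (coeffMap f x).order = x.order := by
  by_cases hx : x = 0
  · subst hx; simp
  have hx' : coeffMap f x ≠ 0 := fun h => hx ((s36d_coeffMap_eq_zero_iff f x).mp h)
  apply le_antisymm
  · apply HahnSeries.order_le_of_coeff_ne_zero
    rw [coeffMap_coeff]
    intro h
    exact (HahnSeries.coeff_order_eq_zero.not.mpr hx) ((map_eq_zero f).mp h)
  · apply HahnSeries.order_le_of_coeff_ne_zero
    intro h
    have h2 : (coeffMap f x).coeff (coeffMap f x).order = 0 := by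
      rw [coeffMap_coeff, h, map_zero]
    exact (HahnSeries.coeff_order_eq_zero.not.mpr hx') h2

theorem s36d_leadingCoeff_coeffMap (f : K →+* K') (x : LaurentSeries K) :
    (coeffMap f x).leadingCoeff = f x.leadingCoeff := by
  rw [HahnSeries.leadingCoeff_eq, HahnSeries.leadingCoeff_eq, s36d_order_coeffMap, coeffMap_coeff]

/-- a Laurent series of order `0` with leading coefficient `1` -/
def S36Monic (z : LaurentSeries K) : Prop := z.order = 0 ∧ z.leadingCoeff = 1

theorem S36Monic.ne_zero {z : LaurentSeries K} (h : S36Monic z) : z ≠ 0 := by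
  intro h0
  have := h.2
  rw [h0, HahnSeries.leadingCoeff_zero] at this
  exact zero_ne_one this

theorem S36Monic.coeff_zero {z : LaurentSeries K} (h : S36Monic z) : z.coeff 0 = 1 := by
  have := h.2
  rwa [HahnSeries.leadingCoeff_eq, h.1] at this

theorem s36Monic_one : S36Monic (1 : LaurentSeries K) :=
  ⟨HahnSeries.order_one, HahnSeries.leadingCoeff_one⟩

theorem S36Monic.mul {x y : LaurentSeries K} (hx : S36Monic x) (hy : S36Monic y) :
    S36Monic (x * y) := by
  refine ⟨?_, ?_⟩
  · rw [HahnSeries.order_mul hx.ne_zero hy.ne_zero, hx.1, hy.1, add_zero]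
  · rw [HahnSeries.leadingCoeff_mul, hx.2, hy.2, one_mul]

theorem S36Monic.pow {x : LaurentSeries K} (hx : S36Monic x) (n : ℕ) : S36Monic (x ^ n) := by
  induction n with
  | zero => simpa using s36Monic_one
  | succ n ih => rw [pow_succ]; exact ih.mul hx

theorem S36Monic.inv {x : LaurentSeries K} (hx : S36Monic x) : S36Monic x⁻¹ := by
  have hne := hx.ne_zero
  have hinv : x⁻¹ ≠ 0 := inv_ne_zero hne
  have h1 : (x * x⁻¹).order = 0 := by rw [mul_inv_cancel₀ hne]; exact HahnSeries.order_one
  rw [HahnSeries.order_mul hne hinv, hx.1, zero_add] at h1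
  have h2 : (x * x⁻¹).leadingCoeff = 1 := by
    rw [mul_inv_cancel₀ hne]; exact HahnSeries.leadingCoeff_one
  rw [HahnSeries.leadingCoeff_mul, hx.2, one_mul] at h2
  exact ⟨h1, h2⟩

theorem S36Monic.div {x y : LaurentSeries K} (hx : S36Monic x) (hy : S36Monic y) :
    S36Monic (x / y) := by
  rw [div_eq_mul_inv]; exact hx.mul hy.inv

theorem S36Monic.coeffMap (f : K →+* K') {x : LaurentSeries K} (hx : S36Monic x) :
    S36Monic (coeffMap f x) := by
  refine ⟨?_, ?_⟩
  · rw [s36d_order_coeffMap, hx.1]
  · rw [s36d_leadingCoeff_coeffMap, hx.2, map_one]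

/-- a monic root of unity is `1` -/
theorem S36Monic.eq_one_of_pow {z : LaurentSeries K} (hz : S36Monic z) {m : ℕ}
    (hm : (m : K) ≠ 0) (h : z ^ m = 1) : z = 1 := by
  by_contra hne
  have hgeom : (z - 1) * ∑ i ∈ Finset.range m, z ^ i = 0 := by
    rw [mul_comm, geom_sum_mul, h, sub_self]
  have hsum : ∑ i ∈ Finset.range m, z ^ i = 0 := by
    rcases mul_eq_zero.mp hgeom with h1 | h1
    · exact absurd (sub_eq_zero.mp h1) hne
    · exact h1
  have hc : (∑ i ∈ Finset.range m, z ^ i).coeff 0 = (m : K) := by
    have hmap : (∑ i ∈ Finset.range m, z ^ i).coeff 0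
        = ∑ i ∈ Finset.range m, (z ^ i).coeff 0 := by
      induction (Finset.range m) using Finset.induction_on with
      | empty => simp
      | insert a s ha ih =>
          rw [Finset.sum_insert ha, Finset.sum_insert ha, HahnSeries.coeff_add, ih]
    rw [hmap]
    have : ∀ i ∈ Finset.range m, (z ^ i).coeff 0 = 1 := fun i _ => (hz.pow i).coeff_zero
    rw [Finset.sum_congr rfl this]
    simp
  rw [hsum, HahnSeries.coeff_zero] at hc
  exact hm hc.symm

/-- two monic Laurent series with the same `m`-th power are equal -/
theorem s36d_monic_root_unique {x y : LaurentSeries K} (hx : S36Monic x) (hy : S36Monic y)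
    {m : ℕ} (hm : (m : K) ≠ 0) (h : x ^ m = y ^ m) : x = y := by
  have hz : S36Monic (x / y) := hx.div hy
  have h1 : (x / y) ^ m = 1 := by
    rw [div_pow, h, div_self (pow_ne_zero _ hy.ne_zero)]
  have := hz.eq_one_of_pow hm h1
  exact (div_eq_one_iff_eq hy.ne_zero).mp this

/-- the monic normalisation `x / lc(x) / Q^{ord x}` is not available in `F_N`; we only divide
by the leading coefficient: `x / C (lc x)` has leading coefficient `1`. -/
theorem s36d_leadingCoeff_div_C {x : LaurentSeries K} (hx : x ≠ 0) :
    (x / HahnSeries.C x.leadingCoeff).leadingCoeff = 1 := by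
  have hl : x.leadingCoeff ≠ 0 := HahnSeries.leadingCoeff_ne_zero.mpr hx
  have hC : (HahnSeries.C x.leadingCoeff : LaurentSeries K) ≠ 0 := by
    intro h
    have := congrArg HahnSeries.leadingCoeff h
    rw [HahnSeries.leadingCoeff_zero] at this
    have h2 : (HahnSeries.C x.leadingCoeff : LaurentSeries K).leadingCoeff = x.leadingCoeff := by
      show (HahnSeries.single 0 x.leadingCoeff).leadingCoeff = _
      exact HahnSeries.leadingCoeff_of_single
    rw [h2] at this
    exact hl this
  have h2 : (HahnSeries.C x.leadingCoeff : LaurentSeries K).leadingCoeff = x.leadingCoeff := by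
    show (HahnSeries.single 0 x.leadingCoeff).leadingCoeff = _
    exact HahnSeries.leadingCoeff_of_single
  have h3 : (x / HahnSeries.C x.leadingCoeff * HahnSeries.C x.leadingCoeff).leadingCoeff
      = x.leadingCoeff := by
    rw [div_mul_cancel₀ _ hC]
  rw [HahnSeries.leadingCoeff_mul, h2] at h3
  exact mul_right_cancel₀ hl (by rw [h3, one_mul])

end Laurent

end Fermat.Agent.S36
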