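import Fermat.Agent.S36.Plan
import Fermat.Agent.STB.NormSquare
import Fermat.Agent.UNIP.MGConcrete

/-!
# S36 geometry (G36-K): the interface of the assembly (deputy helper58)

Level convention of `NOTES/S36-N2.md`: `q` prime, `q ∤ M`,
`F″ = F_M(K)`, `F′ = F_{Mq}(K)`, `F = F_{Mqq}(K)` (`modularFunctionFieldFullC K _ ⊂ K((Q))`).

* `s36Alpha K M q`, `s36Beta K M q : F′ →+* F` : the two degeneracy maps over ANY field `K`
  (`α` = inclusion, `β = qExpand K q`); norms are `STB.stbNorm (s36Alpha K M q)`,
  `STB.stbNorm (s36Beta K M q)`.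
* `StmtCarayolSmallAt M q p A` : **(G36-K) over the small field** `E₀ = beta0Field A = ℚ̄^I`:
  a function `u ∈ F_{Mqq}(E₀)^×` with divisor in `p^n·Div` whose two norms to `F_{Mq}(E₀)` are
  constants times `p^n`-th powers has `u ^ c` = constant times a `p^n`-th power.
  NO Galois action is left in this statement.
* G-desc (`S36/DescentTop.lean`): `StmtCarayolSmallAt M q p A` for all `A ∣ q` implies
  `StmtCarayolKummerAt (M * q) q p`.
-/

set_option autoImplicit false
set_option linter.unusedSectionVars false

noncomputable section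

namespace Fermat.Agent.S36

open ModularCurve AlgebraicCurve Fermat.Agent.INJ Fermat.Agent.UNIP Fermat.Agent.STB
open Fermat.Agent.ES Fermat.Agent.ES.G2

section Maps

variable (K : Type*) [Field K] (M q : ℕ) [NeZero M] [NeZero q]

/-- `α : F_{Mq}(K) → F_{Mqq}(K)`, the inclusion -/
def s36Alpha : modularFunctionFieldFullC K (M * q) →+* modularFunctionFieldFullC K (M * q * q) :=
  (IntermediateField.inclusion
    (full_degeneracyC_le K (Dvd.intro q rfl : M * q ∣ M * q * q))).toRingHom

/-- `β : F_{Mq}(K) → F_{Mqq}(K)`, `f ↦ f(Q^q)` -/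
def s36Beta : modularFunctionFieldFullC K (M * q) →+* modularFunctionFieldFullC K (M * q * q) where
  toFun x := ⟨qExpand K q (x : LaurentSeries K), full_degeneracyC_map_le K (M * q) q ⟨x, x.2, rfl⟩⟩
  map_one' := Subtype.ext (map_one (qExpand K q))
  map_mul' _ _ := Subtype.ext (map_mul (qExpand K q) _ _)
  map_zero' := Subtype.ext (map_zero (qExpand K q))
  map_add' _ _ := Subtype.ext (map_add (qExpand K q) _ _)

@[simp]
theorem coe_s36Alpha (x : modularFunctionFieldFullC K (M * q)) :
    ((s36Alpha K M q x : modularFunctionFieldFullC K (M * q * q)) : LaurentSeries K)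
      = (x : LaurentSeries K) :=
  IntermediateField.coe_inclusion _ x

@[simp]
theorem coe_s36Beta (x : modularFunctionFieldFullC K (M * q)) :
    ((s36Beta K M q x : modularFunctionFieldFullC K (M * q * q)) : LaurentSeries K)
      = qExpand K q (x : LaurentSeries K) := rfl

end Maps

section Small

variable (M q p : ℕ) [NeZero M] [NeZero q] (A : ValuationSubring Qb)

/-- **(G36-K) over the small field** `E₀ = ℚ̄^I` (`I` the inertia group of `A ∣ q`). -/
def StmtCarayolSmallAt : Prop :=
  ∃ c : ℕ, c ≠ 0 ∧
    ∀ (n : ℕ) (u : modularFunctionFieldFullC (beta0Field A) (M * q * q)), u ≠ 0 →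
      (∀ P : Place (beta0Field A) (modularFunctionFieldFullC (beta0Field A) (M * q * q)),
        ((p ^ n : ℕ) : ℤ) ∣ P.ord u) →
      (∃ (a : beta0Field A) (f : modularFunctionFieldFullC (beta0Field A) (M * q)),
        stbNorm (s36Alpha (beta0Field A) M q) u =
          algebraMap (beta0Field A) (modularFunctionFieldFullC (beta0Field A) (M * q)) a
            * f ^ (p ^ n)) →
      (∃ (a : beta0Field A) (f : modularFunctionFieldFullC (beta0Field A) (M * q)),
        stbNorm (s36Beta (beta0Field A) M q) u =
          algebraMap (beta0Field A) (modularFunctionFieldFullC (beta0Field A) (M * q)) a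
            * f ^ (p ^ n)) →
      ∃ (a : beta0Field A) (h : modularFunctionFieldFullC (beta0Field A) (M * q * q)),
        u ^ c =
          algebraMap (beta0Field A) (modularFunctionFieldFullC (beta0Field A) (M * q * q)) a
            * h ^ (p ^ n)

end Small

end Fermat.Agent.S36
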