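import Fermat.Agent.S36.DescentNormAbs
import Fermat.Agent.S36.PlanGeo
import Fermat.Agent.S36.N2W
import Fermat.Agent.STB.Descent
import Fermat.Agent.STB.PushHeckeDiv
import Fermat.Agent.INJ.NFEmb

/-!
# S36 G-desc-N: the norm squares `E₀ ↔ ℚ̄` at level `M q²`

`q` prime, `q ∤ M`, `F′ = F_{Mq}`, `F = F_{Mqq}`, `α = s36Alpha K M q` (inclusion),
`β = s36Beta K M q` (`f ↦ f(Q^q)`).

* `s36dn_deg_alpha`, `s36dn_finite_alpha` : `[F : αF′] = q` over every field of characteristic `0`;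
* `s36dn_beta_eq_comp`, `s36dn_deg_beta`, `s36dn_finite_beta` : `β = w ∘ α ∘ w′`, `[F : βF′] = q`
  (over a field `K` with an embedding into `ℂ`);
* `s36dn_alpha`, `s36dn_beta` : for `K₀ ≤ ℚ̄`,
  `N_α (nfEmb u) = nfEmb (N_α u)`, `N_β (nfEmb u) = nfEmb (N_β u)`.
-/

set_option autoImplicit false
set_option linter.unusedSectionVars false
set_option linter.style.haveILetI false

noncomputable section

namespace Fermat.Agent.S36

open ModularCurve AlgebraicCurve Fermat.Agent.INJ Fermat.Agent.UNIP Fermat.Agent.STB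
open Fermat.Agent.ES Fermat.Agent.ES.G2 Fermat.Agent.AL

section Deg

variable (K : Type*) [Field K] [CharZero K] (M q : ℕ) [NeZero M] [NeZero q]

/-- **`[F_{Mqq} : F_{Mq}] = q`** along `α`, over every field of characteristic `0`. -/
theorem s36dn_deg_alpha (hq : q.Prime) : stbDeg (s36Alpha K M q) = q := by
  have h := hdeg_finrank_inclusion
    (full_degeneracyC_le K (Dvd.intro q rfl : M * q ∣ M * q * q))
  rw [stbd_relfinrank_fullC K (M * q) q hq (Dvd.intro_left M rfl)] at h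
  exact h

theorem s36dn_finite_alpha (hq : q.Prime) : StbFinite (s36Alpha K M q) := by
  have h := s36dn_deg_alpha K M q hq
  letI := (s36Alpha K M q).toAlgebra
  exact Module.finite_of_finrank_pos (by
    show 0 < stbDeg (s36Alpha K M q)
    rw [h]
    exact hq.pos)

end Deg

section Beta

variable (K : Type*) [Field K] [CharZero K] (ι : K →+* ℂ) {q M : ℕ} [NeZero q] [NeZero M]
  (hq : q.Prime) (hqM : ¬ q ∣ M)

/-- **`β = w ∘ α ∘ w′`** (`w = w_{q²}` at level `M q²`, `w′ = w_q` at level `M q`). -/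
theorem s36dn_beta_eq_comp :
    s36Beta K M q =
      ((s36n2W K ι hq hqM).toRingEquiv :
        modularFunctionFieldFullC K (M * q * q) →+* modularFunctionFieldFullC K (M * q * q)).comp
        ((s36Alpha K M q).comp
          ((atkinLehner K ι hq hqM).toRingEquiv :
            modularFunctionFieldFullC K (M * q) →+* modularFunctionFieldFullC K (M * q))) := by
  apply RingHom.ext
  intro x
  apply Subtype.ext
  have h := s36n2W_alpha K ι hq hqM (atkinLehner K ι hq hqM x).2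
  rw [atkinLehner_invol] at h
  rw [coe_s36Beta]
  exact h.symm

include ι hq hqM in
/-- **`[F_{Mqq} : β F_{Mq}] = q`**. -/
theorem s36dn_deg_beta : stbDeg (s36Beta K M q) = q := by
  rw [s36dn_beta_eq_comp K ι hq hqM, stb_finrank_equiv_comp, stbDeg_comp, stbDeg_equiv, one_mul,
    s36dn_deg_alpha K M q hq]

include ι hq hqM in
theorem s36dn_finite_beta : StbFinite (s36Beta K M q) := by
  have h := s36dn_deg_beta K ι hq hqM
  letI := (s36Beta K M q).toAlgebra
  exact Module.finite_of_finrank_pos (by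
    show 0 < stbDeg (s36Beta K M q)
    rw [h]
    exact hq.pos)

end Beta

section Square

variable (K₀ : IntermediateField ℚ NfQb) {M q : ℕ} [NeZero M] [NeZero q]

/-- an embedding of a subfield of `ℚ̄` into `ℂ` -/
theorem s36dn_exists_emb : Nonempty (↥K₀ →+* ℂ) := by
  haveI : Algebra.IsAlgebraic ℚ (AlgebraicClosure ℚ) := AlgebraicClosure.isAlgebraic ℚ
  exact ⟨((IsAlgClosed.lift : AlgebraicClosure ℚ →ₐ[ℚ] ℂ).toRingHom).comp
    (algebraMap ↥K₀ (AlgebraicClosure ℚ))⟩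

/-- `f ↦ f(Q^n)` commutes with the maps of the coefficients -/
theorem s36dn_coeffMap_qExpand {R S : Type*} [CommRing R] [CommRing S] (f : R →+* S) (n : ℕ)
    [NeZero n] (x : LaurentSeries R) : coeffMap f (qExpand R n x) = qExpand S n (coeffMap f x) := by
  ext k
  by_cases hk : (n : ℤ) ∣ k
  · obtain ⟨m, rfl⟩ := hk
    rw [coeffMap_coeff, qExpand_coeff_mul, qExpand_coeff_mul, coeffMap_coeff]
  · rw [coeffMap_coeff, qExpand_coeff_of_not_dvd n _ hk, qExpand_coeff_of_not_dvd n _ hk,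
      map_zero]

/-- the square of `α` commutes -/
theorem s36dn_sq_alpha (x : modularFunctionFieldFullC K₀ (M * q)) :
    (heckeAlphaBar Qb (M * q) q).toRingHom (nfEmb K₀ (M * q) x) =
      nfEmb K₀ (M * q * q) (s36Alpha K₀ M q x) := by
  apply Subtype.ext
  show ((heckeAlphaBar Qb (M * q) q (nfEmb K₀ (M * q) x) :
      modularFunctionFieldBar (M * q * q)) : LaurentSeries Qb) = _
  rw [coe_heckeAlphaBar, nfEmb_coe, nfEmb_coe, coe_s36Alpha]

/-- the square of `β` commutes -/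
theorem s36dn_sq_beta (x : modularFunctionFieldFullC K₀ (M * q)) :
    (heckeBetaBar Qb (M * q) q).toRingHom (nfEmb K₀ (M * q) x) =
      nfEmb K₀ (M * q * q) (s36Beta K₀ M q x) := by
  apply Subtype.ext
  show ((heckeBetaBar Qb (M * q) q (nfEmb K₀ (M * q) x) :
      modularFunctionFieldBar (M * q * q)) : LaurentSeries Qb) = _
  rw [coe_heckeBetaBar, nfEmb_coe, nfEmb_coe, coe_s36Beta, s36dn_coeffMap_qExpand]

/-- generation: `F_{N}(ℚ̄)` is generated as an ALGEBRA over `φ (F_{N'}(ℚ̄))` by the image of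
`F_N(K₀)`, for every finite `ℚ̄`-embedding `φ`. -/
theorem s36dn_hgen {N' N : ℕ}
    (φ : modularFunctionFieldBar N' →ₐ[Qb] modularFunctionFieldBar N)
    (hfin : StbFinite φ.toRingHom) :
    letI := φ.toRingHom.toAlgebra
    Algebra.adjoin (modularFunctionFieldBar N') (Set.range (nfEmb K₀ N)) = ⊤ :=
  s36dn_adjoin_eq_top_hom (k := Qb) φ.toRingHom (fun c => φ.commutes c) hfin _
    (nfEmb_adjoin_range K₀ N)

variable (hq : q.Prime) (hqM : ¬ q ∣ M)

include hq in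
/-- **Norm square for `α`**, `E₀ ↔ ℚ̄` (any subfield `K₀ ≤ ℚ̄`). -/
theorem s36dn_alpha (u : modularFunctionFieldFullC K₀ (M * q * q)) :
    stbNormAlpha (M * q) q (nfEmb K₀ (M * q * q) u) =
      nfEmb K₀ (M * q) (stbNorm (s36Alpha K₀ M q) u) := by
  have hdeg' : stbDeg (heckeAlphaBar Qb (M * q) q).toRingHom = q :=
    stbd_deg_alpha (M * q) q hq (Dvd.intro_left M rfl)
  have hfin : StbFinite (heckeAlphaBar Qb (M * q) q).toRingHom :=
    H.finiteAlong_heckeAlphaBar (M * q) q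
  exact s36dn_norm_square_hom (s36Alpha K₀ M q) (nfEmb K₀ (M * q))
    (heckeAlphaBar Qb (M * q) q).toRingHom (nfEmb K₀ (M * q * q)) (s36dn_sq_alpha K₀)
    (by rw [s36dn_deg_alpha ↥K₀ M q hq]; exact hq.ne_zero)
    (by rw [hdeg', s36dn_deg_alpha ↥K₀ M q hq])
    (s36dn_hgen K₀ (heckeAlphaBar Qb (M * q) q) hfin) u

include hq hqM in
/-- **Norm square for `β`**, `E₀ ↔ ℚ̄` (any subfield `K₀ ≤ ℚ̄`). -/
theorem s36dn_beta (u : modularFunctionFieldFullC K₀ (M * q * q)) :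
    stbNormBeta (M * q) q (nfEmb K₀ (M * q * q) u) =
      nfEmb K₀ (M * q) (stbNorm (s36Beta K₀ M q) u) := by
  obtain ⟨ι⟩ := s36dn_exists_emb K₀
  have hdeg' : stbDeg (heckeBetaBar Qb (M * q) q).toRingHom = q :=
    stbd_deg_beta (M * q) q hq (Dvd.intro_left M rfl)
  have hfin : StbFinite (heckeBetaBar Qb (M * q) q).toRingHom :=
    H.finiteAlong_heckeBetaBar (M * q) q
  exact s36dn_norm_square_hom (s36Beta K₀ M q) (nfEmb K₀ (M * q))
    (heckeBetaBar Qb (M * q) q).toRingHom (nfEmb K₀ (M * q * q)) (s36dn_sq_beta K₀)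
    (by rw [s36dn_deg_beta ↥K₀ ι hq hqM]; exact hq.ne_zero)
    (by rw [hdeg', s36dn_deg_beta ↥K₀ ι hq hqM])
    (s36dn_hgen K₀ (heckeBetaBar Qb (M * q) q) hfin) u

end Square

section Incl

variable {K₀ K₁ : IntermediateField ℚ NfQb} (h : K₀ ≤ K₁) {M q : ℕ} [NeZero M] [NeZero q]

/-- `F_N(K₁)` is generated over `K₁` by the image of `F_N(K₀)`. -/
theorem s36dn_incl_adjoin_range (N : ℕ) :
    IntermediateField.adjoin ↥K₁ (Set.range (mgaIncl h N)) = ⊤ := by
  apply IntermediateField.lift_injective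
  rw [IntermediateField.lift_top, IntermediateField.lift_adjoin]
  apply le_antisymm
  · rw [IntermediateField.adjoin_le_iff]
    rintro _ ⟨_, ⟨y, rfl⟩, rfl⟩
    exact (mgaIncl h N y).2
  · change IntermediateField.adjoin ↥K₁ (divisorExpansionsC ↥K₁ N) ≤ _
    rw [IntermediateField.adjoin_le_iff]
    rintro _ ⟨d, hd, hdN, rfl⟩
    refine IntermediateField.subset_adjoin ↥K₁ _
      ⟨mgaIncl h N ⟨qExpand ↥K₀ d (jqModC ↥K₀), jqModCd_mem_full ↥K₀ N hdN⟩, ⟨_, rfl⟩, ?_⟩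
    exact coeffMap_jqNModC _ d

/-- the square of `α` commutes (`K₀ ≤ K₁`) -/
theorem s36dn_sq_alpha_incl (x : modularFunctionFieldFullC ↥K₀ (M * q)) :
    s36Alpha ↥K₁ M q (mgaIncl h (M * q) x) = mgaIncl h (M * q * q) (s36Alpha ↥K₀ M q x) := by
  apply Subtype.ext
  rw [coe_s36Alpha, mgaIncl_coe, mgaIncl_coe, coe_s36Alpha]

/-- the square of `β` commutes (`K₀ ≤ K₁`) -/
theorem s36dn_sq_beta_incl (x : modularFunctionFieldFullC ↥K₀ (M * q)) :
    s36Beta ↥K₁ M q (mgaIncl h (M * q) x) = mgaIncl h (M * q * q) (s36Beta ↥K₀ M q x) := by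
  apply Subtype.ext
  rw [coe_s36Beta, mgaIncl_coe, mgaIncl_coe, coe_s36Beta, s36dn_coeffMap_qExpand]

/-- generation (`K₀ ≤ K₁`) -/
theorem s36dn_hgen_incl {N' N : ℕ}
    (φ : modularFunctionFieldFullC ↥K₁ N' →+* modularFunctionFieldFullC ↥K₁ N)
    (hφ : ∀ c : ↥K₁, φ (algebraMap ↥K₁ _ c) = algebraMap ↥K₁ _ c)
    (hfin : StbFinite φ) :
    letI := φ.toAlgebra
    Algebra.adjoin ↥(modularFunctionFieldFullC ↥K₁ N') (Set.range (mgaIncl h N)) = ⊤ :=
  s36dn_adjoin_eq_top_hom (k := ↥K₁) φ hφ hfin _ (s36dn_incl_adjoin_range h N)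

theorem s36dn_alpha_const (K : Type*) [Field K] (c : K) :
    s36Alpha K M q (algebraMap K _ c) = algebraMap K _ c := rfl

theorem s36dn_beta_const (K : Type*) [Field K] (c : K) :
    s36Beta K M q (algebraMap K _ c) = algebraMap K _ c := by
  apply Subtype.ext
  rw [coe_s36Beta]
  show qExpand K q (algebraMap K (LaurentSeries K) c) = algebraMap K (LaurentSeries K) c
  rw [algebraMap_laurentSeries_eq_single, qExpand_single, mul_zero]

variable (hq : q.Prime) (hqM : ¬ q ∣ M)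

include hq in
/-- **Norm square for `α`**, `K₀ ≤ K₁ ≤ ℚ̄`. -/
theorem s36dn_alpha_incl (u : modularFunctionFieldFullC ↥K₀ (M * q * q)) :
    stbNorm (s36Alpha ↥K₁ M q) (mgaIncl h (M * q * q) u) =
      mgaIncl h (M * q) (stbNorm (s36Alpha ↥K₀ M q) u) :=
  s36dn_norm_square_hom (s36Alpha ↥K₀ M q) (mgaIncl h (M * q))
    (s36Alpha ↥K₁ M q) (mgaIncl h (M * q * q)) (s36dn_sq_alpha_incl h)
    (by rw [s36dn_deg_alpha ↥K₀ M q hq]; exact hq.ne_zero)
    (by rw [s36dn_deg_alpha ↥K₁ M q hq, s36dn_deg_alpha ↥K₀ M q hq])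
    (s36dn_hgen_incl h (s36Alpha ↥K₁ M q) (s36dn_alpha_const ↥K₁)
      (s36dn_finite_alpha ↥K₁ M q hq)) u

include hq hqM in
/-- **Norm square for `β`**, `K₀ ≤ K₁ ≤ ℚ̄`. -/
theorem s36dn_beta_incl (u : modularFunctionFieldFullC ↥K₀ (M * q * q)) :
    stbNorm (s36Beta ↥K₁ M q) (mgaIncl h (M * q * q) u) =
      mgaIncl h (M * q) (stbNorm (s36Beta ↥K₀ M q) u) := by
  obtain ⟨ι₀⟩ := s36dn_exists_emb K₀
  obtain ⟨ι₁⟩ := s36dn_exists_emb K₁
  exact s36dn_norm_square_hom (s36Beta ↥K₀ M q) (mgaIncl h (M * q))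
    (s36Beta ↥K₁ M q) (mgaIncl h (M * q * q)) (s36dn_sq_beta_incl h)
    (by rw [s36dn_deg_beta ↥K₀ ι₀ hq hqM]; exact hq.ne_zero)
    (by rw [s36dn_deg_beta ↥K₁ ι₁ hq hqM, s36dn_deg_beta ↥K₀ ι₀ hq hqM])
    (s36dn_hgen_incl h (s36Beta ↥K₁ M q) (s36dn_beta_const ↥K₁)
      (s36dn_finite_beta ↥K₁ ι₁ hq hqM)) u

end Incl

end Fermat.Agent.S36
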