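import Fermat.Agent.S36.Descent
import Fermat.Agent.S36.PlanGeo
import Fermat.Agent.UNIP.MGPlaces
import Fermat.Agent.S24.PlaceBasic

/-!
# S36 geometry, piece G-desc: from the small field to `ℚ̄`

* `S36NormSquares M q K₀` : the two norm squares `K₀ ↔ ℚ̄` (piece G-desc-N, `DescentNorm.lean`):
  `N_α^{ℚ̄} (ι u) = ι (N_α^{K₀} u)`, `N_β^{ℚ̄} (ι u) = ι (N_β^{K₀} u)`.
* `s36_kummerAt_of_small` : **G-desc.**  If `StmtCarayolSmallAt M q p A` holds for every valuation
  ring `A ∣ q` of `ℚ̄` (and the norm squares hold for `E₀ = beta0Field A`), then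
  `StmtCarayolKummerAt (M * q) q p` holds — with the same constant `c`.
-/

set_option autoImplicit false
set_option linter.unusedSectionVars false
set_option linter.style.haveILetI false

noncomputable section

open ModularCurve AlgebraicCurve Fermat.Agent.INJ Fermat.Agent.UNIP Fermat.Agent.STB
open Fermat.Agent.ES Fermat.Agent.ES.G2

namespace Fermat.Agent.S36

section Squares

variable (M q : ℕ) [NeZero M] [NeZero q]

/-- the norm squares `K₀ ↔ ℚ̄` for `α` and `β` (piece G-desc-N) -/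
def S36NormSquares (K₀ : IntermediateField ℚ NfQb) : Prop :=
  (∀ u : modularFunctionFieldFullC K₀ (M * q * q),
    stbNormAlpha (M * q) q (nfEmb K₀ (M * q * q) u)
      = nfEmb K₀ (M * q) (stbNorm (s36Alpha K₀ M q) u)) ∧
  (∀ u : modularFunctionFieldFullC K₀ (M * q * q),
    stbNormBeta (M * q) q (nfEmb K₀ (M * q * q) u)
      = nfEmb K₀ (M * q) (stbNorm (s36Beta K₀ M q) u))

end Squares

section Aux

/-- the norm along a ring homomorphism of a constant -/
theorem s36dt_norm_apply {K L : Type*} [Field K] [Field L] (φ : K →+* L) (x : K) :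
    stbNorm φ (φ x) = x ^ stbDeg φ := by
  letI := φ.toAlgebra
  exact Algebra.norm_algebraMap x

theorem s36dt_norm_mul {K L : Type*} [Field K] [Field L] (φ : K →+* L) (x y : L) :
    stbNorm φ (x * y) = stbNorm φ x * stbNorm φ y := by
  letI := φ.toAlgebra
  exact map_mul (Algebra.norm K) x y

theorem s36dt_norm_one {K L : Type*} [Field K] [Field L] (φ : K →+* L) :
    stbNorm φ (1 : L) = 1 := by
  letI := φ.toAlgebra
  exact map_one (Algebra.norm K)

theorem s36dt_norm_pow {K L : Type*} [Field K] [Field L] (φ : K →+* L) (x : L) (m : ℕ) :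
    stbNorm φ (x ^ m) = stbNorm φ x ^ m := by
  letI := φ.toAlgebra
  exact map_pow (Algebra.norm K) x m

theorem s36dt_norm_ne_zero {K L : Type*} [Field K] [Field L] (φ : K →+* L) {x : L}
    (hx : x ≠ 0) : stbNorm φ x ≠ 0 := by
  intro h
  have h1 : stbNorm φ x * stbNorm φ x⁻¹ = 1 := by
    rw [← s36dt_norm_mul, mul_inv_cancel₀ hx, s36dt_norm_one]
  rw [h, zero_mul] at h1
  exact zero_ne_one h1

theorem s36dt_ord_pow {K F : Type*} [Field K] [Field F] [Algebra K F] (P : Place K F) (f : F)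
    (m : ℕ) : P.ord (f ^ m) = m * P.ord f := by
  rcases eq_or_ne f 0 with rfl | hf
  · rcases Nat.eq_zero_or_pos m with rfl | hm
    · simp
    · rw [zero_pow hm.ne']; simp
  induction m with
  | zero => simp
  | succ m ih =>
    rw [pow_succ, P.ord_mul (pow_ne_zero m hf) hf, ih]
    push_cast
    ring

end Aux

section Transport

variable {q : ℕ} (hq : q.Prime) {A : ValuationSubring NfQb} (hA : A.LiesOverPrime q)
  (N N₁ : ℕ) [NeZero N] [NeZero N₁]

include hq hA in
/-- transport of one norm hypothesis from `ℚ̄` to `E₀` -/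
theorem s36dt_norm_transport {m : ℕ} (hm : m ≠ 0)
    (φ : modularFunctionFieldBar N₁ →ₐ[NfQb] modularFunctionFieldBar N)
    (φ₀ : modularFunctionFieldFullC (beta0Field A) N₁ →+*
      modularFunctionFieldFullC (beta0Field A) N)
    (hsq : ∀ u : modularFunctionFieldFullC (beta0Field A) N,
      stbNorm φ.toRingHom (nfEmb (beta0Field A) N u)
        = nfEmb (beta0Field A) N₁ (stbNorm φ₀ u))
    (u : modularFunctionFieldBar N) (u₀ : modularFunctionFieldFullC (beta0Field A) N)
    (b : NfQb) (g : modularFunctionFieldBar N) (hb : b ≠ 0) (hg : g ≠ 0)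
    (hu : u = algebraMap NfQb (modularFunctionFieldBar N) b * g ^ m *
      nfEmb (beta0Field A) N u₀)
    (hN : ∃ (a : NfQb) (f : modularFunctionFieldBar N₁),
      stbNorm φ.toRingHom u = algebraMap NfQb (modularFunctionFieldBar N₁) a * f ^ m) :
    ∃ (a : beta0Field A) (f : modularFunctionFieldFullC (beta0Field A) N₁),
      stbNorm φ₀ u₀ =
        algebraMap (beta0Field A) (modularFunctionFieldFullC (beta0Field A) N₁) a * f ^ m := by
  obtain ⟨a, f, haf⟩ := hN
  by_cases h0 : stbNorm φ₀ u₀ = 0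
  · exact ⟨0, 1, by rw [h0, map_zero, zero_mul]⟩
  apply s36d_root_descent hq hA N₁ hm _ h0
  have hconst : stbNorm φ.toRingHom (algebraMap NfQb (modularFunctionFieldBar N) b)
      = algebraMap NfQb (modularFunctionFieldBar N₁) (b ^ stbDeg φ.toRingHom) := by
    have e : algebraMap NfQb (modularFunctionFieldBar N) b
        = φ.toRingHom (algebraMap NfQb (modularFunctionFieldBar N₁) b) := (φ.commutes b).symm
    rw [e, s36dt_norm_apply, map_pow]
  have hgN : stbNorm φ.toRingHom g ≠ 0 := s36dt_norm_ne_zero _ hg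
  have hbd : b ^ stbDeg φ.toRingHom ≠ 0 := pow_ne_zero _ hb
  have hbd' : algebraMap NfQb (modularFunctionFieldBar N₁) (b ^ stbDeg φ.toRingHom) ≠ 0 :=
    (map_ne_zero _).mpr hbd
  have e1 : stbNorm φ.toRingHom u
      = algebraMap NfQb (modularFunctionFieldBar N₁) (b ^ stbDeg φ.toRingHom) *
          stbNorm φ.toRingHom g ^ m * nfEmb (beta0Field A) N₁ (stbNorm φ₀ u₀) := by
    rw [hu, s36dt_norm_mul, s36dt_norm_mul, s36dt_norm_pow, hconst, hsq]
  refine ⟨a / b ^ stbDeg φ.toRingHom, f / stbNorm φ.toRingHom g, ?_⟩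
  rw [map_div₀, div_pow]
  rw [haf] at e1
  field_simp
  rw [e1]
  ring

end Transport

section Top

variable (M q p : ℕ) [NeZero M] [NeZero q]

/-- **G-desc**: (G36-K) over the small fields `E₀ = ℚ̄^{I_A}` implies (G36-K). -/
theorem s36_kummerAt_of_small (hq : q.Prime) (hp : p ≠ 0)
    (hns : ∀ A : ValuationSubring Qb, A.LiesOverPrime q → S36NormSquares M q (beta0Field A))
    (h : ∀ A : ValuationSubring Qb, A.LiesOverPrime q → StmtCarayolSmallAt M q p A) :
    StmtCarayolKummerAt (M * q) q p := by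
  intro A hA
  obtain ⟨c, hc, hsmall⟩ := h A hA
  obtain ⟨hnsα, hnsβ⟩ := hns A hA
  refine ⟨c, hc, ?_⟩
  intro n u hu hord hNα hNβ hI
  have hm : p ^ n ≠ 0 := pow_ne_zero n hp
  obtain ⟨u₀, b, g, hu₀, hb, hg, hueq⟩ := s36d_descent hq hA (M * q * q) hm u hu hI
  -- the divisor of `u₀`
  have hord₀ : ∀ P : Place (beta0Field A) (modularFunctionFieldFullC (beta0Field A) (M * q * q)),
      ((p ^ n : ℕ) : ℤ) ∣ P.ord u₀ := by
    apply mg_dvd_ord (beta0Field A) (M * q * q) ((p ^ n : ℕ) : ℤ) u₀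
    intro P
    have hne : nfEmb (beta0Field A) (M * q * q) u₀ ≠ 0 :=
      (map_ne_zero (nfEmb (beta0Field A) (M * q * q))).mpr hu₀
    have hbne : algebraMap NfQb (modularFunctionFieldBar (M * q * q)) b ≠ 0 :=
      (map_ne_zero _).mpr hb
    have h1 := hord P
    rw [hueq, P.ord_mul (mul_ne_zero hbne (pow_ne_zero _ hg)) hne,
      P.ord_mul hbne (pow_ne_zero _ hg), Fermat.Agent.S24.PlaceAux.ord_algebraMap,
      s36dt_ord_pow, zero_add] at h1
    exact (Int.dvd_add_right (Dvd.intro _ rfl)).mp h1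
  have hα₀ := s36dt_norm_transport hq hA (M * q * q) (M * q) hm (heckeAlphaBar Qb (M * q) q)
    (s36Alpha (beta0Field A) M q) hnsα u u₀ b g hb hg hueq hNα
  have hβ₀ := s36dt_norm_transport hq hA (M * q * q) (M * q) hm (heckeBetaBar Qb (M * q) q)
    (s36Beta (beta0Field A) M q) hnsβ u u₀ b g hb hg hueq hNβ
  obtain ⟨a₀, h₀, e⟩ := hsmall n u₀ hu₀ hord₀ hα₀ hβ₀
  refine ⟨b ^ c * algebraMap (beta0Field A) NfQb a₀,
    g ^ c * nfEmb (beta0Field A) (M * q * q) h₀, ?_⟩
  have e2 : nfEmb (beta0Field A) (M * q * q) u₀ ^ c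
      = algebraMap NfQb (modularFunctionFieldBar (M * q * q)) (algebraMap (beta0Field A) NfQb a₀)
        * nfEmb (beta0Field A) (M * q * q) h₀ ^ (p ^ n) := by
    rw [← map_pow, e, map_mul, map_pow, nfEmb_algebraMap]
  rw [hueq, mul_pow, mul_pow, e2, map_mul, map_pow]
  ring

end Top

end Fermat.Agent.S36
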