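import Fermat.Agent.S36.Plan
import Fermat.Agent.S36.WilesRing
import Fermat.Agent.S30.PseudoChar
import Fermat.Agent.S53.Matrix
import Fermat.Agent.ES.TopFaith
import Fermat.Agent.STB.Stmt

/-!
# S36: the interface of the algebraic part (pieces H3′, A3, A4 of NOTES/S36-plan.md)

* `StmtPushHeckeDiv` : **(H3′)** `α_*`, `β_*` commute with `T_ℓ` on torsion, for `q ∣ M₁`
  (STB-P3 `stb_p3_alpha/beta` is the case `q ∤ M₁`).
* `StmtResidUnit` : **(A3)** for a matrix representation over `O'` with absolutely irreducible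
  residual representation and a complex conjugation, some `Ξ'(τ₁, σ₁) = 4 ξ'(τ₁, σ₁)` is a unit.
* `StmtLargeAt M p` : **(A4, LARGE)** a Hecke polynomial which kills the `χ`-eigenpart
  `{x ∈ J[p^k] : h x = 0 for all h with χ(h) ∈ 𝔪^k}` has `χ`-value in `𝔪^k`.
* `StmtNewMemDiv` : (P2) + (H3′): `P · PDiv (M₁ q) p` is `q`-new if `P` kills level `M₁`, `q ∣ M₁`.
  (The algebraic half (h8) is `StmtH8` in `S36/T/Plan.lean`, helper99.)
-/

set_option autoImplicit false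
set_option linter.style.haveILetI false

noncomputable section

namespace Fermat.Agent.S36

open ModularCurve AlgebraicCurve Fermat.Agent.ES Fermat.Agent.STB Fermat.Agent.S31
open Fermat.Agent.S30 (chiHom)
open Fermat.Agent.S53 (Gal M2 MatCont ofMatrix)

/-- **(H3′)** push-forward along the two degeneracy maps commutes with the good Hecke
operators on torsion points, at levels `M₁ q` with `q ∣ M₁`. -/
def StmtPushHeckeDiv : Prop :=
  ∀ (M₁ q : ℕ) [NeZero M₁] [NeZero q], q.Prime → q ∣ M₁ →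
    ∀ ℓ : Nat.Primes, ¬ (ℓ : ℕ) ∣ M₁ * q → ∀ n : ℕ, n ≠ 0 →
      ∀ x : JZero (M₁ * q), n • x = 0 →
        stbPushAlpha M₁ q (heckeOperatorBar (M₁ * q) ℓ x) =
            heckeOperatorBar M₁ ℓ (stbPushAlpha M₁ q x) ∧
          stbPushBeta M₁ q (heckeOperatorBar (M₁ * q) ℓ x) =
            heckeOperatorBar M₁ ℓ (stbPushBeta M₁ q x)

/-- **(A3)** residual absolute irreducibility gives a unit `Ξ'(τ₁, σ₁)`
(`s36Xi' t c x y = 2 D(xy) − D(x) D(y)`, `D(x) = t x − t (x c)`, see `S36/WilesRing.lean`). -/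
def StmtResidUnit : Prop :=
  ∀ (O' : Type) [CommRing O'] [IsDomain O'] [IsDiscreteValuationRing O']
    (Mρ : Gal →* M2 O') (hM : MatCont O' Mρ) (c : Gal),
    c * c = 1 → (Mρ c).det = -1 → IsUnit (2 : O') →
    (ofMatrix Mρ hM).residual.IsAbsolutelyIrreducible →
      ∃ σ₁ τ₁ : Gal, IsUnit (s36Xi' (fun σ => (Mρ σ).trace) c τ₁ σ₁)

/-- **(A4, LARGE)** at level `M` and the prime `p`, on `J = PDiv M p`. -/
def StmtLargeAt (M p : ℕ) [NeZero M] : Prop :=
  ∀ (S : Finset ℕ), p ∈ S → (∀ q : ℕ, q.Prime → q ∣ M → q ∈ S) →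
    ∀ (g : CuspForm (CongruenceSubgroup.Gamma0 M) 2), g.IsNormalizedEigenform →
    ∀ (O' : Type) [CommRing O'] [IsDomain O'] [IsDiscreteValuationRing O'] [CharZero O']
      [Finite (IsLocalRing.ResidueField O')],
      (p : O') ∈ IsLocalRing.maximalIdeal O' →
    ∀ (chig : CuspForm.heckeAlgebra M 2 (↑S : Set ℕ) →+* ℂ),
      (∀ (ℓ : ℕ) (hℓ : ℓ.Prime) (hℓM : ¬ ℓ ∣ M) (hℓS : ℓ ∉ (↑S : Set ℕ)),
        chig (CuspForm.heckeAlgebra.T hℓ hℓM hℓS) = ModularFormClass.qCoeff g ℓ) →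
    ∀ (iota : chig.range →+* O'),
    ∀ Θ ∈ MvPolynomial.supported ℤ (outsideVars (↑S : Set ℕ)), ∀ k : ℕ,
      (∀ x : PDiv M p, p ^ k • x = 0 →
        (∀ h ∈ MvPolynomial.supported ℤ (outsideVars (↑S : Set ℕ)),
          chiHom S (iota.comp chig.rangeRestrict) h ∈ IsLocalRing.maximalIdeal O' ^ k →
            (letI := pDivModule M p; h • x) = 0) →
          (letI := pDivModule M p; Θ • x) = 0) →
        chiHom S (iota.comp chig.rangeRestrict) Θ ∈ IsLocalRing.maximalIdeal O' ^ k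

/-- (A4, LARGE) at all levels and primes. -/
def StmtLarge : Prop :=
  ∀ (M p : ℕ) [NeZero M], p.Prime → StmtLargeAt M p

/-- **(P2) + (H3′)**: a Hecke polynomial in the good variables of level `M₁ q`, `q ∣ M₁`, which
vanishes on `S₂(Γ₀(M₁))` maps `PDiv (M₁ q) p` into the `q`-new part.
(`S35.StmtNewMem` is the case `q ∤ M₁`.) -/
def StmtNewMemDiv : Prop :=
  ∀ (M₁ q p : ℕ) [NeZero M₁] [NeZero q], p.Prime → q.Prime → q ∣ M₁ → ∀ t : HeckeAlg,
    t ∈ MvPolynomial.supported ℤ (goodPrimes (M₁ * q) p) → CuspForm.heckeEvalForms M₁ 2 t = 0 →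
      ∀ x : PDiv (M₁ * q) p,
        (((letI := pDivModule (M₁ * q) p; t • x) : PDiv (M₁ * q) p) : JZero (M₁ * q)) ∈
          stbNew M₁ q

end Fermat.Agent.S36
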