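import Fermat.Agent.S36.Plan
import Fermat.Agent.STB.JForm

/-!
# S36, piece A0: the Kummer form (G36-K) gives (G36-J) on `J₀(M₁ q)[p^∞]`

`x = [D]`, `pⁿ D = div u`.
* `α_* x = 0 = β_* x` ⇒ `N_α u`, `N_β u` are constants times `pⁿ`-th powers
  (`STB.stb_norm_eq_of_push_eq_zero`).
* `σ x = x` ⇒ `σ D − D = div h` ⇒ `div (σ u) = div (h ^ pⁿ · u)` ⇒ `σ u = a · h ^ pⁿ · u`.
* `StmtCarayolKummerAt` gives `u ^ c = a · h ^ pⁿ`, hence `pⁿ (c D) = pⁿ div h`, `c D = div h`,
  `c • x = 0`.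
-/

set_option autoImplicit false
set_option linter.style.haveILetI false

noncomputable section

namespace Fermat.Agent.S36

open ModularCurve AlgebraicCurve Fermat.Agent.ES Fermat.Agent.ES.G2 Fermat.Agent.ES.H
open Fermat.Agent.S24 Fermat.Agent.STB

section Generic

variable {K F : Type*} [Field K] [Field F] [Algebra K F]

/-- If `m D = div u` and `G • [D] = [D]`, then `G • u = (unit of divisor zero) · h ^ m · u`:
there is `h ≠ 0` such that `G • u / (h ^ m * u)` has order `0` at every place. -/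
theorem s36jf_ord_of_fixed (G : SemilinearAut K F) (D : Divisor.degZero (K := K) (F := F))
    (m : ℕ) (u : F) (hu : u ≠ 0)
    (hD : ∀ v : Place K F, (m : ℤ) * (D : Divisor K F) v = v.ord u)
    (hfix : G • Pic0.mk D = Pic0.mk D) :
    ∃ h : F, h ≠ 0 ∧ ∀ v : Place K F, v.ord (G • u / (h ^ m * u)) = 0 := by
  have hGu : G • u ≠ 0 := stb_smul_ne_zero G hu
  -- the divisor `E = G D − D` is principal
  set E : Divisor.degZero (K := K) (F := F) := SemilinearAut.degZeroSMulHom G D - D with hE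
  have hzero : Pic0.mk E = 0 := by
    have e2 : Pic0.mk E = G • Pic0.mk D - Pic0.mk D := by
      rw [SemilinearAut.pic0_smul_mk]
      rfl
    rw [e2, hfix, sub_self]
  unfold Pic0.mk at hzero
  rw [QuotientAddGroup.eq_zero_iff, AddSubgroup.mem_addSubgroupOf] at hzero
  obtain ⟨h, hh0, hEh⟩ := hzero
  refine ⟨h, hh0, fun v => ?_⟩
  have e1 : (E : Divisor K F) v = (D : Divisor K F) (G⁻¹ • v) - (D : Divisor K F) v := by
    show ((G • (D : Divisor K F)) - (D : Divisor K F)) v = _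
    rw [Finsupp.sub_apply, SemilinearAut.divisor_smul_apply]
  have h3 : v.ord (G • u) = (m : ℤ) * (D : Divisor K F) (G⁻¹ • v) := by
    rw [stb_ord_smul_eq, hD]
  rw [unram_ord_div v hGu (mul_ne_zero (pow_ne_zero _ hh0) hu),
    v.ord_mul (pow_ne_zero _ hh0) hu, unram_ord_pow, h3, ← hD v, ← hEh v, e1]
  ring

/-- If `m D = div u`, `m ≠ 0` and `u ^ c = a · h ^ m` with a constant `a`, then `c • [D] = 0`. -/
theorem s36jf_pic0_of_pow (D : Divisor.degZero (K := K) (F := F))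
    (m : ℕ) (hm : m ≠ 0) (u : F) (hu : u ≠ 0)
    (hD : ∀ v : Place K F, (m : ℤ) * (D : Divisor K F) v = v.ord u) (c : ℕ)
    (a : K) (h : F) (hh : u ^ c = algebraMap K F a * h ^ m) :
    c • Pic0.mk D = 0 := by
  have hm' : (m : ℤ) ≠ 0 := by exact_mod_cast hm
  have huc : u ^ c ≠ 0 := pow_ne_zero _ hu
  have ha0 : algebraMap K F a ≠ 0 := by
    intro h0
    rw [h0, zero_mul] at hh
    exact huc hh
  have hhm : h ^ m ≠ 0 := by
    intro h0
    rw [h0, mul_zero] at hh
    exact huc hh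
  have hh0 : h ≠ 0 := by
    intro h0
    rw [h0, zero_pow hm] at hhm
    exact hhm rfl
  have ha0' : a ≠ 0 := by
    intro h0
    rw [h0, map_zero] at ha0
    exact ha0 rfl
  have key : ∀ v : Place K F, ((c • D : Divisor.degZero (K := K) (F := F)) : Divisor K F) v
      = v.ord h := by
    intro v
    have h1 : (c : ℤ) * v.ord u = (m : ℤ) * v.ord h := by
      have := congrArg v.ord hh
      rw [unram_ord_pow, v.ord_mul ha0 hhm, unram_ord_pow, unram_ord_algebraMap v ha0', zero_add]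
        at this
      exact this
    have h2 : ((c • D : Divisor.degZero (K := K) (F := F)) : Divisor K F) v
        = (c : ℤ) * (D : Divisor K F) v := by
      rw [AddSubgroup.coe_nsmul, Finsupp.smul_apply, nsmul_eq_mul]
    have h4 : (m : ℤ) * ((c • D : Divisor.degZero (K := K) (F := F)) : Divisor K F) v
        = (m : ℤ) * v.ord h := by
      rw [h2, ← h1, ← hD v]
      ring
    exact mul_left_cancel₀ hm' h4
  have hzero : Pic0.mk (c • D) = 0 := by
    unfold Pic0.mk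
    rw [QuotientAddGroup.eq_zero_iff, AddSubgroup.mem_addSubgroupOf]
    exact ⟨h, hh0, key⟩
  rw [← hzero]
  rfl

end Generic

variable (M₁ q p : ℕ) [NeZero M₁] [NeZero q]

/-- **S36-A0.**  The Kummer form (G36-K) gives (G36-J) on `J₀(M₁ q)[p^∞]`. -/
theorem stmtCarayolJ_of_kummer (hp : p ≠ 0) (h : StmtCarayolKummerAt M₁ q p) :
    StmtCarayolJ M₁ q p := by
  intro A hA
  obtain ⟨c, hc0, hc⟩ := h A hA
  refine ⟨c, hc0, ?_⟩
  intro x hx hnew hinv
  obtain ⟨n, hn⟩ := hx
  obtain ⟨D, rfl⟩ := Pic0.mk_surjective x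
  rw [mem_stbNew] at hnew
  have hpn0 : p ^ n ≠ 0 := pow_ne_zero n hp
  have hprin : ((p ^ n • D : Divisor.degZero (K := Qb) (F := modularFunctionFieldBar (M₁ * q))) :
      Divisor Qb (modularFunctionFieldBar (M₁ * q))) ∈ Divisor.principal := by
    have h1 : Pic0.mk (p ^ n • D) = 0 := by
      rw [← hn]; rfl
    unfold Pic0.mk at h1
    rw [QuotientAddGroup.eq_zero_iff, AddSubgroup.mem_addSubgroupOf] at h1
    exact h1
  obtain ⟨u, hu, hDu⟩ := hprin
  have hDu' : ∀ v : Place Qb (modularFunctionFieldBar (M₁ * q)),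
      ((p ^ n : ℕ) : ℤ) * (D : Divisor Qb (modularFunctionFieldBar (M₁ * q))) v = v.ord u := by
    intro v
    rw [← hDu v, AddSubgroup.coe_nsmul, Finsupp.smul_apply, nsmul_eq_mul]
  have hdvd : ∀ P : Place Qb (modularFunctionFieldBar (M₁ * q)),
      ((p ^ n : ℕ) : ℤ) ∣ P.ord u := fun P => ⟨_, (hDu' P).symm⟩
  have hα := stb_norm_eq_of_push_eq_zero M₁ q (heckeAlphaBar Kb M₁ q)
    (finiteAlong_heckeAlphaBar M₁ q) D hnew.1 (p ^ n) u hu hDu'
  have hβ := stb_norm_eq_of_push_eq_zero M₁ q (heckeBetaBar Kb M₁ q)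
    (finiteAlong_heckeBetaBar M₁ q) D hnew.2 (p ^ n) u hu hDu'
  have hI : ∀ σ ∈ A.inertiaSubgroupIn ℚ,
      ∃ (a : Qb) (k : modularFunctionFieldBar (M₁ * q)),
        arithmeticGalois (modularFunctionFieldFull (M₁ * q)) σ • u =
          algebraMap Qb (modularFunctionFieldBar (M₁ * q)) a * k ^ (p ^ n) * u := by
    intro σ hσ
    set g := arithmeticGalois (modularFunctionFieldFull (M₁ * q)) σ with hg
    have hfix : g • Pic0.mk D = Pic0.mk D := hinv σ hσ
    obtain ⟨k, hk0, hk⟩ := s36jf_ord_of_fixed g D (p ^ n) u hu hDu' hfix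
    obtain ⟨a, ha⟩ := mu_exists_const_of_ord_eq_zero _ hk
    refine ⟨a, k, ?_⟩
    have hden : k ^ (p ^ n) * u ≠ 0 := mul_ne_zero (pow_ne_zero _ hk0) hu
    rw [mul_assoc, ha, div_mul_cancel₀ _ hden]
  obtain ⟨a, k, hk⟩ := hc n u hu hdvd hα hβ hI
  exact s36jf_pic0_of_pow D (p ^ n) hpn0 u hu hDu' c a k hk

/-- (G36-K) at all levels gives (G36-J) at all levels. -/
theorem stmtCarayol_of_kummer (h : StmtCarayolKummer) : StmtCarayol := by
  intro M₁ q p _ _ hq hp hpq hp2 hqM hq2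
  exact stmtCarayolJ_of_kummer M₁ q p hp.ne_zero (h M₁ q p hq hp hpq hp2 hqM hq2)

end Fermat.Agent.S36
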