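import Fermat.Agent.STB.PushHeckeDiv
import Fermat.Agent.S36.PlanAlg

/-!
# S36, piece H3′: `StmtPushHeckeDiv` (helper92)

`α_*`, `β_* : J₀(M₁q) → J₀(M₁)` commute with `T_ℓ` (`ℓ ∤ M₁ q`) on torsion points, for a prime
`q ∣ M₁`.  Proof in `STB/PushHeckeDiv.lean` (`stbd_p3_alpha`, `stbd_p3_beta`): Kummer form,
transitivity of norms, base change of the norm in the square `F_{M₁} ⊂ F_{M₁q}`,
`F_{M₁ℓ} ⊂ F_{M₁ℓq}`; the `q` embeddings are the rotations `Q ↦ ζ^b Q` (over `β (F)`) and their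
conjugates by the Fricke involution (over `α (F)`); the degree is `q` by Igusa's theorem.
-/

set_option autoImplicit false

namespace Fermat.Agent.S36

open Fermat.Agent.STB

/-- **(H3′)** -/
theorem stmtPushHeckeDiv_of_fricke : StmtPushHeckeDiv :=
  fun M₁ q _ _ hq hqM ℓ hℓ _ hn x hx =>
    ⟨stbd_p3_alpha M₁ q hq hqM ℓ hn x hx, stbd_p3_beta M₁ q hq hqM ℓ hℓ hn x hx⟩

end Fermat.Agent.S36
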