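/-
S36 (Carayol at `q² ∥ M`), geometric clause, piece G-inc "INCIDENCE" (helper19).  Mathlib only.

The incidence structure of the special fibre at level `N = q² M'` comes for free from the
one at level `M₁ = q M'`, by GOING-DOWN (no supersingular theory).

Abstract setting: `R ⊆ S` an integral extension of domains, `R` integrally closed
(`R` = chart `B'` of level `M₁`, `S` = chart `B` of level `N`, along `α` or along `β`).
`p` a prime of `R` (a vertical prime) over which lies ONLY ONE prime `Pa` of `S`, and `S / Pa`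
is "purely inseparable" over `R / p`: every `x ∈ S` has `x ^ n ∈ R + Pa`
(along `β`: `p = 𝔭'_∞`, `Pa = 𝔭_a`, `n = q`; along `α`: `p = 𝔭'_0`, `Pa = 𝔭_b`, `n = q`).

* `s36inc_le_of_unique` : every prime `𝔫` of `S` whose contraction contains `p` contains `Pa`
  (going-down, Mathlib `Ideal.exists_ideal_le_liesOver_of_le`).
* `s36inc_le_of_insep`, `s36inc_eq_of_insep` : two primes of `S` containing `Pa` with the same
  contraction are equal.
* `s36inc_triple` : over every prime `𝔫' ⊇ p` of `R` lies EXACTLY ONE prime `𝔫` of `S`;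
  it contains `Pa` and every ideal `P'` of `S` whose contraction is `≤ 𝔫'`
  (so, if `𝔫' ⊇ 𝔭'_∞ + 𝔭'_0` is a crossing point: `𝔫 ⊇ 𝔭_a + 𝔭_c + 𝔭_b`, a TRIPLE point).
* `s36inc_isMaximal` : a prime of `S` over a maximal ideal is maximal.
* `s36inc_exists_mul_mem` : if `𝔫` is the only prime over `𝔫'`, every `s ∉ 𝔫` divides the image
  of some `r ∉ 𝔫'`: the local ring `S_𝔫` is `S ⊗ R_𝔫'`, integral over `R_𝔫'`
  (hence norms of units of `S_𝔫` are units of `R_𝔫'`: Mathlib `Algebra.isIntegral_norm`).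
* `s36inc_cross_of_two` : a prime of `S` containing two ideals `P₁`, `P₂` lies over a prime
  containing their contractions (a point on two components maps to a crossing point).
-/
import Mathlib

set_option autoImplicit false

namespace Fermat.Agent.S36

variable {R S : Type*} [CommRing R] [CommRing S] [Algebra R S]

/-- If `S / Pa` is purely inseparable over the image of `R`, inclusions between primes
containing `Pa` can be tested on the contractions. -/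
theorem s36inc_le_of_insep (Pa : Ideal S) {n : ℕ} (hn : 0 < n)
    (hins : ∀ x : S, ∃ r : R, x ^ n - algebraMap R S r ∈ Pa)
    {𝔫₁ 𝔫₂ : Ideal S} [𝔫₂.IsPrime] (h₁ : Pa ≤ 𝔫₁) (h₂ : Pa ≤ 𝔫₂)
    (h : 𝔫₁.comap (algebraMap R S) ≤ 𝔫₂.comap (algebraMap R S)) : 𝔫₁ ≤ 𝔫₂ := by
  intro x hx
  obtain ⟨r, hr⟩ := hins x
  have hr1 : algebraMap R S r ∈ 𝔫₁ := by
    have e : algebraMap R S r = x ^ n - (x ^ n - algebraMap R S r) := by ring
    rw [e]
    exact 𝔫₁.sub_mem (𝔫₁.pow_mem_of_mem hx n hn) (h₁ hr)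
  have hr2 : algebraMap R S r ∈ 𝔫₂ := h hr1
  have hx2 : x ^ n ∈ 𝔫₂ := by
    have e : x ^ n = (x ^ n - algebraMap R S r) + algebraMap R S r := by ring
    rw [e]
    exact 𝔫₂.add_mem (h₂ hr) hr2
  exact Ideal.IsPrime.mem_of_pow_mem inferInstance n hx2

/-- Two primes of `S` containing `Pa` with the same contraction are equal. -/
theorem s36inc_eq_of_insep (Pa : Ideal S) {n : ℕ} (hn : 0 < n)
    (hins : ∀ x : S, ∃ r : R, x ^ n - algebraMap R S r ∈ Pa)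
    {𝔫₁ 𝔫₂ : Ideal S} [𝔫₁.IsPrime] [𝔫₂.IsPrime] (h₁ : Pa ≤ 𝔫₁) (h₂ : Pa ≤ 𝔫₂)
    (h : 𝔫₁.comap (algebraMap R S) = 𝔫₂.comap (algebraMap R S)) : 𝔫₁ = 𝔫₂ :=
  le_antisymm (s36inc_le_of_insep Pa hn hins h₁ h₂ h.le)
    (s36inc_le_of_insep Pa hn hins h₂ h₁ h.ge)

/-- **Going-down.**  If `Pa` is the only prime of `S` over `p`, every prime of `S` whose
contraction contains `p` contains `Pa`. -/
theorem s36inc_le_of_unique [IsDomain S] [FaithfulSMul R S] [Algebra.IsIntegral R S]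
    [IsIntegrallyClosed R] (p : Ideal R) [p.IsPrime] (Pa : Ideal S)
    (hPa : ∀ Q : Ideal S, Q.IsPrime → Q.comap (algebraMap R S) = p → Q = Pa)
    (𝔫 : Ideal S) [𝔫.IsPrime] (h : p ≤ 𝔫.comap (algebraMap R S)) : Pa ≤ 𝔫 := by
  have : (𝔫.comap (algebraMap R S)).IsPrime := Ideal.comap_isPrime _ _
  have : 𝔫.LiesOver (𝔫.comap (algebraMap R S)) := ⟨rfl⟩
  obtain ⟨P₀, hP₀, hP₀', hP₀''⟩ :=
    Ideal.exists_ideal_le_liesOver_of_le (p := p) (q := 𝔫.comap (algebraMap R S)) 𝔫 h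
  have e : P₀ = Pa := hPa P₀ hP₀' (hP₀''.over).symm
  rw [← e]
  exact hP₀

/-- **Triple points.**  Over every prime `𝔫' ⊇ p` of `R` lies exactly one prime `𝔫` of `S`;
it contains `Pa` and every ideal of `S` whose contraction is contained in `𝔫'`. -/
theorem s36inc_triple [IsDomain S] [FaithfulSMul R S] [Algebra.IsIntegral R S]
    [IsIntegrallyClosed R] (p : Ideal R) [p.IsPrime] (Pa : Ideal S) [Pa.IsPrime]
    (hPa : ∀ Q : Ideal S, Q.IsPrime → Q.comap (algebraMap R S) = p → Q = Pa)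
    {n : ℕ} (hn : 0 < n) (hins : ∀ x : S, ∃ r : R, x ^ n - algebraMap R S r ∈ Pa)
    (𝔫' : Ideal R) [𝔫'.IsPrime] (h : p ≤ 𝔫') :
    ∃ 𝔫 : Ideal S, 𝔫.IsPrime ∧ 𝔫.comap (algebraMap R S) = 𝔫' ∧
      (∀ 𝔫₂ : Ideal S, 𝔫₂.IsPrime → 𝔫₂.comap (algebraMap R S) = 𝔫' → 𝔫₂ = 𝔫) ∧
      Pa ≤ 𝔫 ∧ ∀ P' : Ideal S, P'.comap (algebraMap R S) ≤ 𝔫' → P' ≤ 𝔫 := by
  have huniq : ∀ 𝔫₁ 𝔫₂ : Ideal S, 𝔫₁.IsPrime → 𝔫₂.IsPrime →
      𝔫₁.comap (algebraMap R S) = 𝔫' → 𝔫₂.comap (algebraMap R S) = 𝔫' → 𝔫₁ = 𝔫₂ := by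
    intro 𝔫₁ 𝔫₂ h₁ h₂ e₁ e₂
    have := h₁
    have := h₂
    exact s36inc_eq_of_insep Pa hn hins
      (s36inc_le_of_unique p Pa hPa 𝔫₁ (e₁ ▸ h)) (s36inc_le_of_unique p Pa hPa 𝔫₂ (e₂ ▸ h))
      (e₁.trans e₂.symm)
  obtain ⟨𝔫, -, h𝔫, e𝔫⟩ := Ideal.exists_ideal_over_prime_of_isIntegral 𝔫' (⊥ : Ideal S)
    (by
      intro x hx
      have hx0 : x = 0 := by
        have : algebraMap R S x = 0 := by simpa using hx
        exact (FaithfulSMul.algebraMap_injective R S) (by rw [this, map_zero])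
      rw [hx0]
      exact 𝔫'.zero_mem)
  have := h𝔫
  refine ⟨𝔫, h𝔫, e𝔫, fun 𝔫₂ h₂ e₂ => huniq 𝔫₂ 𝔫 h₂ h𝔫 e₂ e𝔫,
    s36inc_le_of_unique p Pa hPa 𝔫 (e𝔫 ▸ h), ?_⟩
  intro P' hP'
  obtain ⟨Q, hQ, hQ', eQ⟩ := Ideal.exists_ideal_over_prime_of_isIntegral 𝔫' P' hP'
  rw [← huniq Q 𝔫 hQ' h𝔫 eQ e𝔫]
  exact hQ

/-- A prime of `S` over a maximal ideal of `R` is maximal. -/
theorem s36inc_isMaximal [Algebra.IsIntegral R S] (𝔫 : Ideal S) [𝔫.IsPrime]
    (h : (𝔫.comap (algebraMap R S)).IsMaximal) : 𝔫.IsMaximal :=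
  Ideal.isMaximal_of_isIntegral_of_isMaximal_comap 𝔫 h

/-- If `𝔫` is the only prime of `S` over `𝔫'`, every `s ∉ 𝔫` divides the image of an element
of `R ∖ 𝔫'`:  `S_𝔫 = S ⊗ R_𝔫'`. -/
theorem s36inc_exists_mul_mem [Algebra.IsIntegral R S] (𝔫' : Ideal R) [𝔫'.IsPrime]
    (𝔫 : Ideal S)
    (huniq : ∀ 𝔫₂ : Ideal S, 𝔫₂.IsPrime → 𝔫₂.comap (algebraMap R S) = 𝔫' → 𝔫₂ = 𝔫)
    {s : S} (hs : s ∉ 𝔫) : ∃ (s' : S) (r : R), r ∉ 𝔫' ∧ s * s' = algebraMap R S r := by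
  by_contra hcon
  push Not at hcon
  have hle : (Ideal.span {s}).comap (algebraMap R S) ≤ 𝔫' := by
    intro r hr
    by_contra hr'
    rw [Ideal.mem_comap, Ideal.mem_span_singleton'] at hr
    obtain ⟨a, ha⟩ := hr
    exact hcon a r hr' (by rw [mul_comm, ha])
  obtain ⟨Q, hQ, hQ', eQ⟩ := Ideal.exists_ideal_over_prime_of_isIntegral 𝔫' (Ideal.span {s}) hle
  have e := huniq Q hQ' eQ
  apply hs
  rw [← e]
  exact hQ (Ideal.subset_span rfl)

/-- A prime of `S` containing `P₁` and `P₂` lies over a prime of `R` containing their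
contractions: a point on two components maps to a point on their images. -/
theorem s36inc_cross_of_two (P₁ P₂ 𝔫 : Ideal S) (h₁ : P₁ ≤ 𝔫) (h₂ : P₂ ≤ 𝔫) :
    P₁.comap (algebraMap R S) ⊔ P₂.comap (algebraMap R S) ≤ 𝔫.comap (algebraMap R S) :=
  sup_le (Ideal.comap_mono h₁) (Ideal.comap_mono h₂)

end Fermat.Agent.S36
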