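import Fermat.Agent.STB.PushPoly
import Fermat.Agent.S36.H3Div

/-!
# S36: the polynomial step on top of (H3′) — `StmtNewMemDiv` (helper92)

Fork of `STB/PushPoly.lean` (`stb_p3_new`, case `q ∤ M₁`) for `q ∣ M₁`.

* `s36pp_new_of_comm` : generic in the level — if `α_*`, `β_*` commute with the good `T_ℓ` on
  torsion, then a Hecke polynomial `t` in the good variables of level `M₁ q` which vanishes on
  `S₂(Γ₀(M₁))` maps `PDiv (M₁ q) p` into `stbNew M₁ q`;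
* `stmtNewMemDiv_of_pushHeckeDiv : StmtPushHeckeDiv → StmtNewMemDiv`;
* `stmtNewMemDiv : StmtNewMemDiv`.
-/

set_option autoImplicit false
set_option linter.style.haveILetI false
set_option linter.unusedSectionVars false

noncomputable section

namespace Fermat.Agent.S36

open AlgebraicCurve ModularCurve Fermat.Agent.ES Fermat.Agent.STB

section

variable {M₁ q p : ℕ} [NeZero M₁] [NeZero q]

/-- `α_*` intertwines the operators `T_ℓ` on the `p`-divisible torsion, `ℓ` good -/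
theorem s36pp_pDivOp_alpha (hp : p.Prime)
    (hcomm : ∀ ℓ : Nat.Primes, ¬ (ℓ : ℕ) ∣ M₁ * q → ∀ n : ℕ, n ≠ 0 →
      ∀ x : JZero (M₁ * q), n • x = 0 →
        stbPushAlpha M₁ q (heckeOperatorBar (M₁ * q) ℓ x) =
          heckeOperatorBar M₁ ℓ (stbPushAlpha M₁ q x))
    {ℓ : Nat.Primes} (hℓ : ℓ ∈ goodPrimes (M₁ * q) p) (x : PDiv (M₁ * q) p) :
    stbPushAlphaP M₁ q p (pDivOp (M₁ * q) p ℓ x) = pDivOp M₁ p ℓ (stbPushAlphaP M₁ q p x) := by
  apply Subtype.ext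
  obtain ⟨n, hn⟩ := x.2.1
  rw [stbPushAlphaP_coe, pDivOp_of_good hℓ, pDivOp_of_good (stb_good_of_good hℓ),
    stbPushAlphaP_coe]
  exact hcomm ℓ (stb_not_dvd_of_good hℓ) _ (pow_ne_zero n hp.ne_zero) (x : JZero (M₁ * q)) hn

/-- `β_*` intertwines the operators `T_ℓ` on the `p`-divisible torsion, `ℓ` good -/
theorem s36pp_pDivOp_beta (hp : p.Prime)
    (hcomm : ∀ ℓ : Nat.Primes, ¬ (ℓ : ℕ) ∣ M₁ * q → ∀ n : ℕ, n ≠ 0 →
      ∀ x : JZero (M₁ * q), n • x = 0 →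
        stbPushBeta M₁ q (heckeOperatorBar (M₁ * q) ℓ x) =
          heckeOperatorBar M₁ ℓ (stbPushBeta M₁ q x))
    {ℓ : Nat.Primes} (hℓ : ℓ ∈ goodPrimes (M₁ * q) p) (x : PDiv (M₁ * q) p) :
    stbPushBetaP M₁ q p (pDivOp (M₁ * q) p ℓ x) = pDivOp M₁ p ℓ (stbPushBetaP M₁ q p x) := by
  apply Subtype.ext
  obtain ⟨n, hn⟩ := x.2.1
  rw [stbPushBetaP_coe, pDivOp_of_good hℓ, pDivOp_of_good (stb_good_of_good hℓ),
    stbPushBetaP_coe]
  exact hcomm ℓ (stb_not_dvd_of_good hℓ) _ (pow_ne_zero n hp.ne_zero) (x : JZero (M₁ * q)) hn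

/-- polynomial form, `α` -/
theorem s36pp_poly_alpha (hp : p.Prime)
    (hcomm : ∀ ℓ : Nat.Primes, ¬ (ℓ : ℕ) ∣ M₁ * q → ∀ n : ℕ, n ≠ 0 →
      ∀ x : JZero (M₁ * q), n • x = 0 →
        stbPushAlpha M₁ q (heckeOperatorBar (M₁ * q) ℓ x) =
          heckeOperatorBar M₁ ℓ (stbPushAlpha M₁ q x))
    (t : HeckeAlg) (ht : t ∈ MvPolynomial.supported ℤ (goodPrimes (M₁ * q) p))
    (x : PDiv (M₁ * q) p) :
    stbPushAlphaP M₁ q p (letI := pDivModule (M₁ * q) p; t • x) =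
      (letI := pDivModule M₁ p; t • stbPushAlphaP M₁ q p x) := by
  rw [stb_pDiv_smul_def (M₁ * q) hp, stb_pDiv_smul_def M₁ hp]
  exact stb_tfEval_comm_of_comm _ _ (stbPushAlphaP M₁ q p) (goodPrimes (M₁ * q) p)
    (fun ℓ hℓ y => s36pp_pDivOp_alpha hp hcomm hℓ y) t ht x

/-- polynomial form, `β` -/
theorem s36pp_poly_beta (hp : p.Prime)
    (hcomm : ∀ ℓ : Nat.Primes, ¬ (ℓ : ℕ) ∣ M₁ * q → ∀ n : ℕ, n ≠ 0 →
      ∀ x : JZero (M₁ * q), n • x = 0 →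
        stbPushBeta M₁ q (heckeOperatorBar (M₁ * q) ℓ x) =
          heckeOperatorBar M₁ ℓ (stbPushBeta M₁ q x))
    (t : HeckeAlg) (ht : t ∈ MvPolynomial.supported ℤ (goodPrimes (M₁ * q) p))
    (x : PDiv (M₁ * q) p) :
    stbPushBetaP M₁ q p (letI := pDivModule (M₁ * q) p; t • x) =
      (letI := pDivModule M₁ p; t • stbPushBetaP M₁ q p x) := by
  rw [stb_pDiv_smul_def (M₁ * q) hp, stb_pDiv_smul_def M₁ hp]
  exact stb_tfEval_comm_of_comm _ _ (stbPushBetaP M₁ q p) (goodPrimes (M₁ * q) p)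
    (fun ℓ hℓ y => s36pp_pDivOp_beta hp hcomm hℓ y) t ht x

/-- **generic (P2) + (P3)**: if `α_*`, `β_*` commute with the good Hecke operators on torsion,
a Hecke polynomial in the good variables of level `M₁ q` which vanishes on `S₂(Γ₀(M₁))` maps
`PDiv (M₁ q) p` into `stbNew M₁ q`. -/
theorem s36pp_new_of_comm (hp : p.Prime)
    (hcomm : ∀ ℓ : Nat.Primes, ¬ (ℓ : ℕ) ∣ M₁ * q → ∀ n : ℕ, n ≠ 0 →
      ∀ x : JZero (M₁ * q), n • x = 0 →
        stbPushAlpha M₁ q (heckeOperatorBar (M₁ * q) ℓ x) =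
            heckeOperatorBar M₁ ℓ (stbPushAlpha M₁ q x) ∧
          stbPushBeta M₁ q (heckeOperatorBar (M₁ * q) ℓ x) =
            heckeOperatorBar M₁ ℓ (stbPushBeta M₁ q x))
    (t : HeckeAlg) (ht : t ∈ MvPolynomial.supported ℤ (goodPrimes (M₁ * q) p))
    (h0 : CuspForm.heckeEvalForms M₁ 2 t = 0) (x : PDiv (M₁ * q) p) :
    (((letI := pDivModule (M₁ * q) p; t • x) : PDiv (M₁ * q) p) : JZero (M₁ * q)) ∈
      stbNew M₁ q := by
  have hkill : ∀ y : PDiv M₁ p, (letI := pDivModule M₁ p; t • y) = 0 := by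
    intro y
    refine stb_p2_kills hp t (MvPolynomial.supported_mono ?_ ht) h0 y
    intro ℓ hℓ
    exact stb_good_of_good hℓ
  rw [mem_stbNew]
  constructor
  · have h := s36pp_poly_alpha hp (fun ℓ hℓ n hn x hx => (hcomm ℓ hℓ n hn x hx).1) t ht x
    rw [hkill] at h
    exact congrArg (fun y : PDiv M₁ p => (y : JZero M₁)) h
  · have h := s36pp_poly_beta hp (fun ℓ hℓ n hn x hx => (hcomm ℓ hℓ n hn x hx).2) t ht x
    rw [hkill] at h
    exact congrArg (fun y : PDiv M₁ p => (y : JZero M₁)) h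

end

/-- `StmtPushHeckeDiv → StmtNewMemDiv` -/
theorem stmtNewMemDiv_of_pushHeckeDiv (h : StmtPushHeckeDiv) : StmtNewMemDiv :=
  fun M₁ q _ _ _ hp hq hqM t ht h0 x =>
    s36pp_new_of_comm hp (fun ℓ hℓ n hn y hy => h M₁ q hq hqM ℓ hℓ n hn y hy) t ht h0 x

/-- **`StmtNewMemDiv`** -/
theorem stmtNewMemDiv : StmtNewMemDiv :=
  stmtNewMemDiv_of_pushHeckeDiv stmtPushHeckeDiv_of_fricke

end Fermat.Agent.S36
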