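import Fermat.Agent.S36.Final
import Fermat.Agent.S36.PushPolyDiv
import Fermat.Agent.STB.NewPoly
import Fermat.Agent.ES.FaithOfInputs
import Fermat.Agent.ES.TorsionUnifProved
import Fermat.Agent.INJ.InjAll
import Fermat.Agent.Cheb.Final

/-!
# S36: the landed inputs of `s36_of_inputs`, discharged (helper31)

* `s36in_esIn : S35.StmtESIn` — the Eichler–Shimura package on `PDiv N p`;
* `s36in_newPoly : S35.StmtNewPoly` — STB-P1 (helper46);
* `s36_of_geometry` : S36 (in the form `S36Concl`) from the two open inputs, the geometric clause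
  `StmtCarayol` and the algebraic half `StmtH8`.
-/

set_option autoImplicit false
set_option linter.unusedVariables false

open Polynomial

noncomputable section

namespace Fermat.Agent.S36

open ModularCurve Fermat.Agent.ES Fermat.Agent.S31 Fermat.Agent.S30 Fermat.Agent.STB
open Fermat.Agent.S35 (StmtNewPoly StmtESIn)

/-- the Eichler–Shimura package on `PDiv N p` -/
theorem s36in_esIn : StmtESIn := fun N p _ hp =>
  ⟨torsionUnif_proved N p hp.pos, stmtFiniteLevel N p hp.ne_zero,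
    G2.stmtFrob_of_stmtINJAll Fermat.Agent.INJ.injAll_stmtINJAll N p,
    G2.stmtUnram_of_stmtINJAll Fermat.Agent.INJ.injAll_stmtINJAll N p⟩

/-- the faithful package at every level -/
theorem s36in_pkg (N p : ℕ) [NeZero N] (hp : p.Prime) : ESPkgFaith N p :=
  esPkgFaith_of_inputs Fermat.Agent.INJ.injAll_stmtINJAll hp (torsionUnif_proved N p hp.pos)

/-- STB-P1 in the form consumed by the final glue -/
theorem s36in_newPoly : StmtNewPoly := by
  intro M _ g hg M₁ _ hM₁ hne S hMS O' _ _ _ chig hchig iota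
  exact stb_p1_iota (fun N p _ hp => s36in_pkg N p hp) hg hM₁ hne S hMS chig hchig iota

/-- **S36 from the geometric clause and the algebraic half.** -/
theorem s36_of_geometry (hG : StmtCarayol) (hH8 : StmtH8)
    {M : ℕ} [NeZero M] {g : CuspForm (CongruenceSubgroup.Gamma0 M) 2} (hg : g.IsNewform)
    (lam : ℕ) [Fact lam.Prime]
    (S : Finset ℕ)
    (O' : Type) [CommRing O'] [IsDomain O'] [IsDiscreteValuationRing O']
    [IsAdicComplete (IsLocalRing.maximalIdeal O') O'] [Finite (IsLocalRing.ResidueField O')]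
    [CharZero O'] (hlamO' : (lam : O') ∈ IsLocalRing.maximalIdeal O')
    (hlam2 : lam ≠ 2)
    (chig : CuspForm.heckeAlgebra M 2 (↑S : Set ℕ) →+* ℂ)
    (hchig : ∀ (ℓ : ℕ) (hℓ : ℓ.Prime) (hℓM : ¬ ℓ ∣ M) (hℓS : ℓ ∉ (↑S : Set ℕ)),
      chig (CuspForm.heckeAlgebra.T hℓ hℓM hℓS) = ModularFormClass.qCoeff g ℓ)
    (iota : chig.range →+* O')
    (hlamS : lam ∈ S) (hMS : ∀ q : ℕ, q.Prime → q ∣ M → q ∈ S)
    (hres : ∀ (O'' : Type) [CommRing O''] [IsDomain O''] [IsDiscreteValuationRing O'']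
      [IsAdicComplete (IsLocalRing.maximalIdeal O'') O''] [Finite (IsLocalRing.ResidueField O'')]
      [CharZero O''] [Algebra O' O''] [Module.Finite O' O''] [IsLocalHom (algebraMap O' O'')],
      Function.Injective (algebraMap O' O'') → ∀ (ρ : GaloisRepAdic O''),
      (∀ (ℓ : ℕ) (hℓ : ℓ.Prime) (hℓlam : ℓ ≠ lam) (hℓM : ¬ ℓ ∣ M) (hℓS : ℓ ∉ (↑S : Set ℕ)),
        ∀ A : ValuationSubring (AlgebraicClosure ℚ), A.LiesOverPrime ℓ →
          ∀ σ : AlgebraicClosure ℚ ≃ₐ[ℚ] AlgebraicClosure ℚ, A.IsFrobeniusAt σ ℓ →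
            LinearMap.charpoly (ρ.ρ σ) =
              X ^ 2 - C (algebraMap O' O'' ((iota.comp chig.rangeRestrict)
                (CuspForm.heckeAlgebra.T hℓ hℓM hℓS))) * X + C ((ℓ : O'')))
      → ρ.residual.IsAbsolutelyIrreducible ∧ ρ.residual.IsOdd) :
    S36Concl lam M S O' (iota.comp chig.rangeRestrict) :=
  s36_of_inputs Cheb.weakChebotarev_holds s36in_esIn hG s36in_newPoly stmtNewMemDiv hH8 hg lam S
    O' hlamO' hlam2 chig hchig iota hlamS hMS hres

end Fermat.Agent.S36
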