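import Mathlib

/-!
# S36, piece A2: `2 × 2` Kolchin

Over a reduced commutative ring: if `A`, `B`, `A * B` have trace `2` and `A`, `B` have
determinant `1`, then `(A - 1) * (B - 1) = 0`.
-/

set_option autoImplicit false

namespace Fermat.Agent.S36

open Matrix

variable {K : Type*} [CommRing K] [IsReduced K]

/-- **Kolchin for `2 × 2` matrices**, in coordinates. -/
theorem s36_kolchin_entries (a b c d a' b' c' d' : K)
    (htr : a + d = 2) (hdet : a * d - b * c = 1)
    (htr' : a' + d' = 2) (hdet' : a' * d' - b' * c' = 1)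
    (hprod : a * a' + b * c' + (c * b' + d * d') = 2) :
    (a - 1) * (a' - 1) + b * c' = 0 ∧ (a - 1) * b' + b * (d' - 1) = 0 ∧
      c * (a' - 1) + (d - 1) * c' = 0 ∧ c * b' + (d - 1) * (d' - 1) = 0 := by
  have hd : d = 2 - a := by linear_combination htr
  have hd' : d' = 2 - a' := by linear_combination htr'
  subst hd hd'
  have h1 : (a - 1) ^ 2 + b * c = 0 := by linear_combination -hdet
  have h2 : (a' - 1) ^ 2 + b' * c' = 0 := by linear_combination -hdet'
  have h3 : 2 * (a - 1) * (a' - 1) + b * c' + c * b' = 0 := by linear_combination hprod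
  have e00 : ((a - 1) * (a' - 1) + b * c') ^ 2 = 0 := by
    linear_combination (a' - 1) ^ 2 * h1 - b * c * h2 + b * c' * h3
  have e01 : ((a - 1) * b' + b * (2 - a' - 1)) ^ 2 = 0 := by
    linear_combination b' ^ 2 * h1 + b ^ 2 * h2 - b * b' * h3
  have e10 : (c * (a' - 1) + (2 - a - 1) * c') ^ 2 = 0 := by
    linear_combination c' ^ 2 * h1 + c ^ 2 * h2 - c * c' * h3
  have e11 : (c * b' + (2 - a - 1) * (2 - a' - 1)) ^ 2 = 0 := by
    linear_combination (a' - 1) ^ 2 * h1 - b * c * h2 + c * b' * h3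
  exact ⟨(pow_eq_zero_iff two_ne_zero).mp e00, (pow_eq_zero_iff two_ne_zero).mp e01,
    (pow_eq_zero_iff two_ne_zero).mp e10, (pow_eq_zero_iff two_ne_zero).mp e11⟩

/-- **Kolchin for `2 × 2` matrices**: if `A`, `B`, `A * B` have trace `2` and `A`, `B` have
determinant `1`, then `(A - 1) * (B - 1) = 0`. -/
theorem s36_kolchin (A B : Matrix (Fin 2) (Fin 2) K)
    (hA : A.trace = 2) (hA' : A.det = 1) (hB : B.trace = 2) (hB' : B.det = 1)
    (hAB : (A * B).trace = 2) : (A - 1) * (B - 1) = 0 := by
  rw [Matrix.trace_fin_two] at hA hB hAB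
  rw [Matrix.det_fin_two] at hA' hB'
  simp only [Matrix.mul_apply, Fin.sum_univ_two] at hAB
  obtain ⟨e00, e01, e10, e11⟩ := s36_kolchin_entries (A 0 0) (A 0 1) (A 1 0) (A 1 1)
    (B 0 0) (B 0 1) (B 1 0) (B 1 1) hA hA' hB hB' hAB
  ext i j
  fin_cases i <;> fin_cases j <;>
    simp [Matrix.mul_apply, Fin.sum_univ_two, Matrix.sub_apply, Matrix.one_apply] <;>
    first
      | linear_combination e00
      | linear_combination e01
      | linear_combination e10
      | linear_combination e11

end Fermat.Agent.S36
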