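import Fermat.Agent.STB.KronQ

/-!
# S36 geometry, piece G-kron (helper62): the norm along `β` when `q ∣ M`

`q` prime, `q ∣ M`, `F = F_M`, `F' = F_{Mq}` (`modularFunctionFieldBar`), `β = heckeBetaBar ℚ̄ M q :
F → F'`, `x ↦ x(t^q)`.  Then `F'` has degree `q` over `β F`, the conjugates of `y ∈ F'` are the
rotations `y(ζ^b t)` (`b < q`), and so

* `s36k_deg : stbDeg β = q`  (Igusa's degree theorem + the tower law in the square
  `F_1 → F_{1·q} ⊂ F_{Mq}`, `F_1 ⊂ F_M → F_{Mq}`; `[F_{1·q} : β F_1] = q + 1` by the swap `w_q`);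
* `s36k_finite : StbFinite β`;
* `s36k_norm : N_β y = kronNorm q ζ y = ∏_{b<q} y(ζ^b t^{1/q})` as `q`-expansions, for ALL `y ∈ F'`
  (`stmtKronDiv : StmtKronDiv`);
* `s36k_beta_norm : β (N_β y) = ∏_{b<q} y(ζ^b t)`;
* `s36k_kronNorm_mem : kronNorm q ζ y ∈ F_M` for `y ∈ F_{Mq}`.
-/

set_option autoImplicit false
set_option linter.style.haveILetI false
set_option linter.unusedSectionVars false

noncomputable section

namespace Fermat.Agent.S36

open ModularCurve AlgebraicCurve Fermat.Agent.ES Fermat.Agent.ES.G2 Fermat.Agent.STB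
  Fermat.Agent.UNIP HahnSeries IntermediateField

/-- **G-kron**: for `q ∣ M` the norm along `β : F_M → F_{Mq}` is the product over the rotations. -/
def StmtKronDiv : Prop :=
  ∀ (q M : ℕ) [NeZero q] [NeZero M] [NeZero (M * q)], q.Prime → q ∣ M →
    ∀ ζ : Qbˣ, IsPrimitiveRoot ζ q →
      ∀ y : modularFunctionFieldBar (M * q),
        ((stbNorm (heckeBetaBar Qb M q).toRingHom y : modularFunctionFieldBar M) :
          LaurentSeries Qb) = kronNorm q ζ (y : LaurentSeries Qb)

section Deg

variable {q M : ℕ} [NeZero q] [NeZero M] [NeZero (M * q)]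

/-- `F_N = ℚ̄(j(t^d) : d ∣ N)` -/
theorem s36k_bar_eq (N : ℕ) :
    modularFunctionFieldBar N = modularFunctionFieldFullC Qb N :=
  hdeg_laurentBaseChange_full Qb N

theorem s36k_bar_mono {a b : ℕ} (h : a ∣ b) :
    modularFunctionFieldBar a ≤ modularFunctionFieldBar b := by
  rw [s36k_bar_eq, s36k_bar_eq]
  exact Fermat.Agent.S28.UB.full_mono Qb h

/-- Igusa: `[F_N : F_1] = ψ(N)` -/
theorem s36k_relfinrank_one (N : ℕ) [NeZero N] :
    (modularFunctionFieldBar 1).relfinrank (modularFunctionFieldBar N) = dedekindPsi N := by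
  rw [s36k_bar_eq, s36k_bar_eq, Fermat.Agent.S28.UB.full_one]
  exact Fermat.Agent.S28.relfinrank_full_eq_dedekindPsi Qb N
    (Nat.cast_ne_zero.mpr (NeZero.ne N))

/-- `stbDeg` of an inclusion of intermediate fields -/
theorem s36k_stbDeg_inclusion {k E : Type*} [Field k] [Field E] [Algebra k E]
    {A B : IntermediateField k E} (h : A ≤ B) :
    stbDeg (IntermediateField.inclusion h).toRingHom = A.relfinrank B := by
  unfold stbDeg
  exact hdeg_finrank_inclusion h

/-- the swap: `[F_{1·q} : β F_1] = q + 1` -/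
theorem s36k_deg_beta_one (hq : q.Prime) [NeZero (1 * q)] :
    stbDeg (heckeBetaBar Qb 1 q).toRingHom = q + 1 := by
  have hq1 : ¬ q ∣ 1 := fun h => hq.one_lt.ne' (Nat.dvd_one.1 h)
  have e : (heckeBetaBar Qb 1 q).toRingHom =
      (((atkinLehnerBar hq hq1).toRingEquiv :
          modularFunctionFieldBar (1 * q) ≃+* modularFunctionFieldBar (1 * q)) :
        modularFunctionFieldBar (1 * q) →+* modularFunctionFieldBar (1 * q)).comp
        (heckeAlphaBar Qb 1 q).toRingHom := by
    refine RingHom.ext fun x => ?_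
    exact (stb_k_w_alpha hq hq1 x).symm
  rw [e, stb_finrank_equiv_comp]
  exact stb_k_deg hq hq1

end Deg

section Main

variable {q M : ℕ} [NeZero q] [NeZero M] [NeZero (M * q)] (hq : q.Prime) (hqM : q ∣ M)

include hq hqM in
/-- **degree along `β`** for `q ∣ M` -/
theorem s36k_deg : stbDeg (heckeBetaBar Qb M q).toRingHom = q := by
  haveI : NeZero (1 * q) := ⟨by rw [one_mul]; exact NeZero.ne q⟩
  have h1M : modularFunctionFieldBar 1 ≤ modularFunctionFieldBar M := s36k_bar_mono (one_dvd M)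
  have hqMq : modularFunctionFieldBar (1 * q) ≤ modularFunctionFieldBar (M * q) :=
    s36k_bar_mono (Nat.mul_dvd_mul_right (one_dvd M) q)
  have h1q : modularFunctionFieldBar 1 ≤ modularFunctionFieldBar (1 * q) :=
    s36k_bar_mono (one_dvd _)
  -- the commutative square
  have hsq : (IntermediateField.inclusion hqMq).toRingHom.comp (heckeBetaBar Qb 1 q).toRingHom =
      (heckeBetaBar Qb M q).toRingHom.comp (IntermediateField.inclusion h1M).toRingHom := by
    refine RingHom.ext fun x => Subtype.ext ?_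
    have e1 : (((IntermediateField.inclusion hqMq).toRingHom.comp
        (heckeBetaBar Qb 1 q).toRingHom) x : LaurentSeries Qb) =
          ((heckeBetaBar Qb 1 q x : modularFunctionFieldBar (1 * q)) : LaurentSeries Qb) :=
      IntermediateField.coe_inclusion hqMq (heckeBetaBar Qb 1 q x)
    have e2 : (((heckeBetaBar Qb M q).toRingHom.comp
        (IntermediateField.inclusion h1M).toRingHom) x : LaurentSeries Qb) =
          qExpand Qb q ((IntermediateField.inclusion h1M x : modularFunctionFieldBar M) :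
            LaurentSeries Qb) :=
      coe_heckeBetaBar M q (IntermediateField.inclusion h1M x)
    rw [e1, e2, coe_heckeBetaBar, IntermediateField.coe_inclusion]
  have hdeg := congrArg stbDeg hsq
  rw [stbDeg_comp, stbDeg_comp, s36k_deg_beta_one hq, s36k_stbDeg_inclusion,
    s36k_stbDeg_inclusion, s36k_relfinrank_one M] at hdeg
  -- Igusa in the tower `F_1 ≤ F_{1·q} ≤ F_{Mq}`
  have ht := relfinrank_mul_relfinrank h1q hqMq
  rw [s36k_relfinrank_one (1 * q), s36k_relfinrank_one (M * q)] at ht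
  have hψq : dedekindPsi (1 * q) = q + 1 := by
    rw [one_mul]
    exact Fermat.Agent.S28.UB.psi_prime hq
  have hψM : dedekindPsi (M * q) = q * dedekindPsi M := by
    rw [Nat.mul_comm]
    exact Fermat.Agent.S28.UB.psi_mul_of_dvd hq hqM (NeZero.ne M)
  rw [hψq, hψM] at ht
  rw [ht] at hdeg
  have hpos : 0 < dedekindPsi M := by
    rcases Nat.eq_zero_or_pos (dedekindPsi M) with h0 | h0
    · exfalso
      have h := s36k_relfinrank_one M
      rw [h0] at h
      have hfin := Fermat.Agent.S28.relrank_full_lt_aleph0_of_ne_zero Qb M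
        (Nat.cast_ne_zero.mpr (NeZero.ne M))
      have hne := Fermat.Agent.S28.UB.relrank_ne_zero (modularFunctionFieldBar 1)
        (modularFunctionFieldBar M)
      rw [relfinrank_eq_toNat_relrank, Cardinal.toNat_eq_zero] at h
      rcases h with h | h
      · exact hne h
      · rw [s36k_bar_eq, s36k_bar_eq, Fermat.Agent.S28.UB.full_one] at h
        exact absurd hfin (not_lt.mpr h)
    · exact h0
  have h2 : dedekindPsi M * stbDeg (heckeBetaBar Qb M q).toRingHom = dedekindPsi M * q := by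
    rw [← hdeg, Nat.mul_comm]
  exact Nat.eq_of_mul_eq_mul_left hpos h2

include hq hqM in
theorem s36k_finite : StbFinite (heckeBetaBar Qb M q).toRingHom := by
  have h := s36k_deg hq hqM
  by_contra hfin
  have h0 : stbDeg (heckeBetaBar Qb M q).toRingHom = 0 :=
    @Module.finrank_of_not_finite (modularFunctionFieldBar M) (modularFunctionFieldBar (M * q))
      _ _ ((heckeBetaBar Qb M q).toRingHom.toAlgebra).toModule _ _ hfin
  rw [h0] at h
  exact hq.ne_zero h.symm

/-- the rotations `y ↦ y(c t)` as embeddings `F_{Mq} → ℚ̄((t))‾` -/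
def s36kRot (M q : ℕ) (c : Qbˣ) : modularFunctionFieldBar (M * q) →+* HnOmegaBar :=
  (algebraMap HnOmega HnOmegaBar).comp
    ((kronRot c).comp (algebraMap (modularFunctionFieldBar (M * q)) (LaurentSeries Qb)))

theorem s36kRot_apply (c : Qbˣ) (y : modularFunctionFieldBar (M * q)) :
    s36kRot M q c y = algebraMap HnOmega HnOmegaBar (kronRot c (y : LaurentSeries Qb)) := rfl

theorem s36kRot_beta (c : Qbˣ) (hc : c ^ q = 1) (x : modularFunctionFieldBar M) :
    s36kRot M q c (heckeBetaBar Qb M q x) = hnBase M q x := by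
  rw [s36kRot_apply, hnBase_apply, coe_heckeBetaBar, qExpand_kronRot_pow, hc, kronRot_one]

theorem s36kRot_injective (ζ : Qbˣ) (hζ : IsPrimitiveRoot ζ q) :
    Function.Injective (fun b : Fin q => s36kRot M q (ζ ^ (b : ℕ))) := by
  intro b b' h
  have h' : s36kRot M q (ζ ^ (b : ℕ)) (hnJ (M * q)) = s36kRot M q (ζ ^ (b' : ℕ)) (hnJ (M * q)) :=
    congrArg (fun f : modularFunctionFieldBar (M * q) →+* HnOmegaBar => f (hnJ (M * q))) h
  rw [s36kRot_apply, s36kRot_apply, hnJ_coe] at h'
  have h2 := congrArg (fun g : LaurentSeries Qb => g.coeff (-1)) (hn_algebraMap_injective h')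
  simp only [kronRot_coeff, hn_jBar_coeff, mul_one] at h2
  have h3 : (ζ ^ (b : ℕ)) ^ (-1 : ℤ) = (ζ ^ (b' : ℕ)) ^ (-1 : ℤ) := Units.ext h2
  have h4 : ζ ^ (b : ℕ) = ζ ^ (b' : ℕ) := by
    have := congrArg (fun u : Qbˣ => u⁻¹) h3
    simpa using this
  exact Fin.ext (hζ.pow_inj b.2 b'.2 h4)

include hq hqM in
/-- **G-kron, norm formula**: `N_β y = ∏_{b<q} y(ζ^b t^{1/q})`. -/
theorem s36k_norm (ζ : Qbˣ) (hζ : IsPrimitiveRoot ζ q) (y : modularFunctionFieldBar (M * q)) :
    ((stbNorm (heckeBetaBar Qb M q).toRingHom y : modularFunctionFieldBar M) :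
      LaurentSeries Qb) = kronNorm q ζ (y : LaurentSeries Qb) := by
  have hsep : letI := (heckeBetaBar Qb M q).toRingHom.toAlgebra
      Algebra.IsSeparable (modularFunctionFieldBar M) (modularFunctionFieldBar (M * q)) := by
    letI := (heckeBetaBar Qb M q).toRingHom.toAlgebra
    haveI : CharZero (modularFunctionFieldBar M) :=
      charZero_of_injective_algebraMap (algebraMap Qb (modularFunctionFieldBar M)).injective
    haveI : FiniteDimensional (modularFunctionFieldBar M) (modularFunctionFieldBar (M * q)) :=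
      s36k_finite hq hqM
    infer_instance
  have hcard : Fintype.card (Fin q) = stbDeg (heckeBetaBar Qb M q).toRingHom := by
    rw [s36k_deg hq hqM, Fintype.card_fin]
  have key := stbNorm_eq_prod (heckeBetaBar Qb M q).toRingHom (s36k_finite hq hqM) hsep
    (hnBase M q) (fun b : Fin q => s36kRot M q (ζ ^ (b : ℕ)))
    (fun b x => s36kRot_beta (ζ ^ (b : ℕ))
      (by rw [← pow_mul, mul_comm, pow_mul, hζ.pow_eq_one, one_pow]) x)
    (s36kRot_injective ζ hζ) hcard y
  simp only [s36kRot_apply] at key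
  rw [hnBase_apply, ← map_prod,
    Fin.prod_univ_eq_prod_range (fun b => kronRot (ζ ^ b) (y : LaurentSeries Qb)) q,
    ← qExpand_kronNorm_field ζ hζ] at key
  exact qExpand_injective q (hn_algebraMap_injective key)

include hq hqM in
/-- `β (N_β y) = ∏_{b<q} y(ζ^b t)` -/
theorem s36k_beta_norm (ζ : Qbˣ) (hζ : IsPrimitiveRoot ζ q)
    (y : modularFunctionFieldBar (M * q)) :
    ((heckeBetaBar Qb M q (stbNorm (heckeBetaBar Qb M q).toRingHom y) :
      modularFunctionFieldBar (M * q)) : LaurentSeries Qb) =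
        ∏ b ∈ Finset.range q, kronRot (ζ ^ b) (y : LaurentSeries Qb) := by
  rw [coe_heckeBetaBar, s36k_norm hq hqM ζ hζ y, qExpand_kronNorm_field ζ hζ]

include hq hqM in
/-- `∏_{b<q} y(ζ^b t^{1/q}) ∈ F_M` for `y ∈ F_{Mq}` -/
theorem s36k_kronNorm_mem (ζ : Qbˣ) (hζ : IsPrimitiveRoot ζ q) {y : LaurentSeries Qb}
    (hy : y ∈ modularFunctionFieldBar (M * q)) :
    kronNorm q ζ y ∈ modularFunctionFieldBar M := by
  rw [← s36k_norm hq hqM ζ hζ ⟨y, hy⟩]
  exact (stbNorm (heckeBetaBar Qb M q).toRingHom ⟨y, hy⟩).2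

end Main

/-- **G-kron.** -/
theorem stmtKronDiv : StmtKronDiv :=
  fun _ _ _ _ _ hq hqM ζ hζ y => s36k_norm hq hqM ζ hζ y

end Fermat.Agent.S36
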