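import Mathlib

/-!
# S36 / G-mid — a field embedding from an equality of the relations (Mathlib only)

`s36midAbsHom` : let `x : ι → L`, `y : ι → L'` be two families in field extensions `L / K`,
`L' / K` with the same polynomial relations over `K`.  Then there is a `K`-algebra homomorphism
`μ : K(x) →ₐ[K] L'` with `μ (x i) = y i` (`s36midAbsHom_gen`).
-/

set_option autoImplicit false

noncomputable section

namespace Fermat.Agent.S36

open MvPolynomial IntermediateField
open scoped IntermediateField.algebraAdjoinAdjoin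

variable {K L L' : Type*} [Field K] [Field L] [Field L'] [Algebra K L] [Algebra K L']
  {ι : Type*} (x : ι → L) (y : ι → L')

/-- The homomorphism `K[x] → L'`, `x i ↦ y i`. -/
def s36midAbsRangeHom
    (hrel : ∀ p : MvPolynomial ι K, aeval x p = 0 → aeval y p = 0) :
    (aeval x : MvPolynomial ι K →ₐ[K] L).range →ₐ[K] L' :=
  (Ideal.Quotient.liftₐ (RingHom.ker (aeval x : MvPolynomial ι K →ₐ[K] L).rangeRestrict)
      (aeval y : MvPolynomial ι K →ₐ[K] L') (by
        intro a ha
        rw [AlgHom.ker_rangeRestrict, RingHom.mem_ker] at ha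
        exact hrel a ha)).comp
    (Ideal.quotientKerAlgEquivOfSurjective
      (AlgHom.rangeRestrict_surjective (aeval x : MvPolynomial ι K →ₐ[K] L))).symm.toAlgHom

theorem s36midAbsRangeHom_apply
    (hrel : ∀ p : MvPolynomial ι K, aeval x p = 0 → aeval y p = 0) (p : MvPolynomial ι K) :
    s36midAbsRangeHom x y hrel ((aeval x : MvPolynomial ι K →ₐ[K] L).rangeRestrict p) =
      aeval y p := by
  unfold s36midAbsRangeHom
  have h := Ideal.quotientKerAlgEquivOfSurjective_symm_apply
    (AlgHom.rangeRestrict_surjective (aeval x : MvPolynomial ι K →ₐ[K] L)) p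
  rw [AlgHom.comp_apply]
  have h2 : (Ideal.quotientKerAlgEquivOfSurjective
      (AlgHom.rangeRestrict_surjective (aeval x : MvPolynomial ι K →ₐ[K] L))).symm.toAlgHom
      ((aeval x : MvPolynomial ι K →ₐ[K] L).rangeRestrict p) =
      Ideal.Quotient.mk _ p := h
  rw [h2]
  rfl

theorem s36midAbsRangeHom_injective
    (hrel : ∀ p : MvPolynomial ι K, aeval x p = 0 → aeval y p = 0)
    (hrel' : ∀ p : MvPolynomial ι K, aeval y p = 0 → aeval x p = 0) :
    Function.Injective (s36midAbsRangeHom x y hrel) := by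
  rw [injective_iff_map_eq_zero]
  rintro ⟨a, p, rfl⟩ ha
  have h1 : (⟨aeval x p, p, rfl⟩ : (aeval x : MvPolynomial ι K →ₐ[K] L).range) =
      (aeval x : MvPolynomial ι K →ₐ[K] L).rangeRestrict p := rfl
  have h0 : (⟨(aeval x : MvPolynomial ι K →ₐ[K] L).toRingHom p, p, rfl⟩ :
      (aeval x : MvPolynomial ι K →ₐ[K] L).range) =
      (aeval x : MvPolynomial ι K →ₐ[K] L).rangeRestrict p := rfl
  rw [h0, s36midAbsRangeHom_apply] at ha
  rw [h0]
  apply Subtype.ext
  exact hrel' p ha

/-- The homomorphism `K[x] → L'` on `Algebra.adjoin`. -/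
def s36midAbsAdjoinHom
    (hrel : ∀ p : MvPolynomial ι K, aeval x p = 0 → aeval y p = 0) :
    Algebra.adjoin K (Set.range x) →ₐ[K] L' :=
  (s36midAbsRangeHom x y hrel).comp
    (Subalgebra.equivOfEq _ _ (Algebra.adjoin_range_eq_range_aeval K x)).toAlgHom

theorem s36midAbsAdjoinHom_injective
    (hrel : ∀ p : MvPolynomial ι K, aeval x p = 0 → aeval y p = 0)
    (hrel' : ∀ p : MvPolynomial ι K, aeval y p = 0 → aeval x p = 0) :
    Function.Injective (s36midAbsAdjoinHom x y hrel) := by
  unfold s36midAbsAdjoinHom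
  exact (s36midAbsRangeHom_injective x y hrel hrel').comp (AlgEquiv.injective _)

theorem s36midAbsAdjoinHom_gen
    (hrel : ∀ p : MvPolynomial ι K, aeval x p = 0 → aeval y p = 0) (i : ι) :
    s36midAbsAdjoinHom x y hrel ⟨x i, Algebra.subset_adjoin ⟨i, rfl⟩⟩ = y i := by
  unfold s36midAbsAdjoinHom
  show s36midAbsRangeHom x y hrel (Subalgebra.equivOfEq _ _
    (Algebra.adjoin_range_eq_range_aeval K x) ⟨x i, Algebra.subset_adjoin ⟨i, rfl⟩⟩) = y i
  have h1 : (Subalgebra.equivOfEq _ _ (Algebra.adjoin_range_eq_range_aeval K x)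
      ⟨x i, Algebra.subset_adjoin ⟨i, rfl⟩⟩ : (aeval x : MvPolynomial ι K →ₐ[K] L).range) =
      (aeval x : MvPolynomial ι K →ₐ[K] L).rangeRestrict (X i) := by
    apply Subtype.ext
    simp
  rw [h1, s36midAbsRangeHom_apply, aeval_X]

/-- **The embedding `K(x) → L'`, `x i ↦ y i`.** -/
def s36midAbsHom
    (hrel : ∀ p : MvPolynomial ι K, aeval x p = 0 → aeval y p = 0)
    (hrel' : ∀ p : MvPolynomial ι K, aeval y p = 0 → aeval x p = 0) :
    adjoin K (Set.range x) →ₐ[K] L' :=
  IsFractionRing.liftAlgHom (A := Algebra.adjoin K (Set.range x))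
    (K := adjoin K (Set.range x)) (s36midAbsAdjoinHom_injective x y hrel hrel')

theorem s36midAbsHom_gen
    (hrel : ∀ p : MvPolynomial ι K, aeval x p = 0 → aeval y p = 0)
    (hrel' : ∀ p : MvPolynomial ι K, aeval y p = 0 → aeval x p = 0) (i : ι) :
    s36midAbsHom x y hrel hrel' ⟨x i, subset_adjoin K _ ⟨i, rfl⟩⟩ = y i := by
  have h1 : (⟨x i, subset_adjoin K _ ⟨i, rfl⟩⟩ : adjoin K (Set.range x)) =
      algebraMap (Algebra.adjoin K (Set.range x)) (adjoin K (Set.range x))
        ⟨x i, Algebra.subset_adjoin ⟨i, rfl⟩⟩ := rfl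
  rw [h1, s36midAbsHom, IsFractionRing.liftAlgHom_apply, IsFractionRing.lift_algebraMap]
  exact s36midAbsAdjoinHom_gen x y hrel i

end Fermat.Agent.S36

end
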