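import Fermat.Agent.S36.MidTheta
import Fermat.Agent.S36.MidCuspPlan

/-!
# S36 / N2-theta, modular part: `Π_s = s(Q^{q²}) − s(Q)` at the middle cusp and at `∞`

`s ∈ F_M(K)` (level `M`, `q ∤ M`), `Π_s := qExpand q (qExpand q s) − s ∈ F_{M q²}(K)`.

* (θ4) `s36th_emb_Pi` : at the middle cusp (`h : S36MidEmb K q M ζ`, `ζ ^ q = 1`),
  `μ (Π_s) = s(ζ Q) − s(Q)`; `s36th_emb_Pi_D` : `= C (ζ − 1) * D_ζ s`.
  With `MidTheta.lean` (`s36th_mem_nonunits`, `s36th_div_mem`, `s36th_pow_div_mem`): for `s`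
  with integral expansion, `Π_s ∈ 𝔪(V_c)`, `Π_s / (ζ − 1)` reduces to `θ s̄` and
  `Π_s ^ (q − 1) / q` reduces to `− (θ s̄) ^ (q − 1)`.
* (θ5) at `∞` (plain expansion): `s36th_inf_coeffMap`, `s36th_inf_mem`, `s36th_inf_red`:
  `Π_s` is integral with reduction `s̄(Q^{q²}) − s̄(Q)`; `s36th_qExpand_sq_frob` : in
  characteristic `q` this is `(θ² s̄) ^ (q²) − s̄` for `θ` inverse to the Frobenius of the
  coefficients; `s36th_qExpand_sub_ne_zero` : it is nonzero if `s̄` is not constant;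
  valuation forms `s36th_inf_mem_vtSub`, `s36th_inf_gaussRed`, `s36th_inf_unit`.
-/

set_option autoImplicit false
set_option linter.unusedSectionVars false
set_option linter.unusedVariables false
set_option linter.style.haveILetI false

noncomputable section

namespace Fermat.Agent.S36

open ModularCurve HahnSeries Fermat.Agent.ES Fermat.Agent.INJ Fermat.Agent.UNIP
open Fermat.Agent.S28.Deriv Fermat.Agent.AL

/-! ## 1. Formal lemmas on `qExpand` -/

section Formal

variable {R : Type*} [CommRing R]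

/-- a series with `T(Q^N) = T(Q)`, `N ≥ 2`, is constant. -/
theorem s36th_coeff_eq_zero_of_qExpand_eq {N : ℕ} [NeZero N] (hN : 2 ≤ N)
    {T : LaurentSeries R} (h : qExpand R N T = T) : ∀ n : ℤ, n ≠ 0 → T.coeff n = 0 := by
  have key : ∀ k : ℕ, ∀ n : ℤ, n.natAbs = k → n ≠ 0 → T.coeff n = 0 := by
    intro k
    induction k using Nat.strong_induction_on with
    | _ k ih =>
      intro n hk hn0
      by_cases hdvd : (N : ℤ) ∣ n
      · obtain ⟨m, rfl⟩ := hdvd
        have hm0 : m ≠ 0 := by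
          rintro rfl
          simp at hn0
        have h1 : T.coeff ((N : ℤ) * m) = T.coeff m := by
          conv_lhs => rw [← h]
          rw [qExpand_coeff_mul]
        have hlt : m.natAbs < k := by
          rw [← hk, Int.natAbs_mul, Int.natAbs_natCast]
          have : 0 < m.natAbs := Int.natAbs_pos.mpr hm0
          nlinarith
        rw [h1]
        exact ih _ hlt m rfl hm0
      · rw [← h]
        exact qExpand_coeff_of_not_dvd N T hdvd
  exact fun n hn => key _ n rfl hn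

/-- **`T(Q^N) − T(Q) ≠ 0`** for a non-constant series `T` (`N ≥ 2`). -/
theorem s36th_qExpand_sub_ne_zero {N : ℕ} [NeZero N] (hN : 2 ≤ N) {T : LaurentSeries R}
    (hT : ∃ n : ℤ, n ≠ 0 ∧ T.coeff n ≠ 0) : qExpand R N T - T ≠ 0 := by
  intro h
  obtain ⟨n, hn0, hn⟩ := hT
  exact hn (s36th_coeff_eq_zero_of_qExpand_eq hN (sub_eq_zero.mp h) n hn0)

/-- the same for `T(Q^{q²})`. -/
theorem s36th_qExpand_sq_sub_ne_zero {q : ℕ} [NeZero q] (hq : 2 ≤ q) {T : LaurentSeries R}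
    (hT : ∃ n : ℤ, n ≠ 0 ∧ T.coeff n ≠ 0) : qExpand R q (qExpand R q T) - T ≠ 0 := by
  haveI : NeZero (q * q) := ⟨Nat.mul_ne_zero (NeZero.ne q) (NeZero.ne q)⟩
  rw [qExpand_qExpand]
  exact s36th_qExpand_sub_ne_zero (by nlinarith) hT

variable {k : Type*} [Field k]

/-- **Frobenius**: in characteristic `q`, `g(Q^q) = (θ g)(Q)^q` for every `θ` inverse to the
Frobenius on the coefficients. -/
theorem s36th_qExpand_frob (q : ℕ) [hq : Fact q.Prime] [NeZero q] [CharP k q]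
    (θ : k →+* k) (hθ : ∀ x, θ x ^ q = x) (g : LaurentSeries k) :
    qExpand k q g = (coeffMap θ g) ^ q := by
  haveI : ExpChar k q := ExpChar.prime hq.out
  rw [kron_frobenius_pow q (coeffMap θ g), coeffMap_coeffMap]
  congr 1
  have : (frobenius k q).comp θ = RingHom.id k := by
    apply RingHom.ext
    intro x
    show (θ x) ^ q = x
    exact hθ x
  rw [this, coeffMap_id]

/-- **Frobenius, twice**: `g(Q^{q²}) = (θ² g)(Q)^{q²}`. -/
theorem s36th_qExpand_sq_frob (q : ℕ) [hq : Fact q.Prime] [NeZero q] [CharP k q]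
    (θ : k →+* k) (hθ : ∀ x, θ x ^ q = x) (g : LaurentSeries k) :
    qExpand k q (qExpand k q g) = (coeffMap θ (coeffMap θ g)) ^ (q ^ 2) := by
  rw [s36th_qExpand_frob q θ hθ g, map_pow, s36th_qExpand_frob q θ hθ (coeffMap θ g),
    ← pow_mul, sq]

end Formal

/-! ## 2. (θ5): `Π_s` at `∞` -/

section Inf

variable {A E k : Type*} [CommRing A] [Field E] [Field k] {ι : A →+* E} {r : A →+* k}
  (q : ℕ) [NeZero q]

/-- `s(Q^{q²}) − s(Q)` for `s = ι̂ S`. -/
theorem s36th_inf_coeffMap (ι : A →+* E) (S : LaurentSeries A) :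
    qExpand E q (qExpand E q (coeffMap ι S)) - coeffMap ι S =
      coeffMap ι (qExpand A q (qExpand A q S) - S) := by
  rw [map_sub, coeffMap_qExpand, coeffMap_qExpand]

theorem s36th_inf_mem (ι : A →+* E) (r : A →+* k) (S : LaurentSeries A) :
    qExpand E q (qExpand E q (coeffMap ι S)) - coeffMap ι S ∈ gaussRing ι r := by
  rw [s36th_inf_coeffMap]
  exact coeffMap_mem_gaussRing ι r _

/-- **(θ5)** the reduction of `Π_s` at `∞` is `s̄(Q^{q²}) − s̄(Q)`. -/
theorem s36th_inf_red (hι : Function.Injective ι) (S : LaurentSeries A) :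
    gaussRed r hι ⟨qExpand E q (qExpand E q (coeffMap ι S)) - coeffMap ι S,
      s36th_inf_mem q ι r S⟩ =
      qExpand k q (qExpand k q (coeffMap r S)) - coeffMap r S := by
  have h1 : (⟨qExpand E q (qExpand E q (coeffMap ι S)) - coeffMap ι S,
      s36th_inf_mem q ι r S⟩ : gaussRing ι r) =
      ⟨coeffMap ι (qExpand A q (qExpand A q S) - S), coeffMap_mem_gaussRing ι r _⟩ :=
    Subtype.ext (s36th_inf_coeffMap q ι S)
  rw [h1, gaussRed_coeffMap, map_sub, coeffMap_qExpand, coeffMap_qExpand]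

variable {π : A} {F : Type*} [Field F]
  (hB : VtBase ι r π) (e : F →+* LaurentSeries E) (hfrac : ∀ x : F, VtFrac ι (e x))

/-- `Π_s` lies in the vertical valuation subring at `∞`. -/
theorem s36th_inf_mem_vtSub {x : F} {S : LaurentSeries A}
    (hx : e x = qExpand E q (qExpand E q (coeffMap ι S)) - coeffMap ι S) :
    x ∈ vtSub hB e hfrac := by
  rw [mem_vtSub, hx]
  exact s36th_inf_mem q ι r S

/-- **(θ5)** the reduction of `Π_s` at `∞`. -/
theorem s36th_inf_gaussRed {x : F} {S : LaurentSeries A}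
    (hx : e x = qExpand E q (qExpand E q (coeffMap ι S)) - coeffMap ι S) :
    ∃ h : e x ∈ gaussRing ι r,
      gaussRed r hB.inj ⟨e x, h⟩ = qExpand k q (qExpand k q (coeffMap r S)) - coeffMap r S := by
  have hmem : e x ∈ gaussRing ι r := by rw [hx]; exact s36th_inf_mem q ι r S
  refine ⟨hmem, ?_⟩
  have h1 : (⟨e x, hmem⟩ : gaussRing ι r) =
      ⟨qExpand E q (qExpand E q (coeffMap ι S)) - coeffMap ι S, s36th_inf_mem q ι r S⟩ :=
    Subtype.ext hx
  rw [h1]
  exact s36th_inf_red q hB.inj S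

/-- **(θ5)** `Π_s` is a unit of the vertical valuation at `∞` if `s̄` is not constant. -/
theorem s36th_inf_unit (hq : 2 ≤ q) {x : F} {S : LaurentSeries A}
    (hx : e x = qExpand E q (qExpand E q (coeffMap ι S)) - coeffMap ι S)
    (hS : ∃ n : ℤ, n ≠ 0 ∧ r (S.coeff n) ≠ 0) :
    x ∉ (vtSub hB e hfrac).nonunits := by
  obtain ⟨hmem, hred⟩ := s36th_inf_gaussRed q hB e hx
  rw [vtSub_mem_nonunits_iff]
  rintro ⟨hmem', h0⟩
  have h1 : qExpand k q (qExpand k q (coeffMap r S)) - coeffMap r S = 0 := by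
    rw [← hred]; exact h0
  refine s36th_qExpand_sq_sub_ne_zero hq ?_ h1
  obtain ⟨n, hn0, hn⟩ := hS
  exact ⟨n, hn0, by rw [coeffMap_coeff]; exact hn⟩

end Inf

/-! ## 3. (θ4): `Π_s` at the middle cusp -/

section Mid

variable {K : Type*} [Field K] {q M : ℕ} [NeZero q] [NeZero M] [NeZero (M * q)]
  [NeZero (M * q * q)] {ζ : Kˣ}

/-- `Π_s ∈ F_{M q²}` for `s ∈ F_M`. -/
theorem s36th_Pi_mem {f : LaurentSeries K} (hf : f ∈ modularFunctionFieldFullC K M) :
    qExpand K q (qExpand K q f) - f ∈ modularFunctionFieldFullC K (M * q * q) :=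
  sub_mem (s36mid_qExpand_sq_mem hf) (s36mid_base_le hf)

variable (ι : K →+* ℂ) (hq : q.Prime) (hqM : ¬ q ∣ M)

include ι hq hqM in
/-- **(θ4)** the expansion of `Π_s` at the middle cusp is `s(ζQ) − s(Q)`. -/
theorem s36th_emb_Pi (h : S36MidEmb K q M ζ) (hζ : ζ ^ q = 1) {f : LaurentSeries K}
    (hf : f ∈ modularFunctionFieldFullC K M) :
    h.emb ⟨qExpand K q (qExpand K q f) - f, s36th_Pi_mem hf⟩ = kronRot ζ f - f := by
  have h1 : (⟨qExpand K q (qExpand K q f) - f, s36th_Pi_mem hf⟩ :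
      modularFunctionFieldFullC K (M * q * q)) =
      ⟨qExpand K q (qExpand K q f), s36mid_qExpand_sq_mem hf⟩ -
        ⟨f, s36mid_low_le (full_degeneracyC_le K (Dvd.intro q rfl) hf)⟩ := rfl
  rw [h1, map_sub, h.emb_base_sq ι hq hqM hζ hf,
    h.emb_of_mem_low (full_degeneracyC_le K (Dvd.intro q rfl) hf)]

include ι hq hqM in
/-- **(θ4)** the expansion of `Π_s` at the middle cusp is `(ζ − 1) · D_ζ s`. -/
theorem s36th_emb_Pi_D (h : S36MidEmb K q M ζ) (hζ : ζ ^ q = 1) {f : LaurentSeries K}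
    (hf : f ∈ modularFunctionFieldFullC K M) :
    h.emb ⟨qExpand K q (qExpand K q f) - f, s36th_Pi_mem hf⟩ =
      HahnSeries.C ((ζ : K) - 1) * s36thD ζ f := by
  rw [s36th_emb_Pi ι hq hqM h hζ hf, s36th_kronRot_sub]

end Mid

/-! ## 4. (RAM) and (SEP), the shapes consumed by N2-ext -/

section Ram

variable {A E k : Type*} [CommRing A] [Field E] [Field k]
  {ι : A →+* E} {r : A →+* k} {π : A} {F : Type*} [Field F]
  (hB : VtBase ι r π) (e : F →+* LaurentSeries E) (hfrac : ∀ x : F, VtFrac ι (e x))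

/-- the natural number `q` of `F` has the expansion `C (ι q)`. -/
theorem s36th_natCast_emb (e : F →+* LaurentSeries E) (ι : A →+* E) (q : ℕ) :
    e (q : F) = HahnSeries.C (ι (q : A)) := by
  rw [map_natCast, map_natCast, map_natCast]

/-- **(RAM), for the constant `q`**: `q = Π ^ (q − 1) · z`, `Π ∈ 𝔪(V)`, `z ∈ V`, if
`θ s̄ ≠ 0`. -/
theorem s36th_ram_q [IsDomain A] {q : ℕ} (hq : q.Prime) {ζ : Aˣ}
    (hζ : IsPrimitiveRoot (ζ : A) q) (hr : r (ζ : A) = 1) {x : F} {S : LaurentSeries A}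
    (hx : e x = kronRot (Units.map (ι : A →* E) ζ) (coeffMap ι S) - coeffMap ι S)
    (hq0 : (q : A) ≠ 0) (hθ : thetaFun (coeffMap r S) ≠ 0) :
    ∃ t z : F, t ∈ (vtSub hB e hfrac).nonunits ∧ z ∈ vtSub hB e hfrac ∧
      z ∉ (vtSub hB e hfrac).nonunits ∧ (q : F) = t ^ (q - 1) * z := by
  have hc := s36th_natCast_emb e ι (A := A) q
  obtain ⟨hmem, hunit⟩ :=
    (s36th_pow_div_unit_iff hB e hfrac hq hζ hr hx hc hq0).mpr hθ
  have hval : (vtSub hB e hfrac).valuation (x ^ (q - 1) / (q : F)) = 1 := by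
    have h1 : (vtSub hB e hfrac).valuation (x ^ (q - 1) / (q : F)) ≤ 1 :=
      ((vtSub hB e hfrac).valuation_le_one_iff _).mpr hmem
    rw [ValuationSubring.mem_nonunits_iff, not_lt] at hunit
    exact le_antisymm h1 hunit
  have hqF : (q : F) ≠ 0 := by
    intro h0
    have h1 : e (q : F) = 0 := by rw [h0, map_zero]
    rw [hc] at h1
    exact hq0 (hB.inj (by rw [HahnSeries.C_injective (h1.trans (map_zero _).symm), map_zero]))
  have hx0 : x ^ (q - 1) ≠ 0 := by
    intro h0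
    rw [h0, zero_div, map_zero] at hval
    exact zero_ne_one hval
  have hval' : (vtSub hB e hfrac).valuation ((q : F) / x ^ (q - 1)) = 1 := by
    have h2 : (q : F) / x ^ (q - 1) = (x ^ (q - 1) / (q : F))⁻¹ := by
      rw [inv_div]
    rw [h2, map_inv₀, hval, inv_one]
  refine ⟨x, (q : F) / x ^ (q - 1), s36th_mem_nonunits hB e hfrac hr hx, ?_, ?_, ?_⟩
  · exact ((vtSub hB e hfrac).valuation_le_one_iff _).mp hval'.le
  · rw [ValuationSubring.mem_nonunits_iff, hval']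
    exact lt_irrefl _
  · field_simp

/-- **(RAM)** for a constant `c` with `q = c · (unit constant)`: `c = Π ^ (q − 1) · z`,
`Π ∈ 𝔪(V)`, `z ∈ V`, if `θ s̄ ≠ 0`. -/
theorem s36th_ram [IsDomain A] {q : ℕ} (hq : q.Prime) {ζ : Aˣ}
    (hζ : IsPrimitiveRoot (ζ : A) q) (hr : r (ζ : A) = 1) {x : F} {S : LaurentSeries A}
    (hx : e x = kronRot (Units.map (ι : A →* E) ζ) (coeffMap ι S) - coeffMap ι S)
    (hq0 : (q : A) ≠ 0) (hθ : thetaFun (coeffMap r S) ≠ 0)
    {c cv : F} {v : A} (hcv : e cv = HahnSeries.C (ι v)) (hv : r v ≠ 0)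
    (hc : (q : F) = c * cv) :
    ∃ t z : F, t ∈ (vtSub hB e hfrac).nonunits ∧ z ∈ vtSub hB e hfrac ∧
      c = t ^ (q - 1) * z := by
  obtain ⟨t, z, ht, hz, -, hqz⟩ := s36th_ram_q hB e hfrac hq hζ hr hx hq0 hθ
  have hcvV : cv ∈ vtSub hB e hfrac := vtSub_const_mem hB e hfrac hcv
  have hcvU : cv ∉ (vtSub hB e hfrac).nonunits := fun h =>
    hv ((vtSub_const_mem_nonunits_iff hB e hfrac hcv).mp h)
  have hval : (vtSub hB e hfrac).valuation cv = 1 := by
    have h1 : (vtSub hB e hfrac).valuation cv ≤ 1 :=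
      ((vtSub hB e hfrac).valuation_le_one_iff _).mpr hcvV
    rw [ValuationSubring.mem_nonunits_iff, not_lt] at hcvU
    exact le_antisymm h1 hcvU
  have hcv0 : cv ≠ 0 := by
    rintro rfl
    rw [map_zero] at hval
    exact zero_ne_one hval
  have hinv : cv⁻¹ ∈ vtSub hB e hfrac := by
    rw [← (vtSub hB e hfrac).valuation_le_one_iff, map_inv₀, hval, inv_one]
  refine ⟨t, z * cv⁻¹, ht, (vtSub hB e hfrac).mul_mem _ _ hz hinv, ?_⟩
  rw [← mul_assoc, ← hqz, hc, mul_assoc, mul_inv_cancel₀ hcv0, mul_one]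

/-- `θ j̄ ≠ 0`. -/
theorem s36th_theta_j_ne_zero (k : Type*) [Field k] : thetaFun (jqModC k) ≠ 0 := by
  intro h
  have h1 := congrArg (fun T : LaurentSeries k => T.coeff (-1)) h
  simp only [thetaFun_coeff, coeff_jqModC_neg_one, HahnSeries.coeff_zero] at h1
  simp at h1

/-- `coeffMap f j = j`. -/
theorem s36th_coeffMap_j {R S : Type*} [CommRing R] [CommRing S] (f : R →+* S) :
    coeffMap f (jqModC R) = jqModC S :=
  map_jqModC f

/-- **(RAM) with `Π = j(ζQ) − j(Q)`** (`= μ (j_{q²} − j)`). -/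
theorem s36th_ram_j [IsDomain A] {q : ℕ} (hq : q.Prime) {ζ : Aˣ}
    (hζ : IsPrimitiveRoot (ζ : A) q) (hr : r (ζ : A) = 1) {x : F}
    (hx : e x = kronRot (Units.map (ι : A →* E) ζ) (jqModC E) - jqModC E)
    (hq0 : (q : A) ≠ 0)
    {c cv : F} {v : A} (hcv : e cv = HahnSeries.C (ι v)) (hv : r v ≠ 0)
    (hc : (q : F) = c * cv) :
    ∃ t z : F, t ∈ (vtSub hB e hfrac).nonunits ∧ z ∈ vtSub hB e hfrac ∧
      c = t ^ (q - 1) * z := by
  have hx' : e x = kronRot (Units.map (ι : A →* E) ζ) (coeffMap ι (jqModC A)) -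
      coeffMap ι (jqModC A) := by
    rw [s36th_coeffMap_j]; exact hx
  have hθ : thetaFun (coeffMap r (jqModC A)) ≠ 0 := by
    rw [s36th_coeffMap_j]; exact s36th_theta_j_ne_zero k
  exact s36th_ram hB e hfrac hq hζ hr hx' hq0 hθ hcv hv hc

/-- **(SEP), middle cusp**: `Π = j(ζQ) − j(Q)` lies in `𝔪(V_c)`. -/
theorem s36th_sep_j_mid {ζ : Aˣ} (hr : r (ζ : A) = 1) {x : F}
    (hx : e x = kronRot (Units.map (ι : A →* E) ζ) (jqModC E) - jqModC E) :
    x ∈ (vtSub hB e hfrac).nonunits :=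
  s36th_mem_nonunits hB e hfrac hr (x := x) (S := jqModC A)
    (by rw [s36th_coeffMap_j]; exact hx)

/-- **(SEP), at `∞`**: `Π = j(Q^{q²}) − j(Q)` is a unit of `V_a`. -/
theorem s36th_sep_j_inf (q : ℕ) [NeZero q] (hq : 2 ≤ q) {x : F}
    (hx : e x = qExpand E q (qExpand E q (jqModC E)) - jqModC E) :
    x ∈ vtSub hB e hfrac ∧ x ∉ (vtSub hB e hfrac).nonunits := by
  have hx' : e x = qExpand E q (qExpand E q (coeffMap ι (jqModC A))) - coeffMap ι (jqModC A) := by
    rw [s36th_coeffMap_j]; exact hx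
  refine ⟨s36th_inf_mem_vtSub q hB e hfrac hx', s36th_inf_unit q hB e hfrac hq hx' ?_⟩
  refine ⟨-1, by norm_num, ?_⟩
  rw [coeff_jqModC_neg_one, map_one]
  exact one_ne_zero

end Ram

end Fermat.Agent.S36
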