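import Fermat.Agent.S36.N2BaseAbs
import Fermat.Agent.UNIP.MGVertInertia
import Fermat.Agent.UNIP.Beta0Frob

/-!
# S36 / G-N2, piece N2-base: the base `A_K = A ∩ K`, `K = E₀(ζ_q)`, uniformizer `1 - ζ`

`A` a valuation subring of `ℚ̄` over the prime `q`, `E₀ = beta0Field A = ℚ̄^I` the inertia field,
`ζ ∈ ℚ̄` a primitive `q`-th root of unity, `F = ℚ(ζ)` (`s36n2bF ζ`), `K = E₀ ⊔ F` (`s36n2bK A ζ`),
`A_K = beta0Ring A K`.

* `s36n2bF_numberField`, `s36n2bF_isGalois`, `s36n2bF_finrank` : `F / ℚ` is Galois of degree `q - 1`;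
* `s36n2b_isDVR`        : `A_K` is a discrete valuation ring;
* `s36n2bZeta`, `s36n2bPi` : `ζ` and `Π = 1 - ζ` as elements of `A_K`;
* `s36n2b_deg`          : `beta0Deg A F = q - 1` (`F / ℚ` is totally ramified at `A`);
* `s36n2b_irreducible`  : `Π = 1 - ζ` is irreducible in `A_K`;
* `s36n2b_associated`   : `q` is associated to `Π ^ (q - 1)` in `A_K`; `s36n2b_exists_unit`;
* `s36n2b_vtBase`       : `VtBase (algebraMap A_K K) (residue A_K) Π`;
* `s36n2b_exists_residue` : the residue field of `A_K` is that of `A₀ = A ∩ E₀`;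
* `s36n2b_apply_mem`    : `K` is stable under the inertia group;
* `s36n2b_compat`       : the inclusion `E₀ ≤ K` is compatible (`VtCompat`), with bijective map of the
  residue fields;
* `s36n2b_exists_inertia_pow` : for `q ∤ b` there is `σ` in the inertia group with `σ ζ = ζ ^ b`.
-/

set_option autoImplicit false
set_option linter.unusedSectionVars false
set_option linter.style.haveILetI false

noncomputable section

namespace Fermat.Agent.S36

open Fermat.Agent.UNIP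

section field

variable (ζ : AlgebraicClosure ℚ)

/-- `F = ℚ(ζ)`. -/
def s36n2bF : IntermediateField ℚ (AlgebraicClosure ℚ) :=
  IntermediateField.adjoin ℚ ({ζ} : Set (AlgebraicClosure ℚ))

theorem s36n2b_zeta_mem_F : ζ ∈ s36n2bF ζ :=
  IntermediateField.subset_adjoin ℚ _ (Set.mem_singleton ζ)

variable {ζ} {q : ℕ}

theorem s36n2bF_isCyclotomicExtension (hq : q.Prime) (hζ : IsPrimitiveRoot ζ q) :
    IsCyclotomicExtension {q} ℚ (s36n2bF ζ) := by
  haveI : NeZero q := ⟨hq.ne_zero⟩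
  haveI : Algebra.IsAlgebraic ℚ (AlgebraicClosure ℚ) := AlgebraicClosure.isAlgebraic ℚ
  haveI : Algebra.IsIntegral ℚ (AlgebraicClosure ℚ) := Algebra.IsAlgebraic.isIntegral
  exact hζ.intermediateField_adjoin_isCyclotomicExtension ℚ

theorem s36n2bF_numberField (hq : q.Prime) (hζ : IsPrimitiveRoot ζ q) :
    NumberField (s36n2bF ζ) := by
  haveI := s36n2bF_isCyclotomicExtension hq hζ
  exact IsCyclotomicExtension.numberField {q} ℚ (s36n2bF ζ)

theorem s36n2bF_isGalois (hq : q.Prime) (hζ : IsPrimitiveRoot ζ q) :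
    IsGalois ℚ (s36n2bF ζ) := by
  haveI := s36n2bF_isCyclotomicExtension hq hζ
  exact IsCyclotomicExtension.isGalois {q} ℚ (s36n2bF ζ)

theorem s36n2bF_finrank (hq : q.Prime) (hζ : IsPrimitiveRoot ζ q) :
    Module.finrank ℚ (s36n2bF ζ) = q - 1 := by
  haveI : NeZero q := ⟨hq.ne_zero⟩
  haveI := s36n2bF_isCyclotomicExtension hq hζ
  rw [IsCyclotomicExtension.Rat.finrank q (s36n2bF ζ), Nat.totient_prime hq]

end field

section base

variable (A : ValuationSubring (AlgebraicClosure ℚ)) (ζ : AlgebraicClosure ℚ)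

/-- `K = E₀(ζ) = E₀ ⊔ ℚ(ζ)`. -/
def s36n2bK : IntermediateField ℚ (AlgebraicClosure ℚ) := beta0Field A ⊔ s36n2bF ζ

theorem s36n2b_le_K : beta0Field A ≤ s36n2bK A ζ := le_sup_left

theorem s36n2b_F_le_K : s36n2bF ζ ≤ s36n2bK A ζ := le_sup_right

theorem s36n2b_zeta_mem_K : ζ ∈ s36n2bK A ζ := s36n2b_F_le_K A ζ (s36n2b_zeta_mem_F ζ)

variable {A ζ} {q : ℕ}

/-- **`A_K` is a discrete valuation ring.** -/
theorem s36n2b_isDVR (hq : q.Prime) (hA : A.LiesOverPrime q) (hζ : IsPrimitiveRoot ζ q) :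
    IsDiscreteValuationRing (beta0Ring A (s36n2bK A ζ)) := by
  haveI := s36n2bF_numberField hq hζ
  haveI := s36n2bF_isGalois hq hζ
  exact beta0Ring_isDVR_sup (s36n2bF ζ) hq hA

theorem s36n2b_zeta_mem_A (hq : q.Prime) (hζ : IsPrimitiveRoot ζ q) : ζ ∈ A :=
  Fermat.Agent.S31.rootOfUnity_mem A hq.ne_zero hζ.pow_eq_one

/-- `ζ` as an element of `A_K`. -/
def s36n2bZeta (hq : q.Prime) (hζ : IsPrimitiveRoot ζ q) : beta0Ring A (s36n2bK A ζ) :=
  ⟨⟨ζ, s36n2b_zeta_mem_K A ζ⟩, s36n2b_zeta_mem_A hq hζ⟩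

@[simp]
theorem s36n2bZeta_coe (hq : q.Prime) (hζ : IsPrimitiveRoot ζ q) :
    (((s36n2bZeta (A := A) hq hζ : beta0Ring A (s36n2bK A ζ)) : ↥(s36n2bK A ζ)) :
      AlgebraicClosure ℚ) = ζ := rfl

/-- the uniformizer `Π = 1 - ζ` of `A_K`. -/
def s36n2bPi (hq : q.Prime) (hζ : IsPrimitiveRoot ζ q) : beta0Ring A (s36n2bK A ζ) :=
  1 - s36n2bZeta hq hζ

@[simp]
theorem s36n2bPi_coe (hq : q.Prime) (hζ : IsPrimitiveRoot ζ q) :
    (((s36n2bPi (A := A) hq hζ : beta0Ring A (s36n2bK A ζ)) : ↥(s36n2bK A ζ)) :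
      AlgebraicClosure ℚ) = 1 - ζ := rfl

theorem s36n2bZeta_isPrimitiveRoot (hq : q.Prime) (hζ : IsPrimitiveRoot ζ q) :
    IsPrimitiveRoot (s36n2bZeta (A := A) hq hζ) q := by
  have hinj : Function.Injective
      ((algebraMap ↥(s36n2bK A ζ) (AlgebraicClosure ℚ)).comp
        (beta0Ring A (s36n2bK A ζ)).subtype) := by
    intro x y hxy
    apply Subtype.ext
    apply Subtype.ext
    exact hxy
  exact IsPrimitiveRoot.of_map_of_injective (f := (algebraMap ↥(s36n2bK A ζ)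
    (AlgebraicClosure ℚ)).comp (beta0Ring A (s36n2bK A ζ)).subtype) hζ hinj

theorem s36n2bPi_ne_zero (hq : q.Prime) (hζ : IsPrimitiveRoot ζ q) :
    s36n2bPi (A := A) hq hζ ≠ 0 := by
  intro h
  apply s36n2b_one_sub_ne_zero hq hζ
  have := congrArg (fun z : beta0Ring A (s36n2bK A ζ) =>
    ((z : ↥(s36n2bK A ζ)) : AlgebraicClosure ℚ)) h
  simpa using this

/-- `v (1 - ζ) ^ (q - 1) = v q`. -/
theorem s36n2bPi_valuation_pow (hq : q.Prime) (hζ : IsPrimitiveRoot ζ q) :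
    A.valuation (1 - ζ) ^ (q - 1) = A.valuation (q : AlgebraicClosure ℚ) :=
  s36n2b_valuation_pow_eq A hq hζ

theorem s36n2bPi_valuation_lt_one (hq : q.Prime) (hA : A.LiesOverPrime q)
    (hζ : IsPrimitiveRoot ζ q) : A.valuation (1 - ζ) < 1 :=
  s36n2b_valuation_lt_one A hq hζ (A.mem_nonunits_iff.mp hA)

/-- the ramification index is at most the degree -/
theorem s36n2b_deg_le (hq : q.Prime) (hζ : IsPrimitiveRoot ζ q) :
    haveI := s36n2bF_numberField hq hζ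
    beta0Deg A (s36n2bF ζ) ≤ q - 1 := by
  haveI := s36n2bF_numberField hq hζ
  rw [← s36n2bF_finrank hq hζ]
  have h1 := Module.finrank_mul_finrank ℚ (beta0T A (s36n2bF ζ)) (s36n2bF ζ)
  have h2 : 0 < Module.finrank ℚ (beta0T A (s36n2bF ζ)) := Module.finrank_pos
  unfold beta0Deg
  nlinarith

/-- **Key computation**: `Π = 1 - ζ` is associated to the uniformizer, and `F / ℚ` is totally
ramified at `A`. -/
theorem s36n2b_key (hq : q.Prime) (hA : A.LiesOverPrime q) (hζ : IsPrimitiveRoot ζ q) :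
    haveI := s36n2bF_numberField hq hζ
    Irreducible (s36n2bPi (A := A) hq hζ) ∧ beta0Deg A (s36n2bF ζ) = q - 1 := by
  haveI := s36n2bF_numberField hq hζ
  haveI := s36n2bF_isGalois hq hζ
  haveI := s36n2b_isDVR hq hA hζ
  obtain ⟨π, hπ, -, hπn, -, -⟩ : ∃ π : beta0Ring A (s36n2bK A ζ), Irreducible π ∧
      (((π : ↥(s36n2bK A ζ)) : AlgebraicClosure ℚ) ∈ s36n2bF ζ) ∧
      A.valuation (((π : ↥(s36n2bK A ζ)) : AlgebraicClosure ℚ)) ^ (beta0Deg A (s36n2bF ζ)) =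
        A.valuation (q : AlgebraicClosure ℚ) ∧
      π ^ (beta0Deg A (s36n2bF ζ)) ∣ ((q : ℕ) : beta0Ring A (s36n2bK A ζ)) ∧
      ((q : ℕ) : beta0Ring A (s36n2bK A ζ)) ∣ π ^ (beta0Deg A (s36n2bF ζ)) :=
    beta0Ring_sup_exists_irreducible (A := A) (s36n2bF ζ) hq hA
  obtain ⟨a, u, hu⟩ := IsDiscreteValuationRing.associated_pow_irreducible
    (s36n2bPi_ne_zero (A := A) hq hζ) hπ
  -- valuations
  have hπ0 : (((π : ↥(s36n2bK A ζ)) : AlgebraicClosure ℚ)) ≠ 0 := by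
    intro h0
    apply hπ.ne_zero
    apply Subtype.ext
    apply Subtype.ext
    exact h0
  have hγ0 : 0 < A.valuation (((π : ↥(s36n2bK A ζ)) : AlgebraicClosure ℚ)) :=
    zero_lt_iff.mpr ((Valuation.ne_zero_iff _).mpr hπ0)
  have hγ1 : A.valuation (((π : ↥(s36n2bK A ζ)) : AlgebraicClosure ℚ)) < 1 := by
    have : π ∈ IsLocalRing.maximalIdeal (beta0Ring A (s36n2bK A ζ)) :=
      (IsLocalRing.mem_maximalIdeal _).mpr hπ.not_isUnit
    rw [beta0Ring_mem_maximalIdeal_iff] at this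
    exact A.mem_nonunits_iff.mp this
  have huv : A.valuation ((((u : beta0Ring A (s36n2bK A ζ)) : ↥(s36n2bK A ζ)) :
      AlgebraicClosure ℚ)) = 1 := (beta0Ring_isUnit_iff _).mp u.isUnit
  have hval : A.valuation (1 - ζ) =
      A.valuation (((π : ↥(s36n2bK A ζ)) : AlgebraicClosure ℚ)) ^ a := by
    have h1 := congrArg (fun z : beta0Ring A (s36n2bK A ζ) =>
      A.valuation (((z : ↥(s36n2bK A ζ)) : AlgebraicClosure ℚ))) hu
    have e1 : ((((s36n2bPi (A := A) hq hζ * (u : beta0Ring A (s36n2bK A ζ)) :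
        beta0Ring A (s36n2bK A ζ)) : ↥(s36n2bK A ζ)) : AlgebraicClosure ℚ)) =
        (1 - ζ) * ((((u : beta0Ring A (s36n2bK A ζ)) : ↥(s36n2bK A ζ)) :
          AlgebraicClosure ℚ)) := rfl
    have e2 : ((((π ^ a : beta0Ring A (s36n2bK A ζ)) : ↥(s36n2bK A ζ)) :
        AlgebraicClosure ℚ)) = (((π : ↥(s36n2bK A ζ)) : AlgebraicClosure ℚ)) ^ a := rfl
    simp only [e1, e2, map_mul, map_pow] at h1
    rw [huv, mul_one] at h1
    exact h1
  have hpow : A.valuation (((π : ↥(s36n2bK A ζ)) : AlgebraicClosure ℚ)) ^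
      (a * (q - 1)) =
      A.valuation (((π : ↥(s36n2bK A ζ)) : AlgebraicClosure ℚ)) ^
        (beta0Deg A (s36n2bF ζ)) := by
    rw [pow_mul, ← hval, s36n2bPi_valuation_pow hq hζ, hπn]
  have heq : a * (q - 1) = beta0Deg A (s36n2bF ζ) := by
    have h1 : (A.valuation (((π : ↥(s36n2bK A ζ)) : AlgebraicClosure ℚ))) ^
        ((a * (q - 1) : ℕ) : ℤ) =
        (A.valuation (((π : ↥(s36n2bK A ζ)) : AlgebraicClosure ℚ))) ^
          ((beta0Deg A (s36n2bF ζ) : ℕ) : ℤ) := by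
      rw [zpow_natCast, zpow_natCast]
      exact hpow
    exact_mod_cast (zpow_right_inj₀ hγ0 hγ1.ne).mp h1
  have hle := s36n2b_deg_le (A := A) hq hζ
  have hpos : 0 < beta0Deg A (s36n2bF ζ) := beta0Deg_pos (s36n2bF ζ)
  have hq1 : 0 < q - 1 := Nat.sub_pos_of_lt hq.one_lt
  have ha : a = 1 := by
    rcases Nat.eq_zero_or_pos a with h0 | h0
    · rw [h0, zero_mul] at heq
      omega
    · by_contra hne
      have h2 : 2 ≤ a := by omega
      have : 2 * (q - 1) ≤ a * (q - 1) := Nat.mul_le_mul_right _ h2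
      omega
  refine ⟨?_, ?_⟩
  · rw [ha, pow_one] at hu
    have hassoc : Associated (s36n2bPi (A := A) hq hζ) π := ⟨u, hu⟩
    exact hassoc.symm.irreducible hπ
  · rw [← heq, ha, one_mul]

/-- **`Π = 1 - ζ` is irreducible in `A_K`.** -/
theorem s36n2b_irreducible (hq : q.Prime) (hA : A.LiesOverPrime q) (hζ : IsPrimitiveRoot ζ q) :
    Irreducible (s36n2bPi (A := A) hq hζ) :=
  (s36n2b_key hq hA hζ).1

/-- **`F = ℚ(ζ)` is totally ramified at `A`**: `[F : F ∩ E₀] = q - 1`. -/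
theorem s36n2b_deg (hq : q.Prime) (hA : A.LiesOverPrime q) (hζ : IsPrimitiveRoot ζ q) :
    haveI := s36n2bF_numberField hq hζ
    beta0Deg A (s36n2bF ζ) = q - 1 :=
  (s36n2b_key hq hA hζ).2

/-- the natural number `q` in `A_K` -/
theorem s36n2b_natCast_coe (n : ℕ) :
    ((((n : ℕ) : beta0Ring A (s36n2bK A ζ)) : ↥(s36n2bK A ζ)) : AlgebraicClosure ℚ) =
      (n : AlgebraicClosure ℚ) := by
  simp

/-- **`q = unit · Π ^ (q - 1)`** in `A_K`. -/
theorem s36n2b_exists_unit (hq : q.Prime) (hζ : IsPrimitiveRoot ζ q) :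
    ∃ u : (beta0Ring A (s36n2bK A ζ))ˣ,
      ((q : ℕ) : beta0Ring A (s36n2bK A ζ)) = u * s36n2bPi (A := A) hq hζ ^ (q - 1) := by
  have hP0 : (1 - ζ) ^ (q - 1) ≠ 0 := pow_ne_zero _ (s36n2b_one_sub_ne_zero hq hζ)
  have hq0 : (q : AlgebraicClosure ℚ) ≠ 0 := by exact_mod_cast hq.ne_zero
  have hval : A.valuation ((q : AlgebraicClosure ℚ) / (1 - ζ) ^ (q - 1)) = 1 := by
    rw [map_div₀, map_pow, s36n2bPi_valuation_pow hq hζ]
    exact div_self ((Valuation.ne_zero_iff _).mpr hq0)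
  have hmemK : (q : AlgebraicClosure ℚ) / (1 - ζ) ^ (q - 1) ∈ s36n2bK A ζ :=
    div_mem (natCast_mem _ q) (pow_mem (sub_mem (one_mem _) (s36n2b_zeta_mem_K A ζ)) _)
  have hmemA : (q : AlgebraicClosure ℚ) / (1 - ζ) ^ (q - 1) ∈ A :=
    (A.valuation_le_one_iff _).mp hval.le
  set w : beta0Ring A (s36n2bK A ζ) :=
    ⟨⟨(q : AlgebraicClosure ℚ) / (1 - ζ) ^ (q - 1), hmemK⟩, hmemA⟩ with hw
  have hwu : IsUnit w := (beta0Ring_isUnit_iff w).mpr hval
  refine ⟨hwu.unit, ?_⟩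
  apply Subtype.ext
  apply Subtype.ext
  rw [s36n2b_natCast_coe]
  show (q : AlgebraicClosure ℚ) = (q : AlgebraicClosure ℚ) / (1 - ζ) ^ (q - 1) * (1 - ζ) ^ (q - 1)
  rw [div_mul_cancel₀ _ hP0]

/-- `q` and `Π ^ (q - 1)` are associated in `A_K`. -/
theorem s36n2b_associated (hq : q.Prime) (hζ : IsPrimitiveRoot ζ q) :
    Associated (s36n2bPi (A := A) hq hζ ^ (q - 1)) ((q : ℕ) : beta0Ring A (s36n2bK A ζ)) := by
  obtain ⟨u, hu⟩ := s36n2b_exists_unit (A := A) hq hζ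
  exact ⟨u, by rw [hu, mul_comm]⟩

/-- `Π ∣ q` in `A_K`. -/
theorem s36n2bPi_dvd_q (hq : q.Prime) (hζ : IsPrimitiveRoot ζ q) :
    s36n2bPi (A := A) hq hζ ∣ ((q : ℕ) : beta0Ring A (s36n2bK A ζ)) := by
  obtain ⟨u, hu⟩ := s36n2b_exists_unit (A := A) hq hζ
  rw [hu]
  apply Dvd.dvd.mul_left
  exact dvd_pow_self _ (Nat.sub_pos_of_lt hq.one_lt).ne'

/-- **(hram) at the base**: `x ∈ 𝔪(A_K) ⇒ q ∣ x ^ (q - 1)`. -/
theorem s36n2b_q_dvd_pow (hq : q.Prime) (hA : A.LiesOverPrime q) (hζ : IsPrimitiveRoot ζ q)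
    {x : beta0Ring A (s36n2bK A ζ)}
    (hx : x ∈ IsLocalRing.maximalIdeal (beta0Ring A (s36n2bK A ζ))) :
    ((q : ℕ) : beta0Ring A (s36n2bK A ζ)) ∣ x ^ (q - 1) := by
  haveI := s36n2b_isDVR hq hA hζ
  have h1 : s36n2bPi (A := A) hq hζ ∣ x := by
    rw [(IsDiscreteValuationRing.irreducible_iff_uniformizer _).mp (s36n2b_irreducible hq hA hζ),
      Ideal.mem_span_singleton] at hx
    exact hx
  exact (s36n2b_associated (A := A) hq hζ).symm.dvd.trans (pow_dvd_pow_of_dvd h1 _)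

/-- `ζ ≡ 1` modulo the maximal ideal of `A_K`. -/
theorem s36n2b_residue_zeta (hq : q.Prime) (hA : A.LiesOverPrime q) (hζ : IsPrimitiveRoot ζ q) :
    IsLocalRing.residue (beta0Ring A (s36n2bK A ζ)) (s36n2bZeta hq hζ) = 1 := by
  have h1 : s36n2bPi (A := A) hq hζ ∈ IsLocalRing.maximalIdeal (beta0Ring A (s36n2bK A ζ)) :=
    (IsLocalRing.mem_maximalIdeal _).mpr (s36n2b_irreducible hq hA hζ).not_isUnit
  rw [← IsLocalRing.residue_eq_zero_iff, s36n2bPi, map_sub, map_one, sub_eq_zero] at h1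
  exact h1.symm

/-- **The base** `(A_K, K, residue, Π = 1 - ζ)`. -/
theorem s36n2b_vtBase (hq : q.Prime) (hA : A.LiesOverPrime q) (hζ : IsPrimitiveRoot ζ q) :
    VtBase (algebraMap ↥(beta0Ring A (s36n2bK A ζ)) ↥(s36n2bK A ζ))
      (IsLocalRing.residue ↥(beta0Ring A (s36n2bK A ζ))) (s36n2bPi hq hζ) := by
  haveI := s36n2b_isDVR hq hA hζ
  exact vtBase_residue (s36n2b_irreducible hq hA hζ)

/-- **Residue fields agree**: every element of `A_K` is congruent to an element of `A₀ = A ∩ E₀`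
modulo the maximal ideal. -/
theorem s36n2b_exists_residue (hq : q.Prime) (hA : A.LiesOverPrime q)
    (x : beta0Ring A (s36n2bK A ζ)) :
    ∃ a : beta0Ring A (beta0Field A),
      x - beta0RingIncl (s36n2b_le_K A ζ) a ∈
        IsLocalRing.maximalIdeal (beta0Ring A (s36n2bK A ζ)) :=
  beta0Ring_exists_residue hq hA (s36n2b_le_K A ζ) x

/-- **`K` is stable under the inertia group.** -/
theorem s36n2b_apply_mem (hq : q.Prime) (hζ : IsPrimitiveRoot ζ q)
    {σ : AlgebraicClosure ℚ ≃ₐ[ℚ] AlgebraicClosure ℚ} (hσ : σ ∈ A.inertiaSubgroupIn ℚ)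
    {x : AlgebraicClosure ℚ} (hx : x ∈ s36n2bK A ζ) : σ x ∈ s36n2bK A ζ := by
  haveI := s36n2bF_numberField hq hζ
  haveI := s36n2bF_isGalois hq hζ
  exact beta0_sup_apply_mem (s36n2bF ζ) hσ hx

/-- **`K` is stable under the decomposition group.** -/
theorem s36n2b_decomp_apply_mem (hq : q.Prime) (hζ : IsPrimitiveRoot ζ q)
    {σ : AlgebraicClosure ℚ ≃ₐ[ℚ] AlgebraicClosure ℚ} (hσ : σ ∈ A.decompositionSubgroup ℚ)
    {x : AlgebraicClosure ℚ} (hx : x ∈ s36n2bK A ζ) : σ x ∈ s36n2bK A ζ := by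
  haveI := s36n2bF_isGalois hq hζ
  exact beta0_sup_decomp_apply_mem (s36n2bF ζ) hσ hx

/-- **Compatibility of the bases** `A₀ ⊆ A_K`: the inclusion `E₀ ≤ K` maps `A₀` into `A_K` and
induces a BIJECTION of the residue fields (so `gaussRing` and `gaussRed` over `A₀` are those over
`A_K`, `vtSub_comap_baseChange`). -/
theorem s36n2b_compat (hq : q.Prime) (hA : A.LiesOverPrime q) :
    ∃ κ : IsLocalRing.ResidueField ↥(beta0Ring A (beta0Field A)) →+*
        IsLocalRing.ResidueField ↥(beta0Ring A (s36n2bK A ζ)),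
      Function.Bijective κ ∧
      VtCompat (algebraMap ↥(beta0Ring A (beta0Field A)) ↥(beta0Field A))
        (IsLocalRing.residue ↥(beta0Ring A (beta0Field A)))
        (algebraMap ↥(beta0Ring A (s36n2bK A ζ)) ↥(s36n2bK A ζ))
        (IsLocalRing.residue ↥(beta0Ring A (s36n2bK A ζ)))
        (IntermediateField.inclusion (s36n2b_le_K A ζ)).toRingHom κ := by
  obtain ⟨κ, hκ⟩ := vt_compat_of_le (A := A) (s36n2b_le_K A ζ)
  refine ⟨κ, ⟨κ.injective, ?_⟩, hκ⟩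
  intro y
  obtain ⟨x, rfl⟩ := IsLocalRing.residue_surjective y
  obtain ⟨a, ha⟩ := s36n2b_exists_residue (ζ := ζ) hq hA x
  obtain ⟨a', ha1, ha2⟩ := hκ a
  refine ⟨IsLocalRing.residue _ a, ?_⟩
  rw [← ha2]
  have e : a' = beta0RingIncl (s36n2b_le_K A ζ) a := by
    apply Subtype.ext
    exact ha1
  rw [e]
  rw [← IsLocalRing.residue_eq_zero_iff, map_sub, sub_eq_zero] at ha
  exact ha.symm

end base

end Fermat.Agent.S36
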