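import Mathlib

/-!
# S36 / G-N2, piece N2-base, part 1 (Mathlib only): the value of `1 - ζ`

`L` a field, `A` a valuation subring, `ζ ∈ L` a primitive `q`-th root of unity, `q` prime.

* `s36n2b_valuation_root`        : `v ζ = 1`;
* `s36n2b_valuation_one_sub_pow` : `v (1 - ζ ^ b) = v (1 - ζ)` for `q ∤ b`;
* `s36n2b_valuation_pow_eq`      : `v (1 - ζ) ^ (q - 1) = v q`;
* `s36n2b_valuation_lt_one`      : `v (1 - ζ) < 1` if `v q < 1`.
-/

set_option autoImplicit false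

namespace Fermat.Agent.S36

section abs

variable {L : Type*} [Field L] (A : ValuationSubring L) {q : ℕ} {ζ : L}

/-- a root of unity has value one -/
theorem s36n2b_valuation_root {n : ℕ} (hn : n ≠ 0) (hζ : ζ ^ n = 1) : A.valuation ζ = 1 := by
  have h1 : A.valuation ζ ^ n = 1 := by rw [← map_pow, hζ, map_one]
  exact (pow_eq_one_iff_of_nonneg zero_le hn).mp h1

/-- geometric sums of a root of unity are integral -/
theorem s36n2b_geom_le {n : ℕ} (hn : n ≠ 0) (hζ : ζ ^ n = 1) (b : ℕ) :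
    A.valuation (∑ i ∈ Finset.range b, ζ ^ i) ≤ 1 := by
  apply Valuation.map_sum_le
  intro i _
  rw [map_pow, s36n2b_valuation_root A hn hζ, one_pow]

/-- `v (1 - ζ ^ b) ≤ v (1 - ζ)` -/
theorem s36n2b_valuation_one_sub_pow_le {n : ℕ} (hn : n ≠ 0) (hζ : ζ ^ n = 1) (b : ℕ) :
    A.valuation (1 - ζ ^ b) ≤ A.valuation (1 - ζ) := by
  have h1 : 1 - ζ ^ b = (1 - ζ) * ∑ i ∈ Finset.range b, ζ ^ i := by
    rw [mul_comm, geom_sum_mul_neg]
  rw [h1, map_mul]
  calc A.valuation (1 - ζ) * A.valuation (∑ i ∈ Finset.range b, ζ ^ i)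
      ≤ A.valuation (1 - ζ) * 1 := mul_le_mul_right (s36n2b_geom_le A hn hζ b) _
    _ = A.valuation (1 - ζ) := mul_one _

/-- **`v (1 - ζ ^ b) = v (1 - ζ)`** for `b` prime to `q`. -/
theorem s36n2b_valuation_one_sub_pow (hq : q.Prime) (hζ : IsPrimitiveRoot ζ q) {b : ℕ}
    (hb : ¬ q ∣ b) : A.valuation (1 - ζ ^ b) = A.valuation (1 - ζ) := by
  apply le_antisymm (s36n2b_valuation_one_sub_pow_le A hq.ne_zero hζ.pow_eq_one b)
  have hcop : Nat.Coprime b q := ((Nat.Prime.coprime_iff_not_dvd hq).mpr hb).symm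
  obtain ⟨c, -, hc⟩ := Nat.exists_mul_mod_eq_one_of_coprime hcop hq.one_lt
  have h1 : (ζ ^ b) ^ c = ζ := by
    rw [← pow_mul, ← Nat.div_add_mod (b * c) q, hc, pow_add, pow_mul, hζ.pow_eq_one, one_pow,
      one_mul, pow_one]
  have h2 : (ζ ^ b) ^ q = 1 := by rw [← pow_mul, mul_comm, pow_mul, hζ.pow_eq_one, one_pow]
  have h3 := s36n2b_valuation_one_sub_pow_le A hq.ne_zero h2 c
  rwa [h1] at h3

/-- **`v (1 - ζ) ^ (q - 1) = v q`**. -/
theorem s36n2b_valuation_pow_eq (hq : q.Prime) (hζ : IsPrimitiveRoot ζ q) :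
    A.valuation (1 - ζ) ^ (q - 1) = A.valuation (q : L) := by
  obtain ⟨n, rfl⟩ : ∃ n, q = n + 1 := ⟨q - 1, (Nat.sub_add_cancel hq.pos).symm⟩
  have h1 := hζ.prod_one_sub_pow_eq_order
  have h2 : A.valuation (∏ k ∈ Finset.range n, (1 - ζ ^ (k + 1))) =
      A.valuation (1 - ζ) ^ n := by
    rw [map_prod]
    rw [Finset.prod_congr rfl (fun k hk => s36n2b_valuation_one_sub_pow A hq hζ (b := k + 1) ?_)]
    · rw [Finset.prod_const, Finset.card_range]
    · intro hdvd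
      have hk' : k < n := Finset.mem_range.mp hk
      have := Nat.le_of_dvd (Nat.succ_pos k) hdvd
      omega
  rw [Nat.add_sub_cancel, ← h2, h1]
  push_cast
  rfl

/-- `v (1 - ζ) < 1` when `v q < 1`. -/
theorem s36n2b_valuation_lt_one (hq : q.Prime) (hζ : IsPrimitiveRoot ζ q)
    (hA : A.valuation (q : L) < 1) : A.valuation (1 - ζ) < 1 := by
  by_contra h
  rw [not_lt] at h
  have h1 : (1 : A.ValueGroup) ≤ A.valuation (1 - ζ) ^ (q - 1) := one_le_pow₀ h
  rw [s36n2b_valuation_pow_eq A hq hζ] at h1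
  exact absurd hA (not_lt.mpr h1)

/-- `1 - ζ ≠ 0` -/
theorem s36n2b_one_sub_ne_zero (hq : q.Prime) (hζ : IsPrimitiveRoot ζ q) : 1 - ζ ≠ 0 := by
  intro h
  exact hζ.ne_one hq.one_lt (sub_eq_zero.mp h).symm

end abs

end Fermat.Agent.S36
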