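import Fermat.Agent.S36.N2Base

/-!
# S36 / G-N2, piece N2-base, part 3: the inertia group acts transitively on the primitive roots

`A` a valuation subring of `ℚ̄` over `q`, `ζ` a primitive `q`-th root of unity, `F = ℚ(ζ)`.

* `s36n2b_inertia_eq_top`     : the inertia group of `F / ℚ` at `A` is the whole Galois group;
* `s36n2b_exists_inertia_pow` : for `q ∤ b` there is `σ` in the inertia group of `A` with
  `σ ζ = ζ ^ b`;
* `s36n2b_apply_zeta`         : every automorphism maps `ζ` to `ζ ^ b`, `0 < b < q`.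
-/

set_option autoImplicit false
set_option linter.unusedSectionVars false
set_option linter.style.haveILetI false

noncomputable section

namespace Fermat.Agent.S36

open Fermat.Agent.UNIP

variable {A : ValuationSubring (AlgebraicClosure ℚ)} {ζ : AlgebraicClosure ℚ} {q : ℕ}

/-- **The inertia group of `F = ℚ(ζ)` at `A` is the whole Galois group** (`F / ℚ` is totally
ramified at `q`). -/
theorem s36n2b_inertia_eq_top (hq : q.Prime) (hA : A.LiesOverPrime q)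
    (hζ : IsPrimitiveRoot ζ q) :
    haveI := s36n2bF_numberField hq hζ
    (beta0Prime A (beta0ιF (s36n2bF ζ))).inertia ((s36n2bF ζ) ≃ₐ[ℚ] (s36n2bF ζ)) = ⊤ := by
  haveI := s36n2bF_numberField hq hζ
  haveI := s36n2bF_isGalois hq hζ
  apply Subgroup.eq_top_of_card_eq
  rw [IsGalois.card_aut_eq_finrank, s36n2bF_finrank hq hζ, ← s36n2b_deg (A := A) hq hA hζ]
  exact (IntermediateField.finrank_fixedField_eq_card
    ((beta0Prime A (beta0ιF (s36n2bF ζ))).inertia ((s36n2bF ζ) ≃ₐ[ℚ] (s36n2bF ζ)))).symm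

/-- **The inertia group acts transitively on the primitive `q`-th roots of unity.** -/
theorem s36n2b_exists_inertia_pow (hq : q.Prime) (hA : A.LiesOverPrime q)
    (hζ : IsPrimitiveRoot ζ q) {b : ℕ} (hb : ¬ q ∣ b) :
    ∃ σ ∈ A.inertiaSubgroupIn ℚ, σ ζ = ζ ^ b := by
  haveI := s36n2bF_numberField hq hζ
  haveI := s36n2bF_isGalois hq hζ
  haveI := Fermat.Agent.Common.isAlgClosure_rat_qbar
  haveI : Algebra.IsAlgebraic ℚ (AlgebraicClosure ℚ) := AlgebraicClosure.isAlgebraic ℚ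
  have hcop : Nat.Coprime b q := ((Nat.Prime.coprime_iff_not_dvd hq).mpr hb).symm
  have hprim : IsPrimitiveRoot (ζ ^ b) q := hζ.pow_of_coprime b hcop
  have hmin : minpoly ℚ ζ = minpoly ℚ (ζ ^ b) := by
    rw [← Polynomial.cyclotomic_eq_minpoly_rat hζ hq.pos,
      ← Polynomial.cyclotomic_eq_minpoly_rat hprim hq.pos]
  obtain ⟨τ, hτ⟩ := minpoly.exists_algEquiv_of_root' (K := ℚ) (L := AlgebraicClosure ℚ)
    (x := ζ ^ b) (y := ζ) (Algebra.IsAlgebraic.isAlgebraic ζ)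
    (by rw [hmin]; exact minpoly.aeval _ _)
  have hs : AlgEquiv.restrictNormal τ (s36n2bF ζ) ∈
      (beta0Prime A (beta0ιF (s36n2bF ζ))).inertia ((s36n2bF ζ) ≃ₐ[ℚ] (s36n2bF ζ)) := by
    rw [s36n2b_inertia_eq_top hq hA hζ]
    trivial
  obtain ⟨σ, hσ, hσx⟩ := beta0_exists_lift (s36n2bF ζ) hq hA _ hs
  refine ⟨σ, hσ, ?_⟩
  have h1 := hσx ⟨ζ, s36n2b_zeta_mem_F ζ⟩
  have h2 := AlgEquiv.restrictNormal_commutes τ (s36n2bF ζ) ⟨ζ, s36n2b_zeta_mem_F ζ⟩
  have h3 : σ ζ = τ ζ := h1.trans h2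
  rw [h3, hτ]

/-- every automorphism maps `ζ` to a power `ζ ^ b`, `q ∤ b`. -/
theorem s36n2b_apply_zeta (hq : q.Prime) (hζ : IsPrimitiveRoot ζ q)
    (σ : AlgebraicClosure ℚ ≃ₐ[ℚ] AlgebraicClosure ℚ) :
    ∃ b : ℕ, b < q ∧ ¬ q ∣ b ∧ σ ζ = ζ ^ b := by
  haveI : NeZero q := ⟨hq.ne_zero⟩
  have h1 : (σ ζ) ^ q = 1 := by rw [← map_pow, hζ.pow_eq_one, map_one]
  obtain ⟨b, hbq, hb⟩ := hζ.eq_pow_of_pow_eq_one h1
  refine ⟨b, hbq, ?_, hb.symm⟩
  intro hdvd
  have hb0 : b = 0 := Nat.eq_zero_of_dvd_of_lt hdvd hbq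
  rw [hb0, pow_zero] at hb
  have : ζ = 1 := by
    have h2 : σ ζ = σ 1 := by rw [← hb, map_one]
    exact σ.injective h2
  exact hζ.ne_one hq.one_lt this

end Fermat.Agent.S36
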