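import Fermat.Agent.ES.G2.HeckeDeg
import Fermat.Agent.S36.N2W
import Fermat.Agent.STB.NormSquare
import Fermat.Agent.S36.PlanGeo

/-!
# S36 / G-N2, piece N2-deg (helper20): `[F : αF′] = [F : βF′] = q` at level `M q²`

`K` a field of characteristic `0`, `F′ = modularFunctionFieldFullC K (M * q)`,
`F = modularFunctionFieldFullC K (M * q * q)` (both `⊂ K((Q))`), `q` a prime.

* `α = s36Alpha K M q`, `β = s36Beta K M q : F′ →+* F` are the two degeneracy embeddings of
  `S36/PlanGeo.lean` (inclusion, `Q ↦ Q ^ q`);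
* `s36n2_relfinrank` : `relfinrank F′ F = q`; `s36n2_finrank` (`extendScalars` form, as
  `UNIP/NodesDeg.lean`), `s36n2_finiteDimensional`;
* `s36n2_deg_alpha`, `s36n2_finite_alpha` : `stbDeg α = q`, `StbFinite α`
  (`STB/NormSquare.lean`: the algebra structure `α.toAlgebra`);
* `s36n2_dependent` : more than `q` elements of `F` are linearly dependent over `F′`;
* for `q ∤ M` and `ι : K →+* ℂ` (needed for `w_{q²}`, `w_q`): `s36n2_beta_eq` (`β = w ∘ α ∘ w′`),
  `s36n2_deg_beta`, `s36n2_finite_beta`, `s36n2_dependent_beta` (dependence over `βF′`).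

Source: Igusa's degree theorem `S28.relfinrank_full_eq_dedekindPsi`, `ψ(Nq) = q ψ(N)` for `q ∣ N`,
and helper92's `w_{q²}` (`S36/N2W.lean`).
-/

set_option autoImplicit false
set_option linter.style.haveILetI false
set_option linter.unusedSectionVars false

noncomputable section

namespace Fermat.Agent.S36

open ModularCurve IntermediateField Fermat.Agent.AL Fermat.Agent.STB

section Equiv

variable {F F' : Type*} [Field F] [Field F']

/-- the degree along an isomorphism is one -/
theorem s36n2_deg_equiv (e : F ≃+* F') : stbDeg (e : F →+* F') = 1 := by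
  letI := (e : F →+* F').toAlgebra
  let l : F ≃ₗ[F] F' :=
    { toFun := e
      invFun := e.symm
      left_inv := e.left_inv
      right_inv := e.right_inv
      map_add' := map_add e
      map_smul' := fun c x => by
        show e (c * x) = (e : F →+* F') c * e x
        rw [map_mul]
        rfl }
  have h := LinearEquiv.finrank_eq l
  rw [Module.finrank_self] at h
  exact h.symm

/-- finiteness along an isomorphism -/
theorem s36n2_finite_equiv (e : F ≃+* F') : StbFinite (e : F →+* F') := by
  letI := (e : F →+* F').toAlgebra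
  let l : F ≃ₗ[F] F' :=
    { toFun := e
      invFun := e.symm
      left_inv := e.left_inv
      right_inv := e.right_inv
      map_add' := map_add e
      map_smul' := fun c x => by
        show e (c * x) = (e : F →+* F') c * e x
        rw [map_mul]
        rfl }
  exact Module.Finite.equiv l

end Equiv

section Degree

variable (K : Type*) [Field K] [CharZero K] (M q : ℕ) [NeZero M] [NeZero q]

/-- `F′ ≤ F` -/
theorem s36n2_le :
    modularFunctionFieldFullC K (M * q) ≤ modularFunctionFieldFullC K (M * q * q) :=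
  Fermat.Agent.S28.UB.full_mono K (Dvd.intro _ rfl)

/-- Igusa + tower law: `relfinrank F′ F = q`. -/
theorem s36n2_relfinrank (hq : q.Prime) :
    (modularFunctionFieldFullC K (M * q)).relfinrank (modularFunctionFieldFullC K (M * q * q))
      = q := by
  have hqN : q ∣ M * q := Dvd.intro_left M rfl
  have hN : ((M * q : ℕ) : K) ≠ 0 := Nat.cast_ne_zero.mpr (NeZero.ne (M * q))
  have hNq : ((M * q * q : ℕ) : K) ≠ 0 := Nat.cast_ne_zero.mpr (NeZero.ne (M * q * q))
  have h1 := Fermat.Agent.S28.relfinrank_full_eq_dedekindPsi K (M * q) hN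
  have h2 := Fermat.Agent.S28.relfinrank_full_eq_dedekindPsi K (M * q * q) hNq
  have hle1 : adjoin K {jqModC K} ≤ modularFunctionFieldFullC K (M * q) :=
    Fermat.Agent.S28.UB.K0_le_full K (M * q)
  have h3 := relfinrank_mul_relfinrank hle1 (s36n2_le K M q)
  have hψ : dedekindPsi (M * q * q) = q * dedekindPsi (M * q) := by
    rw [Nat.mul_comm (M * q) q]
    exact Fermat.Agent.S28.UB.psi_mul_of_dvd hq hqN (NeZero.ne (M * q))
  rw [h1, h2, hψ] at h3
  have hpos : dedekindPsi (M * q) ≠ 0 := by
    intro h0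
    rw [h0] at h1
    have hfin := Fermat.Agent.S28.relrank_full_lt_aleph0_of_ne_zero K (M * q) hN
    have hne := Fermat.Agent.S28.UB.relrank_ne_zero (adjoin K {jqModC K})
      (modularFunctionFieldFullC K (M * q))
    rw [relfinrank_eq_toNat_relrank, Cardinal.toNat_eq_zero] at h1
    rcases h1 with h1 | h1
    · exact hne h1
    · exact absurd hfin (not_lt.mpr h1)
  have h4 : dedekindPsi (M * q) * (modularFunctionFieldFullC K (M * q)).relfinrank
      (modularFunctionFieldFullC K (M * q * q)) = dedekindPsi (M * q) * q := by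
    rw [h3, Nat.mul_comm]
  exact Nat.eq_of_mul_eq_mul_left (Nat.pos_of_ne_zero hpos) h4

/-- `[F : F′] = q`, `extendScalars` form. -/
theorem s36n2_finrank (hq : q.Prime) :
    Module.finrank (modularFunctionFieldFullC K (M * q))
      (extendScalars (s36n2_le K M q)) = q := by
  rw [← relfinrank_eq_finrank_of_le (s36n2_le K M q)]
  exact s36n2_relfinrank K M q hq

theorem s36n2_finiteDimensional (hq : q.Prime) :
    FiniteDimensional (modularFunctionFieldFullC K (M * q))
      (extendScalars (s36n2_le K M q)) := by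
  apply Module.finite_of_finrank_pos
  rw [s36n2_finrank K M q hq]
  exact hq.pos

/-- **degree along `α`** -/
theorem s36n2_deg_alpha (hq : q.Prime) : stbDeg (s36Alpha K M q) = q := by
  have h := Fermat.Agent.ES.G2.hdeg_finrank_inclusion (s36n2_le K M q)
  rw [s36n2_relfinrank K M q hq] at h
  exact h

/-- **finiteness along `α`** -/
theorem s36n2_finite_alpha (hq : q.Prime) : StbFinite (s36Alpha K M q) := by
  refine Fermat.Agent.ES.G2.hdeg_finite_inclusion (s36n2_le K M q) ?_
  rw [s36n2_relfinrank K M q hq]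
  exact hq.ne_zero

/-- more than `deg φ` elements are linearly dependent (ring homomorphism form) -/
theorem s36n2_dependent_hom {F' F : Type*} [Field F'] [Field F] (φ : F' →+* F)
    (hfin : StbFinite φ) {ι : Type*} [Fintype ι] (hι : stbDeg φ < Fintype.card ι)
    (x : ι → F) : ∃ c : ι → F', (∃ i, c i ≠ 0) ∧ ∑ i, φ (c i) * x i = 0 := by
  classical
  letI := φ.toAlgebra
  haveI : Module.Finite F' F := hfin
  have hdep : ¬ LinearIndependent F' x := by
    intro hli
    have h1 := hli.fintype_card_le_finrank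
    have h2 : Module.finrank F' F = stbDeg φ := rfl
    omega
  rw [Fintype.not_linearIndependent_iff] at hdep
  obtain ⟨g, hg, i, hi⟩ := hdep
  exact ⟨g, ⟨i, hi⟩, hg⟩

/-- **Deg, `α`**: more than `q` elements of `F` are linearly dependent over `F′`. -/
theorem s36n2_dependent (hq : q.Prime) {ι : Type*} [Fintype ι] (hι : q < Fintype.card ι)
    (x : ι → LaurentSeries K) (hx : ∀ i, x i ∈ modularFunctionFieldFullC K (M * q * q)) :
    ∃ c : ι → LaurentSeries K, (∀ i, c i ∈ modularFunctionFieldFullC K (M * q)) ∧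
      (∃ i, c i ≠ 0) ∧ ∑ i, c i * x i = 0 := by
  obtain ⟨c, ⟨i, hi⟩, hc⟩ := s36n2_dependent_hom (s36Alpha K M q) (s36n2_finite_alpha K M q hq)
    (by rw [s36n2_deg_alpha K M q hq]; exact hι) (fun i => ⟨x i, hx i⟩)
  refine ⟨fun i => (c i : LaurentSeries K), fun i => (c i).2, ⟨i, fun h0 => hi (Subtype.ext h0)⟩, ?_⟩
  have h1 : (modularFunctionFieldFullC K (M * q * q)).val
      (∑ i, s36Alpha K M q (c i) * ⟨x i, hx i⟩) = 0 := by
    rw [hc, map_zero]
  rw [map_sum] at h1
  rw [← h1]
  refine Finset.sum_congr rfl fun i _ => ?_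
  show _ = ((s36Alpha K M q (c i) * ⟨x i, hx i⟩ : modularFunctionFieldFullC K (M * q * q)) :
    LaurentSeries K)
  rw [MulMemClass.coe_mul, coe_s36Alpha]

end Degree

section Beta

variable (K : Type*) [Field K] [CharZero K] (ι : K →+* ℂ) {q M : ℕ} [NeZero q] [NeZero M]
  [NeZero (M * q)] [NeZero (M * q * q)] (hq : q.Prime) (hqM : ¬ q ∣ M)

include ι hq hqM

/-- **`β = w ∘ α ∘ w′`** (`w = w_{q²}`, `w′ = w_q`) -/
theorem s36n2_beta_eq :
    s36Beta K M q =
      ((s36n2W K ι hq hqM).toRingEquiv : modularFunctionFieldFullC K (M * q * q) →+*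
        modularFunctionFieldFullC K (M * q * q)).comp
        ((s36Alpha K M q).comp ((atkinLehner K ι hq hqM).toRingEquiv :
          modularFunctionFieldFullC K (M * q) →+* modularFunctionFieldFullC K (M * q))) := by
  apply RingHom.ext
  intro x
  apply Subtype.ext
  rw [coe_s36Beta]
  show qExpand K q (x : LaurentSeries K) =
    ((s36n2W K ι hq hqM (s36Alpha K M q (atkinLehner K ι hq hqM x)) :
      modularFunctionFieldFullC K (M * q * q)) : LaurentSeries K)
  have h := s36n2W_alpha K ι hq hqM (atkinLehner K ι hq hqM x).2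
  have e1 : (⟨((atkinLehner K ι hq hqM x : modularFunctionFieldFullC K (M * q)) :
      LaurentSeries K), alq_mem_of_mem_lower K (atkinLehner K ι hq hqM x).2⟩ :
      modularFunctionFieldFullC K (M * q * q)) = s36Alpha K M q (atkinLehner K ι hq hqM x) :=
    Subtype.ext (coe_s36Alpha K M q _).symm
  have e2 : (⟨((atkinLehner K ι hq hqM x : modularFunctionFieldFullC K (M * q)) :
      LaurentSeries K), (atkinLehner K ι hq hqM x).2⟩ : modularFunctionFieldFullC K (M * q)) =
      atkinLehner K ι hq hqM x := Subtype.ext rfl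
  rw [e1, e2, atkinLehner_invol] at h
  exact h.symm

/-- **degree along `β`** -/
theorem s36n2_deg_beta : stbDeg (s36Beta K M q) = q := by
  rw [s36n2_beta_eq K ι hq hqM, stb_finrank_equiv_comp, stbDeg_comp, s36n2_deg_equiv, one_mul]
  exact s36n2_deg_alpha K M q hq

/-- **finiteness along `β`** -/
theorem s36n2_finite_beta : StbFinite (s36Beta K M q) := by
  rw [s36n2_beta_eq K ι hq hqM]
  exact stb_finite_equiv_comp _ _
    (StbFinite.comp (s36n2_finite_equiv _) (s36n2_finite_alpha K M q hq))

/-- **Deg, `β`**: more than `q` elements of `F` are linearly dependent over `βF′`. -/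
theorem s36n2_dependent_beta {J : Type*} [Fintype J] (hJ : q < Fintype.card J)
    (x : J → LaurentSeries K) (hx : ∀ i, x i ∈ modularFunctionFieldFullC K (M * q * q)) :
    ∃ c : J → LaurentSeries K, (∀ i, c i ∈ modularFunctionFieldFullC K (M * q)) ∧
      (∃ i, c i ≠ 0) ∧ ∑ i, qExpand K q (c i) * x i = 0 := by
  obtain ⟨c, ⟨i, hi⟩, hc⟩ := s36n2_dependent_hom (s36Beta K M q)
    (s36n2_finite_beta K ι hq hqM)
    (by rw [s36n2_deg_beta K ι hq hqM]; exact hJ) (fun i => ⟨x i, hx i⟩)
  refine ⟨fun i => (c i : LaurentSeries K), fun i => (c i).2, ⟨i, fun h0 => hi (Subtype.ext h0)⟩, ?_⟩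
  have h1 : (modularFunctionFieldFullC K (M * q * q)).val
      (∑ i, s36Beta K M q (c i) * ⟨x i, hx i⟩) = 0 := by
    rw [hc, map_zero]
  rw [map_sum] at h1
  rw [← h1]
  refine Finset.sum_congr rfl fun i _ => ?_
  show _ = ((s36Beta K M q (c i) * ⟨x i, hx i⟩ : modularFunctionFieldFullC K (M * q * q)) :
    LaurentSeries K)
  rw [MulMemClass.coe_mul, coe_s36Beta]

end Beta

end Fermat.Agent.S36
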