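import Fermat.Agent.S36.MidCusp
import Fermat.Agent.S36.N2W
import Fermat.Agent.S36.N2Abs
import Fermat.Agent.S36.DescentNorm
import Fermat.Agent.UNIP.MGVert

/-!
# S36 / G-nr-conj: the four families of conjugates at level `M q²` and the norm products

`E` a field of characteristic `0`, `ψ : E →+* K`, `ζ : Kˣ` a primitive `q`-th root of unity,
`ιC : E →+* ℂ`, `ιK : K →+* ℂ`, `q` prime, `q ∤ M`;
`F′ = F_{Mq}(E)`, `F = F_{Mq²}(E)`, `α = s36Alpha E M q` (inclusion), `β = s36Beta E M q`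
(`f ↦ f(Q^q)`), `w′` the Atkin–Lehner involution of level `M q`, `w = s36n2W` that of level
`M q²`, `μ_z` the expansion at the middle cusp of `F_{Mq²}(K)` (`s36midEmb`), `ψ̂ = coeffMap ψ`.

Embeddings `F →+* K((Q))`:
* `s36ncA` : `e_a = ψ̂ ∘ (plain expansion)`;  `s36ncB` : `e_b = e_a ∘ w`;
* `s36ncMu b` : `μ_{ζ^b} ∘ (base change)` (total in `b : ℕ`; `= e_a` if `q ∣ b`).

The four families `Fin q → (F →+* K((Q)))` (NOTES/S36-N2.md, CONJUGATES):
* `s36ncBetaInf`   : `kronRot ζ^b ∘ e_a`            — restriction along `β` : `f ↦ (ψ̂ f)(Q^q)`;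
* `s36ncAlphaZero` : `kronRot ζ^b ∘ e_b`            — restriction along `α` : `f ↦ (ψ̂ w′ f)(Q^q)`;
* `s36ncAlphaInf`  : `e_a`, `μ_{ζ^b}` (`b ≠ 0`)     — restriction along `α` : `f ↦ ψ̂ f`;
* `s36ncBetaZero`  : `e_b`, `kronRot ζ^{-b} ∘ μ_{ζ^b}` (`b ≠ 0`) — restriction along `β` :
  `f ↦ ψ̂ (w′ f)`.

For each family: the restriction (`…_restr`), injectivity (`…_injective`), and the norm product
formulas `s36nc_norm_betaInf` (Nβ∞), `s36nc_norm_alphaZero` (Nα0), `s36nc_norm_alphaInf` (Nα∞),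
`s36nc_norm_betaZero` (Nβ0).
-/

set_option autoImplicit false
set_option linter.unusedSectionVars false
set_option linter.unusedVariables false
set_option linter.style.haveILetI false

noncomputable section

namespace Fermat.Agent.S36

open ModularCurve HahnSeries Fermat.Agent.ES Fermat.Agent.AL Fermat.Agent.UNIP Fermat.Agent.STB

section Conj

variable {E K : Type*} [Field E] [Field K] (ψ : E →+* K) (ιC : E →+* ℂ) (ιK : K →+* ℂ)
  {q M : ℕ} [NeZero q] [NeZero M] [NeZero (M * q)] [NeZero (M * q * q)]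
  (hq : q.Prime) (hqM : ¬ q ∣ M) (ζ : Kˣ) (hζ : IsPrimitiveRoot (ζ : K) q)

/-! ### The embeddings -/

/-- `e_a` : the plain expansion of `F_{Mq²}(E)`, with coefficients in `K` -/
def s36ncA : modularFunctionFieldFullC E (M * q * q) →+* LaurentSeries K :=
  (coeffMap ψ).comp (modularFunctionFieldFullC E (M * q * q)).val.toRingHom

@[simp]
theorem s36ncA_apply (x : modularFunctionFieldFullC E (M * q * q)) :
    s36ncA ψ (q := q) (M := M) x = coeffMap ψ (x : LaurentSeries E) := rfl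

/-- `e_b = e_a ∘ w` -/
def s36ncB : modularFunctionFieldFullC E (M * q * q) →+* LaurentSeries K :=
  (s36ncA ψ).comp (s36n2W E ιC hq hqM).toAlgHom.toRingHom

@[simp]
theorem s36ncB_apply (x : modularFunctionFieldFullC E (M * q * q)) :
    s36ncB ψ ιC hq hqM x =
      coeffMap ψ ((s36n2W E ιC hq hqM x : modularFunctionFieldFullC E (M * q * q)) :
        LaurentSeries E) := rfl

include hq hζ in
theorem s36nc_pow_primitive {b : ℕ} (hb : ¬ q ∣ b) :
    IsPrimitiveRoot (((ζ ^ b : Kˣ)) : K) q := by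
  rw [Units.val_pow_eq_pow_val]
  exact hζ.pow_of_coprime b ((Nat.Prime.coprime_iff_not_dvd hq).mpr hb).symm

/-- `μ_{ζ^b}` on `F_{Mq²}(K)` (`q ∤ b`) -/
def s36ncMuK {b : ℕ} (hb : ¬ q ∣ b) : S36MidEmb K q M (ζ ^ b) :=
  s36midEmb K ιK hq hqM (ζ ^ b) (s36nc_pow_primitive hq ζ hζ hb)

open Classical in
/-- `μ_{ζ^b} ∘ (base change)` : the expansion at the middle cusp of `F_{Mq²}(E)`; total in
`b : ℕ` (equal to `e_a` if `q ∣ b`). -/
def s36ncMu (b : ℕ) : modularFunctionFieldFullC E (M * q * q) →+* LaurentSeries K :=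
  if hb : ¬ q ∣ b then
    ((s36ncMuK ιK hq hqM ζ hζ hb).emb.toRingHom).comp (mgaCoeffHom ψ (M * q * q))
  else s36ncA ψ

theorem s36ncMu_apply {b : ℕ} (hb : ¬ q ∣ b) (x : modularFunctionFieldFullC E (M * q * q)) :
    s36ncMu ψ ιK hq hqM ζ hζ b x =
      (s36ncMuK ιK hq hqM ζ hζ hb).emb (mgaCoeffHom ψ (M * q * q) x) := by
  unfold s36ncMu
  rw [dif_pos hb]
  rfl

include hζ in
theorem s36nc_pow_q (b : ℕ) : (ζ ^ b) ^ q = 1 := by
  have h1 : (ζ : K) ^ q = 1 := hζ.pow_eq_one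
  have h2 : ζ ^ q = 1 := Units.ext (by rw [Units.val_pow_eq_pow_val, h1]; rfl)
  rw [← pow_mul, mul_comm, pow_mul, h2, one_pow]

theorem s36nc_fin_not_dvd {b : Fin q} (hb : (b : ℕ) ≠ 0) : ¬ q ∣ (b : ℕ) :=
  Nat.not_dvd_of_pos_of_lt (Nat.pos_of_ne_zero hb) b.2

/-! ### Separation: the coefficient of `Q⁻¹` -/

theorem s36nc_kronRot_j_coeff (z : Kˣ) :
    (kronRot z (jqModC K)).coeff (-1) = ((z⁻¹ : Kˣ) : K) := by
  rw [kronRot_coeff, coeff_jqModC_neg_one, mul_one, zpow_neg_one]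

theorem s36nc_qExpand_sq_j_coeff (hq2 : 2 ≤ q) :
    (qExpand K q (qExpand K q (jqModC K))).coeff (-1) = 0 := by
  refine qExpand_coeff_of_not_dvd q _ ?_
  intro h
  have h1 : (q : ℤ) ∣ 1 := by
    obtain ⟨c, hc⟩ := h
    exact ⟨-c, by linarith⟩
  have h2 := Int.le_of_dvd one_pos h1
  omega

include hζ in
theorem s36nc_pow_inj {b b' : Fin q} (h : ζ ^ (b : ℕ) = ζ ^ (b' : ℕ)) : b = b' := by
  have h' := congrArg Units.val h
  rw [Units.val_pow_eq_pow_val, Units.val_pow_eq_pow_val] at h'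
  exact Fin.ext (hζ.pow_inj b.2 b'.2 h')

theorem s36nc_coeffMap_j : coeffMap ψ (jqModC E) = jqModC K := map_jqModC ψ

/-- `j ∈ F_{Mq²}` -/
def s36ncJ : modularFunctionFieldFullC E (M * q * q) :=
  ⟨jqModC E, jqModC_mem_full E (M * q * q)⟩

/-- `j(Q^{q²}) ∈ F_{Mq²}` -/
def s36ncJqq : modularFunctionFieldFullC E (M * q * q) :=
  ⟨qExpand E q (qExpand E q (jqModC E)), s36mid_qExpand_sq_mem (jqModC_mem_full E M)⟩

theorem s36ncA_J : s36ncA ψ (s36ncJ (E := E) (q := q) (M := M)) = jqModC K :=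
  s36nc_coeffMap_j ψ

theorem s36ncA_Jqq :
    s36ncA ψ (s36ncJqq (E := E) (q := q) (M := M)) = qExpand K q (qExpand K q (jqModC K)) := by
  show coeffMap ψ (qExpand E q (qExpand E q (jqModC E))) = _
  rw [coeffMap_qExpand, coeffMap_qExpand, s36nc_coeffMap_j]

theorem s36ncB_J :
    s36ncB ψ ιC hq hqM (s36ncJ (E := E) (q := q) (M := M)) =
      qExpand K q (qExpand K q (jqModC K)) := by
  rw [s36ncB_apply]
  have h := s36n2W_base E ιC hq hqM (jqModC_mem_full E M)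
  have h1 : (s36ncJ (E := E) (q := q) (M := M)) =
      ⟨jqModC E, s36n2_mem_of_mem_base E (jqModC_mem_full E M)⟩ := rfl
  rw [h1, h, coeffMap_qExpand, coeffMap_qExpand, s36nc_coeffMap_j]

theorem s36ncB_Jqq :
    s36ncB ψ ιC hq hqM (s36ncJqq (E := E) (q := q) (M := M)) = jqModC K := by
  rw [s36ncB_apply]
  have h := s36n2W_qExpand_sq E ιC hq hqM (jqModC_mem_full E M)
  have h1 : (s36ncJqq (E := E) (q := q) (M := M)) =
      ⟨qExpand E q (qExpand E q (jqModC E)),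
        alq_qExpand_mem E (al_qExpand_mem E (jqModC_mem_full E M))⟩ := rfl
  rw [h1, h, s36nc_coeffMap_j]

theorem s36ncMu_J {b : ℕ} (hb : ¬ q ∣ b) :
    s36ncMu ψ ιK hq hqM ζ hζ b (s36ncJ (E := E) (q := q) (M := M)) = jqModC K := by
  rw [s36ncMu_apply ψ ιK hq hqM ζ hζ hb]
  have h1 : mgaCoeffHom ψ (M * q * q) (s36ncJ (E := E) (q := q) (M := M)) =
      ⟨jqModC K, s36mid_low_le (jqModC_mem_full K (M * q))⟩ :=
    Subtype.ext (s36nc_coeffMap_j ψ)
  rw [h1, (s36ncMuK ιK hq hqM ζ hζ hb).emb_of_mem_low (jqModC_mem_full K (M * q))]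

theorem s36ncMu_Jqq {b : ℕ} (hb : ¬ q ∣ b) :
    s36ncMu ψ ιK hq hqM ζ hζ b (s36ncJqq (E := E) (q := q) (M := M)) =
      kronRot (ζ ^ b) (jqModC K) := by
  rw [s36ncMu_apply ψ ιK hq hqM ζ hζ hb]
  have h1 : mgaCoeffHom ψ (M * q * q) (s36ncJqq (E := E) (q := q) (M := M)) =
      ⟨qExpand K q (qExpand K q (jqModC K)), s36mid_qExpand_sq_mem (jqModC_mem_full K M)⟩ :=
    Subtype.ext (s36ncA_Jqq (q := q) (M := M) ψ)
  rw [h1, (s36ncMuK ιK hq hqM ζ hζ hb).emb_base_sq ιK hq hqM (s36nc_pow_q ζ hζ b)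
    (jqModC_mem_full K M)]

/-! ### The family `(β,∞)` -/

/-- the family `(β,∞)` : `kronRot ζ^b ∘ e_a` -/
def s36ncBetaInf (b : Fin q) : modularFunctionFieldFullC E (M * q * q) →+* LaurentSeries K :=
  (kronRot (ζ ^ (b : ℕ))).comp (s36ncA ψ)

/-- the base embedding of `(β,∞)` : `f ↦ (ψ̂ f)(Q^q)` -/
def s36ncBaseBetaInf : modularFunctionFieldFullC E (M * q) →+* LaurentSeries K :=
  (qExpand K q).comp ((coeffMap ψ).comp (modularFunctionFieldFullC E (M * q)).val.toRingHom)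

include hζ in
theorem s36ncBetaInf_restr (b : Fin q) (x : modularFunctionFieldFullC E (M * q)) :
    s36ncBetaInf ψ ζ b (s36Beta E M q x) = s36ncBaseBetaInf ψ x := by
  show kronRot (ζ ^ (b : ℕ)) (coeffMap ψ (qExpand E q (x : LaurentSeries E))) =
    qExpand K q (coeffMap ψ (x : LaurentSeries E))
  rw [coeffMap_qExpand, qExpand_kronRot_pow, s36nc_pow_q ζ hζ, kronRot_one]

include hζ in
theorem s36ncBetaInf_injective :
    Function.Injective (s36ncBetaInf (E := E) (q := q) (M := M) ψ ζ) := by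
  intro b b' h
  have h1 := congrArg (fun f : modularFunctionFieldFullC E (M * q * q) →+* LaurentSeries K =>
    (f (s36ncJ (E := E) (q := q) (M := M))).coeff (-1)) h
  have h2 : ∀ c : Fin q, (s36ncBetaInf ψ ζ c (s36ncJ (E := E) (q := q) (M := M))).coeff (-1) =
      (((ζ ^ (c : ℕ))⁻¹ : Kˣ) : K) := by
    intro c
    show (kronRot (ζ ^ (c : ℕ)) (s36ncA ψ (s36ncJ (E := E) (q := q) (M := M)))).coeff (-1) = _
    rw [s36ncA_J, s36nc_kronRot_j_coeff]
  simp only [h2] at h1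
  exact s36nc_pow_inj ζ hζ (inv_injective (Units.ext h1))

/-! ### The family `(α,0)` -/

/-- the family `(α,0)` : `kronRot ζ^b ∘ e_b` -/
def s36ncAlphaZero (b : Fin q) : modularFunctionFieldFullC E (M * q * q) →+* LaurentSeries K :=
  (kronRot (ζ ^ (b : ℕ))).comp (s36ncB ψ ιC hq hqM)

/-- the base embedding of `(α,0)` : `f ↦ (ψ̂ (w′ f))(Q^q)` -/
def s36ncBaseAlphaZero : modularFunctionFieldFullC E (M * q) →+* LaurentSeries K :=
  (s36ncBaseBetaInf ψ).comp (atkinLehner E ιC hq hqM).toAlgHom.toRingHom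

theorem s36ncBaseAlphaZero_apply (x : modularFunctionFieldFullC E (M * q)) :
    s36ncBaseAlphaZero ψ ιC hq hqM x =
      qExpand K q (coeffMap ψ ((atkinLehner E ιC hq hqM x : modularFunctionFieldFullC E (M * q)) :
        LaurentSeries E)) := rfl

include hζ in
theorem s36ncAlphaZero_restr (b : Fin q) (x : modularFunctionFieldFullC E (M * q)) :
    s36ncAlphaZero ψ ιC hq hqM ζ b (s36Alpha E M q x) = s36ncBaseAlphaZero ψ ιC hq hqM x := by
  show kronRot (ζ ^ (b : ℕ)) (coeffMap ψ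
    ((s36n2W E ιC hq hqM (s36Alpha E M q x) : modularFunctionFieldFullC E (M * q * q)) :
      LaurentSeries E)) = _
  have h := s36n2W_alpha E ιC hq hqM x.2
  have h1 : s36Alpha E M q x = ⟨(x : LaurentSeries E), alq_mem_of_mem_lower E x.2⟩ := rfl
  rw [h1, h, s36ncBaseAlphaZero_apply, coeffMap_qExpand, qExpand_kronRot_pow, s36nc_pow_q ζ hζ,
    kronRot_one]

include hζ in
theorem s36ncAlphaZero_injective :
    Function.Injective (s36ncAlphaZero (E := E) (q := q) (M := M) ψ ιC hq hqM ζ) := by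
  intro b b' h
  have h1 := congrArg (fun f : modularFunctionFieldFullC E (M * q * q) →+* LaurentSeries K =>
    (f (s36ncJqq (E := E) (q := q) (M := M))).coeff (-1)) h
  have h2 : ∀ c : Fin q,
      (s36ncAlphaZero ψ ιC hq hqM ζ c (s36ncJqq (E := E) (q := q) (M := M))).coeff (-1) =
      (((ζ ^ (c : ℕ))⁻¹ : Kˣ) : K) := by
    intro c
    show (kronRot (ζ ^ (c : ℕ))
      (s36ncB ψ ιC hq hqM (s36ncJqq (E := E) (q := q) (M := M)))).coeff (-1) = _
    rw [s36ncB_Jqq, s36nc_kronRot_j_coeff]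
  simp only [h2] at h1
  exact s36nc_pow_inj ζ hζ (inv_injective (Units.ext h1))

/-! ### The family `(α,∞)` -/

/-- the family `(α,∞)` : `e_a` (`b = 0`), `μ_{ζ^b}` (`b ≠ 0`) -/
def s36ncAlphaInf (b : Fin q) : modularFunctionFieldFullC E (M * q * q) →+* LaurentSeries K :=
  s36ncMu ψ ιK hq hqM ζ hζ (b : ℕ)

/-- the base embedding of `(α,∞)` : `f ↦ ψ̂ f` -/
def s36ncBaseAlphaInf : modularFunctionFieldFullC E (M * q) →+* LaurentSeries K :=
  (coeffMap ψ).comp (modularFunctionFieldFullC E (M * q)).val.toRingHom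

theorem s36ncMu_of_dvd {b : ℕ} (hb : q ∣ b) :
    s36ncMu (E := E) (M := M) ψ ιK hq hqM ζ hζ b = s36ncA ψ := by
  unfold s36ncMu
  rw [dif_neg (not_not.mpr hb)]

theorem s36ncMu_zero : s36ncMu (E := E) (M := M) ψ ιK hq hqM ζ hζ 0 = s36ncA ψ :=
  s36ncMu_of_dvd ψ ιK hq hqM ζ hζ (dvd_zero q)

theorem s36ncMu_restr (b : ℕ) (x : modularFunctionFieldFullC E (M * q)) :
    s36ncMu ψ ιK hq hqM ζ hζ b (s36Alpha E M q x) = s36ncBaseAlphaInf ψ x := by
  have hbase : s36ncBaseAlphaInf ψ x = coeffMap ψ (x : LaurentSeries E) := rfl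
  by_cases hb : q ∣ b
  · rw [s36ncMu_of_dvd ψ ιK hq hqM ζ hζ hb, s36ncA_apply, coe_s36Alpha, hbase]
  · rw [s36ncMu_apply ψ ιK hq hqM ζ hζ hb]
    have hx : coeffMap ψ (x : LaurentSeries E) ∈ modularFunctionFieldFullC K (M * q) :=
      (mgaCoeffHom ψ (M * q) x).2
    have h1 : mgaCoeffHom ψ (M * q * q) (s36Alpha E M q x) =
        ⟨coeffMap ψ (x : LaurentSeries E), s36mid_low_le hx⟩ :=
      Subtype.ext (by rw [mgaCoeffHom_coe, coe_s36Alpha])
    rw [h1, (s36ncMuK ιK hq hqM ζ hζ hb).emb_of_mem_low hx, hbase]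

theorem s36ncAlphaInf_restr (b : Fin q) (x : modularFunctionFieldFullC E (M * q)) :
    s36ncAlphaInf ψ ιK hq hqM ζ hζ b (s36Alpha E M q x) = s36ncBaseAlphaInf ψ x :=
  s36ncMu_restr ψ ιK hq hqM ζ hζ _ x

theorem s36ncAlphaInf_Jqq_coeff (b : Fin q) :
    (s36ncAlphaInf ψ ιK hq hqM ζ hζ b (s36ncJqq (E := E) (q := q) (M := M))).coeff (-1) =
      if (b : ℕ) = 0 then 0 else (((ζ ^ (b : ℕ))⁻¹ : Kˣ) : K) := by
  unfold s36ncAlphaInf
  split_ifs with h0
  · rw [h0, s36ncMu_zero, s36ncA_Jqq, s36nc_qExpand_sq_j_coeff hq.two_le]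
  · rw [s36ncMu_Jqq ψ ιK hq hqM ζ hζ (s36nc_fin_not_dvd h0), s36nc_kronRot_j_coeff]

theorem s36ncAlphaInf_injective :
    Function.Injective (s36ncAlphaInf (E := E) (q := q) (M := M) ψ ιK hq hqM ζ hζ) := by
  intro b b' h
  have h1 := congrArg (fun f : modularFunctionFieldFullC E (M * q * q) →+* LaurentSeries K =>
    (f (s36ncJqq (E := E) (q := q) (M := M))).coeff (-1)) h
  simp only [s36ncAlphaInf_Jqq_coeff] at h1
  by_cases hb : (b : ℕ) = 0 <;> by_cases hb' : (b' : ℕ) = 0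
  · exact Fin.ext (hb.trans hb'.symm)
  · rw [if_pos hb, if_neg hb'] at h1
    exact absurd h1.symm (Units.ne_zero _)
  · rw [if_neg hb, if_pos hb'] at h1
    exact absurd h1 (Units.ne_zero _)
  · rw [if_neg hb, if_neg hb'] at h1
    exact s36nc_pow_inj ζ hζ (inv_injective (Units.ext h1))

/-! ### The family `(β,0)` -/

open Classical in
/-- `kronRot ζ^{-b} ∘ μ_{ζ^b}` (`q ∤ b`), `e_b` (`q ∣ b`) -/
def s36ncNu (b : ℕ) : modularFunctionFieldFullC E (M * q * q) →+* LaurentSeries K :=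
  if hb : ¬ q ∣ b then (kronRot (ζ ^ b)⁻¹).comp (s36ncMu ψ ιK hq hqM ζ hζ b)
  else s36ncB ψ ιC hq hqM

theorem s36ncNu_of_dvd {b : ℕ} (hb : q ∣ b) :
    s36ncNu (E := E) (M := M) ψ ιC ιK hq hqM ζ hζ b = s36ncB ψ ιC hq hqM := by
  unfold s36ncNu
  rw [dif_neg (not_not.mpr hb)]

theorem s36ncNu_zero :
    s36ncNu (E := E) (M := M) ψ ιC ιK hq hqM ζ hζ 0 = s36ncB ψ ιC hq hqM :=
  s36ncNu_of_dvd ψ ιC ιK hq hqM ζ hζ (dvd_zero q)

theorem s36ncNu_apply {b : ℕ} (hb : ¬ q ∣ b) (x : modularFunctionFieldFullC E (M * q * q)) :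
    s36ncNu ψ ιC ιK hq hqM ζ hζ b x =
      kronRot (ζ ^ b)⁻¹ (s36ncMu ψ ιK hq hqM ζ hζ b x) := by
  unfold s36ncNu
  rw [dif_pos hb]
  rfl

/-- the family `(β,0)` : `e_b` (`b = 0`), `kronRot ζ^{-b} ∘ μ_{ζ^b}` (`b ≠ 0`) -/
def s36ncBetaZero (b : Fin q) : modularFunctionFieldFullC E (M * q * q) →+* LaurentSeries K :=
  s36ncNu ψ ιC ιK hq hqM ζ hζ (b : ℕ)

/-- the base embedding of `(β,0)` : `f ↦ ψ̂ (w′ f)` -/
def s36ncBaseBetaZero : modularFunctionFieldFullC E (M * q) →+* LaurentSeries K :=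
  (s36ncBaseAlphaInf ψ).comp (atkinLehner E ιC hq hqM).toAlgHom.toRingHom

theorem s36ncBaseBetaZero_apply (x : modularFunctionFieldFullC E (M * q)) :
    s36ncBaseBetaZero ψ ιC hq hqM x =
      coeffMap ψ ((atkinLehner E ιC hq hqM x : modularFunctionFieldFullC E (M * q)) :
        LaurentSeries E) := rfl

theorem s36ncNu_restr (b : ℕ) (x : modularFunctionFieldFullC E (M * q)) :
    s36ncNu ψ ιC ιK hq hqM ζ hζ b (s36Beta E M q x) = s36ncBaseBetaZero ψ ιC hq hqM x := by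
  by_cases hb : q ∣ b
  · rw [s36ncNu_of_dvd ψ ιC ιK hq hqM ζ hζ hb, s36ncB_apply, s36ncBaseBetaZero_apply]
    have h := s36n2W_beta E ιC hq hqM x.2
    have h1 : s36Beta E M q x = ⟨qExpand E q (x : LaurentSeries E), alq_qExpand_mem E x.2⟩ := rfl
    rw [h1, h]
  · rw [s36ncNu_apply ψ ιC ιK hq hqM ζ hζ hb, s36ncMu_apply ψ ιK hq hqM ζ hζ hb]
    have hx : coeffMap ψ (x : LaurentSeries E) ∈ modularFunctionFieldFullC K (M * q) :=
      (mgaCoeffHom ψ (M * q) x).2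
    have h1 : mgaCoeffHom ψ (M * q * q) (s36Beta E M q x) =
        ⟨qExpand K q (coeffMap ψ (x : LaurentSeries E)), s36mid_qExpand_mem hx⟩ :=
      Subtype.ext (coeffMap_qExpand ψ q (x : LaurentSeries E))
    rw [h1, (s36ncMuK ιK hq hqM ζ hζ hb).emb_qExpand ιK hq hqM (s36nc_pow_q ζ hζ b) hx,
      kronRot_kronRot, inv_mul_cancel, kronRot_one, s36ncBaseBetaZero_apply]
    have h2 := vt_atkinLehner_coeffHom ψ ιC ιK hq hqM x
    have h3 : (⟨coeffMap ψ (x : LaurentSeries E), hx⟩ : modularFunctionFieldFullC K (M * q)) =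
        mgaCoeffHom ψ (M * q) x := rfl
    rw [h3, h2]
    rfl

theorem s36ncBetaZero_restr (b : Fin q) (x : modularFunctionFieldFullC E (M * q)) :
    s36ncBetaZero ψ ιC ιK hq hqM ζ hζ b (s36Beta E M q x) = s36ncBaseBetaZero ψ ιC hq hqM x :=
  s36ncNu_restr ψ ιC ιK hq hqM ζ hζ _ x

theorem s36ncBetaZero_J_coeff (b : Fin q) :
    (s36ncBetaZero ψ ιC ιK hq hqM ζ hζ b (s36ncJ (E := E) (q := q) (M := M))).coeff (-1) =
      if (b : ℕ) = 0 then 0 else ((ζ ^ (b : ℕ) : Kˣ) : K) := by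
  unfold s36ncBetaZero
  split_ifs with h0
  · rw [h0, s36ncNu_zero, s36ncB_J, s36nc_qExpand_sq_j_coeff hq.two_le]
  · rw [s36ncNu_apply ψ ιC ιK hq hqM ζ hζ (s36nc_fin_not_dvd h0),
      s36ncMu_J ψ ιK hq hqM ζ hζ (s36nc_fin_not_dvd h0), s36nc_kronRot_j_coeff, inv_inv]

theorem s36ncBetaZero_injective :
    Function.Injective (s36ncBetaZero (E := E) (q := q) (M := M) ψ ιC ιK hq hqM ζ hζ) := by
  intro b b' h
  have h1 := congrArg (fun f : modularFunctionFieldFullC E (M * q * q) →+* LaurentSeries K =>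
    (f (s36ncJ (E := E) (q := q) (M := M))).coeff (-1)) h
  simp only [s36ncBetaZero_J_coeff] at h1
  by_cases hb : (b : ℕ) = 0 <;> by_cases hb' : (b' : ℕ) = 0
  · exact Fin.ext (hb.trans hb'.symm)
  · rw [if_pos hb, if_neg hb'] at h1
    exact absurd h1.symm (Units.ne_zero _)
  · rw [if_neg hb, if_pos hb'] at h1
    exact absurd h1 (Units.ne_zero _)
  · rw [if_neg hb, if_neg hb'] at h1
    exact s36nc_pow_inj ζ hζ (Units.ext h1)

end Conj

/-! ### The norm products -/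

section Norm

variable {E K : Type*} [Field E] [CharZero E] [Field K] (ψ : E →+* K) (ιC : E →+* ℂ)
  (ιK : K →+* ℂ)
  {q M : ℕ} [NeZero q] [NeZero M] [NeZero (M * q)] [NeZero (M * q * q)]
  (hq : q.Prime) (hqM : ¬ q ∣ M) (ζ : Kˣ) (hζ : IsPrimitiveRoot (ζ : K) q)

theorem s36nc_sep_alpha (hq : q.Prime) :
    letI := (s36Alpha E M q).toAlgebra
    Algebra.IsSeparable (modularFunctionFieldFullC E (M * q))
      (modularFunctionFieldFullC E (M * q * q)) := by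
  letI := (s36Alpha E M q).toAlgebra
  haveI : Module.Finite (modularFunctionFieldFullC E (M * q))
    (modularFunctionFieldFullC E (M * q * q)) := s36dn_finite_alpha E M q hq
  haveI : CharZero (modularFunctionFieldFullC E (M * q)) :=
    charZero_of_injective_ringHom (algebraMap E (modularFunctionFieldFullC E (M * q))).injective
  infer_instance

include ιC hq hqM in
theorem s36nc_sep_beta :
    letI := (s36Beta E M q).toAlgebra
    Algebra.IsSeparable (modularFunctionFieldFullC E (M * q))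
      (modularFunctionFieldFullC E (M * q * q)) := by
  letI := (s36Beta E M q).toAlgebra
  haveI : Module.Finite (modularFunctionFieldFullC E (M * q))
    (modularFunctionFieldFullC E (M * q * q)) := s36dn_finite_beta E ιC hq hqM
  haveI : CharZero (modularFunctionFieldFullC E (M * q)) :=
    charZero_of_injective_ringHom (algebraMap E (modularFunctionFieldFullC E (M * q))).injective
  infer_instance

include ιC hq hqM hζ in
/-- **(Nβ∞)**, `Fin q`-form. -/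
theorem s36nc_norm_betaInf_fin (x : modularFunctionFieldFullC E (M * q * q)) :
    s36ncBaseBetaInf ψ (stbNorm (s36Beta E M q) x) = ∏ b : Fin q, s36ncBetaInf ψ ζ b x :=
  s36n2_hom_norm_eq_prod (s36Beta E M q) (s36dn_finite_beta E ιC hq hqM)
    (s36nc_sep_beta ιC hq hqM) (s36ncBaseBetaInf ψ) (s36ncBetaInf ψ ζ)
    (s36ncBetaInf_restr ψ ζ hζ) (s36ncBetaInf_injective ψ ζ hζ)
    (by rw [Fintype.card_fin]; exact (s36dn_deg_beta E ιC hq hqM).symm) x

include ιC hq hqM hζ in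
/-- **(Nβ∞)** `(ψ̂ (N_β x))(Q^q) = ∏_{b < q} (ψ̂ x)(ζ^b Q)`. -/
theorem s36nc_norm_betaInf (x : modularFunctionFieldFullC E (M * q * q)) :
    qExpand K q (coeffMap ψ ((stbNorm (s36Beta E M q) x : modularFunctionFieldFullC E (M * q)) :
      LaurentSeries E)) =
      ∏ b ∈ Finset.range q, kronRot (ζ ^ b) (coeffMap ψ (x : LaurentSeries E)) := by
  have h := s36nc_norm_betaInf_fin ψ ιC hq hqM ζ hζ x
  rw [← Fin.prod_univ_eq_prod_range (fun b => kronRot (ζ ^ b) (coeffMap ψ (x : LaurentSeries E)))]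
  exact h

include ιC hq hqM hζ in
/-- **(Nα0)**, `Fin q`-form. -/
theorem s36nc_norm_alphaZero_fin (x : modularFunctionFieldFullC E (M * q * q)) :
    s36ncBaseAlphaZero ψ ιC hq hqM (stbNorm (s36Alpha E M q) x) =
      ∏ b : Fin q, s36ncAlphaZero ψ ιC hq hqM ζ b x :=
  s36n2_hom_norm_eq_prod (s36Alpha E M q) (s36dn_finite_alpha E M q hq)
    (s36nc_sep_alpha hq) (s36ncBaseAlphaZero ψ ιC hq hqM) (s36ncAlphaZero ψ ιC hq hqM ζ)
    (s36ncAlphaZero_restr ψ ιC hq hqM ζ hζ) (s36ncAlphaZero_injective ψ ιC hq hqM ζ hζ)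
    (by rw [Fintype.card_fin]; exact (s36dn_deg_alpha E M q hq).symm) x

include ιC hq hqM hζ in
/-- **(Nα0)** `(ψ̂ (w′ (N_α x)))(Q^q) = ∏_{b < q} (ψ̂ (w x))(ζ^b Q)`. -/
theorem s36nc_norm_alphaZero (x : modularFunctionFieldFullC E (M * q * q)) :
    qExpand K q (coeffMap ψ
      ((atkinLehner E ιC hq hqM (stbNorm (s36Alpha E M q) x) :
        modularFunctionFieldFullC E (M * q)) : LaurentSeries E)) =
      ∏ b ∈ Finset.range q, kronRot (ζ ^ b)
        (coeffMap ψ ((s36n2W E ιC hq hqM x : modularFunctionFieldFullC E (M * q * q)) :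
          LaurentSeries E)) := by
  have h := s36nc_norm_alphaZero_fin ψ ιC hq hqM ζ hζ x
  rw [← Fin.prod_univ_eq_prod_range (fun b => kronRot (ζ ^ b)
    (coeffMap ψ ((s36n2W E ιC hq hqM x : modularFunctionFieldFullC E (M * q * q)) :
      LaurentSeries E)))]
  exact h

include hq in
/-- **(Nα∞)**, `Fin q`-form. -/
theorem s36nc_norm_alphaInf_fin (x : modularFunctionFieldFullC E (M * q * q)) :
    s36ncBaseAlphaInf ψ (stbNorm (s36Alpha E M q) x) =
      ∏ b : Fin q, s36ncAlphaInf ψ ιK hq hqM ζ hζ b x :=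
  s36n2_hom_norm_eq_prod (s36Alpha E M q) (s36dn_finite_alpha E M q hq)
    (s36nc_sep_alpha hq) (s36ncBaseAlphaInf ψ) (s36ncAlphaInf ψ ιK hq hqM ζ hζ)
    (s36ncAlphaInf_restr ψ ιK hq hqM ζ hζ) (s36ncAlphaInf_injective ψ ιK hq hqM ζ hζ)
    (by rw [Fintype.card_fin]; exact (s36dn_deg_alpha E M q hq).symm) x

/-- splitting off `b = 0` -/
theorem s36nc_prod_range_eq {L : Type*} [CommMonoid L] (hq : q.Prime) (f : ℕ → L) :
    ∏ b ∈ Finset.range q, f b = f 0 * ∏ b ∈ Finset.Ico 1 q, f b := by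
  rw [Finset.range_eq_Ico, Finset.prod_eq_prod_Ico_succ_bot hq.pos]

include hq in
/-- **(Nα∞)** `ψ̂ (N_α x) = ψ̂ x · ∏_{1 ≤ b < q} μ_{ζ^b} x`. -/
theorem s36nc_norm_alphaInf (x : modularFunctionFieldFullC E (M * q * q)) :
    coeffMap ψ ((stbNorm (s36Alpha E M q) x : modularFunctionFieldFullC E (M * q)) :
      LaurentSeries E) =
      coeffMap ψ (x : LaurentSeries E) *
        ∏ b ∈ Finset.Ico 1 q, s36ncMu ψ ιK hq hqM ζ hζ b x := by
  have h := s36nc_norm_alphaInf_fin ψ ιK hq hqM ζ hζ x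
  have h1 : ∏ b : Fin q, s36ncAlphaInf ψ ιK hq hqM ζ hζ b x =
      ∏ b ∈ Finset.range q, s36ncMu ψ ιK hq hqM ζ hζ b x :=
    Fin.prod_univ_eq_prod_range (fun b => s36ncMu ψ ιK hq hqM ζ hζ b x) q
  rw [h1, s36nc_prod_range_eq hq, s36ncMu_zero, s36ncA_apply] at h
  exact h

include hq in
/-- **(Nβ0)**, `Fin q`-form. -/
theorem s36nc_norm_betaZero_fin (x : modularFunctionFieldFullC E (M * q * q)) :
    s36ncBaseBetaZero ψ ιC hq hqM (stbNorm (s36Beta E M q) x) =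
      ∏ b : Fin q, s36ncBetaZero ψ ιC ιK hq hqM ζ hζ b x :=
  s36n2_hom_norm_eq_prod (s36Beta E M q) (s36dn_finite_beta E ιC hq hqM)
    (s36nc_sep_beta ιC hq hqM) (s36ncBaseBetaZero ψ ιC hq hqM)
    (s36ncBetaZero ψ ιC ιK hq hqM ζ hζ)
    (s36ncBetaZero_restr ψ ιC ιK hq hqM ζ hζ) (s36ncBetaZero_injective ψ ιC ιK hq hqM ζ hζ)
    (by rw [Fintype.card_fin]; exact (s36dn_deg_beta E ιC hq hqM).symm) x

include hq in
/-- **(Nβ0)** `ψ̂ (w′ (N_β x)) = ψ̂ (w x) · ∏_{1 ≤ b < q} (μ_{ζ^b} x)(ζ^{-b} Q)`. -/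
theorem s36nc_norm_betaZero (x : modularFunctionFieldFullC E (M * q * q)) :
    coeffMap ψ ((atkinLehner E ιC hq hqM (stbNorm (s36Beta E M q) x) :
      modularFunctionFieldFullC E (M * q)) : LaurentSeries E) =
      coeffMap ψ ((s36n2W E ιC hq hqM x : modularFunctionFieldFullC E (M * q * q)) :
        LaurentSeries E) *
        ∏ b ∈ Finset.Ico 1 q, kronRot (ζ ^ b)⁻¹ (s36ncMu ψ ιK hq hqM ζ hζ b x) := by
  have h := s36nc_norm_betaZero_fin ψ ιC ιK hq hqM ζ hζ x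
  have h1 : ∏ b : Fin q, s36ncBetaZero ψ ιC ιK hq hqM ζ hζ b x =
      ∏ b ∈ Finset.range q, s36ncNu ψ ιC ιK hq hqM ζ hζ b x :=
    Fin.prod_univ_eq_prod_range (fun b => s36ncNu ψ ιC ιK hq hqM ζ hζ b x) q
  have h2 : ∏ b ∈ Finset.Ico 1 q, s36ncNu ψ ιC ιK hq hqM ζ hζ b x =
      ∏ b ∈ Finset.Ico 1 q, kronRot (ζ ^ b)⁻¹ (s36ncMu ψ ιK hq hqM ζ hζ b x) := by
    refine Finset.prod_congr rfl fun b hb => ?_
    rw [Finset.mem_Ico] at hb
    exact s36ncNu_apply ψ ιC ιK hq hqM ζ hζ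
      (Nat.not_dvd_of_pos_of_lt (by omega) hb.2) x
  rw [h1, s36nc_prod_range_eq hq, s36ncNu_zero, s36ncB_apply, h2] at h
  exact h

end Norm

end Fermat.Agent.S36
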