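import Fermat.Agent.S36.DescentTop

/-!
# S36 geometry, G-topB: the concrete setting of the instantiation (helper58)

`K` a field, `F′ = F_{Mq}(K)`, `F = F_{Mqq}(K)`.

* `s36NormAlpha K M q`, `s36NormBeta K M q : F →* F′` : the norms along `s36Alpha`, `s36Beta`
  as monoid homomorphisms (`= STB.stbNorm …`, the form of `StmtCarayolSmallAt`);
* `s36Alpha_algebraMap`, `s36Beta_algebraMap` : `α`, `β` fix the constants;
* `s36NormAlpha_algebraMap`, `s36NormBeta_algebraMap` : `N (const a) = const a ^ deg`;
* `s36Hor K N m y` : `∀ P : Place K F_N(K), m ∣ P.ord y` — the predicate `Hor` of `S36PtInput`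
  (`S36/TopAbsDef.lean`), with `s36Hor_mul`, `s36Hor_inv`, `s36Hor_algebraMap`, `s36Hor_pow`,
  `s36Hor_pow_self`.
-/

set_option autoImplicit false
set_option linter.unusedSectionVars false
set_option linter.style.haveILetI false

noncomputable section

open ModularCurve AlgebraicCurve Fermat.Agent.STB

namespace Fermat.Agent.S36

section Norms

variable (K : Type*) [Field K] (M q : ℕ) [NeZero M] [NeZero q]

/-- the norm `F_{Mqq}(K) → F_{Mq}(K)` along `α`, as a monoid homomorphism -/
def s36NormAlpha :
    modularFunctionFieldFullC K (M * q * q) →* modularFunctionFieldFullC K (M * q) where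
  toFun := stbNorm (s36Alpha K M q)
  map_one' := s36dt_norm_one _
  map_mul' := s36dt_norm_mul _

/-- the norm `F_{Mqq}(K) → F_{Mq}(K)` along `β`, as a monoid homomorphism -/
def s36NormBeta :
    modularFunctionFieldFullC K (M * q * q) →* modularFunctionFieldFullC K (M * q) where
  toFun := stbNorm (s36Beta K M q)
  map_one' := s36dt_norm_one _
  map_mul' := s36dt_norm_mul _

@[simp]
theorem s36NormAlpha_apply (y : modularFunctionFieldFullC K (M * q * q)) :
    s36NormAlpha K M q y = stbNorm (s36Alpha K M q) y := rfl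

@[simp]
theorem s36NormBeta_apply (y : modularFunctionFieldFullC K (M * q * q)) :
    s36NormBeta K M q y = stbNorm (s36Beta K M q) y := rfl

theorem s36Alpha_algebraMap (a : K) :
    s36Alpha K M q (algebraMap K (modularFunctionFieldFullC K (M * q)) a)
      = algebraMap K (modularFunctionFieldFullC K (M * q * q)) a :=
  (IntermediateField.inclusion
    (full_degeneracyC_le K (Dvd.intro q rfl : M * q ∣ M * q * q))).commutes a

theorem s36Beta_algebraMap (a : K) :
    s36Beta K M q (algebraMap K (modularFunctionFieldFullC K (M * q)) a)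
      = algebraMap K (modularFunctionFieldFullC K (M * q * q)) a := by
  apply Subtype.ext
  rw [coe_s36Beta]
  show qExpand K q (algebraMap K (LaurentSeries K) a) = algebraMap K (LaurentSeries K) a
  rw [algebraMap_laurentSeries_eq_single, qExpand_single, mul_zero]

theorem s36NormAlpha_algebraMap (a : K) :
    s36NormAlpha K M q (algebraMap K (modularFunctionFieldFullC K (M * q * q)) a)
      = algebraMap K (modularFunctionFieldFullC K (M * q)) a ^ stbDeg (s36Alpha K M q) := by
  rw [← s36Alpha_algebraMap, s36NormAlpha_apply, s36dt_norm_apply]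

theorem s36NormBeta_algebraMap (a : K) :
    s36NormBeta K M q (algebraMap K (modularFunctionFieldFullC K (M * q * q)) a)
      = algebraMap K (modularFunctionFieldFullC K (M * q)) a ^ stbDeg (s36Beta K M q) := by
  rw [← s36Beta_algebraMap, s36NormBeta_apply, s36dt_norm_apply]

end Norms

section Hor

variable (K : Type*) [Field K] {F : Type*} [Field F] [Algebra K F]

/-- `m` divides the order of `y` at every place of `F / K` -/
def s36Hor (m : ℕ) (y : F) : Prop := ∀ P : Place K F, (m : ℤ) ∣ P.ord y

variable {K}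

theorem s36Hor_mul {m : ℕ} {x y : F} (hx : s36Hor K m x) (hy : s36Hor K m y) :
    s36Hor K m (x * y) := by
  intro P
  rcases eq_or_ne x 0 with rfl | hx0
  · rw [zero_mul]; simp
  rcases eq_or_ne y 0 with rfl | hy0
  · rw [mul_zero]; simp
  rw [P.ord_mul hx0 hy0]
  exact dvd_add (hx P) (hy P)

theorem s36Hor_inv {m : ℕ} {x : F} (hx : s36Hor K m x) : s36Hor K m x⁻¹ := by
  intro P
  rw [P.ord_inv]
  exact (dvd_neg).mpr (hx P)

theorem s36Hor_algebraMap (m : ℕ) (a : K) : s36Hor K m (algebraMap K F a) := by
  intro P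
  rw [Fermat.Agent.S24.PlaceAux.ord_algebraMap]
  exact dvd_zero _

theorem s36Hor_pow {m : ℕ} {x : F} (hx : s36Hor K m x) (n : ℕ) : s36Hor K m (x ^ n) := by
  intro P
  rw [s36dt_ord_pow]
  exact Dvd.dvd.mul_left (hx P) _

theorem s36Hor_pow_self (m : ℕ) (x : F) : s36Hor K m (x ^ m) := by
  intro P
  rw [s36dt_ord_pow]
  exact Dvd.intro _ rfl

theorem s36Hor_one (m : ℕ) : s36Hor K m (1 : F) := by
  intro P
  simp

theorem s36Hor_div {m : ℕ} {x y : F} (hx : s36Hor K m x) (hy : s36Hor K m y) :
    s36Hor K m (x / y) := by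
  rw [div_eq_mul_inv]
  exact s36Hor_mul hx (s36Hor_inv hy)

end Hor

end Fermat.Agent.S36
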