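import Fermat.Agent.S36.N2Val
import Fermat.Agent.S36.MidThetaMod
import Fermat.Agent.S36.NormConj
import Fermat.Agent.S36.N2ExtInst
import Fermat.Agent.S36.PlanGeo
import Fermat.Agent.S36.TopSetting

/-!
# S36 / G-N2, piece N2-ext (X) (helper19): the modular instances

Setting of `S36/N2Val.lean` (`hB`, `hB'`, `ψ`, `h : S36MidEmb E' q M ζ`, `z`, `hz`), with the
compatibility `hc : VtCompat (algebraMap A E) r ι' r' ψ κ` of the two bases.

* `s36n2xPi` : `Π = j(Q^{q²}) − j ∈ F`;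
* `s36n2x_ram` : (RAM) `π = Π ^ (q − 1) · z` at `V_c`;
* `s36n2x_sep_a`, `s36n2x_sep_b` : (SEP) `Π ∈ 𝔪(V_c)`, `Π ∉ 𝔪(V_a)`, `Π ∉ 𝔪(V_b)`;
* `s36n2x_alphaInf`, `s36n2x_betaZero` : the two-valuation theorem for `(α, ∞)` and `(β, 0)`
  from the restrictions (C) of N2-val: (EXT), (F₁), (F₂), (U₁), (RAM₂).
-/

set_option autoImplicit false
set_option linter.unusedSectionVars false
set_option linter.style.haveILetI false
set_option linter.unusedVariables false

noncomputable section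

namespace Fermat.Agent.S36

open ModularCurve Fermat.Agent.UNIP Fermat.Agent.INJ Fermat.Agent.STB Fermat.Agent.AL
open Fermat.Agent.ES Fermat.Agent.S28.Deriv

section Pi

variable (E : Type*) [Field E] (M q : ℕ) [NeZero q] [NeZero M] [NeZero (M * q)]
  [NeZero (M * q * q)]

/-- `Π = j(Q^{q²}) − j(Q)`, an element of `F_{Mq²}(E)`. -/
def s36n2xPi : modularFunctionFieldFullC E (M * q * q) :=
  ⟨qExpand E q (qExpand E q (jqModC E)) - jqModC E, s36th_Pi_mem (jqModC_mem_full E M)⟩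

@[simp]
theorem coe_s36n2xPi :
    ((s36n2xPi E M q : modularFunctionFieldFullC E (M * q * q)) : LaurentSeries E) =
      qExpand E q (qExpand E q (jqModC E)) - jqModC E := rfl

end Pi

section Main

variable {A E k A' E' k' : Type*} [CommRing A] [IsDomain A] [Field E] [Algebra A E]
  [IsFractionRing A E] [Field k] [CommRing A'] [IsDomain A'] [Field E'] [Field k']
  {r : A →+* k} {π : A} {ι' : A' →+* E'} {r' : A' →+* k'} {π' : A'}
  (hB : VtBase (algebraMap A E) r π) (hB' : VtBase ι' r' π')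
  (ψ : E →+* E') (ιC : E →+* ℂ) (ιK : E' →+* ℂ)
  {q M : ℕ} [NeZero q] [NeZero M] [NeZero (M * q)] [NeZero (M * q * q)]
  (hq : q.Prime) (hqM : ¬ q ∣ M)
  {ζ : E'ˣ} (h : S36MidEmb E' q M ζ) (z : A'ˣ) (hz : Units.map (ι' : A' →* E') z = ζ)
  {κ : k →+* k'} (hc : VtCompat (algebraMap A E) r ι' r' ψ κ)

include ιK hq hqM in
/-- the expansion of `Π` at the middle cusp -/
theorem s36n2x_embC_Pi (hζq : ζ ^ q = 1) :
    s36n2EmbC ψ h (s36n2xPi E M q) = kronRot ζ (jqModC E') - jqModC E' := by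
  rw [s36n2EmbC_apply]
  have e1 : mgaCoeffHom ψ (M * q * q) (s36n2xPi E M q) =
      ⟨qExpand E' q (qExpand E' q (jqModC E')) - jqModC E',
        s36th_Pi_mem (jqModC_mem_full E' M)⟩ := by
    apply Subtype.ext
    rw [mgaCoeffHom_coe, coe_s36n2xPi, ← s36th_inf_coeffMap q ψ (jqModC E), s36th_coeffMap_j]
  rw [e1]
  exact s36th_emb_Pi ιK hq hqM h hζq (jqModC_mem_full E' M)

/-- the expansion of a constant at the middle cusp -/
theorem s36n2x_embC_const (a : E) :
    s36n2EmbC ψ h (mgaConst E (M * q * q) a) = HahnSeries.C (ψ a) := by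
  rw [s36n2EmbC_apply, mgaCoeffHom_mgaConst, mgaConst_apply, h.emb.commutes]
  exact algebraMap_laurentSeries_eq_single E' (ψ a)

include hz in
theorem s36n2x_zeta_pow (hζ : IsPrimitiveRoot (z : A') q) : ζ ^ q = 1 := by
  rw [← hz, ← map_pow]
  have h1 : z ^ q = 1 := by
    apply Units.ext
    rw [Units.val_pow_eq_pow_val, hζ.pow_eq_one, Units.val_one]
  rw [h1, map_one]

include ιK hq hqM hz in
/-- the expansion of `Π` at the middle cusp, in the form of `MidThetaMod` -/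
theorem s36n2x_embC_Pi' (hζ : IsPrimitiveRoot (z : A') q) :
    s36n2EmbC ψ h (s36n2xPi E M q) =
      kronRot (Units.map (ι' : A' →* E') z) (jqModC E') - jqModC E' := by
  rw [hz]
  exact s36n2x_embC_Pi ψ ιK hq hqM h (s36n2x_zeta_pow z hz hζ)

include ιK hqM hc in
/-- **(RAM)** at `V_c`: `π = Π ^ (q − 1) · w`, `Π ∈ 𝔪(V_c)`, `w ∈ V_c`. -/
theorem s36n2x_ram (hζ : IsPrimitiveRoot (z : A') q) (hr : r' (z : A') = 1)
    (hq0 : (q : A') ≠ 0) {v : A} (hv : r v ≠ 0) (hπv : (q : A) = π * v) :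
    ∃ t w : modularFunctionFieldFullC E (M * q * q),
      t ∈ (s36n2VC hB' ψ hq h z hz).nonunits ∧ w ∈ s36n2VC hB' ψ hq h z hz ∧
      mgaConst E (M * q * q) (algebraMap A E π) = t ^ (q - 1) * w := by
  obtain ⟨v', hv'ι, hv'r⟩ := hc v
  have hcv : s36n2EmbC ψ h (mgaConst E (M * q * q) (algebraMap A E v)) =
      HahnSeries.C (ι' v') := by
    rw [s36n2x_embC_const, hv'ι]
  have hv' : r' v' ≠ 0 := by
    rw [hv'r]
    exact (map_ne_zero κ).mpr hv
  have hcq : ((q : ℕ) : modularFunctionFieldFullC E (M * q * q)) =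
      mgaConst E (M * q * q) (algebraMap A E π) *
        mgaConst E (M * q * q) (algebraMap A E v) := by
    rw [← map_mul, ← map_mul, ← hπv, map_natCast, map_natCast]
  exact s36th_ram_j hB' (s36n2EmbC ψ h) (fun _ => s36n2_frac_emb hB' hq h z hz _) hq hζ hr
    (s36n2x_embC_Pi' ψ ιK hq hqM h z hz hζ) hq0 hcv hv' hcq

include ιK hqM in
/-- **(SEP)**, middle cusp: `Π ∈ 𝔪(V_c)`. -/
theorem s36n2x_sep_c (hζ : IsPrimitiveRoot (z : A') q) (hr : r' (z : A') = 1) :
    s36n2xPi E M q ∈ (s36n2VC hB' ψ hq h z hz).nonunits :=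
  s36th_sep_j_mid hB' (s36n2EmbC ψ h) (fun _ => s36n2_frac_emb hB' hq h z hz _) hr
    (s36n2x_embC_Pi' ψ ιK hq hqM h z hz hζ)

include hq in
/-- **(SEP)**, at `∞`: `Π` is a unit of `V_a`. -/
theorem s36n2x_sep_a : s36n2xPi E M q ∉ (s36n2VA (q := q) (M := M) hB).nonunits :=
  (s36th_sep_j_inf hB (vtEmb E (M * q * q)) (fun x => vt_frac_fullC hB (M * q * q) x.2) q
    hq.two_le (x := s36n2xPi E M q) rfl).2

/-- **(SEP)**, at `0`: `Π` is a unit of `V_b`. -/
theorem s36n2x_sep_b : s36n2xPi E M q ∉ (s36n2VB hB ιC hq hqM).nonunits := by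
  have hx : s36n2EmbB ιC hq hqM (-(s36n2xPi E M q)) =
      qExpand E q (qExpand E q (jqModC E)) - jqModC E := by
    rw [map_neg, s36n2EmbB_apply]
    have e1 : s36n2xPi E M q =
        ⟨qExpand E q (qExpand E q (jqModC E)),
          alq_qExpand_mem E (al_qExpand_mem E (jqModC_mem_full E M))⟩ -
        ⟨jqModC E, s36n2_mem_of_mem_base E (jqModC_mem_full E M)⟩ := rfl
    rw [e1, map_sub]
    show -(((s36n2W E ιC hq hqM _ : modularFunctionFieldFullC E (M * q * q)) :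
        LaurentSeries E) - ((s36n2W E ιC hq hqM _ : modularFunctionFieldFullC E (M * q * q)) :
        LaurentSeries E)) = _
    rw [s36n2W_qExpand_sq E ιC hq hqM (jqModC_mem_full E M),
      s36n2W_base E ιC hq hqM (jqModC_mem_full E M)]
    ring
  have h1 := (s36th_sep_j_inf hB (s36n2EmbB ιC hq hqM)
    (fun x => vt_frac_fullC hB (M * q * q) (s36n2W E ιC hq hqM x).2) q hq.two_le hx).2
  intro hmem
  apply h1
  have h2 := vt_neg_mem_nonunits _ hmem
  exact h2

/-! ### The two-valuation theorem at the two cusps of level `M q` -/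

section Two

variable [CharZero E]

include ιK hc in
/-- **N2-ext, `(α, ∞)`**: `V_a`, `V_c` over `V′_∞` along `α`, from the restrictions (C). -/
theorem s36n2x_alphaInf
    (hCa : (s36n2VA (q := q) (M := M) hB).comap (s36Alpha E M q) = vtFam hB ιC hq hqM true)
    (hCc : (s36n2VC hB' ψ hq h z hz).comap (s36Alpha E M q) = vtFam hB ιC hq hqM true)
    (hζ : IsPrimitiveRoot (z : A') q) (hr : r' (z : A') = 1)
    (hq0 : (q : A') ≠ 0) {v : A} (hv : r v ≠ 0) (hπv : (q : A) = π * v) :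
    (∀ x ∈ s36n2VA (q := q) (M := M) hB, x ∈ s36n2VC hB' ψ hq h z hz →
        ∃ p : Polynomial (modularFunctionFieldFullC E (M * q)), p.Monic ∧
          (∀ k, p.coeff k ∈ vtFam hB ιC hq hqM true) ∧ p.eval₂ (s36Alpha E M q) x = 0) ∧
      (∀ x ∈ s36n2VA (q := q) (M := M) hB, ∃ c ∈ vtFam hB ιC hq hqM true,
        x - s36Alpha E M q c ∈ (s36n2VA (q := q) (M := M) hB).nonunits) ∧
      (∀ x ∈ s36n2VC hB' ψ hq h z hz, ∃ c ∈ vtFam hB ιC hq hqM true,
        x - s36Alpha E M q c ∈ (s36n2VC hB' ψ hq h z hz).nonunits) ∧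
      (∀ x ∈ (s36n2VA (q := q) (M := M) hB).nonunits, ∃ w ∈ s36n2VA (q := q) (M := M) hB,
        x = mgaConst E (M * q * q) (algebraMap A E π) * w) ∧
      (∀ x ∈ (s36n2VC hB' ψ hq h z hz).nonunits, ∃ w ∈ s36n2VC hB' ψ hq h z hz,
        x ^ (q - 1) = mgaConst E (M * q * q) (algebraMap A E π) * w) := by
  have hφc : s36Alpha E M q (mgaConst E (M * q) (algebraMap A E π)) =
      mgaConst E (M * q * q) (algebraMap A E π) := s36Alpha_algebraMap E M q _
  have hdeg : letI := (s36Alpha E M q).toAlgebra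
      Module.finrank (modularFunctionFieldFullC E (M * q))
        (modularFunctionFieldFullC E (M * q * q)) = (q - 1) + 1 := by
    have h1 := s36dn_deg_alpha E M q hq
    have h2 : q - 1 + 1 = q := Nat.sub_add_cancel hq.one_le
    rw [h2]
    exact h1
  have hram := s36n2x_ram hB' ψ ιK hq hqM h z hz hc hζ hr hq0 hv hπv
  rw [← hφc] at hram
  have hsep : ∃ g : modularFunctionFieldFullC E (M * q * q),
      (g ∈ (s36n2VA (q := q) (M := M) hB).nonunits ∧ g ∉ (s36n2VC hB' ψ hq h z hz).nonunits) ∨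
      (g ∈ (s36n2VC hB' ψ hq h z hz).nonunits ∧ g ∉ (s36n2VA (q := q) (M := M) hB).nonunits) :=
    ⟨s36n2xPi E M q, Or.inr ⟨s36n2x_sep_c hB' ψ ιK hq hqM h z hz hζ hr, s36n2x_sep_a hB hq⟩⟩
  have key := s36n2x_two hB (vtEmbFam ιC hq hqM true) (vt_frac_fam hB ιC hq hqM true)
    (vtEmbFam_const ιC hq hqM true (algebraMap A E π)) (φ := s36Alpha E M q)
    (s36dn_finite_alpha E M q hq) (s36nc_sep_alpha hq) hdeg hCa hCc hsep hram
  rw [hφc] at key
  exact key

include ιK hc in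
/-- **N2-ext, `(β, 0)`**: `V_b`, `V_c` over `V′_0` along `β`, from the restrictions (C). -/
theorem s36n2x_betaZero
    (hCb : (s36n2VB hB ιC hq hqM).comap (s36Beta E M q) = vtFam hB ιC hq hqM false)
    (hCc : (s36n2VC hB' ψ hq h z hz).comap (s36Beta E M q) = vtFam hB ιC hq hqM false)
    (hζ : IsPrimitiveRoot (z : A') q) (hr : r' (z : A') = 1)
    (hq0 : (q : A') ≠ 0) {v : A} (hv : r v ≠ 0) (hπv : (q : A) = π * v) :
    (∀ x ∈ s36n2VB hB ιC hq hqM, x ∈ s36n2VC hB' ψ hq h z hz →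
        ∃ p : Polynomial (modularFunctionFieldFullC E (M * q)), p.Monic ∧
          (∀ k, p.coeff k ∈ vtFam hB ιC hq hqM false) ∧ p.eval₂ (s36Beta E M q) x = 0) ∧
      (∀ x ∈ s36n2VB hB ιC hq hqM, ∃ c ∈ vtFam hB ιC hq hqM false,
        x - s36Beta E M q c ∈ (s36n2VB hB ιC hq hqM).nonunits) ∧
      (∀ x ∈ s36n2VC hB' ψ hq h z hz, ∃ c ∈ vtFam hB ιC hq hqM false,
        x - s36Beta E M q c ∈ (s36n2VC hB' ψ hq h z hz).nonunits) ∧
      (∀ x ∈ (s36n2VB hB ιC hq hqM).nonunits, ∃ w ∈ s36n2VB hB ιC hq hqM,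
        x = mgaConst E (M * q * q) (algebraMap A E π) * w) ∧
      (∀ x ∈ (s36n2VC hB' ψ hq h z hz).nonunits, ∃ w ∈ s36n2VC hB' ψ hq h z hz,
        x ^ (q - 1) = mgaConst E (M * q * q) (algebraMap A E π) * w) := by
  have hφc : s36Beta E M q (mgaConst E (M * q) (algebraMap A E π)) =
      mgaConst E (M * q * q) (algebraMap A E π) := s36Beta_algebraMap E M q _
  have hdeg : letI := (s36Beta E M q).toAlgebra
      Module.finrank (modularFunctionFieldFullC E (M * q))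
        (modularFunctionFieldFullC E (M * q * q)) = (q - 1) + 1 := by
    have h1 := s36dn_deg_beta E ιC hq hqM
    have h2 : q - 1 + 1 = q := Nat.sub_add_cancel hq.one_le
    rw [h2]
    exact h1
  have hram := s36n2x_ram hB' ψ ιK hq hqM h z hz hc hζ hr hq0 hv hπv
  rw [← hφc] at hram
  have hsep : ∃ g : modularFunctionFieldFullC E (M * q * q),
      (g ∈ (s36n2VB hB ιC hq hqM).nonunits ∧ g ∉ (s36n2VC hB' ψ hq h z hz).nonunits) ∨
      (g ∈ (s36n2VC hB' ψ hq h z hz).nonunits ∧ g ∉ (s36n2VB hB ιC hq hqM).nonunits) :=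
    ⟨s36n2xPi E M q, Or.inr ⟨s36n2x_sep_c hB' ψ ιK hq hqM h z hz hζ hr,
      s36n2x_sep_b hB ιC hq hqM⟩⟩
  have key := s36n2x_two hB (vtEmbFam ιC hq hqM false) (vt_frac_fam hB ιC hq hqM false)
    (vtEmbFam_const ιC hq hqM false (algebraMap A E π)) (φ := s36Beta E M q)
    (s36dn_finite_beta E ιC hq hqM) (s36nc_sep_beta ιC hq hqM) hdeg hCb hCc hsep hram
  rw [hφc] at key
  exact key

end Two

end Main

end Fermat.Agent.S36
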