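import Fermat.Agent.S36.N2Val
import Fermat.Agent.S36.PlanGeo

/-!
# S36 / G-N2, piece N2-val (C): restrictions of `V_a, V_b, V_c` to `F′ = F_{Mq}(E)`

`α = s36Alpha E M q : F′ → F` is the inclusion, `β = s36Beta E M q : F′ → F` is `f ↦ f(Q^q)`
(`S36/PlanGeo.lean`).  With `V′_∞ = vtFam hB ιC hq hqM true`, `V′_0 = vtFam hB ιC hq hqM false`
(`UNIP/MGVert.lean`):

* `s36n2VA_comap_alpha : V_a.comap α = V′_∞`, `s36n2VA_comap_beta : V_a.comap β = V′_∞`;
* `s36n2VB_comap_alpha : V_b.comap α = V′_0`, `s36n2VB_comap_beta : V_b.comap β = V′_0`;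
* `s36n2VC_comap_alpha : V_c.comap α = V′_∞`, `s36n2VC_comap_beta : V_c.comap β = V′_0`;
* `s36n2CompAlpha`, `s36n2CompBeta : S36Comp → Bool` (the two maps on components),
  `s36n2V_comap_alpha`, `s36n2V_comap_beta` (the family versions);
* `s36n2V_ne` : `V_a, V_b, V_c` are pairwise distinct, `s36n2V_injective`;
* `s36n2W_comp_alpha : w ∘ α = β ∘ w′`, `s36n2W_comp_beta : w ∘ β = α ∘ w′`.

All statements also exist for arbitrary ring homomorphisms `α, β : F′ →+* F` with
`↑(α x) = ↑x`, `↑(β x) = (↑x)(Q^q)` (suffix `_gen`).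

Remark (kernel): a proof by `rfl` of `↑(α x) = ↑x` sends the kernel into comparing the TYPES
`F_{Mq}(E)` and `F_{Mqq}(E)` (structure eta), which does not terminate in practice; all proofs
below go through `Subtype.ext` and rewriting.
-/

set_option autoImplicit false
set_option linter.unusedSectionVars false
set_option linter.style.haveILetI false

noncomputable section

namespace Fermat.Agent.S36

open ModularCurve Fermat.Agent.UNIP Fermat.Agent.INJ Fermat.Agent.AL Fermat.Agent.ES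

/-! ### C. The restrictions to `F′ = F_{Mq}(E)` along `α` and `β` -/

section Restrict

variable {A E k A' E' k' : Type*} [CommRing A] [IsDomain A] [Field E] [Algebra A E]
  [IsFractionRing A E] [Field k] [CommRing A'] [Field E'] [Field k']
  {r : A →+* k} {π : A} {ι' : A' →+* E'} {r' : A' →+* k'} {π' : A'}
  (hB : VtBase (algebraMap A E) r π) (hB' : VtBase ι' r' π')
  {ψ : E →+* E'} {κ : k →+* k'} (hc : VtCompat (algebraMap A E) r ι' r' ψ κ)
  (ιC : E →+* ℂ) (ιC' : E' →+* ℂ)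
  {q M : ℕ} [NeZero q] [NeZero M] [NeZero (M * q)] [NeZero (M * q * q)]
  (hq : q.Prime) (hqM : ¬ q ∣ M)
  {ζ : E'ˣ} (h : S36MidEmb E' q M ζ) (z : A'ˣ) (hz : Units.map (ι' : A' →* E') z = ζ)
  (hζq : ζ ^ q = 1)
  (α β : modularFunctionFieldFullC E (M * q) →+* modularFunctionFieldFullC E (M * q * q))
  (hα : ∀ x, ((α x : modularFunctionFieldFullC E (M * q * q)) : LaurentSeries E) =
    (x : LaurentSeries E))
  (hβ : ∀ x, ((β x : modularFunctionFieldFullC E (M * q * q)) : LaurentSeries E) =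
    qExpand E q (x : LaurentSeries E))

include hα in
theorem s36n2_alpha_eq_mk (x : modularFunctionFieldFullC E (M * q)) :
    α x = ⟨(x : LaurentSeries E), s36mid_low_le x.2⟩ := Subtype.ext (hα x)

include hβ in
theorem s36n2_beta_eq_mk (x : modularFunctionFieldFullC E (M * q)) :
    β x = ⟨qExpand E q (x : LaurentSeries E), s36mid_qExpand_mem x.2⟩ := Subtype.ext (hβ x)

include hα hβ in
/-- `w ∘ α = β ∘ w′` -/
theorem s36n2W_comp_alpha_gen (x : modularFunctionFieldFullC E (M * q)) :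
    s36n2W E ιC hq hqM (α x) = β (atkinLehner E ιC hq hqM x) := by
  apply Subtype.ext
  rw [hβ, s36n2_alpha_eq_mk α hα x]
  exact s36n2W_alpha E ιC hq hqM x.2

include hα hβ in
/-- `w ∘ β = α ∘ w′` -/
theorem s36n2W_comp_beta_gen (x : modularFunctionFieldFullC E (M * q)) :
    s36n2W E ιC hq hqM (β x) = α (atkinLehner E ιC hq hqM x) := by
  apply Subtype.ext
  rw [hα, s36n2_beta_eq_mk β hβ x]
  exact s36n2W_beta E ιC hq hqM x.2

include hB hB' hc in
/-- base change reflects the Gauss ring -/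
theorem s36n2_baseChange_mem_iff {N : ℕ} (x : modularFunctionFieldFullC E N) :
    coeffMap ψ (x : LaurentSeries E) ∈ gaussRing ι' r' ↔
      (x : LaurentSeries E) ∈ gaussRing (algebraMap A E) r := by
  have h1 := vtSub_comap_baseChange hB hB' (vtEmb E N)
    (fun x => vt_frac_fullC hB N x.2) (vtEmb E' N) (fun x => vt_frac_fullC hB' N x.2) hc
    (mgaCoeffHom ψ N) (fun y => by rw [vtEmb_apply, vtEmb_apply, mgaCoeffHom_coe])
  have h2 : x ∈ (vtSub hB' (vtEmb E' N) (fun x => vt_frac_fullC hB' N x.2)).comap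
      (mgaCoeffHom ψ N) ↔ x ∈ vtSub hB (vtEmb E N) (fun x => vt_frac_fullC hB N x.2) := by
    rw [h1]
  rw [ValuationSubring.mem_comap, mem_vtSub, mem_vtSub, vtEmb_apply, vtEmb_apply,
    mgaCoeffHom_coe] at h2
  exact h2

theorem s36n2_mem_vtFam_true {x : modularFunctionFieldFullC E (M * q)} :
    x ∈ vtFam hB ιC hq hqM true ↔ (x : LaurentSeries E) ∈ gaussRing (algebraMap A E) r := by
  rw [mem_vtFam, vtEmbFam_true, vtEmb_apply]

theorem s36n2_mem_vtFam_false {x : modularFunctionFieldFullC E (M * q)} :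
    x ∈ vtFam hB ιC hq hqM false ↔
      ((atkinLehner E ιC hq hqM x : modularFunctionFieldFullC E (M * q)) : LaurentSeries E) ∈
        gaussRing (algebraMap A E) r := by
  rw [mem_vtFam, vtEmbFam_false, vtEmb0_apply]

include hα in
/-- (α, a): `V_a ∩ F′ = V′_∞` -/
theorem s36n2VA_comap_alpha_gen :
    (s36n2VA hB).comap α = vtFam hB ιC hq hqM true := by
  ext x
  rw [ValuationSubring.mem_comap, mem_s36n2VA, hα, s36n2_mem_vtFam_true]

include hβ in
/-- (β, a): `β⁻¹ V_a = V′_∞` -/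
theorem s36n2VA_comap_beta_gen :
    (s36n2VA hB).comap β = vtFam hB ιC hq hqM true := by
  ext x
  rw [ValuationSubring.mem_comap, mem_s36n2VA, hβ, s36n2_mem_vtFam_true]
  exact s36n2_qExpand_mem_iff hB q (vt_frac_fullC hB (M * q) x.2)

include hα hβ in
/-- (α, b): `V_b ∩ F′ = V′_0` -/
theorem s36n2VB_comap_alpha_gen :
    (s36n2VB hB ιC hq hqM).comap α = vtFam hB ιC hq hqM false := by
  ext x
  rw [ValuationSubring.mem_comap, mem_s36n2VB, s36n2W_comp_alpha_gen ιC hq hqM α β hα hβ, hβ,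
    s36n2_mem_vtFam_false]
  exact s36n2_qExpand_mem_iff hB q (vt_frac_fullC hB (M * q) (atkinLehner E ιC hq hqM x).2)

include hα hβ in
/-- (β, b): `β⁻¹ V_b = V′_0` -/
theorem s36n2VB_comap_beta_gen :
    (s36n2VB hB ιC hq hqM).comap β = vtFam hB ιC hq hqM false := by
  ext x
  rw [ValuationSubring.mem_comap, mem_s36n2VB, s36n2W_comp_beta_gen ιC hq hqM α β hα hβ, hα,
    s36n2_mem_vtFam_false]

include hc hα in
/-- (α, c): `V_c ∩ F′ = V′_∞` -/
theorem s36n2VC_comap_alpha_gen :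
    (s36n2VC hB' ψ hq h z hz).comap α = vtFam hB ιC hq hqM true := by
  ext x
  rw [ValuationSubring.mem_comap, mem_s36n2VC, s36n2_mem_vtFam_true]
  have hx' : coeffMap ψ (x : LaurentSeries E) ∈ modularFunctionFieldFullC E' (M * q) :=
    (mgaCoeffHom ψ (M * q) x).2
  have e1 : mgaCoeffHom ψ (M * q * q) (α x) =
      ⟨coeffMap ψ (x : LaurentSeries E), s36mid_low_le hx'⟩ := by
    apply Subtype.ext
    rw [mgaCoeffHom_coe, hα]
  rw [e1, h.emb_of_mem_low hx']
  exact s36n2_baseChange_mem_iff hB hB' hc x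

include hc hζq hβ ιC' in
/-- (β, c): `β⁻¹ V_c = V′_0` -/
theorem s36n2VC_comap_beta_gen :
    (s36n2VC hB' ψ hq h z hz).comap β = vtFam hB ιC hq hqM false := by
  ext x
  rw [ValuationSubring.mem_comap, mem_s36n2VC, s36n2_mem_vtFam_false]
  have hx' : coeffMap ψ (x : LaurentSeries E) ∈ modularFunctionFieldFullC E' (M * q) :=
    (mgaCoeffHom ψ (M * q) x).2
  have e1 : mgaCoeffHom ψ (M * q * q) (β x) =
      ⟨qExpand E' q (coeffMap ψ (x : LaurentSeries E)), s36mid_qExpand_mem hx'⟩ := by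
    apply Subtype.ext
    rw [mgaCoeffHom_coe, hβ, coeffMap_qExpand]
  have e2 : (⟨coeffMap ψ (x : LaurentSeries E), hx'⟩ : modularFunctionFieldFullC E' (M * q)) =
      mgaCoeffHom ψ (M * q) x := Subtype.ext (mgaCoeffHom_coe ψ (M * q) x).symm
  rw [e1, h.emb_qExpand ιC' hq hqM hζq hx', ← hz, s36n2_kronRot_mem_iff, e2,
    vt_atkinLehner_coeffHom ψ ιC ιC' hq hqM x, mgaCoeffHom_coe]
  exact s36n2_baseChange_mem_iff hB hB' hc (atkinLehner E ιC hq hqM x)

end Restrict

/-! ### D. The same for `α = s36Alpha`, `β = s36Beta`; the three rings are distinct -/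

section Concrete

variable {A E k A' E' k' : Type*} [CommRing A] [IsDomain A] [Field E] [Algebra A E]
  [IsFractionRing A E] [Field k] [CommRing A'] [Field E'] [Field k']
  {r : A →+* k} {π : A} {ι' : A' →+* E'} {r' : A' →+* k'} {π' : A'}
  (hB : VtBase (algebraMap A E) r π) (hB' : VtBase ι' r' π')
  {ψ : E →+* E'} {κ : k →+* k'} (hc : VtCompat (algebraMap A E) r ι' r' ψ κ)
  (ιC : E →+* ℂ) (ιC' : E' →+* ℂ)
  {q M : ℕ} [NeZero q] [NeZero M] [NeZero (M * q)] [NeZero (M * q * q)]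
  (hq : q.Prime) (hqM : ¬ q ∣ M)
  {ζ : E'ˣ} (h : S36MidEmb E' q M ζ) (z : A'ˣ) (hz : Units.map (ι' : A' →* E') z = ζ)
  (hζq : ζ ^ q = 1)

/-- `w ∘ α = β ∘ w′` -/
theorem s36n2W_comp_alpha (x : modularFunctionFieldFullC E (M * q)) :
    s36n2W E ιC hq hqM (s36Alpha E M q x) = s36Beta E M q (atkinLehner E ιC hq hqM x) :=
  s36n2W_comp_alpha_gen ιC hq hqM _ _ (coe_s36Alpha E M q) (coe_s36Beta E M q) x

/-- `w ∘ β = α ∘ w′` -/
theorem s36n2W_comp_beta (x : modularFunctionFieldFullC E (M * q)) :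
    s36n2W E ιC hq hqM (s36Beta E M q x) = s36Alpha E M q (atkinLehner E ιC hq hqM x) :=
  s36n2W_comp_beta_gen ιC hq hqM _ _ (coe_s36Alpha E M q) (coe_s36Beta E M q) x

/-- (α, a): `V_a ∩ F′ = V′_∞` -/
theorem s36n2VA_comap_alpha :
    (s36n2VA hB).comap (s36Alpha E M q) = vtFam hB ιC hq hqM true :=
  s36n2VA_comap_alpha_gen hB ιC hq hqM _ (coe_s36Alpha E M q)

/-- (β, a): `β⁻¹ V_a = V′_∞` -/
theorem s36n2VA_comap_beta :
    (s36n2VA hB).comap (s36Beta E M q) = vtFam hB ιC hq hqM true :=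
  s36n2VA_comap_beta_gen hB ιC hq hqM _ (coe_s36Beta E M q)

/-- (α, b): `V_b ∩ F′ = V′_0` -/
theorem s36n2VB_comap_alpha :
    (s36n2VB hB ιC hq hqM).comap (s36Alpha E M q) = vtFam hB ιC hq hqM false :=
  s36n2VB_comap_alpha_gen hB ιC hq hqM _ _ (coe_s36Alpha E M q) (coe_s36Beta E M q)

/-- (β, b): `β⁻¹ V_b = V′_0` -/
theorem s36n2VB_comap_beta :
    (s36n2VB hB ιC hq hqM).comap (s36Beta E M q) = vtFam hB ιC hq hqM false :=
  s36n2VB_comap_beta_gen hB ιC hq hqM _ _ (coe_s36Alpha E M q) (coe_s36Beta E M q)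

include hc in
/-- (α, c): `V_c ∩ F′ = V′_∞` -/
theorem s36n2VC_comap_alpha :
    (s36n2VC hB' ψ hq h z hz).comap (s36Alpha E M q) = vtFam hB ιC hq hqM true :=
  s36n2VC_comap_alpha_gen hB hB' hc ιC hq hqM h z hz _ (coe_s36Alpha E M q)

include hc hζq ιC' in
/-- (β, c): `β⁻¹ V_c = V′_0` -/
theorem s36n2VC_comap_beta :
    (s36n2VC hB' ψ hq h z hz).comap (s36Beta E M q) = vtFam hB ιC hq hqM false :=
  s36n2VC_comap_beta_gen hB hB' hc ιC ιC' hq hqM h z hz hζq _ (coe_s36Beta E M q)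

/-- the map on components induced by `α`: `a, c ↦ ∞`, `b ↦ 0` -/
def s36n2CompAlpha : S36Comp → Bool
  | S36Comp.a => true
  | S36Comp.b => false
  | S36Comp.c => true

/-- the map on components induced by `β`: `a ↦ ∞`, `b, c ↦ 0` -/
def s36n2CompBeta : S36Comp → Bool
  | S36Comp.a => true
  | S36Comp.b => false
  | S36Comp.c => false

include hc in
/-- **restriction along `α`** of the three vertical valuation rings -/
theorem s36n2V_comap_alpha (i : S36Comp) :
    (s36n2V hB hB' ψ ιC hq hqM h z hz i).comap (s36Alpha E M q) =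
      vtFam hB ιC hq hqM (s36n2CompAlpha i) := by
  cases i
  · exact s36n2VA_comap_alpha hB ιC hq hqM
  · exact s36n2VB_comap_alpha hB ιC hq hqM
  · exact s36n2VC_comap_alpha hB hB' hc ιC hq hqM h z hz

include hc hζq ιC' in
/-- **restriction along `β`** of the three vertical valuation rings -/
theorem s36n2V_comap_beta (i : S36Comp) :
    (s36n2V hB hB' ψ ιC hq hqM h z hz i).comap (s36Beta E M q) =
      vtFam hB ιC hq hqM (s36n2CompBeta i) := by
  cases i
  · exact s36n2VA_comap_beta hB ιC hq hqM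
  · exact s36n2VB_comap_beta hB ιC hq hqM
  · exact s36n2VC_comap_beta hB hB' hc ιC ιC' hq hqM h z hz hζq

variable [Fact q.Prime] [CharP k q]

include hc hζq ιC' in
/-- **hne**: the three vertical valuation rings are pairwise distinct -/
theorem s36n2V_injective :
    Function.Injective (s36n2V hB hB' ψ ιC hq hqM h z hz) := by
  have hne := mgvl_vtFam_ne hB ιC hq hqM
  intro i j hij
  have hα := s36n2V_comap_alpha hB hB' hc ιC hq hqM h z hz i
  have hβ := s36n2V_comap_beta hB hB' hc ιC ιC' hq hqM h z hz hζq i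
  rw [hij, s36n2V_comap_alpha hB hB' hc ιC hq hqM h z hz j] at hα
  rw [hij, s36n2V_comap_beta hB hB' hc ιC ιC' hq hqM h z hz hζq j] at hβ
  cases i <;> cases j <;> first
    | rfl
    | exact absurd hα hne
    | exact absurd hα.symm hne
    | exact absurd hβ hne
    | exact absurd hβ.symm hne

include hc hζq ιC' in
theorem s36n2V_ne {i j : S36Comp} (hij : i ≠ j) :
    s36n2V hB hB' ψ ιC hq hqM h z hz i ≠ s36n2V hB hB' ψ ιC hq hqM h z hz j :=
  fun e => hij (s36n2V_injective hB hB' hc ιC ιC' hq hqM h z hz hζq e)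

end Concrete

end Fermat.Agent.S36
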