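import Fermat.Agent.S36.N2ExtX
import Fermat.Agent.S36.N2ValRes

/-!
# S36 / G-N2, piece N2-ext (X) (helper19): the FINAL modular statements

Setting of `S36/N2Val.lean` / `S36/N2ValRes.lean`.  `α = s36Alpha E M q`, `β = s36Beta E M q`,
`V′_∞ = vtFam hB ιC hq hqM true`, `V′_0 = vtFam hB ιC hq hqM false`,
`V = s36n2V hB hB' ψ ιC hq hqM h z hz` (`V_a`, `V_b`, `V_c`).

* `s36n2x_alphaInf_main` : `(α, ∞)`: (EXT) for `V_a ∩ V_c`, (F) for `V_a`, `V_c`, (U) for `V_a`,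
  (RAM) for `V_c`;
* `s36n2x_betaZero_main` : `(β, 0)`: the same for `V_b`, `V_c`;
* `s36n2x_alphaZero_ext` : `(α, 0)`: (EXT) for `V_b` (one valuation, by the conjugates);
* `s36n2x_betaInf_ext` : `(β, ∞)`: (EXT) for `V_a`;
* `s36n2x_hEXT_alpha`, `s36n2x_hEXT_beta` : (EXT) in the form of the hypothesis `hEXT` of
  `s36n2k_hKR_J` (`S36/N2KerInst.lean`);
* `s36n2x_surj_alpha_a`, `s36n2x_surj_alpha_c`, `s36n2x_surj_beta_b`, `s36n2x_surj_beta_c` :
  the residue surjectivity fields `surj₁`, `surj₂` of `NgDir` (hypotheses `hsurj₁`, `hsurj₂` of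
  `s36nr_ngDir`, `S36/NormResAbs.lean`).
-/

set_option autoImplicit false
set_option linter.unusedSectionVars false
set_option linter.style.haveILetI false
set_option linter.unusedVariables false
set_option linter.constructorNameAsVariable false

noncomputable section

namespace Fermat.Agent.S36

open ModularCurve Fermat.Agent.UNIP Fermat.Agent.INJ Fermat.Agent.STB Fermat.Agent.AL
open Fermat.Agent.ES Fermat.Agent.S28.Deriv

section Main

variable {A E k A' E' k' : Type*} [CommRing A] [IsDomain A] [Field E] [Algebra A E]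
  [IsFractionRing A E] [Field k] [CommRing A'] [IsDomain A'] [Field E'] [Field k']
  {r : A →+* k} {π : A} {ι' : A' →+* E'} {r' : A' →+* k'} {π' : A'}
  (hB : VtBase (algebraMap A E) r π) (hB' : VtBase ι' r' π')
  (ψ : E →+* E') (ιC : E →+* ℂ) (ιK : E' →+* ℂ)
  {q M : ℕ} [NeZero q] [NeZero M] [NeZero (M * q)] [NeZero (M * q * q)]
  (hq : q.Prime) (hqM : ¬ q ∣ M)
  {ζ : E'ˣ} (h : S36MidEmb E' q M ζ) (z : A'ˣ) (hz : Units.map (ι' : A' →* E') z = ζ)
  {κ : k →+* k'} (hc : VtCompat (algebraMap A E) r ι' r' ψ κ)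

include hB' hz in
theorem s36n2x_zeta_prim (hζ : IsPrimitiveRoot (z : A') q) : IsPrimitiveRoot (ζ : E') q := by
  have h1 : (ζ : E') = ι' (z : A') := by rw [← hz]; rfl
  rw [h1]
  exact hζ.map_of_injective hB'.inj

include hz in
theorem s36n2x_zeta_pow_eq (b : ℕ) : ζ ^ b = Units.map (ι' : A' →* E') (z ^ b) := by
  rw [map_pow, hz]

section Ext

variable [CharZero E]

include hB' hc hz in
/-- **N2-ext, `(α, 0)`, (EXT)**: `V_b` is integral over `V′_0` along `α`. -/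
theorem s36n2x_alphaZero_ext (hζ : IsPrimitiveRoot (z : A') q)
    (x : modularFunctionFieldFullC E (M * q * q)) (hx : x ∈ s36n2VB hB ιC hq hqM) :
    ∃ p : Polynomial (modularFunctionFieldFullC E (M * q)), p.Monic ∧
      (∀ k, p.coeff k ∈ vtFam hB ιC hq hqM false) ∧ p.eval₂ (s36Alpha E M q) x = 0 := by
  have hζ' : IsPrimitiveRoot (ζ : E') q := s36n2x_zeta_prim hB' z hz hζ
  refine s36n2x_ext_of_conj (s36Alpha E M q) (s36dn_finite_alpha E M q hq) (s36nc_sep_alpha hq)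
    (s36ncBaseAlphaZero ψ ιC hq hqM) (s36ncAlphaZero ψ ιC hq hqM ζ)
    (s36ncAlphaZero_restr ψ ιC hq hqM ζ hζ') (s36ncAlphaZero_injective ψ ιC hq hqM ζ hζ')
    (by rw [Fintype.card_fin]; exact (s36dn_deg_alpha E M q hq).symm)
    (gaussRing ι' r') (vtFam hB ιC hq hqM false) ?_ ?_
  · intro f hf
    rw [s36ncBaseAlphaZero_apply, ← mgaCoeffHom_coe ψ (M * q) (atkinLehner E ιC hq hqM f),
      s36n2_qExpand_mem_iff hB' q
        (vt_frac_fullC hB' (M * q) (mgaCoeffHom ψ (M * q) (atkinLehner E ιC hq hqM f)).2),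
      mgaCoeffHom_coe] at hf
    exact (s36n2_mem_vtFam_false hB ιC hq hqM).mpr
      ((s36n2_baseChange_mem_iff hB hB' hc _).mp hf)
  · intro b
    show kronRot (ζ ^ (b : ℕ)) (coeffMap ψ
      ((s36n2W E ιC hq hqM x : modularFunctionFieldFullC E (M * q * q)) : LaurentSeries E)) ∈
        gaussRing ι' r'
    rw [s36n2x_zeta_pow_eq z hz]
    exact s36n2_kronRot_mem _ (vt_compat_mem hc hx)

include hB' hc hz in
/-- **N2-ext, `(β, ∞)`, (EXT)**: `V_a` is integral over `V′_∞` along `β`. -/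
theorem s36n2x_betaInf_ext (hζ : IsPrimitiveRoot (z : A') q)
    (x : modularFunctionFieldFullC E (M * q * q)) (hx : x ∈ s36n2VA (q := q) (M := M) hB) :
    ∃ p : Polynomial (modularFunctionFieldFullC E (M * q)), p.Monic ∧
      (∀ k, p.coeff k ∈ vtFam hB ιC hq hqM true) ∧ p.eval₂ (s36Beta E M q) x = 0 := by
  have hζ' : IsPrimitiveRoot (ζ : E') q := s36n2x_zeta_prim hB' z hz hζ
  refine s36n2x_ext_of_conj (s36Beta E M q) (s36dn_finite_beta E ιC hq hqM)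
    (s36nc_sep_beta ιC hq hqM)
    (s36ncBaseBetaInf ψ) (s36ncBetaInf ψ ζ)
    (s36ncBetaInf_restr ψ ζ hζ') (s36ncBetaInf_injective ψ ζ hζ')
    (by rw [Fintype.card_fin]; exact (s36dn_deg_beta E ιC hq hqM).symm)
    (gaussRing ι' r') (vtFam hB ιC hq hqM true) ?_ ?_
  · intro f hf
    have hf' : qExpand E' q (coeffMap ψ (f : LaurentSeries E)) ∈ gaussRing ι' r' := hf
    rw [← mgaCoeffHom_coe ψ (M * q) f,
      s36n2_qExpand_mem_iff hB' q (vt_frac_fullC hB' (M * q) (mgaCoeffHom ψ (M * q) f).2),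
      mgaCoeffHom_coe] at hf'
    exact (s36n2_mem_vtFam_true hB ιC hq hqM).mpr
      ((s36n2_baseChange_mem_iff hB hB' hc _).mp hf')
  · intro b
    show kronRot (ζ ^ (b : ℕ)) (coeffMap ψ (x : LaurentSeries E)) ∈ gaussRing ι' r'
    rw [s36n2x_zeta_pow_eq z hz]
    exact s36n2_kronRot_mem _ (vt_compat_mem hc hx)

/-! ### The two-valuation patterns, with the restrictions (C) of N2-val discharged -/

include ιK hc in
/-- **N2-ext, `(α, ∞)`**: `V_a`, `V_c` over `V′_∞` along `α`: (EXT), (F₁), (F₂), (U₁), (RAM₂). -/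
theorem s36n2x_alphaInf_main
    (hζ : IsPrimitiveRoot (z : A') q) (hr : r' (z : A') = 1)
    (hq0 : (q : A') ≠ 0) {v : A} (hv : r v ≠ 0) (hπv : (q : A) = π * v) :
    (∀ x ∈ s36n2VA (q := q) (M := M) hB, x ∈ s36n2VC hB' ψ hq h z hz →
        ∃ p : Polynomial (modularFunctionFieldFullC E (M * q)), p.Monic ∧
          (∀ k, p.coeff k ∈ vtFam hB ιC hq hqM true) ∧ p.eval₂ (s36Alpha E M q) x = 0) ∧
      (∀ x ∈ s36n2VA (q := q) (M := M) hB, ∃ c ∈ vtFam hB ιC hq hqM true,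
        x - s36Alpha E M q c ∈ (s36n2VA (q := q) (M := M) hB).nonunits) ∧
      (∀ x ∈ s36n2VC hB' ψ hq h z hz, ∃ c ∈ vtFam hB ιC hq hqM true,
        x - s36Alpha E M q c ∈ (s36n2VC hB' ψ hq h z hz).nonunits) ∧
      (∀ x ∈ (s36n2VA (q := q) (M := M) hB).nonunits, ∃ w ∈ s36n2VA (q := q) (M := M) hB,
        x = mgaConst E (M * q * q) (algebraMap A E π) * w) ∧
      (∀ x ∈ (s36n2VC hB' ψ hq h z hz).nonunits, ∃ w ∈ s36n2VC hB' ψ hq h z hz,
        x ^ (q - 1) = mgaConst E (M * q * q) (algebraMap A E π) * w) :=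
  s36n2x_alphaInf hB hB' ψ ιC ιK hq hqM h z hz hc (s36n2VA_comap_alpha hB ιC hq hqM)
    (s36n2VC_comap_alpha hB hB' hc ιC hq hqM h z hz) hζ hr hq0 hv hπv

include ιK hc in
/-- **N2-ext, `(β, 0)`**: `V_b`, `V_c` over `V′_0` along `β`: (EXT), (F₁), (F₂), (U₁), (RAM₂). -/
theorem s36n2x_betaZero_main
    (hζ : IsPrimitiveRoot (z : A') q) (hr : r' (z : A') = 1)
    (hq0 : (q : A') ≠ 0) {v : A} (hv : r v ≠ 0) (hπv : (q : A) = π * v) :
    (∀ x ∈ s36n2VB hB ιC hq hqM, x ∈ s36n2VC hB' ψ hq h z hz →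
        ∃ p : Polynomial (modularFunctionFieldFullC E (M * q)), p.Monic ∧
          (∀ k, p.coeff k ∈ vtFam hB ιC hq hqM false) ∧ p.eval₂ (s36Beta E M q) x = 0) ∧
      (∀ x ∈ s36n2VB hB ιC hq hqM, ∃ c ∈ vtFam hB ιC hq hqM false,
        x - s36Beta E M q c ∈ (s36n2VB hB ιC hq hqM).nonunits) ∧
      (∀ x ∈ s36n2VC hB' ψ hq h z hz, ∃ c ∈ vtFam hB ιC hq hqM false,
        x - s36Beta E M q c ∈ (s36n2VC hB' ψ hq h z hz).nonunits) ∧
      (∀ x ∈ (s36n2VB hB ιC hq hqM).nonunits, ∃ w ∈ s36n2VB hB ιC hq hqM,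
        x = mgaConst E (M * q * q) (algebraMap A E π) * w) ∧
      (∀ x ∈ (s36n2VC hB' ψ hq h z hz).nonunits, ∃ w ∈ s36n2VC hB' ψ hq h z hz,
        x ^ (q - 1) = mgaConst E (M * q * q) (algebraMap A E π) * w) :=
  s36n2x_betaZero hB hB' ψ ιC ιK hq hqM h z hz hc (s36n2VB_comap_beta hB ιC hq hqM)
    (s36n2VC_comap_beta hB hB' hc ιC ιK hq hqM h z hz (s36n2x_zeta_pow z hz hζ)) hζ hr hq0 hv hπv

/-! ### (EXT) in the form of `hEXT` of `s36n2k_hKR_J` -/

include ιK hc in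
/-- **(EXT) along `α`** at both cusps of level `M q`, for the family `V = s36n2V`:
the hypothesis `hEXT` of `s36n2k_hKR_J`. -/
theorem s36n2x_hEXT_alpha
    (hζ : IsPrimitiveRoot (z : A') q) (hr : r' (z : A') = 1)
    (hq0 : (q : A') ≠ 0) {v : A} (hv : r v ≠ 0) (hπv : (q : A) = π * v)
    (i : Bool) (x : modularFunctionFieldFullC E (M * q * q))
    (hx : ∀ c, x ∈ s36n2V hB hB' ψ ιC hq hqM h z hz c) :
    ∃ p : Polynomial (modularFunctionFieldFullC E (M * q)), p.Monic ∧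
      (∀ k, p.coeff k ∈ vtFam hB ιC hq hqM i) ∧ p.eval₂ (s36Alpha E M q) x = 0 := by
  cases i
  · exact s36n2x_alphaZero_ext hB hB' ψ ιC hq hqM z hz hc hζ x (hx S36Comp.b)
  · exact (s36n2x_alphaInf_main hB hB' ψ ιC ιK hq hqM h z hz hc hζ hr hq0 hv hπv).1 x
      (hx S36Comp.a) (hx S36Comp.c)

include ιK hc in
/-- **(EXT) along `β`** at both cusps of level `M q`, for the family `V = s36n2V`. -/
theorem s36n2x_hEXT_beta
    (hζ : IsPrimitiveRoot (z : A') q) (hr : r' (z : A') = 1)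
    (hq0 : (q : A') ≠ 0) {v : A} (hv : r v ≠ 0) (hπv : (q : A) = π * v)
    (i : Bool) (x : modularFunctionFieldFullC E (M * q * q))
    (hx : ∀ c, x ∈ s36n2V hB hB' ψ ιC hq hqM h z hz c) :
    ∃ p : Polynomial (modularFunctionFieldFullC E (M * q)), p.Monic ∧
      (∀ k, p.coeff k ∈ vtFam hB ιC hq hqM i) ∧ p.eval₂ (s36Beta E M q) x = 0 := by
  cases i
  · exact (s36n2x_betaZero_main hB hB' ψ ιC ιK hq hqM h z hz hc hζ hr hq0 hv hπv).1 x
      (hx S36Comp.b) (hx S36Comp.c)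
  · exact s36n2x_betaInf_ext hB hB' ψ ιC hq hqM z hz hc hζ x (hx S36Comp.a)

/-! ### The residue surjectivity fields of `NgDir` -/

include hB hB' ιC ιK hq hqM h hz hc in
/-- `surj₁` of `NgDir α … V_a V_c V_b` -/
theorem s36n2x_surj_alpha_a
    (hζ : IsPrimitiveRoot (z : A') q) (hr : r' (z : A') = 1)
    (hq0 : (q : A') ≠ 0) {v : A} (hv : r v ≠ 0) (hπv : (q : A) = π * v)
    (x : modularFunctionFieldFullC E (M * q * q))
    (hx : (s36n2VA (q := q) (M := M) hB).valuation x = 1) :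
    ∃ y, NgC (s36n2VA (q := q) (M := M) hB) (s36Alpha E M q y) x :=
  s36n2e_ngSurj (s36Alpha E M q) (vtFam hB ιC hq hqM true) _
    (s36n2x_alphaInf_main hB hB' ψ ιC ιK hq hqM h z hz hc hζ hr hq0 hv hπv).2.1 x hx

include hB hB' ιC ιK hq hqM h hz hc in
/-- `surj₂` of `NgDir α … V_a V_c V_b` -/
theorem s36n2x_surj_alpha_c
    (hζ : IsPrimitiveRoot (z : A') q) (hr : r' (z : A') = 1)
    (hq0 : (q : A') ≠ 0) {v : A} (hv : r v ≠ 0) (hπv : (q : A) = π * v)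
    (x : modularFunctionFieldFullC E (M * q * q))
    (hx : (s36n2VC hB' ψ hq h z hz).valuation x = 1) :
    ∃ y, NgC (s36n2VC hB' ψ hq h z hz) (s36Alpha E M q y) x :=
  s36n2e_ngSurj (s36Alpha E M q) (vtFam hB ιC hq hqM true) _
    (s36n2x_alphaInf_main hB hB' ψ ιC ιK hq hqM h z hz hc hζ hr hq0 hv hπv).2.2.1 x hx

include hB hB' ιC ιK hq hqM h hz hc in
/-- `surj₁` of `NgDir β … V_b V_c V_a` -/
theorem s36n2x_surj_beta_b
    (hζ : IsPrimitiveRoot (z : A') q) (hr : r' (z : A') = 1)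
    (hq0 : (q : A') ≠ 0) {v : A} (hv : r v ≠ 0) (hπv : (q : A) = π * v)
    (x : modularFunctionFieldFullC E (M * q * q))
    (hx : (s36n2VB hB ιC hq hqM).valuation x = 1) :
    ∃ y, NgC (s36n2VB hB ιC hq hqM) (s36Beta E M q y) x :=
  s36n2e_ngSurj (s36Beta E M q) (vtFam hB ιC hq hqM false) _
    (s36n2x_betaZero_main hB hB' ψ ιC ιK hq hqM h z hz hc hζ hr hq0 hv hπv).2.1 x hx

include hB hB' ιC ιK hq hqM h hz hc in
/-- `surj₂` of `NgDir β … V_b V_c V_a` -/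
theorem s36n2x_surj_beta_c
    (hζ : IsPrimitiveRoot (z : A') q) (hr : r' (z : A') = 1)
    (hq0 : (q : A') ≠ 0) {v : A} (hv : r v ≠ 0) (hπv : (q : A) = π * v)
    (x : modularFunctionFieldFullC E (M * q * q))
    (hx : (s36n2VC hB' ψ hq h z hz).valuation x = 1) :
    ∃ y, NgC (s36n2VC hB' ψ hq h z hz) (s36Beta E M q y) x :=
  s36n2e_ngSurj (s36Beta E M q) (vtFam hB ιC hq hqM false) _
    (s36n2x_betaZero_main hB hB' ψ ιC ιK hq hqM h z hz hc hζ hr hq0 hv hπv).2.2.1 x hx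

end Ext

end Main

end Fermat.Agent.S36
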