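import Mathlib

/-!
# S36 / N2-ker, abstract part (Mathlib only; helper99)

Setting: `F/F′` algebraic (upper level `M q²` over the lower level `M q`), a chart ring `R → F′`
(`R = A₀[t′]`), `π ∈ R`; `W i` valuation subrings of `F′` (`V′_∞`, `V′_0`), `V c` valuation
subrings of `F` (`V_a`, `V_b`, `V_c`).

## (K1) the KRULL property (KR) at the upper level
* `s36n2k_KR`  (instance-free, `RingHom.IsIntegralElem`):
    (KR′) `π y` integral over `R`, `y ∈ ⋂ W i` ⇒ `y` integral over `R`          (lower level)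
    (EXT) `x ∈ ⋂ V c` ⇒ for every `i`, `x` is a root of a monic polynomial over `W i` (N2-ext)
  ⇒ (KR) `π x` integral over `R`, `x ∈ ⋂ V c` ⇒ `x` integral over `R`.
* `s36n2k_hKR` : the same in the shape consumed by `aq_pow_of_shape` (`hKR`, chart `t = α t′`),
  from the valuation form `hSS1` of (SS1) at the lower level.
* bridges: `s36n2k_isIntegralElem_surj`, `s36n2k_isIntegral_adjoin_iff`, `s36n2k_KR'_of_SS1`.

## (K2) `B / 𝔭_• ≅ C / π`
* `s36n2k_frac` : `V″ = C_(π)` (every element of `V″` is `a / b`, `b` a unit of `V″`);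
* `s36n2k_surj` : if the residue field of `V` is that of `V″` (`hF`: N2-ext (F) composed with
  (B2) of level `M q`) and `C / π` is a normal domain, then every `x ∈ V` integral over `C` is
  congruent modulo `𝔪(V)` to an element of `C`.
-/

set_option autoImplicit false
set_option linter.style.haveILetI false

namespace Fermat.Agent.S36

open Polynomial

section KR

variable {R F' F : Type*} [CommRing R] [Field F'] [Field F]

theorem s36n2k_coeff_mem_of_dvd (W : ValuationSubring F') {p g : F'[X]} (hp : p.Monic)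
    (hpW : ∀ k, p.coeff k ∈ W) (hg : g.Monic) (hd : g ∣ p) (k : ℕ) : g.coeff k ∈ W := by
  have hlift : p ∈ Polynomial.lifts (algebraMap W F') := by
    rw [Polynomial.lifts_iff_coeff_lifts]
    intro n
    exact ⟨⟨p.coeff n, hpW n⟩, rfl⟩
  obtain ⟨p₀, hp₀, -, hp₀m⟩ := Polynomial.lifts_and_degree_eq_and_monic hlift hp
  obtain ⟨g', hg'⟩ := IsIntegrallyClosed.eq_map_mul_C_of_dvd (R := W) F' hp₀m
    (g := g) (by rw [hp₀]; exact hd)
  rw [hg.leadingCoeff, map_one, mul_one] at hg'
  rw [← hg', Polynomial.coeff_map]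
  exact (g'.coeff k).2

/-- Iteration of (KR′). -/
theorem s36n2k_iter {ι : Type*} (ι' : R →+* F') (π : R) (W : ι → ValuationSubring F')
    (hπW : ∀ i, ι' π ∈ W i)
    (hKR' : ∀ y : F', ι'.IsIntegralElem (ι' π * y) → (∀ i, y ∈ W i) → ι'.IsIntegralElem y)
    (j : ℕ) (y : F') (hy : ∀ i, y ∈ W i) (h : ι'.IsIntegralElem (ι' π ^ j * y)) :
    ι'.IsIntegralElem y := by
  induction j with
  | zero => simpa using h
  | succ j ih =>
    refine ih (hKR' _ ?_ fun i => mul_mem (pow_mem (hπW i) j) (hy i))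
    rwa [← mul_assoc, ← pow_succ']

/-- **(KR) at the upper level** from (KR′) at the lower level and (EXT). -/
theorem s36n2k_KR {ι κ : Type*} [Nonempty ι] (ι' : R →+* F') (α : F' →+* F) (π : R)
    (hπ : ι' π ≠ 0)
    (W : ι → ValuationSubring F') (V : κ → ValuationSubring F)
    (hπW : ∀ i, ι' π ∈ W i)
    (hKR' : ∀ y : F', ι'.IsIntegralElem (ι' π * y) → (∀ i, y ∈ W i) → ι'.IsIntegralElem y)
    (hEXT : ∀ i (x : F), (∀ c, x ∈ V c) →
      ∃ p : F'[X], p.Monic ∧ (∀ k, p.coeff k ∈ W i) ∧ p.eval₂ α x = 0)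
    (x : F) (hx : (α.comp ι').IsIntegralElem (α (ι' π) * x)) (hV : ∀ c, x ∈ V c) :
    (α.comp ι').IsIntegralElem x := by
  classical
  letI : Algebra F' F := α.toAlgebra
  letI : Algebra R F' := ι'.toAlgebra
  letI : Algebra R F := (α.comp ι').toAlgebra
  haveI : IsScalarTower R F' F := IsScalarTower.of_algebraMap_eq fun _ => rfl
  -- x is integral over F'
  have hxint : IsIntegral F' x := by
    obtain ⟨p, hp, -, hpx⟩ := hEXT (Classical.arbitrary ι) x hV
    exact ⟨p, hp, hpx⟩
  set f := minpoly F' x with hf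
  have hfm : f.Monic := minpoly.monic hxint
  -- coefficients of f in every W i
  have hfW : ∀ i k, f.coeff k ∈ W i := by
    intro i k
    obtain ⟨p, hp, hpW, hpx⟩ := hEXT i x hV
    exact s36n2k_coeff_mem_of_dvd (W i) hp hpW hfm (minpoly.dvd F' x hpx) k
  -- minimal polynomial of π x
  have hsm : minpoly F' (ι' π • x) = f.scaleRoots (ι' π) :=
    IsIntegrallyClosed.minpoly_smul hπ hxint
  have hπx : ι' π • x = α (ι' π) * x := rfl
  obtain ⟨P, hPm, hPx⟩ := hx
  have hdvd : minpoly F' (ι' π • x) ∣ P.map (algebraMap R F') := by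
    refine minpoly.dvd F' _ ?_
    rw [Polynomial.aeval_def, Polynomial.eval₂_map, hπx]
    exact hPx
  have hlift := integralClosure.mem_lifts_of_monic_of_dvd_map (K := F') hPm
    (minpoly.monic (hxint.smul (ι' π))) hdvd
  rw [Polynomial.lifts_iff_coeff_lifts] at hlift
  -- coefficients of f are integral over R
  have hfint : ∀ k, IsIntegral R (f.coeff k) := by
    intro k
    refine s36n2k_iter ι' π W hπW hKR' (f.natDegree - k) (f.coeff k) (fun i => hfW i k) ?_
    obtain ⟨c, hc⟩ := hlift k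
    rw [hsm, Polynomial.coeff_scaleRoots] at hc
    have hcint : IsIntegral R (algebraMap (integralClosure R F') F' c) := c.2
    rw [hc] at hcint
    rw [mul_comm]
    exact hcint
  -- f lifts to the integral closure, hence x is integral over it
  have hflift : f ∈ Polynomial.lifts (algebraMap (integralClosure R F') F') := by
    rw [Polynomial.lifts_iff_coeff_lifts]
    intro k
    exact ⟨⟨f.coeff k, hfint k⟩, rfl⟩
  obtain ⟨f₀, hf₀, -, hf₀m⟩ := Polynomial.lifts_and_degree_eq_and_monic hflift hfm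
  have hxS : IsIntegral (integralClosure R F') x := by
    refine ⟨f₀, hf₀m, ?_⟩
    have := minpoly.aeval F' x
    rw [← hf, ← hf₀, Polynomial.aeval_def, Polynomial.eval₂_map] at this
    exact this
  exact isIntegral_trans x hxS

end KR

section Surj

variable {C F'' F : Type*} [CommRing C] [Field F''] [Field F]

theorem s36n2k_mul_mem_nonunits (V : ValuationSubring F) {a b : F} (ha : a ∈ V)
    (hb : b ∈ V.nonunits) : a * b ∈ V.nonunits := by
  have := (ValuationSubring.mem_nonunits_iff V).mp hb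
  rw [ValuationSubring.mem_nonunits_iff, map_mul]
  exact mul_lt_one_of_nonneg_of_lt_one_right ((ValuationSubring.valuation_le_one_iff V a).mpr ha)
    zero_le this

theorem s36n2k_add_mem_nonunits (V : ValuationSubring F) {a b : F} (ha : a ∈ V.nonunits)
    (hb : b ∈ V.nonunits) : a + b ∈ V.nonunits := by
  rw [ValuationSubring.mem_nonunits_iff] at ha hb ⊢
  exact lt_of_le_of_lt (Valuation.map_add _ _ _) (max_lt ha hb)

theorem s36n2k_neg_mem_nonunits (V : ValuationSubring F) {a : F} (ha : a ∈ V.nonunits) :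
    -a ∈ V.nonunits := by
  rw [ValuationSubring.mem_nonunits_iff] at ha ⊢
  rwa [Valuation.map_neg]

theorem s36n2k_zero_mem_nonunits (V : ValuationSubring F) : (0 : F) ∈ V.nonunits := by
  rw [ValuationSubring.mem_nonunits_iff, map_zero]
  exact zero_lt_one

/-- Nonunits of a comap valuation subring. -/
theorem s36n2k_mem_nonunits_comap (ψ : F'' →+* F) (V : ValuationSubring F)
    (V'' : ValuationSubring F'') (hVV : ∀ y, y ∈ V'' ↔ ψ y ∈ V) (y : F'') :
    y ∈ V''.nonunits ↔ ψ y ∈ V.nonunits := by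
  rw [ValuationSubring.mem_nonunits_iff_or, ValuationSubring.mem_nonunits_iff_or, hVV, map_inv₀,
    map_eq_zero]

/-- Congruent elements of a valuation subring have congruent values of a polynomial. -/
theorem s36n2k_eval_sub_mem (V : ValuationSubring F) (g : C →+* F) (hg : ∀ c, g c ∈ V)
    {x y : F} (hx : x ∈ V) (hy : y ∈ V) (hxy : x - y ∈ V.nonunits) (p : C[X]) :
    p.eval₂ g x - p.eval₂ g y ∈ V.nonunits := by
  have hpow : ∀ n : ℕ, x ^ n - y ^ n ∈ V.nonunits := by
    intro n
    induction n with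
    | zero => simp [s36n2k_zero_mem_nonunits V]
    | succ n ih =>
      have : x ^ (n + 1) - y ^ (n + 1) = x ^ n * (x - y) + y * (x ^ n - y ^ n) := by ring
      rw [this]
      exact s36n2k_add_mem_nonunits V (s36n2k_mul_mem_nonunits V (pow_mem hx n) hxy)
        (s36n2k_mul_mem_nonunits V hy ih)
  induction p using Polynomial.induction_on' with
  | add p q hp hq =>
    rw [Polynomial.eval₂_add, Polynomial.eval₂_add]
    have : p.eval₂ g x + q.eval₂ g x - (p.eval₂ g y + q.eval₂ g y) =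
        (p.eval₂ g x - p.eval₂ g y) + (q.eval₂ g x - q.eval₂ g y) := by ring
    rw [this]
    exact s36n2k_add_mem_nonunits V hp hq
  | monomial n a =>
    rw [Polynomial.eval₂_monomial, Polynomial.eval₂_monomial, ← mul_sub]
    exact s36n2k_mul_mem_nonunits V (hg a) (hpow n)

/-- **(K2), abstract**: the image of the chart `B` in the residue field of `V` is the image of
the lower chart `C`, when the residue field of `V` is that of `V″ = C_(π)` and `C / π` is a
normal domain. -/
theorem s36n2k_surj (φ : C →+* F'') (ψ : F'' →+* F)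
    (V : ValuationSubring F) (V'' : ValuationSubring F'')
    (hVV : ∀ y, y ∈ V'' ↔ ψ y ∈ V) (hCV : ∀ c, φ c ∈ V'')
    (π : C) (hπ : φ π ∈ V''.nonunits) (hker : ∀ c, φ c ∈ V''.nonunits → π ∣ c)
    (hfrac : ∀ y ∈ V'', ∃ a b : C, φ b ∉ V''.nonunits ∧ φ b * y = φ a)
    [IsDomain (C ⧸ Ideal.span {π})] [IsIntegrallyClosed (C ⧸ Ideal.span {π})]
    (hF : ∀ x ∈ V, ∃ y ∈ V'', x - ψ y ∈ V.nonunits)
    (x : F) (hxV : x ∈ V) (hx : (ψ.comp φ).IsIntegralElem x) :
    ∃ c : C, x - ψ (φ c) ∈ V.nonunits := by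
  classical
  obtain ⟨y, hyV, hxy⟩ := hF x hxV
  obtain ⟨a, b, hb, hab⟩ := hfrac y hyV
  obtain ⟨p, hpm, hpx⟩ := hx
  have hnu := s36n2k_mem_nonunits_comap ψ V V'' hVV
  have hCV' : ∀ c, (ψ.comp φ) c ∈ V := fun c => (hVV _).mp (hCV c)
  -- p(y) is a nonunit of V''
  have hpy : p.eval₂ φ y ∈ V''.nonunits := by
    rw [hnu, Polynomial.hom_eval₂]
    have h := s36n2k_eval_sub_mem V (ψ.comp φ) hCV' hxV ((hVV y).mp hyV) hxy p
    rw [hpx, zero_sub] at h
    have h2 := s36n2k_neg_mem_nonunits V h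
    rwa [neg_neg] at h2
  -- the homogenised value T
  set T : C := (p.scaleRoots b).eval a with hT
  have hφT : φ T = φ b ^ p.natDegree * p.eval₂ φ y := by
    rw [← Polynomial.scaleRoots_eval₂_mul, hab, hT, Polynomial.eval₂_at_apply]
  have hTπ : π ∣ T := by
    refine hker T ?_
    rw [hφT]
    exact s36n2k_mul_mem_nonunits V'' (pow_mem (hCV b) _) hpy
  -- pass to D = C / π
  set D := C ⧸ Ideal.span {π} with hD
  let mk : C →+* D := Ideal.Quotient.mk _
  have hmk0 : ∀ c, mk c = 0 ↔ π ∣ c := fun c => by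
    rw [Ideal.Quotient.eq_zero_iff_mem, Ideal.mem_span_singleton]
  have hbne : mk b ≠ 0 := by
    intro h0
    obtain ⟨b', rfl⟩ := (hmk0 b).mp h0
    apply hb
    rw [map_mul, mul_comm]
    exact s36n2k_mul_mem_nonunits V'' (hCV b') hπ
  let K := FractionRing D
  set z : K := algebraMap D K (mk a) / algebraMap D K (mk b) with hz
  have hbK : algebraMap D K (mk b) ≠ 0 := by
    rw [Ne, FaithfulSMul.algebraMap_eq_zero_iff]
    exact hbne
  have hzint : IsIntegral D z := by
    refine ⟨p.map mk, hpm.map mk, ?_⟩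
    have h1 : Polynomial.eval₂ (algebraMap D K) (algebraMap D K (mk b) * z)
        ((p.map mk).scaleRoots (mk b)) =
        algebraMap D K (mk b) ^ (p.map mk).natDegree *
          Polynomial.eval₂ (algebraMap D K) z (p.map mk) :=
      Polynomial.scaleRoots_eval₂_mul _ _ _
    have h2 : algebraMap D K (mk b) * z = algebraMap D K (mk a) := by
      rw [hz, mul_div_cancel₀ _ hbK]
    have h3 : (p.map mk).scaleRoots (mk b) = (p.scaleRoots b).map mk := by
      rw [Polynomial.map_scaleRoots]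
      rw [hpm.leadingCoeff, map_one]
      exact one_ne_zero
    rw [h2, h3, Polynomial.eval₂_at_apply, Polynomial.eval_map, Polynomial.eval₂_at_apply,
      ← hT, (hmk0 T).mpr hTπ, map_zero] at h1
    rcases mul_eq_zero.mp h1.symm with h | h
    · exact absurd h (pow_ne_zero _ hbK)
    · exact h
  obtain ⟨d, hd⟩ := IsIntegrallyClosed.algebraMap_eq_of_integral hzint
  obtain ⟨c, rfl⟩ := Ideal.Quotient.mk_surjective d
  refine ⟨c, ?_⟩
  -- a - b c is divisible by π
  have hmkeq : mk a = mk b * mk c := by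
    apply FaithfulSMul.algebraMap_injective D K
    rw [map_mul]
    show algebraMap D K (mk a) = algebraMap D K (mk b) * algebraMap D K (Ideal.Quotient.mk _ c)
    rw [hd, hz, mul_div_cancel₀ _ hbK]
  have hdiv : π ∣ a - b * c := by
    rw [← hmk0, map_sub, map_mul, hmkeq, sub_self]
  obtain ⟨e, he⟩ := hdiv
  have h1 : φ b * (y - φ c) ∈ V''.nonunits := by
    have : φ b * (y - φ c) = φ e * φ π := by
      rw [mul_sub, hab, ← map_mul, ← map_sub, he, map_mul, mul_comm]
    rw [this]
    exact s36n2k_mul_mem_nonunits V'' (hCV e) hπ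
  have hbinv : (φ b)⁻¹ ∈ V'' := by
    by_contra h
    exact hb ((ValuationSubring.mem_nonunits_iff_or V'').mpr (Or.inr h))
  have hb0 : φ b ≠ 0 := by
    intro h
    apply hb
    rw [h]
    exact s36n2k_zero_mem_nonunits V''
  have h2 : y - φ c ∈ V''.nonunits := by
    have : y - φ c = (φ b)⁻¹ * (φ b * (y - φ c)) := by
      rw [← mul_assoc, inv_mul_cancel₀ hb0, one_mul]
    rw [this]
    exact s36n2k_mul_mem_nonunits V'' hbinv h1
  have h3 : ψ (y - φ c) ∈ V.nonunits := (hnu _).mp h2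
  have : x - ψ (φ c) = (x - ψ y) + ψ (y - φ c) := by
    rw [map_sub]; ring
  rw [this]
  exact s36n2k_add_mem_nonunits V hxy h3

end Surj

section Bridge

variable {R R' F : Type*} [CommRing R] [CommRing R'] [Field F]

/-- Integrality does not change along a surjection of the base rings. -/
theorem s36n2k_isIntegralElem_surj (f : R' →+* F) (g : R →+* F) (h : R' →+* R)
    (hh : Function.Surjective h) (hfg : ∀ r, f r = g (h r)) (x : F) :
    f.IsIntegralElem x ↔ g.IsIntegralElem x := by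
  have hcomp : f = g.comp h := RingHom.ext hfg
  constructor
  · rintro ⟨p, hp, hpx⟩
    refine ⟨p.map h, hp.map h, ?_⟩
    rw [Polynomial.eval₂_map, ← hcomp]
    exact hpx
  · rintro ⟨p, hp, hpx⟩
    haveI : Nontrivial R := g.domain_nontrivial
    have hl : p ∈ Polynomial.lifts h := by
      rw [Polynomial.lifts_iff_coeff_lifts]
      intro n
      exact hh _
    obtain ⟨p', hp', -, hp'm⟩ := Polynomial.lifts_and_degree_eq_and_monic hl hp
    refine ⟨p', hp'm, ?_⟩
    rw [hcomp, ← Polynomial.eval₂_map, hp']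
    exact hpx

end Bridge

section HKR

variable {A₀ F' F : Type*} [CommRing A₀] [Field F'] [Field F] [Algebra A₀ F'] [Algebra A₀ F]

/-- The restriction of `α` to `A₀[t']`, onto `A₀[α t']`. -/
noncomputable def s36n2kAdjoinMap (α : F' →ₐ[A₀] F) (t' : F') :
    ↥(Algebra.adjoin A₀ ({t'} : Set F')) →+* ↥(Algebra.adjoin A₀ ({α t'} : Set F)) :=
  ((α.comp (Algebra.adjoin A₀ ({t'} : Set F')).val).codRestrict
    (Algebra.adjoin A₀ ({α t'} : Set F)) (by
      intro x
      have h : (Algebra.adjoin A₀ ({t'} : Set F')).map α = Algebra.adjoin A₀ ({α t'} : Set F) := by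
        rw [AlgHom.map_adjoin, Set.image_singleton]
      rw [← h]
      exact ⟨x, x.2, rfl⟩)).toRingHom

theorem s36n2kAdjoinMap_apply (α : F' →ₐ[A₀] F) (t' : F')
    (x : ↥(Algebra.adjoin A₀ ({t'} : Set F'))) :
    ((s36n2kAdjoinMap α t' x : ↥(Algebra.adjoin A₀ ({α t'} : Set F))) : F) = α x := rfl

theorem s36n2kAdjoinMap_surjective (α : F' →ₐ[A₀] F) (t' : F') :
    Function.Surjective (s36n2kAdjoinMap α t') := by
  rintro ⟨y, hy⟩
  have h : (Algebra.adjoin A₀ ({t'} : Set F')).map α = Algebra.adjoin A₀ ({α t'} : Set F) := by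
    rw [AlgHom.map_adjoin, Set.image_singleton]
  rw [← h] at hy
  obtain ⟨x, hx, rfl⟩ := hy
  exact ⟨⟨x, hx⟩, rfl⟩

/-- Integrality over `A₀[α t']` in `F` is integrality over `A₀[t']` through `α`. -/
theorem s36n2k_isIntegral_adjoin_iff (α : F' →ₐ[A₀] F) (t' : F') (x : F) :
    IsIntegral ↥(Algebra.adjoin A₀ ({α t'} : Set F)) x ↔
      ((α : F' →+* F).comp
        (algebraMap ↥(Algebra.adjoin A₀ ({t'} : Set F')) F')).IsIntegralElem x :=
  (s36n2k_isIntegralElem_surj _ _ (s36n2kAdjoinMap α t') (s36n2kAdjoinMap_surjective α t')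
    (fun _ => rfl) x).symm

end HKR

section Final

variable {A₀ F' F : Type*} [CommRing A₀] [Field F'] [Field F] [Algebra A₀ F'] [Algebra A₀ F]

/-- (KR′) at the lower level from the valuation form of (SS1). -/
theorem s36n2k_KR'_of_SS1 {ι : Type*} (π : A₀) (t' : F') (W : ι → ValuationSubring F')
    (hπ0 : algebraMap A₀ F' π ≠ 0) (hπW : ∀ i, algebraMap A₀ F' π ∈ (W i).nonunits)
    (hSS1 : ∀ b : F', IsIntegral ↥(Algebra.adjoin A₀ ({t'} : Set F')) b →
      (∀ i, b ∈ (W i).nonunits) →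
      ∃ b' : F', IsIntegral ↥(Algebra.adjoin A₀ ({t'} : Set F')) b' ∧
        b = algebraMap A₀ F' π * b')
    (y : F') (hy : IsIntegral ↥(Algebra.adjoin A₀ ({t'} : Set F')) (algebraMap A₀ F' π * y))
    (hyW : ∀ i, y ∈ W i) : IsIntegral ↥(Algebra.adjoin A₀ ({t'} : Set F')) y := by
  obtain ⟨b', hb', hb⟩ := hSS1 _ hy fun i => by
    rw [mul_comm]
    exact s36n2k_mul_mem_nonunits (W i) (hyW i) (hπW i)
  rwa [mul_left_cancel₀ hπ0 hb]

/-- **(K1) in the shape of `hKR` of `aq_pow_of_shape`** (chart `t = α t′`): from (SS1) at the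
lower level (valuation form) and (EXT). -/
theorem s36n2k_hKR {ι κ : Type*} [Nonempty ι] (α : F' →ₐ[A₀] F) (π : A₀) (t' : F')
    (W : ι → ValuationSubring F') (V : κ → ValuationSubring F)
    (hπ0 : algebraMap A₀ F' π ≠ 0) (hπW : ∀ i, algebraMap A₀ F' π ∈ (W i).nonunits)
    (hSS1 : ∀ b : F', IsIntegral ↥(Algebra.adjoin A₀ ({t'} : Set F')) b →
      (∀ i, b ∈ (W i).nonunits) →
      ∃ b' : F', IsIntegral ↥(Algebra.adjoin A₀ ({t'} : Set F')) b' ∧
        b = algebraMap A₀ F' π * b')
    (hEXT : ∀ i (x : F), (∀ c, x ∈ V c) →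
      ∃ p : F'[X], p.Monic ∧ (∀ k, p.coeff k ∈ W i) ∧ p.eval₂ (α : F' →+* F) x = 0)
    (x : F) (hx : IsIntegral ↥(Algebra.adjoin A₀ ({α t'} : Set F)) (algebraMap A₀ F π * x))
    (hV : ∀ c, x ∈ V c) : IsIntegral ↥(Algebra.adjoin A₀ ({α t'} : Set F)) x := by
  rw [s36n2k_isIntegral_adjoin_iff] at hx ⊢
  set R := ↥(Algebra.adjoin A₀ ({t'} : Set F')) with hR
  have hπR : algebraMap R F' (algebraMap A₀ R π) = algebraMap A₀ F' π := rfl
  refine s36n2k_KR (algebraMap R F') (α : F' →+* F) (algebraMap A₀ R π) ?_ W V ?_ ?_ hEXT x ?_ hV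
  · rw [hπR]; exact hπ0
  · intro i
    rw [hπR]
    exact ValuationSubring.nonunits_subset (hπW i)
  · intro y hy hyW
    rw [hπR] at hy
    exact s36n2k_KR'_of_SS1 π t' W hπ0 hπW hSS1 y hy hyW
  · rw [hπR]
    have : (α : F' →+* F) (algebraMap A₀ F' π) = algebraMap A₀ F π := α.commutes π
    rw [this]
    exact hx

end Final

section Frac

variable {C F'' : Type*} [CommRing C] [Field F'']

/-- **`V″ = C_(π)`**: every element of `V″` is a quotient `a / b` of elements of the chart with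
`b` a unit of `V″`, when `𝔪(V″) ∩ C = π C` and divisibility by `π` is well-founded. -/
theorem s36n2k_frac (φ : C →+* F'') (V'' : ValuationSubring F'') (hCV : ∀ c, φ c ∈ V'')
    (π : C) (hπ0 : φ π ≠ 0) (hπ : φ π ∈ V''.nonunits) (hker : ∀ c, φ c ∈ V''.nonunits → π ∣ c)
    (hval : ∀ c : C, c ≠ 0 → ∃ n : ℕ, ∃ c' : C, c = π ^ n * c' ∧ ¬ π ∣ c')
    (hfr : ∀ y : F'', ∃ a b : C, b ≠ 0 ∧ φ b * y = φ a)
    (y : F'') (hy : y ∈ V'') : ∃ a b : C, φ b ∉ V''.nonunits ∧ φ b * y = φ a := by
  obtain ⟨a, b, hb, hab⟩ := hfr y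
  obtain ⟨n, b', rfl, hb'⟩ := hval b hb
  have key : ∀ (n : ℕ) (a : C), φ π ^ n * (φ b' * y) = φ a → ∃ a' : C, φ b' * y = φ a' := by
    intro n
    induction n with
    | zero =>
      intro a h
      exact ⟨a, by simpa using h⟩
    | succ n ih =>
      intro a h
      have hmem : φ a ∈ V''.nonunits := by
        rw [← h, pow_succ, mul_assoc, mul_comm (φ π), ← mul_assoc]
        exact s36n2k_mul_mem_nonunits V''
          (mul_mem (pow_mem (ValuationSubring.nonunits_subset hπ) n) (mul_mem (hCV b') hy)) hπ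
      obtain ⟨a₁, rfl⟩ := hker a hmem
      refine ih a₁ ?_
      apply mul_left_cancel₀ hπ0
      rw [← map_mul, ← h]
      ring
  obtain ⟨a', ha'⟩ := key n a (by rw [← hab, map_mul, map_pow]; ring)
  exact ⟨a', b', fun h => hb' (hker b' h), ha'⟩

end Frac

end Fermat.Agent.S36
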