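import Fermat.Agent.S36.N2KerM
import Fermat.Agent.UNIP.NodesFinalReg
import Fermat.Agent.STB.MGNodeReg
import Fermat.Agent.STB.FrobChartJ

/-!
# S36 / N2-ker (K2): residue degree one at level `M q` over level `M`, valuation form (B2)

* `s36n2k_congr_quot'` (Mathlib only): the elementary computation with fractions.
* `s36n2k_hsurj` : every element of the chart `j` of level `M q` is congruent modulo `𝔪(V′_∞)` to
  an element of `F_M ∩ V′_∞` (`stb_hsurj_modular` of STB in the vocabulary of MG-8).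
* `s36n2k_B2` : every element of `V′_∞ = vtInf hB (M q)` is congruent modulo `𝔪(V′_∞)` to an
  element of `V″ = vtInf hB M`.  Inputs: `RegChart π (bgJ K₀ M)` (⇒ `NodesHomData`, U5) and `hVloc`
  at level `M q` (`V′_∞` is the localisation of the chart `j`).
-/

set_option autoImplicit false
set_option linter.unusedSectionVars false
set_option linter.style.haveILetI false
set_option linter.style.longLine false
set_option synthInstance.maxHeartbeats 400000
set_option maxHeartbeats 1000000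

noncomputable section

namespace Fermat.Agent.S36

open ModularCurve Fermat.Agent.INJ Fermat.Agent.UNIP Fermat.Agent.AL Fermat.Agent.STB Polynomial

section Abs

variable {F : Type*} [Field F]

theorem s36n2k_not_mem_of_add_mem (V : ValuationSubring F) {u d : F} (hu : u ∈ V)
    (hun : u ∉ V.nonunits) (h : u + d ∈ V.nonunits) : d ∈ V ∧ d ∉ V.nonunits := by
  have hd : d = (u + d) - u := by ring
  refine ⟨?_, fun hdn => hun ?_⟩
  · rw [hd]
    exact sub_mem (ValuationSubring.nonunits_subset h) hu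
  · have : u = (u + d) + -d := by ring
    rw [this]
    exact s36n2k_add_mem_nonunits V h (s36n2k_neg_mem_nonunits V hdn)

theorem s36n2k_unit_mul (V : ValuationSubring F) {a b : F} (ha : a ∈ V) (han : a ∉ V.nonunits)
    (hb : b ∈ V) (hbn : b ∉ V.nonunits) : a * b ∉ V.nonunits := by
  rw [ValuationSubring.mem_nonunits_iff, not_lt] at han hbn ⊢
  have h1 : V.valuation a = 1 :=
    le_antisymm ((ValuationSubring.valuation_le_one_iff V a).mpr ha) han
  have h2 : V.valuation b = 1 :=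
    le_antisymm ((ValuationSubring.valuation_le_one_iff V b).mpr hb) hbn
  rw [map_mul, h1, h2, one_mul]

theorem s36n2k_inv_mem (V : ValuationSubring F) {a : F} (han : a ∉ V.nonunits) : a⁻¹ ∈ V := by
  by_contra h
  exact han ((ValuationSubring.mem_nonunits_iff_or V).mpr (Or.inr h))

theorem s36n2k_ne_zero (V : ValuationSubring F) {a : F} (han : a ∉ V.nonunits) : a ≠ 0 := by
  rintro rfl
  exact han (s36n2k_zero_mem_nonunits V)

/-- **The computation with fractions, simple form.**  `x = b / s` with `s` a unit of `V`,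
`b ≡ c`, `s ≡ d`: then `d` is a unit and `x ≡ c / d`. -/
theorem s36n2k_congr_quot' (V : ValuationSubring F) {x b s c d : F}
    (hx : x ∈ V) (hsx : s * x = b) (hsn : s ∉ V.nonunits)
    (hbc : b - c ∈ V.nonunits) (hsd : s - d ∈ V.nonunits) :
    d ∉ V.nonunits ∧ x - c / d ∈ V.nonunits := by
  have hdn : d ∉ V.nonunits := by
    intro hdn
    apply hsn
    have : s = (s - d) + d := by ring
    rw [this]
    exact s36n2k_add_mem_nonunits V hsd hdn
  refine ⟨hdn, ?_⟩
  have hd0 := s36n2k_ne_zero V hdn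
  have hinv := s36n2k_inv_mem V hdn
  have key : x - c / d = d⁻¹ * ((b - c) + -(x * (s - d))) := by
    rw [← hsx]
    field_simp
    ring
  rw [key]
  refine s36n2k_mul_mem_nonunits V hinv (s36n2k_add_mem_nonunits V hbc
    (s36n2k_neg_mem_nonunits V ?_))
  exact s36n2k_mul_mem_nonunits V hx hsd

end Abs

section B2

variable (K₀ : IntermediateField ℚ NfQb) {A₀ : Type} [CommRing A₀] [IsDomain A₀]
  [IsDiscreteValuationRing A₀] [Algebra A₀ K₀] [IsFractionRing A₀ K₀]
  {k : Type*} [Field k] (r : A₀ →+* k) {π : A₀} (ιC : K₀ →+* ℂ)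
  {q M : ℕ} [NeZero q] [NeZero M] [NeZero (M * q)] (hq : q.Prime) (hqM : ¬ q ∣ M)
  [Algebra A₀ (modularFunctionFieldFullC K₀ M)]
  [IsScalarTower A₀ K₀ (modularFunctionFieldFullC K₀ M)]
  [Algebra A₀ (modularFunctionFieldFullC K₀ (M * q))]
  [IsScalarTower A₀ K₀ (modularFunctionFieldFullC K₀ (M * q))]

/-- `V″ = V′_∞ ∩ F″`. -/
theorem s36n2k_mem_vtInf_incl (hB : VtBase (algebraMap A₀ K₀) r π)
    (y : modularFunctionFieldFullC K₀ M) :
    y ∈ vtInf hB M ↔ nodesInstIncl K₀ M q y ∈ vtInf hB (M * q) := by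
  rw [mem_vtInf, mem_vtInf, nodesInstIncl_coe]

include hq hqM ιC in
/-- `hsurj` of STB on the chart `j`: every element of the chart `j` of level `M q` is congruent
modulo `𝔪(V′_∞)` to an element of `F_M ∩ V′_∞`. -/
theorem s36n2k_hsurj [Fact q.Prime] [CharP k q] (hπ : Irreducible π)
    (hB : VtBase (algebraMap A₀ K₀) r π)
    (h : RegChart (E := K₀) π (bgJ K₀ M))
    (b : modularFunctionFieldFullC K₀ (M * q))
    (hb : IsIntegral ↥(Algebra.adjoin A₀
      ({nodesInstIncl K₀ M q (bgJ K₀ M)} : Set (modularFunctionFieldFullC K₀ (M * q)))) b) :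
    ∃ y : modularFunctionFieldFullC K₀ M, y ∈ vtInf hB M ∧
      b - nodesInstIncl K₀ M q y ∈ (vtInf hB (M * q)).nonunits := by
  have hd := nodesReg_hd_J K₀ r ιC hq hqM hπ hB.ker hB.rπ h
  haveI := h.isDomain
  haveI := h.isIntegrallyClosed
  obtain ⟨c, hc, hcM, hbc⟩ := stb_hsurj_modular (stb_gaussBase_of_vtBase hB)
    (atkinLehner K₀ ιC hq hqM).toAlgHom (bgJ K₀ M) (nodesFinal_J_mem K₀ r)
    (nodesFinal_wJ_mem K₀ r ιC hq hqM) hd b hb
  have hcV : c ∈ vtInf hB (M * q) := by
    rw [mem_vtInf]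
    exact nodesFrob_G1_id r hπ.ne_zero hπ.not_isUnit hB.ker hB.rπ
      (nodesFrob_full_le (M * q)) (nodesInstIncl K₀ M q (bgJ K₀ M))
      (nodesInst_ht' r M q (bgJ K₀ M) (nodesFinal_J_mem K₀ r)) hc
  have hy : nodesInstIncl K₀ M q ⟨(c : LaurentSeries K₀), hcM⟩ = c :=
    Subtype.ext (nodesInstIncl_coe M q _)
  refine ⟨⟨(c : LaurentSeries K₀), hcM⟩, ?_, ?_⟩
  · rw [s36n2k_mem_vtInf_incl K₀ r hB (q := q), hy]
    exact hcV
  · rw [hy, ← stbVinf_eq_vtInf (stb_gaussBase_of_vtBase hB) hB (M * q)]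
    exact hbc

include hq hqM ιC in
/-- **(B2)**: the residue field of `V′_∞` (level `M q`) is that of `V″` (level `M`). -/
theorem s36n2k_B2 [Fact q.Prime] [CharP k q] (hπ : Irreducible π)
    (hB : VtBase (algebraMap A₀ K₀) r π)
    (h : RegChart (E := K₀) π (bgJ K₀ M))
    (hVloc : ∀ x : modularFunctionFieldFullC K₀ (M * q), x ∈ vtInf hB (M * q) →
      ∃ b s : modularFunctionFieldFullC K₀ (M * q),
        IsIntegral ↥(Algebra.adjoin A₀
          ({bgJ K₀ (M * q)} : Set (modularFunctionFieldFullC K₀ (M * q)))) b ∧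
        IsIntegral ↥(Algebra.adjoin A₀
          ({bgJ K₀ (M * q)} : Set (modularFunctionFieldFullC K₀ (M * q)))) s ∧
        s ∉ (vtInf hB (M * q)).nonunits ∧ s * x = b)
    (x : modularFunctionFieldFullC K₀ (M * q)) (hx : x ∈ vtInf hB (M * q)) :
    ∃ y : modularFunctionFieldFullC K₀ M, y ∈ vtInf hB M ∧
      x - nodesInstIncl K₀ M q y ∈ (vtInf hB (M * q)).nonunits := by
  obtain ⟨b, s, hb, hs, hsn, hsx⟩ := hVloc x hx
  have ht' : nodesInstIncl K₀ M q (bgJ K₀ M) = bgJ K₀ (M * q) := stbmn_incl_J_gen K₀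
  rw [← ht'] at hb hs
  obtain ⟨yb, hybV, hyb⟩ := s36n2k_hsurj K₀ r ιC hq hqM hπ hB h b hb
  obtain ⟨ys, hysV, hys⟩ := s36n2k_hsurj K₀ r ιC hq hqM hπ hB h s hs
  have hybV' := (s36n2k_mem_vtInf_incl K₀ r hB (q := q) yb).mp hybV
  obtain ⟨hysn, hcong⟩ := s36n2k_congr_quot' (vtInf hB (M * q)) hx hsx hsn hyb hys
  refine ⟨yb / ys, ?_, ?_⟩
  · rw [s36n2k_mem_vtInf_incl K₀ r hB (q := q), map_div₀, div_eq_mul_inv]
    exact mul_mem hybV' (s36n2k_inv_mem _ hysn)
  · rw [map_div₀]
    exact hcong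

end B2

end Fermat.Agent.S36
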