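import Fermat.Agent.S36.N2KerB2
import Fermat.Agent.S36.PlanGeo

/-!
# S36 / N2-ker (K2): the statement (F1) of N2-pts

* `s36n2k_hfrac_chart`, `s36n2k_surj_chart` : the level-`M` part of (K2) on ANY chart `t` of
  `F″ = F_M(E)` whose reduction is transcendental and over which `F″` is algebraic
  (`t = j`, `t = 1/j`).
* `s36n2k_hF_chain` : the chain `V ⊇ V′_∞ ⊇ V″` of residue degree one.
* `s36n2kPsi` : `ψ_a = α ∘ incl : F_M → F_{Mqq}` as a homomorphism of `A₀`-algebras.
* `s36n2k_F1_chart`, `s36n2k_F1_J`, `s36n2k_F1_Jinv` : **(F1)** for a valuation subring `V` of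
  `F_{Mqq}(K₀)` with `V ∩ F′ = V′_∞` and residue field that of `V′_∞` (`V_a`, `V_c`): every
  element of the chart of level `M q²` is congruent modulo `𝔪(V)` to an element of the chart of
  level `M`.
-/

set_option autoImplicit false
set_option linter.unusedSectionVars false
set_option linter.style.haveILetI false
set_option linter.style.longLine false
set_option synthInstance.maxHeartbeats 400000
set_option maxHeartbeats 1000000

noncomputable section

namespace Fermat.Agent.S36

open ModularCurve Fermat.Agent.INJ Fermat.Agent.UNIP Fermat.Agent.AL Fermat.Agent.STB Polynomial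

section Chart

variable {A E k : Type*} [CommRing A] [IsDomain A] [WfDvdMonoid A] [Field E] [Algebra A E]
  [IsFractionRing A E] [Field k] {r : A →+* k} {π : A}
  (hB : VtBase (algebraMap A E) r π)
  (M : ℕ) [NeZero M]
  [Algebra A (modularFunctionFieldFullC E M)]
  [IsScalarTower A E (modularFunctionFieldFullC E M)]
  (t : modularFunctionFieldFullC E M)
  (ht : (t : LaurentSeries E) ∈ gaussRing (algebraMap A E) r)

include hB ht in
/-- **`V″ = C_(π)`** on a chart `t` of level `M`. -/
theorem s36n2k_hfrac_chart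
    (halg : ∀ x : modularFunctionFieldFullC E M, IsAlgebraic (Algebra.adjoin A {t}) x)
    (htr : Transcendental k (gaussRed r (IsFractionRing.injective A E) ⟨_, ht⟩))
    (hprime : Prime (algebraMap A
      (integralClosure (Algebra.adjoin A {t}) (modularFunctionFieldFullC E M)) π))
    (y : modularFunctionFieldFullC E M) (hy : y ∈ vtInf hB M) :
    ∃ a b : integralClosure (Algebra.adjoin A {t}) (modularFunctionFieldFullC E M),
      (integralClosure (Algebra.adjoin A {t}) (modularFunctionFieldFullC E M)).val.toRingHom b ∉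
        (vtInf hB M).nonunits ∧
      (integralClosure (Algebra.adjoin A {t}) (modularFunctionFieldFullC E M)).val.toRingHom b * y
        = (integralClosure (Algebra.adjoin A {t})
            (modularFunctionFieldFullC E M)).val.toRingHom a := by
  refine s36n2k_frac
    (integralClosure (Algebra.adjoin A {t}) (modularFunctionFieldFullC E M)).val.toRingHom
    (vtInf hB M) (fun c => s36n2k_hCV hB M t ht c)
    (algebraMap A (integralClosure (Algebra.adjoin A {t}) (modularFunctionFieldFullC E M)) π)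
    ?_ (s36n2k_pi_mem hB M t) (fun c hc => s36n2k_hker_M hB M t ht htr hprime c hc)
    (fun c hc => s36n2k_hval_M hB M t ht c hc) ?_ y hy
  · intro h0
    have h1 : ((algebraMap A (integralClosure (Algebra.adjoin A {t})
        (modularFunctionFieldFullC E M)) π : integralClosure (Algebra.adjoin A {t})
          (modularFunctionFieldFullC E M)) : modularFunctionFieldFullC E M) = 0 := h0
    have h2 := nodesFrob_algebraMap_coe (A := A) (F := modularFunctionFieldFullC E M) π
    have h3 : ((algebraMap A (modularFunctionFieldFullC E M) π :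
        modularFunctionFieldFullC E M) : LaurentSeries E) = 0 := by
      have : (algebraMap A (modularFunctionFieldFullC E M) π : modularFunctionFieldFullC E M)
          = 0 := h1
      rw [this]; rfl
    rw [h2] at h3
    exact hB.Cιπ_ne h3
  · intro x
    obtain ⟨d, c, hd, hdc⟩ := nodesInst_hfrac M t halg x
    refine ⟨c, d, ?_, hdc⟩
    intro h0
    apply hd
    rw [h0, map_zero]

include hB ht in
/-- **(K2), level-`M` part, any chart**: `V` a valuation subring of a field `F ⊇ F″` (via `ψ`)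
lying over `V″` with the same residue field; then every `x ∈ V` integral over the chart `C` of
level `M` is congruent modulo `𝔪(V)` to an element of `C`. -/
theorem s36n2k_surj_chart
    (halg : ∀ x : modularFunctionFieldFullC E M, IsAlgebraic (Algebra.adjoin A {t}) x)
    (htr : Transcendental k (gaussRed r (IsFractionRing.injective A E) ⟨_, ht⟩))
    (hprime : Prime (algebraMap A
      (integralClosure (Algebra.adjoin A {t}) (modularFunctionFieldFullC E M)) π))
    (hicl : IsIntegrallyClosed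
      (integralClosure (Algebra.adjoin A {t}) (modularFunctionFieldFullC E M) ⧸
        Ideal.span {algebraMap A
          (integralClosure (Algebra.adjoin A {t}) (modularFunctionFieldFullC E M)) π}))
    {F : Type*} [Field F] (ψ : modularFunctionFieldFullC E M →+* F) (V : ValuationSubring F)
    (hVV : ∀ y, y ∈ vtInf hB M ↔ ψ y ∈ V)
    (hF : ∀ x ∈ V, ∃ y ∈ vtInf hB M, x - ψ y ∈ V.nonunits)
    (x : F) (hxV : x ∈ V)
    (hx : (ψ.comp (integralClosure (Algebra.adjoin A {t})
      (modularFunctionFieldFullC E M)).val.toRingHom).IsIntegralElem x) :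
    ∃ c : integralClosure (Algebra.adjoin A {t}) (modularFunctionFieldFullC E M),
      x - ψ (c : modularFunctionFieldFullC E M) ∈ V.nonunits := by
  haveI : (Ideal.span {algebraMap A
      (integralClosure (Algebra.adjoin A {t}) (modularFunctionFieldFullC E M)) π}).IsPrime :=
    (Ideal.span_singleton_prime hprime.ne_zero).mpr hprime
  haveI : IsDomain (integralClosure (Algebra.adjoin A {t}) (modularFunctionFieldFullC E M) ⧸
      Ideal.span {algebraMap A
        (integralClosure (Algebra.adjoin A {t}) (modularFunctionFieldFullC E M)) π}) :=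
    Ideal.Quotient.isDomain _
  haveI := hicl
  exact s36n2k_surj
    (integralClosure (Algebra.adjoin A {t}) (modularFunctionFieldFullC E M)).val.toRingHom
    ψ V (vtInf hB M) hVV (fun c => s36n2k_hCV hB M t ht c)
    (algebraMap A (integralClosure (Algebra.adjoin A {t}) (modularFunctionFieldFullC E M)) π)
    (s36n2k_pi_mem hB M t) (fun c hc => s36n2k_hker_M hB M t ht htr hprime c hc)
    (fun y hy => s36n2k_hfrac_chart hB M t ht halg htr hprime y hy) hF x hxV hx

end Chart

section Chain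

variable {F'' F' F : Type*} [Field F''] [Field F'] [Field F]

/-- **The chain of residue degree one**: `V ⊇ W ⊇ V″`. -/
theorem s36n2k_hF_chain (incl : F'' →+* F') (φ : F' →+* F) (V'' : ValuationSubring F'')
    (W : ValuationSubring F') (V : ValuationSubring F)
    (hWV : ∀ z, z ∈ W ↔ φ z ∈ V)
    (hB2 : ∀ c ∈ W, ∃ y ∈ V'', c - incl y ∈ W.nonunits)
    (hF : ∀ x ∈ V, ∃ c ∈ W, x - φ c ∈ V.nonunits) (x : F) (hx : x ∈ V) :
    ∃ y ∈ V'', x - φ (incl y) ∈ V.nonunits := by
  obtain ⟨c, hcW, hxc⟩ := hF x hx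
  obtain ⟨y, hy, hcy⟩ := hB2 c hcW
  refine ⟨y, hy, ?_⟩
  have h1 : φ (c - incl y) ∈ V.nonunits := (s36n2k_mem_nonunits_comap φ V W hWV _).mp hcy
  have e : x - φ (incl y) = (x - φ c) + φ (c - incl y) := by
    rw [map_sub]; ring
  rw [e]
  exact s36n2k_add_mem_nonunits V hxc h1

/-- transport of `hF` along an automorphism `w` of `F` -/
theorem s36n2k_hF_comap (w : F ≃+* F) (ψ : F'' →+* F) (V'' : ValuationSubring F'')
    (V : ValuationSubring F)
    (hF : ∀ x ∈ V, ∃ y ∈ V'', x - ψ y ∈ V.nonunits) (x : F)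
    (hx : x ∈ V.comap (w : F →+* F)) :
    ∃ y ∈ V'', x - w.symm (ψ y) ∈ (V.comap (w : F →+* F)).nonunits := by
  obtain ⟨y, hy, hxy⟩ := hF (w x) hx
  refine ⟨y, hy, ?_⟩
  have hVV : ∀ z, z ∈ V.comap (w : F →+* F) ↔ (w : F →+* F) z ∈ V := fun z => Iff.rfl
  rw [s36n2k_mem_nonunits_comap (w : F →+* F) V (V.comap (w : F →+* F)) hVV]
  have e : (w : F →+* F) (x - w.symm (ψ y)) = w x - ψ y := by
    rw [map_sub]
    show w x - w (w.symm (ψ y)) = _
    rw [RingEquiv.apply_symm_apply]
  rw [e]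
  exact hxy

end Chain

section Bridge

variable {A₀ F'' F : Type*} [CommRing A₀] [Field F''] [Field F] [Algebra A₀ F''] [Algebra A₀ F]

/-- Integrality over `A₀[ψ t]` is integrality over the chart `C` of `t` through `ψ`. -/
theorem s36n2k_isIntegralElem_of_adjoin (ψ : F'' →ₐ[A₀] F) (t : F'') (x : F)
    (hx : IsIntegral ↥(Algebra.adjoin A₀ ({ψ t} : Set F)) x) :
    ((ψ : F'' →+* F).comp
      (integralClosure ↥(Algebra.adjoin A₀ ({t} : Set F'')) F'').val.toRingHom).IsIntegralElem
        x := by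
  obtain ⟨p, hp, hpx⟩ := (s36n2k_isIntegral_adjoin_iff ψ t x).mp hx
  refine ⟨p.map (algebraMap ↥(Algebra.adjoin A₀ ({t} : Set F''))
    ↥(integralClosure ↥(Algebra.adjoin A₀ ({t} : Set F'')) F'')), hp.map _, ?_⟩
  rw [Polynomial.eval₂_map]
  exact hpx

end Bridge

section Psi

variable (A E : Type*) [CommRing A] [Field E] [Algebra A E]
  (M q : ℕ) [NeZero q] [NeZero M] [NeZero (M * q)] [NeZero (M * q * q)]
  [Algebra A (modularFunctionFieldFullC E M)]
  [IsScalarTower A E (modularFunctionFieldFullC E M)]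
  [Algebra A (modularFunctionFieldFullC E (M * q * q))]
  [IsScalarTower A E (modularFunctionFieldFullC E (M * q * q))]

/-- `ψ_a = α ∘ incl : F_M → F_{Mqq}` (the inclusion), as a homomorphism of `A`-algebras. -/
def s36n2kPsi : modularFunctionFieldFullC E M →ₐ[A] modularFunctionFieldFullC E (M * q * q) :=
  { (s36Alpha E M q).comp (nodesInstIncl E M q).toRingHom with
    commutes' := fun a => by
      rw [IsScalarTower.algebraMap_apply A E (modularFunctionFieldFullC E M),
        IsScalarTower.algebraMap_apply A E (modularFunctionFieldFullC E (M * q * q))]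
      apply Subtype.ext
      rfl }

theorem s36n2kPsi_apply (y : modularFunctionFieldFullC E M) :
    s36n2kPsi A E M q y = s36Alpha E M q (nodesInstIncl E M q y) := rfl

@[simp]
theorem s36n2kPsi_coe (y : modularFunctionFieldFullC E M) :
    ((s36n2kPsi A E M q y : modularFunctionFieldFullC E (M * q * q)) : LaurentSeries E) =
      (y : LaurentSeries E) := by
  rw [s36n2kPsi_apply, coe_s36Alpha, nodesInstIncl_coe]

theorem s36n2kPsi_bgJ : s36n2kPsi A E M q (bgJ E M) = bgJ E (M * q * q) :=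
  Subtype.ext (s36n2kPsi_coe A E M q _)

theorem s36n2kPsi_bgJ_inv : s36n2kPsi A E M q (bgJ E M)⁻¹ = (bgJ E (M * q * q))⁻¹ := by
  rw [map_inv₀, s36n2kPsi_bgJ]

end Psi

section Concrete

variable (K₀ : IntermediateField ℚ NfQb) {A₀ : Type} [CommRing A₀] [IsDomain A₀]
  [IsDiscreteValuationRing A₀] [Algebra A₀ K₀] [IsFractionRing A₀ K₀]
  {k : Type*} [Field k] (r : A₀ →+* k) {π : A₀} (ιC : K₀ →+* ℂ)
  {q M : ℕ} [NeZero q] [NeZero M] [NeZero (M * q)] [NeZero (M * q * q)]
  (hq : q.Prime) (hqM : ¬ q ∣ M)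
  [Algebra A₀ (modularFunctionFieldFullC K₀ M)]
  [IsScalarTower A₀ K₀ (modularFunctionFieldFullC K₀ M)]
  [Algebra A₀ (modularFunctionFieldFullC K₀ (M * q))]
  [IsScalarTower A₀ K₀ (modularFunctionFieldFullC K₀ (M * q))]
  [Algebra A₀ (modularFunctionFieldFullC K₀ (M * q * q))]
  [IsScalarTower A₀ K₀ (modularFunctionFieldFullC K₀ (M * q * q))]

include hq hqM ιC in
/-- **(F1-val)**: the residue field of `V` is that of `V″ = vtInf hB M`, for every valuation
subring `V` of `F_{Mqq}(K₀)` over `V′_∞` with the residue field of `V′_∞` (`V_a`, `V_c`). -/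
theorem s36n2k_hF_val [Fact q.Prime] [CharP k q] (hπ : Irreducible π)
    (hB : VtBase (algebraMap A₀ K₀) r π)
    (h : RegChart (E := K₀) π (bgJ K₀ M))
    (hVloc : ∀ x : modularFunctionFieldFullC K₀ (M * q), x ∈ vtInf hB (M * q) →
      ∃ b s : modularFunctionFieldFullC K₀ (M * q),
        IsIntegral ↥(Algebra.adjoin A₀
          ({bgJ K₀ (M * q)} : Set (modularFunctionFieldFullC K₀ (M * q)))) b ∧
        IsIntegral ↥(Algebra.adjoin A₀
          ({bgJ K₀ (M * q)} : Set (modularFunctionFieldFullC K₀ (M * q)))) s ∧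
        s ∉ (vtInf hB (M * q)).nonunits ∧ s * x = b)
    (V : ValuationSubring (modularFunctionFieldFullC K₀ (M * q * q)))
    (hcomap : V.comap (s36Alpha K₀ M q) = vtFam hB ιC hq hqM true)
    (hF : ∀ x ∈ V, ∃ c ∈ vtFam hB ιC hq hqM true, x - s36Alpha K₀ M q c ∈ V.nonunits) :
    (∀ y, y ∈ vtInf hB M ↔ s36n2kPsi A₀ K₀ M q y ∈ V) ∧
      ∀ x ∈ V, ∃ y ∈ vtInf hB M, x - s36n2kPsi A₀ K₀ M q y ∈ V.nonunits := by
  have hWV : ∀ z, z ∈ vtInf hB (M * q) ↔ s36Alpha K₀ M q z ∈ V := by
    intro z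
    rw [← vtFam_true hB ιC hq hqM, ← hcomap, ValuationSubring.mem_comap]
  have hF' : ∀ x ∈ V, ∃ c ∈ vtInf hB (M * q), x - s36Alpha K₀ M q c ∈ V.nonunits := hF
  refine ⟨fun y => (s36n2k_mem_vtInf_incl K₀ r hB (q := q) y).trans (hWV _), ?_⟩
  exact s36n2k_hF_chain (nodesInstIncl K₀ M q).toRingHom (s36Alpha K₀ M q) (vtInf hB M)
    (vtInf hB (M * q)) V hWV (s36n2k_B2 K₀ r ιC hq hqM hπ hB h hVloc) hF'

include hq hqM ιC in
/-- **(F1) on any chart `t` of level `M`** (reduction transcendental, `F″` algebraic over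
`A₀[t]`, `π` prime in the chart with normal quotient). -/
theorem s36n2k_F1_chart [Fact q.Prime] [CharP k q] (hπ : Irreducible π)
    (hB : VtBase (algebraMap A₀ K₀) r π)
    (h : RegChart (E := K₀) π (bgJ K₀ M))
    (hVloc : ∀ x : modularFunctionFieldFullC K₀ (M * q), x ∈ vtInf hB (M * q) →
      ∃ b s : modularFunctionFieldFullC K₀ (M * q),
        IsIntegral ↥(Algebra.adjoin A₀
          ({bgJ K₀ (M * q)} : Set (modularFunctionFieldFullC K₀ (M * q)))) b ∧
        IsIntegral ↥(Algebra.adjoin A₀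
          ({bgJ K₀ (M * q)} : Set (modularFunctionFieldFullC K₀ (M * q)))) s ∧
        s ∉ (vtInf hB (M * q)).nonunits ∧ s * x = b)
    (t : modularFunctionFieldFullC K₀ M)
    (ht : (t : LaurentSeries K₀) ∈ gaussRing (algebraMap A₀ K₀) r)
    (halg : ∀ x : modularFunctionFieldFullC K₀ M, IsAlgebraic (Algebra.adjoin A₀ {t}) x)
    (htr : Transcendental k (gaussRed r (IsFractionRing.injective A₀ K₀) ⟨_, ht⟩))
    (hprime : Prime (algebraMap A₀
      (integralClosure (Algebra.adjoin A₀ {t}) (modularFunctionFieldFullC K₀ M)) π))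
    (hicl : IsIntegrallyClosed
      (integralClosure (Algebra.adjoin A₀ {t}) (modularFunctionFieldFullC K₀ M) ⧸
        Ideal.span {algebraMap A₀
          (integralClosure (Algebra.adjoin A₀ {t}) (modularFunctionFieldFullC K₀ M)) π}))
    (V : ValuationSubring (modularFunctionFieldFullC K₀ (M * q * q)))
    (hcomap : V.comap (s36Alpha K₀ M q) = vtFam hB ιC hq hqM true)
    (hF : ∀ x ∈ V, ∃ c ∈ vtFam hB ιC hq hqM true, x - s36Alpha K₀ M q c ∈ V.nonunits)
    (b : modularFunctionFieldFullC K₀ (M * q * q)) (hbV : b ∈ V)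
    (hb : IsIntegral ↥(Algebra.adjoin A₀
      ({s36n2kPsi A₀ K₀ M q t} : Set (modularFunctionFieldFullC K₀ (M * q * q)))) b) :
    ∃ c : integralClosure (Algebra.adjoin A₀ {t}) (modularFunctionFieldFullC K₀ M),
      b - s36n2kPsi A₀ K₀ M q (c : modularFunctionFieldFullC K₀ M) ∈ V.nonunits := by
  obtain ⟨hVV, hFF⟩ := s36n2k_hF_val K₀ r ιC hq hqM hπ hB h hVloc V hcomap hF
  exact s36n2k_surj_chart hB M t ht halg htr hprime hicl
    (s36n2kPsi A₀ K₀ M q : modularFunctionFieldFullC K₀ M →+*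
      modularFunctionFieldFullC K₀ (M * q * q)) V hVV hFF b hbV
    (s36n2k_isIntegralElem_of_adjoin (s36n2kPsi A₀ K₀ M q) t b hb)

include hq hqM ιC in
/-- **(F1) on the chart `j`**, for `V_a`, `V_c`. -/
theorem s36n2k_F1_J [Fact q.Prime] [CharP k q] (hπ : Irreducible π)
    (hB : VtBase (algebraMap A₀ K₀) r π)
    (h : RegChart (E := K₀) π (bgJ K₀ M))
    (hVloc : ∀ x : modularFunctionFieldFullC K₀ (M * q), x ∈ vtInf hB (M * q) →
      ∃ b s : modularFunctionFieldFullC K₀ (M * q),
        IsIntegral ↥(Algebra.adjoin A₀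
          ({bgJ K₀ (M * q)} : Set (modularFunctionFieldFullC K₀ (M * q)))) b ∧
        IsIntegral ↥(Algebra.adjoin A₀
          ({bgJ K₀ (M * q)} : Set (modularFunctionFieldFullC K₀ (M * q)))) s ∧
        s ∉ (vtInf hB (M * q)).nonunits ∧ s * x = b)
    (V : ValuationSubring (modularFunctionFieldFullC K₀ (M * q * q)))
    (hcomap : V.comap (s36Alpha K₀ M q) = vtFam hB ιC hq hqM true)
    (hF : ∀ x ∈ V, ∃ c ∈ vtFam hB ιC hq hqM true, x - s36Alpha K₀ M q c ∈ V.nonunits)
    (b : modularFunctionFieldFullC K₀ (M * q * q)) (hbV : b ∈ V)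
    (hb : IsIntegral ↥(Algebra.adjoin A₀
      ({bgJ K₀ (M * q * q)} : Set (modularFunctionFieldFullC K₀ (M * q * q)))) b) :
    ∃ c : integralClosure (Algebra.adjoin A₀ {bgJ K₀ M}) (modularFunctionFieldFullC K₀ M),
      b - s36n2kPsi A₀ K₀ M q (c : modularFunctionFieldFullC K₀ M) ∈ V.nonunits := by
  have htr : Transcendental k (gaussRed r (IsFractionRing.injective A₀ K₀)
      ⟨_, nodesFinal_J_mem K₀ r (M := M)⟩) := by
    rw [nodesInst_red_J r M (bgJ K₀ M) rfl (nodesFinal_J_mem K₀ r)]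
    exact nodesFrobU_transcendental_j k
  rw [← s36n2kPsi_bgJ A₀ K₀ M q] at hb
  exact s36n2k_F1_chart K₀ r ιC hq hqM hπ hB h hVloc (bgJ K₀ M) (nodesFinal_J_mem K₀ r)
    (nodesInstAlg_halg_J A₀ M (bgJ K₀ M) rfl) htr h.prime h.icl V hcomap hF b hbV hb

include hq hqM ιC in
/-- **(F1) on the chart `1/j`**, for `V_a`, `V_c`. -/
theorem s36n2k_F1_Jinv [Fact q.Prime] [CharP k q] (hπ : Irreducible π)
    (hB : VtBase (algebraMap A₀ K₀) r π)
    (h : RegChart (E := K₀) π (bgJ K₀ M))
    (h' : RegChart (E := K₀) π (bgJ K₀ M)⁻¹)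
    (hVloc : ∀ x : modularFunctionFieldFullC K₀ (M * q), x ∈ vtInf hB (M * q) →
      ∃ b s : modularFunctionFieldFullC K₀ (M * q),
        IsIntegral ↥(Algebra.adjoin A₀
          ({bgJ K₀ (M * q)} : Set (modularFunctionFieldFullC K₀ (M * q)))) b ∧
        IsIntegral ↥(Algebra.adjoin A₀
          ({bgJ K₀ (M * q)} : Set (modularFunctionFieldFullC K₀ (M * q)))) s ∧
        s ∉ (vtInf hB (M * q)).nonunits ∧ s * x = b)
    (V : ValuationSubring (modularFunctionFieldFullC K₀ (M * q * q)))
    (hcomap : V.comap (s36Alpha K₀ M q) = vtFam hB ιC hq hqM true)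
    (hF : ∀ x ∈ V, ∃ c ∈ vtFam hB ιC hq hqM true, x - s36Alpha K₀ M q c ∈ V.nonunits)
    (b : modularFunctionFieldFullC K₀ (M * q * q)) (hbV : b ∈ V)
    (hb : IsIntegral ↥(Algebra.adjoin A₀
      ({(bgJ K₀ (M * q * q))⁻¹} : Set (modularFunctionFieldFullC K₀ (M * q * q)))) b) :
    ∃ c : integralClosure (Algebra.adjoin A₀ {(bgJ K₀ M)⁻¹}) (modularFunctionFieldFullC K₀ M),
      b - s36n2kPsi A₀ K₀ M q (c : modularFunctionFieldFullC K₀ M) ∈ V.nonunits := by
  have htj : (((bgJ K₀ M)⁻¹ : modularFunctionFieldFullC K₀ M) : LaurentSeries K₀) =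
      (jqModC K₀)⁻¹ := rfl
  have htr : Transcendental k (gaussRed r (IsFractionRing.injective A₀ K₀)
      ⟨_, nodesFinal_Jinv_mem K₀ r (M := M)⟩) := by
    rw [nodesInst_red_Jinv r M (bgJ K₀ M)⁻¹ htj (nodesFinal_Jinv_mem K₀ r)]
    exact nodesFrobU_transcendental_jinv k
  rw [← s36n2kPsi_bgJ_inv A₀ K₀ M q] at hb
  exact s36n2k_F1_chart K₀ r ιC hq hqM hπ hB h hVloc (bgJ K₀ M)⁻¹ (nodesFinal_Jinv_mem K₀ r)
    (nodesInstAlg_halg_Jinv A₀ M (bgJ K₀ M)⁻¹ htj) htr h'.prime h'.icl V hcomap hF b hbV hb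

end Concrete

end Fermat.Agent.S36
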