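import Fermat.Agent.S36.N2Ker
import Fermat.Agent.S36.PlanGeo
import Fermat.Agent.UNIP.MGVertLocMain

/-!
# S36 / N2-ker: modular instantiation of (K1) = `hKR` of `aq_main` at level `M q²`

Setting of `UNIP/MGVertInertia.lean`: `A` a valuation subring of `ℚ̄`, `K₀` an intermediate field
with `A ∩ K₀ = beta0Ring A K₀` a DVR with uniformizer `π`; `F′ = F_{Mq}(K₀)`, `F = F_{Mqq}(K₀)`,
charts `j = bgJ K₀ _`; `W = mgvV hπ ιC hq hqM` the two vertical valuations of `F′`;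
`V : κ → ValuationSubring F` ANY family (N2-val: `V_a, V_b, V_c`).

* `s36n2kAlphaA` : `α = s36Alpha` as an `A₀`-algebra homomorphism; `s36n2kAlphaA_bgJ`.
* `s36n2k_hKR_J` : **`hKR` on the chart `j`** of level `M q²` from (SS1) on the chart `j` of
  level `M q` (valuation form, = the hypothesis `hSS1` of `mgv_hVloc₁`) and (EXT) (= the output
  of `s36n2e_two_hom` / `s36n2e_one_hom` for `φ = s36Alpha`).
-/

set_option autoImplicit false
set_option linter.unusedSectionVars false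
set_option linter.style.haveILetI false

noncomputable section

namespace Fermat.Agent.S36

open ModularCurve AlgebraicCurve Fermat.Agent.ES Fermat.Agent.ES.G2 Fermat.Agent.INJ
open Fermat.Agent.UNIP Fermat.Agent.AL Polynomial

section Alpha

variable {A : ValuationSubring Qb} (K₀ : IntermediateField ℚ Qb)
  (M q : ℕ) [NeZero M] [NeZero q]

/-- `α = s36Alpha` as a homomorphism of `A₀`-algebras, `A₀ = A ∩ K₀`. -/
def s36n2kAlphaA (A : ValuationSubring Qb) :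
    ↥(modularFunctionFieldFullC ↥K₀ (M * q)) →ₐ[↥(beta0Ring A K₀)]
      ↥(modularFunctionFieldFullC ↥K₀ (M * q * q)) :=
  { s36Alpha ↥K₀ M q with
    commutes' := fun a => by
      apply Subtype.ext
      rfl }

@[simp]
theorem s36n2kAlphaA_apply (x : ↥(modularFunctionFieldFullC ↥K₀ (M * q))) :
    s36n2kAlphaA K₀ M q A x = s36Alpha ↥K₀ M q x := rfl

theorem s36n2kAlphaA_coe :
    ((s36n2kAlphaA K₀ M q A : ↥(modularFunctionFieldFullC ↥K₀ (M * q)) →ₐ[↥(beta0Ring A K₀)]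
      ↥(modularFunctionFieldFullC ↥K₀ (M * q * q))) :
      ↥(modularFunctionFieldFullC ↥K₀ (M * q)) →+* ↥(modularFunctionFieldFullC ↥K₀ (M * q * q)))
      = s36Alpha ↥K₀ M q := rfl

theorem s36n2kAlphaA_bgJ :
    s36n2kAlphaA K₀ M q A (bgJ ↥K₀ (M * q)) = bgJ ↥K₀ (M * q * q) := by
  apply Subtype.ext
  rfl

end Alpha

section KR

variable {A : ValuationSubring Qb} {K₀ : IntermediateField ℚ Qb}
  [IsDiscreteValuationRing ↥(beta0Ring A K₀)] {π : ↥(beta0Ring A K₀)} (hπ : Irreducible π)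
  (ιC : ↥K₀ →+* ℂ) {q M : ℕ} [NeZero q] [NeZero M] [NeZero (M * q)]
  (hq : q.Prime) (hqM : ¬ q ∣ M)

/-- **`hKR` on the chart `j` of level `M q²`**, for any family `V` of valuation subrings of
`F_{Mqq}(K₀)` satisfying (EXT) over the two vertical valuations of level `M q`. -/
theorem s36n2k_hKR_J {κ : Type*}
    (V : κ → ValuationSubring ↥(modularFunctionFieldFullC ↥K₀ (M * q * q)))
    (hSS1 : ∀ b : ↥(modularFunctionFieldFullC ↥K₀ (M * q)),
      IsIntegral ↥(Algebra.adjoin ↥(beta0Ring A K₀)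
        ({bgJ ↥K₀ (M * q)} : Set ↥(modularFunctionFieldFullC ↥K₀ (M * q)))) b →
      (∀ c, b ∈ (mgvV hπ ιC hq hqM c).nonunits) →
      ∃ b' : ↥(modularFunctionFieldFullC ↥K₀ (M * q)),
        IsIntegral ↥(Algebra.adjoin ↥(beta0Ring A K₀)
          ({bgJ ↥K₀ (M * q)} : Set ↥(modularFunctionFieldFullC ↥K₀ (M * q)))) b' ∧
        b = algebraMap ↥(beta0Ring A K₀) ↥(modularFunctionFieldFullC ↥K₀ (M * q)) π * b')
    (hEXT : ∀ (i : Bool) (x : ↥(modularFunctionFieldFullC ↥K₀ (M * q * q))),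
      (∀ c, x ∈ V c) →
      ∃ p : (↥(modularFunctionFieldFullC ↥K₀ (M * q)))[X], p.Monic ∧
        (∀ k, p.coeff k ∈ mgvV hπ ιC hq hqM i) ∧ p.eval₂ (s36Alpha ↥K₀ M q) x = 0)
    (x : ↥(modularFunctionFieldFullC ↥K₀ (M * q * q)))
    (hx : IsIntegral ↥(Algebra.adjoin ↥(beta0Ring A K₀)
        ({bgJ ↥K₀ (M * q * q)} : Set ↥(modularFunctionFieldFullC ↥K₀ (M * q * q))))
      (algebraMap ↥(beta0Ring A K₀) ↥(modularFunctionFieldFullC ↥K₀ (M * q * q)) π * x))
    (hV : ∀ c, x ∈ V c) :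
    IsIntegral ↥(Algebra.adjoin ↥(beta0Ring A K₀)
      ({bgJ ↥K₀ (M * q * q)} : Set ↥(modularFunctionFieldFullC ↥K₀ (M * q * q)))) x := by
  have hπ0 : algebraMap ↥(beta0Ring A K₀) ↥(modularFunctionFieldFullC ↥K₀ (M * q)) π ≠ 0 :=
    ei_algebraMap_ne_zero (E := ↥K₀) hπ
  have key := s36n2k_hKR (s36n2kAlphaA K₀ M q A) π (bgJ ↥K₀ (M * q)) (mgvV hπ ιC hq hqM) V
    hπ0 (mgv_hπV hπ ιC hq hqM) hSS1 hEXT x
  rw [s36n2kAlphaA_bgJ] at key
  exact key hx hV

end KR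

end Fermat.Agent.S36
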