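import Fermat.Agent.S36.SmallPart
import Fermat.Agent.S36.N2KerInst
import Fermat.Agent.S36.N2ExtXMain
import Fermat.Agent.UNIP.MGChartsBeta0Reg
import Fermat.Agent.STB.FrobReg

/-!
# S36 / (I2) CONCRETE: `hKR` of `s36tb_small` / `s36sp_small` at `V = s36i1V` (helper98)

* `s36sk_hKR` : the Krull property of the chart `j` of level `M q²` for the three vertical
  valuation rings, from helper99's `s36n2k_hKR_J`, (SS1) at level `M q` (`mgcb_reg_SS1_J`,
  `stb_regChart_conc_J`: needs `q = 2 → 3 ∣ M`, `q = 3 → 2 ∣ M`) and helper19's (EXT)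
  `s36n2x_hEXT_alpha`.
* `s36sk_small` : `StmtCarayolSmallAt M q p A` from (I4) `Winf W0 Dα Dβ` and (I6) `hpts` only.
-/

set_option autoImplicit false
set_option linter.style.haveILetI false
set_option linter.unusedSectionVars false
set_option linter.unusedVariables false
set_option linter.constructorNameAsVariable false

noncomputable section

namespace Fermat.Agent.S36

open ModularCurve AlgebraicCurve Fermat.Agent.ES Fermat.Agent.ES.G2 Fermat.Agent.INJ
open Fermat.Agent.UNIP Fermat.Agent.STB IntermediateField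

section KR

variable {q : ℕ} {A : ValuationSubring (AlgebraicClosure ℚ)} (M : ℕ) [NeZero M] [NeZero q]
  [IsDiscreteValuationRing ↥(beta0Ring A (beta0Field A))]
  {ζ : AlgebraicClosure ℚ}
  (hq : q.Prime) (hA : A.LiesOverPrime q) (hqM : ¬ q ∣ M) (hζ : IsPrimitiveRoot ζ q)
  (ιC : ↥(beta0Field A) →+* ℂ)
  (h : S36MidEmb ↥(s36n2bK A ζ) q M (s36i1ZK (A := A) hq hζ))

include hq in
theorem s36sk_natCast_ne_zero : ((q : ℕ) : ↥(beta0Ring A (s36n2bK A ζ))) ≠ 0 := by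
  intro h0
  have h1 := congrArg (fun z : ↥(beta0Ring A (s36n2bK A ζ)) =>
    ((z : ↥(s36n2bK A ζ)) : AlgebraicClosure ℚ)) h0
  simp only [s36n2b_natCast_coe] at h1
  have h2 : ((0 : ↥(beta0Ring A (s36n2bK A ζ)) ) : ↥(s36n2bK A ζ)) = 0 := rfl
  rw [h2] at h1
  exact hq.ne_zero (by exact_mod_cast h1)

/-- **(I2) `hKR`**, concrete. -/
theorem s36sk_hKR (h2 : q = 2 → 3 ∣ M) (h3 : q = 3 → 2 ∣ M) (ιK : ↥(s36n2bK A ζ) →+* ℂ)
    (x : ↥(modularFunctionFieldFullC ↥(beta0Field A) (M * q * q)))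
    (hx : IsIntegral ↥(Algebra.adjoin ↥(beta0Ring A (beta0Field A))
        {bgJ ↥(beta0Field A) (M * q * q)})
      (algebraMap ↥(beta0Ring A (beta0Field A))
        ↥(modularFunctionFieldFullC ↥(beta0Field A) (M * q * q))
        ((q : ℕ) : ↥(beta0Ring A (beta0Field A))) * x))
    (hV : ∀ c, x ∈ s36i1V M hq hA hqM hζ ιC h c) :
    IsIntegral ↥(Algebra.adjoin ↥(beta0Ring A (beta0Field A))
      {bgJ ↥(beta0Field A) (M * q * q)}) x := by
  have hπ : Irreducible ((q : ℕ) : ↥(beta0Ring A (beta0Field A))) :=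
    beta0Ring_irreducible_q hq hA
  obtain ⟨κ, -, hκ⟩ := s36n2b_compat (A := A) (ζ := ζ) hq hA
  refine s36n2k_hKR_J hπ ιC hq hqM (s36i1V M hq hA hqM hζ ιC h) ?_ ?_ x hx hV
  · exact mgcb_reg_SS1_J (K₀ := beta0Field A) hπ ιC hq hqM hA
      (stb_regChart_conc_J M hq hA le_rfl hπ hqM h2 h3)
  · intro i y hy
    exact s36n2x_hEXT_alpha (vtBase_residue hπ) (s36n2b_vtBase hq hA hζ)
      (IntermediateField.inclusion (s36n2b_le_K A ζ)).toRingHom ιC ιK hq hqM h
      (s36i1Z hq hζ) rfl hκ (s36n2bZeta_isPrimitiveRoot hq hζ) (s36n2b_residue_zeta hq hA hζ)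
      (s36sk_natCast_ne_zero hq) (v := 1) (by rw [map_one]; exact one_ne_zero)
      (by rw [mul_one]) i y hy

/-- **`StmtCarayolSmallAt`** from (I4) and (I6) only. -/
theorem s36sk_small {p : ℕ} (hp : p.Prime) (hpq : p ≠ q)
    (h2 : q = 2 → 3 ∣ M) (h3 : q = 3 → 2 ∣ M)
    (ιK : ↥(s36n2bK A ζ) →+* ℂ)
    -- (I4)
    (Winf W0 : ValuationSubring ↥(modularFunctionFieldFullC ↥(beta0Field A) (M * q)))
    (Dα : NgDir (s36Alpha ↥(beta0Field A) M q) (s36NormAlpha ↥(beta0Field A) M q) Winf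
      (s36i1V M hq hA hqM hζ ιC h S36Comp.a) (s36i1V M hq hA hqM hζ ιC h S36Comp.c)
      (s36i1V M hq hA hqM hζ ιC h S36Comp.b) (q - 1) q)
    (Dβ : NgDir (s36Beta ↥(beta0Field A) M q) (s36NormBeta ↥(beta0Field A) M q) W0
      (s36i1V M hq hA hqM hζ ιC h S36Comp.b) (s36i1V M hq hA hqM hζ ιC h S36Comp.c)
      (s36i1V M hq hA hqM hζ ιC h S36Comp.a) (q - 1) q)
    -- (I6)
    (hpts : ∀ (r : ℕ) (ζm : ↥(beta0Ring A (beta0Field A))), IsPrimitiveRoot ζm (p ^ r) →
      ∀ i : AtPt (F := ↥(modularFunctionFieldFullC ↥(beta0Field A) (M * q * q)))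
          ((q : ℕ) : ↥(beta0Ring A (beta0Field A))) (bgJ ↥(beta0Field A) (M * q * q)) ⊕
        AtPt (F := ↥(modularFunctionFieldFullC ↥(beta0Field A) (M * q * q)))
          ((q : ℕ) : ↥(beta0Ring A (beta0Field A))) (bgJ ↥(beta0Field A) (M * q * q))⁻¹,
      @S36PtInput ↥(modularFunctionFieldFullC ↥(beta0Field A) (M * q))
        ↥(modularFunctionFieldFullC ↥(beta0Field A) (M * q * q)) _ _ S36Comp
        (s36Hor ↥(beta0Field A) (p ^ r)) (p ^ r)
        (s36Alpha ↥(beta0Field A) M q) (s36Beta ↥(beta0Field A) M q)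
        (s36NormAlpha ↥(beta0Field A) M q) (s36NormBeta ↥(beta0Field A) M q)
        (algebraMap ↥(beta0Field A) ↥(modularFunctionFieldFullC ↥(beta0Field A) (M * q))
          (algebraMap ↥(beta0Ring A (beta0Field A)) ↥(beta0Field A) ζm))
        (s36i1V M hq hA hqM hζ ιC h) S36Comp.a S36Comp.b S36Comp.c
        (atO ((q : ℕ) : ↥(beta0Ring A (beta0Field A))) (bgJ ↥(beta0Field A) (M * q * q)) i)
        (stb_atO_isLocalRing (π := ((q : ℕ) : ↥(beta0Ring A (beta0Field A))))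
          (bgJ ↥(beta0Field A) (M * q * q)) i)
        (atInc ((q : ℕ) : ↥(beta0Ring A (beta0Field A))) (bgJ ↥(beta0Field A) (M * q * q))
          (s36i1V M hq hA hqM hζ ιC h) i)) :
    StmtCarayolSmallAt M q p A :=
  s36sp_small M hq hA hqM hζ ιC h hp hpq ιK (s36sk_hKR M hq hA hqM hζ ιC h h2 h3 ιK)
    Winf W0 Dα Dβ hpts

end KR

end Fermat.Agent.S36

end
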