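import Fermat.Agent.S36.N2KerF1b
import Fermat.Agent.S36.SmallKR

/-!
# S36 / N2-ker (K2): (F1) at the concrete family `V = s36i1V`

Setting of `S36/SmallPart.lean` / `S36/SmallKR.lean`: `A ∣ q` a valuation subring of `ℚ̄`,
`E₀ = beta0Field A`, `A₀ = beta0Ring A E₀` (a DVR with uniformizer `q`),
`V = s36i1V M hq hA hqM hζ ιC h`, charts `j`, `1/j` of level `M q²` (`B`) and of level `M` (`C`).

* `s36n2kv_reg`, `s36n2kv_reg_inv` : `RegChart` at level `M` (needs `q = 2 → 3 ∣ M`,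
  `q = 3 → 2 ∣ M`);
* `s36n2kv_hVloc` : `V′_∞` is the localisation of the chart `j` of level `M q`;
* `s36n2kv_F1_a`, `s36n2kv_F1_b`, `s36n2kv_F1_c` : **(F1)** on the chart `j` for
  `(V_a, g_a)`, `(V_b, g_b)`, `(V_c, g_a)`;
* `s36n2kv_F1_a_inv`, `s36n2kv_F1_c_inv` : **(F1)** on the chart `1/j` for `(V_a, g_a)`,
  `(V_c, g_a)`.
-/

set_option autoImplicit false
set_option linter.style.haveILetI false
set_option linter.unusedSectionVars false
set_option linter.unusedVariables false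
set_option linter.style.longLine false
set_option linter.constructorNameAsVariable false
set_option synthInstance.maxHeartbeats 400000
set_option maxHeartbeats 1000000

noncomputable section

namespace Fermat.Agent.S36

open ModularCurve AlgebraicCurve Fermat.Agent.ES Fermat.Agent.ES.G2 Fermat.Agent.INJ
open Fermat.Agent.UNIP Fermat.Agent.STB IntermediateField

section F1V

variable {q : ℕ} {A : ValuationSubring (AlgebraicClosure ℚ)} (M : ℕ) [NeZero M] [NeZero q]
  [IsDiscreteValuationRing ↥(beta0Ring A (beta0Field A))]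
  {ζ : AlgebraicClosure ℚ}
  (hq : q.Prime) (hA : A.LiesOverPrime q) (hqM : ¬ q ∣ M) (hζ : IsPrimitiveRoot ζ q)
  (ιC : ↥(beta0Field A) →+* ℂ)
  (h : S36MidEmb ↥(s36n2bK A ζ) q M (s36i1ZK (A := A) hq hζ))

include hq hA hqM in
/-- `RegChart` for the chart `j` of level `M`. -/
theorem s36n2kv_reg (h2 : q = 2 → 3 ∣ M) (h3 : q = 3 → 2 ∣ M) :
    RegChart (E := ↥(beta0Field A)) ((q : ℕ) : ↥(beta0Ring A (beta0Field A)))
      (bgJ ↥(beta0Field A) M) :=
  stb_regChart_conc_J M hq hA le_rfl (beta0Ring_irreducible_q hq hA) hqM h2 h3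

include hq hA hqM in
/-- `RegChart` for the chart `1/j` of level `M`. -/
theorem s36n2kv_reg_inv (h2 : q = 2 → 3 ∣ M) (h3 : q = 3 → 2 ∣ M) :
    RegChart (E := ↥(beta0Field A)) ((q : ℕ) : ↥(beta0Ring A (beta0Field A)))
      (bgJ ↥(beta0Field A) M)⁻¹ :=
  stb_regChart_conc_Jinv M hq hA le_rfl (beta0Ring_irreducible_q hq hA) hqM h2 h3

include hA hqM ιC in
/-- `V′_∞` is the localisation of the chart `j` of level `M q`. -/
theorem s36n2kv_hVloc (h2 : q = 2 → 3 ∣ M) (h3 : q = 3 → 2 ∣ M)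
    (x : ↥(modularFunctionFieldFullC ↥(beta0Field A) (M * q)))
    (hx : x ∈ vtInf (vtBase_residue (beta0Ring_irreducible_q hq hA)) (M * q)) :
    ∃ b s : ↥(modularFunctionFieldFullC ↥(beta0Field A) (M * q)),
      IsIntegral ↥(Algebra.adjoin ↥(beta0Ring A (beta0Field A))
        ({bgJ ↥(beta0Field A) (M * q)} :
          Set ↥(modularFunctionFieldFullC ↥(beta0Field A) (M * q)))) b ∧
      IsIntegral ↥(Algebra.adjoin ↥(beta0Ring A (beta0Field A))
        ({bgJ ↥(beta0Field A) (M * q)} :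
          Set ↥(modularFunctionFieldFullC ↥(beta0Field A) (M * q)))) s ∧
      s ∉ (vtInf (vtBase_residue (beta0Ring_irreducible_q hq hA)) (M * q)).nonunits ∧
      s * x = b :=
  mgv_hVloc₁ (K₀ := beta0Field A) (beta0Ring_irreducible_q hq hA) ιC hq hqM hA
    (mgcb_reg_SS1_J (K₀ := beta0Field A) (beta0Ring_irreducible_q hq hA) ιC hq hqM hA
      (s36n2kv_reg M hq hA hqM h2 h3)) true x hx

/-- **(F1) for `(V_a, g_a)`**, chart `j`. -/
theorem s36n2kv_F1_a (h2 : q = 2 → 3 ∣ M) (h3 : q = 3 → 2 ∣ M) (ιK : ↥(s36n2bK A ζ) →+* ℂ)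
    (b : ↥(integralClosure ↥(Algebra.adjoin ↥(beta0Ring A (beta0Field A))
      ({bgJ ↥(beta0Field A) (M * q * q)} :
        Set ↥(modularFunctionFieldFullC ↥(beta0Field A) (M * q * q))))
        ↥(modularFunctionFieldFullC ↥(beta0Field A) (M * q * q)))) :
    ∃ c : ↥(integralClosure ↥(Algebra.adjoin ↥(beta0Ring A (beta0Field A))
        ({bgJ ↥(beta0Field A) M} : Set ↥(modularFunctionFieldFullC ↥(beta0Field A) M)))
        ↥(modularFunctionFieldFullC ↥(beta0Field A) M)),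
      ((b - s36n2kGa ↥(beta0Ring A (beta0Field A)) ↥(beta0Field A) (M := M) (q := q) c :
        ↥(integralClosure ↥(Algebra.adjoin ↥(beta0Ring A (beta0Field A))
          ({bgJ ↥(beta0Field A) (M * q * q)} :
            Set ↥(modularFunctionFieldFullC ↥(beta0Field A) (M * q * q))))
          ↥(modularFunctionFieldFullC ↥(beta0Field A) (M * q * q)))) :
            ↥(modularFunctionFieldFullC ↥(beta0Field A) (M * q * q))) ∈
        (s36i1V M hq hA hqM hζ ιC h S36Comp.a).nonunits := by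
  have hπ : Irreducible ((q : ℕ) : ↥(beta0Ring A (beta0Field A))) :=
    beta0Ring_irreducible_q hq hA
  haveI : Fact q.Prime := ⟨hq⟩
  haveI : CharP (IsLocalRing.ResidueField ↥(beta0Ring A (beta0Field A))) q := mgvl_charP hq hA
  obtain ⟨κ, -, hκ⟩ := s36n2b_compat (A := A) (ζ := ζ) hq hA
  have hmain := s36n2x_alphaInf_main (vtBase_residue hπ) (s36n2b_vtBase hq hA hζ)
    (IntermediateField.inclusion (s36n2b_le_K A ζ)).toRingHom ιC ιK hq hqM h
    (s36i1Z hq hζ) rfl hκ (s36n2bZeta_isPrimitiveRoot hq hζ) (s36n2b_residue_zeta hq hA hζ)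
    (s36sk_natCast_ne_zero hq) (v := 1) (by rw [map_one]; exact one_ne_zero)
    (by rw [mul_one])
  exact s36n2k_F1_Ga (beta0Field A) (IsLocalRing.residue ↥(beta0Ring A (beta0Field A))) ιC hq hqM
    hπ (vtBase_residue hπ) (s36n2kv_reg M hq hA hqM h2 h3)
    (s36n2kv_hVloc M hq hA hqM ιC h2 h3)
    (s36n2VA (q := q) (M := M) (vtBase_residue hπ))
    (s36n2VA_comap_alpha (vtBase_residue hπ) ιC hq hqM) hmain.2.1
    (fun b hb => s36i1c_hBV₁ M hq hA hqM hζ ιC h S36Comp.a b hb) b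

/-- **(F1) for `(V_c, g_a)`**, chart `j`. -/
theorem s36n2kv_F1_c (h2 : q = 2 → 3 ∣ M) (h3 : q = 3 → 2 ∣ M) (ιK : ↥(s36n2bK A ζ) →+* ℂ)
    (b : ↥(integralClosure ↥(Algebra.adjoin ↥(beta0Ring A (beta0Field A))
      ({bgJ ↥(beta0Field A) (M * q * q)} :
        Set ↥(modularFunctionFieldFullC ↥(beta0Field A) (M * q * q))))
        ↥(modularFunctionFieldFullC ↥(beta0Field A) (M * q * q)))) :
    ∃ c : ↥(integralClosure ↥(Algebra.adjoin ↥(beta0Ring A (beta0Field A))
        ({bgJ ↥(beta0Field A) M} : Set ↥(modularFunctionFieldFullC ↥(beta0Field A) M)))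
        ↥(modularFunctionFieldFullC ↥(beta0Field A) M)),
      ((b - s36n2kGa ↥(beta0Ring A (beta0Field A)) ↥(beta0Field A) (M := M) (q := q) c :
        ↥(integralClosure ↥(Algebra.adjoin ↥(beta0Ring A (beta0Field A))
          ({bgJ ↥(beta0Field A) (M * q * q)} :
            Set ↥(modularFunctionFieldFullC ↥(beta0Field A) (M * q * q))))
          ↥(modularFunctionFieldFullC ↥(beta0Field A) (M * q * q)))) :
            ↥(modularFunctionFieldFullC ↥(beta0Field A) (M * q * q))) ∈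
        (s36i1V M hq hA hqM hζ ιC h S36Comp.c).nonunits := by
  have hπ : Irreducible ((q : ℕ) : ↥(beta0Ring A (beta0Field A))) :=
    beta0Ring_irreducible_q hq hA
  haveI : Fact q.Prime := ⟨hq⟩
  haveI : CharP (IsLocalRing.ResidueField ↥(beta0Ring A (beta0Field A))) q := mgvl_charP hq hA
  obtain ⟨κ, -, hκ⟩ := s36n2b_compat (A := A) (ζ := ζ) hq hA
  have hmain := s36n2x_alphaInf_main (vtBase_residue hπ) (s36n2b_vtBase hq hA hζ)
    (IntermediateField.inclusion (s36n2b_le_K A ζ)).toRingHom ιC ιK hq hqM h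
    (s36i1Z hq hζ) rfl hκ (s36n2bZeta_isPrimitiveRoot hq hζ) (s36n2b_residue_zeta hq hA hζ)
    (s36sk_natCast_ne_zero hq) (v := 1) (by rw [map_one]; exact one_ne_zero)
    (by rw [mul_one])
  exact s36n2k_F1_Ga (beta0Field A) (IsLocalRing.residue ↥(beta0Ring A (beta0Field A))) ιC hq hqM
    hπ (vtBase_residue hπ) (s36n2kv_reg M hq hA hqM h2 h3)
    (s36n2kv_hVloc M hq hA hqM ιC h2 h3)
    (s36n2VC (s36n2b_vtBase hq hA hζ)
      (IntermediateField.inclusion (s36n2b_le_K A ζ)).toRingHom hq h (s36i1Z hq hζ) rfl)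
    (s36n2VC_comap_alpha (vtBase_residue hπ) (s36n2b_vtBase hq hA hζ) hκ ιC hq hqM h
      (s36i1Z hq hζ) rfl) hmain.2.2.1
    (fun b hb => s36i1c_hBV₁ M hq hA hqM hζ ιC h S36Comp.c b hb) b

/-- **(F1) for `(V_b, g_b)`**, chart `j`. -/
theorem s36n2kv_F1_b (h2 : q = 2 → 3 ∣ M) (h3 : q = 3 → 2 ∣ M) (ιK : ↥(s36n2bK A ζ) →+* ℂ)
    (b : ↥(integralClosure ↥(Algebra.adjoin ↥(beta0Ring A (beta0Field A))
      ({bgJ ↥(beta0Field A) (M * q * q)} :
        Set ↥(modularFunctionFieldFullC ↥(beta0Field A) (M * q * q))))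
        ↥(modularFunctionFieldFullC ↥(beta0Field A) (M * q * q)))) :
    ∃ c : ↥(integralClosure ↥(Algebra.adjoin ↥(beta0Ring A (beta0Field A))
        ({bgJ ↥(beta0Field A) M} : Set ↥(modularFunctionFieldFullC ↥(beta0Field A) M)))
        ↥(modularFunctionFieldFullC ↥(beta0Field A) M)),
      ((b - s36n2kGb ↥(beta0Ring A (beta0Field A)) ↥(beta0Field A) ιC hq hqM c :
        ↥(integralClosure ↥(Algebra.adjoin ↥(beta0Ring A (beta0Field A))
          ({bgJ ↥(beta0Field A) (M * q * q)} :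
            Set ↥(modularFunctionFieldFullC ↥(beta0Field A) (M * q * q))))
          ↥(modularFunctionFieldFullC ↥(beta0Field A) (M * q * q)))) :
            ↥(modularFunctionFieldFullC ↥(beta0Field A) (M * q * q))) ∈
        (s36i1V M hq hA hqM hζ ιC h S36Comp.b).nonunits := by
  have hπ : Irreducible ((q : ℕ) : ↥(beta0Ring A (beta0Field A))) :=
    beta0Ring_irreducible_q hq hA
  haveI : Fact q.Prime := ⟨hq⟩
  haveI : CharP (IsLocalRing.ResidueField ↥(beta0Ring A (beta0Field A))) q := mgvl_charP hq hA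
  obtain ⟨κ, -, hκ⟩ := s36n2b_compat (A := A) (ζ := ζ) hq hA
  have hmain := s36n2x_alphaInf_main (vtBase_residue hπ) (s36n2b_vtBase hq hA hζ)
    (IntermediateField.inclusion (s36n2b_le_K A ζ)).toRingHom ιC ιK hq hqM h
    (s36i1Z hq hζ) rfl hκ (s36n2bZeta_isPrimitiveRoot hq hζ) (s36n2b_residue_zeta hq hA hζ)
    (s36sk_natCast_ne_zero hq) (v := 1) (by rw [map_one]; exact one_ne_zero)
    (by rw [mul_one])
  exact s36n2k_F1_Gb (beta0Field A) (IsLocalRing.residue ↥(beta0Ring A (beta0Field A))) ιC hq hqM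
    hπ (vtBase_residue hπ) (s36n2kv_reg M hq hA hqM h2 h3)
    (s36n2kv_hVloc M hq hA hqM ιC h2 h3)
    (s36n2VA (q := q) (M := M) (vtBase_residue hπ))
    (s36n2VA_comap_alpha (vtBase_residue hπ) ιC hq hqM) hmain.2.1
    (fun b hb => s36i1c_hBV₁ M hq hA hqM hζ ιC h S36Comp.a b hb) b

/-- **(F1) for `(V_a, g_a)`**, chart `1/j`. -/
theorem s36n2kv_F1_a_inv (h2 : q = 2 → 3 ∣ M) (h3 : q = 3 → 2 ∣ M)
    (ιK : ↥(s36n2bK A ζ) →+* ℂ)
    (b : ↥(integralClosure ↥(Algebra.adjoin ↥(beta0Ring A (beta0Field A))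
      ({(bgJ ↥(beta0Field A) (M * q * q))⁻¹} :
        Set ↥(modularFunctionFieldFullC ↥(beta0Field A) (M * q * q))))
        ↥(modularFunctionFieldFullC ↥(beta0Field A) (M * q * q)))) :
    ∃ c : ↥(integralClosure ↥(Algebra.adjoin ↥(beta0Ring A (beta0Field A))
        ({(bgJ ↥(beta0Field A) M)⁻¹} : Set ↥(modularFunctionFieldFullC ↥(beta0Field A) M)))
        ↥(modularFunctionFieldFullC ↥(beta0Field A) M)),
      ((b - s36n2kGaInv ↥(beta0Ring A (beta0Field A)) ↥(beta0Field A) (M := M) (q := q) c :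
        ↥(integralClosure ↥(Algebra.adjoin ↥(beta0Ring A (beta0Field A))
          ({(bgJ ↥(beta0Field A) (M * q * q))⁻¹} :
            Set ↥(modularFunctionFieldFullC ↥(beta0Field A) (M * q * q))))
          ↥(modularFunctionFieldFullC ↥(beta0Field A) (M * q * q)))) :
            ↥(modularFunctionFieldFullC ↥(beta0Field A) (M * q * q))) ∈
        (s36i1V M hq hA hqM hζ ιC h S36Comp.a).nonunits := by
  have hπ : Irreducible ((q : ℕ) : ↥(beta0Ring A (beta0Field A))) :=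
    beta0Ring_irreducible_q hq hA
  haveI : Fact q.Prime := ⟨hq⟩
  haveI : CharP (IsLocalRing.ResidueField ↥(beta0Ring A (beta0Field A))) q := mgvl_charP hq hA
  obtain ⟨κ, -, hκ⟩ := s36n2b_compat (A := A) (ζ := ζ) hq hA
  have hmain := s36n2x_alphaInf_main (vtBase_residue hπ) (s36n2b_vtBase hq hA hζ)
    (IntermediateField.inclusion (s36n2b_le_K A ζ)).toRingHom ιC ιK hq hqM h
    (s36i1Z hq hζ) rfl hκ (s36n2bZeta_isPrimitiveRoot hq hζ) (s36n2b_residue_zeta hq hA hζ)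
    (s36sk_natCast_ne_zero hq) (v := 1) (by rw [map_one]; exact one_ne_zero)
    (by rw [mul_one])
  exact s36n2k_F1_GaInv (beta0Field A) (IsLocalRing.residue ↥(beta0Ring A (beta0Field A))) ιC
    hq hqM hπ (vtBase_residue hπ) (s36n2kv_reg M hq hA hqM h2 h3)
    (s36n2kv_reg_inv M hq hA hqM h2 h3)
    (s36n2kv_hVloc M hq hA hqM ιC h2 h3)
    (s36n2VA (q := q) (M := M) (vtBase_residue hπ))
    (s36n2VA_comap_alpha (vtBase_residue hπ) ιC hq hqM) hmain.2.1
    (fun b hb => s36i1c_hBV₂ M hq hA hqM hζ ιC h S36Comp.a b hb) b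

/-- **(F1) for `(V_c, g_a)`**, chart `1/j`. -/
theorem s36n2kv_F1_c_inv (h2 : q = 2 → 3 ∣ M) (h3 : q = 3 → 2 ∣ M)
    (ιK : ↥(s36n2bK A ζ) →+* ℂ)
    (b : ↥(integralClosure ↥(Algebra.adjoin ↥(beta0Ring A (beta0Field A))
      ({(bgJ ↥(beta0Field A) (M * q * q))⁻¹} :
        Set ↥(modularFunctionFieldFullC ↥(beta0Field A) (M * q * q))))
        ↥(modularFunctionFieldFullC ↥(beta0Field A) (M * q * q)))) :
    ∃ c : ↥(integralClosure ↥(Algebra.adjoin ↥(beta0Ring A (beta0Field A))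
        ({(bgJ ↥(beta0Field A) M)⁻¹} : Set ↥(modularFunctionFieldFullC ↥(beta0Field A) M)))
        ↥(modularFunctionFieldFullC ↥(beta0Field A) M)),
      ((b - s36n2kGaInv ↥(beta0Ring A (beta0Field A)) ↥(beta0Field A) (M := M) (q := q) c :
        ↥(integralClosure ↥(Algebra.adjoin ↥(beta0Ring A (beta0Field A))
          ({(bgJ ↥(beta0Field A) (M * q * q))⁻¹} :
            Set ↥(modularFunctionFieldFullC ↥(beta0Field A) (M * q * q))))
          ↥(modularFunctionFieldFullC ↥(beta0Field A) (M * q * q)))) :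
            ↥(modularFunctionFieldFullC ↥(beta0Field A) (M * q * q))) ∈
        (s36i1V M hq hA hqM hζ ιC h S36Comp.c).nonunits := by
  have hπ : Irreducible ((q : ℕ) : ↥(beta0Ring A (beta0Field A))) :=
    beta0Ring_irreducible_q hq hA
  haveI : Fact q.Prime := ⟨hq⟩
  haveI : CharP (IsLocalRing.ResidueField ↥(beta0Ring A (beta0Field A))) q := mgvl_charP hq hA
  obtain ⟨κ, -, hκ⟩ := s36n2b_compat (A := A) (ζ := ζ) hq hA
  have hmain := s36n2x_alphaInf_main (vtBase_residue hπ) (s36n2b_vtBase hq hA hζ)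
    (IntermediateField.inclusion (s36n2b_le_K A ζ)).toRingHom ιC ιK hq hqM h
    (s36i1Z hq hζ) rfl hκ (s36n2bZeta_isPrimitiveRoot hq hζ) (s36n2b_residue_zeta hq hA hζ)
    (s36sk_natCast_ne_zero hq) (v := 1) (by rw [map_one]; exact one_ne_zero)
    (by rw [mul_one])
  exact s36n2k_F1_GaInv (beta0Field A) (IsLocalRing.residue ↥(beta0Ring A (beta0Field A))) ιC
    hq hqM hπ (vtBase_residue hπ) (s36n2kv_reg M hq hA hqM h2 h3)
    (s36n2kv_reg_inv M hq hA hqM h2 h3)
    (s36n2kv_hVloc M hq hA hqM ιC h2 h3)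
    (s36n2VC (s36n2b_vtBase hq hA hζ)
      (IntermediateField.inclusion (s36n2b_le_K A ζ)).toRingHom hq h (s36i1Z hq hζ) rfl)
    (s36n2VC_comap_alpha (vtBase_residue hπ) (s36n2b_vtBase hq hA hζ) hκ ιC hq hqM h
      (s36i1Z hq hζ) rfl) hmain.2.2.1
    (fun b hb => s36i1c_hBV₂ M hq hA hqM hζ ιC h S36Comp.c b hb) b

end F1V

end Fermat.Agent.S36
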