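/-
S36 (Carayol at `q² ∥ M`), geometry, piece N2-loc (helper91): the level-`q²` twin of `hVloc`
(UNIP MG-8 part 3), ABSTRACT part.

Chart setting of `S36/AbstractQ.lean`: `A₀` a DVR with uniformizer `π`, `E = Frac A₀`,
`F / E(u)` finite, `B_u` the integral closure of `A₀[u]` in `F`, `V : κ → ValuationSubring F`
the vertical valuation rings (`κ` finite; at level `M q²` the three components `a`, `b`, `c`).
The special fibre need not be reduced: only the Krull property (KR) is used.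

* `s36n2l_hVloc_abs` : if primitive polynomials in `u` are units of `V c` and there is a
  separating element `z ∈ B_u`, `z ∉ 𝔪(V c)`, `z ∈ 𝔪(V c')` for all `c' ≠ c`, then `V c` is the
  localisation of the chart at `𝔪(V c) ∩ B_u`: every `x ∈ V c` is `b / s` with `b, s ∈ B_u`,
  `s ∉ 𝔪(V c)`.
  Proof: `π ^ k · s₁ · x ∈ B_u` with `s₁` primitive (denominators); `z ^ N · s₁ · x ∈ ⋂ V c'` for
  `N` large (archimedean), and `π ^ k · (z ^ N s₁ x) ∈ B_u`, so `z ^ N s₁ x ∈ B_u` by (KR) `k`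
  times.  `s := z ^ N s₁`.
* `s36n2l_hVloc_all` : the same for all `c` at once (shape of `hVloc` in STB / UNIP).
* `s36n2l_sep_mul`   : separating elements from elements vanishing on exactly one component.
-/
import Fermat.Agent.S36.AbstractQ
import Fermat.Agent.UNIP.Adapter

set_option autoImplicit false
set_option linter.unusedSectionVars false
set_option linter.unusedVariables false
set_option linter.style.haveILetI false

namespace Fermat.Agent.S36

open Polynomial IntermediateField Fermat.Agent.INJ AlgebraicCurve Fermat.Agent.UNIP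

section Val

variable {F : Type*} [Field F]

theorem s36n2l_val_eq_one (W : ValuationSubring F) {a : F} (ha : a ∈ W)
    (ha' : a ∉ W.nonunits) : W.valuation a = 1 := by
  rw [ValuationSubring.mem_nonunits_iff, not_lt] at ha'
  exact le_antisymm ((W.valuation_le_one_iff a).mpr ha) ha'

theorem s36n2l_not_mem_nonunits_of_val (W : ValuationSubring F) {a : F}
    (ha : W.valuation a = 1) : a ∉ W.nonunits := by
  rw [ValuationSubring.mem_nonunits_iff, ha]
  exact lt_irrefl _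

theorem s36n2l_not_mem_nonunits_mul (W : ValuationSubring F) {a b : F} (ha : a ∈ W)
    (ha' : a ∉ W.nonunits) (hb : b ∈ W) (hb' : b ∉ W.nonunits) : a * b ∉ W.nonunits := by
  apply s36n2l_not_mem_nonunits_of_val
  rw [map_mul, s36n2l_val_eq_one W ha ha', s36n2l_val_eq_one W hb hb', one_mul]

theorem s36n2l_not_mem_nonunits_pow (W : ValuationSubring F) {a : F} (ha : a ∈ W)
    (ha' : a ∉ W.nonunits) (n : ℕ) : a ^ n ∉ W.nonunits := by
  apply s36n2l_not_mem_nonunits_of_val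
  rw [map_pow, s36n2l_val_eq_one W ha ha', one_pow]

theorem s36n2l_mul_mem_nonunits_left (W : ValuationSubring F) {a b : F} (ha : a ∈ W.nonunits)
    (hb : b ∈ W) : a * b ∈ W.nonunits := by
  rw [ValuationSubring.mem_nonunits_iff] at ha ⊢
  rw [map_mul]
  exact mul_lt_one_of_nonneg_of_lt_one_left zero_le ha ((W.valuation_le_one_iff b).mpr hb)

theorem s36n2l_mul_mem_nonunits_right (W : ValuationSubring F) {a b : F} (ha : a ∈ W)
    (hb : b ∈ W.nonunits) : a * b ∈ W.nonunits := by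
  rw [mul_comm]
  exact s36n2l_mul_mem_nonunits_left W hb ha

end Val

section Abstract

variable {A₀ E F : Type*} [CommRing A₀] [IsDomain A₀] [IsDiscreteValuationRing A₀]
  [Field E] [Algebra A₀ E] [IsFractionRing A₀ E] [CharZero E]
  [Field F] [Algebra E F] [Algebra A₀ F] [IsScalarTower A₀ E F]
  {π : A₀} {u : F} {κ : Type*}

/-- A uniform exponent: `z ^ N · x ∈ V c'` for all `c'`, if `z ∈ 𝔪(V c')` for `c' ≠ c` and
`z, x ∈ V c`. -/
theorem s36n2l_exists_pow_mul_mem [Finite κ] (V : κ → ValuationSubring F)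
    (harch : ∀ c (a x : F), a ∈ (V c).nonunits → ∃ N : ℕ, a ^ N * x ∈ (V c).nonunits)
    (c : κ) {z : F} (hzV : ∀ c', z ∈ V c')
    (hz : ∀ c', c' ≠ c → z ∈ (V c').nonunits) {x : F} (hx : x ∈ V c) :
    ∃ N : ℕ, ∀ c', z ^ N * x ∈ V c' := by
  classical
  haveI := Fintype.ofFinite κ
  have h : ∀ c', ∃ N : ℕ, c' ≠ c → z ^ N * x ∈ (V c').nonunits := by
    intro c'
    by_cases hc : c' = c
    · exact ⟨0, fun h => absurd hc h⟩
    · obtain ⟨N, hN⟩ := harch c' z x (hz c' hc)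
      exact ⟨N, fun _ => hN⟩
  choose N hN using h
  refine ⟨∑ c', N c', fun c' => ?_⟩
  by_cases hc : c' = c
  · subst hc
    exact (V c').mul_mem _ _ ((V c').pow_mem (hzV c') _) hx
  · have hle : N c' ≤ ∑ c'', N c'' :=
      Finset.single_le_sum (f := N) (fun _ _ => Nat.zero_le _) (Finset.mem_univ c')
    obtain ⟨d, hd⟩ := Nat.exists_eq_add_of_le hle
    have e : z ^ (∑ c'', N c'') * x = z ^ d * (z ^ N c' * x) := by
      rw [hd, pow_add]
      ring
    rw [e]
    exact (V c').mul_mem _ _ ((V c').pow_mem (hzV c') _) ((V c').nonunits_subset (hN c' hc))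

/-- **hVloc at one component, abstract.**  From (KR), the archimedean property, units
`hprim` and a separating element `hz`. -/
theorem s36n2l_hVloc_abs [Finite κ] (hu : Transcendental E u) (hπ : Irreducible π)
    [FiniteDimensional E⟮u⟯ F] (V : κ → ValuationSubring F)
    (hBV : ∀ c (b : F), IsIntegral ↥(Algebra.adjoin A₀ {u}) b → b ∈ V c)
    (hKR : ∀ x : F, IsIntegral ↥(Algebra.adjoin A₀ {u}) (algebraMap A₀ F π * x) →
      (∀ c, x ∈ V c) → IsIntegral ↥(Algebra.adjoin A₀ {u}) x)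
    (harch : ∀ c (a x : F), a ∈ (V c).nonunits → ∃ N : ℕ, a ^ N * x ∈ (V c).nonunits)
    (c : κ) (hprim : ∀ s : F, EIPrimeTo π u s → s ∉ (V c).nonunits)
    (hz : ∃ z : F, IsIntegral ↥(Algebra.adjoin A₀ {u}) z ∧ z ∉ (V c).nonunits ∧
      ∀ c', c' ≠ c → z ∈ (V c').nonunits)
    (x : F) (hx : x ∈ V c) :
    ∃ b s : F, IsIntegral ↥(Algebra.adjoin A₀ {u}) b ∧
      IsIntegral ↥(Algebra.adjoin A₀ {u}) s ∧ s ∉ (V c).nonunits ∧ s * x = b := by
  obtain ⟨k, s₁, hs₁, hint⟩ := ad_exists_primeTo_pow_mul_isIntegral (E := E) hu hπ x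
  have hs₁int : IsIntegral ↥(Algebra.adjoin A₀ {u}) s₁ :=
    isIntegral_algebraMap (R := ↥(Algebra.adjoin A₀ {u})) (x := ⟨s₁, hs₁.1⟩)
  obtain ⟨z, hzint, hzc, hzc'⟩ := hz
  have hzV : ∀ c', z ∈ V c' := fun c' => hBV c' z hzint
  have hs₁V : s₁ ∈ V c := hBV c s₁ hs₁int
  have hx' : s₁ * x ∈ V c := (V c).mul_mem _ _ hs₁V hx
  obtain ⟨N, hN⟩ := s36n2l_exists_pow_mul_mem V harch c hzV hzc' hx'
  have hb : IsIntegral ↥(Algebra.adjoin A₀ {u}) (z ^ N * (s₁ * x)) := by
    refine aq_KR_pow V hBV hKR hN k ?_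
    have e : algebraMap A₀ F π ^ k * (z ^ N * (s₁ * x))
        = z ^ N * (algebraMap A₀ F π ^ k * s₁ * x) := by ring
    rw [e]
    exact (hzint.pow N).mul hint
  refine ⟨z ^ N * (s₁ * x), z ^ N * s₁, hb, (hzint.pow N).mul hs₁int, ?_, by ring⟩
  exact s36n2l_not_mem_nonunits_mul _ ((V c).pow_mem (hzV c) N)
    (s36n2l_not_mem_nonunits_pow _ (hzV c) hzc N) hs₁V (hprim s₁ hs₁)

/-- **hVloc, abstract, all components** (the shape of `hVloc` in STB / UNIP). -/
theorem s36n2l_hVloc_all [Finite κ] (hu : Transcendental E u) (hπ : Irreducible π)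
    [FiniteDimensional E⟮u⟯ F] (V : κ → ValuationSubring F)
    (hBV : ∀ c (b : F), IsIntegral ↥(Algebra.adjoin A₀ {u}) b → b ∈ V c)
    (hKR : ∀ x : F, IsIntegral ↥(Algebra.adjoin A₀ {u}) (algebraMap A₀ F π * x) →
      (∀ c, x ∈ V c) → IsIntegral ↥(Algebra.adjoin A₀ {u}) x)
    (harch : ∀ c (a x : F), a ∈ (V c).nonunits → ∃ N : ℕ, a ^ N * x ∈ (V c).nonunits)
    (hprim : ∀ c (s : F), EIPrimeTo π u s → s ∉ (V c).nonunits)
    (hz : ∀ c, ∃ z : F, IsIntegral ↥(Algebra.adjoin A₀ {u}) z ∧ z ∉ (V c).nonunits ∧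
      ∀ c', c' ≠ c → z ∈ (V c').nonunits) :
    ∀ c (x : F), x ∈ V c → ∃ b s : F, IsIntegral ↥(Algebra.adjoin A₀ {u}) b ∧
      IsIntegral ↥(Algebra.adjoin A₀ {u}) s ∧ s ∉ (V c).nonunits ∧ s * x = b :=
  fun c x hx => s36n2l_hVloc_abs hu hπ V hBV hKR harch c (hprim c) (hz c) x hx

/-- Separating elements from elements vanishing on exactly one component:
if `y c' ∈ B_u` lies in `𝔪(V c')` and in no other `𝔪(V c)`, then `z_c := ∏_{c' ≠ c} y c'`
separates `c` from the other components. -/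
theorem s36n2l_sep_prod [Finite κ] (V : κ → ValuationSubring F)
    (hBV : ∀ c (b : F), IsIntegral ↥(Algebra.adjoin A₀ {u}) b → b ∈ V c)
    (y : κ → F) (hy : ∀ c, IsIntegral ↥(Algebra.adjoin A₀ {u}) (y c))
    (hyin : ∀ c, y c ∈ (V c).nonunits)
    (hyout : ∀ c c', c' ≠ c → y c' ∉ (V c).nonunits) (c : κ) :
    ∃ z : F, IsIntegral ↥(Algebra.adjoin A₀ {u}) z ∧ z ∉ (V c).nonunits ∧
      ∀ c', c' ≠ c → z ∈ (V c').nonunits := by
  classical
  haveI := Fintype.ofFinite κ
  refine ⟨∏ c' ∈ Finset.univ.erase c, y c', IsIntegral.prod _ fun c' _ => hy c', ?_, ?_⟩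
  · apply s36n2l_not_mem_nonunits_of_val
    rw [map_prod]
    refine Finset.prod_eq_one fun c' hc' => ?_
    exact s36n2l_val_eq_one _ (hBV c _ (hy c')) (hyout c c' (Finset.ne_of_mem_erase hc'))
  · intro c' hc'
    have hmem : c' ∈ Finset.univ.erase c := Finset.mem_erase.mpr ⟨hc', Finset.mem_univ _⟩
    rw [← Finset.mul_prod_erase _ _ hmem]
    refine s36n2l_mul_mem_nonunits_left _ (hyin c') ?_
    exact hBV c' _ (IsIntegral.prod _ fun c'' _ => hy c'')

end Abstract

end Fermat.Agent.S36
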