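/-
S36 (Carayol at `q² ∥ M`), geometry, piece N2-loc (helper91), CONCRETE part 1:
the three generators `j`, `j_q = j(Q^q)`, `j_qq = j(Q^{q²})` of `F = F_{M q²}(E)`, the elements

  `y_a = j_qq − j_q ^ q`,   `y_b = j − j_q ^ q`,   `y_c = j_qq − j`

of the chart `B_j` and their membership in the maximal ideals of the vertical valuation rings,
read off from the expansions:

* type (a) (expansion at `∞`):           `j ↦ J`,        `j_q ↦ J(Q^q)`, `j_qq ↦ J(Q^{q²})`;
* type (b) (expansion at `0`, `∘ w_{q²}`): `j ↦ J(Q^{q²})`, `j_q ↦ J(Q^q)`, `j_qq ↦ J`;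
* type (c) (middle cusp, `μ_ζ`):          `j ↦ J`,        `j_q ↦ J(Q^q)`, `j_qq ↦ J(ζ Q)`.

Modulo the uniformizer (`J(Q^q) ≡ J^q`, `ζ ≡ 1`) each `y_•` vanishes on exactly one component.
-/
import Fermat.Agent.S36.N2Loc
import Fermat.Agent.S36.N2W
import Fermat.Agent.S36.MidCuspPlan
import Fermat.Agent.UNIP.MGVertLoc

set_option autoImplicit false
set_option linter.unusedSectionVars false
set_option linter.unusedVariables false
set_option linter.style.haveILetI false

noncomputable section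

namespace Fermat.Agent.S36

open ModularCurve Polynomial IntermediateField Fermat.Agent.INJ Fermat.Agent.UNIP
open Fermat.Agent.AL Fermat.Agent.ES Fermat.Agent.S28

/-! ### membership in the maximal ideal from the expansion -/

section Mem

variable {A E k : Type*} [CommRing A] [Field E] [Field k]
  {ι : A →+* E} {r : A →+* k} {π : A} {F : Type*} [Field F]
  (hB : VtBase ι r π) (e : F →+* LaurentSeries E) (hfrac : ∀ x : F, VtFrac ι (e x))

/-- an element whose expansion is a series over `A` lies in `𝔪(V)` iff the series reduces to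
`0`. -/
theorem s36n2l_mem_nonunits_iff_coeffMap {x : F} {T : LaurentSeries A}
    (hx : e x = coeffMap ι T) :
    x ∈ (vtSub hB e hfrac).nonunits ↔ coeffMap r T = 0 := by
  constructor
  · intro h
    by_contra hne
    have h1 := vtSub_valuation_eq_one_of_eq_coeffMap hB e hfrac hx hne
    rw [ValuationSubring.mem_nonunits_iff, h1] at h
    exact lt_irrefl _ h
  · intro h0
    rw [vtSub_mem_nonunits_iff]
    have hmem : e x ∈ gaussRing ι r := by
      rw [hx]
      exact coeffMap_mem_gaussRing ι r T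
    refine ⟨hmem, ?_⟩
    rw [gaussRed_eq_zero_iff r hB.inj ⟨e x, hmem⟩ T 1 (by rw [map_one]; exact one_ne_zero)
      (by rw [map_one, one_mul]; exact hx)]
    exact h0

theorem s36n2l_mem_of_coeffMap {x : F} {T : LaurentSeries A} (hx : e x = coeffMap ι T) :
    x ∈ vtSub hB e hfrac := by
  rw [mem_vtSub, hx]
  exact coeffMap_mem_gaussRing ι r T

end Mem

/-! ### the series -/

section Series

variable (k : Type*) [Field k] (q : ℕ) [NeZero q] [hq : Fact q.Prime] [CharP k q]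

theorem s36n2l_red_q : qExpand k q (jqModC k) = jqModC k ^ q :=
  nodesFrobU_hT_j k q

theorem s36n2l_red_qq : qExpand k q (qExpand k q (jqModC k)) = (jqModC k ^ q) ^ q := by
  rw [s36n2l_red_q, map_pow, s36n2l_red_q]

theorem s36n2l_red_ne : (jqModC k ^ q) ^ q ≠ jqModC k :=
  nodesFrobU_hne_j k hq.out.two_le

end Series

/-! ### the elements -/

section Elts

variable (E : Type*) [Field E] (M q : ℕ) [NeZero M] [NeZero q] [NeZero (M * q)]
  [NeZero (M * q * q)]

/-- `j` -/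
def s36n2lJ : modularFunctionFieldFullC E (M * q * q) :=
  ⟨jqModC E, jqModC_mem_full E (M * q * q)⟩

/-- `j(Q^q)` -/
def s36n2lJq : modularFunctionFieldFullC E (M * q * q) :=
  ⟨qExpand E q (jqModC E), alq_mem_of_mem_lower E (al_qExpand_mem E (jqModC_mem_full E M))⟩

/-- `j(Q^{q²})` -/
def s36n2lJqq : modularFunctionFieldFullC E (M * q * q) :=
  ⟨qExpand E q (qExpand E q (jqModC E)),
    alq_qExpand_mem E (al_qExpand_mem E (jqModC_mem_full E M))⟩

theorem s36n2lJ_eq_bgJ : s36n2lJ E M q = bgJ E (M * q * q) := rfl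

@[simp] theorem s36n2lJ_coe : ((s36n2lJ E M q : modularFunctionFieldFullC E (M * q * q)) :
    LaurentSeries E) = jqModC E := rfl

@[simp] theorem s36n2lJq_coe : ((s36n2lJq E M q : modularFunctionFieldFullC E (M * q * q)) :
    LaurentSeries E) = qExpand E q (jqModC E) := rfl

@[simp] theorem s36n2lJqq_coe : ((s36n2lJqq E M q : modularFunctionFieldFullC E (M * q * q)) :
    LaurentSeries E) = qExpand E q (qExpand E q (jqModC E)) := rfl

/-- `y_a = j_qq − j_q ^ q` -/
def s36n2lYa : modularFunctionFieldFullC E (M * q * q) :=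
  s36n2lJqq E M q - s36n2lJq E M q ^ q

/-- `y_b = j − j_q ^ q` -/
def s36n2lYb : modularFunctionFieldFullC E (M * q * q) :=
  s36n2lJ E M q - s36n2lJq E M q ^ q

/-- `y_c = j_qq − j` -/
def s36n2lYc : modularFunctionFieldFullC E (M * q * q) :=
  s36n2lJqq E M q - s36n2lJ E M q

end Elts

/-! ### integrality over the chart `j` -/

section IntAbs

/-- two-step integrality from a monic two-variable relation over `ℤ` -/
theorem s36n2l_isIntegral_trans_phi {A S : Type*} [CommRing A] [CommRing S] [Algebra A S]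
    {Φ : Polynomial (Polynomial ℤ)} (hΦ : Φ.Monic) {x y z : S}
    (h1 : Φ.eval₂ (evalInt x) y = 0) (h2 : Φ.eval₂ (evalInt y) z = 0) :
    IsIntegral (Algebra.adjoin A {x}) z := by
  have hy : IsIntegral (Algebra.adjoin A {x}) y :=
    nodesSwap_isIntegral_of_evalInt (A := A) hΦ h1
  have hz : IsIntegral (Algebra.adjoin (Algebra.adjoin A {x}) {y}) z :=
    nodesSwap_isIntegral_of_evalInt (A := Algebra.adjoin A {x}) hΦ h2
  haveI : Algebra.IsIntegral (Algebra.adjoin A {x})
      (Algebra.adjoin (Algebra.adjoin A {x}) {y}) :=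
    Algebra.IsIntegral.adjoin (by
      intro w hw
      rw [Set.mem_singleton_iff] at hw
      rw [hw]
      exact hy)
  exact isIntegral_trans (A := Algebra.adjoin (Algebra.adjoin A {x}) {y}) z hz

end IntAbs

section Int

variable {A E : Type*} [CommRing A] [Field E] {M q : ℕ} [NeZero M] [NeZero q] [NeZero (M * q)]
  [NeZero (M * q * q)] [Algebra A (modularFunctionFieldFullC E (M * q * q))]

theorem s36n2l_isIntegral_J :
    IsIntegral (Algebra.adjoin A {s36n2lJ E M q}) (s36n2lJ E M q) :=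
  isIntegral_algebraMap (R := Algebra.adjoin A {s36n2lJ E M q})
    (x := ⟨s36n2lJ E M q, Algebra.subset_adjoin rfl⟩)

theorem s36n2l_phi_Jq (hq : q.Prime) :
    (nodesSwapPhi q hq).eval₂ (evalInt (s36n2lJ E M q)) (s36n2lJq E M q) = 0 := by
  apply (modularFunctionFieldFullC E (M * q * q)).val.toRingHom.injective
  rw [map_eval₂_evalInt, map_zero]
  exact nodesSwapPhi_series q hq E

theorem s36n2l_phi_Jqq (hq : q.Prime) :
    (nodesSwapPhi q hq).eval₂ (evalInt (s36n2lJq E M q)) (s36n2lJqq E M q) = 0 := by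
  apply (modularFunctionFieldFullC E (M * q * q)).val.toRingHom.injective
  rw [map_eval₂_evalInt, map_zero]
  have h := congrArg (qExpand E q) (nodesSwapPhi_series q hq E)
  rw [map_eval₂_evalInt, map_zero] at h
  exact h

theorem s36n2l_isIntegral_Jq (hq : q.Prime) :
    IsIntegral (Algebra.adjoin A {s36n2lJ E M q}) (s36n2lJq E M q) :=
  nodesSwap_isIntegral_of_evalInt (A := A) (nodesSwapPhi_monic q hq) (s36n2l_phi_Jq hq)

theorem s36n2l_isIntegral_Jqq (hq : q.Prime) :
    IsIntegral (Algebra.adjoin A {s36n2lJ E M q}) (s36n2lJqq E M q) :=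
  s36n2l_isIntegral_trans_phi (A := A) (nodesSwapPhi_monic q hq) (s36n2l_phi_Jq hq)
    (s36n2l_phi_Jqq hq)

theorem s36n2l_isIntegral_Ya (hq : q.Prime) :
    IsIntegral (Algebra.adjoin A {s36n2lJ E M q}) (s36n2lYa E M q) := by
  have h1 : IsIntegral (Algebra.adjoin A {s36n2lJ E M q}) (s36n2lJqq E M q) :=
    s36n2l_isIntegral_Jqq hq
  have h2 : IsIntegral (Algebra.adjoin A {s36n2lJ E M q}) (s36n2lJq E M q) :=
    s36n2l_isIntegral_Jq hq
  have h3 : IsIntegral (Algebra.adjoin A {s36n2lJ E M q}) (s36n2lJq E M q ^ q) :=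
    IsIntegral.pow h2 q
  exact IsIntegral.sub h1 h3

theorem s36n2l_isIntegral_Yb (hq : q.Prime) :
    IsIntegral (Algebra.adjoin A {s36n2lJ E M q}) (s36n2lYb E M q) := by
  have h1 : IsIntegral (Algebra.adjoin A {s36n2lJ E M q}) (s36n2lJ E M q) :=
    s36n2l_isIntegral_J
  have h2 : IsIntegral (Algebra.adjoin A {s36n2lJ E M q}) (s36n2lJq E M q) :=
    s36n2l_isIntegral_Jq hq
  have h3 : IsIntegral (Algebra.adjoin A {s36n2lJ E M q}) (s36n2lJq E M q ^ q) :=
    IsIntegral.pow h2 q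
  exact IsIntegral.sub h1 h3

theorem s36n2l_isIntegral_Yc (hq : q.Prime) :
    IsIntegral (Algebra.adjoin A {s36n2lJ E M q}) (s36n2lYc E M q) := by
  have h1 : IsIntegral (Algebra.adjoin A {s36n2lJ E M q}) (s36n2lJqq E M q) :=
    s36n2l_isIntegral_Jqq hq
  have h2 : IsIntegral (Algebra.adjoin A {s36n2lJ E M q}) (s36n2lJ E M q) :=
    s36n2l_isIntegral_J
  exact IsIntegral.sub h1 h2

end Int

/-! ### the table -/

section Table

variable {A E₀ E k : Type*} [CommRing A] [Field E₀] [Field E] [Field k]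
  {ι : A →+* E} {r : A →+* k} {π : A} {M q : ℕ} [NeZero M] [NeZero q] [NeZero (M * q)]
  [NeZero (M * q * q)]
  (hB : VtBase ι r π) (e : modularFunctionFieldFullC E₀ (M * q * q) →+* LaurentSeries E)
  (hfrac : ∀ x : modularFunctionFieldFullC E₀ (M * q * q), VtFrac ι (e x))

/-- the membership of `y_a`, `y_b`, `y_c` in `𝔪(V)` in terms of the reductions of the
expansions of `j`, `j_q`, `j_qq`. -/
theorem s36n2l_table {T₀ T₁ T₂ : LaurentSeries A}
    (h₀ : e (s36n2lJ E₀ M q) = coeffMap ι T₀) (h₁ : e (s36n2lJq E₀ M q) = coeffMap ι T₁)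
    (h₂ : e (s36n2lJqq E₀ M q) = coeffMap ι T₂) :
    (s36n2lYa E₀ M q ∈ (vtSub hB e hfrac).nonunits ↔ coeffMap r T₂ = coeffMap r T₁ ^ q) ∧
    (s36n2lYb E₀ M q ∈ (vtSub hB e hfrac).nonunits ↔ coeffMap r T₀ = coeffMap r T₁ ^ q) ∧
    (s36n2lYc E₀ M q ∈ (vtSub hB e hfrac).nonunits ↔ coeffMap r T₂ = coeffMap r T₀) := by
  have ea : e (s36n2lYa E₀ M q) = coeffMap ι (T₂ - T₁ ^ q) := by
    rw [s36n2lYa, map_sub, map_pow, h₁, h₂, map_sub, map_pow]
  have eb : e (s36n2lYb E₀ M q) = coeffMap ι (T₀ - T₁ ^ q) := by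
    rw [s36n2lYb, map_sub, map_pow, h₀, h₁, map_sub, map_pow]
  have ec : e (s36n2lYc E₀ M q) = coeffMap ι (T₂ - T₀) := by
    rw [s36n2lYc, map_sub, h₀, h₂, map_sub]
  refine ⟨?_, ?_, ?_⟩
  · rw [s36n2l_mem_nonunits_iff_coeffMap hB e hfrac ea, map_sub, map_pow, sub_eq_zero]
  · rw [s36n2l_mem_nonunits_iff_coeffMap hB e hfrac eb, map_sub, map_pow, sub_eq_zero]
  · rw [s36n2l_mem_nonunits_iff_coeffMap hB e hfrac ec, map_sub, sub_eq_zero]

variable [hqF : Fact q.Prime] [CharP k q]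

/-- **type (a)**: expansion at `∞`. -/
theorem s36n2l_pattern_a (h₀ : e (s36n2lJ E₀ M q) = jqModC E)
    (h₁ : e (s36n2lJq E₀ M q) = qExpand E q (jqModC E))
    (h₂ : e (s36n2lJqq E₀ M q) = qExpand E q (qExpand E q (jqModC E))) :
    s36n2lYa E₀ M q ∈ (vtSub hB e hfrac).nonunits ∧
      s36n2lYb E₀ M q ∉ (vtSub hB e hfrac).nonunits ∧
      s36n2lYc E₀ M q ∉ (vtSub hB e hfrac).nonunits := by
  obtain ⟨ha, hb, hc⟩ := s36n2l_table hB e hfrac (T₀ := jqModC A)
    (T₁ := qExpand A q (jqModC A)) (T₂ := qExpand A q (qExpand A q (jqModC A)))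
    (by rw [h₀, coeffMap_jqModC])
    (by rw [h₁, coeffMap_qExpand, coeffMap_jqModC])
    (by rw [h₂, coeffMap_qExpand, coeffMap_qExpand, coeffMap_jqModC])
  simp only [coeffMap_qExpand, coeffMap_jqModC, s36n2l_red_q k q, map_pow] at ha hb hc
  refine ⟨ha.mpr trivial, fun h => ?_, fun h => ?_⟩
  · exact s36n2l_red_ne k q (hb.mp h).symm
  · exact s36n2l_red_ne k q (hc.mp h)

/-- **type (b)**: expansion at `0` (composition with `w_{q²}`). -/
theorem s36n2l_pattern_b (h₀ : e (s36n2lJ E₀ M q) = qExpand E q (qExpand E q (jqModC E)))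
    (h₁ : e (s36n2lJq E₀ M q) = qExpand E q (jqModC E))
    (h₂ : e (s36n2lJqq E₀ M q) = jqModC E) :
    s36n2lYa E₀ M q ∉ (vtSub hB e hfrac).nonunits ∧
      s36n2lYb E₀ M q ∈ (vtSub hB e hfrac).nonunits ∧
      s36n2lYc E₀ M q ∉ (vtSub hB e hfrac).nonunits := by
  obtain ⟨ha, hb, hc⟩ := s36n2l_table hB e hfrac
    (T₀ := qExpand A q (qExpand A q (jqModC A)))
    (T₁ := qExpand A q (jqModC A)) (T₂ := jqModC A)
    (by rw [h₀, coeffMap_qExpand, coeffMap_qExpand, coeffMap_jqModC])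
    (by rw [h₁, coeffMap_qExpand, coeffMap_jqModC])
    (by rw [h₂, coeffMap_jqModC])
  simp only [coeffMap_qExpand, coeffMap_jqModC, s36n2l_red_q k q, map_pow] at ha hb hc
  refine ⟨fun h => ?_, hb.mpr trivial, fun h => ?_⟩
  · exact s36n2l_red_ne k q (ha.mp h).symm
  · exact s36n2l_red_ne k q (hc.mp h).symm

/-- **type (c)**: expansion at the middle cusp (`j_qq ↦ j(ζ Q)`, `ζ ≡ 1`). -/
theorem s36n2l_pattern_c (z : Aˣ) (hz : r z = 1) (h₀ : e (s36n2lJ E₀ M q) = jqModC E)
    (h₁ : e (s36n2lJq E₀ M q) = qExpand E q (jqModC E))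
    (h₂ : e (s36n2lJqq E₀ M q) = kronRot (Units.map (ι : A →* E) z) (jqModC E)) :
    s36n2lYa E₀ M q ∉ (vtSub hB e hfrac).nonunits ∧
      s36n2lYb E₀ M q ∉ (vtSub hB e hfrac).nonunits ∧
      s36n2lYc E₀ M q ∈ (vtSub hB e hfrac).nonunits := by
  have hz1 : Units.map (r : A →* k) z = 1 := Units.ext hz
  obtain ⟨ha, hb, hc⟩ := s36n2l_table hB e hfrac (T₀ := jqModC A)
    (T₁ := qExpand A q (jqModC A)) (T₂ := kronRot z (jqModC A))
    (by rw [h₀, coeffMap_jqModC])
    (by rw [h₁, coeffMap_qExpand, coeffMap_jqModC])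
    (by rw [h₂, coeffMap_kronRot, coeffMap_jqModC])
  simp only [coeffMap_qExpand, coeffMap_jqModC, coeffMap_kronRot, hz1, kronRot_one,
    s36n2l_red_q k q] at ha hb hc
  refine ⟨fun h => ?_, fun h => ?_, hc.mpr trivial⟩
  · exact s36n2l_red_ne k q (ha.mp h).symm
  · exact s36n2l_red_ne k q (hb.mp h).symm

end Table

end Fermat.Agent.S36
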