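import Fermat.Agent.S36.N2KerF1
import Fermat.Agent.S36.N2LocElts

/-!
# S36 / N2-ker (K2): (F1) for `V_b`, and the chart homomorphisms `g_a`, `g_b`

* `s36n2kChartHom ψ t T hT` : the homomorphism of charts
  `integralClosure A₀[t] F″ →+* integralClosure A₀[T] F` induced by `ψ : F″ →ₐ[A₀] F` when
  `ψ t` is integral over `A₀[T]`.
* `s36n2kPsiB` : `ψ_b = w_{q²} ∘ ψ_a : F_M → F_{Mqq}`, `f ↦ f(Q^{q²})`.
* `s36n2k_w_chart` : `w_{q²}` preserves the chart `j` of level `M q²`.
* `s36n2k_F1_b` : **(F1) for `V_b = V_a.comap w`** on the chart `j`, via `ψ_b`.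
* `s36n2kGa`, `s36n2kGb`, `s36n2kGaInv` : the chart homomorphisms `g_a`, `g_b` (chart `j`) and
  `g_a` (chart `1/j`).
-/

set_option autoImplicit false
set_option linter.unusedSectionVars false
set_option linter.style.haveILetI false
set_option linter.style.longLine false
set_option synthInstance.maxHeartbeats 400000
set_option maxHeartbeats 1000000

noncomputable section

namespace Fermat.Agent.S36

open ModularCurve Fermat.Agent.INJ Fermat.Agent.UNIP Fermat.Agent.AL Fermat.Agent.STB Polynomial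

section ChartHom

variable {A₀ F'' F : Type*} [CommRing A₀] [Field F''] [Field F] [Algebra A₀ F''] [Algebra A₀ F]

theorem s36n2k_chart_map_mem (ψ : F'' →ₐ[A₀] F) (t : F'') (T : F)
    (hT : IsIntegral ↥(Algebra.adjoin A₀ ({T} : Set F)) (ψ t)) {x : F''}
    (hx : IsIntegral ↥(Algebra.adjoin A₀ ({t} : Set F'')) x) :
    IsIntegral ↥(Algebra.adjoin A₀ ({T} : Set F)) (ψ x) :=
  cusp_isIntegral_adjoin_trans hT
    (cusp_isIntegral_adjoin_map (A := A₀) (ψ : F'' →+* F) (fun c => ψ.commutes c) hx)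

/-- The homomorphism of charts induced by `ψ`. -/
def s36n2kChartHom (ψ : F'' →ₐ[A₀] F) (t : F'') (T : F)
    (hT : IsIntegral ↥(Algebra.adjoin A₀ ({T} : Set F)) (ψ t)) :
    ↥(integralClosure ↥(Algebra.adjoin A₀ ({t} : Set F'')) F'') →+*
      ↥(integralClosure ↥(Algebra.adjoin A₀ ({T} : Set F)) F) where
  toFun x := ⟨ψ (x : F''), s36n2k_chart_map_mem ψ t T hT x.2⟩
  map_one' := Subtype.ext (map_one ψ)
  map_mul' _ _ := Subtype.ext (map_mul ψ _ _)
  map_zero' := Subtype.ext (map_zero ψ)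
  map_add' _ _ := Subtype.ext (map_add ψ _ _)

@[simp]
theorem s36n2kChartHom_coe (ψ : F'' →ₐ[A₀] F) (t : F'') (T : F)
    (hT : IsIntegral ↥(Algebra.adjoin A₀ ({T} : Set F)) (ψ t))
    (x : ↥(integralClosure ↥(Algebra.adjoin A₀ ({t} : Set F'')) F'')) :
    ((s36n2kChartHom ψ t T hT x : ↥(integralClosure ↥(Algebra.adjoin A₀ ({T} : Set F)) F)) : F) =
      ψ (x : F'') := rfl

theorem s36n2kChartHom_algebraMap (ψ : F'' →ₐ[A₀] F) (t : F'') (T : F)
    (hT : IsIntegral ↥(Algebra.adjoin A₀ ({T} : Set F)) (ψ t)) (a : A₀) :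
    s36n2kChartHom ψ t T hT
        (algebraMap A₀ ↥(integralClosure ↥(Algebra.adjoin A₀ ({t} : Set F'')) F'') a) =
      algebraMap A₀ ↥(integralClosure ↥(Algebra.adjoin A₀ ({T} : Set F)) F) a := by
  apply Subtype.ext
  show ψ (algebraMap A₀ F'' a) = algebraMap A₀ F a
  exact ψ.commutes a

/-- The chart homomorphism is integral if `T` is integral over `A₀[ψ t]`. -/
theorem s36n2kChartHom_isIntegral (ψ : F'' →ₐ[A₀] F) (t : F'') (T : F)
    (hT : IsIntegral ↥(Algebra.adjoin A₀ ({T} : Set F)) (ψ t))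
    (hT' : IsIntegral ↥(Algebra.adjoin A₀ ({ψ t} : Set F)) T) :
    (s36n2kChartHom ψ t T hT).IsIntegral := by
  intro b
  have hb : IsIntegral ↥(Algebra.adjoin A₀ ({ψ t} : Set F)) (b : F) :=
    cusp_isIntegral_adjoin_trans hT' b.2
  obtain ⟨p, hp, hpb⟩ := (s36n2k_isIntegral_adjoin_iff ψ t (b : F)).mp hb
  refine ⟨p.map (algebraMap ↥(Algebra.adjoin A₀ ({t} : Set F''))
    ↥(integralClosure ↥(Algebra.adjoin A₀ ({t} : Set F'')) F'')), hp.map _, ?_⟩
  rw [Polynomial.eval₂_map]
  have key := Polynomial.hom_eval₂ p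
    ((s36n2kChartHom ψ t T hT).comp (algebraMap ↥(Algebra.adjoin A₀ ({t} : Set F''))
      ↥(integralClosure ↥(Algebra.adjoin A₀ ({t} : Set F'')) F'')))
    (integralClosure ↥(Algebra.adjoin A₀ ({T} : Set F)) F).val.toRingHom b
  apply Subtype.val_injective
  exact key.trans hpb

end ChartHom

section PsiB

variable (A E : Type*) [CommRing A] [Field E] [Algebra A E] (ιC : E →+* ℂ)
  {M q : ℕ} [NeZero q] [NeZero M] [NeZero (M * q)] [NeZero (M * q * q)]
  (hq : q.Prime) (hqM : ¬ q ∣ M)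
  [Algebra A (modularFunctionFieldFullC E M)]
  [IsScalarTower A E (modularFunctionFieldFullC E M)]
  [Algebra A (modularFunctionFieldFullC E (M * q * q))]
  [IsScalarTower A E (modularFunctionFieldFullC E (M * q * q))]

/-- `w_{q²}` as an automorphism of `A`-algebras. -/
def s36n2kWA : modularFunctionFieldFullC E (M * q * q) →ₐ[A]
    modularFunctionFieldFullC E (M * q * q) :=
  (s36n2W E ιC hq hqM).toAlgHom.restrictScalars A

theorem s36n2kWA_apply (x : modularFunctionFieldFullC E (M * q * q)) :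
    s36n2kWA A E ιC hq hqM x = s36n2W E ιC hq hqM x := rfl

/-- `ψ_b = w_{q²} ∘ ψ_a : F_M → F_{Mqq}`, `f ↦ f(Q^{q²})`. -/
def s36n2kPsiB : modularFunctionFieldFullC E M →ₐ[A] modularFunctionFieldFullC E (M * q * q) :=
  (s36n2kWA A E ιC hq hqM).comp (s36n2kPsi A E M q)

theorem s36n2kPsiB_apply (y : modularFunctionFieldFullC E M) :
    s36n2kPsiB A E ιC hq hqM y = s36n2W E ιC hq hqM (s36n2kPsi A E M q y) := rfl

theorem s36n2kPsiB_coe (y : modularFunctionFieldFullC E M) :
    ((s36n2kPsiB A E ιC hq hqM y : modularFunctionFieldFullC E (M * q * q)) : LaurentSeries E) =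
      qExpand E q (qExpand E q (y : LaurentSeries E)) := by
  rw [s36n2kPsiB_apply]
  have h1 : s36n2kPsi A E M q y = ⟨(y : LaurentSeries E), s36n2_mem_of_mem_base E y.2⟩ :=
    Subtype.ext (s36n2kPsi_coe A E M q y)
  rw [h1]
  exact s36n2W_base E ιC hq hqM y.2

theorem s36n2kPsiB_bgJ : s36n2kPsiB A E ιC hq hqM (bgJ E M) = s36n2lJqq E M q :=
  Subtype.ext (s36n2kPsiB_coe A E ιC hq hqM _)

/-- `w_{q²} j = j(Q^{q²})` -/
theorem s36n2k_w_bgJ : s36n2W E ιC hq hqM (bgJ E (M * q * q)) = s36n2lJqq E M q :=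
  Subtype.ext (s36n2W_base E ιC hq hqM (jqModC_mem_full E M))

/-- **`w_{q²}` preserves the chart `j`** of level `M q²`. -/
theorem s36n2k_w_chart {b : modularFunctionFieldFullC E (M * q * q)}
    (hb : IsIntegral ↥(Algebra.adjoin A
      ({bgJ E (M * q * q)} : Set (modularFunctionFieldFullC E (M * q * q)))) b) :
    IsIntegral ↥(Algebra.adjoin A
      ({bgJ E (M * q * q)} : Set (modularFunctionFieldFullC E (M * q * q))))
      (s36n2W E ιC hq hqM b) := by
  have h1 := s36n2k_chart_map_mem (s36n2kWA A E ιC hq hqM) (bgJ E (M * q * q))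
    (bgJ E (M * q * q)) ?_ hb
  · exact h1
  · rw [s36n2kWA_apply, s36n2k_w_bgJ E ιC hq hqM]
    exact s36n2l_isIntegral_Jqq (A := A) hq

end PsiB

section Concrete

variable (K₀ : IntermediateField ℚ NfQb) {A₀ : Type} [CommRing A₀] [IsDomain A₀]
  [IsDiscreteValuationRing A₀] [Algebra A₀ K₀] [IsFractionRing A₀ K₀]
  {k : Type*} [Field k] (r : A₀ →+* k) {π : A₀} (ιC : K₀ →+* ℂ)
  {q M : ℕ} [NeZero q] [NeZero M] [NeZero (M * q)] [NeZero (M * q * q)]
  (hq : q.Prime) (hqM : ¬ q ∣ M)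
  [Algebra A₀ (modularFunctionFieldFullC K₀ M)]
  [IsScalarTower A₀ K₀ (modularFunctionFieldFullC K₀ M)]
  [Algebra A₀ (modularFunctionFieldFullC K₀ (M * q))]
  [IsScalarTower A₀ K₀ (modularFunctionFieldFullC K₀ (M * q))]
  [Algebra A₀ (modularFunctionFieldFullC K₀ (M * q * q))]
  [IsScalarTower A₀ K₀ (modularFunctionFieldFullC K₀ (M * q * q))]

include hq hqM ιC in
/-- **(F1) for `V_b = V.comap w_{q²}`** (`V = V_a`) on the chart `j`, via `ψ_b`. -/
theorem s36n2k_F1_b [Fact q.Prime] [CharP k q] (hπ : Irreducible π)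
    (hB : VtBase (algebraMap A₀ K₀) r π)
    (h : RegChart (E := K₀) π (bgJ K₀ M))
    (hVloc : ∀ x : modularFunctionFieldFullC K₀ (M * q), x ∈ vtInf hB (M * q) →
      ∃ b s : modularFunctionFieldFullC K₀ (M * q),
        IsIntegral ↥(Algebra.adjoin A₀
          ({bgJ K₀ (M * q)} : Set (modularFunctionFieldFullC K₀ (M * q)))) b ∧
        IsIntegral ↥(Algebra.adjoin A₀
          ({bgJ K₀ (M * q)} : Set (modularFunctionFieldFullC K₀ (M * q)))) s ∧
        s ∉ (vtInf hB (M * q)).nonunits ∧ s * x = b)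
    (V : ValuationSubring (modularFunctionFieldFullC K₀ (M * q * q)))
    (hcomap : V.comap (s36Alpha K₀ M q) = vtFam hB ιC hq hqM true)
    (hF : ∀ x ∈ V, ∃ c ∈ vtFam hB ιC hq hqM true, x - s36Alpha K₀ M q c ∈ V.nonunits)
    (b : modularFunctionFieldFullC K₀ (M * q * q))
    (hbV : b ∈ V.comap (s36n2W K₀ ιC hq hqM).toRingEquiv.toRingHom)
    (hb : IsIntegral ↥(Algebra.adjoin A₀
      ({bgJ K₀ (M * q * q)} : Set (modularFunctionFieldFullC K₀ (M * q * q)))) b) :
    ∃ c : integralClosure (Algebra.adjoin A₀ {bgJ K₀ M}) (modularFunctionFieldFullC K₀ M),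
      b - s36n2kPsiB A₀ K₀ ιC hq hqM (c : modularFunctionFieldFullC K₀ M) ∈
        (V.comap (s36n2W K₀ ιC hq hqM).toRingEquiv.toRingHom).nonunits := by
  have hwb := s36n2k_w_chart A₀ K₀ ιC hq hqM hb
  obtain ⟨c, hc⟩ := s36n2k_F1_J K₀ r ιC hq hqM hπ hB h hVloc V hcomap hF
    (s36n2W K₀ ιC hq hqM b) hbV hwb
  refine ⟨c, ?_⟩
  have hVV : ∀ z, z ∈ V.comap (s36n2W K₀ ιC hq hqM).toRingEquiv.toRingHom ↔
      (s36n2W K₀ ιC hq hqM).toRingEquiv.toRingHom z ∈ V := fun z => Iff.rfl
  rw [s36n2k_mem_nonunits_comap (s36n2W K₀ ιC hq hqM).toRingEquiv.toRingHom V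
    (V.comap (s36n2W K₀ ιC hq hqM).toRingEquiv.toRingHom) hVV]
  have e : (s36n2W K₀ ιC hq hqM).toRingEquiv.toRingHom
      (b - s36n2kPsiB A₀ K₀ ιC hq hqM (c : modularFunctionFieldFullC K₀ M)) =
      s36n2W K₀ ιC hq hqM b - s36n2kPsi A₀ K₀ M q (c : modularFunctionFieldFullC K₀ M) := by
    rw [map_sub, s36n2kPsiB_apply]
    show s36n2W K₀ ιC hq hqM b - s36n2W K₀ ιC hq hqM (s36n2W K₀ ιC hq hqM _) = _
    rw [s36n2W_invol]
  rw [e]
  exact hc

end Concrete

section G

variable (A E : Type*) [CommRing A] [Field E] [Algebra A E] (ιC : E →+* ℂ)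
  {M q : ℕ} [NeZero q] [NeZero M] [NeZero (M * q)] [NeZero (M * q * q)]
  (hq : q.Prime) (hqM : ¬ q ∣ M)
  [Algebra A (modularFunctionFieldFullC E M)]
  [IsScalarTower A E (modularFunctionFieldFullC E M)]
  [Algebra A (modularFunctionFieldFullC E (M * q * q))]
  [IsScalarTower A E (modularFunctionFieldFullC E (M * q * q))]

theorem s36n2k_isIntegral_self {S : Type*} [CommRing S] [Algebra A S] (x : S) :
    IsIntegral ↥(Algebra.adjoin A ({x} : Set S)) x :=
  isIntegral_algebraMap (R := ↥(Algebra.adjoin A ({x} : Set S)))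
    (x := ⟨x, Algebra.subset_adjoin rfl⟩)

/-- **`g_a`**: the inclusion of the chart `j` of level `M` into the chart `j` of level `M q²`. -/
def s36n2kGa : ↥(integralClosure ↥(Algebra.adjoin A
      ({bgJ E M} : Set (modularFunctionFieldFullC E M))) (modularFunctionFieldFullC E M)) →+*
    ↥(integralClosure ↥(Algebra.adjoin A
      ({bgJ E (M * q * q)} : Set (modularFunctionFieldFullC E (M * q * q))))
        (modularFunctionFieldFullC E (M * q * q))) :=
  s36n2kChartHom (s36n2kPsi A E M q) (bgJ E M) (bgJ E (M * q * q))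
    (by rw [s36n2kPsi_bgJ]; exact s36n2k_isIntegral_self A _)

/-- **`g_a` on the chart `1/j`**. -/
def s36n2kGaInv : ↥(integralClosure ↥(Algebra.adjoin A
      ({(bgJ E M)⁻¹} : Set (modularFunctionFieldFullC E M))) (modularFunctionFieldFullC E M)) →+*
    ↥(integralClosure ↥(Algebra.adjoin A
      ({(bgJ E (M * q * q))⁻¹} : Set (modularFunctionFieldFullC E (M * q * q))))
        (modularFunctionFieldFullC E (M * q * q))) :=
  s36n2kChartHom (s36n2kPsi A E M q) (bgJ E M)⁻¹ (bgJ E (M * q * q))⁻¹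
    (by rw [s36n2kPsi_bgJ_inv]; exact s36n2k_isIntegral_self A _)

/-- **`g_b`**: `f ↦ f(Q^{q²})` from the chart `j` of level `M` into the chart `j` of level
`M q²`. -/
def s36n2kGb : ↥(integralClosure ↥(Algebra.adjoin A
      ({bgJ E M} : Set (modularFunctionFieldFullC E M))) (modularFunctionFieldFullC E M)) →+*
    ↥(integralClosure ↥(Algebra.adjoin A
      ({bgJ E (M * q * q)} : Set (modularFunctionFieldFullC E (M * q * q))))
        (modularFunctionFieldFullC E (M * q * q))) :=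
  s36n2kChartHom (s36n2kPsiB A E ιC hq hqM) (bgJ E M) (bgJ E (M * q * q))
    (by rw [s36n2kPsiB_bgJ]; exact s36n2l_isIntegral_Jqq (A := A) hq)

@[simp]
theorem s36n2kGa_coe (c : ↥(integralClosure ↥(Algebra.adjoin A
      ({bgJ E M} : Set (modularFunctionFieldFullC E M))) (modularFunctionFieldFullC E M))) :
    ((s36n2kGa A E (M := M) (q := q) c : ↥(integralClosure ↥(Algebra.adjoin A
      ({bgJ E (M * q * q)} : Set (modularFunctionFieldFullC E (M * q * q))))
        (modularFunctionFieldFullC E (M * q * q)))) : modularFunctionFieldFullC E (M * q * q)) =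
      s36n2kPsi A E M q (c : modularFunctionFieldFullC E M) := rfl

@[simp]
theorem s36n2kGaInv_coe (c : ↥(integralClosure ↥(Algebra.adjoin A
      ({(bgJ E M)⁻¹} : Set (modularFunctionFieldFullC E M))) (modularFunctionFieldFullC E M))) :
    ((s36n2kGaInv A E (M := M) (q := q) c : ↥(integralClosure ↥(Algebra.adjoin A
      ({(bgJ E (M * q * q))⁻¹} : Set (modularFunctionFieldFullC E (M * q * q))))
        (modularFunctionFieldFullC E (M * q * q)))) : modularFunctionFieldFullC E (M * q * q)) =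
      s36n2kPsi A E M q (c : modularFunctionFieldFullC E M) := rfl

@[simp]
theorem s36n2kGb_coe (c : ↥(integralClosure ↥(Algebra.adjoin A
      ({bgJ E M} : Set (modularFunctionFieldFullC E M))) (modularFunctionFieldFullC E M))) :
    ((s36n2kGb A E ιC hq hqM c : ↥(integralClosure ↥(Algebra.adjoin A
      ({bgJ E (M * q * q)} : Set (modularFunctionFieldFullC E (M * q * q))))
        (modularFunctionFieldFullC E (M * q * q)))) : modularFunctionFieldFullC E (M * q * q)) =
      s36n2kPsiB A E ιC hq hqM (c : modularFunctionFieldFullC E M) := rfl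

/-- `(g_b c)(Q) = c(Q^{q²})` -/
theorem s36n2kGb_series (c : ↥(integralClosure ↥(Algebra.adjoin A
      ({bgJ E M} : Set (modularFunctionFieldFullC E M))) (modularFunctionFieldFullC E M))) :
    (((s36n2kGb A E ιC hq hqM c : ↥(integralClosure ↥(Algebra.adjoin A
      ({bgJ E (M * q * q)} : Set (modularFunctionFieldFullC E (M * q * q))))
        (modularFunctionFieldFullC E (M * q * q)))) : modularFunctionFieldFullC E (M * q * q)) :
          LaurentSeries E) =
      qExpand E q (qExpand E q ((c : modularFunctionFieldFullC E M) : LaurentSeries E)) :=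
  s36n2kPsiB_coe A E ιC hq hqM _

/-- `(g_a c)(Q) = c(Q)` -/
theorem s36n2kGa_series (c : ↥(integralClosure ↥(Algebra.adjoin A
      ({bgJ E M} : Set (modularFunctionFieldFullC E M))) (modularFunctionFieldFullC E M))) :
    (((s36n2kGa A E (M := M) (q := q) c : ↥(integralClosure ↥(Algebra.adjoin A
      ({bgJ E (M * q * q)} : Set (modularFunctionFieldFullC E (M * q * q))))
        (modularFunctionFieldFullC E (M * q * q)))) : modularFunctionFieldFullC E (M * q * q)) :
          LaurentSeries E) =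
      ((c : modularFunctionFieldFullC E M) : LaurentSeries E) :=
  s36n2kPsi_coe A E M q _

theorem s36n2kGa_isIntegral : (s36n2kGa A E (M := M) (q := q)).IsIntegral :=
  s36n2kChartHom_isIntegral _ _ _ _ (by rw [s36n2kPsi_bgJ]; exact s36n2k_isIntegral_self A _)

theorem s36n2kGaInv_isIntegral : (s36n2kGaInv A E (M := M) (q := q)).IsIntegral :=
  s36n2kChartHom_isIntegral _ _ _ _
    (by rw [s36n2kPsi_bgJ_inv]; exact s36n2k_isIntegral_self A _)

include ιC hq hqM in
/-- `j` is integral over `A[j(Q^{q²})]` -/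
theorem s36n2k_isIntegral_J_Jqq :
    IsIntegral ↥(Algebra.adjoin A
      ({s36n2lJqq E M q} : Set (modularFunctionFieldFullC E (M * q * q))))
      (bgJ E (M * q * q)) := by
  have h1 := cusp_isIntegral_adjoin_map (A := A)
    ((s36n2kWA A E ιC hq hqM : modularFunctionFieldFullC E (M * q * q) →ₐ[A]
      modularFunctionFieldFullC E (M * q * q)) : modularFunctionFieldFullC E (M * q * q) →+*
        modularFunctionFieldFullC E (M * q * q))
    (fun c => (s36n2kWA A E ιC hq hqM).commutes c)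
    (s36n2l_isIntegral_Jqq (A := A) (E := E) (M := M) (q := q) hq)
  have e1 : ((s36n2kWA A E ιC hq hqM : modularFunctionFieldFullC E (M * q * q) →ₐ[A]
      modularFunctionFieldFullC E (M * q * q)) : modularFunctionFieldFullC E (M * q * q) →+*
        modularFunctionFieldFullC E (M * q * q)) (s36n2lJ E M q) = s36n2lJqq E M q :=
    s36n2k_w_bgJ E ιC hq hqM
  have e2 : ((s36n2kWA A E ιC hq hqM : modularFunctionFieldFullC E (M * q * q) →ₐ[A]
      modularFunctionFieldFullC E (M * q * q)) : modularFunctionFieldFullC E (M * q * q) →+*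
        modularFunctionFieldFullC E (M * q * q)) (s36n2lJqq E M q) = bgJ E (M * q * q) := by
    rw [← s36n2k_w_bgJ E ιC hq hqM]
    exact s36n2W_invol E ιC hq hqM _
  rw [e1, e2] at h1
  exact h1

theorem s36n2kGb_isIntegral : (s36n2kGb A E ιC hq hqM).IsIntegral :=
  s36n2kChartHom_isIntegral _ _ _ _
    (by rw [s36n2kPsiB_bgJ]; exact s36n2k_isIntegral_J_Jqq A E ιC hq hqM)

theorem s36n2kGa_algebraMap (a : A) :
    s36n2kGa A E (M := M) (q := q) (algebraMap A _ a) = algebraMap A _ a :=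
  s36n2kChartHom_algebraMap _ _ _ _ a

theorem s36n2kGaInv_algebraMap (a : A) :
    s36n2kGaInv A E (M := M) (q := q) (algebraMap A _ a) = algebraMap A _ a :=
  s36n2kChartHom_algebraMap _ _ _ _ a

theorem s36n2kGb_algebraMap (a : A) :
    s36n2kGb A E ιC hq hqM (algebraMap A _ a) = algebraMap A _ a :=
  s36n2kChartHom_algebraMap _ _ _ _ a

end G

section RingHomForm

variable (K₀ : IntermediateField ℚ NfQb) {A₀ : Type} [CommRing A₀] [IsDomain A₀]
  [IsDiscreteValuationRing A₀] [Algebra A₀ K₀] [IsFractionRing A₀ K₀]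
  {k : Type*} [Field k] (r : A₀ →+* k) {π : A₀} (ιC : K₀ →+* ℂ)
  {q M : ℕ} [NeZero q] [NeZero M] [NeZero (M * q)] [NeZero (M * q * q)]
  (hq : q.Prime) (hqM : ¬ q ∣ M)
  [Algebra A₀ (modularFunctionFieldFullC K₀ M)]
  [IsScalarTower A₀ K₀ (modularFunctionFieldFullC K₀ M)]
  [Algebra A₀ (modularFunctionFieldFullC K₀ (M * q))]
  [IsScalarTower A₀ K₀ (modularFunctionFieldFullC K₀ (M * q))]
  [Algebra A₀ (modularFunctionFieldFullC K₀ (M * q * q))]
  [IsScalarTower A₀ K₀ (modularFunctionFieldFullC K₀ (M * q * q))]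

include hq hqM ιC in
/-- **(F1) for `(V, g_a)`**, `V = V_a, V_c`, chart `j`, ring homomorphism form. -/
theorem s36n2k_F1_Ga [Fact q.Prime] [CharP k q] (hπ : Irreducible π)
    (hB : VtBase (algebraMap A₀ K₀) r π)
    (h : RegChart (E := K₀) π (bgJ K₀ M))
    (hVloc : ∀ x : modularFunctionFieldFullC K₀ (M * q), x ∈ vtInf hB (M * q) →
      ∃ b s : modularFunctionFieldFullC K₀ (M * q),
        IsIntegral ↥(Algebra.adjoin A₀
          ({bgJ K₀ (M * q)} : Set (modularFunctionFieldFullC K₀ (M * q)))) b ∧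
        IsIntegral ↥(Algebra.adjoin A₀
          ({bgJ K₀ (M * q)} : Set (modularFunctionFieldFullC K₀ (M * q)))) s ∧
        s ∉ (vtInf hB (M * q)).nonunits ∧ s * x = b)
    (V : ValuationSubring (modularFunctionFieldFullC K₀ (M * q * q)))
    (hcomap : V.comap (s36Alpha K₀ M q) = vtFam hB ιC hq hqM true)
    (hF : ∀ x ∈ V, ∃ c ∈ vtFam hB ιC hq hqM true, x - s36Alpha K₀ M q c ∈ V.nonunits)
    (hBV : ∀ b : modularFunctionFieldFullC K₀ (M * q * q),
      IsIntegral ↥(Algebra.adjoin A₀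
        ({bgJ K₀ (M * q * q)} : Set (modularFunctionFieldFullC K₀ (M * q * q)))) b → b ∈ V)
    (b : ↥(integralClosure ↥(Algebra.adjoin A₀
      ({bgJ K₀ (M * q * q)} : Set (modularFunctionFieldFullC K₀ (M * q * q))))
        (modularFunctionFieldFullC K₀ (M * q * q)))) :
    ∃ c : ↥(integralClosure ↥(Algebra.adjoin A₀
        ({bgJ K₀ M} : Set (modularFunctionFieldFullC K₀ M))) (modularFunctionFieldFullC K₀ M)),
      ((b - s36n2kGa A₀ K₀ (M := M) (q := q) c : ↥(integralClosure ↥(Algebra.adjoin A₀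
        ({bgJ K₀ (M * q * q)} : Set (modularFunctionFieldFullC K₀ (M * q * q))))
          (modularFunctionFieldFullC K₀ (M * q * q)))) :
            modularFunctionFieldFullC K₀ (M * q * q)) ∈ V.nonunits := by
  obtain ⟨c, hc⟩ := s36n2k_F1_J K₀ r ιC hq hqM hπ hB h hVloc V hcomap hF
    (b : modularFunctionFieldFullC K₀ (M * q * q)) (hBV _ b.2) b.2
  exact ⟨c, hc⟩

include hq hqM ιC in
/-- **(F1) for `(V, g_a)`**, `V = V_a, V_c`, chart `1/j`, ring homomorphism form. -/
theorem s36n2k_F1_GaInv [Fact q.Prime] [CharP k q] (hπ : Irreducible π)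
    (hB : VtBase (algebraMap A₀ K₀) r π)
    (h : RegChart (E := K₀) π (bgJ K₀ M))
    (h' : RegChart (E := K₀) π (bgJ K₀ M)⁻¹)
    (hVloc : ∀ x : modularFunctionFieldFullC K₀ (M * q), x ∈ vtInf hB (M * q) →
      ∃ b s : modularFunctionFieldFullC K₀ (M * q),
        IsIntegral ↥(Algebra.adjoin A₀
          ({bgJ K₀ (M * q)} : Set (modularFunctionFieldFullC K₀ (M * q)))) b ∧
        IsIntegral ↥(Algebra.adjoin A₀
          ({bgJ K₀ (M * q)} : Set (modularFunctionFieldFullC K₀ (M * q)))) s ∧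
        s ∉ (vtInf hB (M * q)).nonunits ∧ s * x = b)
    (V : ValuationSubring (modularFunctionFieldFullC K₀ (M * q * q)))
    (hcomap : V.comap (s36Alpha K₀ M q) = vtFam hB ιC hq hqM true)
    (hF : ∀ x ∈ V, ∃ c ∈ vtFam hB ιC hq hqM true, x - s36Alpha K₀ M q c ∈ V.nonunits)
    (hBV : ∀ b : modularFunctionFieldFullC K₀ (M * q * q),
      IsIntegral ↥(Algebra.adjoin A₀
        ({(bgJ K₀ (M * q * q))⁻¹} : Set (modularFunctionFieldFullC K₀ (M * q * q)))) b → b ∈ V)
    (b : ↥(integralClosure ↥(Algebra.adjoin A₀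
      ({(bgJ K₀ (M * q * q))⁻¹} : Set (modularFunctionFieldFullC K₀ (M * q * q))))
        (modularFunctionFieldFullC K₀ (M * q * q)))) :
    ∃ c : ↥(integralClosure ↥(Algebra.adjoin A₀
        ({(bgJ K₀ M)⁻¹} : Set (modularFunctionFieldFullC K₀ M))) (modularFunctionFieldFullC K₀ M)),
      ((b - s36n2kGaInv A₀ K₀ (M := M) (q := q) c : ↥(integralClosure ↥(Algebra.adjoin A₀
        ({(bgJ K₀ (M * q * q))⁻¹} : Set (modularFunctionFieldFullC K₀ (M * q * q))))
          (modularFunctionFieldFullC K₀ (M * q * q)))) :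
            modularFunctionFieldFullC K₀ (M * q * q)) ∈ V.nonunits := by
  obtain ⟨c, hc⟩ := s36n2k_F1_Jinv K₀ r ιC hq hqM hπ hB h h' hVloc V hcomap hF
    (b : modularFunctionFieldFullC K₀ (M * q * q)) (hBV _ b.2) b.2
  exact ⟨c, hc⟩

include hq hqM ιC in
/-- **(F1) for `(V_b, g_b)`**, `V_b = V.comap w_{q²}` (`V = V_a`), chart `j`, ring homomorphism
form. -/
theorem s36n2k_F1_Gb [Fact q.Prime] [CharP k q] (hπ : Irreducible π)
    (hB : VtBase (algebraMap A₀ K₀) r π)
    (h : RegChart (E := K₀) π (bgJ K₀ M))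
    (hVloc : ∀ x : modularFunctionFieldFullC K₀ (M * q), x ∈ vtInf hB (M * q) →
      ∃ b s : modularFunctionFieldFullC K₀ (M * q),
        IsIntegral ↥(Algebra.adjoin A₀
          ({bgJ K₀ (M * q)} : Set (modularFunctionFieldFullC K₀ (M * q)))) b ∧
        IsIntegral ↥(Algebra.adjoin A₀
          ({bgJ K₀ (M * q)} : Set (modularFunctionFieldFullC K₀ (M * q)))) s ∧
        s ∉ (vtInf hB (M * q)).nonunits ∧ s * x = b)
    (V : ValuationSubring (modularFunctionFieldFullC K₀ (M * q * q)))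
    (hcomap : V.comap (s36Alpha K₀ M q) = vtFam hB ιC hq hqM true)
    (hF : ∀ x ∈ V, ∃ c ∈ vtFam hB ιC hq hqM true, x - s36Alpha K₀ M q c ∈ V.nonunits)
    (hBV : ∀ b : modularFunctionFieldFullC K₀ (M * q * q),
      IsIntegral ↥(Algebra.adjoin A₀
        ({bgJ K₀ (M * q * q)} : Set (modularFunctionFieldFullC K₀ (M * q * q)))) b → b ∈ V)
    (b : ↥(integralClosure ↥(Algebra.adjoin A₀
      ({bgJ K₀ (M * q * q)} : Set (modularFunctionFieldFullC K₀ (M * q * q))))
        (modularFunctionFieldFullC K₀ (M * q * q)))) :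
    ∃ c : ↥(integralClosure ↥(Algebra.adjoin A₀
        ({bgJ K₀ M} : Set (modularFunctionFieldFullC K₀ M))) (modularFunctionFieldFullC K₀ M)),
      ((b - s36n2kGb A₀ K₀ ιC hq hqM c : ↥(integralClosure ↥(Algebra.adjoin A₀
        ({bgJ K₀ (M * q * q)} : Set (modularFunctionFieldFullC K₀ (M * q * q))))
          (modularFunctionFieldFullC K₀ (M * q * q)))) :
            modularFunctionFieldFullC K₀ (M * q * q)) ∈
        (V.comap (s36n2W K₀ ιC hq hqM).toRingEquiv.toRingHom).nonunits := by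
  obtain ⟨c, hc⟩ := s36n2k_F1_b K₀ r ιC hq hqM hπ hB h hVloc V hcomap hF
    (b : modularFunctionFieldFullC K₀ (M * q * q))
    (hBV _ (s36n2k_w_chart A₀ K₀ ιC hq hqM b.2)) b.2
  exact ⟨c, hc⟩

end RingHomForm

end Fermat.Agent.S36
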