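import Fermat.Agent.S36.N2Ker
import Fermat.Agent.UNIP.MGVert
import Fermat.Agent.UNIP.NodesInstJ

/-!
# S36 / N2-ker (K2), the level-`M` part

General base `(A, E, r, π)` (`hB : VtBase (algebraMap A E) r π`), chart `t = j` of `F″ = F_M(E)`,
`C = integralClosure A[t] F″`, `V″ = vtInf hB M`.

* `s36n2k_hCV`, `s36n2k_pi_mem`, `s36n2k_hker_M`, `s36n2k_hval_M`, `s36n2k_hfrac_M` : the level-`M`
  inputs of `s36n2k_surj` (`C ⊆ V″`, `π ∈ 𝔪(V″)`, `𝔪(V″) ∩ C = π C`, `V″ = C_(π)`).
* `s36n2k_surj_J` : **(K2)** for ANY field `F ⊇ F″` (via `ψ`) and any valuation subring `V` of `F`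
  over `V″` with the same residue field (`hF`): every `x ∈ V` integral over `C` is congruent
  modulo `𝔪(V)` to an element of `C`.  Inputs: `π` prime in `C`, `C / π` integrally closed
  (`RegChart.prime`, `RegChart.icl`).
-/

set_option autoImplicit false
set_option linter.unusedSectionVars false
set_option linter.style.haveILetI false
set_option synthInstance.maxHeartbeats 400000
set_option maxHeartbeats 1000000

noncomputable section

namespace Fermat.Agent.S36

open ModularCurve Fermat.Agent.INJ Fermat.Agent.UNIP Fermat.Agent.AL Polynomial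

section LevelM

variable {A E k : Type*} [CommRing A] [IsDomain A] [WfDvdMonoid A] [Field E] [Algebra A E]
  [IsFractionRing A E] [Field k] {r : A →+* k} {π : A}
  (hB : VtBase (algebraMap A E) r π)
  (M : ℕ) [NeZero M]
  [Algebra A (modularFunctionFieldFullC E M)]
  [IsScalarTower A E (modularFunctionFieldFullC E M)]
  (t : modularFunctionFieldFullC E M)

include hB in
theorem s36n2k_not_isUnit : ¬ IsUnit π := by
  intro hu
  obtain ⟨u, rfl⟩ := hu
  have h1 : r ((u : A) * ((u⁻¹ : Aˣ) : A)) = 0 := by rw [map_mul, hB.rπ, zero_mul]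
  rw [Units.mul_inv, map_one] at h1
  exact one_ne_zero h1

variable (ht : (t : LaurentSeries E) ∈ gaussRing (algebraMap A E) r)

include ht in
/-- `C ⊆ V″`. -/
theorem s36n2k_hCV
    (c : integralClosure (Algebra.adjoin A {t}) (modularFunctionFieldFullC E M)) :
    (c : modularFunctionFieldFullC E M) ∈ vtInf hB M :=
  nodesFrob_G1_id r hB.ne (s36n2k_not_isUnit hB) hB.ker hB.rπ (nodesFrob_full_le M) t ht c.2

/-- `π ∈ 𝔪(V″)`. -/
theorem s36n2k_pi_mem :
    ((algebraMap A (integralClosure (Algebra.adjoin A {t}) (modularFunctionFieldFullC E M)) π :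
      integralClosure (Algebra.adjoin A {t}) (modularFunctionFieldFullC E M)) :
        modularFunctionFieldFullC E M) ∈ (vtInf hB M).nonunits :=
  vtSub_unif_mem_nonunits hB _ _ (nodesFrob_algebraMap_coe π)

include ht in
/-- `𝔪(V″) ∩ C = π C`. -/
theorem s36n2k_hker_M
    (htr : Transcendental k (gaussRed r (IsFractionRing.injective A E) ⟨_, ht⟩))
    (hprime : Prime (algebraMap A
      (integralClosure (Algebra.adjoin A {t}) (modularFunctionFieldFullC E M)) π))
    (c : integralClosure (Algebra.adjoin A {t}) (modularFunctionFieldFullC E M))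
    (hc : (c : modularFunctionFieldFullC E M) ∈ (vtInf hB M).nonunits) :
    algebraMap A (integralClosure (Algebra.adjoin A {t}) (modularFunctionFieldFullC E M)) π ∣
      c := by
  obtain ⟨hmem, hred⟩ := (vtSub_mem_nonunits_iff hB _ _).mp hc
  exact nodesFrob_G2 r hB.ne (s36n2k_not_isUnit hB) hB.ker hB.rπ (nodesFrob_full_le M) t ht htr
    hprime c hmem hred

include hB ht in
/-- divisibility by `π` is well-founded on the chart -/
theorem s36n2k_hval_M
    (c : integralClosure (Algebra.adjoin A {t}) (modularFunctionFieldFullC E M)) (hc : c ≠ 0) :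
    ∃ (n : ℕ) (c' : integralClosure (Algebra.adjoin A {t}) (modularFunctionFieldFullC E M)),
      c = (algebraMap A
        (integralClosure (Algebra.adjoin A {t}) (modularFunctionFieldFullC E M)) π) ^ n * c' ∧
      ¬ algebraMap A
        (integralClosure (Algebra.adjoin A {t}) (modularFunctionFieldFullC E M)) π ∣ c' := by
  classical
  have hex := nodesInst_hval r hB.ne (s36n2k_not_isUnit hB) hB.ker hB.rπ M t ht c hc
  set n := Nat.find hex with hn
  have hn1 : ¬ (algebraMap A
      (integralClosure (Algebra.adjoin A {t}) (modularFunctionFieldFullC E M)) π) ^ (n + 1) ∣ c :=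
    Nat.find_spec hex
  have hn0 : (algebraMap A
      (integralClosure (Algebra.adjoin A {t}) (modularFunctionFieldFullC E M)) π) ^ n ∣ c := by
    rcases Nat.eq_zero_or_pos n with h0 | hpos
    · rw [h0, pow_zero]; exact one_dvd _
    · by_contra hnd
      have := Nat.find_min hex (m := n - 1) (by omega)
      apply this
      rwa [Nat.sub_add_cancel hpos]
  obtain ⟨c', hc'⟩ := hn0
  refine ⟨n, c', hc', ?_⟩
  rintro ⟨c'', rfl⟩
  apply hn1
  rw [hc', pow_succ, ← mul_assoc]
  exact dvd_mul_right _ _

include hB ht in
/-- **`V″ = C_(π)`** on the chart `t = j` of level `M`. -/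
theorem s36n2k_hfrac_M (htj : (t : LaurentSeries E) = jqModC E)
    (htr : Transcendental k (gaussRed r (IsFractionRing.injective A E) ⟨_, ht⟩))
    (hprime : Prime (algebraMap A
      (integralClosure (Algebra.adjoin A {t}) (modularFunctionFieldFullC E M)) π))
    (y : modularFunctionFieldFullC E M) (hy : y ∈ vtInf hB M) :
    ∃ a b : integralClosure (Algebra.adjoin A {t}) (modularFunctionFieldFullC E M),
      (integralClosure (Algebra.adjoin A {t}) (modularFunctionFieldFullC E M)).val.toRingHom b ∉
        (vtInf hB M).nonunits ∧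
      (integralClosure (Algebra.adjoin A {t}) (modularFunctionFieldFullC E M)).val.toRingHom b * y
        = (integralClosure (Algebra.adjoin A {t})
            (modularFunctionFieldFullC E M)).val.toRingHom a := by
  refine s36n2k_frac
    (integralClosure (Algebra.adjoin A {t}) (modularFunctionFieldFullC E M)).val.toRingHom
    (vtInf hB M) (fun c => s36n2k_hCV hB M t ht c)
    (algebraMap A (integralClosure (Algebra.adjoin A {t}) (modularFunctionFieldFullC E M)) π)
    ?_ (s36n2k_pi_mem hB M t) (fun c hc => s36n2k_hker_M hB M t ht htr hprime c hc)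
    (fun c hc => s36n2k_hval_M hB M t ht c hc) ?_ y hy
  · intro h0
    have h1 : ((algebraMap A (integralClosure (Algebra.adjoin A {t})
        (modularFunctionFieldFullC E M)) π : integralClosure (Algebra.adjoin A {t})
          (modularFunctionFieldFullC E M)) : modularFunctionFieldFullC E M) = 0 := h0
    have h2 := nodesFrob_algebraMap_coe (A := A) (F := modularFunctionFieldFullC E M) π
    have h3 : ((algebraMap A (modularFunctionFieldFullC E M) π :
        modularFunctionFieldFullC E M) : LaurentSeries E) = 0 := by
      have : (algebraMap A (modularFunctionFieldFullC E M) π : modularFunctionFieldFullC E M)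
          = 0 := h1
      rw [this]; rfl
    rw [h2] at h3
    exact hB.Cιπ_ne h3
  · intro x
    obtain ⟨d, c, hd, hdc⟩ := nodesInst_hfrac M t (nodesInstAlg_halg_J A M t htj) x
    refine ⟨c, d, ?_, hdc⟩
    intro h0
    apply hd
    rw [h0, map_zero]

include hB ht in
/-- **(K2), level-`M` part**: `V` a valuation subring of a field `F ⊇ F″` (via `ψ`) lying over
`V″` with the same residue field; then every `x ∈ V` integral over the chart `C` of level `M` is
congruent modulo `𝔪(V)` to an element of `C`. -/
theorem s36n2k_surj_J (htj : (t : LaurentSeries E) = jqModC E)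
    (hprime : Prime (algebraMap A
      (integralClosure (Algebra.adjoin A {t}) (modularFunctionFieldFullC E M)) π))
    (hicl : IsIntegrallyClosed
      (integralClosure (Algebra.adjoin A {t}) (modularFunctionFieldFullC E M) ⧸
        Ideal.span {algebraMap A
          (integralClosure (Algebra.adjoin A {t}) (modularFunctionFieldFullC E M)) π}))
    {F : Type*} [Field F] (ψ : modularFunctionFieldFullC E M →+* F) (V : ValuationSubring F)
    (hVV : ∀ y, y ∈ vtInf hB M ↔ ψ y ∈ V)
    (hF : ∀ x ∈ V, ∃ y ∈ vtInf hB M, x - ψ y ∈ V.nonunits)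
    (x : F) (hxV : x ∈ V)
    (hx : (ψ.comp (integralClosure (Algebra.adjoin A {t})
      (modularFunctionFieldFullC E M)).val.toRingHom).IsIntegralElem x) :
    ∃ c : integralClosure (Algebra.adjoin A {t}) (modularFunctionFieldFullC E M),
      x - ψ (c : modularFunctionFieldFullC E M) ∈ V.nonunits := by
  have htr : Transcendental k (gaussRed r (IsFractionRing.injective A E) ⟨_, ht⟩) := by
    rw [nodesInst_red_J r M t htj ht]
    exact nodesFrobU_transcendental_j k
  haveI : (Ideal.span {algebraMap A
      (integralClosure (Algebra.adjoin A {t}) (modularFunctionFieldFullC E M)) π}).IsPrime :=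
    (Ideal.span_singleton_prime hprime.ne_zero).mpr hprime
  haveI : IsDomain (integralClosure (Algebra.adjoin A {t}) (modularFunctionFieldFullC E M) ⧸
      Ideal.span {algebraMap A
        (integralClosure (Algebra.adjoin A {t}) (modularFunctionFieldFullC E M)) π}) :=
    Ideal.Quotient.isDomain _
  haveI := hicl
  exact s36n2k_surj
    (integralClosure (Algebra.adjoin A {t}) (modularFunctionFieldFullC E M)).val.toRingHom
    ψ V (vtInf hB M) hVV (fun c => s36n2k_hCV hB M t ht c)
    (algebraMap A (integralClosure (Algebra.adjoin A {t}) (modularFunctionFieldFullC E M)) π)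
    (s36n2k_pi_mem hB M t) (fun c hc => s36n2k_hker_M hB M t ht htr hprime c hc)
    (fun y hy => s36n2k_hfrac_M hB M t ht htj htr hprime y hy) hF x hxV hx

end LevelM

end Fermat.Agent.S36
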