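import Fermat.Agent.S36.N2Ker

/-!
# S36 / N2-ker (K2): the ring isomorphism `C / π ≃ B / 𝔭` (abstract, Mathlib only)
-/

set_option autoImplicit false
set_option linter.style.haveILetI false

namespace Fermat.Agent.S36

open Polynomial

section Equiv

variable {C B F : Type*} [CommRing C] [CommRing B] [Field F]

/-- **(K2) as a ring isomorphism**: `j : C → B` (lower chart into the upper chart), `𝔭 ⊂ B` the
prime cut out by the valuation subring `V`; if `j` is surjective modulo `𝔭` and the kernel of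
`C → B / 𝔭` is `π C`, then `C / π ≃ B / 𝔭`. -/
theorem s36n2k_quotEquiv (φB : B →+* F) (j : C →+* B) (V : ValuationSubring F) (𝔭 : Ideal B)
    (h𝔭 : ∀ b, b ∈ 𝔭 ↔ φB b ∈ V.nonunits) (π : C) (hπ : φB (j π) ∈ V.nonunits)
    (hBV : ∀ b, φB b ∈ V)
    (hker : ∀ c, φB (j c) ∈ V.nonunits → π ∣ c)
    (hsurj : ∀ b : B, ∃ c : C, φB b - φB (j c) ∈ V.nonunits) :
    ∃ e : (C ⧸ Ideal.span {π}) ≃+* (B ⧸ 𝔭),
      ∀ c, e (Ideal.Quotient.mk _ c) = Ideal.Quotient.mk _ (j c) := by
  set f : C →+* B ⧸ 𝔭 := (Ideal.Quotient.mk 𝔭).comp j with hf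
  have hfsurj : Function.Surjective f := by
    intro y
    obtain ⟨b, rfl⟩ := Ideal.Quotient.mk_surjective y
    obtain ⟨c, hc⟩ := hsurj b
    refine ⟨c, ?_⟩
    rw [hf, RingHom.comp_apply, eq_comm, Ideal.Quotient.eq, h𝔭, map_sub]
    exact hc
  have hfker : RingHom.ker f = Ideal.span {π} := by
    ext c
    rw [RingHom.mem_ker, hf, RingHom.comp_apply, Ideal.Quotient.eq_zero_iff_mem, h𝔭,
      Ideal.mem_span_singleton]
    constructor
    · exact hker c
    · rintro ⟨c', rfl⟩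
      rw [map_mul, map_mul, mul_comm]
      exact s36n2k_mul_mem_nonunits V (hBV _) hπ
  refine ⟨(Ideal.quotEquivOfEq hfker.symm).trans (RingHom.quotientKerEquivOfSurjective hfsurj),
    fun c => ?_⟩
  rfl

end Equiv

end Fermat.Agent.S36
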