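/-
S36 (Carayol at `q² ∥ M`), geometry, piece N2-pts (helper45), part 4: the per-point input
`S36PtInput` (`S36/TopAbsDef.lean`, helper84) at a closed point of a chart, from chart data.

Setting of `S36/N2PtsReg.lean`: chart `B`, prime `𝔫`, `O = ls_localSubring 𝔫`, vertical valuations
`V : κ → ValuationSubring F`, `thr c := (∀ b : B, b ∈ 𝔪(V c) → b ∈ 𝔫)` ("`V c` passes through
`𝔫`"; for `B = zchClosure {u}` this is `atThrough 𝔫 (V c)`, definitionally), globals (KR), (RAM).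

* `s36n2p_ptInput_one`    : a point with ONE component `c₁`, the branch regular (`S36n2pGen`) and
  `𝔪(V c₁) ∩ O = X O` for a uniformizer `X ∈ O` of `V c₁` dividing `ϖ` (`X = ϖ` on `C_a`, `C_b`;
  `X = Π` on `C_c`).
* `s36n2p_ptInput_triple` : a TRIPLE point: the three branches regular, the three transversality
  parameters, `𝔪(V ca) ∩ O = X O` (`X = β X'`, G-thin), and the packages `NgLoc` of helper19.
-/
import Fermat.Agent.S36.N2PtsReg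
import Fermat.Agent.S36.TopAbsDef

set_option autoImplicit false
set_option linter.unusedSectionVars false
set_option linter.unusedVariables false
set_option linter.style.haveILetI false

namespace Fermat.Agent.S36

open Fermat.Agent.UNIP Fermat.Agent.STB AlgebraicCurve

section Input

variable {E F F₁ : Type*} [Field E] [Field F] [Field F₁] [Algebra E F]
  {B : Type*} [CommRing B] [Algebra B F]
variable (hinj : Function.Injective (algebraMap B F)) (𝔫 : Ideal B) [h𝔫 : 𝔫.IsPrime]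
variable {κ : Type*} [Finite κ]

include hinj in
/-- **`S36PtInput` at a point with ONE component.** -/
theorem s36n2p_ptInput_one [IsNoetherianRing B]
    (V : κ → ValuationSubring F) (hBV : ∀ c (b : B), algebraMap B F b ∈ V c) (ϖ : B)
    (hKR : ∀ x : F, (∃ b : B, algebraMap B F ϖ * x = algebraMap B F b) → (∀ c, x ∈ V c) →
      ∃ b : B, x = algebraMap B F b)
    (Q : ℕ) (hram : ∀ c (x : F), x ∈ (V c).nonunits → ∃ z ∈ V c, x ^ Q = algebraMap B F ϖ * z)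
    (hϖ0 : algebraMap B F ϖ ≠ 0) (hϖV : ∀ c, algebraMap B F ϖ ∈ (V c).nonunits)
    (hE : ∀ e : E, ∃ (n : ℕ) (a : B),
      algebraMap E F e * algebraMap B F ϖ ^ n = algebraMap B F a)
    (hfrac : ∀ x : F, ∃ a b : B, b ≠ 0 ∧ x * algebraMap B F b = algebraMap B F a)
    (c₁ : κ) (hc₁ : ∀ b : B, algebraMap B F b ∈ (V c₁).nonunits → b ∈ 𝔫)
    (honly : ∀ c, (∀ b : B, algebraMap B F b ∈ (V c).nonunits → b ∈ 𝔫) → c = c₁)
    (hVloc : ∀ x : F, x ∈ V c₁ → ∃ b s : B, algebraMap B F s ∉ (V c₁).nonunits ∧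
      algebraMap B F s * x = algebraMap B F b)
    {Y₀ : B} (hY₀ : Y₀ ∈ 𝔫) (hgen : S36n2pGen 𝔫 (V c₁) Y₀)
    (X Y : ls_localSubring (F := F) 𝔫) (hXY : X * Y = s36n2pToLoc (F := F) 𝔫 ϖ)
    (hX1 : (X : F) ∈ (V c₁).nonunits)
    (hU : ∀ x ∈ (V c₁).nonunits, ∃ z ∈ V c₁, x = (X : F) * z)
    (Hor : F → Prop) (m : ℕ) (hHor : ∀ y, Hor y → ∀ P : Place E F, (m : ℤ) ∣ P.ord y)
    (α β : F₁ →+* F) (Nα Nβ : F →* F₁) (ζ₁ : F₁) (ca cb cc : κ) :
    @S36PtInput F₁ F _ _ κ Hor m α β Nα Nβ ζ₁ V ca cb cc (ls_localSubring (F := F) 𝔫)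
      (ls_localSubring_isLocalRing hinj 𝔫)
      (fun c => ∀ b : B, algebraMap B F b ∈ (V c).nonunits → b ∈ 𝔫) := by
  haveI := ls_localSubring_isLocalRing (F := F) hinj 𝔫
  have hX0 : X ≠ 0 := by
    rintro rfl
    rw [zero_mul] at hXY
    exact hϖ0 (congrArg Subtype.val hXY).symm
  have hX2 : ∀ y : ls_localSubring (F := F) 𝔫, (y : F) ∈ (V c₁).nonunits → X ∣ y :=
    fun y hy => s36n2p_dvd_of_unif 𝔫 V hBV ϖ hKR Q hram c₁ X Y hXY hX0 hU
      (fun c hcc hc => absurd (honly c hc) hcc) y hy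
  haveI : UniqueFactorizationMonoid (ls_localSubring (F := F) 𝔫) :=
    s36n2p_ufd hinj 𝔫 (V c₁) (hBV c₁) hc₁ hY₀ hgen X hX0 hX1 hX2
  refine ⟨fun y hy hH hu => ?_, fun c hc => ?_, Or.inl ⟨c₁, hc₁, honly⟩⟩
  · exact s36n2p_fac (E := E) hinj 𝔫 V hBV ϖ hKR Q hram hϖ0 hϖV hE hfrac m y hy (hHor y hH) hu
  · rw [honly c hc]
    exact s36n2p_res hinj 𝔫 (V c₁) (hBV c₁) hc₁ hVloc hY₀ hgen

include hinj in
/-- **`S36PtInput` at a TRIPLE point.** -/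
theorem s36n2p_ptInput_triple [IsNoetherianRing B]
    (V : κ → ValuationSubring F) (hBV : ∀ c (b : B), algebraMap B F b ∈ V c) (ϖ : B)
    (hKR : ∀ x : F, (∃ b : B, algebraMap B F ϖ * x = algebraMap B F b) → (∀ c, x ∈ V c) →
      ∃ b : B, x = algebraMap B F b)
    (Q : ℕ) (hram : ∀ c (x : F), x ∈ (V c).nonunits → ∃ z ∈ V c, x ^ Q = algebraMap B F ϖ * z)
    (hϖ0 : algebraMap B F ϖ ≠ 0) (hϖV : ∀ c, algebraMap B F ϖ ∈ (V c).nonunits)
    (hE : ∀ e : E, ∃ (n : ℕ) (a : B),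
      algebraMap E F e * algebraMap B F ϖ ^ n = algebraMap B F a)
    (hfrac : ∀ x : F, ∃ a b : B, b ≠ 0 ∧ x * algebraMap B F b = algebraMap B F a)
    (ca cb cc : κ) (hκ : ∀ c, c = ca ∨ c = cb ∨ c = cc)
    (hthr : ∀ c, ∀ b : B, algebraMap B F b ∈ (V c).nonunits → b ∈ 𝔫)
    (hVloc : ∀ c, ∀ x : F, x ∈ V c → ∃ b s : B, algebraMap B F s ∉ (V c).nonunits ∧
      algebraMap B F s * x = algebraMap B F b)
    -- the branch `c` is regular
    {Yc : B} (hYc : Yc ∈ 𝔫) (hgc : S36n2pGen 𝔫 (V cc) Yc)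
    -- transversality parameters
    {Yab : B} (hYab : algebraMap B F Yab ∈ (V ca).nonunits) (hgab : S36n2pGen 𝔫 (V cb) Yab)
    {Yca : B} (hYca : algebraMap B F Yca ∈ (V cc).nonunits) (hgca : S36n2pGen 𝔫 (V ca) Yca)
    {Ycb : B} (hYcb : algebraMap B F Ycb ∈ (V cc).nonunits) (hgcb : S36n2pGen 𝔫 (V cb) Ycb)
    -- REG through the branch `a`
    (X Y : ls_localSubring (F := F) 𝔫) (hXY : X * Y = s36n2pToLoc (F := F) 𝔫 ϖ)
    (hX1 : (X : F) ∈ (V ca).nonunits)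
    (hU : ∀ x ∈ (V ca).nonunits, ∃ z ∈ V ca, x = (X : F) * z)
    (hXu : ∀ c, c ≠ ca → (X : F)⁻¹ ∈ V c)
    (Hor : F → Prop) (m : ℕ) (hHor : ∀ y, Hor y → ∀ P : Place E F, (m : ℤ) ∣ P.ord y)
    (α β : F₁ →+* F) (Nα Nβ : F →* F₁) (ζ₁ : F₁)
    (hNα : ∃ Oα : Subring F₁, NgLoc α Nα (V ca) (V cc) m ζ₁ (ls_localSubring (F := F) 𝔫) Oα)
    (hNβ : ∃ Oβ : Subring F₁, NgLoc β Nβ (V cb) (V cc) m ζ₁ (ls_localSubring (F := F) 𝔫) Oβ) :
    @S36PtInput F₁ F _ _ κ Hor m α β Nα Nβ ζ₁ V ca cb cc (ls_localSubring (F := F) 𝔫)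
      (ls_localSubring_isLocalRing hinj 𝔫)
      (fun c => ∀ b : B, algebraMap B F b ∈ (V c).nonunits → b ∈ 𝔫) := by
  haveI := ls_localSubring_isLocalRing (F := F) hinj 𝔫
  have hX0 : X ≠ 0 := by
    rintro rfl
    rw [zero_mul] at hXY
    exact hϖ0 (congrArg Subtype.val hXY).symm
  have hX2 : ∀ y : ls_localSubring (F := F) 𝔫, (y : F) ∈ (V ca).nonunits → X ∣ y :=
    fun y hy => s36n2p_dvd_of_unif 𝔫 V hBV ϖ hKR Q hram ca X Y hXY hX0 hU
      (fun c hcc _ => hXu c hcc) y hy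
  have hYca𝔫 : Yca ∈ 𝔫 := hthr cc Yca hYca
  have hYcb𝔫 : Ycb ∈ 𝔫 := hthr cc Ycb hYcb
  haveI : UniqueFactorizationMonoid (ls_localSubring (F := F) 𝔫) :=
    s36n2p_ufd hinj 𝔫 (V ca) (hBV ca) (hthr ca) hYca𝔫 hgca X hX0 hX1 hX2
  have hOV : ∀ c, ∀ x ∈ ls_localSubring (F := F) 𝔫, x ∈ V c :=
    fun c => stb_gc_le 𝔫 (V c) (hBV c) (hthr c)
  refine ⟨fun y hy hH hu => ?_, fun c hc => ?_, Or.inr ⟨hthr ca, hthr cb, hthr cc, hNα, hNβ, ?_⟩⟩
  · exact s36n2p_fac (E := E) hinj 𝔫 V hBV ϖ hKR Q hram hϖ0 hϖV hE hfrac m y hy (hHor y hH) hu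
  · rcases hκ c with rfl | rfl | rfl
    · exact s36n2p_res hinj 𝔫 (V c) (hBV c) (hthr c) (hVloc c) hYca𝔫 hgca
    · exact s36n2p_res hinj 𝔫 (V c) (hBV c) (hthr c) (hVloc c) hYcb𝔫 hgcb
    · exact s36n2p_res hinj 𝔫 (V c) (hBV c) (hthr c) (hVloc c) hYc hgc
  · refine aq_cond_thr_of_transversal (ls_localSubring (F := F) 𝔫) _ V (fun c _ => hOV c) ?_
    intro c c' _ _ hcc' x hx
    have tab := s36n2p_tr hinj 𝔫 (V ca) (V cb) (hBV ca) (hBV cb) (hthr ca) (hthr cb) hYab hgab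
    have tba := s36n2p_tr_symm hinj 𝔫 (V ca) (V cb) (hBV ca) (hBV cb) (hthr ca) (hthr cb)
      hYab hgab
    have tca := s36n2p_tr hinj 𝔫 (V cc) (V ca) (hBV cc) (hBV ca) (hthr cc) (hthr ca) hYca hgca
    have tac := s36n2p_tr_symm hinj 𝔫 (V cc) (V ca) (hBV cc) (hBV ca) (hthr cc) (hthr ca)
      hYca hgca
    have tcb := s36n2p_tr hinj 𝔫 (V cc) (V cb) (hBV cc) (hBV cb) (hthr cc) (hthr cb) hYcb hgcb
    have tbc := s36n2p_tr_symm hinj 𝔫 (V cc) (V cb) (hBV cc) (hBV cb) (hthr cc) (hthr cb)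
      hYcb hgcb
    rcases hκ c with rfl | rfl | rfl <;> rcases hκ c' with rfl | rfl | rfl
    · exact absurd rfl hcc'
    · exact tab x hx
    · exact tac x hx
    · exact tba x hx
    · exact absurd rfl hcc'
    · exact tbc x hx
    · exact tca x hx
    · exact tcb x hx
    · exact absurd rfl hcc'

end Input

end Fermat.Agent.S36
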