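import Fermat.Agent.UNIP.MGVertCompat

/-!
# S36 / G-nr-ord, part 1: the `ℤ`-valued Gauss order (helper31)

Base `(A, ι : A → E, r : A → k, π)` with `hB : VtBase ι r π`.  For a nonzero quotient `x` of two
series over `A` (`VtFrac ι x`) there is a unique `n : ℤ` with `x = π ^ n · u`, `u` a unit of the
Gauss ring (`VtUnit ι r u`).  This `n` is `s36noOrd ι r π x`.

* `S36IsOrd ι r π x n` : `x · π ^ (-n)` is a unit of the Gauss ring;
* `s36no_exists`, `s36no_unique`, `s36noOrd`, `s36noOrd_eq`, `s36noOrd_spec`;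
* `s36noOrd_mul`, `s36noOrd_inv`, `s36noOrd_pow`, `s36noOrd_prod`;
* `s36noOrd_eq_zero_iff : ord x = 0 ↔ VtUnit ι r x`, `s36noOrd_nonneg_iff : 0 ≤ ord x ↔ x ∈ gaussRing`,
  `s36noOrd_C_pi : ord π = 1`;
* transport `S36IsOrd.map` along a ring homomorphism of series preserving units;
* for `e : F →+* E((Q))` with `hfrac`: the order `s36noOrdE` of `vtSub hB e hfrac`, with
  `s36noOrdE_eq_zero_iff` (`↔ valuation = 1`), `s36noOrdE_nonneg_iff` (`↔ x ∈ V`),
  `s36noOrdE_pos_iff` (`↔ x ∈ 𝔪(V)`).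
-/

set_option autoImplicit false
set_option linter.unusedSectionVars false

noncomputable section

namespace Fermat.Agent.S36

open ModularCurve Fermat.Agent.INJ Fermat.Agent.UNIP

section Ord

variable {A E k : Type*} [CommRing A] [Field E] [Field k]
  {ι : A →+* E} {r : A →+* k} {π : A}

/-- `x = π ^ n · (unit of the Gauss ring)` -/
def S36IsOrd (ι : A →+* E) (r : A →+* k) (π : A) (x : LaurentSeries E) (n : ℤ) : Prop :=
  VtUnit ι r (x * (HahnSeries.C (ι π) : LaurentSeries E) ^ (-n))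

/-- a positive power of `π` is not a unit of the Gauss ring -/
theorem s36no_not_unit_pow (hB : VtBase ι r π) {m : ℕ} (hm : m ≠ 0) :
    ¬ VtUnit ι r ((HahnSeries.C (ι π) : LaurentSeries E) ^ m) := by
  intro h
  have hC : (HahnSeries.C (ι π) : LaurentSeries E) ∈ gaussRing ι r := hahnC_mem_gaussRing r π
  have hmem : (HahnSeries.C (ι π) : LaurentSeries E) ^ m ∈ gaussRing ι r :=
    (gaussRing ι r).pow_mem hC m
  have h1 := h.gaussRed_ne hB.inj hmem
  apply h1
  have e1 : (⟨(HahnSeries.C (ι π) : LaurentSeries E) ^ m, hmem⟩ : gaussRing ι r) =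
      (⟨HahnSeries.C (ι π), hC⟩ : gaussRing ι r) ^ m := Subtype.ext rfl
  have e2 : gaussRed r hB.inj (⟨HahnSeries.C (ι π), hC⟩ : gaussRing ι r) = 0 := by
    have e3 : (⟨HahnSeries.C (ι π), hC⟩ : gaussRing ι r) =
        ⟨coeffMap ι (HahnSeries.C π), coeffMap_mem_gaussRing ι r _⟩ :=
      Subtype.ext (coeffMap_hahnC ι π).symm
    rw [e3, gaussRed_coeffMap, coeffMap_hahnC, hB.rπ, map_zero]
  rw [e1, map_pow, e2, zero_pow hm]

theorem s36no_Cpi_zpow_ne (hB : VtBase ι r π) (n : ℤ) :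
    (HahnSeries.C (ι π) : LaurentSeries E) ^ n ≠ 0 :=
  zpow_ne_zero n hB.Cιπ_ne

/-- a nonzero power of `π` is not a unit of the Gauss ring -/
theorem s36no_not_unit_zpow (hB : VtBase ι r π) {n : ℤ} (hn : n ≠ 0) :
    ¬ VtUnit ι r ((HahnSeries.C (ι π) : LaurentSeries E) ^ n) := by
  intro h
  rcases lt_trichotomy n 0 with h0 | h0 | h0
  · have h1 := h.inv hB.inj
    rw [← zpow_neg] at h1
    obtain ⟨m, hm⟩ := Int.eq_ofNat_of_zero_le (show 0 ≤ -n by omega)
    rw [hm, zpow_natCast] at h1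
    exact s36no_not_unit_pow hB (by omega) h1
  · exact hn h0
  · obtain ⟨m, hm⟩ := Int.eq_ofNat_of_zero_le h0.le
    rw [hm, zpow_natCast] at h
    exact s36no_not_unit_pow hB (by omega) h

theorem S36IsOrd.ne_zero (hB : VtBase ι r π) {x : LaurentSeries E} {n : ℤ}
    (h : S36IsOrd ι r π x n) : x ≠ 0 := by
  intro hx
  have h1 := VtUnit.ne_zero hB.inj h
  rw [hx, zero_mul] at h1
  exact h1 rfl

theorem S36IsOrd.eq (hB : VtBase ι r π) {x : LaurentSeries E} {n : ℤ}
    (h : S36IsOrd ι r π x n) :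
    x = (x * (HahnSeries.C (ι π) : LaurentSeries E) ^ (-n)) *
      (HahnSeries.C (ι π) : LaurentSeries E) ^ n := by
  rw [mul_assoc, ← zpow_add₀ hB.Cιπ_ne, neg_add_cancel, zpow_zero, mul_one]

theorem s36IsOrd_of_eq (hB : VtBase ι r π) {x u : LaurentSeries E} {n : ℤ}
    (hu : VtUnit ι r u) (h : x = u * (HahnSeries.C (ι π) : LaurentSeries E) ^ n) :
    S36IsOrd ι r π x n := by
  unfold S36IsOrd
  rw [h, mul_assoc, ← zpow_add₀ hB.Cιπ_ne, add_neg_cancel, zpow_zero, mul_one]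
  exact hu

theorem S36IsOrd.mul (hB : VtBase ι r π) {x y : LaurentSeries E} {n m : ℤ}
    (hx : S36IsOrd ι r π x n) (hy : S36IsOrd ι r π y m) : S36IsOrd ι r π (x * y) (n + m) := by
  refine s36IsOrd_of_eq hB (VtUnit.mul hx hy) ?_
  conv_lhs => rw [hx.eq hB, hy.eq hB]
  rw [zpow_add₀ hB.Cιπ_ne]
  ring

theorem S36IsOrd.inv (hB : VtBase ι r π) {x : LaurentSeries E} {n : ℤ}
    (hx : S36IsOrd ι r π x n) : S36IsOrd ι r π x⁻¹ (-n) := by
  refine s36IsOrd_of_eq hB (VtUnit.inv hB.inj hx) ?_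
  rw [mul_inv, mul_assoc, inv_mul_cancel₀ (s36no_Cpi_zpow_ne hB (-n)), mul_one]

theorem s36IsOrd_unit (hB : VtBase ι r π) {x : LaurentSeries E} (hx : VtUnit ι r x) :
    S36IsOrd ι r π x 0 := by
  unfold S36IsOrd
  rw [neg_zero, zpow_zero, mul_one]
  exact hx

theorem s36IsOrd_one (hB : VtBase ι r π) : S36IsOrd ι r π (1 : LaurentSeries E) 0 :=
  s36IsOrd_unit hB VtUnit.one

theorem s36IsOrd_Cpi (hB : VtBase ι r π) :
    S36IsOrd ι r π (HahnSeries.C (ι π) : LaurentSeries E) 1 :=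
  s36IsOrd_of_eq hB VtUnit.one (by rw [zpow_one, one_mul])

/-- **uniqueness** of the order -/
theorem s36no_unique (hB : VtBase ι r π) {x : LaurentSeries E} {n n' : ℤ}
    (h : S36IsOrd ι r π x n) (h' : S36IsOrd ι r π x n') : n = n' := by
  by_contra hne
  have hx := h.ne_zero hB
  have h1 : S36IsOrd ι r π (x * x⁻¹) (n + -n') := h.mul hB (h'.inv hB)
  rw [mul_inv_cancel₀ hx] at h1
  unfold S36IsOrd at h1
  rw [one_mul] at h1
  exact s36no_not_unit_zpow hB (show -(n + -n') ≠ 0 by omega) h1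

/-- **existence** of the order -/
theorem s36no_exists (hB : VtBase ι r π) {x : LaurentSeries E} (hx : x ≠ 0)
    (hf : VtFrac ι x) : ∃ n : ℤ, S36IsOrd ι r π x n := by
  obtain ⟨d, u, hu, h | h⟩ := vt_exists_pow_mul (r := r) hB hx hf
  · exact ⟨d, s36IsOrd_of_eq hB hu (by rw [h, zpow_natCast]; ring)⟩
  · refine ⟨-d, ?_⟩
    have h2 : S36IsOrd ι r π x⁻¹ d := s36IsOrd_of_eq hB hu (by rw [h, zpow_natCast]; ring)
    have h3 := h2.inv hB
    rwa [inv_inv] at h3

/-- **the Gauss order** of a series (`0` if it has none) -/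
def s36noOrd (ι : A →+* E) (r : A →+* k) (π : A) (x : LaurentSeries E) : ℤ := by
  classical
  exact if h : ∃ n : ℤ, S36IsOrd ι r π x n then h.choose else 0

theorem s36noOrd_eq (hB : VtBase ι r π) {x : LaurentSeries E} {n : ℤ}
    (h : S36IsOrd ι r π x n) : s36noOrd ι r π x = n := by
  classical
  have hex : ∃ n : ℤ, S36IsOrd ι r π x n := ⟨n, h⟩
  unfold s36noOrd
  rw [dif_pos hex]
  exact s36no_unique hB hex.choose_spec h

theorem s36noOrd_spec (hB : VtBase ι r π) {x : LaurentSeries E} (hx : x ≠ 0)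
    (hf : VtFrac ι x) : S36IsOrd ι r π x (s36noOrd ι r π x) := by
  obtain ⟨n, hn⟩ := s36no_exists (r := r) hB hx hf
  rw [s36noOrd_eq hB hn]
  exact hn

theorem s36noOrd_mul (hB : VtBase ι r π) {x y : LaurentSeries E} (hx : x ≠ 0) (hy : y ≠ 0)
    (hfx : VtFrac ι x) (hfy : VtFrac ι y) :
    s36noOrd ι r π (x * y) = s36noOrd ι r π x + s36noOrd ι r π y :=
  s36noOrd_eq hB ((s36noOrd_spec hB hx hfx).mul hB (s36noOrd_spec hB hy hfy))

theorem s36noOrd_inv (hB : VtBase ι r π) {x : LaurentSeries E} (hx : x ≠ 0)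
    (hfx : VtFrac ι x) : s36noOrd ι r π x⁻¹ = -s36noOrd ι r π x :=
  s36noOrd_eq hB ((s36noOrd_spec hB hx hfx).inv hB)

theorem s36noOrd_one (hB : VtBase ι r π) : s36noOrd ι r π (1 : LaurentSeries E) = 0 :=
  s36noOrd_eq hB (s36IsOrd_one hB)

theorem s36noOrd_unit (hB : VtBase ι r π) {x : LaurentSeries E} (hx : VtUnit ι r x) :
    s36noOrd ι r π x = 0 :=
  s36noOrd_eq hB (s36IsOrd_unit hB hx)

theorem s36noOrd_C_pi (hB : VtBase ι r π) :
    s36noOrd ι r π (HahnSeries.C (ι π) : LaurentSeries E) = 1 :=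
  s36noOrd_eq hB (s36IsOrd_Cpi hB)

theorem s36noOrd_pow (hB : VtBase ι r π) {x : LaurentSeries E} (hx : x ≠ 0)
    (hfx : VtFrac ι x) (n : ℕ) : s36noOrd ι r π (x ^ n) = n * s36noOrd ι r π x := by
  induction n with
  | zero => simp [s36noOrd_one hB]
  | succ n ih =>
    have hf : VtFrac ι (x ^ n) := by
      clear ih
      induction n with
      | zero => rw [pow_zero]; exact VtFrac.one
      | succ n ih => rw [pow_succ]; exact ih.mul hB.inj hfx
    rw [pow_succ, s36noOrd_mul hB (pow_ne_zero n hx) hx hf hfx, ih]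
    push_cast
    ring

theorem s36no_vtFrac_prod (hB : VtBase ι r π) {κ : Type*} (s : Finset κ)
    (f : κ → LaurentSeries E) (hf : ∀ i ∈ s, VtFrac ι (f i)) : VtFrac ι (∏ i ∈ s, f i) := by
  classical
  induction s using Finset.induction_on with
  | empty => rw [Finset.prod_empty]; exact VtFrac.one
  | insert a s ha ih =>
    rw [Finset.prod_insert ha]
    exact (hf a (Finset.mem_insert_self a s)).mul hB.inj
      (ih fun i hi => hf i (Finset.mem_insert_of_mem hi))

theorem s36noOrd_prod (hB : VtBase ι r π) {κ : Type*} (s : Finset κ)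
    (f : κ → LaurentSeries E) (h0 : ∀ i ∈ s, f i ≠ 0) (hf : ∀ i ∈ s, VtFrac ι (f i)) :
    s36noOrd ι r π (∏ i ∈ s, f i) = ∑ i ∈ s, s36noOrd ι r π (f i) := by
  classical
  induction s using Finset.induction_on with
  | empty => rw [Finset.prod_empty, Finset.sum_empty]; exact s36noOrd_one hB
  | insert a s ha ih =>
    have h0' : ∀ i ∈ s, f i ≠ 0 := fun i hi => h0 i (Finset.mem_insert_of_mem hi)
    have hf' : ∀ i ∈ s, VtFrac ι (f i) := fun i hi => hf i (Finset.mem_insert_of_mem hi)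
    rw [Finset.prod_insert ha, Finset.sum_insert ha,
      s36noOrd_mul hB (h0 a (Finset.mem_insert_self a s))
        (Finset.prod_ne_zero_iff.mpr h0') (hf a (Finset.mem_insert_self a s))
        (s36no_vtFrac_prod hB s f hf'), ih h0' hf']

theorem s36noOrd_eq_zero_iff (hB : VtBase ι r π) {x : LaurentSeries E} (hx : x ≠ 0)
    (hf : VtFrac ι x) : s36noOrd ι r π x = 0 ↔ VtUnit ι r x := by
  constructor
  · intro h
    have := s36noOrd_spec (r := r) hB hx hf
    rw [h] at this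
    unfold S36IsOrd at this
    rwa [neg_zero, zpow_zero, mul_one] at this
  · exact s36noOrd_unit hB

theorem s36noOrd_nonneg_iff (hB : VtBase ι r π) {x : LaurentSeries E} (hx : x ≠ 0)
    (hf : VtFrac ι x) : 0 ≤ s36noOrd ι r π x ↔ x ∈ gaussRing ι r := by
  have hs := s36noOrd_spec (r := r) hB hx hf
  constructor
  · intro h
    obtain ⟨m, hm⟩ := Int.eq_ofNat_of_zero_le h
    rw [hs.eq hB, hm, zpow_natCast]
    rw [hm] at hs
    exact (gaussRing ι r).mul_mem (VtUnit.mem hs)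
      ((gaussRing ι r).pow_mem (hahnC_mem_gaussRing r π) m)
  · intro hmem
    by_contra hneg
    rw [not_le] at hneg
    obtain ⟨m, hm⟩ := Int.eq_ofNat_of_zero_le (show 0 ≤ -s36noOrd ι r π x by omega)
    have hu : VtUnit ι r (x * (HahnSeries.C (ι π) : LaurentSeries E) ^ m) := by
      have := hs
      unfold S36IsOrd at this
      rwa [hm, zpow_natCast] at this
    have hCm : (HahnSeries.C (ι π) : LaurentSeries E) ^ m ∈ gaussRing ι r :=
      (gaussRing ι r).pow_mem (hahnC_mem_gaussRing r π) m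
    have hm0 : m ≠ 0 := by omega
    have h1 := hu.gaussRed_ne hB.inj ((gaussRing ι r).mul_mem hmem hCm)
    apply h1
    have e1 : (⟨x * (HahnSeries.C (ι π) : LaurentSeries E) ^ m,
        (gaussRing ι r).mul_mem hmem hCm⟩ : gaussRing ι r) =
        ⟨x, hmem⟩ * ⟨HahnSeries.C (ι π), hahnC_mem_gaussRing r π⟩ ^ m := Subtype.ext rfl
    have e2 : gaussRed r hB.inj
        (⟨HahnSeries.C (ι π), hahnC_mem_gaussRing r π⟩ : gaussRing ι r) = 0 := by
      have e3 : (⟨HahnSeries.C (ι π), hahnC_mem_gaussRing r π⟩ : gaussRing ι r) =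
          ⟨coeffMap ι (HahnSeries.C π), coeffMap_mem_gaussRing ι r _⟩ :=
        Subtype.ext (coeffMap_hahnC ι π).symm
      rw [e3, gaussRed_coeffMap, coeffMap_hahnC, hB.rπ, map_zero]
    rw [e1, map_mul, map_pow, e2, zero_pow hm0, mul_zero]

end Ord

section Map

variable {A E k A' E' k' : Type*} [CommRing A] [Field E] [Field k]
  [CommRing A'] [Field E'] [Field k']
  {ι : A →+* E} {r : A →+* k} {π : A} {ι' : A' →+* E'} {r' : A' →+* k'} {π' : A'}

/-- **transport of the order** along a ring homomorphism `φ` of series which preserves the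
units of the Gauss rings and maps `π` to an element of order `e`. -/
theorem S36IsOrd.map (hB : VtBase ι r π) (hB' : VtBase ι' r' π')
    (φ : LaurentSeries E →+* LaurentSeries E')
    (hφ : ∀ u, VtUnit ι r u → VtUnit ι' r' (φ u)) {e : ℤ}
    (he : S36IsOrd ι' r' π' (φ (HahnSeries.C (ι π))) e) {x : LaurentSeries E} {n : ℤ}
    (hx : S36IsOrd ι r π x n) : S36IsOrd ι' r' π' (φ x) (n * e) := by
  have hzpow : ∀ m : ℤ, S36IsOrd ι' r' π' (φ ((HahnSeries.C (ι π) : LaurentSeries E) ^ m))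
      (m * e) := by
    have hnat : ∀ m : ℕ, S36IsOrd ι' r' π'
        (φ ((HahnSeries.C (ι π) : LaurentSeries E) ^ m)) (m * e) := by
      intro m
      induction m with
      | zero =>
        rw [pow_zero, map_one, Nat.cast_zero, zero_mul]
        exact s36IsOrd_one hB'
      | succ m ih =>
        rw [pow_succ, map_mul]
        have := ih.mul hB' he
        rwa [show ((m : ℤ) * e + e) = ((m + 1 : ℕ) : ℤ) * e by push_cast; ring] at this
    intro m
    rcases le_total 0 m with h0 | h0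
    · obtain ⟨a, rfl⟩ := Int.eq_ofNat_of_zero_le h0
      rw [zpow_natCast]
      exact hnat a
    · obtain ⟨a, ha⟩ := Int.eq_ofNat_of_zero_le (show 0 ≤ -m by omega)
      have hm : m = -(a : ℤ) := by omega
      rw [hm, zpow_neg, zpow_natCast, map_inv₀, neg_mul]
      exact (hnat a).inv hB'
  have h1 := (s36IsOrd_unit hB' (hφ _ hx)).mul hB' (hzpow n)
  rw [← map_mul, ← hx.eq hB, zero_add] at h1
  exact h1

theorem s36noOrd_map (hB : VtBase ι r π) (hB' : VtBase ι' r' π')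
    (φ : LaurentSeries E →+* LaurentSeries E')
    (hφ : ∀ u, VtUnit ι r u → VtUnit ι' r' (φ u)) {e : ℤ}
    (he : S36IsOrd ι' r' π' (φ (HahnSeries.C (ι π))) e) {x : LaurentSeries E} (hx : x ≠ 0)
    (hf : VtFrac ι x) : s36noOrd ι' r' π' (φ x) = s36noOrd ι r π x * e :=
  s36noOrd_eq hB' (S36IsOrd.map hB hB' φ hφ he (s36noOrd_spec hB hx hf))

end Map

section Emb

variable {A E k : Type*} [CommRing A] [Field E] [Field k]
  {ι : A →+* E} {r : A →+* k} {π : A} {F : Type*} [Field F]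
  (hB : VtBase ι r π) (e : F →+* LaurentSeries E) (hfrac : ∀ x : F, VtFrac ι (e x))

/-- the `ℤ`-valued order of the vertical valuation `vtSub hB e hfrac` -/
def s36noOrdE (r : A →+* k) (π : A) (e : F →+* LaurentSeries E) (x : F) : ℤ :=
  s36noOrd (ι := ι) r π (e x)

include hB hfrac in
theorem s36noOrdE_mul {x y : F} (hx : x ≠ 0) (hy : y ≠ 0) :
    s36noOrdE (ι := ι) r π e (x * y) = s36noOrdE (ι := ι) r π e x + s36noOrdE (ι := ι) r π e y := by
  unfold s36noOrdE
  rw [map_mul]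
  exact s36noOrd_mul hB ((map_ne_zero e).mpr hx) ((map_ne_zero e).mpr hy) (hfrac x) (hfrac y)

include hB hfrac in
theorem s36noOrdE_eq_zero_iff {x : F} (hx : x ≠ 0) :
    s36noOrdE (ι := ι) r π e x = 0 ↔ (vtSub hB e hfrac).valuation x = 1 := by
  unfold s36noOrdE
  rw [s36noOrd_eq_zero_iff hB ((map_ne_zero e).mpr hx) (hfrac x),
    vtSub_valuation_eq_one_iff]

include hB hfrac in
theorem s36noOrdE_nonneg_iff {x : F} (hx : x ≠ 0) :
    0 ≤ s36noOrdE (ι := ι) r π e x ↔ x ∈ vtSub hB e hfrac := by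
  unfold s36noOrdE
  rw [s36noOrd_nonneg_iff hB ((map_ne_zero e).mpr hx) (hfrac x), mem_vtSub]

include hB hfrac in
theorem s36noOrdE_pos_iff {x : F} (hx : x ≠ 0) :
    0 < s36noOrdE (ι := ι) r π e x ↔ x ∈ (vtSub hB e hfrac).nonunits := by
  rw [ValuationSubring.mem_nonunits_iff, lt_iff_le_and_ne,
    s36noOrdE_nonneg_iff hB e hfrac hx, ← (vtSub hB e hfrac).valuation_le_one_iff,
    lt_iff_le_and_ne, ne_comm, Ne, s36noOrdE_eq_zero_iff hB e hfrac hx]

end Emb

end Fermat.Agent.S36
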