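import Fermat.Agent.S36.N2ValG
import Fermat.Agent.S36.NormOrdAbs

/-!
# S36 / (I1) N2-val, generic part: the hypotheses of `aq_main` for a vertical valuation `vtSub`
over a RAMIFIED base

`(A, ι : A → E, r : A → k, π)` a base (`VtBase`), `e : F →+* E((Q))`, `V = vtSub hB e hfrac`.
The constant `c ∈ F` (the uniformizer of the SMALL base) has order `n` in `V`
(`S36IsOrd ι r π (e c) n`: `n = 1` for `V_a`, `V_b`; `n = q − 1` for `V_c`).

* `s36vt_isOrd_C`  : `a = unit · π ^ n` in the base ⇒ `C (ι a)` has order `n`;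
* `s36vt_hπV`      : `0 < n` ⇒ `c ∈ 𝔪(V)`;
* `s36vt_hram`     : `n ≤ m` ⇒ `x ∈ 𝔪(V) → ∃ z ∈ V, x ^ m = c · z`;
* `s36vt_hU`       : `n = 1` ⇒ `𝔪(V) = c V`;
* `s36vt_mem_of_isIntegral`, `s36vt_hBV`, `s36vt_hBV_inv` : the charts lie in `V`;
* `s36vt_ne_of_mem` : separation of two valuation rings by an element.
-/

set_option autoImplicit false
set_option linter.unusedSectionVars false
set_option linter.style.haveILetI false

noncomputable section

namespace Fermat.Agent.S36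

open ModularCurve Fermat.Agent.INJ Fermat.Agent.UNIP

section generic

variable {A E k : Type*} [CommRing A] [Field E] [Field k]
  {ι : A →+* E} {r : A →+* k} {π : A} {F : Type*} [Field F]
  (hB : VtBase ι r π) (e : F →+* LaurentSeries E) (hfrac : ∀ x : F, VtFrac ι (e x))

include hB in
/-- a constant `a = unit · π ^ n` has order `n` -/
theorem s36vt_isOrd_C {a : A} (u : Aˣ) (n : ℕ) (h : a = u * π ^ n) :
    S36IsOrd ι r π (HahnSeries.C (ι a) : LaurentSeries E) n := by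
  have hu : r (u : A) ≠ 0 := by
    intro h0
    have h1 : r (u : A) * r ((u⁻¹ : Aˣ) : A) = 1 := by
      rw [← map_mul, Units.mul_inv, map_one]
    rw [h0, zero_mul] at h1
    exact zero_ne_one h1
  refine s36IsOrd_of_eq hB (vtUnit_C (ι := ι) hu) ?_
  rw [h, map_mul, map_mul, map_pow, map_pow, zpow_natCast]

include hB in
theorem s36vt_ne_zero_of_ord {c : F} {n : ℤ} (hc : S36IsOrd ι r π (e c) n) : c ≠ 0 :=
  fun h0 => hc.ne_zero hB (by rw [h0, map_zero])

/-- **hπV**: a constant of positive order lies in `𝔪(V)` -/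
theorem s36vt_hπV {c : F} {n : ℤ} (hc : S36IsOrd ι r π (e c) n) (hn : 0 < n) :
    c ∈ (vtSub hB e hfrac).nonunits := by
  rw [← s36noOrdE_pos_iff hB e hfrac (s36vt_ne_zero_of_ord hB e hc)]
  unfold s36noOrdE
  rw [s36noOrd_eq hB hc]
  exact hn

/-- **hram**: if `c` has order `n ≤ m`, the `m`-th power of every element of `𝔪(V)` is divisible
by `c` in `V`. -/
theorem s36vt_hram {c : F} {n : ℤ} (hc : S36IsOrd ι r π (e c) n) {m : ℕ} (hnm : n ≤ m)
    {x : F} (hx : x ∈ (vtSub hB e hfrac).nonunits) :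
    ∃ z ∈ vtSub hB e hfrac, x ^ m = c * z := by
  have hc0 : c ≠ 0 := s36vt_ne_zero_of_ord hB e hc
  obtain ⟨hmem, hred⟩ := (vtSub_mem_nonunits_iff hB e hfrac).mp hx
  obtain ⟨y, hy⟩ := (gaussRed_eq_zero_iff_dvd r hB.inj hB.rπ hB.ker ⟨e x, hmem⟩).mp hred
  have hy' : e x = HahnSeries.C (ι π) * (y : LaurentSeries E) := hy
  obtain ⟨d, hd⟩ : ∃ d : ℕ, (m : ℤ) = n + d := ⟨(m - n).toNat, by omega⟩
  have hCπ := hB.Cιπ_ne
  obtain ⟨u, hu, hec⟩ : ∃ u : LaurentSeries E, VtUnit ι r u ∧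
      e c = u * (HahnSeries.C (ι π) : LaurentSeries E) ^ n := ⟨_, hc, hc.eq hB⟩
  have hu0 := hu.ne_zero hB.inj
  refine ⟨x ^ m / c, ?_, by rw [mul_div_cancel₀ _ hc0]⟩
  rw [mem_vtSub, map_div₀, map_pow, hy', mul_pow, hec]
  have hCm : (HahnSeries.C (ι π) : LaurentSeries E) ^ m =
      (HahnSeries.C (ι π) : LaurentSeries E) ^ n * (HahnSeries.C (ι π) : LaurentSeries E) ^ d := by
    rw [← zpow_natCast, hd, zpow_add₀ hCπ, zpow_natCast]
  have hCn : (HahnSeries.C (ι π) : LaurentSeries E) ^ n ≠ 0 := zpow_ne_zero n hCπ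
  have key : (HahnSeries.C (ι π) : LaurentSeries E) ^ m * (y : LaurentSeries E) ^ m /
      (u * (HahnSeries.C (ι π) : LaurentSeries E) ^ n) =
      (HahnSeries.C (ι π) : LaurentSeries E) ^ d * (y : LaurentSeries E) ^ m * u⁻¹ := by
    rw [hCm, div_eq_iff (mul_ne_zero hu0 hCn)]
    have h1 : u⁻¹ * u = 1 := inv_mul_cancel₀ hu0
    linear_combination (-((HahnSeries.C (ι π) : LaurentSeries E) ^ n *
      (HahnSeries.C (ι π) : LaurentSeries E) ^ d * (y : LaurentSeries E) ^ m)) * h1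
  rw [key]
  exact (gaussRing ι r).mul_mem
    ((gaussRing ι r).mul_mem ((gaussRing ι r).pow_mem (hahnC_mem_gaussRing r π) d)
      ((gaussRing ι r).pow_mem y.2 m)) (hu.inv hB.inj).mem

/-- **hU**: if `c` has order `1`, `𝔪(V) = c V`. -/
theorem s36vt_hU {c : F} (hc : S36IsOrd ι r π (e c) 1) {x : F}
    (hx : x ∈ (vtSub hB e hfrac).nonunits) :
    ∃ z ∈ vtSub hB e hfrac, x = c * z := by
  obtain ⟨z, hz, hxz⟩ := s36vt_hram hB e hfrac hc (m := 1) (by norm_num) hx
  exact ⟨z, hz, by rwa [pow_one] at hxz⟩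

variable {A₀ : Type*} [CommRing A₀] [Algebra A₀ F]

/-- elements integral over `A₀[S]`, `S ⊆ V`, are in `V`. -/
theorem s36vt_mem_of_isIntegral
    (hconst : ∀ a : A₀, algebraMap A₀ F a ∈ vtSub hB e hfrac)
    (S : Set F) (hS : ∀ s ∈ S, s ∈ vtSub hB e hfrac) {x : F}
    (hx : IsIntegral ↥(Algebra.adjoin A₀ S) x) : x ∈ vtSub hB e hfrac := by
  refine vt_mem_of_isIntegral _ (fun y => ?_) hx
  show ((y : Algebra.adjoin A₀ S) : F) ∈ vtSub hB e hfrac
  obtain ⟨y, hy⟩ := y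
  show y ∈ vtSub hB e hfrac
  induction hy using Algebra.adjoin_induction with
  | mem s hs => exact hS s hs
  | algebraMap a => exact hconst a
  | add s t _ _ hs ht => exact (vtSub hB e hfrac).add_mem _ _ hs ht
  | mul s t _ _ hs ht => exact (vtSub hB e hfrac).mul_mem _ _ hs ht

/-- **hBV₁**: the chart `t` lies in `V` when (the expansion of) `t` is a series over `A` with
nonzero reduction. -/
theorem s36vt_hBV (hconst : ∀ a : A₀, algebraMap A₀ F a ∈ vtSub hB e hfrac)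
    {t : F} {T₀ : LaurentSeries A} (ht : e t = coeffMap ι T₀)
    (hT₀ : coeffMap r T₀ ≠ 0) {b : F}
    (hb : IsIntegral ↥(Algebra.adjoin A₀ ({t} : Set F)) b) : b ∈ vtSub hB e hfrac := by
  refine s36vt_mem_of_isIntegral hB e hfrac hconst _ ?_ hb
  rintro s rfl
  exact ((vt_valuation_eq_one_iff _ _).mp
    (vtSub_valuation_eq_one_of_eq_coeffMap hB e hfrac ht hT₀)).2.1

/-- **hBV₂**: the chart `t⁻¹` lies in `V`. -/
theorem s36vt_hBV_inv (hconst : ∀ a : A₀, algebraMap A₀ F a ∈ vtSub hB e hfrac)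
    {t : F} {T₀ : LaurentSeries A} (ht : e t = coeffMap ι T₀)
    (hT₀ : coeffMap r T₀ ≠ 0) {b : F}
    (hb : IsIntegral ↥(Algebra.adjoin A₀ ({t⁻¹} : Set F)) b) : b ∈ vtSub hB e hfrac := by
  refine s36vt_mem_of_isIntegral hB e hfrac hconst _ ?_ hb
  rintro s rfl
  exact ((vt_valuation_eq_one_iff _ _).mp
    (vtSub_valuation_eq_one_of_eq_coeffMap hB e hfrac ht hT₀)).2.2

end generic

section sep

variable {F : Type*} [Field F]

/-- two valuation rings are different if an element is in the maximal ideal of the first and a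
unit of the second -/
theorem s36vt_ne_of_mem {V₁ V₂ : ValuationSubring F} {x : F} (h1 : x ∈ V₁.nonunits)
    (h2 : x ∉ V₂.nonunits) : V₁ ≠ V₂ := by
  intro h
  rw [h] at h1
  exact h2 h1

end sep

end Fermat.Agent.S36

end
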