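import Fermat.Agent.UNIP.MGVertInertia
import Fermat.Agent.UNIP.ExplicitIdem
import Fermat.Agent.S28.Red

/-!
# S36 / G-N2, piece N2-val-hG: the hypotheses `hU`, `hG` of `aq_main` for `V_∞ = vtInf`

Abstract form (`vtSub hB e hfrac`, any base `VtBase ι r π`):
* `s36n2g_hU` : `x ∈ 𝔪(V) ⇒ x = c · z`, `z ∈ V`, where `e c = C (ι π)`;
* `s36n2g_hG` : `s ∈ A[t]` not divisible by `π` in `A[t]` (`EIPrimeTo π t s`) `⇒ s ∉ 𝔪(V)`,
  when `e t = coeffMap ι T₀` and the reduction of `T₀` is transcendental over `k`.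

Concrete form (`A` a valuation subring of `ℚ̄`, `K₀` an intermediate field with `A ∩ K₀` a DVR with
uniformizer `π`, ANY level `N`, `t = bgJ K₀ N = j`):
* `s36n2g_hU_inf`, `s36n2g_hG_inf` : `hU`, `hG` for `vtInf (vtBase_residue hπ) N`;
* `s36n2g_hπV_inf`, `s36n2g_harch_inf`, `s36n2g_hBV₁_inf`, `s36n2g_hBV₂_inf` : the other
  hypotheses of `aq_main` at `V_∞`, at ANY level `N`.
-/

set_option autoImplicit false
set_option linter.unusedSectionVars false
set_option linter.style.haveILetI false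

noncomputable section

namespace Fermat.Agent.S36

open ModularCurve Fermat.Agent.INJ Fermat.Agent.UNIP

section abs

variable {A E k : Type*} [CommRing A] [Field E] [Field k]
  {ι : A →+* E} {r : A →+* k} {π : A} {F : Type*} [Field F]
  (hB : VtBase ι r π) (e : F →+* LaurentSeries E) (hfrac : ∀ x : F, VtFrac ι (e x))

/-- **hU** (abstract): the maximal ideal of `V` is generated by the uniformizer of the base. -/
theorem s36n2g_hU {c : F} (hc : e c = HahnSeries.C (ι π)) {x : F}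
    (hx : x ∈ (vtSub hB e hfrac).nonunits) :
    ∃ z ∈ vtSub hB e hfrac, x = c * z := by
  obtain ⟨hmem, hred⟩ := (vtSub_mem_nonunits_iff hB e hfrac).mp hx
  obtain ⟨y, hy⟩ := (gaussRed_eq_zero_iff_dvd r hB.inj hB.rπ hB.ker ⟨e x, hmem⟩).mp hred
  have hy' : e x = HahnSeries.C (ι π) * (y : LaurentSeries E) := hy
  have hCπ := hB.Cιπ_ne
  have hc0 : c ≠ 0 := by
    intro h0
    rw [h0, map_zero] at hc
    exact hCπ hc.symm
  refine ⟨x / c, ?_, ?_⟩
  · rw [mem_vtSub, map_div₀, hc, hy', mul_div_assoc, mul_comm, div_mul_cancel₀ _ hCπ]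
    exact y.2
  · rw [mul_div_cancel₀ _ hc0]

/-- the reduction of a polynomial expression -/
theorem s36n2g_coeffMap_eval₂ {R S : Type*} [CommRing R] [CommRing S] (f : R →+* S)
    (P : Polynomial R) (T : LaurentSeries R) :
    coeffMap f (P.eval₂ (HahnSeries.C : R →+* LaurentSeries R) T) =
      (P.map f).eval₂ (HahnSeries.C : S →+* LaurentSeries S) (coeffMap f T) := by
  rw [Polynomial.hom_eval₂, Polynomial.eval₂_map]
  congr 1
  ext a : 1
  exact coeffMap_hahnC f a

/-- **hG** (abstract): an element of `A[t]` which is not divisible by `π` in `A[t]` is a unit of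
`V`, when the reduction of (the expansion of) `t` is transcendental over the residue field. -/
theorem s36n2g_hG_poly [Algebra A F]
    (hconst : ∀ a : A, e (algebraMap A F a) = HahnSeries.C (ι a))
    {t : F} {T₀ : LaurentSeries A} (ht : e t = coeffMap ι T₀)
    (htr : Transcendental k (coeffMap r T₀)) (P : Polynomial A) (hP : P.map r ≠ 0) :
    (vtSub hB e hfrac).valuation (Polynomial.aeval t P) = 1 := by
  have he : e (Polynomial.aeval t P) =
      coeffMap ι (P.eval₂ (HahnSeries.C : A →+* LaurentSeries A) T₀) := by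
    rw [s36n2g_coeffMap_eval₂, Polynomial.eval₂_map, Polynomial.aeval_def, Polynomial.hom_eval₂,
      ht]
    congr 1
    ext a : 1
    exact hconst a
  have hne : coeffMap r (P.eval₂ (HahnSeries.C : A →+* LaurentSeries A) T₀) ≠ 0 := by
    rw [s36n2g_coeffMap_eval₂]
    intro h0
    apply hP
    apply (transcendental_iff.mp htr) (P.map r)
    rw [Polynomial.aeval_def]
    have e1 : (algebraMap k (LaurentSeries k)) = (HahnSeries.C : k →+* LaurentSeries k) := by
      ext a : 1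
      rw [HahnSeries.C_apply]
      exact algebraMap_laurentSeries_eq_single k a
    rw [e1]
    exact h0
  exact vtSub_valuation_eq_one_of_eq_coeffMap hB e hfrac he hne

end abs

section absEI

variable {A E k : Type*} [CommRing A] [Field E] [Field k]
  {ι : A →+* E} {r : A →+* k} {π : A} {F : Type*} [Field F]
  (hB : VtBase ι r π) (e : F →+* LaurentSeries E) (hfrac : ∀ x : F, VtFrac ι (e x))

/-- **hG** (abstract, `EIPrimeTo` form). -/
theorem s36n2g_hG [Algebra A F]
    (hconst : ∀ a : A, e (algebraMap A F a) = HahnSeries.C (ι a))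
    {t : F} {T₀ : LaurentSeries A} (ht : e t = coeffMap ι T₀)
    (htr : Transcendental k (coeffMap r T₀)) {s : F} (hs : EIPrimeTo π t s) :
    s ∉ (vtSub hB e hfrac).nonunits := by
  obtain ⟨hmem, hnd⟩ := hs
  rw [Algebra.adjoin_singleton_eq_range_aeval] at hmem
  obtain ⟨P, rfl⟩ := hmem
  have hP : P.map r ≠ 0 := by
    intro h0
    have hdvd : ∀ i, π ∣ P.coeff i := fun i => hB.ker _ (by
      have := congrArg (fun Q : Polynomial k => Q.coeff i) h0
      simpa [Polynomial.coeff_map] using this)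
    obtain ⟨P', hP'⟩ := (Polynomial.C_dvd_iff_dvd_coeff π P).mpr hdvd
    apply hnd (Polynomial.aeval t P')
      (by rw [Algebra.adjoin_singleton_eq_range_aeval]; exact ⟨P', rfl⟩)
    show Polynomial.aeval t P = algebraMap A F π * Polynomial.aeval t P'
    rw [hP', map_mul, Polynomial.aeval_C]
  have h1 := s36n2g_hG_poly hB e hfrac hconst ht htr P hP
  rw [ValuationSubring.mem_nonunits_iff]
  show ¬ (vtSub hB e hfrac).valuation (Polynomial.aeval t P) < 1
  rw [h1]
  exact lt_irrefl _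

end absEI

section concrete

variable {A : ValuationSubring (AlgebraicClosure ℚ)}
  {K₀ : IntermediateField ℚ (AlgebraicClosure ℚ)}
  [IsDiscreteValuationRing ↥(beta0Ring A K₀)] {π : ↥(beta0Ring A K₀)} (hπ : Irreducible π)
  (N : ℕ)

/-- the constants of `A ∩ K₀` in `F_N(K₀)`, expanded -/
theorem s36n2g_const (a : ↥(beta0Ring A K₀)) :
    vtEmb ↥K₀ N (algebraMap ↥(beta0Ring A K₀) ↥(modularFunctionFieldFullC ↥K₀ N) a) =
      HahnSeries.C (algebraMap ↥(beta0Ring A K₀) ↥K₀ a) := by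
  rw [HahnSeries.C_apply]
  exact algebraMap_laurentSeries_eq_single ↥K₀ _

/-- the expansion of `j` -/
theorem s36n2g_bgJ :
    vtEmb ↥K₀ N (bgJ ↥K₀ N) =
      coeffMap (algebraMap ↥(beta0Ring A K₀) ↥K₀) (jqModC ↥(beta0Ring A K₀)) :=
  (coeffMap_jqModC _).symm

/-- **hU** for `V_∞` at any level `N`. -/
theorem s36n2g_hU_inf (x : ↥(modularFunctionFieldFullC ↥K₀ N))
    (hx : x ∈ (vtInf (vtBase_residue hπ) N).nonunits) :
    ∃ z ∈ vtInf (vtBase_residue hπ) N,
      x = algebraMap ↥(beta0Ring A K₀) ↥(modularFunctionFieldFullC ↥K₀ N) π * z :=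
  s36n2g_hU (vtBase_residue hπ) (vtEmb ↥K₀ N) _ (s36n2g_const N π) hx

/-- **hG** for `V_∞` at any level `N`: the elements of `A₀[j]` which are not divisible by `π` are
not in the maximal ideal of `V_∞`. -/
theorem s36n2g_hG_inf (s : ↥(modularFunctionFieldFullC ↥K₀ N))
    (hs : EIPrimeTo π (bgJ ↥K₀ N) s) : s ∉ (vtInf (vtBase_residue hπ) N).nonunits := by
  refine s36n2g_hG (vtBase_residue hπ) (vtEmb ↥K₀ N) _ (s36n2g_const N) (s36n2g_bgJ N) ?_ hs
  rw [coeffMap_jqModC]
  exact Fermat.Agent.S28.red_transcendental_jqModC _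

/-- **hπV** for `V_∞` at any level `N`. -/
theorem s36n2g_hπV_inf :
    algebraMap ↥(beta0Ring A K₀) ↥(modularFunctionFieldFullC ↥K₀ N) π ∈
      (vtInf (vtBase_residue hπ) N).nonunits :=
  vtSub_unif_mem_nonunits (vtBase_residue hπ) _ _ (s36n2g_const N π)

/-- constants: `a ∈ A ∩ K₀` is in `𝔪(V_∞)` iff it is in the maximal ideal of `A`. -/
theorem s36n2g_const_mem_nonunits_iff (a : ↥(beta0Ring A K₀)) :
    algebraMap ↥(beta0Ring A K₀) ↥(modularFunctionFieldFullC ↥K₀ N) a ∈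
      (vtInf (vtBase_residue hπ) N).nonunits ↔
      (((a : ↥K₀) : AlgebraicClosure ℚ)) ∈ A.nonunits := by
  rw [← beta0Ring_mem_maximalIdeal_iff, ← IsLocalRing.residue_eq_zero_iff]
  exact vtSub_const_mem_nonunits_iff (vtBase_residue hπ) _ _ (s36n2g_const N a)

/-- the constants of `A ∩ K₀` lie in `V_∞`. -/
theorem s36n2g_const_mem (a : ↥(beta0Ring A K₀)) :
    algebraMap ↥(beta0Ring A K₀) ↥(modularFunctionFieldFullC ↥K₀ N) a ∈
      vtInf (vtBase_residue hπ) N :=
  vtSub_const_mem (vtBase_residue hπ) _ _ (s36n2g_const N a)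

/-- **harch** for `V_∞` at any level `N`. -/
theorem s36n2g_harch_inf (a x : ↥(modularFunctionFieldFullC ↥K₀ N))
    (ha : a ∈ (vtInf (vtBase_residue hπ) N).nonunits) :
    ∃ n : ℕ, a ^ n * x ∈ (vtInf (vtBase_residue hπ) N).nonunits :=
  vtSub_arch (vtBase_residue hπ) (vtEmb ↥K₀ N) _ ha x

/-- `j` is a unit of `V_∞`. -/
theorem s36n2g_T_valuation :
    (vtInf (vtBase_residue hπ) N).valuation (bgJ ↥K₀ N) = 1 :=
  vtSub_valuation_eq_one_of_eq_coeffMap (vtBase_residue hπ) _ _ (s36n2g_bgJ N)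
    (by rw [coeffMap_jqModC]; exact jqModC_ne_zero_of_nontrivial _)

theorem s36n2g_T_mem : bgJ ↥K₀ N ∈ vtInf (vtBase_residue hπ) N :=
  ((vt_valuation_eq_one_iff _ _).mp (s36n2g_T_valuation hπ N)).2.1

theorem s36n2g_T_inv_mem : (bgJ ↥K₀ N)⁻¹ ∈ vtInf (vtBase_residue hπ) N :=
  ((vt_valuation_eq_one_iff _ _).mp (s36n2g_T_valuation hπ N)).2.2

/-- elements integral over `A₀[S]`, `S ⊆ V_∞`, are in `V_∞`. -/
theorem s36n2g_mem_of_isIntegral (S : Set ↥(modularFunctionFieldFullC ↥K₀ N))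
    (hS : ∀ s ∈ S, s ∈ vtInf (vtBase_residue hπ) N)
    {x : ↥(modularFunctionFieldFullC ↥K₀ N)}
    (hx : IsIntegral ↥(Algebra.adjoin ↥(beta0Ring A K₀) S) x) :
    x ∈ vtInf (vtBase_residue hπ) N := by
  refine vt_mem_of_isIntegral _ (fun y => ?_) hx
  show ((y : Algebra.adjoin ↥(beta0Ring A K₀) S) : ↥(modularFunctionFieldFullC ↥K₀ N)) ∈
    vtInf (vtBase_residue hπ) N
  obtain ⟨y, hy⟩ := y
  show y ∈ vtInf (vtBase_residue hπ) N
  induction hy using Algebra.adjoin_induction with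
  | mem s hs => exact hS s hs
  | algebraMap a => exact s36n2g_const_mem hπ N a
  | add s t _ _ hs ht => exact (vtInf (vtBase_residue hπ) N).add_mem _ _ hs ht
  | mul s t _ _ hs ht => exact (vtInf (vtBase_residue hπ) N).mul_mem _ _ hs ht

/-- **hBV₁** for `V_∞` at any level `N`: the chart `j` lies in `V_∞`. -/
theorem s36n2g_hBV₁_inf (b : ↥(modularFunctionFieldFullC ↥K₀ N))
    (hb : IsIntegral ↥(Algebra.adjoin ↥(beta0Ring A K₀)
      ({bgJ ↥K₀ N} : Set ↥(modularFunctionFieldFullC ↥K₀ N))) b) :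
    b ∈ vtInf (vtBase_residue hπ) N :=
  s36n2g_mem_of_isIntegral hπ N _ (by rintro s rfl; exact s36n2g_T_mem hπ N) hb

/-- **hBV₂** for `V_∞` at any level `N`: the chart `1 / j` lies in `V_∞`. -/
theorem s36n2g_hBV₂_inf (b : ↥(modularFunctionFieldFullC ↥K₀ N))
    (hb : IsIntegral ↥(Algebra.adjoin ↥(beta0Ring A K₀)
      ({(bgJ ↥K₀ N)⁻¹} : Set ↥(modularFunctionFieldFullC ↥K₀ N))) b) :
    b ∈ vtInf (vtBase_residue hπ) N :=
  s36n2g_mem_of_isIntegral hπ N _ (by rintro s rfl; exact s36n2g_T_inv_mem hπ N) hb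

end concrete

end Fermat.Agent.S36
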