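import Fermat.Agent.S36.N2ValI1
import Fermat.Agent.S36.N2ValRes

/-!
# S36 / (I1): `hne` for the concrete family `s36i1V` (helper93)

* `s36i1c_zeta_pow : (s36i1ZK hq hζ) ^ q = 1`;
* `s36i1c_injective`, **`s36i1c_hne`** : `∀ c c', c ≠ c' → V c ≠ V c'` for
  `V = s36i1V M hq hA hqM hζ ιC h` — the hypothesis `hne` of `s36tb_small`;
* `s36i1c_comap_alpha`, `s36i1c_comap_beta` : the restrictions of `V c` to `F_{Mq}(E₀)` along
  `s36Alpha`, `s36Beta` are `mgvV … (s36n2CompAlpha c)`, `mgvV … (s36n2CompBeta c)`.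
-/

set_option autoImplicit false
set_option linter.unusedSectionVars false
set_option linter.style.haveILetI false

noncomputable section

namespace Fermat.Agent.S36

open ModularCurve Fermat.Agent.UNIP Fermat.Agent.INJ Fermat.Agent.AL Fermat.Agent.ES

section Concrete

variable {q : ℕ} {A : ValuationSubring (AlgebraicClosure ℚ)} (M : ℕ) [NeZero M] [NeZero q]
  [IsDiscreteValuationRing ↥(beta0Ring A (beta0Field A))]
  {ζ : AlgebraicClosure ℚ}

/-- an embedding of `K = E₀(ζ)` into `ℂ` -/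
theorem s36i1c_exists_emb (A : ValuationSubring (AlgebraicClosure ℚ)) (ζ : AlgebraicClosure ℚ) :
    Nonempty (↥(s36n2bK A ζ) →+* ℂ) := by
  haveI : Algebra.IsAlgebraic ℚ (AlgebraicClosure ℚ) := AlgebraicClosure.isAlgebraic ℚ
  exact ⟨((IsAlgClosed.lift : AlgebraicClosure ℚ →ₐ[ℚ] ℂ).toRingHom).comp
    (algebraMap ↥(s36n2bK A ζ) (AlgebraicClosure ℚ))⟩

theorem s36i1c_zeta_pow (hq : q.Prime) (hζ : IsPrimitiveRoot ζ q) :
    (s36i1ZK (A := A) hq hζ) ^ q = 1 := by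
  apply Units.ext
  rw [Units.val_pow_eq_pow_val, Units.val_one]
  exact (s36i1ZK_isPrimitiveRoot (A := A) hq hζ).pow_eq_one

variable (hq : q.Prime) (hA : A.LiesOverPrime q) (hqM : ¬ q ∣ M) (hζ : IsPrimitiveRoot ζ q)
  (ιC : ↥(beta0Field A) →+* ℂ)
  (h : S36MidEmb ↥(s36n2bK A ζ) q M (s36i1ZK (A := A) hq hζ))

/-- restriction along `α` of the concrete family -/
theorem s36i1c_comap_alpha (c : S36Comp) :
    (s36i1V M hq hA hqM hζ ιC h c).comap (s36Alpha ↥(beta0Field A) M q) =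
      vtFam (vtBase_residue (beta0Ring_irreducible_q hq hA)) ιC hq hqM (s36n2CompAlpha c) := by
  obtain ⟨κ, -, hc⟩ := s36n2b_compat (A := A) (ζ := ζ) hq hA
  exact s36n2V_comap_alpha (vtBase_residue (beta0Ring_irreducible_q hq hA))
    (s36n2b_vtBase hq hA hζ) hc ιC hq hqM h (s36i1Z hq hζ) rfl c

/-- restriction along `β` of the concrete family -/
theorem s36i1c_comap_beta (c : S36Comp) :
    (s36i1V M hq hA hqM hζ ιC h c).comap (s36Beta ↥(beta0Field A) M q) =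
      vtFam (vtBase_residue (beta0Ring_irreducible_q hq hA)) ιC hq hqM (s36n2CompBeta c) := by
  obtain ⟨κ, -, hc⟩ := s36n2b_compat (A := A) (ζ := ζ) hq hA
  obtain ⟨ιC'⟩ := s36i1c_exists_emb A ζ
  exact s36n2V_comap_beta (vtBase_residue (beta0Ring_irreducible_q hq hA))
    (s36n2b_vtBase hq hA hζ) hc ιC ιC' hq hqM h (s36i1Z hq hζ) rfl (s36i1c_zeta_pow hq hζ) c

theorem s36i1c_injective : Function.Injective (s36i1V M hq hA hqM hζ ιC h) := by
  obtain ⟨κ, -, hc⟩ := s36n2b_compat (A := A) (ζ := ζ) hq hA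
  obtain ⟨ιC'⟩ := s36i1c_exists_emb A ζ
  haveI : Fact q.Prime := ⟨hq⟩
  haveI : CharP (IsLocalRing.ResidueField ↥(beta0Ring A (beta0Field A))) q := mgvl_charP hq hA
  exact s36n2V_injective (vtBase_residue (beta0Ring_irreducible_q hq hA))
    (s36n2b_vtBase hq hA hζ) hc ιC ιC' hq hqM h (s36i1Z hq hζ) rfl (s36i1c_zeta_pow hq hζ)

/-- **`hne`** of `s36tb_small` -/
theorem s36i1c_hne : ∀ c c', c ≠ c' →
    s36i1V M hq hA hqM hζ ιC h c ≠ s36i1V M hq hA hqM hζ ιC h c' :=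
  fun _ _ hcc e => hcc (s36i1c_injective M hq hA hqM hζ ιC h e)

end Concrete

end Fermat.Agent.S36
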