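import Fermat.Agent.S36.NormOrdInv
import Fermat.Agent.S36.PlanGeo
import Fermat.Agent.S36.N2W
import Fermat.Agent.S36.MidCuspPlan
import Fermat.Agent.UNIP.MGVert

/-!
# S36 / G-nr-ord, part 3: the orders `va vb vc winf w0` and the four norm–order formulas
(helper31)

Generic setting: fields `E ⊂ K` (`ψ : E →+* K`), bases `(A₀, ι₀, r₀, π₀)` of `E` and
`(A₁, ι₁, r₁, π₁)` of `K` with `π₀ = unit · π₁ ^ (q − 1)`, `ζ ∈ A₁ˣ` a primitive `q`-th root of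
unity, and for every `1 ≤ b < q` an automorphism of `K/E` with `ζ ↦ ζ ^ b` preserving the
integral structure (`S36NoData`).  Level convention of `PlanGeo.lean`:
`F′ = F_{Mq}(E)`, `F = F_{Mqq}(E)`.

* `s36noVa`, `s36noVb`, `s36noVc`, `s36noWinf`, `s36noW0` : the `ℤ`-valued orders
  (`va π = 1`, `vb π = 1`, `vc π = q − 1`; `winf π = w0 π = 1`);
* `s36no_alpha_inf : winf (Nα x) = va x + vc x`,   `s36no_alpha_zero : w0 (Nα x) = q · vb x`,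
  `s36no_beta_inf  : winf (Nβ x) = q · va x`,      `s36no_beta_zero  : w0 (Nβ x) = vc x + vb x`
  from the four norm PRODUCT formulas (helper95, `S36/NormConj.lean`), taken as hypotheses here.
-/

set_option autoImplicit false
set_option linter.unusedSectionVars false
set_option linter.unusedVariables false

noncomputable section

namespace Fermat.Agent.S36

open ModularCurve Fermat.Agent.INJ Fermat.Agent.UNIP Fermat.Agent.ES Fermat.Agent.AL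
open Fermat.Agent.STB

section Data

variable {A₀ E k₀ A₁ K k₁ : Type*} [CommRing A₀] [Field E] [Field k₀]
  [CommRing A₁] [Field K] [Field k₁]

/-- the arithmetic data of G-nr-ord -/
structure S36NoData (ι₀ : A₀ →+* E) (r₀ : A₀ →+* k₀) (π₀ : A₀) (ι₁ : A₁ →+* K)
    (r₁ : A₁ →+* k₁) (π₁ : A₁) (ψ : E →+* K) (q : ℕ) (ζ : Kˣ) : Prop where
  hB₀ : VtBase ι₀ r₀ π₀
  hB₁ : VtBase ι₁ r₁ π₁
  compat : ∃ κ : k₀ →+* k₁, VtCompat ι₀ r₀ ι₁ r₁ ψ κ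
  ram : S36IsOrd ι₁ r₁ π₁ (HahnSeries.C (ψ (ι₀ π₀)) : LaurentSeries K) ((q : ℤ) - 1)
  zeta : ∃ z : A₁ˣ, ι₁ z = ζ
  gal : ∀ b : ℕ, 1 ≤ b → b < q → ∃ (σ : K →+* K) (κ' : k₁ →+* k₁),
    (∀ x, σ (ψ x) = ψ x) ∧ σ (ζ : K) = ((ζ ^ b : Kˣ) : K) ∧ VtCompat ι₁ r₁ ι₁ r₁ σ κ' ∧
      S36IsOrd ι₁ r₁ π₁ (HahnSeries.C (σ (ι₁ π₁)) : LaurentSeries K) 1

variable {ι₀ : A₀ →+* E} {r₀ : A₀ →+* k₀} {π₀ : A₀} {ι₁ : A₁ →+* K}
  {r₁ : A₁ →+* k₁} {π₁ : A₁} {ψ : E →+* K} {q : ℕ} {ζ : Kˣ}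

theorem S36NoData.zeta_pow (D : S36NoData ι₀ r₀ π₀ ι₁ r₁ π₁ ψ q ζ) (b : ℕ) :
    ∃ z : A₁ˣ, ι₁ z = ((ζ ^ b : Kˣ) : K) := by
  obtain ⟨z, hz⟩ := D.zeta
  exact ⟨z ^ b, by rw [Units.val_pow_eq_pow_val, map_pow, hz, Units.val_pow_eq_pow_val]⟩

theorem S36NoData.zeta_pow_inv (D : S36NoData ι₀ r₀ π₀ ι₁ r₁ π₁ ψ q ζ) (b : ℕ) :
    ∃ z : A₁ˣ, ι₁ z = (((ζ ^ b)⁻¹ : Kˣ) : K) := by
  obtain ⟨z, hz⟩ := D.zeta_pow b
  refine ⟨z⁻¹, ?_⟩
  have h1 : ι₁ (z : A₁) * ι₁ ((z⁻¹ : A₁ˣ) : A₁) = 1 := by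
    rw [← map_mul, Units.mul_inv, map_one]
  rw [hz] at h1
  exact (Units.inv_eq_of_mul_eq_one_right h1).symm

/-- the order of a series over `E`, read over `K` -/
theorem S36NoData.ord_bc (D : S36NoData ι₀ r₀ π₀ ι₁ r₁ π₁ ψ q ζ) {x : LaurentSeries E}
    (hx : x ≠ 0) (hf : VtFrac ι₀ x) :
    s36noOrd ι₁ r₁ π₁ (coeffMap ψ x) = s36noOrd ι₀ r₀ π₀ x * ((q : ℤ) - 1) := by
  obtain ⟨κ, hκ⟩ := D.compat
  exact s36noOrd_compat D.hB₀ D.hB₁ hκ D.ram hx hf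

theorem S36NoData.frac_bc (D : S36NoData ι₀ r₀ π₀ ι₁ r₁ π₁ ψ q ζ) {x : LaurentSeries E}
    (hf : VtFrac ι₀ x) : VtFrac ι₁ (coeffMap ψ x) := by
  obtain ⟨κ, hκ⟩ := D.compat
  exact s36no_frac_compat hκ D.hB₀.inj hf

theorem s36no_coeffMap_ne_zero (ψ : E →+* K) {x : LaurentSeries E} (hx : x ≠ 0) :
    coeffMap ψ x ≠ 0 := fun h =>
  hx (coeffMap_inj_of_injective ψ ψ.injective (by rw [h, map_zero]))

end Data

section Mid

variable {A₁ K k₁ : Type*} [CommRing A₁] [Field K] [Field k₁]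
  {ι₁ : A₁ →+* K} {r₁ : A₁ →+* k₁} {π₁ : A₁}
  {q M : ℕ} [NeZero q] [NeZero M] [NeZero (M * q)] [NeZero (M * q * q)]

theorem s36no_frac_j (d : ℕ) [NeZero d] : VtFrac ι₁ (qExpand K d (jqModC K)) := by
  have h : coeffMap ι₁ (qExpand A₁ d (jqModC A₁)) = qExpand K d (jqModC K) :=
    coeffMap_jqNModC ι₁ d
  rw [← h]
  exact vtFrac_coeffMap _

/-- **the values of the expansion at the middle cusp are quotients of integral series** -/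
theorem s36no_frac_mid (hB₁ : VtBase ι₁ r₁ π₁) (hq : q.Prime) {ζ' : Kˣ}
    (hz : ∃ z : A₁ˣ, ι₁ z = ζ') (h : S36MidEmb K q M ζ')
    (y : modularFunctionFieldFullC K (M * q * q)) : VtFrac ι₁ (h.emb y) := by
  set φ : modularFunctionFieldFullC K (M * q * q) →+* LaurentSeries K := h.emb.toRingHom with hφ
  have hφy : ∀ y, h.emb y = φ y := fun _ => rfl
  rw [hφy]
  obtain ⟨y, hy⟩ := y
  refine IntermediateField.adjoin_induction (F := K) (s := divisorExpansionsC K (M * q * q))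
    (p := fun x hx => VtFrac ι₁ (φ ⟨x, hx⟩)) ?_ ?_ ?_ ?_ ?_ hy
  · rintro x ⟨e, hne, hdvd, rfl⟩
    have := hne
    rcases s36mid_divisor_cases hq hdvd with he' | ⟨d, hd, he⟩
    · rw [← hφy, h.emb_low e he']
      exact s36no_frac_j e
    · have hd0 : d ≠ 0 := fun h0 => NeZero.ne M (by rw [h0, zero_dvd_iff] at hd; exact hd)
      have : NeZero d := ⟨hd0⟩
      subst he
      rw [← hφy, h.emb_high d hd]
      exact s36no_frac_kronRot' ζ' hz (s36no_frac_j d)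
  · intro c
    have e1 : (⟨algebraMap K (LaurentSeries K) c, IntermediateField.algebraMap_mem _ c⟩ :
        modularFunctionFieldFullC K (M * q * q)) = algebraMap K _ c := rfl
    rw [e1, ← hφy, h.emb.commutes, algebraMap_laurentSeries_eq_single]
    exact vtFrac_C hB₁.frac c
  · intro x y hx hy h1 h2
    have e : (⟨x + y, add_mem hx hy⟩ : modularFunctionFieldFullC K (M * q * q)) =
        ⟨x, hx⟩ + ⟨y, hy⟩ := rfl
    rw [e, RingHom.map_add]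
    exact h1.add hB₁.inj h2
  · intro x hx h1
    have e : (⟨x⁻¹, inv_mem hx⟩ : modularFunctionFieldFullC K (M * q * q)) = (⟨x, hx⟩)⁻¹ := rfl
    rw [e, map_inv₀]
    exact h1.inv hB₁.inj
  · intro x y hx hy h1 h2
    have e : (⟨x * y, mul_mem hx hy⟩ : modularFunctionFieldFullC K (M * q * q)) =
        ⟨x, hx⟩ * ⟨y, hy⟩ := rfl
    rw [e, RingHom.map_mul]
    exact h1.mul hB₁.inj h2

end Mid

section Orders

variable {A₀ E k₀ A₁ K k₁ : Type*} [CommRing A₀] [Field E] [Field k₀]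
  [CommRing A₁] [Field K] [Field k₁]
  (ι₀ : A₀ →+* E) (r₀ : A₀ →+* k₀) (π₀ : A₀) (ι₁ : A₁ →+* K) (r₁ : A₁ →+* k₁) (π₁ : A₁)
  (ψ : E →+* K) (ιC : E →+* ℂ)
  {q M : ℕ} [NeZero q] [NeZero M] [NeZero (M * q)] [NeZero (M * q * q)]
  (hq : q.Prime) (hqM : ¬ q ∣ M) {ζ : Kˣ}

/-- `v_a`: the Gauss order of the expansion at `∞` (`va π₀ = 1`) -/
def s36noVa (x : modularFunctionFieldFullC E (M * q * q)) : ℤ :=
  s36noOrd ι₀ r₀ π₀ (x : LaurentSeries E)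

/-- `v_b = v_a ∘ w_{q²}` -/
def s36noVb (x : modularFunctionFieldFullC E (M * q * q)) : ℤ :=
  s36noVa ι₀ r₀ π₀ (s36n2W E ιC hq hqM x)

/-- `v_c`: the Gauss order of the expansion at the middle cusp, over `K` (`vc π₀ = q − 1`) -/
def s36noVc (h : S36MidEmb K q M ζ) (x : modularFunctionFieldFullC E (M * q * q)) : ℤ :=
  s36noOrd ι₁ r₁ π₁ (h.emb (mgaCoeffHom ψ (M * q * q) x))

/-- `w_∞` on `F′` -/
def s36noWinf (y : modularFunctionFieldFullC E (M * q)) : ℤ :=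
  s36noOrd ι₀ r₀ π₀ (y : LaurentSeries E)

/-- `w_0 = w_∞ ∘ w_q` on `F′` -/
def s36noW0 (y : modularFunctionFieldFullC E (M * q)) : ℤ :=
  s36noWinf ι₀ r₀ π₀ (atkinLehner E ιC hq hqM y)

variable {ι₀ r₀ π₀ ι₁ r₁ π₁ ψ}

theorem s36no_coe_ne_zero {N : ℕ} {x : modularFunctionFieldFullC E N} (hx : x ≠ 0) :
    (x : LaurentSeries E) ≠ 0 := fun h => hx (Subtype.ext h)

theorem s36noWinf_mul (hB₀ : VtBase ι₀ r₀ π₀) {x y : modularFunctionFieldFullC E (M * q)}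
    (hx : x ≠ 0) (hy : y ≠ 0) :
    s36noWinf ι₀ r₀ π₀ (x * y) = s36noWinf ι₀ r₀ π₀ x + s36noWinf ι₀ r₀ π₀ y :=
  s36noOrd_mul hB₀ (s36no_coe_ne_zero hx) (s36no_coe_ne_zero hy)
    (vt_frac_fullC hB₀ _ x.2) (vt_frac_fullC hB₀ _ y.2)

theorem s36noW0_mul (hB₀ : VtBase ι₀ r₀ π₀) {x y : modularFunctionFieldFullC E (M * q)}
    (hx : x ≠ 0) (hy : y ≠ 0) :
    s36noW0 ι₀ r₀ π₀ ιC hq hqM (x * y) =
      s36noW0 ι₀ r₀ π₀ ιC hq hqM x + s36noW0 ι₀ r₀ π₀ ιC hq hqM y := by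
  unfold s36noW0
  rw [map_mul]
  exact s36noWinf_mul hB₀ ((map_ne_zero _).mpr hx) ((map_ne_zero _).mpr hy)

theorem s36noVa_mul (hB₀ : VtBase ι₀ r₀ π₀) {x y : modularFunctionFieldFullC E (M * q * q)}
    (hx : x ≠ 0) (hy : y ≠ 0) :
    s36noVa ι₀ r₀ π₀ (x * y) = s36noVa ι₀ r₀ π₀ x + s36noVa ι₀ r₀ π₀ y :=
  s36noOrd_mul hB₀ (s36no_coe_ne_zero hx) (s36no_coe_ne_zero hy)
    (vt_frac_fullC hB₀ _ x.2) (vt_frac_fullC hB₀ _ y.2)

theorem s36noVb_mul (hB₀ : VtBase ι₀ r₀ π₀) {x y : modularFunctionFieldFullC E (M * q * q)}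
    (hx : x ≠ 0) (hy : y ≠ 0) :
    s36noVb ι₀ r₀ π₀ ιC hq hqM (x * y) =
      s36noVb ι₀ r₀ π₀ ιC hq hqM x + s36noVb ι₀ r₀ π₀ ιC hq hqM y := by
  unfold s36noVb
  rw [map_mul]
  exact s36noVa_mul hB₀ ((map_ne_zero _).mpr hx) ((map_ne_zero _).mpr hy)

theorem s36no_mid_ne_zero (h : S36MidEmb K q M ζ)
    {x : modularFunctionFieldFullC E (M * q * q)} (hx : x ≠ 0) :
    h.emb (mgaCoeffHom ψ (M * q * q) x) ≠ 0 := by
  have h1 : mgaCoeffHom ψ (M * q * q) x ≠ 0 := (map_ne_zero _).mpr hx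
  exact fun h0 => h1 (h.emb_injective (by rw [h0, map_zero]))

include hq in
theorem s36noVc_mul (D : S36NoData ι₀ r₀ π₀ ι₁ r₁ π₁ ψ q ζ) (h : S36MidEmb K q M ζ)
    {x y : modularFunctionFieldFullC E (M * q * q)} (hx : x ≠ 0) (hy : y ≠ 0) :
    s36noVc ι₁ r₁ π₁ ψ h (x * y) = s36noVc ι₁ r₁ π₁ ψ h x + s36noVc ι₁ r₁ π₁ ψ h y := by
  unfold s36noVc
  have e : h.emb (mgaCoeffHom ψ (M * q * q) (x * y)) =
      h.emb (mgaCoeffHom ψ (M * q * q) x) * h.emb (mgaCoeffHom ψ (M * q * q) y) := by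
    rw [RingHom.map_mul]
    exact map_mul h.emb.toRingHom _ _
  rw [e]
  exact s36noOrd_mul D.hB₁ (s36no_mid_ne_zero h hx) (s36no_mid_ne_zero h hy)
    (s36no_frac_mid D.hB₁ hq D.zeta h _) (s36no_frac_mid D.hB₁ hq D.zeta h _)

/-- `v_a` is the order of `V_a = vtInf hB₀ (M q²)` -/
theorem s36noVa_eq (x : modularFunctionFieldFullC E (M * q * q)) :
    s36noVa ι₀ r₀ π₀ x = s36noOrdE (ι := ι₀) r₀ π₀ (vtEmb E (M * q * q)) x := rfl

/-- `w_∞` is the order of `vtInf hB₀ (M q)` -/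
theorem s36noWinf_eq (y : modularFunctionFieldFullC E (M * q)) :
    s36noWinf ι₀ r₀ π₀ y = s36noOrdE (ι := ι₀) r₀ π₀ (vtEmb E (M * q)) y := rfl

include hq in
/-- **Galois invariance of `v_c`**: the order of `μ_{ζ^b}` is that of `μ_ζ`. -/
theorem s36noVc_gal (D : S36NoData ι₀ r₀ π₀ ι₁ r₁ π₁ ψ q ζ) (h : S36MidEmb K q M ζ)
    {b : ℕ} (hb1 : 1 ≤ b) (hbq : b < q) (h' : S36MidEmb K q M (ζ ^ b))
    {x : modularFunctionFieldFullC E (M * q * q)} (hx : x ≠ 0) :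
    s36noOrd ι₁ r₁ π₁ (h'.emb (mgaCoeffHom ψ (M * q * q) x)) = s36noVc ι₁ r₁ π₁ ψ h x := by
  obtain ⟨σ, κ', hσψ, hσζ, hσc, hσπ⟩ := D.gal b hb1 hbq
  have e1 := S36MidEmb.emb_coeffMap hq h h' σ hσζ (mgaCoeffHom ψ (M * q * q) x)
  have e2 : coeffMap σ ((mgaCoeffHom ψ (M * q * q) x :
      modularFunctionFieldFullC K (M * q * q)) : LaurentSeries K) =
      ((mgaCoeffHom ψ (M * q * q) x : modularFunctionFieldFullC K (M * q * q)) :
        LaurentSeries K) := by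
    rw [mgaCoeffHom_coe, coeffMap_coeffMap]
    exact coeffMap_congr (RingHom.ext hσψ) _
  have e3 : (⟨coeffMap σ ((mgaCoeffHom ψ (M * q * q) x :
      modularFunctionFieldFullC K (M * q * q)) : LaurentSeries K),
      al_coeffMap_mem K (M * q * q) σ (mgaCoeffHom ψ (M * q * q) x).2⟩ :
      modularFunctionFieldFullC K (M * q * q)) = mgaCoeffHom ψ (M * q * q) x :=
    Subtype.ext e2
  rw [e3] at e1
  rw [e1]
  unfold s36noVc
  have hne : h.emb (mgaCoeffHom ψ (M * q * q) x) ≠ 0 := s36no_mid_ne_zero h hx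
  have := s36noOrd_compat D.hB₁ D.hB₁ hσc hσπ hne (s36no_frac_mid D.hB₁ hq D.zeta h _)
  rw [this, mul_one]

end Orders

end Fermat.Agent.S36
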