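import Fermat.Agent.S36.N2ValAbs
import Fermat.Agent.S36.N2Val
import Fermat.Agent.S36.N2Base
import Fermat.Agent.S36.NormOrd

/-!
# S36 / (I1) N2-val: the hypotheses `hBV₁ hBV₂ hπV hram hU hG harch` of `s36tb_small`
for the three vertical valuation subrings `s36n2V` (helper93, `S36/N2Val.lean`)

## Generic part (bases `(A, E, k, r, π)`, `(A', E', k', r', π')`, `ψ : E →+* E'`)
`V := s36n2V hB hB' ψ ιC hq hqM h z hz`, `t := bgJ E (M * q * q)` (the chart `j`),
constant `c := algebraMap E F (algebraMap A E π)`.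
* `s36i1_embA_const/_embB_const/_embC_const`, `s36i1_embA_bgJ/_embB_bgJ/_embC_bgJ`:
  the three expansions of the constants and of `j`;
* `s36i1_ord_a`, `s36i1_ord_b`, `s36i1_ord_c` : the order of `c` (`1`, `1`, `n`);
* `s36i1_const_mem`, `s36i1_hBV₁`, `s36i1_hBV₂`, `s36i1_hπV`, `s36i1_hram`, `s36i1_hU`,
  `s36i1_hG`, `s36i1_harch`, `s36i1_J_valuation`.
  Inputs: `hint : ∀ a, ∃ a', ι' a' = ψ (algebraMap A E a)` (from `VtCompat`) and
  `hram' : S36IsOrd ι' r' π' (C (ψ (algebraMap A E π))) n` (`= S36NoData.ram`, `n = q − 1`).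

## Concrete part (`A` a valuation ring of `ℚ̄` over `q`, `E₀ = beta0Field A`, `K = E₀(ζ_q)`)
* `s36i1Z`, `s36i1ZK` : `ζ` as a unit of `A_K`, of `K`;
* `s36i1V M hq hA hqM hζ ιC h` : THE concrete family;
* `s36i1c_hBV₁`, `s36i1c_hBV₂`, `s36i1c_hπV`, `s36i1c_hram`, `s36i1c_hU`, `s36i1c_hG`,
  `s36i1c_harch` : in EXACTLY the binder types of `s36tb_small` (`S36/TopB.lean`), `N = 1`,
  `c₀ = S36Comp.a`; `s36i1c_hκ`, `s36i1c_hab/_hac/_hbc`.
-/

set_option autoImplicit false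
set_option linter.unusedSectionVars false
set_option linter.unusedVariables false
set_option linter.style.haveILetI false
set_option linter.constructorNameAsVariable false

noncomputable section

namespace Fermat.Agent.S36

open ModularCurve Fermat.Agent.INJ Fermat.Agent.UNIP Fermat.Agent.AL Fermat.Agent.ES

/-! ## Generic part -/

section Gen

variable {A E k A' E' k' : Type*} [CommRing A] [IsDomain A] [Field E] [Algebra A E]
  [IsFractionRing A E] [Field k] [CommRing A'] [Field E'] [Field k']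
  {r : A →+* k} {π : A} {ι' : A' →+* E'} {r' : A' →+* k'} {π' : A'}
  (hB : VtBase (algebraMap A E) r π) (hB' : VtBase ι' r' π')
  (ψ : E →+* E') (ιC : E →+* ℂ)
  {q M : ℕ} [NeZero q] [NeZero M] [NeZero (M * q)] [NeZero (M * q * q)]
  (hq : q.Prime) (hqM : ¬ q ∣ M)
  {ζ : E'ˣ} (h : S36MidEmb E' q M ζ) (z : A'ˣ) (hz : Units.map (ι' : A' →* E') z = ζ)

/-! ### The three `hfrac` -/

include hB in
theorem s36i1_fracA (x : modularFunctionFieldFullC E (M * q * q)) :
    VtFrac (algebraMap A E) (vtEmb E (M * q * q) x) :=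
  vt_frac_fullC hB (M * q * q) x.2

include hB in
theorem s36i1_fracB (x : modularFunctionFieldFullC E (M * q * q)) :
    VtFrac (algebraMap A E) (s36n2EmbB ιC hq hqM x) :=
  vt_frac_fullC hB (M * q * q) (s36n2W E ιC hq hqM x).2

include hB' hq hz in
theorem s36i1_fracC (x : modularFunctionFieldFullC E (M * q * q)) :
    VtFrac ι' (s36n2EmbC ψ h x) :=
  s36n2_frac_emb hB' hq h z hz _

/-! ### The three expansions of the constants -/

theorem s36i1_embA_const (N : ℕ) (x : E) :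
    vtEmb E N (algebraMap E (modularFunctionFieldFullC E N) x) = HahnSeries.C x := by
  rw [HahnSeries.C_apply]
  exact algebraMap_laurentSeries_eq_single E x

theorem s36i1_embB_const (x : E) :
    s36n2EmbB ιC hq hqM (algebraMap E (modularFunctionFieldFullC E (M * q * q)) x) =
      HahnSeries.C x := by
  rw [s36n2EmbB_apply, AlgEquiv.commutes]
  exact s36i1_embA_const (M * q * q) x

theorem s36i1_embC_const (x : E) :
    s36n2EmbC ψ h (algebraMap E (modularFunctionFieldFullC E (M * q * q)) x) =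
      HahnSeries.C (ψ x) := by
  rw [s36n2EmbC_apply, mgaCoeffHom_algebraMap, h.emb.commutes, HahnSeries.C_apply]
  exact algebraMap_laurentSeries_eq_single E' _

/-! ### The three expansions of `j` -/

theorem s36i1_embA_bgJ (N : ℕ) :
    vtEmb E N (bgJ E N) = coeffMap (algebraMap A E) (jqModC A) :=
  (coeffMap_jqModC _).symm

theorem s36i1_embB_bgJ :
    s36n2EmbB ιC hq hqM (bgJ E (M * q * q)) =
      coeffMap (algebraMap A E) (qExpand A q (qExpand A q (jqModC A))) := by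
  rw [s36n2EmbB_apply, coeffMap_qExpand, coeffMap_qExpand, coeffMap_jqModC]
  exact s36n2W_base E ιC hq hqM (jqModC_mem_full E M)

theorem s36i1_embC_bgJ :
    s36n2EmbC ψ h (bgJ E (M * q * q)) = coeffMap ι' (jqModC A') := by
  rw [s36n2EmbC_apply, coeffMap_jqModC]
  have e1 : mgaCoeffHom ψ (M * q * q) (bgJ E (M * q * q)) =
      ⟨jqModC E', s36mid_low_le (jqModC_mem_full E' (M * q))⟩ :=
    Subtype.ext (coeffMap_jqModC ψ)
  rw [e1]
  exact h.emb_of_mem_low (jqModC_mem_full E' (M * q))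

theorem s36i1_red_a : coeffMap r (jqModC A) ≠ 0 := by
  rw [coeffMap_jqModC]
  exact jqModC_ne_zero_of_nontrivial k

theorem s36i1_red_b : coeffMap r (qExpand A q (qExpand A q (jqModC A))) ≠ 0 := by
  rw [coeffMap_qExpand, coeffMap_qExpand, coeffMap_jqModC]
  intro h0
  have h1 : qExpand k q (jqModC k) = 0 := qExpand_injective q (h0.trans (map_zero _).symm)
  exact jqModC_ne_zero_of_nontrivial k (qExpand_injective q (h1.trans (map_zero _).symm))

theorem s36i1_red_c : coeffMap r' (jqModC A') ≠ 0 := by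
  rw [coeffMap_jqModC]
  exact jqModC_ne_zero_of_nontrivial k'

/-! ### The order of the constant `π` -/

include hB in
theorem s36i1_ord_a :
    S36IsOrd (algebraMap A E) r π
      (vtEmb E (M * q * q) (algebraMap E (modularFunctionFieldFullC E (M * q * q))
        (algebraMap A E π))) 1 := by
  rw [s36i1_embA_const]
  exact s36IsOrd_Cpi hB

include hB in
theorem s36i1_ord_b :
    S36IsOrd (algebraMap A E) r π
      (s36n2EmbB ιC hq hqM (algebraMap E (modularFunctionFieldFullC E (M * q * q))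
        (algebraMap A E π))) 1 := by
  rw [s36i1_embB_const]
  exact s36IsOrd_Cpi hB

theorem s36i1_ord_c {n : ℤ}
    (hram' : S36IsOrd ι' r' π' (HahnSeries.C (ψ (algebraMap A E π)) : LaurentSeries E') n) :
    S36IsOrd ι' r' π'
      (s36n2EmbC ψ h (algebraMap E (modularFunctionFieldFullC E (M * q * q))
        (algebraMap A E π))) n := by
  rw [s36i1_embC_const]
  exact hram'

/-! ### The hypotheses, generic form -/

/-- the constants of `A` lie in `V c` -/
theorem s36i1_const_mem (hint : ∀ a : A, ∃ a' : A', ι' a' = ψ (algebraMap A E a))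
    (c : S36Comp) (a : A) :
    algebraMap E (modularFunctionFieldFullC E (M * q * q)) (algebraMap A E a) ∈
      s36n2V hB hB' ψ ιC hq hqM h z hz c := by
  cases c
  · exact vtSub_const_mem hB (vtEmb E (M * q * q)) (s36i1_fracA hB) (s36i1_embA_const _ _)
  · exact vtSub_const_mem hB (s36n2EmbB ιC hq hqM) (s36i1_fracB hB ιC hq hqM) (s36i1_embB_const ιC hq hqM _)
  · obtain ⟨a', ha'⟩ := hint a
    exact vtSub_const_mem hB' (s36n2EmbC ψ h) (s36i1_fracC hB' ψ hq h z hz) ((s36i1_embC_const ψ h _).trans (by rw [ha']))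

/-- `j` is a unit of `V c` -/
theorem s36i1_J_valuation (c : S36Comp) :
    (s36n2V hB hB' ψ ιC hq hqM h z hz c).valuation (bgJ E (M * q * q)) = 1 := by
  cases c
  · exact vtSub_valuation_eq_one_of_eq_coeffMap hB (vtEmb E (M * q * q)) (s36i1_fracA hB) (s36i1_embA_bgJ _) s36i1_red_a
  · exact vtSub_valuation_eq_one_of_eq_coeffMap hB (s36n2EmbB ιC hq hqM) (s36i1_fracB hB ιC hq hqM) (s36i1_embB_bgJ ιC hq hqM) s36i1_red_b
  · exact vtSub_valuation_eq_one_of_eq_coeffMap hB' (s36n2EmbC ψ h) (s36i1_fracC hB' ψ hq h z hz) (s36i1_embC_bgJ ψ h) s36i1_red_c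

section Alg

variable [Algebra A (modularFunctionFieldFullC E (M * q * q))]
  (hAF : ∀ a : A, algebraMap A (modularFunctionFieldFullC E (M * q * q)) a =
    algebraMap E (modularFunctionFieldFullC E (M * q * q)) (algebraMap A E a))
  (hint : ∀ a : A, ∃ a' : A', ι' a' = ψ (algebraMap A E a))

include hAF hint in
/-- **hBV₁** (generic): the chart `j` lies in `V c`. -/
theorem s36i1_hBV₁ (c : S36Comp) (b : modularFunctionFieldFullC E (M * q * q))
    (hb : IsIntegral ↥(Algebra.adjoin A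
      ({bgJ E (M * q * q)} : Set (modularFunctionFieldFullC E (M * q * q)))) b) :
    b ∈ s36n2V hB hB' ψ ιC hq hqM h z hz c := by
  have hconst : ∀ (c : S36Comp) (a : A),
      algebraMap A (modularFunctionFieldFullC E (M * q * q)) a ∈
        s36n2V hB hB' ψ ιC hq hqM h z hz c := fun c a => by
    rw [hAF]
    exact s36i1_const_mem hB hB' ψ ιC hq hqM h z hz hint c a
  cases c
  · exact s36vt_hBV hB (vtEmb E (M * q * q)) (s36i1_fracA hB) (hconst S36Comp.a) (s36i1_embA_bgJ _) s36i1_red_a hb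
  · exact s36vt_hBV hB (s36n2EmbB ιC hq hqM) (s36i1_fracB hB ιC hq hqM) (hconst S36Comp.b) (s36i1_embB_bgJ ιC hq hqM) s36i1_red_b hb
  · exact s36vt_hBV hB' (s36n2EmbC ψ h) (s36i1_fracC hB' ψ hq h z hz) (hconst S36Comp.c) (s36i1_embC_bgJ ψ h) s36i1_red_c hb

include hAF hint in
/-- **hBV₂** (generic): the chart `1 / j` lies in `V c`. -/
theorem s36i1_hBV₂ (c : S36Comp) (b : modularFunctionFieldFullC E (M * q * q))
    (hb : IsIntegral ↥(Algebra.adjoin A
      ({(bgJ E (M * q * q))⁻¹} : Set (modularFunctionFieldFullC E (M * q * q)))) b) :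
    b ∈ s36n2V hB hB' ψ ιC hq hqM h z hz c := by
  have hconst : ∀ (c : S36Comp) (a : A),
      algebraMap A (modularFunctionFieldFullC E (M * q * q)) a ∈
        s36n2V hB hB' ψ ιC hq hqM h z hz c := fun c a => by
    rw [hAF]
    exact s36i1_const_mem hB hB' ψ ιC hq hqM h z hz hint c a
  cases c
  · exact s36vt_hBV_inv hB (vtEmb E (M * q * q)) (s36i1_fracA hB) (hconst S36Comp.a) (s36i1_embA_bgJ _) s36i1_red_a hb
  · exact s36vt_hBV_inv hB (s36n2EmbB ιC hq hqM) (s36i1_fracB hB ιC hq hqM) (hconst S36Comp.b) (s36i1_embB_bgJ ιC hq hqM) s36i1_red_b hb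
  · exact s36vt_hBV_inv hB' (s36n2EmbC ψ h) (s36i1_fracC hB' ψ hq h z hz) (hconst S36Comp.c) (s36i1_embC_bgJ ψ h) s36i1_red_c hb

include hAF in
/-- **hG** (generic), `c₀ = a`: the elements of `A[j]` which are not divisible by `π` are not in
the maximal ideal of `V_a`. -/
theorem s36i1_hG (s : modularFunctionFieldFullC E (M * q * q))
    (hs : EIPrimeTo π (bgJ E (M * q * q)) s) :
    s ∉ (s36n2V hB hB' ψ ιC hq hqM h z hz S36Comp.a).nonunits := by
  refine s36n2g_hG hB (vtEmb E (M * q * q)) (s36i1_fracA hB) (fun a => ?_)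
    (s36i1_embA_bgJ _) ?_ hs
  · rw [hAF]
    exact s36i1_embA_const _ _
  · rw [coeffMap_jqModC]
    exact Fermat.Agent.S28.red_transcendental_jqModC _

end Alg

/-- **hπV** (generic) -/
theorem s36i1_hπV {n : ℤ}
    (hram' : S36IsOrd ι' r' π' (HahnSeries.C (ψ (algebraMap A E π)) : LaurentSeries E') n)
    (hn : 0 < n) (c : S36Comp) :
    algebraMap E (modularFunctionFieldFullC E (M * q * q)) (algebraMap A E π) ∈
      (s36n2V hB hB' ψ ιC hq hqM h z hz c).nonunits := by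
  cases c
  · exact s36vt_hπV hB (vtEmb E (M * q * q)) (s36i1_fracA hB) (s36i1_ord_a hB) (by norm_num)
  · exact s36vt_hπV hB (s36n2EmbB ιC hq hqM) (s36i1_fracB hB ιC hq hqM) (s36i1_ord_b hB ιC hq hqM) (by norm_num)
  · exact s36vt_hπV hB' (s36n2EmbC ψ h) (s36i1_fracC hB' ψ hq h z hz) (s36i1_ord_c ψ h hram') hn

/-- **hram** (generic): `x ∈ 𝔪(V c) ⇒ x ^ m ∈ π V c`, for `m ≥ 1`, `m ≥ n = ord_c π`. -/
theorem s36i1_hram {n : ℤ}
    (hram' : S36IsOrd ι' r' π' (HahnSeries.C (ψ (algebraMap A E π)) : LaurentSeries E') n)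
    {m : ℕ} (hm : 1 ≤ m) (hnm : n ≤ m) (c : S36Comp)
    (x : modularFunctionFieldFullC E (M * q * q))
    (hx : x ∈ (s36n2V hB hB' ψ ιC hq hqM h z hz c).nonunits) :
    ∃ y ∈ s36n2V hB hB' ψ ιC hq hqM h z hz c,
      x ^ m = algebraMap E (modularFunctionFieldFullC E (M * q * q)) (algebraMap A E π) * y := by
  have hm' : (1 : ℤ) ≤ m := by exact_mod_cast hm
  cases c
  · exact s36vt_hram hB (vtEmb E (M * q * q)) (s36i1_fracA hB) (s36i1_ord_a hB) hm' hx
  · exact s36vt_hram hB (s36n2EmbB ιC hq hqM) (s36i1_fracB hB ιC hq hqM) (s36i1_ord_b hB ιC hq hqM) hm' hx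
  · exact s36vt_hram hB' (s36n2EmbC ψ h) (s36i1_fracC hB' ψ hq h z hz) (s36i1_ord_c ψ h hram') hnm hx

/-- **hU** (generic), `c₀ = a` -/
theorem s36i1_hU (x : modularFunctionFieldFullC E (M * q * q))
    (hx : x ∈ (s36n2V hB hB' ψ ιC hq hqM h z hz S36Comp.a).nonunits) :
    ∃ y ∈ s36n2V hB hB' ψ ιC hq hqM h z hz S36Comp.a,
      x = algebraMap E (modularFunctionFieldFullC E (M * q * q)) (algebraMap A E π) * y :=
  s36vt_hU hB (vtEmb E (M * q * q)) (s36i1_fracA hB) (s36i1_ord_a hB) hx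

/-- **hU** for `V_b` too -/
theorem s36i1_hU_b (x : modularFunctionFieldFullC E (M * q * q))
    (hx : x ∈ (s36n2V hB hB' ψ ιC hq hqM h z hz S36Comp.b).nonunits) :
    ∃ y ∈ s36n2V hB hB' ψ ιC hq hqM h z hz S36Comp.b,
      x = algebraMap E (modularFunctionFieldFullC E (M * q * q)) (algebraMap A E π) * y :=
  s36vt_hU hB (s36n2EmbB ιC hq hqM) (s36i1_fracB hB ιC hq hqM) (s36i1_ord_b hB ιC hq hqM) hx

/-- **harch** (generic) -/
theorem s36i1_harch (c : S36Comp) (a x : modularFunctionFieldFullC E (M * q * q))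
    (ha : a ∈ (s36n2V hB hB' ψ ιC hq hqM h z hz c).nonunits) :
    ∃ n : ℕ, a ^ n * x ∈ (s36n2V hB hB' ψ ιC hq hqM h z hz c).nonunits := by
  cases c
  · exact vtSub_arch hB (vtEmb E (M * q * q)) (s36i1_fracA hB) ha x
  · exact vtSub_arch hB (s36n2EmbB ιC hq hqM) (s36i1_fracB hB ιC hq hqM) ha x
  · exact vtSub_arch hB' (s36n2EmbC ψ h) (s36i1_fracC hB' ψ hq h z hz) ha x

/-- **hκ** -/
theorem s36i1_hκ (c : S36Comp) : c = S36Comp.a ∨ c = S36Comp.b ∨ c = S36Comp.c := by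
  cases c
  · exact Or.inl rfl
  · exact Or.inr (Or.inl rfl)
  · exact Or.inr (Or.inr rfl)

theorem s36i1_hab : S36Comp.a ≠ S36Comp.b := fun h => by cases h

theorem s36i1_hac : S36Comp.a ≠ S36Comp.c := fun h => by cases h

theorem s36i1_hbc : S36Comp.b ≠ S36Comp.c := fun h => by cases h

end Gen

/-! ## Generic part, from the arithmetic data `S36NoData` (helper31) -/

section Data

variable {A E k A' E' k' : Type*} [CommRing A] [IsDomain A] [Field E] [Algebra A E]
  [IsFractionRing A E] [Field k] [CommRing A'] [Field E'] [Field k']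
  {r : A →+* k} {π : A} {ι' : A' →+* E'} {r' : A' →+* k'} {π' : A'}
  (hB : VtBase (algebraMap A E) r π) (hB' : VtBase ι' r' π')
  (ψ : E →+* E') (ιC : E →+* ℂ)
  {q M : ℕ} [NeZero q] [NeZero M] [NeZero (M * q)] [NeZero (M * q * q)]
  (hq : q.Prime) (hqM : ¬ q ∣ M)
  {ζ : E'ˣ} (h : S36MidEmb E' q M ζ) (z : A'ˣ) (hz : Units.map (ι' : A' →* E') z = ζ)
  (D : S36NoData (algebraMap A E) r π ι' r' π' ψ q ζ)

include D in
theorem s36i1d_hint (a : A) : ∃ a' : A', ι' a' = ψ (algebraMap A E a) := by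
  obtain ⟨κ, hκ⟩ := D.compat
  obtain ⟨a', ha', -⟩ := hκ a
  exact ⟨a', ha'⟩

include D in
/-- **hBV₁** from `S36NoData` -/
theorem s36i1d_hBV₁ [Algebra A (modularFunctionFieldFullC E (M * q * q))]
    (hAF : ∀ a : A, algebraMap A (modularFunctionFieldFullC E (M * q * q)) a =
      algebraMap E (modularFunctionFieldFullC E (M * q * q)) (algebraMap A E a))
    (c : S36Comp) (b : modularFunctionFieldFullC E (M * q * q))
    (hb : IsIntegral ↥(Algebra.adjoin A
      ({bgJ E (M * q * q)} : Set (modularFunctionFieldFullC E (M * q * q)))) b) :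
    b ∈ s36n2V hB hB' ψ ιC hq hqM h z hz c :=
  s36i1_hBV₁ hB hB' ψ ιC hq hqM h z hz hAF (s36i1d_hint ψ D) c b hb

include D in
/-- **hBV₂** from `S36NoData` -/
theorem s36i1d_hBV₂ [Algebra A (modularFunctionFieldFullC E (M * q * q))]
    (hAF : ∀ a : A, algebraMap A (modularFunctionFieldFullC E (M * q * q)) a =
      algebraMap E (modularFunctionFieldFullC E (M * q * q)) (algebraMap A E a))
    (c : S36Comp) (b : modularFunctionFieldFullC E (M * q * q))
    (hb : IsIntegral ↥(Algebra.adjoin A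
      ({(bgJ E (M * q * q))⁻¹} : Set (modularFunctionFieldFullC E (M * q * q)))) b) :
    b ∈ s36n2V hB hB' ψ ιC hq hqM h z hz c :=
  s36i1_hBV₂ hB hB' ψ ιC hq hqM h z hz hAF (s36i1d_hint ψ D) c b hb

include D in
/-- **hπV** from `S36NoData` -/
theorem s36i1d_hπV (c : S36Comp) :
    algebraMap E (modularFunctionFieldFullC E (M * q * q)) (algebraMap A E π) ∈
      (s36n2V hB hB' ψ ιC hq hqM h z hz c).nonunits :=
  s36i1_hπV hB hB' ψ ιC hq hqM h z hz D.ram
    (by have := hq.one_lt; omega) c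

include D in
/-- **hram** from `S36NoData`: exponent `q ^ N`, `N ≥ 1`. -/
theorem s36i1d_hram {N : ℕ} (hN : N ≠ 0) (c : S36Comp)
    (x : modularFunctionFieldFullC E (M * q * q))
    (hx : x ∈ (s36n2V hB hB' ψ ιC hq hqM h z hz c).nonunits) :
    ∃ y ∈ s36n2V hB hB' ψ ιC hq hqM h z hz c,
      x ^ (q ^ N) =
        algebraMap E (modularFunctionFieldFullC E (M * q * q)) (algebraMap A E π) * y := by
  have h1 : q ≤ q ^ N := Nat.le_self_pow hN q
  refine s36i1_hram hB hB' ψ ιC hq hqM h z hz D.ram (le_trans hq.pos h1) ?_ c x hx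
  have h2 : (q : ℤ) ≤ ((q ^ N : ℕ) : ℤ) := by exact_mod_cast h1
  omega

end Data

/-! ## Concrete part -/

section Concrete

variable {q : ℕ} {A : ValuationSubring (AlgebraicClosure ℚ)} (M : ℕ) [NeZero M] [NeZero q]
  [IsDiscreteValuationRing ↥(beta0Ring A (beta0Field A))]
  {ζ : AlgebraicClosure ℚ}

/-- `ζ` as a unit of `A_K = A ∩ K`, `K = E₀(ζ)` -/
def s36i1Z (hq : q.Prime) (hζ : IsPrimitiveRoot ζ q) : (↥(beta0Ring A (s36n2bK A ζ)))ˣ :=
  ((s36n2bZeta_isPrimitiveRoot (A := A) hq hζ).isUnit hq.ne_zero).unit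

@[simp]
theorem s36i1Z_coe (hq : q.Prime) (hζ : IsPrimitiveRoot ζ q) :
    ((s36i1Z (A := A) hq hζ : (↥(beta0Ring A (s36n2bK A ζ)))ˣ) : ↥(beta0Ring A (s36n2bK A ζ))) =
      s36n2bZeta hq hζ := rfl

/-- `ζ` as a unit of `K = E₀(ζ)` -/
def s36i1ZK (hq : q.Prime) (hζ : IsPrimitiveRoot ζ q) : (↥(s36n2bK A ζ))ˣ :=
  Units.map ((algebraMap ↥(beta0Ring A (s36n2bK A ζ)) ↥(s36n2bK A ζ) :
    ↥(beta0Ring A (s36n2bK A ζ)) →+* ↥(s36n2bK A ζ)) :
      ↥(beta0Ring A (s36n2bK A ζ)) →* ↥(s36n2bK A ζ)) (s36i1Z hq hζ)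

@[simp]
theorem s36i1ZK_coe (hq : q.Prime) (hζ : IsPrimitiveRoot ζ q) :
    (((s36i1ZK (A := A) hq hζ : (↥(s36n2bK A ζ))ˣ) : ↥(s36n2bK A ζ)) : AlgebraicClosure ℚ) = ζ :=
  rfl

theorem s36i1ZK_isPrimitiveRoot (hq : q.Prime) (hζ : IsPrimitiveRoot ζ q) :
    IsPrimitiveRoot ((s36i1ZK (A := A) hq hζ : (↥(s36n2bK A ζ))ˣ) : ↥(s36n2bK A ζ)) q := by
  have hinj : Function.Injective (algebraMap ↥(s36n2bK A ζ) (AlgebraicClosure ℚ)) :=
    (algebraMap ↥(s36n2bK A ζ) (AlgebraicClosure ℚ)).injective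
  refine IsPrimitiveRoot.of_map_of_injective (f := algebraMap ↥(s36n2bK A ζ) (AlgebraicClosure ℚ))
    ?_ hinj
  exact hζ

variable (hq : q.Prime) (hA : A.LiesOverPrime q) (hqM : ¬ q ∣ M) (hζ : IsPrimitiveRoot ζ q)
  (ιC : ↥(beta0Field A) →+* ℂ)
  (h : S36MidEmb ↥(s36n2bK A ζ) q M (s36i1ZK (A := A) hq hζ))

/-- **THE concrete family** `V : S36Comp → ValuationSubring F_{Mqq}(E₀)`. -/
def s36i1V : S36Comp → ValuationSubring ↥(modularFunctionFieldFullC ↥(beta0Field A) (M * q * q)) :=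
  s36n2V (vtBase_residue (beta0Ring_irreducible_q hq hA)) (s36n2b_vtBase hq hA hζ)
    (IntermediateField.inclusion (s36n2b_le_K A ζ)).toRingHom ιC hq hqM h (s36i1Z hq hζ) rfl

theorem s36i1V_eq :
    s36i1V M hq hA hqM hζ ιC h =
      s36n2V (vtBase_residue (beta0Ring_irreducible_q hq hA)) (s36n2b_vtBase hq hA hζ)
        (IntermediateField.inclusion (s36n2b_le_K A ζ)).toRingHom ιC hq hqM h
        (s36i1Z hq hζ) rfl := rfl

/-- base change of the constants -/
theorem s36i1c_hint (a : ↥(beta0Ring A (beta0Field A))) :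
    ∃ a' : ↥(beta0Ring A (s36n2bK A ζ)),
      algebraMap ↥(beta0Ring A (s36n2bK A ζ)) ↥(s36n2bK A ζ) a' =
        (IntermediateField.inclusion (s36n2b_le_K A ζ)).toRingHom
          (algebraMap ↥(beta0Ring A (beta0Field A)) ↥(beta0Field A) a) :=
  ⟨beta0RingIncl (s36n2b_le_K A ζ) a, rfl⟩

include hq hA hζ in
/-- `q` has order `q − 1` in `A_K` -/
theorem s36i1c_ram :
    S36IsOrd (algebraMap ↥(beta0Ring A (s36n2bK A ζ)) ↥(s36n2bK A ζ))
      (IsLocalRing.residue ↥(beta0Ring A (s36n2bK A ζ))) (s36n2bPi hq hζ)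
      (HahnSeries.C ((IntermediateField.inclusion (s36n2b_le_K A ζ)).toRingHom
        (algebraMap ↥(beta0Ring A (beta0Field A)) ↥(beta0Field A)
          ((q : ℕ) : ↥(beta0Ring A (beta0Field A))))) : LaurentSeries ↥(s36n2bK A ζ))
      ((q - 1 : ℕ) : ℤ) := by
  obtain ⟨u, hu⟩ := s36n2b_exists_unit (A := A) hq hζ
  have h1 := s36vt_isOrd_C (s36n2b_vtBase hq hA hζ) u (q - 1) hu
  have e1 : (IntermediateField.inclusion (s36n2b_le_K A ζ)).toRingHom
      (algebraMap ↥(beta0Ring A (beta0Field A)) ↥(beta0Field A)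
        ((q : ℕ) : ↥(beta0Ring A (beta0Field A)))) =
      algebraMap ↥(beta0Ring A (s36n2bK A ζ)) ↥(s36n2bK A ζ)
        ((q : ℕ) : ↥(beta0Ring A (s36n2bK A ζ))) := by
    rw [map_natCast, map_natCast, map_natCast]
  rw [e1]
  exact h1

/-- **hBV₁** -/
theorem s36i1c_hBV₁ (c : S36Comp)
    (b : ↥(modularFunctionFieldFullC ↥(beta0Field A) (M * q * q)))
    (hb : IsIntegral ↥(Algebra.adjoin ↥(beta0Ring A (beta0Field A))
      {bgJ ↥(beta0Field A) (M * q * q)}) b) :
    b ∈ s36i1V M hq hA hqM hζ ιC h c :=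
  s36i1_hBV₁ (vtBase_residue (beta0Ring_irreducible_q hq hA)) (s36n2b_vtBase hq hA hζ)
    (IntermediateField.inclusion (s36n2b_le_K A ζ)).toRingHom ιC hq hqM h (s36i1Z hq hζ) rfl (fun _ => rfl) s36i1c_hint c b hb

/-- **hBV₂** -/
theorem s36i1c_hBV₂ (c : S36Comp)
    (b : ↥(modularFunctionFieldFullC ↥(beta0Field A) (M * q * q)))
    (hb : IsIntegral ↥(Algebra.adjoin ↥(beta0Ring A (beta0Field A))
      {(bgJ ↥(beta0Field A) (M * q * q))⁻¹}) b) :
    b ∈ s36i1V M hq hA hqM hζ ιC h c :=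
  s36i1_hBV₂ (vtBase_residue (beta0Ring_irreducible_q hq hA)) (s36n2b_vtBase hq hA hζ)
    (IntermediateField.inclusion (s36n2b_le_K A ζ)).toRingHom ιC hq hqM h (s36i1Z hq hζ) rfl (fun _ => rfl) s36i1c_hint c b hb

/-- **hπV** -/
theorem s36i1c_hπV (c : S36Comp) :
    algebraMap ↥(beta0Ring A (beta0Field A))
      ↥(modularFunctionFieldFullC ↥(beta0Field A) (M * q * q))
        ((q : ℕ) : ↥(beta0Ring A (beta0Field A))) ∈ (s36i1V M hq hA hqM hζ ιC h c).nonunits :=
  s36i1_hπV (vtBase_residue (beta0Ring_irreducible_q hq hA)) (s36n2b_vtBase hq hA hζ)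
    (IntermediateField.inclusion (s36n2b_le_K A ζ)).toRingHom ιC hq hqM h (s36i1Z hq hζ) rfl (s36i1c_ram hq hA hζ)
    (by exact_mod_cast Nat.sub_pos_of_lt hq.one_lt) c

/-- **hram**, `N = 1` -/
theorem s36i1c_hram (c : S36Comp)
    (x : ↥(modularFunctionFieldFullC ↥(beta0Field A) (M * q * q)))
    (hx : x ∈ (s36i1V M hq hA hqM hζ ιC h c).nonunits) :
    ∃ z ∈ s36i1V M hq hA hqM hζ ιC h c, x ^ (q ^ 1) =
      algebraMap ↥(beta0Ring A (beta0Field A))
        ↥(modularFunctionFieldFullC ↥(beta0Field A) (M * q * q))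
        ((q : ℕ) : ↥(beta0Ring A (beta0Field A))) * z :=
  s36i1_hram (vtBase_residue (beta0Ring_irreducible_q hq hA)) (s36n2b_vtBase hq hA hζ)
    (IntermediateField.inclusion (s36n2b_le_K A ζ)).toRingHom ιC hq hqM h (s36i1Z hq hζ) rfl (s36i1c_ram hq hA hζ)
    (by rw [pow_one]; exact hq.pos)
    (by rw [pow_one]; exact_mod_cast Nat.sub_le q 1) c x hx

/-- **hU**, `c₀ = a` -/
theorem s36i1c_hU (x : ↥(modularFunctionFieldFullC ↥(beta0Field A) (M * q * q)))
    (hx : x ∈ (s36i1V M hq hA hqM hζ ιC h S36Comp.a).nonunits) :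
    ∃ z ∈ s36i1V M hq hA hqM hζ ιC h S36Comp.a, x =
      algebraMap ↥(beta0Ring A (beta0Field A))
        ↥(modularFunctionFieldFullC ↥(beta0Field A) (M * q * q))
        ((q : ℕ) : ↥(beta0Ring A (beta0Field A))) * z :=
  s36i1_hU (vtBase_residue (beta0Ring_irreducible_q hq hA)) (s36n2b_vtBase hq hA hζ)
    (IntermediateField.inclusion (s36n2b_le_K A ζ)).toRingHom ιC hq hqM h (s36i1Z hq hζ) rfl x hx

/-- **hG**, `c₀ = a` -/
theorem s36i1c_hG (s : ↥(modularFunctionFieldFullC ↥(beta0Field A) (M * q * q)))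
    (hs : EIPrimeTo ((q : ℕ) : ↥(beta0Ring A (beta0Field A)))
      (bgJ ↥(beta0Field A) (M * q * q)) s) :
    s ∉ (s36i1V M hq hA hqM hζ ιC h S36Comp.a).nonunits :=
  s36i1_hG (vtBase_residue (beta0Ring_irreducible_q hq hA)) (s36n2b_vtBase hq hA hζ)
    (IntermediateField.inclusion (s36n2b_le_K A ζ)).toRingHom ιC hq hqM h (s36i1Z hq hζ) rfl (fun _ => rfl) s hs

/-- **harch** -/
theorem s36i1c_harch (c : S36Comp)
    (a x : ↥(modularFunctionFieldFullC ↥(beta0Field A) (M * q * q)))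
    (ha : a ∈ (s36i1V M hq hA hqM hζ ιC h c).nonunits) :
    ∃ n : ℕ, a ^ n * x ∈ (s36i1V M hq hA hqM hζ ιC h c).nonunits :=
  s36i1_harch (vtBase_residue (beta0Ring_irreducible_q hq hA)) (s36n2b_vtBase hq hA hζ)
    (IntermediateField.inclusion (s36n2b_le_K A ζ)).toRingHom ιC hq hqM h (s36i1Z hq hζ) rfl c a x ha

end Concrete

end Fermat.Agent.S36

end
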