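import Mathlib
import Fermat.Agent.UNIP.LocalShape
import Fermat.Agent.S36.Incidence
import Fermat.Agent.S36.NormGlue

/-!
# S36 / G-inc → G-ng (helper19): the local package `NgLoc` at a triple point, abstract

`R ⊆ F₁` and `S ⊆ F` two charts (`R` integrally closed in `F₁`, `S` integral over `R` along
`φ : F₁ →+* F`), `𝔫` a prime of `S`, the ONLY prime of `S` over `𝔫' = 𝔫 ∩ R` (G-inc,
`s36inc_triple`).  With `O = S_𝔫`, `O' = R_𝔫'` (`UNIP.ls_localSubring`):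

* `s36ngl_denominator` : every element of `S_𝔫` is `c / φ r`, `c ∈ S`, `r ∈ R ∖ 𝔫'`
  (`S_𝔫 = S ⊗ R_𝔫'`);
* `s36ngl_map`, `s36ngl_norm`, `s36ngl_root`, `s36ngl_surj`;
* `s36ngl_ngLoc` : the package `NgLoc φ N V₁ V₂ m ζ₁ O O'` of `S36/NormGlue.lean`.
-/

set_option autoImplicit false
set_option linter.unusedSectionVars false

namespace Fermat.Agent.S36

open Fermat.Agent.UNIP

variable {R S F₁ F : Type*} [CommRing R] [CommRing S] [Field F₁] [Field F]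
  [Algebra R S] [Algebra R F₁] [Algebra S F]

/-- the contraction of a prime -/
instance s36ngl_comap_isPrime (𝔫 : Ideal S) [𝔫.IsPrime] :
    (𝔫.comap (algebraMap R S)).IsPrime := Ideal.comap_isPrime _ _

section Denominator

variable [Algebra.IsIntegral R S] (φ : F₁ →+* F)
  (hφ : ∀ r : R, φ (algebraMap R F₁ r) = algebraMap S F (algebraMap R S r))
  (𝔫 : Ideal S) [𝔫.IsPrime]
  (huniq : ∀ 𝔫₂ : Ideal S, 𝔫₂.IsPrime →
    𝔫₂.comap (algebraMap R S) = 𝔫.comap (algebraMap R S) → 𝔫₂ = 𝔫)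

include hφ huniq in
/-- `S_𝔫 = S ⊗ R_𝔫'`: every element of `S_𝔫` has a denominator in `R ∖ 𝔫'`. -/
theorem s36ngl_denominator {a : F} (ha : a ∈ ls_localSubring (F := F) 𝔫) :
    ∃ (c : S) (r : R), r ∉ 𝔫.comap (algebraMap R S) ∧
      φ (algebraMap R F₁ r) * a = algebraMap S F c := by
  obtain ⟨b, s, hs, hsa⟩ := ha
  obtain ⟨s', r, hr, hss'⟩ :=
    s36inc_exists_mul_mem (𝔫.comap (algebraMap R S)) 𝔫 huniq hs
  refine ⟨s' * b, r, hr, ?_⟩
  rw [hφ, ← hss', map_mul, map_mul, ← hsa]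
  ring

include hφ in
/-- `φ (R_𝔫') ⊆ S_𝔫` -/
theorem s36ngl_map {z : F₁} (hz : z ∈ ls_localSubring (F := F₁) (𝔫.comap (algebraMap R S))) :
    φ z ∈ ls_localSubring (F := F) 𝔫 := by
  obtain ⟨b, s, hs, hsz⟩ := hz
  refine ⟨algebraMap R S b, algebraMap R S s, hs, ?_⟩
  rw [← hφ, ← hφ, ← map_mul, hsz]

include hφ huniq in
/-- the norm maps `S_𝔫` into `R_𝔫'` -/
theorem s36ngl_norm (N : F →* F₁) {n : ℕ} (hNφ : ∀ x : F₁, N (φ x) = x ^ n)
    (hNS : ∀ s : S, ∃ r : R, N (algebraMap S F s) = algebraMap R F₁ r)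
    {e : F} (he : e ∈ ls_localSubring (F := F) 𝔫) :
    N e ∈ ls_localSubring (F := F₁) (𝔫.comap (algebraMap R S)) := by
  obtain ⟨c, r, hr, hrc⟩ := s36ngl_denominator φ hφ 𝔫 huniq he
  obtain ⟨r', hr'⟩ := hNS c
  refine ⟨r', r ^ n, ?_, ?_⟩
  · intro h
    exact hr (Ideal.IsPrime.mem_of_pow_mem inferInstance n h)
  · rw [map_pow, ← hNφ, ← map_mul, hrc, hr']

end Denominator

section Root

variable (𝔫' : Ideal R) [𝔫'.IsPrime]
  (hR : ∀ z : F₁, IsIntegral R z → ∃ r : R, algebraMap R F₁ r = z)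

include hR in
/-- `R_𝔫'` is closed under `m`-th roots (`R` is integrally closed in `F₁`) -/
theorem s36ngl_root {m : ℕ} (hm : 0 < m) {z : F₁}
    (hz : z ^ m ∈ ls_localSubring (F := F₁) 𝔫') : z ∈ ls_localSubring (F := F₁) 𝔫' := by
  obtain ⟨b, s, hs, hsz⟩ := hz
  -- `(s z) ^ m = s ^ (m - 1) b`
  have hint : IsIntegral R (algebraMap R F₁ s * z) := by
    refine ⟨Polynomial.X ^ m - Polynomial.C (s ^ (m - 1) * b),
      Polynomial.monic_X_pow_sub_C _ (Nat.pos_iff_ne_zero.mp hm), ?_⟩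
    rw [Polynomial.eval₂_sub, Polynomial.eval₂_pow, Polynomial.eval₂_X, Polynomial.eval₂_C,
      map_mul, map_pow, ← hsz, mul_pow, ← mul_assoc, ← pow_succ,
      Nat.sub_add_cancel hm, sub_self]
  obtain ⟨r, hr⟩ := hR _ hint
  exact ⟨r, s, hs, hr.symm⟩

end Root

section Surj

variable [Algebra.IsIntegral R S] (φ : F₁ →+* F)
  (hφ : ∀ r : R, φ (algebraMap R F₁ r) = algebraMap S F (algebraMap R S r))
  (𝔫 : Ideal S) [𝔫.IsPrime]
  (huniq : ∀ 𝔫₂ : Ideal S, 𝔫₂.IsPrime →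
    𝔫₂.comap (algebraMap R S) = 𝔫.comap (algebraMap R S) → 𝔫₂ = 𝔫)
  (V : ValuationSubring F) (hSV : ∀ s : S, algebraMap S F s ∈ V)
  (hthr : ∀ s : S, algebraMap S F s ∈ V.nonunits → s ∈ 𝔫)

include hSV hthr in
/-- elements of `S ∖ 𝔫` are units at a component through `𝔫` -/
theorem s36ngl_val_eq_one {s : S} (hs : s ∉ 𝔫) : V.valuation (algebraMap S F s) = 1 := by
  rcases ValuationSubring.valuation_lt_one_or_eq_one V ⟨_, hSV s⟩ with h | h
  · exact absurd (hthr s ((ValuationSubring.mem_nonunits_iff V).mpr h)) hs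
  · exact h

include hSV hthr in
/-- `S_𝔫 ⊆ V` -/
theorem s36ngl_le {a : F} (ha : a ∈ ls_localSubring (F := F) 𝔫) : a ∈ V := by
  obtain ⟨b, s, hs, hsa⟩ := ha
  have h1 := s36ngl_val_eq_one 𝔫 V hSV hthr hs
  rw [← ValuationSubring.valuation_le_one_iff]
  have h2 : V.valuation (algebraMap S F s * a) ≤ 1 := by
    rw [hsa, ValuationSubring.valuation_le_one_iff]
    exact hSV b
  rwa [map_mul, h1, one_mul] at h2

include hφ huniq hSV hthr in
/-- **local residue surjectivity**: from the global one on the charts -/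
theorem s36ngl_surj
    (hGS : ∀ s : S, ∃ r : R, algebraMap S F s - φ (algebraMap R F₁ r) ∈ V.nonunits)
    {a : F} (ha0 : a ≠ 0) (ha : a ∈ ls_localSubring (F := F) 𝔫)
    (ha' : a⁻¹ ∈ ls_localSubring (F := F) 𝔫) :
    ∃ x ∈ ls_localSubring (F := F₁) (𝔫.comap (algebraMap R S)), NgC V (φ x) a := by
  obtain ⟨c, r, hr, hrc⟩ := s36ngl_denominator φ hφ 𝔫 huniq ha
  obtain ⟨c₁, hc₁⟩ := hGS c
  have hr1 : V.valuation (φ (algebraMap R F₁ r)) = 1 := by
    rw [hφ]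
    exact s36ngl_val_eq_one 𝔫 V hSV hthr hr
  have hr0 : algebraMap R F₁ r ≠ 0 := by
    intro h0
    rw [h0, map_zero, map_zero] at hr1
    exact zero_ne_one hr1
  have hφr0 : φ (algebraMap R F₁ r) ≠ 0 := (map_ne_zero φ).mpr hr0
  have haV : a ∈ V := s36ngl_le 𝔫 V hSV hthr ha
  have haV' : a⁻¹ ∈ V := s36ngl_le 𝔫 V hSV hthr ha'
  have hav : V.valuation a = 1 := by
    have h1 : V.valuation a ≤ 1 := (ValuationSubring.valuation_le_one_iff V a).mpr haV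
    have h2 : V.valuation a⁻¹ ≤ 1 := (ValuationSubring.valuation_le_one_iff V _).mpr haV'
    rw [map_inv₀] at h2
    have hva0 : V.valuation a ≠ 0 := (Valuation.ne_zero_iff _).mpr ha0
    have h3 : 1 ≤ V.valuation a := (inv_le_one₀ (zero_lt_iff.mpr hva0)).mp h2
    exact le_antisymm h1 h3
  have hcv : V.valuation (algebraMap S F c) = 1 := by
    rw [← hrc, map_mul, hr1, hav, one_mul]
  have hc0 : algebraMap S F c ≠ 0 := by
    intro h0
    rw [h0, map_zero] at hcv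
    exact zero_ne_one hcv
  refine ⟨algebraMap R F₁ c₁ / algebraMap R F₁ r, ⟨c₁, r, hr, ?_⟩, ?_⟩
  · field_simp
  · unfold NgC
    have key : φ (algebraMap R F₁ c₁ / algebraMap R F₁ r) / a - 1 =
        -(algebraMap S F c - φ (algebraMap R F₁ c₁)) / algebraMap S F c := by
      rw [map_div₀, ← hrc]
      field_simp
      ring
    rw [key, ValuationSubring.mem_nonunits_iff, map_div₀, hcv, div_one, Valuation.map_neg]
    exact (ValuationSubring.mem_nonunits_iff V).mp hc₁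

end Surj

section Package

variable [Algebra.IsIntegral R S] (φ : F₁ →+* F)
  (hφ : ∀ r : R, φ (algebraMap R F₁ r) = algebraMap S F (algebraMap R S r))
  (𝔫 : Ideal S) [𝔫.IsPrime]
  (huniq : ∀ 𝔫₂ : Ideal S, 𝔫₂.IsPrime →
    𝔫₂.comap (algebraMap R S) = 𝔫.comap (algebraMap R S) → 𝔫₂ = 𝔫)

include hφ huniq in
/-- **The local package `NgLoc` at a triple point.**  Inputs: `S` integral over `R`, `R`
integrally closed in `F₁` (`hR`), `𝔫` the only prime of `S` over `𝔫 ∩ R` (G-inc), the norm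
`N` (`hNφ`, `hNS`), `V₁`, `V₂` two components through `𝔫` (`hSV`, `hthr`) with global residue
surjectivity on the charts (`hGS`: `S = φ R + 𝔭_V`), `ζ₁ ∈ R`. -/
theorem s36ngl_ngLoc (hR : ∀ z : F₁, IsIntegral R z → ∃ r : R, algebraMap R F₁ r = z)
    (N : F →* F₁) {n : ℕ} (hNφ : ∀ x : F₁, N (φ x) = x ^ n)
    (hNS : ∀ s : S, ∃ r : R, N (algebraMap S F s) = algebraMap R F₁ r)
    (V₁ V₂ : ValuationSubring F)
    (hSV₁ : ∀ s : S, algebraMap S F s ∈ V₁) (hSV₂ : ∀ s : S, algebraMap S F s ∈ V₂)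
    (hthr₁ : ∀ s : S, algebraMap S F s ∈ V₁.nonunits → s ∈ 𝔫)
    (hthr₂ : ∀ s : S, algebraMap S F s ∈ V₂.nonunits → s ∈ 𝔫)
    (hGS₁ : ∀ s : S, ∃ r : R, algebraMap S F s - φ (algebraMap R F₁ r) ∈ V₁.nonunits)
    (hGS₂ : ∀ s : S, ∃ r : R, algebraMap S F s - φ (algebraMap R F₁ r) ∈ V₂.nonunits)
    {m : ℕ} (hm : 0 < m) {ζ₁ : F₁} (hζ : ∃ r : R, algebraMap R F₁ r = ζ₁) :
    NgLoc φ N V₁ V₂ m ζ₁ (ls_localSubring (F := F) 𝔫)
      (ls_localSubring (F := F₁) (𝔫.comap (algebraMap R S))) where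
  map := fun _ hz => s36ngl_map φ hφ 𝔫 hz
  norm := fun _ he _ => s36ngl_norm φ hφ 𝔫 huniq N hNφ hNS he
  root := fun _ hz => s36ngl_root (𝔫.comap (algebraMap R S)) hR hm hz
  zeta := by
    obtain ⟨r, hr⟩ := hζ
    rw [← hr]
    exact ls_algebraMap_mem _ r
  surj₁ := fun _ ha0 ha ha' => s36ngl_surj φ hφ 𝔫 huniq V₁ hSV₁ hthr₁ hGS₁ ha0 ha ha'
  surj₂ := fun _ ha0 ha ha' => s36ngl_surj φ hφ 𝔫 huniq V₂ hSV₂ hthr₂ hGS₂ ha0 ha ha'

end Package

end Fermat.Agent.S36
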