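import Mathlib
import Fermat.Agent.S36.NgLocAbs

/-!
# S36 / (I6)(c) (helper19): `NgLoc` at a triple point from VALUATION data

Setting of `S36/NgLocAbs.lean`: charts `R ⊆ F₁`, `S ⊆ F`, `S` integral over `R` along
`φ : F₁ →+* F`.  The uniqueness hypothesis `huniq` of `s36ngl_ngLoc` (`𝔫` is the only prime of
`S` over `𝔫 ∩ R`) is derived from the THIRD component `V₃` through `𝔫`
(`α`: `V₃ = V_b` over `W₃ = V′_0`; `β`: `V₃ = V_a` over `W₃ = V′_∞`):

* `s36nglCenter V hSV` : the centre `𝔭_V = 𝔪(V) ∩ S` of a valuation subring `V ⊇ S`, a prime;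
* `s36ngl_unique_over` : if `V₃` is integral over `W₃` (EXT) and `W₃` is the localisation of `R`
  at its centre (`hWloc`), then `𝔭_{V₃}` is the ONLY prime of `S` over `𝔭_{V₃} ∩ R`;
* `s36ngl_insep` : `S / 𝔭_{V₃}` is purely inseparable over `R / (𝔭_{V₃} ∩ R)`, from the
  norm–residue formula `NgDir.insep`;
* `s36ngl_huniq` : `huniq` at every prime `𝔫 ⊇ 𝔭_{V₃}`;
* `s36ngl_ngLoc_val` : the package `NgLoc`.
-/

set_option autoImplicit false
set_option linter.unusedSectionVars false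
set_option linter.style.haveILetI false

namespace Fermat.Agent.S36

open Fermat.Agent.UNIP Polynomial

variable {R S F₁ F : Type*} [CommRing R] [CommRing S] [Field F₁] [Field F]
  [Algebra R S] [Algebra R F₁] [Algebra S F]

section Center

variable (V : ValuationSubring F) (hSV : ∀ s : S, algebraMap S F s ∈ V)

/-- the centre on the chart `S` of a valuation subring `V ⊇ S` -/
def s36nglCenter : Ideal S where
  carrier := {s | algebraMap S F s ∈ V.nonunits}
  add_mem' := by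
    intro a b ha hb
    simp only [Set.mem_ofPred_eq] at ha hb ⊢
    rw [map_add, ValuationSubring.mem_nonunits_iff]
    rw [ValuationSubring.mem_nonunits_iff] at ha hb
    exact Valuation.map_add_lt _ ha hb
  zero_mem' := by
    simp only [Set.mem_ofPred_eq]
    rw [map_zero, ValuationSubring.mem_nonunits_iff, map_zero]
    exact zero_lt_one
  smul_mem' := by
    intro c x hx
    simp only [Set.mem_ofPred_eq, smul_eq_mul] at hx ⊢
    rw [map_mul, ValuationSubring.mem_nonunits_iff, map_mul]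
    rw [ValuationSubring.mem_nonunits_iff] at hx
    have hc : V.valuation (algebraMap S F c) ≤ 1 :=
      (ValuationSubring.valuation_le_one_iff V _).mpr (hSV c)
    calc V.valuation (algebraMap S F c) * V.valuation (algebraMap S F x)
        ≤ 1 * V.valuation (algebraMap S F x) := mul_le_mul_left hc _
      _ = V.valuation (algebraMap S F x) := one_mul _
      _ < 1 := hx

theorem mem_s36nglCenter {s : S} :
    s ∈ s36nglCenter V hSV ↔ algebraMap S F s ∈ V.nonunits := Iff.rfl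

instance s36nglCenter_isPrime : (s36nglCenter V hSV).IsPrime := by
  refine ⟨?_, ?_⟩
  · intro h
    have h1 : (1 : S) ∈ s36nglCenter V hSV := by rw [h]; trivial
    rw [mem_s36nglCenter, map_one, ValuationSubring.mem_nonunits_iff, map_one] at h1
    exact lt_irrefl _ h1
  · intro a b hab
    rw [mem_s36nglCenter, map_mul, ValuationSubring.mem_nonunits_iff, map_mul] at hab
    by_contra hcon
    rw [not_or] at hcon
    obtain ⟨ha, hb⟩ := hcon
    rw [mem_s36nglCenter, ValuationSubring.mem_nonunits_iff, not_lt] at ha hb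
    have ha1 : V.valuation (algebraMap S F a) = 1 :=
      le_antisymm ((ValuationSubring.valuation_le_one_iff V _).mpr (hSV a)) ha
    have hb1 : V.valuation (algebraMap S F b) = 1 :=
      le_antisymm ((ValuationSubring.valuation_le_one_iff V _).mpr (hSV b)) hb
    rw [ha1, hb1, one_mul] at hab
    exact lt_irrefl _ hab

end Center

section Eval

/-- evaluation of a polynomial with coefficients in a subring -/
theorem s36ngl_eval₂_mem (φ : F₁ →+* F) (T : Subring F) (g : F₁[X])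
    (hg : ∀ k, φ (g.coeff k) ∈ T) {a : F} (ha : a ∈ T) : g.eval₂ φ a ∈ T := by
  rw [Polynomial.eval₂_eq_sum_range]
  exact T.sum_mem fun k _ => T.mul_mem (hg k) (T.pow_mem ha k)

end Eval

section Unique

variable [Algebra.IsIntegral R S] (φ : F₁ →+* F)
  (hφ : ∀ r : R, φ (algebraMap R F₁ r) = algebraMap S F (algebraMap R S r))
  (hinjS : Function.Injective (algebraMap S F))
  (W : ValuationSubring F₁) (V : ValuationSubring F)
  (hSV : ∀ s : S, algebraMap S F s ∈ V)
  (hcomap : ∀ z : F₁, φ z ∈ V.nonunits → z ∈ W.nonunits)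
  (hEXT : ∀ x ∈ V, ∃ p : F₁[X], p.Monic ∧ (∀ k, p.coeff k ∈ W) ∧ p.eval₂ φ x = 0)
  (hWloc : ∀ y ∈ W, ∃ b s : R, algebraMap R F₁ s ∉ W.nonunits ∧
    algebraMap R F₁ s * y = algebraMap R F₁ b)

include hφ hinjS hcomap hEXT hWloc in
/-- a prime `Q` of `S` whose contraction is `𝔭_V ∩ R` is contained in `𝔭_V` -/
theorem s36ngl_le_center (Q : Ideal S) [Q.IsPrime]
    (hQ : Q.comap (algebraMap R S) = (s36nglCenter V hSV).comap (algebraMap R S)) :
    Q ≤ s36nglCenter V hSV := by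
  intro x hx
  rw [mem_s36nglCenter]
  by_contra hcon
  set a := algebraMap S F x with ha
  have hav : V.valuation a = 1 := by
    rw [ValuationSubring.mem_nonunits_iff, not_lt] at hcon
    exact le_antisymm ((ValuationSubring.valuation_le_one_iff V _).mpr (hSV x)) hcon
  have ha0 : a ≠ 0 := by
    intro h0
    rw [h0, map_zero] at hav
    exact zero_ne_one hav
  have hainv : a⁻¹ ∈ V := by
    rw [← ValuationSubring.valuation_le_one_iff, map_inv₀, hav, inv_one]
  obtain ⟨p, hp, hpc, hpx⟩ := hEXT _ hainv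
  -- the reversed polynomial vanishes at `a`
  have hrev : p.reverse.eval₂ φ a = 0 := by
    letI : Invertible (a⁻¹) := invertibleOfNonzero (inv_ne_zero ha0)
    have h1 := (Polynomial.eval₂_reverse_eq_zero_iff φ (a⁻¹) p).mpr hpx
    rwa [invOf_eq_inv, inv_inv] at h1
  -- `reverse p = divX (reverse p) * X + 1`
  have hdec : p.reverse.divX.eval₂ φ a * a + 1 = 0 := by
    have h1 := Polynomial.divX_mul_X_add p.reverse
    rw [Polynomial.coeff_zero_reverse, hp.leadingCoeff] at h1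
    rw [← h1, Polynomial.eval₂_add, Polynomial.eval₂_mul, Polynomial.eval₂_X,
      Polynomial.eval₂_C, map_one] at hrev
    exact hrev
  -- the value `e` lies in the local ring `S_Q`
  have he : p.reverse.divX.eval₂ φ a ∈ ls_localSubring (F := F) Q := by
    refine s36ngl_eval₂_mem φ _ _ (fun k => ?_) (ls_algebraMap_mem Q x)
    rw [Polynomial.coeff_divX, Polynomial.coeff_reverse]
    obtain ⟨b, s, hs, hsb⟩ := hWloc _ (hpc (Polynomial.revAt p.natDegree (k + 1)))
    refine ⟨algebraMap R S b, algebraMap R S s, ?_, ?_⟩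
    · intro hsQ
      have h1 : s ∈ Q.comap (algebraMap R S) := hsQ
      rw [hQ, Ideal.mem_comap, mem_s36nglCenter, ← hφ] at h1
      exact hs (hcomap _ h1)
    · rw [← hφ, ← hφ, ← map_mul, hsb]
  obtain ⟨b, s, hs, hsb⟩ := he
  -- `x b = - s` in `S`
  have hkey : x * b = -s := by
    apply hinjS
    rw [map_mul, map_neg, ← hsb]
    have h2 : p.reverse.divX.eval₂ φ a * a = -1 := eq_neg_of_add_eq_zero_left hdec
    calc a * (algebraMap S F s * p.reverse.divX.eval₂ φ a)
        = algebraMap S F s * (p.reverse.divX.eval₂ φ a * a) := by ring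
      _ = -algebraMap S F s := by rw [h2]; ring
  apply hs
  have h3 : -s ∈ Q := by
    rw [← hkey]
    exact Q.mul_mem_right _ hx
  simpa using Q.neg_mem h3

include hφ hinjS hcomap hEXT hWloc in
/-- **`𝔭_V` is the only prime of `S` over `𝔭_V ∩ R`**, if `V` is integral over `W` (EXT) and
`W = R_{𝔭_W}`. -/
theorem s36ngl_unique_over (Q : Ideal S) [Q.IsPrime]
    (hQ : Q.comap (algebraMap R S) = (s36nglCenter V hSV).comap (algebraMap R S)) :
    Q = s36nglCenter V hSV := by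
  have hle := s36ngl_le_center φ hφ hinjS W V hSV hcomap hEXT hWloc Q hQ
  by_contra hne
  have hlt : Q < s36nglCenter V hSV := lt_of_le_of_ne hle hne
  have h1 := Ideal.IsIntegral.comap_lt_comap (R := R) hlt
  rw [hQ] at h1
  exact lt_irrefl _ h1

end Unique

section Insep

variable (φ : F₁ →+* F)
  (hφ : ∀ r : R, φ (algebraMap R F₁ r) = algebraMap S F (algebraMap R S r))
  (N : F →* F₁) (V : ValuationSubring F) (hSV : ∀ s : S, algebraMap S F s ∈ V)
  (hNS : ∀ s : S, ∃ r : R, N (algebraMap S F s) = algebraMap R F₁ r)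

include hφ hNS in
/-- **`S / 𝔭_V` is purely inseparable over `R`**, from the norm–residue formula
`x ^ Q ≡ φ (N x)` at `V`. -/
theorem s36ngl_insep {Q : ℕ} (hQ : 0 < Q)
    (hinsep : ∀ x, V.valuation x = 1 → NgC V (φ (N x)) (x ^ Q)) (x : S) :
    ∃ r : R, x ^ Q - algebraMap R S r ∈ s36nglCenter V hSV := by
  by_cases hx : V.valuation (algebraMap S F x) = 1
  · obtain ⟨r, hr⟩ := hNS x
    refine ⟨r, ?_⟩
    rw [mem_s36nglCenter, map_sub, map_pow, ← hφ, ← hr]
    have h1 := hinsep _ hx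
    unfold NgC at h1
    have hx0 : algebraMap S F x ≠ 0 := by
      intro h0
      rw [h0, map_zero] at hx
      exact zero_ne_one hx
    have h2 : algebraMap S F x ^ Q - φ (N (algebraMap S F x)) =
        -(algebraMap S F x ^ Q) * (φ (N (algebraMap S F x)) / algebraMap S F x ^ Q - 1) := by
      field_simp
      ring
    rw [h2, ValuationSubring.mem_nonunits_iff, map_mul, Valuation.map_neg, map_pow, hx, one_pow,
      one_mul]
    exact (ValuationSubring.mem_nonunits_iff V).mp h1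
  · refine ⟨0, ?_⟩
    rw [map_zero, sub_zero]
    have hx1 : x ∈ s36nglCenter V hSV := by
      rw [mem_s36nglCenter, ValuationSubring.mem_nonunits_iff]
      exact lt_of_le_of_ne ((ValuationSubring.valuation_le_one_iff V _).mpr (hSV x)) hx
    exact Ideal.pow_mem_of_mem _ hx1 Q hQ

end Insep

section Package

variable [IsDomain S] [FaithfulSMul R S] [Algebra.IsIntegral R S] [IsIntegrallyClosed R]
  (φ : F₁ →+* F)
  (hφ : ∀ r : R, φ (algebraMap R F₁ r) = algebraMap S F (algebraMap R S r))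
  (hinjS : Function.Injective (algebraMap S F))
  (N : F →* F₁) (hNS : ∀ s : S, ∃ r : R, N (algebraMap S F s) = algebraMap R F₁ r)
  (W₃ : ValuationSubring F₁) (V₃ : ValuationSubring F)
  (hSV₃ : ∀ s : S, algebraMap S F s ∈ V₃)
  (hcomap₃ : ∀ z : F₁, φ z ∈ V₃.nonunits → z ∈ W₃.nonunits)
  (hEXT₃ : ∀ x ∈ V₃, ∃ p : F₁[X], p.Monic ∧ (∀ k, p.coeff k ∈ W₃) ∧ p.eval₂ φ x = 0)
  (hWloc₃ : ∀ y ∈ W₃, ∃ b s : R, algebraMap R F₁ s ∉ W₃.nonunits ∧
    algebraMap R F₁ s * y = algebraMap R F₁ b)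

include hφ hinjS hNS hSV₃ hcomap₃ hEXT₃ hWloc₃ in
/-- **`huniq`**: a prime `𝔫` of `S` through the third component `V₃` is the only prime of `S`
over `𝔫 ∩ R`. -/
theorem s36ngl_huniq {Q : ℕ} (hQ : 0 < Q)
    (hinsep : ∀ x, V₃.valuation x = 1 → NgC V₃ (φ (N x)) (x ^ Q))
    (𝔫 : Ideal S) [𝔫.IsPrime]
    (hthr₃ : ∀ s : S, algebraMap S F s ∈ V₃.nonunits → s ∈ 𝔫)
    (𝔫₂ : Ideal S) (h₂ : 𝔫₂.IsPrime)
    (e : 𝔫₂.comap (algebraMap R S) = 𝔫.comap (algebraMap R S)) : 𝔫₂ = 𝔫 := by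
  haveI := h₂
  have hPa : ∀ Q' : Ideal S, Q'.IsPrime →
      Q'.comap (algebraMap R S) = (s36nglCenter V₃ hSV₃).comap (algebraMap R S) →
      Q' = s36nglCenter V₃ hSV₃ := fun Q' hQ' hc =>
    haveI := hQ'
    s36ngl_unique_over φ hφ hinjS W₃ V₃ hSV₃ hcomap₃ hEXT₃ hWloc₃ Q' hc
  have hins := s36ngl_insep φ hφ N V₃ hSV₃ hNS hQ hinsep
  have h1 : s36nglCenter V₃ hSV₃ ≤ 𝔫 := fun s hs => hthr₃ s hs
  have h2 : s36nglCenter V₃ hSV₃ ≤ 𝔫₂ :=
    s36inc_le_of_unique ((s36nglCenter V₃ hSV₃).comap (algebraMap R S)) _ hPa 𝔫₂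
      (e ▸ Ideal.comap_mono h1)
  exact s36inc_eq_of_insep (s36nglCenter V₃ hSV₃) hQ hins h2 h1 e

include hφ hinjS hNS hSV₃ hcomap₃ hEXT₃ hWloc₃ in
/-- **The local package `NgLoc` at a triple point, from valuation data.**
`V₁`, `V₂` the two components over the same component of the lower level, `V₃` the third
component (over `W₃`). -/
theorem s36ngl_ngLoc_val {Q : ℕ} (hQ : 0 < Q)
    (hinsep : ∀ x, V₃.valuation x = 1 → NgC V₃ (φ (N x)) (x ^ Q))
    (𝔫 : Ideal S) [𝔫.IsPrime]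
    (hthr₃ : ∀ s : S, algebraMap S F s ∈ V₃.nonunits → s ∈ 𝔫)
    (hR : ∀ z : F₁, IsIntegral R z → ∃ r : R, algebraMap R F₁ r = z)
    {n : ℕ} (hNφ : ∀ x : F₁, N (φ x) = x ^ n)
    (V₁ V₂ : ValuationSubring F)
    (hSV₁ : ∀ s : S, algebraMap S F s ∈ V₁) (hSV₂ : ∀ s : S, algebraMap S F s ∈ V₂)
    (hthr₁ : ∀ s : S, algebraMap S F s ∈ V₁.nonunits → s ∈ 𝔫)
    (hthr₂ : ∀ s : S, algebraMap S F s ∈ V₂.nonunits → s ∈ 𝔫)
    (hGS₁ : ∀ s : S, ∃ r : R, algebraMap S F s - φ (algebraMap R F₁ r) ∈ V₁.nonunits)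
    (hGS₂ : ∀ s : S, ∃ r : R, algebraMap S F s - φ (algebraMap R F₁ r) ∈ V₂.nonunits)
    {m : ℕ} (hm : 0 < m) {ζ₁ : F₁} (hζ : ∃ r : R, algebraMap R F₁ r = ζ₁) :
    NgLoc φ N V₁ V₂ m ζ₁ (ls_localSubring (F := F) 𝔫)
      (ls_localSubring (F := F₁) (𝔫.comap (algebraMap R S))) :=
  s36ngl_ngLoc φ hφ 𝔫
    (s36ngl_huniq φ hφ hinjS N hNS W₃ V₃ hSV₃ hcomap₃ hEXT₃ hWloc₃ hQ hinsep 𝔫 hthr₃)
    hR N hNφ hNS V₁ V₂ hSV₁ hSV₂ hthr₁ hthr₂ hGS₁ hGS₂ hm hζ

end Package

end Fermat.Agent.S36
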