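import Mathlib
import Fermat.Agent.S36.NgLocVal

/-!
# S36 / (I6)(c) (helper19): `NgLoc` at a triple point, chart form

`Rs ⊆ F₁`, `Ss ⊆ F` two subalgebras (the charts `B′ = zchClosure {t′}`, `B = zchClosure {t}`),
`φ : F₁ →+* F` with `φ Rs ⊆ Ss` and `Ss` integral over `φ Rs`.

* `s36nglHom` : the chart homomorphism `Rs →+* Ss`;
* `s36ngl_chart` : the package `∃ O', NgLoc φ N V₁ V₂ m ζ₁ (ls_localSubring 𝔫) O'` at a prime `𝔫`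
  of `Ss` through the three components `V₁`, `V₂`, `V₃`, with all hypotheses stated on elements
  of the fields (= the shapes of N2-val, N2-ext, N2-ker, N2-loc, G-nr);
* `s36ngl_norm_mem` : the norm of an element integral over `Rs` (along `φ`) lies in `Rs`.
-/

set_option autoImplicit false
set_option linter.unusedSectionVars false
set_option linter.style.haveILetI false

namespace Fermat.Agent.S36

open Fermat.Agent.UNIP Polynomial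

section Chart

variable {A₀ F₁ F : Type*} [CommRing A₀] [Field F₁] [Field F] [Algebra A₀ F₁] [Algebra A₀ F]
  (Rs : Subalgebra A₀ F₁) (Ss : Subalgebra A₀ F) (φ : F₁ →+* F)
  (hφR : ∀ r ∈ Rs, φ r ∈ Ss)

/-- the chart homomorphism `Rs → Ss` induced by `φ` -/
def s36nglHom : ↥Rs →+* ↥Ss :=
  (φ.comp Rs.val.toRingHom).codRestrict Ss (fun r => hφR r r.2)

theorem s36nglHom_coe (r : Rs) : ((s36nglHom Rs Ss φ hφR r : Ss) : F) = φ (r : F₁) := rfl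

theorem s36nglHom_injective : Function.Injective (s36nglHom Rs Ss φ hφR) := by
  intro a b hab
  have h1 : φ (a : F₁) = φ (b : F₁) := congrArg Subtype.val hab
  exact Subtype.ext (φ.injective h1)

/-- integrality of the chart `Ss` over `Rs` -/
theorem s36ngl_isIntegral
    (hSint : ∀ s ∈ Ss, (φ.comp Rs.val.toRingHom).IsIntegralElem s) (s : Ss) :
    (s36nglHom Rs Ss φ hφR).IsIntegralElem s := by
  obtain ⟨p, hp, hps⟩ := hSint s s.2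
  refine ⟨p, hp, ?_⟩
  apply Subtype.val_injective
  have h1 : (Ss.val.toRingHom) (p.eval₂ (s36nglHom Rs Ss φ hφR) s) =
      p.eval₂ (Ss.val.toRingHom.comp (s36nglHom Rs Ss φ hφR)) (Ss.val.toRingHom s) :=
    Polynomial.hom_eval₂ p (s36nglHom Rs Ss φ hφR) Ss.val.toRingHom s
  have h2 : Ss.val.toRingHom.comp (s36nglHom Rs Ss φ hφR) = φ.comp Rs.val.toRingHom := rfl
  rw [h2] at h1
  show (Ss.val.toRingHom) (p.eval₂ (s36nglHom Rs Ss φ hφR) s) = _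
  rw [h1]
  exact hps

include hφR in
set_option maxHeartbeats 1000000 in
set_option synthInstance.maxHeartbeats 200000 in
/-- **`NgLoc` at a triple point, chart form.** -/
theorem s36ngl_chart [IsIntegrallyClosed Rs]
    (hSint : ∀ s ∈ Ss, (φ.comp Rs.val.toRingHom).IsIntegralElem s)
    (hRcl : ∀ z : F₁, IsIntegral Rs z → z ∈ Rs)
    (N : F →* F₁) (hNS : ∀ s ∈ Ss, N s ∈ Rs) {n : ℕ} (hNφ : ∀ x : F₁, N (φ x) = x ^ n)
    (W₃ : ValuationSubring F₁) (V₁ V₂ V₃ : ValuationSubring F)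
    (hSV₁ : ∀ s ∈ Ss, s ∈ V₁) (hSV₂ : ∀ s ∈ Ss, s ∈ V₂) (hSV₃ : ∀ s ∈ Ss, s ∈ V₃)
    (hcomap₃ : ∀ z : F₁, φ z ∈ V₃.nonunits → z ∈ W₃.nonunits)
    (hEXT₃ : ∀ x ∈ V₃, ∃ p : F₁[X], p.Monic ∧ (∀ k, p.coeff k ∈ W₃) ∧ p.eval₂ φ x = 0)
    (hWloc₃ : ∀ y ∈ W₃, ∃ b s : F₁, b ∈ Rs ∧ s ∈ Rs ∧ s ∉ W₃.nonunits ∧ s * y = b)
    {Q : ℕ} (hQ : 0 < Q) (hinsep : ∀ x, V₃.valuation x = 1 → NgC V₃ (φ (N x)) (x ^ Q))
    (hGS₁ : ∀ s ∈ Ss, ∃ r ∈ Rs, s - φ r ∈ V₁.nonunits)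
    (hGS₂ : ∀ s ∈ Ss, ∃ r ∈ Rs, s - φ r ∈ V₂.nonunits)
    (𝔫 : Ideal Ss) [𝔫.IsPrime]
    (hthr₁ : ∀ b : Ss, (b : F) ∈ V₁.nonunits → b ∈ 𝔫)
    (hthr₂ : ∀ b : Ss, (b : F) ∈ V₂.nonunits → b ∈ 𝔫)
    (hthr₃ : ∀ b : Ss, (b : F) ∈ V₃.nonunits → b ∈ 𝔫)
    {m : ℕ} (hm : 0 < m) {ζ₁ : F₁} (hζ : ζ₁ ∈ Rs) :
    ∃ O' : Subring F₁, NgLoc φ N V₁ V₂ m ζ₁ (ls_localSubring (F := F) 𝔫) O' := by
  letI : Algebra Rs Ss := (s36nglHom Rs Ss φ hφR).toAlgebra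
  have hφ : ∀ r : Rs, φ (algebraMap Rs F₁ r) = algebraMap Ss F (algebraMap Rs Ss r) :=
    fun _ => rfl
  haveI : FaithfulSMul Rs Ss :=
    (faithfulSMul_iff_algebraMap_injective _ _).mpr (s36nglHom_injective Rs Ss φ hφR)
  haveI : Algebra.IsIntegral Rs Ss := ⟨fun s => s36ngl_isIntegral Rs Ss φ hφR hSint s⟩
  refine ⟨ls_localSubring (F := F₁) (𝔫.comap (algebraMap Rs Ss)), ?_⟩
  exact s36ngl_ngLoc_val φ hφ Subtype.val_injective N (fun s => ⟨⟨N s, hNS s s.2⟩, rfl⟩)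
    W₃ V₃ (fun s => hSV₃ s s.2) hcomap₃ hEXT₃
    (fun y hy => by
      obtain ⟨b, s, hb, hs, hsW, hsy⟩ := hWloc₃ y hy
      exact ⟨⟨b, hb⟩, ⟨s, hs⟩, hsW, hsy⟩)
    hQ hinsep 𝔫 hthr₃
    (fun z hz => ⟨⟨z, hRcl z hz⟩, rfl⟩) hNφ V₁ V₂ (fun s => hSV₁ s s.2) (fun s => hSV₂ s s.2)
    hthr₁ hthr₂
    (fun s => by
      obtain ⟨r, hr, h⟩ := hGS₁ s s.2
      exact ⟨⟨r, hr⟩, h⟩)
    (fun s => by
      obtain ⟨r, hr, h⟩ := hGS₂ s s.2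
      exact ⟨⟨r, hr⟩, h⟩)
    hm ⟨⟨ζ₁, hζ⟩, rfl⟩

include hφR in
set_option maxHeartbeats 1000000 in
set_option synthInstance.maxHeartbeats 200000 in
/-- **`huniq`, chart form**: a prime `𝔫` of `Ss` through the third component `V₃` is the only
prime of `Ss` over its contraction along the chart map. -/
theorem s36ngl_chart_huniq [IsIntegrallyClosed Rs]
    (hSint : ∀ s ∈ Ss, (φ.comp Rs.val.toRingHom).IsIntegralElem s)
    (N : F →* F₁) (hNS : ∀ s ∈ Ss, N s ∈ Rs)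
    (W₃ : ValuationSubring F₁) (V₃ : ValuationSubring F)
    (hSV₃ : ∀ s ∈ Ss, s ∈ V₃)
    (hcomap₃ : ∀ z : F₁, φ z ∈ V₃.nonunits → z ∈ W₃.nonunits)
    (hEXT₃ : ∀ x ∈ V₃, ∃ p : F₁[X], p.Monic ∧ (∀ k, p.coeff k ∈ W₃) ∧ p.eval₂ φ x = 0)
    (hWloc₃ : ∀ y ∈ W₃, ∃ b s : F₁, b ∈ Rs ∧ s ∈ Rs ∧ s ∉ W₃.nonunits ∧ s * y = b)
    {Q : ℕ} (hQ : 0 < Q) (hinsep : ∀ x, V₃.valuation x = 1 → NgC V₃ (φ (N x)) (x ^ Q))
    (𝔫 : Ideal Ss) [𝔫.IsPrime]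
    (hthr₃ : ∀ b : Ss, (b : F) ∈ V₃.nonunits → b ∈ 𝔫)
    (𝔫₂ : Ideal Ss) (h₂ : 𝔫₂.IsPrime)
    (e : 𝔫₂.comap (s36nglHom Rs Ss φ hφR) = 𝔫.comap (s36nglHom Rs Ss φ hφR)) : 𝔫₂ = 𝔫 := by
  letI : Algebra Rs Ss := (s36nglHom Rs Ss φ hφR).toAlgebra
  have hφ : ∀ r : Rs, φ (algebraMap Rs F₁ r) = algebraMap Ss F (algebraMap Rs Ss r) :=
    fun _ => rfl
  haveI : FaithfulSMul Rs Ss :=
    (faithfulSMul_iff_algebraMap_injective _ _).mpr (s36nglHom_injective Rs Ss φ hφR)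
  haveI : Algebra.IsIntegral Rs Ss := ⟨fun s => s36ngl_isIntegral Rs Ss φ hφR hSint s⟩
  exact s36ngl_huniq φ hφ Subtype.val_injective N (fun s => ⟨⟨N s, hNS s s.2⟩, rfl⟩)
    W₃ V₃ (fun s => hSV₃ s s.2) hcomap₃ hEXT₃
    (fun y hy => by
      obtain ⟨b, s, hb, hs, hsW, hsy⟩ := hWloc₃ y hy
      exact ⟨⟨b, hb⟩, ⟨s, hs⟩, hsW, hsy⟩)
    hQ hinsep 𝔫 hthr₃ 𝔫₂ h₂ e

end Chart

section Norm

variable {A₀ F₁ F : Type*} [CommRing A₀] [Field F₁] [Field F] [Algebra A₀ F₁]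
  (Rs : Subalgebra A₀ F₁) (φ : F₁ →+* F)

/-- the norm of an element integral over `Rs` along `φ` is integral over `Rs` -/
theorem s36ngl_norm_isIntegral {s : F} (hs : (φ.comp Rs.val.toRingHom).IsIntegralElem s) :
    letI : Algebra F₁ F := φ.toAlgebra
    IsIntegral Rs (Algebra.norm F₁ s) := by
  letI : Algebra F₁ F := φ.toAlgebra
  letI : Algebra Rs F := (φ.comp Rs.val.toRingHom).toAlgebra
  have h1 : IsIntegral Rs s := hs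
  exact @Algebra.isIntegral_norm Rs _ F F₁ _ _ _ _ _
    (IsScalarTower.of_algebraMap_eq (fun _ => rfl)) s h1

end Norm

end Fermat.Agent.S36
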