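import Fermat.Agent.S36.NormResKer
import Fermat.Agent.S36.NormResAbs
import Fermat.Agent.S36.NormConj
import Fermat.Agent.S36.TopSetting

/-!
# S36 / G-nr, part 3 (helper20): the four norm–residue formulas at level `M q²`

Setting of `S36/N2Val.lean`: bases `(A, E, k, r, π)` (`hB`) and `(A', K, k', r', π')` (`hB'`),
`ψ : E →+* K` compatible (`hc : VtCompat …`), `ζ : Kˣ` a primitive `q`-th root of unity, the image
of a unit `z : A'ˣ` with `r' z = 1`, `h : S36MidEmb K q M ζ`; and for every `b` prime to `q` an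
endomorphism `σ` of `K` over `E` with `σ ζ = ζ ^ b` preserving the integral structure (`hgal`).

`V_a = s36n2VA hB`, `V_b = s36n2VB hB ιC hq hqM`, `V_c = s36n2VC hB' ψ hq h z hz`,
`W_∞ = vtInf hB (M q)`, `W_0 = vtZero hB ιC hq hqM`.

* `s36nr_cut_VA`, `s36nr_cut_VB`, `s36nr_cut_VC_mu`, `s36nr_cut_VC_nu`, `s36nr_cut_Winf`,
  `s36nr_cut_W0` : the cut-outs by the conjugate families of `S36/NormConj.lean`;
* `s36nr_split_alpha` (Nα∞), `s36nr_insep_alpha` (Nα0), `s36nr_split_beta` (Nβ0),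
  `s36nr_insep_beta` (Nβ∞) : the fields `split`, `insep` of the two packages `NgDir`;
* `s36nr_ngDir_alpha`, `s36nr_ngDir_beta` : the packages `NgDir` from the residue surjectivities.
-/

set_option autoImplicit false
set_option linter.unusedSectionVars false
set_option linter.unusedVariables false
set_option linter.style.haveILetI false

noncomputable section

namespace Fermat.Agent.S36

open ModularCurve Fermat.Agent.UNIP Fermat.Agent.INJ Fermat.Agent.AL Fermat.Agent.ES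
open Fermat.Agent.STB

section Cut

variable {A E k A' K k' : Type*} [CommRing A] [IsDomain A] [Field E] [Algebra A E]
  [IsFractionRing A E] [Field k] [CommRing A'] [Field K] [Field k']
  {r : A →+* k} {π : A} {ι' : A' →+* K} {r' : A' →+* k'} {π' : A'}
  (hB : VtBase (algebraMap A E) r π) (hB' : VtBase ι' r' π')
  (ψ : E →+* K) {κ : k →+* k'} (hc : VtCompat (algebraMap A E) r ι' r' ψ κ)
  (ιC : E →+* ℂ) (ιK : K →+* ℂ)
  {q M : ℕ} [NeZero q] [NeZero M] [NeZero (M * q)] [NeZero (M * q * q)]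
  (hq : q.Prime) (hqM : ¬ q ∣ M)
  {ζ : Kˣ} (hζ : IsPrimitiveRoot (ζ : K) q)
  (h : S36MidEmb K q M ζ) (z : A'ˣ) (hz : Units.map (ι' : A' →* K) z = ζ)

include hB' hc in
/-- `V_a` is cut out by `e_a` -/
theorem s36nr_cut_VA (x : modularFunctionFieldFullC E (M * q * q)) :
    x ∈ (s36n2VA (q := q) (M := M) hB).nonunits ↔ s36ncA ψ x ∈ s36nrKer ι' r' :=
  s36nr_cut_bc hB hB' hc (vtEmb E (M * q * q)) (fun x => vt_frac_fullC hB (M * q * q) x.2)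
    (s36ncA ψ) (fun _ => rfl) x

include hB' hc in
/-- `V_b` is cut out by `e_b` -/
theorem s36nr_cut_VB (x : modularFunctionFieldFullC E (M * q * q)) :
    x ∈ (s36n2VB hB ιC hq hqM).nonunits ↔ s36ncB ψ ιC hq hqM x ∈ s36nrKer ι' r' :=
  s36nr_cut_bc hB hB' hc (s36n2EmbB ιC hq hqM)
    (fun x => vt_frac_fullC hB (M * q * q) (s36n2W E ιC hq hqM x).2)
    (s36ncB ψ ιC hq hqM) (fun _ => rfl) x

include hB' hc in
/-- `W_∞` is cut out by the base embedding of the family `(α,∞)` -/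
theorem s36nr_cut_Winf (y : modularFunctionFieldFullC E (M * q)) :
    y ∈ (vtInf hB (M * q)).nonunits ↔ s36ncBaseAlphaInf ψ y ∈ s36nrKer ι' r' :=
  s36nr_cut_bc hB hB' hc (vtEmb E (M * q)) (fun x => vt_frac_fullC hB (M * q) x.2)
    (s36ncBaseAlphaInf ψ) (fun _ => rfl) y

include hB' hc in
/-- `W_0` is cut out by the base embedding of the family `(β,0)` -/
theorem s36nr_cut_W0 (y : modularFunctionFieldFullC E (M * q)) :
    y ∈ (vtZero hB ιC hq hqM).nonunits ↔ s36ncBaseBetaZero ψ ιC hq hqM y ∈ s36nrKer ι' r' :=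
  s36nr_cut_bc hB hB' hc (vtEmbFam ιC hq hqM false) (vt_frac_fam hB ιC hq hqM false)
    (s36ncBaseBetaZero ψ ιC hq hqM) (fun _ => rfl) y

/-- `V_c` is cut out by `μ_ζ` -/
theorem s36nr_cut_VC (x : modularFunctionFieldFullC E (M * q * q)) :
    x ∈ (s36n2VC hB' ψ hq h z hz).nonunits ↔ s36n2EmbC ψ h x ∈ s36nrKer ι' r' :=
  s36nr_cut hB' (s36n2EmbC ψ h) (fun _ => s36n2_frac_emb hB' hq h z hz _) x

include hq in
/-- Galois equivariance of the middle expansions, for elements coming from `E` -/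
theorem s36nr_mu_gal {ζ' : Kˣ} (h' : S36MidEmb K q M ζ') (σ : K →+* K)
    (hσψ : ∀ x, σ (ψ x) = ψ x) (hσζ : σ (ζ : K) = (ζ' : K))
    (x : modularFunctionFieldFullC E (M * q * q)) :
    h'.emb (mgaCoeffHom ψ (M * q * q) x) = coeffMap σ (h.emb (mgaCoeffHom ψ (M * q * q) x)) := by
  have e1 := S36MidEmb.emb_coeffMap hq h h' σ hσζ (mgaCoeffHom ψ (M * q * q) x)
  have e2 : coeffMap σ ((mgaCoeffHom ψ (M * q * q) x :
      modularFunctionFieldFullC K (M * q * q)) : LaurentSeries K) =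
      ((mgaCoeffHom ψ (M * q * q) x : modularFunctionFieldFullC K (M * q * q)) :
        LaurentSeries K) := by
    rw [mgaCoeffHom_coe, coeffMap_coeffMap]
    exact coeffMap_congr (RingHom.ext hσψ) _
  have e3 : (⟨coeffMap σ ((mgaCoeffHom ψ (M * q * q) x :
      modularFunctionFieldFullC K (M * q * q)) : LaurentSeries K),
      al_coeffMap_mem K (M * q * q) σ (mgaCoeffHom ψ (M * q * q) x).2⟩ :
      modularFunctionFieldFullC K (M * q * q)) = mgaCoeffHom ψ (M * q * q) x :=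
    Subtype.ext e2
  rw [e3] at e1
  exact e1

/-- `V_c` is cut out by every `μ_{ζ^b}`, `q ∤ b` -/
theorem s36nr_cut_VC_mu {b : ℕ} (hb : ¬ q ∣ b) (σ : K →+* K) (κ' : k' →+* k')
    (hσψ : ∀ x, σ (ψ x) = ψ x) (hσζ : σ (ζ : K) = ((ζ ^ b : Kˣ) : K))
    (hσc : VtCompat ι' r' ι' r' σ κ')
    (x : modularFunctionFieldFullC E (M * q * q)) :
    x ∈ (s36n2VC hB' ψ hq h z hz).nonunits ↔
      s36ncMu ψ ιK hq hqM ζ hζ b x ∈ s36nrKer ι' r' :=
  s36nr_cut_bc hB' hB' hσc (s36n2EmbC ψ h) (fun _ => s36n2_frac_emb hB' hq h z hz _)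
    (s36ncMu ψ ιK hq hqM ζ hζ b)
    (fun x => by
      rw [s36ncMu_apply ψ ιK hq hqM ζ hζ hb, s36n2EmbC_apply]
      exact s36nr_mu_gal ψ hq h (s36ncMuK ιK hq hqM ζ hζ hb) σ hσψ hσζ x) x

include hz in
/-- `V_c` is cut out by every `ν_b = kronRot ζ^{-b} ∘ μ_{ζ^b}`, `q ∤ b` -/
theorem s36nr_cut_VC_nu {b : ℕ} (hb : ¬ q ∣ b) (σ : K →+* K) (κ' : k' →+* k')
    (hσψ : ∀ x, σ (ψ x) = ψ x) (hσζ : σ (ζ : K) = ((ζ ^ b : Kˣ) : K))
    (hσc : VtCompat ι' r' ι' r' σ κ')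
    (x : modularFunctionFieldFullC E (M * q * q)) :
    x ∈ (s36n2VC hB' ψ hq h z hz).nonunits ↔
      s36ncNu ψ ιC ιK hq hqM ζ hζ b x ∈ s36nrKer ι' r' := by
  rw [s36nr_cut_VC_mu hB' ψ ιK hq hqM hζ h z hz hb σ κ' hσψ hσζ hσc, s36ncNu_apply _ _ _ _ _ _ _ hb]
  have e : (ζ ^ b)⁻¹ = Units.map (ι' : A' →* K) ((z ^ b)⁻¹) := by
    rw [map_inv, map_pow, hz]
  rw [e]
  exact (s36nr_kronRot_mem_ker_iff ((z ^ b)⁻¹)).symm

end Cut

section Formulas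

variable {A E k A' K k' : Type*} [CommRing A] [IsDomain A] [Field E] [CharZero E] [Algebra A E]
  [IsFractionRing A E] [Field k] [CommRing A'] [Field K] [Field k']
  {r : A →+* k} {π : A} {ι' : A' →+* K} {r' : A' →+* k'} {π' : A'}
  (hB : VtBase (algebraMap A E) r π) (hB' : VtBase ι' r' π')
  (ψ : E →+* K) {κ : k →+* k'} (hc : VtCompat (algebraMap A E) r ι' r' ψ κ)
  (ιC : E →+* ℂ) (ιK : K →+* ℂ)
  {q M : ℕ} [NeZero q] [NeZero M] [NeZero (M * q)] [NeZero (M * q * q)]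
  (hq : q.Prime) (hqM : ¬ q ∣ M)
  {ζ : Kˣ} (hζ : IsPrimitiveRoot (ζ : K) q)
  (h : S36MidEmb K q M ζ) (z : A'ˣ) (hz : Units.map (ι' : A' →* K) z = ζ)
  (hrz : r' (z : A') = 1)
  (hgal : ∀ b : ℕ, 1 ≤ b → b < q → ∃ (σ : K →+* K) (κ' : k' →+* k'),
    (∀ x, σ (ψ x) = ψ x) ∧ σ (ζ : K) = ((ζ ^ b : Kˣ) : K) ∧ VtCompat ι' r' ι' r' σ κ')

theorem s36nr_fin_pos {b : Fin q} (hb : b ≠ ⟨0, hq.pos⟩) : 1 ≤ (b : ℕ) := by
  rcases Nat.eq_zero_or_pos (b : ℕ) with h0 | h0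
  · exact absurd (Fin.ext h0) hb
  · exact h0

include hB' hz hrz in
/-- rotation by `ζ ^ b` is trivial modulo the kernel, on Gauss units -/
theorem s36nr_rot_unit (b : ℕ) {y : LaurentSeries K} (hy : VtUnit ι' r' y) :
    kronRot (ζ ^ b) y / y - 1 ∈ s36nrKer ι' r' := by
  have e : ζ ^ b = Units.map (ι' : A' →* K) (z ^ b) := by
    rw [map_pow, hz]
  rw [e]
  refine s36nr_kronRot_div_sub_one hB'.inj (z ^ b) ?_ hy
  rw [Units.val_pow_eq_pow_val, map_pow, hrz, one_pow]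

/-! ### The cut-outs by the four conjugate families -/

include hB' hc in
theorem s36nr_alphaInf_cut₁ (x : modularFunctionFieldFullC E (M * q * q)) :
    x ∈ (s36n2VA (q := q) (M := M) hB).nonunits ↔
      s36ncAlphaInf ψ ιK hq hqM ζ hζ ⟨0, hq.pos⟩ x ∈ s36nrKer ι' r' := by
  rw [s36nr_cut_VA hB hB' ψ hc]
  show _ ↔ s36ncMu ψ ιK hq hqM ζ hζ 0 x ∈ _
  rw [s36ncMu_zero]

include hgal in
theorem s36nr_alphaInf_cut₂ (j : Fin q) (hj : j ≠ ⟨0, hq.pos⟩)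
    (x : modularFunctionFieldFullC E (M * q * q)) :
    x ∈ (s36n2VC hB' ψ hq h z hz).nonunits ↔
      s36ncAlphaInf ψ ιK hq hqM ζ hζ j x ∈ s36nrKer ι' r' := by
  obtain ⟨σ, κ', hσψ, hσζ, hσc⟩ := hgal (j : ℕ) (s36nr_fin_pos hq hj) j.2
  have hb : ¬ q ∣ (j : ℕ) := Nat.not_dvd_of_pos_of_lt (s36nr_fin_pos hq hj) j.2
  exact s36nr_cut_VC_mu hB' ψ ιK hq hqM hζ h z hz hb σ κ' hσψ hσζ hσc x

theorem s36nr_alphaZero_zero (x : modularFunctionFieldFullC E (M * q * q)) :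
    s36ncAlphaZero ψ ιC hq hqM ζ ⟨0, hq.pos⟩ x = s36ncB ψ ιC hq hqM x := by
  show kronRot (ζ ^ 0) (s36ncB ψ ιC hq hqM x) = _
  rw [pow_zero, kronRot_one]

include hB' hc in
theorem s36nr_alphaZero_cut (x : modularFunctionFieldFullC E (M * q * q)) :
    x ∈ (s36n2VB hB ιC hq hqM).nonunits ↔
      s36ncAlphaZero ψ ιC hq hqM ζ ⟨0, hq.pos⟩ x ∈ s36nrKer ι' r' := by
  rw [s36nr_cut_VB hB hB' ψ hc, s36nr_alphaZero_zero]

include hB' hc hz hrz in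
theorem s36nr_alphaZero_red (j : Fin q) (x : modularFunctionFieldFullC E (M * q * q))
    (hx : (s36n2VB hB ιC hq hqM).valuation x = 1) :
    s36ncAlphaZero ψ ιC hq hqM ζ j x / s36ncAlphaZero ψ ιC hq hqM ζ ⟨0, hq.pos⟩ x - 1 ∈
      s36nrKer ι' r' := by
  rw [s36nr_alphaZero_zero]
  show kronRot (ζ ^ (j : ℕ)) (s36ncB ψ ιC hq hqM x) / _ - 1 ∈ _
  exact s36nr_rot_unit hB' z hz hrz (j : ℕ)
    (s36nr_unit_bc hB hc (s36n2EmbB ιC hq hqM)
      (fun x => vt_frac_fullC hB (M * q * q) (s36n2W E ιC hq hqM x).2) hx)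

include hB' hc in
theorem s36nr_betaZero_cut₁ (x : modularFunctionFieldFullC E (M * q * q)) :
    x ∈ (s36n2VB hB ιC hq hqM).nonunits ↔
      s36ncBetaZero ψ ιC ιK hq hqM ζ hζ ⟨0, hq.pos⟩ x ∈ s36nrKer ι' r' := by
  rw [s36nr_cut_VB hB hB' ψ hc]
  show _ ↔ s36ncNu ψ ιC ιK hq hqM ζ hζ 0 x ∈ _
  rw [s36ncNu_zero]

include hgal in
theorem s36nr_betaZero_cut₂ (j : Fin q) (hj : j ≠ ⟨0, hq.pos⟩)
    (x : modularFunctionFieldFullC E (M * q * q)) :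
    x ∈ (s36n2VC hB' ψ hq h z hz).nonunits ↔
      s36ncBetaZero ψ ιC ιK hq hqM ζ hζ j x ∈ s36nrKer ι' r' := by
  obtain ⟨σ, κ', hσψ, hσζ, hσc⟩ := hgal (j : ℕ) (s36nr_fin_pos hq hj) j.2
  have hb : ¬ q ∣ (j : ℕ) := Nat.not_dvd_of_pos_of_lt (s36nr_fin_pos hq hj) j.2
  exact s36nr_cut_VC_nu hB' ψ ιC ιK hq hqM hζ h z hz hb σ κ' hσψ hσζ hσc x

include hq in
theorem s36nr_betaInf_zero (x : modularFunctionFieldFullC E (M * q * q)) :
    s36ncBetaInf ψ ζ ⟨0, hq.pos⟩ x = s36ncA ψ x := by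
  show kronRot (ζ ^ 0) (s36ncA ψ x) = _
  rw [pow_zero, kronRot_one]

include hB' hc hq in
theorem s36nr_betaInf_cut (x : modularFunctionFieldFullC E (M * q * q)) :
    x ∈ (s36n2VA (q := q) (M := M) hB).nonunits ↔
      s36ncBetaInf ψ ζ ⟨0, hq.pos⟩ x ∈ s36nrKer ι' r' := by
  rw [s36nr_cut_VA hB hB' ψ hc, s36nr_betaInf_zero ψ hq]

include hB' hc hq hz hrz in
theorem s36nr_betaInf_red (j : Fin q) (x : modularFunctionFieldFullC E (M * q * q))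
    (hx : (s36n2VA (q := q) (M := M) hB).valuation x = 1) :
    s36ncBetaInf ψ ζ j x / s36ncBetaInf ψ ζ ⟨0, hq.pos⟩ x - 1 ∈ s36nrKer ι' r' := by
  rw [s36nr_betaInf_zero ψ hq]
  show kronRot (ζ ^ (j : ℕ)) (s36ncA ψ x) / _ - 1 ∈ _
  exact s36nr_rot_unit hB' z hz hrz (j : ℕ)
    (s36nr_unit_bc hB hc (vtEmb E (M * q * q))
      (fun x => vt_frac_fullC hB (M * q * q) x.2) hx)

/-! ### The four formulas -/

include hB' hc ιK hq hqM hζ h z hz hgal in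
/-- **(Nα∞)**: `N_α x ≡ x_a · x_c ^ (q − 1)` at `W_∞` -/
theorem s36nr_split_alpha (x : modularFunctionFieldFullC E (M * q * q))
    (x₁ x₂ : modularFunctionFieldFullC E (M * q))
    (h₁ : NgC (s36n2VA hB) (s36Alpha E M q x₁) x)
    (h₂ : NgC (s36n2VC hB' ψ hq h z hz) (s36Alpha E M q x₂) x) :
    NgC (vtInf hB (M * q)) (s36NormAlpha E M q x) (x₁ * x₂ ^ (q - 1)) := by
  have key := s36nr_split (s36Alpha E M q) (s36dn_finite_alpha E M q hq) (s36nc_sep_alpha hq)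
    (s36nrKer ι' r') s36nrKer_mul (s36ncBaseAlphaInf ψ) (W := vtInf hB (M * q))
    (s36nr_cut_Winf hB hB' ψ hc)
    (s36ncAlphaInf ψ ιK hq hqM ζ hζ) (s36ncAlphaInf_restr ψ ιK hq hqM ζ hζ)
    (s36ncAlphaInf_injective ψ ιK hq hqM ζ hζ)
    (by rw [Fintype.card_fin]; exact (s36dn_deg_alpha E M q hq).symm)
    ⟨0, hq.pos⟩ (V₁ := s36n2VA hB) (V₂ := s36n2VC hB' ψ hq h z hz)
    (s36nr_alphaInf_cut₁ hB hB' ψ hc ιK hq hqM hζ)
    (s36nr_alphaInf_cut₂ hB' ψ ιK hq hqM hζ h z hz hgal)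
    x x₁ x₂ h₁ h₂
  rw [Fintype.card_fin] at key
  exact key

include hB' hc hq hζ z hz hrz in
/-- **(Nα0)**: `α (N_α x) ≡ x ^ q` at `V_b` -/
theorem s36nr_insep_alpha (x : modularFunctionFieldFullC E (M * q * q))
    (hx : (s36n2VB hB ιC hq hqM).valuation x = 1) :
    NgC (s36n2VB hB ιC hq hqM) (s36Alpha E M q (s36NormAlpha E M q x)) (x ^ q) := by
  have key := s36nr_insep (s36Alpha E M q) (s36dn_finite_alpha E M q hq) (s36nc_sep_alpha hq)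
    (s36nrKer ι' r') s36nrKer_mul (s36ncBaseAlphaZero ψ ιC hq hqM)
    (s36ncAlphaZero ψ ιC hq hqM ζ) (s36ncAlphaZero_restr ψ ιC hq hqM ζ hζ)
    (s36ncAlphaZero_injective ψ ιC hq hqM ζ hζ)
    (by rw [Fintype.card_fin]; exact (s36dn_deg_alpha E M q hq).symm)
    ⟨0, hq.pos⟩ (V₃ := s36n2VB hB ιC hq hqM)
    (s36nr_alphaZero_cut hB hB' ψ hc ιC hq hqM)
    (s36nr_alphaZero_red hB hB' ψ hc ιC hq hqM z hz hrz)
    x hx
  rw [Fintype.card_fin] at key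
  exact key

include hB' hc ιC ιK hq hqM hζ h z hz hgal in
/-- **(Nβ0)**: `N_β x ≡ x_b · x_c ^ (q − 1)` at `W_0` -/
theorem s36nr_split_beta (x : modularFunctionFieldFullC E (M * q * q))
    (x₁ x₂ : modularFunctionFieldFullC E (M * q))
    (h₁ : NgC (s36n2VB hB ιC hq hqM) (s36Beta E M q x₁) x)
    (h₂ : NgC (s36n2VC hB' ψ hq h z hz) (s36Beta E M q x₂) x) :
    NgC (vtZero hB ιC hq hqM) (s36NormBeta E M q x) (x₁ * x₂ ^ (q - 1)) := by
  have key := s36nr_split (s36Beta E M q) (s36dn_finite_beta E ιC hq hqM)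
    (s36nc_sep_beta ιC hq hqM)
    (s36nrKer ι' r') s36nrKer_mul (s36ncBaseBetaZero ψ ιC hq hqM) (W := vtZero hB ιC hq hqM)
    (s36nr_cut_W0 hB hB' ψ hc ιC hq hqM)
    (s36ncBetaZero ψ ιC ιK hq hqM ζ hζ) (s36ncBetaZero_restr ψ ιC ιK hq hqM ζ hζ)
    (s36ncBetaZero_injective ψ ιC ιK hq hqM ζ hζ)
    (by rw [Fintype.card_fin]; exact (s36dn_deg_beta E ιC hq hqM).symm)
    ⟨0, hq.pos⟩ (V₁ := s36n2VB hB ιC hq hqM) (V₂ := s36n2VC hB' ψ hq h z hz)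
    (s36nr_betaZero_cut₁ hB hB' ψ hc ιC ιK hq hqM hζ)
    (s36nr_betaZero_cut₂ hB' ψ ιC ιK hq hqM hζ h z hz hgal)
    x x₁ x₂ h₁ h₂
  rw [Fintype.card_fin] at key
  exact key

include hB' hc hq hqM ιC hζ z hz hrz in
/-- **(Nβ∞)**: `β (N_β x) ≡ x ^ q` at `V_a` -/
theorem s36nr_insep_beta (x : modularFunctionFieldFullC E (M * q * q))
    (hx : (s36n2VA (q := q) (M := M) hB).valuation x = 1) :
    NgC (s36n2VA hB) (s36Beta E M q (s36NormBeta E M q x)) (x ^ q) := by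
  have key := s36nr_insep (s36Beta E M q) (s36dn_finite_beta E ιC hq hqM)
    (s36nc_sep_beta ιC hq hqM)
    (s36nrKer ι' r') s36nrKer_mul (s36ncBaseBetaInf ψ)
    (s36ncBetaInf ψ ζ) (s36ncBetaInf_restr ψ ζ hζ)
    (s36ncBetaInf_injective ψ ζ hζ)
    (by rw [Fintype.card_fin]; exact (s36dn_deg_beta E ιC hq hqM).symm)
    ⟨0, hq.pos⟩ (V₃ := s36n2VA hB)
    (s36nr_betaInf_cut hB hB' ψ hc hq)
    (s36nr_betaInf_red hB hB' ψ hc hq z hz hrz)
    x hx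
  rw [Fintype.card_fin] at key
  exact key

/-! ### The two packages `NgDir` -/

include hB' hc ιK hq hqM hζ h z hz hrz hgal in
/-- **`Dα`**: the norm–residue package of `α`, from the residue surjectivities (N2-ext). -/
theorem s36nr_ngDir_alpha
    (hsurj₁ : ∀ x, (s36n2VA (q := q) (M := M) hB).valuation x = 1 →
      ∃ y, NgC (s36n2VA hB) (s36Alpha E M q y) x)
    (hsurj₂ : ∀ x, (s36n2VC hB' ψ hq h z hz).valuation x = 1 →
      ∃ y, NgC (s36n2VC hB' ψ hq h z hz) (s36Alpha E M q y) x) :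
    NgDir (s36Alpha E M q) (s36NormAlpha E M q) (vtInf hB (M * q))
      (s36n2VA hB) (s36n2VC hB' ψ hq h z hz) (s36n2VB hB ιC hq hqM) (q - 1) q := by
  have key := s36nr_ngDir (s36Alpha E M q) (s36dn_finite_alpha E M q hq) (s36nc_sep_alpha hq)
    (s36nrKer ι' r') s36nrKer_mul (s36ncBaseAlphaInf ψ) (W := vtInf hB (M * q))
    (s36nr_cut_Winf hB hB' ψ hc)
    (s36ncAlphaInf ψ ιK hq hqM ζ hζ) (s36ncAlphaInf_restr ψ ιK hq hqM ζ hζ)
    (s36ncAlphaInf_injective ψ ιK hq hqM ζ hζ)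
    (by rw [Fintype.card_fin]; exact (s36dn_deg_alpha E M q hq).symm)
    ⟨0, hq.pos⟩ ⟨1, hq.one_lt⟩ (fun h01 => absurd (congrArg Fin.val h01) one_ne_zero)
    (V₁ := s36n2VA hB) (V₂ := s36n2VC hB' ψ hq h z hz)
    (s36nr_alphaInf_cut₁ hB hB' ψ hc ιK hq hqM hζ)
    (s36nr_alphaInf_cut₂ hB' ψ ιK hq hqM hζ h z hz hgal)
    (s36ncBaseAlphaZero ψ ιC hq hqM)
    (s36ncAlphaZero ψ ιC hq hqM ζ) (s36ncAlphaZero_restr ψ ιC hq hqM ζ hζ)
    (s36ncAlphaZero_injective ψ ιC hq hqM ζ hζ)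
    (by rw [Fintype.card_fin]; exact (s36dn_deg_alpha E M q hq).symm)
    ⟨0, hq.pos⟩ (V₃ := s36n2VB hB ιC hq hqM)
    (s36nr_alphaZero_cut hB hB' ψ hc ιC hq hqM)
    (s36nr_alphaZero_red hB hB' ψ hc ιC hq hqM z hz hrz)
    hsurj₁ hsurj₂
  rw [Fintype.card_fin] at key
  exact key

include hB' hc ιC ιK hq hqM hζ h z hz hrz hgal in
/-- **`Dβ`**: the norm–residue package of `β`, from the residue surjectivities (N2-ext). -/
theorem s36nr_ngDir_beta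
    (hsurj₁ : ∀ x, (s36n2VB hB ιC hq hqM).valuation x = 1 →
      ∃ y, NgC (s36n2VB hB ιC hq hqM) (s36Beta E M q y) x)
    (hsurj₂ : ∀ x, (s36n2VC hB' ψ hq h z hz).valuation x = 1 →
      ∃ y, NgC (s36n2VC hB' ψ hq h z hz) (s36Beta E M q y) x) :
    NgDir (s36Beta E M q) (s36NormBeta E M q) (vtZero hB ιC hq hqM)
      (s36n2VB hB ιC hq hqM) (s36n2VC hB' ψ hq h z hz) (s36n2VA hB) (q - 1) q := by
  have key := s36nr_ngDir (s36Beta E M q) (s36dn_finite_beta E ιC hq hqM)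
    (s36nc_sep_beta ιC hq hqM)
    (s36nrKer ι' r') s36nrKer_mul (s36ncBaseBetaZero ψ ιC hq hqM) (W := vtZero hB ιC hq hqM)
    (s36nr_cut_W0 hB hB' ψ hc ιC hq hqM)
    (s36ncBetaZero ψ ιC ιK hq hqM ζ hζ) (s36ncBetaZero_restr ψ ιC ιK hq hqM ζ hζ)
    (s36ncBetaZero_injective ψ ιC ιK hq hqM ζ hζ)
    (by rw [Fintype.card_fin]; exact (s36dn_deg_beta E ιC hq hqM).symm)
    ⟨0, hq.pos⟩ ⟨1, hq.one_lt⟩ (fun h01 => absurd (congrArg Fin.val h01) one_ne_zero)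
    (V₁ := s36n2VB hB ιC hq hqM) (V₂ := s36n2VC hB' ψ hq h z hz)
    (s36nr_betaZero_cut₁ hB hB' ψ hc ιC ιK hq hqM hζ)
    (s36nr_betaZero_cut₂ hB' ψ ιC ιK hq hqM hζ h z hz hgal)
    (s36ncBaseBetaInf ψ)
    (s36ncBetaInf ψ ζ) (s36ncBetaInf_restr ψ ζ hζ)
    (s36ncBetaInf_injective ψ ζ hζ)
    (by rw [Fintype.card_fin]; exact (s36dn_deg_beta E ιC hq hqM).symm)
    ⟨0, hq.pos⟩ (V₃ := s36n2VA hB)
    (s36nr_betaInf_cut hB hB' ψ hc hq)
    (s36nr_betaInf_red hB hB' ψ hc hq z hz hrz)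
    hsurj₁ hsurj₂
  rw [Fintype.card_fin] at key
  exact key

end Formulas

end Fermat.Agent.S36
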