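import Fermat.Agent.S36.NgLocZch
import Fermat.Agent.S36.N2LocMain
import Fermat.Agent.S36.NormRes
import Fermat.Agent.S36.N2ExtXMain

/-!
# S36 / (I6)(c) (helper19): `NgLoc` at the triple points of the chart `j` of level `M q²`

Setting of `S36/N2Val.lean` (general base `hB`, `hB'`, …), chart `B = zchClosure {bgJ E (M*q*q)}`
over `A`, `B′ = zchClosure {bgJ E (M*q)}`.  At a prime `𝔫` of `B` through the three components
`V_a`, `V_b`, `V_c`:

* `s36ngl_alpha` : `∃ Oα, NgLoc α N_α V_a V_c m ζ₁ B_𝔫 Oα`;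
* `s36ngl_beta`  : `∃ Oβ, NgLoc β N_β V_b V_c m ζ₁ B_𝔫 Oβ`

(= the hypotheses `hNα`, `hNβ` of `s36n2p_ptInput_triple` / `s36pt_ptInput`), from
 * `hWloc` : `V′_0` resp. `V′_∞` is the localisation of the chart `B′` (UNIP `mgv_hVloc₁`),
 * `hGS`   : `B = φ B′ + 𝔭_V` for the two components over the same cusp (N2-ker (K2) / (F1)).
Everything else (restrictions (C), (EXT), `NgDir.insep`, `hBV`, the modular equation) is
discharged here.
-/

set_option autoImplicit false
set_option linter.unusedSectionVars false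
set_option linter.style.haveILetI false
set_option linter.unusedVariables false
set_option linter.constructorNameAsVariable false

noncomputable section

namespace Fermat.Agent.S36

open ModularCurve Fermat.Agent.UNIP Fermat.Agent.INJ Fermat.Agent.STB Fermat.Agent.AL
open Fermat.Agent.ES Fermat.Agent.S28 Fermat.Agent.S28.Deriv Polynomial

section Elts

variable (E : Type*) [Field E] (M q : ℕ) [NeZero M] [NeZero q] [NeZero (M * q)]
  [NeZero (M * q * q)]

theorem s36ngl_alpha_bgJ : s36Alpha E M q (bgJ E (M * q)) = bgJ E (M * q * q) := by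
  apply Subtype.ext
  rw [coe_s36Alpha]
  rfl

theorem s36ngl_beta_bgJ : s36Beta E M q (bgJ E (M * q)) = s36n2lJq E M q := by
  apply Subtype.ext
  rw [coe_s36Beta]
  rfl

/-- `Φ(j, j_q) = 0` in `F_{Mqq}` (the symmetric modular equation) -/
theorem s36ngl_phi_J (hq : q.Prime) :
    (nodesSwapPhi q hq).eval₂ (evalInt (s36n2lJq E M q)) (s36n2lJ E M q) = 0 := by
  apply (modularFunctionFieldFullC E (M * q * q)).val.toRingHom.injective
  rw [map_eval₂_evalInt, map_zero]
  exact nodesSwapPhi_series' q hq E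

end Elts

section Cm

variable (A E : Type*) [CommRing A] [IsDomain A] [IsDiscreteValuationRing A]
  [Field E] [Algebra A E] [IsFractionRing A E] [CharZero E]
  (M q : ℕ) [NeZero M] [NeZero q] [NeZero (M * q)] [NeZero (M * q * q)]
  [Algebra A (modularFunctionFieldFullC E (M * q))]
  [IsScalarTower A E (modularFunctionFieldFullC E (M * q))]
  [Algebra A (modularFunctionFieldFullC E (M * q * q))]
  [IsScalarTower A E (modularFunctionFieldFullC E (M * q * q))]

variable {A E M q} in
theorem s36ngl_alpha_const (a : A) :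
    s36Alpha E M q (algebraMap A (modularFunctionFieldFullC E (M * q)) a) =
      algebraMap A (modularFunctionFieldFullC E (M * q * q)) a := by
  rw [IsScalarTower.algebraMap_apply A E (modularFunctionFieldFullC E (M * q)),
    IsScalarTower.algebraMap_apply A E (modularFunctionFieldFullC E (M * q * q))]
  exact s36Alpha_algebraMap E M q _

variable {A E M q} in
theorem s36ngl_beta_const (a : A) :
    s36Beta E M q (algebraMap A (modularFunctionFieldFullC E (M * q)) a) =
      algebraMap A (modularFunctionFieldFullC E (M * q * q)) a := by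
  rw [IsScalarTower.algebraMap_apply A E (modularFunctionFieldFullC E (M * q)),
    IsScalarTower.algebraMap_apply A E (modularFunctionFieldFullC E (M * q * q))]
  exact s36Beta_algebraMap E M q _

/-! ### The chart maps `B′ → B` along `α` and `β` -/

variable {A E M q} in
theorem s36ngl_alpha_hφt :
    IsIntegral (Algebra.adjoin A
      ({bgJ E (M * q * q)} : Set (modularFunctionFieldFullC E (M * q * q))))
      (s36Alpha E M q (bgJ E (M * q))) := by
  rw [s36ngl_alpha_bgJ]
  exact s36n2l_isIntegral_J (A := A) (E := E) (M := M) (q := q)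

variable {A E M q} in
theorem s36ngl_alpha_htφ :
    IsIntegral (Algebra.adjoin A
      ({s36Alpha E M q (bgJ E (M * q))} : Set (modularFunctionFieldFullC E (M * q * q))))
      (bgJ E (M * q * q)) := by
  rw [s36ngl_alpha_bgJ]
  exact s36n2l_isIntegral_J (A := A) (E := E) (M := M) (q := q)

variable {A E M q} in
theorem s36ngl_beta_hφt (hq : q.Prime) :
    IsIntegral (Algebra.adjoin A
      ({bgJ E (M * q * q)} : Set (modularFunctionFieldFullC E (M * q * q))))
      (s36Beta E M q (bgJ E (M * q))) := by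
  rw [s36ngl_beta_bgJ]
  exact s36n2l_isIntegral_Jq (A := A) (E := E) (M := M) (q := q) hq

variable {A E M q} in
theorem s36ngl_beta_htφ (hq : q.Prime) :
    IsIntegral (Algebra.adjoin A
      ({s36Beta E M q (bgJ E (M * q))} : Set (modularFunctionFieldFullC E (M * q * q))))
      (bgJ E (M * q * q)) := by
  rw [s36ngl_beta_bgJ]
  exact nodesSwap_isIntegral_of_evalInt (A := A) (nodesSwapPhi_monic q hq)
    (s36ngl_phi_J E M q hq)

/-- **the chart map along `α`**: `B′ = zchClosure {j} ⊆ F_{Mq}` → `B = zchClosure {j} ⊆ F_{Mqq}` -/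
def s36nglCmAlpha :
    ↥(zchClosure (A₀ := A) ({bgJ E (M * q)} : Set (modularFunctionFieldFullC E (M * q)))) →+*
      ↥(zchClosure (A₀ := A)
        ({bgJ E (M * q * q)} : Set (modularFunctionFieldFullC E (M * q * q)))) :=
  s36nglZchHom (A₀ := A) (s36Alpha E M q) (s36ngl_alpha_const (A := A)) (bgJ E (M * q))
    (bgJ E (M * q * q)) (s36ngl_alpha_hφt (A := A))

/-- **the chart map along `β`** -/
def s36nglCmBeta (hq : q.Prime) :
    ↥(zchClosure (A₀ := A) ({bgJ E (M * q)} : Set (modularFunctionFieldFullC E (M * q)))) →+*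
      ↥(zchClosure (A₀ := A)
        ({bgJ E (M * q * q)} : Set (modularFunctionFieldFullC E (M * q * q)))) :=
  s36nglZchHom (A₀ := A) (s36Beta E M q) (s36ngl_beta_const (A := A)) (bgJ E (M * q))
    (bgJ E (M * q * q)) (s36ngl_beta_hφt (A := A) hq)

variable {A E M q} in
theorem s36nglCmAlpha_coe
    (x : ↥(zchClosure (A₀ := A) ({bgJ E (M * q)} : Set (modularFunctionFieldFullC E (M * q))))) :
    ((s36nglCmAlpha A E M q x : ↥(zchClosure (A₀ := A)
        ({bgJ E (M * q * q)} : Set (modularFunctionFieldFullC E (M * q * q))))) :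
      modularFunctionFieldFullC E (M * q * q)) =
      s36Alpha E M q (x : modularFunctionFieldFullC E (M * q)) := rfl

variable {A E M q} in
theorem s36nglCmBeta_coe (hq : q.Prime)
    (x : ↥(zchClosure (A₀ := A) ({bgJ E (M * q)} : Set (modularFunctionFieldFullC E (M * q))))) :
    ((s36nglCmBeta A E M q hq x : ↥(zchClosure (A₀ := A)
        ({bgJ E (M * q * q)} : Set (modularFunctionFieldFullC E (M * q * q))))) :
      modularFunctionFieldFullC E (M * q * q)) =
      s36Beta E M q (x : modularFunctionFieldFullC E (M * q)) := rfl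

variable {A E M q} in
theorem s36nglCmAlpha_injective : Function.Injective (s36nglCmAlpha A E M q) :=
  s36nglZchHom_injective _ _ _ _ _

variable {A E M q} in
theorem s36nglCmBeta_injective (hq : q.Prime) : Function.Injective (s36nglCmBeta A E M q hq) :=
  s36nglZchHom_injective _ _ _ _ _

variable {A E M q} in
theorem s36nglCmAlpha_isIntegral : (s36nglCmAlpha A E M q).IsIntegral :=
  s36nglZchHom_isIntegral _ _ _ _ _ (s36ngl_alpha_htφ (A := A))

variable {A E M q} in
theorem s36nglCmBeta_isIntegral (hq : q.Prime) : (s36nglCmBeta A E M q hq).IsIntegral :=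
  s36nglZchHom_isIntegral _ _ _ _ _ (s36ngl_beta_htφ (A := A) hq)

variable {A E M q} in
/-- the norm along `α` maps the chart `B` into the chart `B′` -/
theorem s36ngl_norm_alpha {s : modularFunctionFieldFullC E (M * q * q)}
    (hs : IsIntegral (Algebra.adjoin A
      ({bgJ E (M * q * q)} : Set (modularFunctionFieldFullC E (M * q * q)))) s) :
    IsIntegral (Algebra.adjoin A
      ({bgJ E (M * q)} : Set (modularFunctionFieldFullC E (M * q)))) (s36NormAlpha E M q s) :=
  s36ngl_zch_norm (A₀ := A) (s36Alpha E M q) (s36ngl_alpha_const (A := A)) (bgJ E (M * q))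
    (bgJ E (M * q * q)) (s36ngl_alpha_htφ (A := A)) hs

variable {A E M q} in
/-- the norm along `β` maps the chart `B` into the chart `B′` -/
theorem s36ngl_norm_beta (hq : q.Prime) {s : modularFunctionFieldFullC E (M * q * q)}
    (hs : IsIntegral (Algebra.adjoin A
      ({bgJ E (M * q * q)} : Set (modularFunctionFieldFullC E (M * q * q)))) s) :
    IsIntegral (Algebra.adjoin A
      ({bgJ E (M * q)} : Set (modularFunctionFieldFullC E (M * q)))) (s36NormBeta E M q s) :=
  s36ngl_zch_norm (A₀ := A) (s36Beta E M q) (s36ngl_beta_const (A := A)) (bgJ E (M * q))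
    (bgJ E (M * q * q)) (s36ngl_beta_htφ (A := A) hq) hs

end Cm

section Main

variable {A E k A' E' k' : Type*} [CommRing A] [IsDomain A] [IsDiscreteValuationRing A]
  [Field E] [Algebra A E] [IsFractionRing A E] [CharZero E]
  [Field k] [CommRing A'] [IsDomain A'] [Field E'] [Field k']
  {r : A →+* k} {π : A} {ι' : A' →+* E'} {r' : A' →+* k'} {π' : A'}
  (hB : VtBase (algebraMap A E) r π) (hB' : VtBase ι' r' π')
  (ψ : E →+* E') (ιC : E →+* ℂ) (ιK : E' →+* ℂ)
  {q M : ℕ} [NeZero q] [NeZero M] [NeZero (M * q)] [NeZero (M * q * q)]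
  (hq : q.Prime) (hqM : ¬ q ∣ M)
  {ζ : E'ˣ} (h : S36MidEmb E' q M ζ) (z : A'ˣ) (hz : Units.map (ι' : A' →* E') z = ζ)
  {κ : k →+* k'} (hc : VtCompat (algebraMap A E) r ι' r' ψ κ)
  [Algebra A (modularFunctionFieldFullC E (M * q))]
  [IsScalarTower A E (modularFunctionFieldFullC E (M * q))]
  [Algebra A (modularFunctionFieldFullC E (M * q * q))]
  [IsScalarTower A E (modularFunctionFieldFullC E (M * q * q))]

/-! ### (Uα), (Uβ): uniqueness of the point over its image -/

include hB hB' ψ ιC hq hqM h hz hc in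
set_option maxHeartbeats 1600000 in
/-- **(Uα)**: a prime `𝔫` of `B` through `V_b` is the only prime of `B` over `𝔫 ∩ B′` (via `α`). -/
theorem s36ngl_Ualpha (hζ : IsPrimitiveRoot (z : A') q) (hrz : r' (z : A') = 1)
    (hWloc : ∀ y ∈ vtFam hB ιC hq hqM false,
      ∃ b s : modularFunctionFieldFullC E (M * q),
        IsIntegral (Algebra.adjoin A ({bgJ E (M * q)} : Set (modularFunctionFieldFullC E (M * q))))
          b ∧
        IsIntegral (Algebra.adjoin A ({bgJ E (M * q)} : Set (modularFunctionFieldFullC E (M * q))))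
          s ∧ s ∉ (vtFam hB ιC hq hqM false).nonunits ∧ s * y = b)
    (𝔫 : Ideal ↥(zchClosure (A₀ := A)
      ({bgJ E (M * q * q)} : Set (modularFunctionFieldFullC E (M * q * q))))) [𝔫.IsPrime]
    (hthr : ∀ b : ↥(zchClosure (A₀ := A)
        ({bgJ E (M * q * q)} : Set (modularFunctionFieldFullC E (M * q * q)))),
      (b : modularFunctionFieldFullC E (M * q * q)) ∈ (s36n2VB hB ιC hq hqM).nonunits → b ∈ 𝔫)
    (𝔫₂ : Ideal ↥(zchClosure (A₀ := A)
      ({bgJ E (M * q * q)} : Set (modularFunctionFieldFullC E (M * q * q)))))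
    (h₂ : 𝔫₂.IsPrime)
    (e : 𝔫₂.comap (s36nglCmAlpha A E M q) = 𝔫.comap (s36nglCmAlpha A E M q)) : 𝔫₂ = 𝔫 := by
  have hζ' : IsPrimitiveRoot (ζ : E') q := s36n2x_zeta_prim hB' z hz hζ
  refine s36ngl_zch_huniq (A₀ := A) (s36Alpha E M q) (s36ngl_alpha_const (A := A))
    (bgJ E (M * q)) (bgJ E (M * q * q)) (s36ngl_alpha_hφt (A := A)) (s36ngl_alpha_htφ (A := A))
    (s36NormAlpha E M q) (fun _ => rfl)
    (vtFam hB ιC hq hqM false) (s36n2VB hB ιC hq hqM)
    (fun s hs => s36n2l_hBV₁ hB hB' ψ ιC hq hqM h z hz hc S36Comp.b s hs)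
    ?_ (fun x hx => s36n2x_alphaZero_ext hB hB' ψ ιC hq hqM z hz hc hζ x hx) hWloc hq.pos
    (fun x hx => s36nr_insep_alpha hB hB' ψ hc ιC hq hqM hζ' z hz hrz x hx)
    𝔫 hthr 𝔫₂ h₂ e
  intro x hx
  have h1 := (vt_mem_nonunits_comap (s36n2VB hB ιC hq hqM) (s36Alpha E M q) x).mpr hx
  rwa [s36n2VB_comap_alpha hB ιC hq hqM] at h1

include hB hB' ψ ιC hq hqM h hz hc in
set_option maxHeartbeats 1600000 in
/-- **(Uβ)**: a prime `𝔫` of `B` through `V_a` is the only prime of `B` over `β⁻¹ 𝔫`. -/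
theorem s36ngl_Ubeta (hζ : IsPrimitiveRoot (z : A') q) (hrz : r' (z : A') = 1)
    (hWloc : ∀ y ∈ vtFam hB ιC hq hqM true,
      ∃ b s : modularFunctionFieldFullC E (M * q),
        IsIntegral (Algebra.adjoin A ({bgJ E (M * q)} : Set (modularFunctionFieldFullC E (M * q))))
          b ∧
        IsIntegral (Algebra.adjoin A ({bgJ E (M * q)} : Set (modularFunctionFieldFullC E (M * q))))
          s ∧ s ∉ (vtFam hB ιC hq hqM true).nonunits ∧ s * y = b)
    (𝔫 : Ideal ↥(zchClosure (A₀ := A)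
      ({bgJ E (M * q * q)} : Set (modularFunctionFieldFullC E (M * q * q))))) [𝔫.IsPrime]
    (hthr : ∀ b : ↥(zchClosure (A₀ := A)
        ({bgJ E (M * q * q)} : Set (modularFunctionFieldFullC E (M * q * q)))),
      (b : modularFunctionFieldFullC E (M * q * q)) ∈
        (s36n2VA (q := q) (M := M) hB).nonunits → b ∈ 𝔫)
    (𝔫₂ : Ideal ↥(zchClosure (A₀ := A)
      ({bgJ E (M * q * q)} : Set (modularFunctionFieldFullC E (M * q * q)))))
    (h₂ : 𝔫₂.IsPrime)
    (e : 𝔫₂.comap (s36nglCmBeta A E M q hq) = 𝔫.comap (s36nglCmBeta A E M q hq)) : 𝔫₂ = 𝔫 := by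
  have hζ' : IsPrimitiveRoot (ζ : E') q := s36n2x_zeta_prim hB' z hz hζ
  refine s36ngl_zch_huniq (A₀ := A) (s36Beta E M q) (s36ngl_beta_const (A := A))
    (bgJ E (M * q)) (bgJ E (M * q * q)) (s36ngl_beta_hφt (A := A) hq)
    (s36ngl_beta_htφ (A := A) hq)
    (s36NormBeta E M q) (fun _ => rfl)
    (vtFam hB ιC hq hqM true) (s36n2VA (q := q) (M := M) hB)
    (fun s hs => s36n2l_hBV₁ hB hB' ψ ιC hq hqM h z hz hc S36Comp.a s hs)
    ?_ (fun x hx => s36n2x_betaInf_ext hB hB' ψ ιC hq hqM z hz hc hζ x hx) hWloc hq.pos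
    (fun x hx => s36nr_insep_beta hB hB' ψ hc ιC hq hqM hζ' z hz hrz x hx)
    𝔫 hthr 𝔫₂ h₂ e
  intro x hx
  have h1 := (vt_mem_nonunits_comap (s36n2VA (q := q) (M := M) hB) (s36Beta E M q) x).mpr hx
  rwa [s36n2VA_comap_beta hB ιC hq hqM] at h1

/-! ### The packages `NgLoc` -/

include hB hB' ψ ιC ιK hq hqM h hz hc in
set_option maxHeartbeats 1600000 in
/-- **`NgLoc` for `α` at a triple point of the chart `j`.** -/
theorem s36ngl_alpha (hζ : IsPrimitiveRoot (z : A') q) (hrz : r' (z : A') = 1)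
    (hWloc : ∀ y ∈ vtFam hB ιC hq hqM false,
      ∃ b s : modularFunctionFieldFullC E (M * q),
        IsIntegral (Algebra.adjoin A ({bgJ E (M * q)} : Set (modularFunctionFieldFullC E (M * q))))
          b ∧
        IsIntegral (Algebra.adjoin A ({bgJ E (M * q)} : Set (modularFunctionFieldFullC E (M * q))))
          s ∧ s ∉ (vtFam hB ιC hq hqM false).nonunits ∧ s * y = b)
    (hGSa : ∀ s : modularFunctionFieldFullC E (M * q * q),
      IsIntegral (Algebra.adjoin A
        ({bgJ E (M * q * q)} : Set (modularFunctionFieldFullC E (M * q * q)))) s →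
      ∃ r₁ : modularFunctionFieldFullC E (M * q),
        IsIntegral (Algebra.adjoin A
          ({bgJ E (M * q)} : Set (modularFunctionFieldFullC E (M * q)))) r₁ ∧
        s - s36Alpha E M q r₁ ∈ (s36n2VA (q := q) (M := M) hB).nonunits)
    (hGSc : ∀ s : modularFunctionFieldFullC E (M * q * q),
      IsIntegral (Algebra.adjoin A
        ({bgJ E (M * q * q)} : Set (modularFunctionFieldFullC E (M * q * q)))) s →
      ∃ r₁ : modularFunctionFieldFullC E (M * q),
        IsIntegral (Algebra.adjoin A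
          ({bgJ E (M * q)} : Set (modularFunctionFieldFullC E (M * q)))) r₁ ∧
        s - s36Alpha E M q r₁ ∈ (s36n2VC hB' ψ hq h z hz).nonunits)
    (𝔫 : Ideal ↥(zchClosure (A₀ := A)
      ({bgJ E (M * q * q)} : Set (modularFunctionFieldFullC E (M * q * q))))) [𝔫.IsPrime]
    (hthr : ∀ c, ∀ b : ↥(zchClosure (A₀ := A)
        ({bgJ E (M * q * q)} : Set (modularFunctionFieldFullC E (M * q * q)))),
      (b : modularFunctionFieldFullC E (M * q * q)) ∈
        (s36n2V hB hB' ψ ιC hq hqM h z hz c).nonunits → b ∈ 𝔫)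
    {m : ℕ} (hm : 0 < m) {ζ₁ : modularFunctionFieldFullC E (M * q)}
    (hζ₁ : IsIntegral (Algebra.adjoin A
      ({bgJ E (M * q)} : Set (modularFunctionFieldFullC E (M * q)))) ζ₁) :
    ∃ Oα : Subring (modularFunctionFieldFullC E (M * q)),
      NgLoc (s36Alpha E M q) (s36NormAlpha E M q) (s36n2VA (q := q) (M := M) hB)
        (s36n2VC hB' ψ hq h z hz) m ζ₁
        (ls_localSubring (F := modularFunctionFieldFullC E (M * q * q)) 𝔫) Oα := by
  have hζ' : IsPrimitiveRoot (ζ : E') q := s36n2x_zeta_prim hB' z hz hζ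
  have hJ : IsIntegral (Algebra.adjoin A
      ({bgJ E (M * q * q)} : Set (modularFunctionFieldFullC E (M * q * q)))) (bgJ E (M * q * q)) :=
    s36n2l_isIntegral_J (A := A) (E := E) (M := M) (q := q)
  refine s36ngl_zch (A₀ := A) (s36Alpha E M q) (s36ngl_alpha_const (A := A))
    (bgJ E (M * q)) (bgJ E (M * q * q)) ?_ ?_ (s36NormAlpha E M q) (fun _ => rfl)
    (vtFam hB ιC hq hqM false) (s36n2VA (q := q) (M := M) hB) (s36n2VC hB' ψ hq h z hz)
    (s36n2VB hB ιC hq hqM)
    (fun s hs => s36n2l_hBV₁ hB hB' ψ ιC hq hqM h z hz hc S36Comp.a s hs)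
    (fun s hs => s36n2l_hBV₁ hB hB' ψ ιC hq hqM h z hz hc S36Comp.c s hs)
    (fun s hs => s36n2l_hBV₁ hB hB' ψ ιC hq hqM h z hz hc S36Comp.b s hs)
    ?_ (fun x hx => s36n2x_alphaZero_ext hB hB' ψ ιC hq hqM z hz hc hζ x hx) hWloc hq.pos
    (fun x hx => s36nr_insep_alpha hB hB' ψ hc ιC hq hqM hζ' z hz hrz x hx)
    hGSa hGSc 𝔫 (hthr S36Comp.a) (hthr S36Comp.c) (hthr S36Comp.b) hm hζ₁
  · rw [s36ngl_alpha_bgJ]
    exact hJ
  · rw [s36ngl_alpha_bgJ]
    exact hJ
  · intro x hx
    have h1 := (vt_mem_nonunits_comap (s36n2VB hB ιC hq hqM) (s36Alpha E M q) x).mpr hx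
    rwa [s36n2VB_comap_alpha hB ιC hq hqM] at h1

include hB hB' ψ ιC ιK hq hqM h hz hc in
set_option maxHeartbeats 1600000 in
/-- **`NgLoc` for `β` at a triple point of the chart `j`.** -/
theorem s36ngl_beta (hζ : IsPrimitiveRoot (z : A') q) (hrz : r' (z : A') = 1)
    (hWloc : ∀ y ∈ vtFam hB ιC hq hqM true,
      ∃ b s : modularFunctionFieldFullC E (M * q),
        IsIntegral (Algebra.adjoin A ({bgJ E (M * q)} : Set (modularFunctionFieldFullC E (M * q))))
          b ∧
        IsIntegral (Algebra.adjoin A ({bgJ E (M * q)} : Set (modularFunctionFieldFullC E (M * q))))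
          s ∧ s ∉ (vtFam hB ιC hq hqM true).nonunits ∧ s * y = b)
    (hGSb : ∀ s : modularFunctionFieldFullC E (M * q * q),
      IsIntegral (Algebra.adjoin A
        ({bgJ E (M * q * q)} : Set (modularFunctionFieldFullC E (M * q * q)))) s →
      ∃ r₁ : modularFunctionFieldFullC E (M * q),
        IsIntegral (Algebra.adjoin A
          ({bgJ E (M * q)} : Set (modularFunctionFieldFullC E (M * q)))) r₁ ∧
        s - s36Beta E M q r₁ ∈ (s36n2VB hB ιC hq hqM).nonunits)
    (hGSc : ∀ s : modularFunctionFieldFullC E (M * q * q),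
      IsIntegral (Algebra.adjoin A
        ({bgJ E (M * q * q)} : Set (modularFunctionFieldFullC E (M * q * q)))) s →
      ∃ r₁ : modularFunctionFieldFullC E (M * q),
        IsIntegral (Algebra.adjoin A
          ({bgJ E (M * q)} : Set (modularFunctionFieldFullC E (M * q)))) r₁ ∧
        s - s36Beta E M q r₁ ∈ (s36n2VC hB' ψ hq h z hz).nonunits)
    (𝔫 : Ideal ↥(zchClosure (A₀ := A)
      ({bgJ E (M * q * q)} : Set (modularFunctionFieldFullC E (M * q * q))))) [𝔫.IsPrime]
    (hthr : ∀ c, ∀ b : ↥(zchClosure (A₀ := A)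
        ({bgJ E (M * q * q)} : Set (modularFunctionFieldFullC E (M * q * q)))),
      (b : modularFunctionFieldFullC E (M * q * q)) ∈
        (s36n2V hB hB' ψ ιC hq hqM h z hz c).nonunits → b ∈ 𝔫)
    {m : ℕ} (hm : 0 < m) {ζ₁ : modularFunctionFieldFullC E (M * q)}
    (hζ₁ : IsIntegral (Algebra.adjoin A
      ({bgJ E (M * q)} : Set (modularFunctionFieldFullC E (M * q)))) ζ₁) :
    ∃ Oβ : Subring (modularFunctionFieldFullC E (M * q)),
      NgLoc (s36Beta E M q) (s36NormBeta E M q) (s36n2VB hB ιC hq hqM)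
        (s36n2VC hB' ψ hq h z hz) m ζ₁
        (ls_localSubring (F := modularFunctionFieldFullC E (M * q * q)) 𝔫) Oβ := by
  have hζ' : IsPrimitiveRoot (ζ : E') q := s36n2x_zeta_prim hB' z hz hζ
  refine s36ngl_zch (A₀ := A) (s36Beta E M q) (s36ngl_beta_const (A := A))
    (bgJ E (M * q)) (bgJ E (M * q * q)) ?_ ?_ (s36NormBeta E M q) (fun _ => rfl)
    (vtFam hB ιC hq hqM true) (s36n2VB hB ιC hq hqM) (s36n2VC hB' ψ hq h z hz)
    (s36n2VA (q := q) (M := M) hB)
    (fun s hs => s36n2l_hBV₁ hB hB' ψ ιC hq hqM h z hz hc S36Comp.b s hs)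
    (fun s hs => s36n2l_hBV₁ hB hB' ψ ιC hq hqM h z hz hc S36Comp.c s hs)
    (fun s hs => s36n2l_hBV₁ hB hB' ψ ιC hq hqM h z hz hc S36Comp.a s hs)
    ?_ (fun x hx => s36n2x_betaInf_ext hB hB' ψ ιC hq hqM z hz hc hζ x hx) hWloc hq.pos
    (fun x hx => s36nr_insep_beta hB hB' ψ hc ιC hq hqM hζ' z hz hrz x hx)
    hGSb hGSc 𝔫 (hthr S36Comp.b) (hthr S36Comp.c) (hthr S36Comp.a) hm hζ₁
  · rw [s36ngl_beta_bgJ]
    exact s36n2l_isIntegral_Jq (A := A) (E := E) (M := M) (q := q) hq
  · rw [s36ngl_beta_bgJ]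
    exact nodesSwap_isIntegral_of_evalInt (A := A) (nodesSwapPhi_monic q hq)
      (s36ngl_phi_J E M q hq)
  · intro x hx
    have h1 := (vt_mem_nonunits_comap (s36n2VA (q := q) (M := M) hB) (s36Beta E M q) x).mpr hx
    rwa [s36n2VA_comap_beta hB ιC hq hqM] at h1

end Main

end Fermat.Agent.S36
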