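import Mathlib
import Fermat.Agent.S36.NgLocChart
import Fermat.Agent.S36.N2Ker
import Fermat.Agent.UNIP.NodesCuspPoly
import Fermat.Agent.UNIP.NodesInstAbs
import Fermat.Agent.UNIP.AbstractT
import Fermat.Agent.STB.NormSquare

/-!
# S36 / (I6)(c) (helper19): `NgLoc` at a triple point of the charts `zchClosure {t}`

`A₀` a discrete valuation ring, `E = Frac A₀`, `F₁`, `F` function fields over `E`,
`φ : F₁ →+* F` fixing the constants of `A₀`, charts `B′ = zchClosure {t₁} ⊆ F₁`,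
`B = zchClosure {t} ⊆ F` with `φ t₁` integral over `A₀[t]` and `t` integral over `A₀[φ t₁]`.

* `s36ngl_zch_map` : `φ B′ ⊆ B`; `s36ngl_zch_int` : `B` is integral over `φ B′`;
* `s36ngl_zch_norm` : the norm `stbNorm φ` maps `B` into `B′`;
* `s36ngl_zch` : `∃ O', NgLoc φ N V₁ V₂ m ζ₁ (ls_localSubring 𝔫) O'` for `N = stbNorm φ`.
-/

set_option autoImplicit false
set_option linter.unusedSectionVars false
set_option linter.style.haveILetI false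

noncomputable section

namespace Fermat.Agent.S36

open Fermat.Agent.UNIP Fermat.Agent.INJ Fermat.Agent.STB Polynomial

section NormApply

/-- the norm along a ring homomorphism of an element of the base -/
theorem s36ngl_norm_apply {K L : Type*} [Field K] [Field L] (φ : K →+* L) (x : K) :
    stbNorm φ (φ x) = x ^ stbDeg φ := by
  letI := φ.toAlgebra
  exact Algebra.norm_algebraMap x

end NormApply

section Zch

variable {A₀ E F₁ F : Type*} [CommRing A₀] [IsDomain A₀] [IsDiscreteValuationRing A₀]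
  [Field E] [Algebra A₀ E] [IsFractionRing A₀ E] [CharZero E]
  [Field F₁] [Algebra E F₁] [Algebra A₀ F₁] [IsScalarTower A₀ E F₁]
  [Field F] [Algebra E F] [Algebra A₀ F] [IsScalarTower A₀ E F]
  (φ : F₁ →+* F) (hφA : ∀ a : A₀, φ (algebraMap A₀ F₁ a) = algebraMap A₀ F a)
  (t₁ : F₁) (t : F)
  (hφt : IsIntegral (Algebra.adjoin A₀ ({t} : Set F)) (φ t₁))
  (htφ : IsIntegral (Algebra.adjoin A₀ ({φ t₁} : Set F)) t)

include hφA hφt in
/-- `φ B′ ⊆ B` -/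
theorem s36ngl_zch_map {b : F₁} (hb : b ∈ zchClosure (A₀ := A₀) ({t₁} : Set F₁)) :
    φ b ∈ zchClosure (A₀ := A₀) ({t} : Set F) := by
  rw [mem_zchClosure] at hb ⊢
  exact cusp_isIntegral_adjoin_trans hφt (cusp_isIntegral_adjoin_map φ hφA hb)

include hφA htφ in
/-- `B` is integral over `φ B′` -/
theorem s36ngl_zch_int {s : F} (hs : s ∈ zchClosure (A₀ := A₀) ({t} : Set F)) :
    (φ.comp (zchClosure (A₀ := A₀) ({t₁} : Set F₁)).val.toRingHom).IsIntegralElem s := by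
  rw [mem_zchClosure] at hs
  have h1 : IsIntegral (Algebra.adjoin A₀ ({φ t₁} : Set F)) s :=
    cusp_isIntegral_adjoin_trans htφ hs
  let φA : F₁ →ₐ[A₀] F := { φ with commutes' := hφA }
  have h2 := (s36n2k_isIntegral_adjoin_iff φA t₁ s).mp h1
  obtain ⟨p, hp, hps⟩ := h2
  let incl : ↥(Algebra.adjoin A₀ ({t₁} : Set F₁)) →+* ↥(zchClosure (A₀ := A₀) ({t₁} : Set F₁)) :=
    { toFun := fun x => ⟨(x : F₁), mem_zchClosure.mpr isIntegral_algebraMap⟩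
      map_one' := rfl
      map_mul' := fun _ _ => rfl
      map_zero' := rfl
      map_add' := fun _ _ => rfl }
  refine ⟨p.map incl, hp.map incl, ?_⟩
  rw [Polynomial.eval₂_map]
  exact hps

include hφA htφ in
/-- the norm maps `B` into `B′` -/
theorem s36ngl_zch_norm {s : F} (hs : s ∈ zchClosure (A₀ := A₀) ({t} : Set F)) :
    stbNorm φ s ∈ zchClosure (A₀ := A₀) ({t₁} : Set F₁) := by
  have h1 := s36ngl_norm_isIntegral (zchClosure (A₀ := A₀) ({t₁} : Set F₁)) φ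
    (s36ngl_zch_int φ hφA t₁ t htφ hs)
  obtain ⟨r, hr⟩ := at_chart_integrallyClosed (A₀ := A₀) t₁ _ h1
  have h2 : stbNorm φ s = (r : F₁) := hr.symm
  rw [h2]
  exact r.2

/-- the chart is integrally closed -/
theorem s36ngl_zch_icl : IsIntegrallyClosed ↥(zchClosure (A₀ := A₀) ({t₁} : Set F₁)) :=
  nodesInst_isIntegrallyClosed ↥(Algebra.adjoin A₀ ({t₁} : Set F₁)) F₁

/-- the chart map `B′ → B` induced by `φ` -/
def s36nglZchHom :
    ↥(zchClosure (A₀ := A₀) ({t₁} : Set F₁)) →+* ↥(zchClosure (A₀ := A₀) ({t} : Set F)) :=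
  s36nglHom (zchClosure (A₀ := A₀) ({t₁} : Set F₁)) (zchClosure (A₀ := A₀) ({t} : Set F)) φ
    (fun _ hr => s36ngl_zch_map φ hφA t₁ t hφt hr)

theorem s36nglZchHom_coe (x : ↥(zchClosure (A₀ := A₀) ({t₁} : Set F₁))) :
    ((s36nglZchHom φ hφA t₁ t hφt x : ↥(zchClosure (A₀ := A₀) ({t} : Set F))) : F) =
      φ (x : F₁) := rfl

theorem s36nglZchHom_injective : Function.Injective (s36nglZchHom φ hφA t₁ t hφt) :=
  s36nglHom_injective _ _ φ _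

include htφ in
/-- the chart map is integral -/
theorem s36nglZchHom_isIntegral : (s36nglZchHom φ hφA t₁ t hφt).IsIntegral := fun s =>
  s36ngl_isIntegral _ _ φ _ (fun _ hs => s36ngl_zch_int φ hφA t₁ t htφ hs) s

include htφ in
set_option maxHeartbeats 1000000 in
/-- **`huniq` at the charts `zchClosure`**: a prime of `B` through the third component `V₃` is
the only prime of `B` over its contraction to `B′`. -/
theorem s36ngl_zch_huniq (N : F →* F₁) (hN : ∀ x, N x = stbNorm φ x)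
    (W₃ : ValuationSubring F₁) (V₃ : ValuationSubring F)
    (hSV₃ : ∀ s, IsIntegral (Algebra.adjoin A₀ ({t} : Set F)) s → s ∈ V₃)
    (hcomap₃ : ∀ z : F₁, φ z ∈ V₃.nonunits → z ∈ W₃.nonunits)
    (hEXT₃ : ∀ x ∈ V₃, ∃ p : F₁[X], p.Monic ∧ (∀ k, p.coeff k ∈ W₃) ∧ p.eval₂ φ x = 0)
    (hWloc₃ : ∀ y ∈ W₃, ∃ b s : F₁, IsIntegral (Algebra.adjoin A₀ ({t₁} : Set F₁)) b ∧
      IsIntegral (Algebra.adjoin A₀ ({t₁} : Set F₁)) s ∧ s ∉ W₃.nonunits ∧ s * y = b)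
    {Q : ℕ} (hQ : 0 < Q) (hinsep : ∀ x, V₃.valuation x = 1 → NgC V₃ (φ (N x)) (x ^ Q))
    (𝔫 : Ideal ↥(zchClosure (A₀ := A₀) ({t} : Set F))) [𝔫.IsPrime]
    (hthr₃ : ∀ b : ↥(zchClosure (A₀ := A₀) ({t} : Set F)), (b : F) ∈ V₃.nonunits → b ∈ 𝔫)
    (𝔫₂ : Ideal ↥(zchClosure (A₀ := A₀) ({t} : Set F))) (h₂ : 𝔫₂.IsPrime)
    (e : 𝔫₂.comap (s36nglZchHom φ hφA t₁ t hφt) = 𝔫.comap (s36nglZchHom φ hφA t₁ t hφt)) :
    𝔫₂ = 𝔫 := by
  haveI := s36ngl_zch_icl (A₀ := A₀) t₁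
  exact s36ngl_chart_huniq (zchClosure (A₀ := A₀) ({t₁} : Set F₁))
    (zchClosure (A₀ := A₀) ({t} : Set F)) φ
    (fun r hr => s36ngl_zch_map φ hφA t₁ t hφt hr)
    (fun s hs => s36ngl_zch_int φ hφA t₁ t htφ hs)
    N (fun s hs => by rw [hN]; exact s36ngl_zch_norm φ hφA t₁ t htφ hs)
    W₃ V₃ (fun s hs => hSV₃ s hs) hcomap₃ hEXT₃ hWloc₃ hQ hinsep 𝔫 hthr₃ 𝔫₂ h₂ e

include hφA hφt htφ in
set_option maxHeartbeats 1000000 in
/-- **`NgLoc` at a triple point of the chart `zchClosure {t}`.** -/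
theorem s36ngl_zch (N : F →* F₁) (hN : ∀ x, N x = stbNorm φ x)
    (W₃ : ValuationSubring F₁) (V₁ V₂ V₃ : ValuationSubring F)
    (hSV₁ : ∀ s, IsIntegral (Algebra.adjoin A₀ ({t} : Set F)) s → s ∈ V₁)
    (hSV₂ : ∀ s, IsIntegral (Algebra.adjoin A₀ ({t} : Set F)) s → s ∈ V₂)
    (hSV₃ : ∀ s, IsIntegral (Algebra.adjoin A₀ ({t} : Set F)) s → s ∈ V₃)
    (hcomap₃ : ∀ z : F₁, φ z ∈ V₃.nonunits → z ∈ W₃.nonunits)
    (hEXT₃ : ∀ x ∈ V₃, ∃ p : F₁[X], p.Monic ∧ (∀ k, p.coeff k ∈ W₃) ∧ p.eval₂ φ x = 0)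
    (hWloc₃ : ∀ y ∈ W₃, ∃ b s : F₁, IsIntegral (Algebra.adjoin A₀ ({t₁} : Set F₁)) b ∧
      IsIntegral (Algebra.adjoin A₀ ({t₁} : Set F₁)) s ∧ s ∉ W₃.nonunits ∧ s * y = b)
    {Q : ℕ} (hQ : 0 < Q) (hinsep : ∀ x, V₃.valuation x = 1 → NgC V₃ (φ (N x)) (x ^ Q))
    (hGS₁ : ∀ s, IsIntegral (Algebra.adjoin A₀ ({t} : Set F)) s →
      ∃ r, IsIntegral (Algebra.adjoin A₀ ({t₁} : Set F₁)) r ∧ s - φ r ∈ V₁.nonunits)
    (hGS₂ : ∀ s, IsIntegral (Algebra.adjoin A₀ ({t} : Set F)) s →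
      ∃ r, IsIntegral (Algebra.adjoin A₀ ({t₁} : Set F₁)) r ∧ s - φ r ∈ V₂.nonunits)
    (𝔫 : Ideal ↥(zchClosure (A₀ := A₀) ({t} : Set F))) [𝔫.IsPrime]
    (hthr₁ : ∀ b : ↥(zchClosure (A₀ := A₀) ({t} : Set F)), (b : F) ∈ V₁.nonunits → b ∈ 𝔫)
    (hthr₂ : ∀ b : ↥(zchClosure (A₀ := A₀) ({t} : Set F)), (b : F) ∈ V₂.nonunits → b ∈ 𝔫)
    (hthr₃ : ∀ b : ↥(zchClosure (A₀ := A₀) ({t} : Set F)), (b : F) ∈ V₃.nonunits → b ∈ 𝔫)
    {m : ℕ} (hm : 0 < m) {ζ₁ : F₁}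
    (hζ : IsIntegral (Algebra.adjoin A₀ ({t₁} : Set F₁)) ζ₁) :
    ∃ O' : Subring F₁, NgLoc φ N V₁ V₂ m ζ₁ (ls_localSubring (F := F) 𝔫) O' := by
  haveI := s36ngl_zch_icl (A₀ := A₀) t₁
  exact s36ngl_chart (zchClosure (A₀ := A₀) ({t₁} : Set F₁))
    (zchClosure (A₀ := A₀) ({t} : Set F)) φ
    (fun r hr => s36ngl_zch_map φ hφA t₁ t hφt hr)
    (fun s hs => s36ngl_zch_int φ hφA t₁ t htφ hs)
    (fun z hz => by
      obtain ⟨r, hr⟩ := at_chart_integrallyClosed (A₀ := A₀) t₁ z hz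
      have h2 : z = (r : F₁) := hr.symm
      rw [h2]
      exact r.2)
    N (fun s hs => by rw [hN]; exact s36ngl_zch_norm φ hφA t₁ t htφ hs)
    (n := stbDeg φ) (fun x => by rw [hN]; exact s36ngl_norm_apply φ x)
    W₃ V₁ V₂ V₃ (fun s hs => hSV₁ s hs) (fun s hs => hSV₂ s hs) (fun s hs => hSV₃ s hs)
    hcomap₃ hEXT₃ hWloc₃ hQ hinsep hGS₁ hGS₂ 𝔫 hthr₁ hthr₂ hthr₃ hm hζ

end Zch

end Fermat.Agent.S36
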