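import Fermat.Agent.S36.NormOrd
import Fermat.Agent.S36.N2BaseGal

/-!
# S36 / G-nr-ord, piece (I3-data): the concrete arithmetic data `S36NoData` (helper62)

`A ⊂ ℚ̄` a valuation subring over the prime `q`, `ζ ∈ ℚ̄` a primitive `q`-th root of unity,
`E₀ = beta0Field A` (the inertia field), `A₀ = beta0Ring A E₀`, `K = s36n2bK A ζ = E₀(ζ)`,
`A_K = beta0Ring A K`, `Π = 1 - ζ = s36n2bPi` (helper98's N2-base).

* `s36ndZ hq hζ : (A_K)ˣ`         : `ζ` as a unit of `A_K`;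
* `s36ndZeta hq hζ : Kˣ`          : `ζ` as a unit of `K` (`= Units.map (algebraMap A_K K) s36ndZ`,
                                     `s36nd_hz`; value `⟨ζ, _⟩`, `s36ndZeta_coe`);
* `s36nd_zeta_primitive`          : `IsPrimitiveRoot (ζ_K : K) q`;
* `s36nd_pi`                      : `algebraMap A_K K Π = 1 - ζ_K`;
* `s36nd_data : S36NoData …`      : the data of `S36/NormOrd.lean` for
  `(A₀, E₀, residue, q)`, `(A_K, K, residue, Π)`, `ψ = inclusion E₀ ≤ K`, `q`, `ζ_K`.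
-/

set_option autoImplicit false
set_option linter.unusedSectionVars false
set_option linter.style.haveILetI false

noncomputable section

namespace Fermat.Agent.S36

open Fermat.Agent.UNIP Fermat.Agent.ES

variable {A : ValuationSubring (AlgebraicClosure ℚ)} {ζ : AlgebraicClosure ℚ} {q : ℕ}

/-- `ζ` as a unit of `A_K` -/
def s36ndZ (hq : q.Prime) (hζ : IsPrimitiveRoot ζ q) : (beta0Ring A (s36n2bK A ζ))ˣ :=
  ((s36n2bZeta_isPrimitiveRoot (A := A) hq hζ).isUnit hq.ne_zero).unit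

@[simp]
theorem s36ndZ_coe (hq : q.Prime) (hζ : IsPrimitiveRoot ζ q) :
    ((s36ndZ (A := A) hq hζ : (beta0Ring A (s36n2bK A ζ))ˣ) : beta0Ring A (s36n2bK A ζ)) =
      s36n2bZeta hq hζ :=
  IsUnit.unit_spec _

/-- `ζ` as a unit of `K = E₀(ζ)` -/
def s36ndZeta (hq : q.Prime) (hζ : IsPrimitiveRoot ζ q) : (↥(s36n2bK A ζ))ˣ :=
  Units.map ((algebraMap ↥(beta0Ring A (s36n2bK A ζ)) ↥(s36n2bK A ζ) :
    ↥(beta0Ring A (s36n2bK A ζ)) →+* ↥(s36n2bK A ζ)) :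
      ↥(beta0Ring A (s36n2bK A ζ)) →* ↥(s36n2bK A ζ)) (s36ndZ hq hζ)

/-- `hz` of `s36n2V` / `zeta` of `S36NoData` -/
theorem s36nd_hz (hq : q.Prime) (hζ : IsPrimitiveRoot ζ q) :
    Units.map ((algebraMap ↥(beta0Ring A (s36n2bK A ζ)) ↥(s36n2bK A ζ) :
      ↥(beta0Ring A (s36n2bK A ζ)) →+* ↥(s36n2bK A ζ)) :
        ↥(beta0Ring A (s36n2bK A ζ)) →* ↥(s36n2bK A ζ)) (s36ndZ (A := A) hq hζ) =
      s36ndZeta hq hζ := rfl

theorem s36ndZeta_val (hq : q.Prime) (hζ : IsPrimitiveRoot ζ q) :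
    ((s36ndZeta (A := A) hq hζ : (↥(s36n2bK A ζ))ˣ) : ↥(s36n2bK A ζ)) =
      algebraMap ↥(beta0Ring A (s36n2bK A ζ)) ↥(s36n2bK A ζ) (s36n2bZeta hq hζ) := by
  show algebraMap ↥(beta0Ring A (s36n2bK A ζ)) ↥(s36n2bK A ζ)
    ((s36ndZ (A := A) hq hζ : (beta0Ring A (s36n2bK A ζ))ˣ) : beta0Ring A (s36n2bK A ζ)) = _
  rw [s36ndZ_coe]

theorem s36ndZeta_eq (hq : q.Prime) (hζ : IsPrimitiveRoot ζ q) :
    ((s36ndZeta (A := A) hq hζ : (↥(s36n2bK A ζ))ˣ) : ↥(s36n2bK A ζ)) =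
      ⟨ζ, s36n2b_zeta_mem_K A ζ⟩ := by
  rw [s36ndZeta_val]
  rfl

@[simp]
theorem s36ndZeta_coe (hq : q.Prime) (hζ : IsPrimitiveRoot ζ q) :
    (((s36ndZeta (A := A) hq hζ : (↥(s36n2bK A ζ))ˣ) : ↥(s36n2bK A ζ)) : AlgebraicClosure ℚ) =
      ζ := by
  rw [s36ndZeta_eq]

theorem s36nd_zeta_primitive (hq : q.Prime) (hζ : IsPrimitiveRoot ζ q) :
    IsPrimitiveRoot ((s36ndZeta (A := A) hq hζ : (↥(s36n2bK A ζ))ˣ) : ↥(s36n2bK A ζ)) q := by
  have hinj : Function.Injective (algebraMap ↥(s36n2bK A ζ) (AlgebraicClosure ℚ)) :=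
    (algebraMap ↥(s36n2bK A ζ) (AlgebraicClosure ℚ)).injective
  refine IsPrimitiveRoot.of_map_of_injective
    (f := algebraMap ↥(s36n2bK A ζ) (AlgebraicClosure ℚ)) ?_ hinj
  have e : algebraMap ↥(s36n2bK A ζ) (AlgebraicClosure ℚ)
      ((s36ndZeta (A := A) hq hζ : (↥(s36n2bK A ζ))ˣ) : ↥(s36n2bK A ζ)) = ζ :=
    s36ndZeta_coe (A := A) hq hζ
  rw [e]
  exact hζ

theorem s36nd_pi (hq : q.Prime) (hζ : IsPrimitiveRoot ζ q) :
    algebraMap ↥(beta0Ring A (s36n2bK A ζ)) ↥(s36n2bK A ζ) (s36n2bPi hq hζ) =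
      1 - ((s36ndZeta (A := A) hq hζ : (↥(s36n2bK A ζ))ˣ) : ↥(s36n2bK A ζ)) := by
  rw [s36ndZeta_val, s36n2bPi, map_sub, map_one]

/-- a constant which is a unit of `A_K` is a unit of the Gauss ring -/
theorem s36nd_vtUnit_C {c : beta0Ring A (s36n2bK A ζ)}
    (hc : IsLocalRing.residue ↥(beta0Ring A (s36n2bK A ζ)) c ≠ 0) :
    VtUnit (algebraMap ↥(beta0Ring A (s36n2bK A ζ)) ↥(s36n2bK A ζ))
      (IsLocalRing.residue ↥(beta0Ring A (s36n2bK A ζ)))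
      (HahnSeries.C (algebraMap ↥(beta0Ring A (s36n2bK A ζ)) ↥(s36n2bK A ζ) c) :
        LaurentSeries ↥(s36n2bK A ζ)) :=
  vtUnit_C hc

/-- **ramification**: `q` has order `q - 1` at `(A_K, Π)` -/
theorem s36nd_ram (hq : q.Prime) (hA : A.LiesOverPrime q) (hζ : IsPrimitiveRoot ζ q) :
    S36IsOrd (algebraMap ↥(beta0Ring A (s36n2bK A ζ)) ↥(s36n2bK A ζ))
      (IsLocalRing.residue ↥(beta0Ring A (s36n2bK A ζ))) (s36n2bPi hq hζ)
      (HahnSeries.C ((IntermediateField.inclusion (s36n2b_le_K A ζ)).toRingHom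
        (algebraMap ↥(beta0Ring A (beta0Field A)) ↥(beta0Field A)
          ((q : ℕ) : beta0Ring A (beta0Field A)))) : LaurentSeries ↥(s36n2bK A ζ))
      ((q : ℤ) - 1) := by
  obtain ⟨u, hu⟩ := s36n2b_exists_unit (A := A) hq hζ
  have hB₁ := s36n2b_vtBase (A := A) hq hA hζ
  have hru : IsLocalRing.residue ↥(beta0Ring A (s36n2bK A ζ))
      (u : beta0Ring A (s36n2bK A ζ)) ≠ 0 := by
    intro h
    have h1 : IsUnit (IsLocalRing.residue ↥(beta0Ring A (s36n2bK A ζ))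
      (u : beta0Ring A (s36n2bK A ζ))) := u.isUnit.map _
    rw [h] at h1
    exact not_isUnit_zero h1
  refine s36IsOrd_of_eq hB₁ (s36nd_vtUnit_C hru) ?_
  have e1 : (IntermediateField.inclusion (s36n2b_le_K A ζ)).toRingHom
      (algebraMap ↥(beta0Ring A (beta0Field A)) ↥(beta0Field A)
        ((q : ℕ) : beta0Ring A (beta0Field A))) =
      algebraMap ↥(beta0Ring A (s36n2bK A ζ)) ↥(s36n2bK A ζ)
        ((q : ℕ) : beta0Ring A (s36n2bK A ζ)) := by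
    rw [map_natCast, map_natCast, map_natCast]
  have e2 : ((q : ℤ) - 1) = ((q - 1 : ℕ) : ℤ) := by
    rw [Nat.cast_sub hq.one_lt.le, Nat.cast_one]
  rw [e1, hu, map_mul, map_mul, map_pow, map_pow, e2, zpow_natCast]

/-- **Galois**: for `1 ≤ b < q` an automorphism of `K / E₀` with `ζ ↦ ζ ^ b`, compatible with
the integral structure, moving `Π` by a unit -/
theorem s36nd_gal (hq : q.Prime) (hA : A.LiesOverPrime q) (hζ : IsPrimitiveRoot ζ q)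
    (b : ℕ) (hb1 : 1 ≤ b) (hbq : b < q) :
    ∃ (σ : ↥(s36n2bK A ζ) →+* ↥(s36n2bK A ζ))
      (κ' : IsLocalRing.ResidueField ↥(beta0Ring A (s36n2bK A ζ)) →+*
        IsLocalRing.ResidueField ↥(beta0Ring A (s36n2bK A ζ))),
      (∀ x, σ ((IntermediateField.inclusion (s36n2b_le_K A ζ)).toRingHom x) =
        (IntermediateField.inclusion (s36n2b_le_K A ζ)).toRingHom x) ∧
      σ ((s36ndZeta (A := A) hq hζ : (↥(s36n2bK A ζ))ˣ) : ↥(s36n2bK A ζ)) =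
        (((s36ndZeta (A := A) hq hζ) ^ b : (↥(s36n2bK A ζ))ˣ) : ↥(s36n2bK A ζ)) ∧
      VtCompat (algebraMap ↥(beta0Ring A (s36n2bK A ζ)) ↥(s36n2bK A ζ))
        (IsLocalRing.residue ↥(beta0Ring A (s36n2bK A ζ)))
        (algebraMap ↥(beta0Ring A (s36n2bK A ζ)) ↥(s36n2bK A ζ))
        (IsLocalRing.residue ↥(beta0Ring A (s36n2bK A ζ))) σ κ' ∧
      S36IsOrd (algebraMap ↥(beta0Ring A (s36n2bK A ζ)) ↥(s36n2bK A ζ))
        (IsLocalRing.residue ↥(beta0Ring A (s36n2bK A ζ))) (s36n2bPi hq hζ)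
        (HahnSeries.C (σ (algebraMap ↥(beta0Ring A (s36n2bK A ζ)) ↥(s36n2bK A ζ)
          (s36n2bPi hq hζ))) : LaurentSeries ↥(s36n2bK A ζ)) 1 := by
  haveI := s36n2b_isDVR (A := A) hq hA hζ
  have hb : ¬ q ∣ b := fun h => absurd (Nat.le_of_dvd hb1 h) (not_le.mpr hbq)
  obtain ⟨σ, hσ, hσζ⟩ := s36n2b_exists_inertia_pow (A := A) hq hA hζ hb
  have hK : ∀ x ∈ s36n2bK A ζ, σ x ∈ s36n2bK A ζ := fun x hx => s36n2b_apply_mem hq hζ hσ hx
  have hB₁ := s36n2b_vtBase (A := A) hq hA hζ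
  refine ⟨mgRestrict (s36n2bK A ζ) σ hK, RingHom.id _, ?_, ?_,
    vt_compat_of_inertia (s36n2bK A ζ) hσ hK, ?_⟩
  · intro x
    apply Subtype.ext
    show σ ((x : ↥(beta0Field A)) : AlgebraicClosure ℚ) = ((x : ↥(beta0Field A)) : AlgebraicClosure ℚ)
    exact mem_beta0Field.mp x.2 σ hσ
  · apply Subtype.ext
    show σ (((s36ndZeta (A := A) hq hζ : (↥(s36n2bK A ζ))ˣ) : ↥(s36n2bK A ζ)) :
        AlgebraicClosure ℚ) = _
    rw [s36ndZeta_coe, hσζ, Units.val_pow_eq_pow_val]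
    show ζ ^ b = ((((s36ndZeta (A := A) hq hζ : (↥(s36n2bK A ζ))ˣ) : ↥(s36n2bK A ζ)) ^ b :
      ↥(s36n2bK A ζ)) : AlgebraicClosure ℚ)
    rw [IntermediateField.coe_pow, s36ndZeta_coe]
  · obtain ⟨c, hc1, hc2⟩ := vt_unif_of_inertia (s36n2bK A ζ)
      (s36n2b_irreducible (A := A) hq hA hζ) hσ hK
    refine s36IsOrd_of_eq hB₁ (s36nd_vtUnit_C hc2) ?_
    rw [hc1, map_mul, zpow_one, mul_comm]

/-- **(I3-data)**: the concrete `S36NoData`. -/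
theorem s36nd_data (hq : q.Prime) (hA : A.LiesOverPrime q) (hζ : IsPrimitiveRoot ζ q) :
    S36NoData (algebraMap ↥(beta0Ring A (beta0Field A)) ↥(beta0Field A))
      (IsLocalRing.residue ↥(beta0Ring A (beta0Field A)))
      ((q : ℕ) : beta0Ring A (beta0Field A))
      (algebraMap ↥(beta0Ring A (s36n2bK A ζ)) ↥(s36n2bK A ζ))
      (IsLocalRing.residue ↥(beta0Ring A (s36n2bK A ζ))) (s36n2bPi hq hζ)
      (IntermediateField.inclusion (s36n2b_le_K A ζ)).toRingHom q (s36ndZeta hq hζ) := by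
  haveI := beta0Ring_isDVR_base (A := A) hq hA
  refine ⟨vtBase_residue (beta0Ring_irreducible_q hq hA), s36n2b_vtBase hq hA hζ, ?_,
    s36nd_ram hq hA hζ, ⟨s36ndZ hq hζ, ?_⟩, fun b hb1 hbq => s36nd_gal hq hA hζ b hb1 hbq⟩
  · obtain ⟨κ, -, hκ⟩ := s36n2b_compat (A := A) (ζ := ζ) hq hA
    exact ⟨κ, hκ⟩
  · exact (s36ndZeta_val hq hζ).symm ▸ congrArg _ (s36ndZ_coe hq hζ)

end Fermat.Agent.S36
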