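import Fermat.Agent.S36.NormOrdMain
import Fermat.Agent.S36.NormConj
import Fermat.Agent.S36.N2Val
import Fermat.Agent.S36.TopSetting

/-!
# S36 / G-nr-ord, part 5: the family `ord : S36Comp → F → ℤ` and input (I3) (helper31)

Generic bases `(A, E, k, r, π)` (`ι₀ = algebraMap A E`) and `(A', E', k', r', π')`, `ψ : E →+* E'`,
`D : S36NoData …`, `h : S36MidEmb E' q M ζ`, `V := s36n2V hB hB' ψ ιC hq hqM h z hz`
(helper93, `S36/N2Val.lean`).

* `s36noFam` : the three orders `a ↦ va`, `b ↦ vb`, `c ↦ vc`;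
* `s36noFam_mul` (= `hord`), `s36noFam_eq_zero_iff` (= `hord0`, against `s36n2V`);
* `s36noFam_const_a/_b/_c` (= `hπa hπb hπc`);
* `s36noPiC`, `s36noFam_piC : ord c ϖc = 1`, `s36noPiC_ne_zero` (= `ϖc`, `hϖc`, `hϖc0`),
  `ϖc = j − j(Q^{q²})`;
* `s36noFam_alpha_inf`, `s36noFam_alpha_zero`, `s36noFam_beta_inf`, `s36noFam_beta_zero`
  (= `hαinf hα0 hβinf hβ0`), the product formulas being helper95's `S36/NormConj.lean`.
-/

set_option autoImplicit false
set_option linter.unusedSectionVars false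
set_option linter.unusedVariables false
set_option linter.style.haveILetI false

noncomputable section

namespace Fermat.Agent.S36

open ModularCurve Fermat.Agent.INJ Fermat.Agent.UNIP Fermat.Agent.ES Fermat.Agent.AL
open Fermat.Agent.STB

/-! ### A. `f − f(zQ) = (1 − z) · G` -/

section Twist

variable {R : Type*} [CommRing R]

/-- `(1 − z^n) / (1 − z)` for `n ≥ −1` -/
def s36noGeom (z : Rˣ) (n : ℤ) : R :=
  if n = -1 then -((z⁻¹ : Rˣ) : R) else ∑ i ∈ Finset.range n.toNat, (z : R) ^ i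

theorem s36noGeom_neg_one (z : Rˣ) : s36noGeom z (-1) = -((z⁻¹ : Rˣ) : R) := by
  unfold s36noGeom
  rw [if_pos rfl]

theorem s36noGeom_spec (z : Rˣ) {n : ℤ} (hn : -1 ≤ n) :
    (1 - (z : R)) * s36noGeom z n = 1 - ((z ^ n : Rˣ) : R) := by
  unfold s36noGeom
  split_ifs with h
  · subst h
    rw [zpow_neg_one]
    have : (z : R) * ((z⁻¹ : Rˣ) : R) = 1 := Units.mul_inv z
    linear_combination this
  · have h0 : 0 ≤ n := by omega
    obtain ⟨m, rfl⟩ := Int.eq_ofNat_of_zero_le h0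
    rw [Int.toNat_natCast, zpow_natCast, Units.val_pow_eq_pow_val]
    exact mul_neg_geom_sum (z : R) m

/-- the series `Σ g_n f_n Q^n` -/
def s36noTwist (z : Rˣ) (f : LaurentSeries R) : LaurentSeries R where
  coeff n := s36noGeom z n * f.coeff n
  isPWO_support' := f.isPWO_support.mono (by
    intro n hn
    simp only [Function.mem_support, ne_eq] at hn ⊢
    intro h
    exact hn (by rw [h, mul_zero]))

@[simp]
theorem s36noTwist_coeff (z : Rˣ) (f : LaurentSeries R) (n : ℤ) :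
    (s36noTwist z f).coeff n = s36noGeom z n * f.coeff n := rfl

theorem s36no_twist_spec (z : Rˣ) (f : LaurentSeries R) (hf : ∀ n : ℤ, n < -1 → f.coeff n = 0) :
    f - kronRot z f = HahnSeries.C (1 - (z : R)) * s36noTwist z f := by
  ext n
  rw [HahnSeries.coeff_sub, kronRot_coeff, HahnSeries.C_mul_eq_smul, HahnSeries.coeff_smul,
    s36noTwist_coeff, smul_eq_mul]
  by_cases hn : n < -1
  · rw [hf n hn]; ring
  · rw [← mul_assoc, s36noGeom_spec z (by omega)]; ring

end Twist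

/-! ### A'. the uniformizer of `V_c` -/

/-- **`ϖc = j − j(Q^{q²})`** -/
def s36noPiC (E : Type*) [Field E] (M q : ℕ) [NeZero q] [NeZero M] [NeZero (M * q * q)] :
    modularFunctionFieldFullC E (M * q * q) :=
  haveI : NeZero (1 * q * q) := ⟨by
    have := NeZero.ne q
    positivity⟩
  (⟨jqModC E, jqModC_mem_full E (M * q * q)⟩ : modularFunctionFieldFullC E (M * q * q)) -
    ⟨qExpand E (1 * q * q) (jqModC E), jqModCd_mem_full E (M * q * q)
      (Nat.mul_dvd_mul_right (Nat.mul_dvd_mul_right (one_dvd M) q) q)⟩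

/-! ### B. the family of orders -/

section Fam

variable {A E k A' E' k' : Type*} [CommRing A] [IsDomain A] [Field E] [Algebra A E]
  [IsFractionRing A E] [Field k] [CommRing A'] [Field E'] [Field k']
  {r : A →+* k} {π : A} {ι' : A' →+* E'} {r' : A' →+* k'} {π' : A'}
  (ψ : E →+* E') (ιC : E →+* ℂ)
  {q M : ℕ} [NeZero q] [NeZero M] [NeZero (M * q)] [NeZero (M * q * q)]
  (hq : q.Prime) (hqM : ¬ q ∣ M)
  {ζ : E'ˣ} (h : S36MidEmb E' q M ζ)

variable (r π ι' r' π') in
/-- **the three orders** -/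
def s36noFam : S36Comp → modularFunctionFieldFullC E (M * q * q) → ℤ
  | S36Comp.a => s36noVa (algebraMap A E) r π
  | S36Comp.b => s36noVb (algebraMap A E) r π ιC hq hqM
  | S36Comp.c => s36noVc ι' r' π' ψ h

variable (D : S36NoData (algebraMap A E) r π ι' r' π' ψ q ζ)

include D in
/-- **`hord`** -/
theorem s36noFam_mul (c : S36Comp) (x y : modularFunctionFieldFullC E (M * q * q))
    (hx : x ≠ 0) (hy : y ≠ 0) :
    s36noFam r π ι' r' π' ψ ιC hq hqM h c (x * y) =
      s36noFam r π ι' r' π' ψ ιC hq hqM h c x + s36noFam r π ι' r' π' ψ ιC hq hqM h c y := by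
  cases c
  · exact s36noVa_mul D.hB₀ hx hy
  · exact s36noVb_mul ιC hq hqM D.hB₀ hx hy
  · exact s36noVc_mul hq D h hx hy

include D in
/-- **`hord0`**: order `0` ⇔ unit of the valuation subring `V c` -/
theorem s36noFam_eq_zero_iff (hB : VtBase (algebraMap A E) r π) (hB' : VtBase ι' r' π')
    (z : A'ˣ) (hz : Units.map (ι' : A' →* E') z = ζ)
    (c : S36Comp) (x : modularFunctionFieldFullC E (M * q * q)) (hx : x ≠ 0) :
    s36noFam r π ι' r' π' ψ ιC hq hqM h c x = 0 ↔
      (s36n2V hB hB' ψ ιC hq hqM h z hz c).valuation x = 1 := by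
  cases c
  · exact s36noOrdE_eq_zero_iff hB (vtEmb E (M * q * q))
      (fun x => vt_frac_fullC hB (M * q * q) x.2) hx
  · exact s36noOrdE_eq_zero_iff hB (s36n2EmbB ιC hq hqM)
      (fun x => vt_frac_fullC hB (M * q * q) (s36n2W E ιC hq hqM x).2) hx
  · exact s36noOrdE_eq_zero_iff hB' (s36n2EmbC ψ h)
      (fun _ => s36n2_frac_emb hB' hq h z hz _) hx

theorem s36no_coe_algebraMap (N : ℕ) (e : E) :
    ((algebraMap E (modularFunctionFieldFullC E N) e : modularFunctionFieldFullC E N) :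
      LaurentSeries E) = HahnSeries.C e := by
  rw [HahnSeries.C_apply]
  exact algebraMap_laurentSeries_eq_single E e

include D in
/-- **`hπa`** -/
theorem s36noFam_const_a :
    s36noFam r π ι' r' π' ψ ιC hq hqM h S36Comp.a
      (algebraMap E (modularFunctionFieldFullC E (M * q * q)) (algebraMap A E π)) = 1 := by
  show s36noOrd (algebraMap A E) r π _ = 1
  rw [s36no_coe_algebraMap]
  exact s36noOrd_C_pi D.hB₀

include D in
/-- **`hπb`** -/
theorem s36noFam_const_b :
    s36noFam r π ι' r' π' ψ ιC hq hqM h S36Comp.b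
      (algebraMap E (modularFunctionFieldFullC E (M * q * q)) (algebraMap A E π)) = 1 := by
  show s36noOrd (algebraMap A E) r π
    ((s36n2W E ιC hq hqM _ : modularFunctionFieldFullC E (M * q * q)) : LaurentSeries E) = 1
  rw [AlgEquiv.commutes, s36no_coe_algebraMap]
  exact s36noOrd_C_pi D.hB₀

include D in
/-- **`hπc`** -/
theorem s36noFam_const_c :
    s36noFam r π ι' r' π' ψ ιC hq hqM h S36Comp.c
      (algebraMap E (modularFunctionFieldFullC E (M * q * q)) (algebraMap A E π)) =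
        (q : ℤ) - 1 := by
  show s36noOrd ι' r' π' (h.emb (mgaCoeffHom ψ (M * q * q) _)) = _
  rw [mgaCoeffHom_algebraMap, h.emb.commutes, algebraMap_laurentSeries_eq_single,
    ← HahnSeries.C_apply]
  exact s36noOrd_eq D.hB₁ D.ram

/-! ### C. the uniformizer of `V_c` -/

theorem s36no_emb_piC :
    h.emb (mgaCoeffHom ψ (M * q * q) (s36noPiC E M q)) =
      jqModC E' - kronRot ζ (jqModC E') := by
  haveI : NeZero (1 * q * q) := ⟨by
    have := NeZero.ne q
    positivity⟩
  have h1 : mgaCoeffHom ψ (M * q * q) (s36noPiC E M q) =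
      (⟨jqModC E', s36mid_low_le (jqModC_mem_full E' (M * q))⟩ :
        modularFunctionFieldFullC E' (M * q * q)) -
      ⟨qExpand E' (1 * q * q) (jqModC E'), jqModCd_mem_full E' (M * q * q)
        (Nat.mul_dvd_mul_right (Nat.mul_dvd_mul_right (one_dvd M) q) q)⟩ := by
    apply Subtype.ext
    show coeffMap ψ (jqModC E - qExpand E (1 * q * q) (jqModC E)) = _
    rw [map_sub, coeffMap_qExpand_comm, coeffMap_jqModC]
    rfl
  rw [h1]
  refine (RingHom.map_sub h.emb.toRingHom _ _).trans ?_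
  show h.emb _ - h.emb _ = _
  rw [h.emb_of_mem_low (jqModC_mem_full E' (M * q)), h.emb_jqq]

include D in
/-- `v_c ϖc = 1`, if `π' = 1 − ζ`. -/
theorem s36noVc_piC (hPi : ι' π' = 1 - (ζ : E')) :
    s36noVc ι' r' π' ψ h (s36noPiC E M q) = 1 := by
  show s36noOrd ι' r' π' (h.emb (mgaCoeffHom ψ (M * q * q) (s36noPiC E M q))) = 1
  rw [s36no_emb_piC]
  obtain ⟨z, hz⟩ := D.zeta
  have hz' : ζ = Units.map (ι' : A' →* E') z := Units.ext hz.symm
  have e1 : jqModC E' - kronRot ζ (jqModC E') =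
      coeffMap ι' (s36noTwist z (jqModC A')) *
        (HahnSeries.C (ι' π') : LaurentSeries E') ^ (1 : ℤ) := by
    have h2 := s36no_twist_spec z (jqModC A') (fun n hn => coeff_jqModC_of_lt A' hn)
    have h3 := congrArg (coeffMap ι') h2
    rw [map_sub, map_mul, coeffMap_kronRot, coeffMap_jqModC, coeffMap_hahnC, map_sub, map_one,
      hz] at h3
    rw [zpow_one, hPi, mul_comm, ← h3, hz']
  refine s36noOrd_eq D.hB₁ (s36IsOrd_of_eq D.hB₁ (vtUnit_coeffMap ?_) e1)
  intro h0
  have h4 := congrArg (fun f : LaurentSeries k' => f.coeff (-1)) h0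
  simp only [coeffMap_coeff, s36noTwist_coeff, HahnSeries.coeff_zero, s36noGeom_neg_one,
    coeff_jqModC_neg_one, mul_one, map_neg, neg_eq_zero] at h4
  have h5 : r' (z : A') * r' ((z⁻¹ : A'ˣ) : A') = 1 := by
    rw [← map_mul, Units.mul_inv, map_one]
  rw [h4, mul_zero] at h5
  exact zero_ne_one h5

include D in
/-- **`hϖc`**: `ord c ϖc = 1`, if `π' = 1 − ζ`. -/
theorem s36noFam_piC (hPi : ι' π' = 1 - (ζ : E')) :
    s36noFam r π ι' r' π' ψ ιC hq hqM h S36Comp.c (s36noPiC E M q) = 1 :=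
  s36noVc_piC ψ h D hPi

include D h in
/-- **`hϖc0`** -/
theorem s36noPiC_ne_zero (hPi : ι' π' = 1 - (ζ : E')) : s36noPiC E M q ≠ 0 := by
  intro h0
  have h3 : s36noOrd ι' r' π' (h.emb (mgaCoeffHom ψ (M * q * q) (s36noPiC E M q))) = 1 :=
    s36noVc_piC ψ h D hPi
  rw [h0, map_zero, map_zero] at h3
  have h4 : s36noOrd ι' r' π' (0 : LaurentSeries E') = 0 := by
    classical
    unfold s36noOrd
    rw [dif_neg]
    rintro ⟨n, hn⟩
    exact hn.ne_zero D.hB₁ rfl
  rw [h4] at h3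
  exact zero_ne_one h3

/-! ### D. the four norm–order formulas -/

section Norms

variable [CharZero E] (ιK : E' →+* ℂ) (hζ : IsPrimitiveRoot (ζ : E') q)

include hq hζ in
theorem s36no_mu (ιK : E' →+* ℂ) : S36NoMu ψ q M ζ (fun b x => s36ncMu ψ ιK hq hqM ζ hζ b x) := by
  intro b hb1 hbq
  have hb : ¬ q ∣ b := fun hd => by
    have := Nat.le_of_dvd (by omega) hd
    omega
  exact ⟨s36ncMuK ιK hq hqM ζ hζ hb, fun x => s36ncMu_apply ψ ιK hq hqM ζ hζ hb x⟩

include D hζ ιK in
/-- **`hαinf`** -/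
theorem s36noFam_alpha_inf (x : modularFunctionFieldFullC E (M * q * q)) (hx : x ≠ 0) :
    s36noWinf (algebraMap A E) r π (s36NormAlpha E M q x) =
      s36noFam r π ι' r' π' ψ ιC hq hqM h S36Comp.a x +
        s36noFam r π ι' r' π' ψ ιC hq hqM h S36Comp.c x :=
  s36no_alpha_inf hq D h (s36no_mu ψ hq hqM hζ ιK) hx
    (s36nc_norm_alphaInf ψ ιK hq hqM ζ hζ x)

include D hζ ιK in
/-- **`hα0`** -/
theorem s36noFam_alpha_zero (x : modularFunctionFieldFullC E (M * q * q)) (hx : x ≠ 0) :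
    s36noW0 (algebraMap A E) r π ιC hq hqM (s36NormAlpha E M q x) =
      q * s36noFam r π ι' r' π' ψ ιC hq hqM h S36Comp.b x :=
  s36no_alpha_zero ιC hq hqM D hx (s36nc_norm_alphaZero ψ ιC hq hqM ζ hζ x)

include D hζ ιK in
/-- **`hβinf`** -/
theorem s36noFam_beta_inf (x : modularFunctionFieldFullC E (M * q * q)) (hx : x ≠ 0) :
    s36noWinf (algebraMap A E) r π (s36NormBeta E M q x) =
      q * s36noFam r π ι' r' π' ψ ιC hq hqM h S36Comp.a x :=
  s36no_beta_inf hq D hx (s36nc_norm_betaInf ψ ιC hq hqM ζ hζ x)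

include D hζ ιK in
/-- **`hβ0`** -/
theorem s36noFam_beta_zero (x : modularFunctionFieldFullC E (M * q * q)) (hx : x ≠ 0) :
    s36noW0 (algebraMap A E) r π ιC hq hqM (s36NormBeta E M q x) =
      s36noFam r π ι' r' π' ψ ιC hq hqM h S36Comp.c x +
        s36noFam r π ι' r' π' ψ ιC hq hqM h S36Comp.b x :=
  s36no_beta_zero ιC hq hqM D h (s36no_mu ψ hq hqM hζ ιK) hx
    (s36nc_norm_betaZero ψ ιC ιK hq hqM ζ hζ x)

end Norms

end Fam

end Fermat.Agent.S36
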