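import Fermat.Agent.S36.NormOrdFam

/-!
# S36 / (I3): the whole input (I3) of `s36tb_small` in ONE statement (helper31)

`s36i3_main` : from `D : S36NoData …` (helper62, `S36/NormOrdData.lean`), `h : S36MidEmb E' q M ζ`,
`π' = 1 − ζ`, `ζ` a primitive `q`-th root of unity: the orders `ord`, `winf`, `w0`, the
uniformizer `ϖc` and ALL the hypotheses `hord hord0 hπa hπb hπc hϖc0 hϖc hwinf hw0 hαinf hα0 hβinf
hβ0` of `s36tb_small` (`S36/TopB.lean`), for `V = s36n2V hB hB' ψ ιC hq hqM h z hz`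
(`S36/N2Val.lean`), `ca = S36Comp.a`, `cb = S36Comp.b`, `cc = S36Comp.c`.
-/

set_option autoImplicit false
set_option linter.unusedSectionVars false
set_option linter.unusedVariables false
set_option linter.style.haveILetI false
set_option linter.constructorNameAsVariable false

noncomputable section

namespace Fermat.Agent.S36

open ModularCurve Fermat.Agent.INJ Fermat.Agent.UNIP Fermat.Agent.ES Fermat.Agent.AL
open Fermat.Agent.STB

section I3

variable {A E k A' E' k' : Type*} [CommRing A] [IsDomain A] [Field E] [Algebra A E]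
  [IsFractionRing A E] [Field k] [CommRing A'] [Field E'] [Field k']
  {r : A →+* k} {π : A} {ι' : A' →+* E'} {r' : A' →+* k'} {π' : A'}
  (ψ : E →+* E') (ιC : E →+* ℂ)
  {q M : ℕ} [NeZero q] [NeZero M] [NeZero (M * q)] [NeZero (M * q * q)]
  (hq : q.Prime) (hqM : ¬ q ∣ M)
  {ζ : E'ˣ} (h : S36MidEmb E' q M ζ)
  [Algebra A ↥(modularFunctionFieldFullC E (M * q * q))]
  [IsScalarTower A E ↥(modularFunctionFieldFullC E (M * q * q))]
  (D : S36NoData (algebraMap A E) r π ι' r' π' ψ q ζ)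

include D in
theorem s36i3_const_a :
    s36noFam r π ι' r' π' ψ ιC hq hqM h S36Comp.a
      (algebraMap A (modularFunctionFieldFullC E (M * q * q)) π) = 1 := by
  rw [IsScalarTower.algebraMap_apply A E ↥(modularFunctionFieldFullC E (M * q * q))]
  exact s36noFam_const_a ψ ιC hq hqM h D

include D in
theorem s36i3_const_b :
    s36noFam r π ι' r' π' ψ ιC hq hqM h S36Comp.b
      (algebraMap A (modularFunctionFieldFullC E (M * q * q)) π) = 1 := by
  rw [IsScalarTower.algebraMap_apply A E ↥(modularFunctionFieldFullC E (M * q * q))]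
  exact s36noFam_const_b ψ ιC hq hqM h D

include D in
theorem s36i3_const_c :
    s36noFam r π ι' r' π' ψ ιC hq hqM h S36Comp.c
      (algebraMap A (modularFunctionFieldFullC E (M * q * q)) π) = (q : ℤ) - 1 := by
  rw [IsScalarTower.algebraMap_apply A E ↥(modularFunctionFieldFullC E (M * q * q))]
  exact s36noFam_const_c ψ ιC hq hqM h D

include D in
/-- **(I3)**: everything at once. -/
theorem s36i3_main [CharZero E] (hB : VtBase (algebraMap A E) r π) (hB' : VtBase ι' r' π')
    (z : A'ˣ) (hz : Units.map (ι' : A' →* E') z = ζ) (hPi : ι' π' = 1 - (ζ : E'))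
    (hζ : IsPrimitiveRoot (ζ : E') q) (ιK : E' →+* ℂ) :
    ∃ (ord : S36Comp → ↥(modularFunctionFieldFullC E (M * q * q)) → ℤ)
      (winf w0 : ↥(modularFunctionFieldFullC E (M * q)) → ℤ)
      (ϖc : ↥(modularFunctionFieldFullC E (M * q * q))),
      (∀ c (x y : ↥(modularFunctionFieldFullC E (M * q * q))),
        x ≠ 0 → y ≠ 0 → ord c (x * y) = ord c x + ord c y) ∧
      (∀ c (x : ↥(modularFunctionFieldFullC E (M * q * q))),
        x ≠ 0 → (ord c x = 0 ↔ (s36n2V hB hB' ψ ιC hq hqM h z hz c).valuation x = 1)) ∧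
      ord S36Comp.a (algebraMap A ↥(modularFunctionFieldFullC E (M * q * q)) π) = 1 ∧
      ord S36Comp.b (algebraMap A ↥(modularFunctionFieldFullC E (M * q * q)) π) = 1 ∧
      ord S36Comp.c (algebraMap A ↥(modularFunctionFieldFullC E (M * q * q)) π) = (q : ℤ) - 1 ∧
      ϖc ≠ 0 ∧ ord S36Comp.c ϖc = 1 ∧
      (∀ x y : ↥(modularFunctionFieldFullC E (M * q)),
        x ≠ 0 → y ≠ 0 → winf (x * y) = winf x + winf y) ∧
      (∀ x y : ↥(modularFunctionFieldFullC E (M * q)),
        x ≠ 0 → y ≠ 0 → w0 (x * y) = w0 x + w0 y) ∧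
      (∀ x : ↥(modularFunctionFieldFullC E (M * q * q)), x ≠ 0 →
        winf (s36NormAlpha E M q x) = ord S36Comp.a x + ord S36Comp.c x) ∧
      (∀ x : ↥(modularFunctionFieldFullC E (M * q * q)), x ≠ 0 →
        w0 (s36NormAlpha E M q x) = q * ord S36Comp.b x) ∧
      (∀ x : ↥(modularFunctionFieldFullC E (M * q * q)), x ≠ 0 →
        winf (s36NormBeta E M q x) = q * ord S36Comp.a x) ∧
      (∀ x : ↥(modularFunctionFieldFullC E (M * q * q)), x ≠ 0 →
        w0 (s36NormBeta E M q x) = ord S36Comp.c x + ord S36Comp.b x) :=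
  ⟨s36noFam r π ι' r' π' ψ ιC hq hqM h, s36noWinf (algebraMap A E) r π,
    s36noW0 (algebraMap A E) r π ιC hq hqM, s36noPiC E M q,
    s36noFam_mul ψ ιC hq hqM h D,
    s36noFam_eq_zero_iff ψ ιC hq hqM h D hB hB' z hz,
    s36i3_const_a ψ ιC hq hqM h D, s36i3_const_b ψ ιC hq hqM h D, s36i3_const_c ψ ιC hq hqM h D,
    s36noPiC_ne_zero ψ h D hPi, s36noFam_piC ψ ιC hq hqM h D hPi,
    fun x y hx hy => s36noWinf_mul D.hB₀ hx hy,
    fun x y hx hy => s36noW0_mul ιC hq hqM D.hB₀ hx hy,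
    s36noFam_alpha_inf ψ ιC hq hqM h D ιK hζ,
    s36noFam_alpha_zero ψ ιC hq hqM h D ιK hζ,
    s36noFam_beta_inf ψ ιC hq hqM h D ιK hζ,
    s36noFam_beta_zero ψ ιC hq hqM h D ιK hζ⟩

end I3

end Fermat.Agent.S36
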