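import Fermat.Agent.S36.NormOrdAbs
import Fermat.Agent.ES.Kronecker
import Fermat.Agent.ES.GaloisHecke

/-!
# S36 / G-nr-ord, part 2: invariance of the Gauss order (helper31)

* `s36no_unit_qExpand`, `s36no_frac_qExpand`, `s36noOrd_qExpand` : `Q ↦ Q^d`;
* `s36no_unit_kronRot`, `s36no_frac_kronRot`, `s36noOrd_kronRot` : `Q ↦ c Q`, `c` a unit of `A`;
* `s36no_frac_compat`, `s36noOrd_compat` : coefficient maps `ψ : E → E'` compatible with the
  integral structures, `π = unit · π' ^ e`  (base change `e = q − 1`, Galois `e = 1`).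
-/

set_option autoImplicit false
set_option linter.unusedSectionVars false

noncomputable section

namespace Fermat.Agent.S36

open ModularCurve Fermat.Agent.INJ Fermat.Agent.UNIP Fermat.Agent.ES

section QExpand

variable {A E k : Type*} [CommRing A] [Field E] [Field k]
  {ι : A →+* E} {r : A →+* k} {π : A}

theorem s36no_qExpand_ne_zero {R : Type*} [CommRing R] (d : ℕ) [NeZero d]
    {T : LaurentSeries R} (hT : T ≠ 0) : qExpand R d T ≠ 0 := fun h =>
  hT (qExpand_injective d (by rw [h, map_zero]))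

theorem s36no_unit_qExpand (d : ℕ) [NeZero d] {u : LaurentSeries E} (hu : VtUnit ι r u) :
    VtUnit ι r (qExpand E d u) := by
  obtain ⟨T, b, hT, hb, h⟩ := hu
  refine ⟨qExpand A d T, qExpand A d b, ?_, ?_, ?_⟩
  · rw [coeffMap_qExpand_comm]; exact s36no_qExpand_ne_zero d hT
  · rw [coeffMap_qExpand_comm]; exact s36no_qExpand_ne_zero d hb
  · rw [coeffMap_qExpand_comm, coeffMap_qExpand_comm, ← map_mul, h]

theorem s36no_frac_qExpand (d : ℕ) [NeZero d] {x : LaurentSeries E} (hx : VtFrac ι x) :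
    VtFrac ι (qExpand E d x) := by
  obtain ⟨T, b, hb, h⟩ := hx
  refine ⟨qExpand A d T, qExpand A d b, s36no_qExpand_ne_zero d hb, ?_⟩
  rw [coeffMap_qExpand_comm, coeffMap_qExpand_comm, ← map_mul, h]

theorem s36noOrd_qExpand (hB : VtBase ι r π) (d : ℕ) [NeZero d] {x : LaurentSeries E}
    (hx : x ≠ 0) (hf : VtFrac ι x) :
    s36noOrd ι r π (qExpand E d x) = s36noOrd ι r π x := by
  have h := s36noOrd_map hB hB (qExpand E d) (fun u hu => s36no_unit_qExpand d hu)
    (e := 1) (by rw [qExpand_C]; exact s36IsOrd_Cpi hB) hx hf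
  rw [h, mul_one]

end QExpand

section KronRot

variable {A E k : Type*} [CommRing A] [Field E] [Field k]
  {ι : A →+* E} {r : A →+* k} {π : A}

theorem s36no_kronRot_ne_zero {R : Type*} [CommRing R] (c : Rˣ) {T : LaurentSeries R}
    (hT : T ≠ 0) : kronRot c T ≠ 0 := by
  intro h
  apply hT
  have := congrArg (kronRot c⁻¹) h
  rwa [kronRot_kronRot, inv_mul_cancel, kronRot_one, map_zero] at this

theorem s36no_kronRot_C {R : Type*} [CommRing R] (c : Rˣ) (a : R) :
    kronRot c (HahnSeries.C a : LaurentSeries R) = HahnSeries.C a := by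
  ext n
  rw [kronRot_coeff, HahnSeries.C_apply]
  by_cases hn : n = 0
  · subst hn
    simp
  · rw [HahnSeries.coeff_single_of_ne hn, mul_zero]

theorem s36no_unit_kronRot (z : Aˣ) {u : LaurentSeries E} (hu : VtUnit ι r u) :
    VtUnit ι r (kronRot (Units.map (ι : A →* E) z) u) := by
  obtain ⟨T, b, hT, hb, h⟩ := hu
  refine ⟨kronRot z T, kronRot z b, ?_, ?_, ?_⟩
  · rw [coeffMap_kronRot]; exact s36no_kronRot_ne_zero _ hT
  · rw [coeffMap_kronRot]; exact s36no_kronRot_ne_zero _ hb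
  · rw [coeffMap_kronRot, coeffMap_kronRot, ← map_mul, h]

theorem s36no_frac_kronRot (z : Aˣ) {x : LaurentSeries E} (hx : VtFrac ι x) :
    VtFrac ι (kronRot (Units.map (ι : A →* E) z) x) := by
  obtain ⟨T, b, hb, h⟩ := hx
  refine ⟨kronRot z T, kronRot z b, s36no_kronRot_ne_zero _ hb, ?_⟩
  rw [coeffMap_kronRot, coeffMap_kronRot, ← map_mul, h]

theorem s36noOrd_kronRot (hB : VtBase ι r π) (z : Aˣ) {x : LaurentSeries E}
    (hx : x ≠ 0) (hf : VtFrac ι x) :
    s36noOrd ι r π (kronRot (Units.map (ι : A →* E) z) x) = s36noOrd ι r π x := by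
  have h := s36noOrd_map hB hB (kronRot (Units.map (ι : A →* E) z))
    (fun u hu => s36no_unit_kronRot z hu)
    (e := 1) (by rw [s36no_kronRot_C]; exact s36IsOrd_Cpi hB) hx hf
  rw [h, mul_one]

/-- the same with the unit of `E` given together with its integral model -/
theorem s36noOrd_kronRot' (hB : VtBase ι r π) (c : Eˣ) (hc : ∃ z : Aˣ, ι z = c)
    {x : LaurentSeries E} (hx : x ≠ 0) (hf : VtFrac ι x) :
    s36noOrd ι r π (kronRot c x) = s36noOrd ι r π x := by
  obtain ⟨z, hz⟩ := hc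
  have e : c = Units.map (ι : A →* E) z := Units.ext hz.symm
  rw [e]
  exact s36noOrd_kronRot hB z hx hf

theorem s36no_frac_kronRot' (c : Eˣ) (hc : ∃ z : Aˣ, ι z = c)
    {x : LaurentSeries E} (hf : VtFrac ι x) : VtFrac ι (kronRot c x) := by
  obtain ⟨z, hz⟩ := hc
  have e : c = Units.map (ι : A →* E) z := Units.ext hz.symm
  rw [e]
  exact s36no_frac_kronRot z hf

end KronRot

section Compat

variable {A E k A' E' k' : Type*} [CommRing A] [Field E] [Field k]
  [CommRing A'] [Field E'] [Field k']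
  {ι : A →+* E} {r : A →+* k} {π : A} {ι' : A' →+* E'} {r' : A' →+* k'} {π' : A'}
  {ψ : E →+* E'} {κ : k →+* k'}

theorem s36no_frac_compat (hc : VtCompat ι r ι' r' ψ κ) (hι : Function.Injective ι)
    {x : LaurentSeries E} (hx : VtFrac ι x) : VtFrac ι' (coeffMap ψ x) := by
  obtain ⟨T, b, hb, h⟩ := hx
  obtain ⟨T', hT', -⟩ := vt_exists_lift hc T
  obtain ⟨b', hb', -⟩ := vt_exists_lift hc b
  refine ⟨T', b', ?_, ?_⟩
  · rintro rfl
    rw [map_zero] at hb'
    have h1 : coeffMap ι b ≠ 0 := vt_coeffMap_ne_zero hι hb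
    have h2 : coeffMap ψ (coeffMap ι b) ≠ 0 := fun h0 =>
      h1 (coeffMap_inj_of_injective ψ ψ.injective (by rw [h0, map_zero]))
    exact h2 hb'.symm
  · rw [hT', hb', ← h, map_mul]

/-- **the order under a compatible coefficient map**: `π = unit · π' ^ e`. -/
theorem s36noOrd_compat (hB : VtBase ι r π) (hB' : VtBase ι' r' π')
    (hc : VtCompat ι r ι' r' ψ κ) {e : ℤ}
    (he : S36IsOrd ι' r' π' (HahnSeries.C (ψ (ι π)) : LaurentSeries E') e)
    {x : LaurentSeries E} (hx : x ≠ 0) (hf : VtFrac ι x) :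
    s36noOrd ι' r' π' (coeffMap ψ x) = s36noOrd ι r π x * e :=
  s36noOrd_map hB hB' (coeffMap ψ) (fun _ hu => VtUnit.compat hc hu)
    (by rw [coeffMap_hahnC]; exact he) hx hf

end Compat

end Fermat.Agent.S36
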