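import Fermat.Agent.S36.NormOrd

/-!
# S36 / G-nr-ord, part 4: the four norm–order formulas (helper31)

From the four norm PRODUCT formulas (the conjugates table of `NOTES/S36-N2.md`; helper95,
`S36/NormConj.lean`) — taken as hypotheses `hN` — and the arithmetic data `S36NoData`:

* `s36no_alpha_inf  : winf (Nα x) = va x + vc x`
* `s36no_alpha_zero : w0 (Nα x) = q * vb x`
* `s36no_beta_inf   : winf (Nβ x) = q * va x`
* `s36no_beta_zero  : w0 (Nβ x) = vc x + vb x`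

i.e. exactly the hypotheses `hαinf hα0 hβinf hβ0` of `ng_vertical` (`S36/NormGlue.lean`).
-/

set_option autoImplicit false
set_option linter.unusedSectionVars false
set_option linter.unusedVariables false

noncomputable section

namespace Fermat.Agent.S36

open ModularCurve Fermat.Agent.INJ Fermat.Agent.UNIP Fermat.Agent.ES Fermat.Agent.AL
open Fermat.Agent.STB

section Patterns

variable {A₀ E k₀ A₁ K k₁ : Type*} [CommRing A₀] [Field E] [Field k₀]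
  [CommRing A₁] [Field K] [Field k₁]
  {ι₀ : A₀ →+* E} {r₀ : A₀ →+* k₀} {π₀ : A₀} {ι₁ : A₁ →+* K}
  {r₁ : A₁ →+* k₁} {π₁ : A₁} {ψ : E →+* K} {q : ℕ} {ζ : Kˣ}

theorem s36no_cancel {q : ℕ} (hq : q.Prime) {a b : ℤ} (h : a * ((q : ℤ) - 1) = b * ((q : ℤ) - 1)) :
    a = b := by
  have h2 : (2 : ℤ) ≤ q := by exact_mod_cast hq.two_le
  exact mul_right_cancel₀ (show ((q : ℤ) - 1) ≠ 0 by omega) h

/-- **pattern `(α,∞)`, `(β,0)`**: one conjugate over `E` and `q − 1` conjugates of order `c`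
over `K`. -/
theorem s36no_pattern_two (hq : q.Prime) (D : S36NoData ι₀ r₀ π₀ ι₁ r₁ π₁ ψ q ζ)
    {Y x₀ : LaurentSeries E} (hYf : VtFrac ι₀ Y) (hx₀ : x₀ ≠ 0) (hx₀f : VtFrac ι₀ x₀)
    (g : ℕ → LaurentSeries K) (c : ℤ)
    (hg0 : ∀ b ∈ Finset.Ico 1 q, g b ≠ 0) (hgf : ∀ b ∈ Finset.Ico 1 q, VtFrac ι₁ (g b))
    (hgc : ∀ b ∈ Finset.Ico 1 q, s36noOrd ι₁ r₁ π₁ (g b) = c)
    (hN : coeffMap ψ Y = coeffMap ψ x₀ * ∏ b ∈ Finset.Ico 1 q, g b) :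
    s36noOrd ι₀ r₀ π₀ Y = s36noOrd ι₀ r₀ π₀ x₀ + c := by
  have hP0 : ∏ b ∈ Finset.Ico 1 q, g b ≠ 0 := Finset.prod_ne_zero_iff.mpr hg0
  have hx₁ : coeffMap ψ x₀ ≠ 0 := s36no_coeffMap_ne_zero ψ hx₀
  have hY : Y ≠ 0 := by
    rintro rfl
    rw [map_zero] at hN
    exact mul_ne_zero hx₁ hP0 hN.symm
  have h1 := D.ord_bc hY hYf
  rw [hN, s36noOrd_mul D.hB₁ hx₁ hP0 (D.frac_bc hx₀f) (s36no_vtFrac_prod D.hB₁ _ _ hgf),
    D.ord_bc hx₀ hx₀f, s36noOrd_prod D.hB₁ _ _ hg0 hgf, Finset.sum_congr rfl hgc,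
    Finset.sum_const, Nat.card_Ico, nsmul_eq_mul] at h1
  have h2 : (1 : ℕ) ≤ q := hq.one_lt.le
  apply s36no_cancel hq
  rw [← h1]
  push_cast [Nat.cast_sub h2]
  ring

/-- **pattern `(β,∞)`, `(α,0)`**: `q` rotations of one conjugate over `E`. -/
theorem s36no_pattern_rot (hq : q.Prime) [NeZero q] (D : S36NoData ι₀ r₀ π₀ ι₁ r₁ π₁ ψ q ζ)
    {Y x₀ : LaurentSeries E} (hYf : VtFrac ι₀ Y) (hx₀ : x₀ ≠ 0) (hx₀f : VtFrac ι₀ x₀)
    (hN : qExpand K q (coeffMap ψ Y) =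
      ∏ b ∈ Finset.range q, kronRot (ζ ^ b) (coeffMap ψ x₀)) :
    s36noOrd ι₀ r₀ π₀ Y = q * s36noOrd ι₀ r₀ π₀ x₀ := by
  have hx₁ : coeffMap ψ x₀ ≠ 0 := s36no_coeffMap_ne_zero ψ hx₀
  have hx₁f : VtFrac ι₁ (coeffMap ψ x₀) := D.frac_bc hx₀f
  have hg0 : ∀ b ∈ Finset.range q, kronRot (ζ ^ b) (coeffMap ψ x₀) ≠ 0 :=
    fun b _ => s36no_kronRot_ne_zero _ hx₁
  have hgf : ∀ b ∈ Finset.range q, VtFrac ι₁ (kronRot (ζ ^ b) (coeffMap ψ x₀)) :=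
    fun b _ => s36no_frac_kronRot' _ (D.zeta_pow b) hx₁f
  have hgc : ∀ b ∈ Finset.range q, s36noOrd ι₁ r₁ π₁ (kronRot (ζ ^ b) (coeffMap ψ x₀)) =
      s36noOrd ι₀ r₀ π₀ x₀ * ((q : ℤ) - 1) := fun b _ => by
    rw [s36noOrd_kronRot' D.hB₁ _ (D.zeta_pow b) hx₁ hx₁f, D.ord_bc hx₀ hx₀f]
  have hP0 : ∏ b ∈ Finset.range q, kronRot (ζ ^ b) (coeffMap ψ x₀) ≠ 0 :=
    Finset.prod_ne_zero_iff.mpr hg0
  have hY : Y ≠ 0 := by
    rintro rfl
    rw [map_zero, map_zero] at hN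
    exact hP0 hN.symm
  have hY₁ : coeffMap ψ Y ≠ 0 := s36no_coeffMap_ne_zero ψ hY
  have h1 := s36noOrd_qExpand D.hB₁ q hY₁ (D.frac_bc hYf)
  rw [hN, D.ord_bc hY hYf, s36noOrd_prod D.hB₁ _ _ hg0 hgf, Finset.sum_congr rfl hgc,
    Finset.sum_const, Finset.card_range, nsmul_eq_mul] at h1
  apply s36no_cancel hq
  rw [← h1]
  ring

end Patterns

section Main

variable {A₀ E k₀ A₁ K k₁ : Type*} [CommRing A₀] [Field E] [Field k₀]
  [CommRing A₁] [Field K] [Field k₁]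
  {ι₀ : A₀ →+* E} {r₀ : A₀ →+* k₀} {π₀ : A₀} {ι₁ : A₁ →+* K}
  {r₁ : A₁ →+* k₁} {π₁ : A₁} {ψ : E →+* K} (ιC : E →+* ℂ)
  {q M : ℕ} [NeZero q] [NeZero M] [NeZero (M * q)] [NeZero (M * q * q)]
  (hq : q.Prime) (hqM : ¬ q ∣ M) {ζ : Kˣ}
  (D : S36NoData ι₀ r₀ π₀ ι₁ r₁ π₁ ψ q ζ) (h : S36MidEmb K q M ζ)

/-- the hypothesis on the family `μ_b`: it is the expansion at the middle cusp for `ζ ^ b` -/
def S36NoMu (ψ : E →+* K) (q M : ℕ) [NeZero q] [NeZero M] [NeZero (M * q)]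
    [NeZero (M * q * q)] (ζ : Kˣ)
    (μ : ℕ → modularFunctionFieldFullC E (M * q * q) → LaurentSeries K) : Prop :=
  ∀ b, 1 ≤ b → b < q → ∃ h' : S36MidEmb K q M (ζ ^ b),
    ∀ x, μ b x = h'.emb (mgaCoeffHom ψ (M * q * q) x)

include hq D in
/-- **`(Nα∞)`**: `w_∞ (N_α x) = v_a x + v_c x`. -/
theorem s36no_alpha_inf {μ : ℕ → modularFunctionFieldFullC E (M * q * q) → LaurentSeries K}
    (hμ : S36NoMu ψ q M ζ μ) {x : modularFunctionFieldFullC E (M * q * q)} (hx : x ≠ 0)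
    (hN : coeffMap ψ ((stbNorm (s36Alpha E M q) x : modularFunctionFieldFullC E (M * q)) :
        LaurentSeries E) =
      coeffMap ψ (x : LaurentSeries E) * ∏ b ∈ Finset.Ico 1 q, μ b x) :
    s36noWinf ι₀ r₀ π₀ (stbNorm (s36Alpha E M q) x) =
      s36noVa ι₀ r₀ π₀ x + s36noVc ι₁ r₁ π₁ ψ h x := by
  refine s36no_pattern_two hq D (vt_frac_fullC D.hB₀ _ (Subtype.property _))
    (s36no_coe_ne_zero hx) (vt_frac_fullC D.hB₀ _ x.2) (fun b => μ b x) _ ?_ ?_ ?_ hN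
  · intro b hb
    obtain ⟨h', hh'⟩ := hμ b (Finset.mem_Ico.mp hb).1 (Finset.mem_Ico.mp hb).2
    rw [hh']
    exact s36no_mid_ne_zero h' hx
  · intro b hb
    obtain ⟨h', hh'⟩ := hμ b (Finset.mem_Ico.mp hb).1 (Finset.mem_Ico.mp hb).2
    rw [hh']
    exact s36no_frac_mid D.hB₁ hq (D.zeta_pow b) h' _
  · intro b hb
    obtain ⟨h', hh'⟩ := hμ b (Finset.mem_Ico.mp hb).1 (Finset.mem_Ico.mp hb).2
    rw [hh']
    exact s36noVc_gal hq D h (Finset.mem_Ico.mp hb).1 (Finset.mem_Ico.mp hb).2 h' hx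

include hq D in
/-- **`(Nβ∞)`**: `w_∞ (N_β x) = q · v_a x`. -/
theorem s36no_beta_inf {x : modularFunctionFieldFullC E (M * q * q)} (hx : x ≠ 0)
    (hN : qExpand K q (coeffMap ψ
        ((stbNorm (s36Beta E M q) x : modularFunctionFieldFullC E (M * q)) : LaurentSeries E)) =
      ∏ b ∈ Finset.range q, kronRot (ζ ^ b) (coeffMap ψ (x : LaurentSeries E))) :
    s36noWinf ι₀ r₀ π₀ (stbNorm (s36Beta E M q) x) = q * s36noVa ι₀ r₀ π₀ x :=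
  s36no_pattern_rot hq D (vt_frac_fullC D.hB₀ _ (Subtype.property _))
    (s36no_coe_ne_zero hx) (vt_frac_fullC D.hB₀ _ x.2) hN

include hq D in
/-- **`(Nα0)`**: `w_0 (N_α x) = q · v_b x`. -/
theorem s36no_alpha_zero {x : modularFunctionFieldFullC E (M * q * q)} (hx : x ≠ 0)
    (hN : qExpand K q (coeffMap ψ
        ((atkinLehner E ιC hq hqM (stbNorm (s36Alpha E M q) x) :
          modularFunctionFieldFullC E (M * q)) : LaurentSeries E)) =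
      ∏ b ∈ Finset.range q, kronRot (ζ ^ b)
        (coeffMap ψ ((s36n2W E ιC hq hqM x : modularFunctionFieldFullC E (M * q * q)) :
          LaurentSeries E))) :
    s36noW0 ι₀ r₀ π₀ ιC hq hqM (stbNorm (s36Alpha E M q) x) =
      q * s36noVb ι₀ r₀ π₀ ιC hq hqM x :=
  s36no_pattern_rot hq D (vt_frac_fullC D.hB₀ _ (Subtype.property _))
    (s36no_coe_ne_zero ((map_ne_zero _).mpr hx)) (vt_frac_fullC D.hB₀ _ (Subtype.property _)) hN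

include hq D in
/-- **`(Nβ0)`**: `w_0 (N_β x) = v_c x + v_b x`. -/
theorem s36no_beta_zero {μ : ℕ → modularFunctionFieldFullC E (M * q * q) → LaurentSeries K}
    (hμ : S36NoMu ψ q M ζ μ) {x : modularFunctionFieldFullC E (M * q * q)} (hx : x ≠ 0)
    (hN : coeffMap ψ ((atkinLehner E ιC hq hqM (stbNorm (s36Beta E M q) x) :
        modularFunctionFieldFullC E (M * q)) : LaurentSeries E) =
      coeffMap ψ ((s36n2W E ιC hq hqM x : modularFunctionFieldFullC E (M * q * q)) :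
          LaurentSeries E) *
        ∏ b ∈ Finset.Ico 1 q, kronRot (ζ ^ b)⁻¹ (μ b x)) :
    s36noW0 ι₀ r₀ π₀ ιC hq hqM (stbNorm (s36Beta E M q) x) =
      s36noVc ι₁ r₁ π₁ ψ h x + s36noVb ι₀ r₀ π₀ ιC hq hqM x := by
  rw [add_comm]
  refine s36no_pattern_two hq D (vt_frac_fullC D.hB₀ _ (Subtype.property _))
    (s36no_coe_ne_zero ((map_ne_zero _).mpr hx)) (vt_frac_fullC D.hB₀ _ (Subtype.property _))
    (fun b => kronRot (ζ ^ b)⁻¹ (μ b x)) _ ?_ ?_ ?_ hN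
  · intro b hb
    obtain ⟨h', hh'⟩ := hμ b (Finset.mem_Ico.mp hb).1 (Finset.mem_Ico.mp hb).2
    show kronRot (ζ ^ b)⁻¹ (μ b x) ≠ 0
    rw [hh']
    exact s36no_kronRot_ne_zero _ (s36no_mid_ne_zero h' hx)
  · intro b hb
    obtain ⟨h', hh'⟩ := hμ b (Finset.mem_Ico.mp hb).1 (Finset.mem_Ico.mp hb).2
    show VtFrac ι₁ (kronRot (ζ ^ b)⁻¹ (μ b x))
    rw [hh']
    exact s36no_frac_kronRot' _ (D.zeta_pow_inv b) (s36no_frac_mid D.hB₁ hq (D.zeta_pow b) h' _)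
  · intro b hb
    obtain ⟨h', hh'⟩ := hμ b (Finset.mem_Ico.mp hb).1 (Finset.mem_Ico.mp hb).2
    show s36noOrd ι₁ r₁ π₁ (kronRot (ζ ^ b)⁻¹ (μ b x)) = _
    rw [hh', s36noOrd_kronRot' D.hB₁ _ (D.zeta_pow_inv b) (s36no_mid_ne_zero h' hx)
      (s36no_frac_mid D.hB₁ hq (D.zeta_pow b) h' _)]
    exact s36noVc_gal hq D h (Finset.mem_Ico.mp hb).1 (Finset.mem_Ico.mp hb).2 h' hx

end Main

end Fermat.Agent.S36
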