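import Fermat.Agent.S36.NormResMain
import Fermat.Agent.S36.N2ValI1
import Fermat.Agent.S36.NormOrdData

/-!
# S36 / G-nr (I4), part 5 (helper20): `Dα`, `Dβ` at the concrete family `s36i1V`

The hypotheses (I4) of `s36sp_small` (`S36/SmallPart.lean`) / `s36tb_small` (`S36/TopB.lean`):

* `s36nrWinf hq hA M`, `s36nrW0 M hq hA hqM ιC` : the two vertical valuation subrings of `F_{Mq}(E₀)`;
* `s36nr_Dalpha : NgDir α N_α W_∞ (V a) (V c) (V b) (q − 1) q`,
  `s36nr_Dbeta  : NgDir β N_β W_0 (V b) (V c) (V a) (q − 1) q`   for `V = s36i1V M hq hA hqM hζ ιC h`.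
-/

set_option autoImplicit false
set_option linter.unusedSectionVars false
set_option linter.unusedVariables false
set_option linter.style.haveILetI false

noncomputable section

namespace Fermat.Agent.S36

open ModularCurve Fermat.Agent.UNIP Fermat.Agent.INJ Fermat.Agent.AL Fermat.Agent.ES
open Fermat.Agent.STB IntermediateField

section Concrete

variable {q : ℕ} {A : ValuationSubring (AlgebraicClosure ℚ)} (M : ℕ) [NeZero M] [NeZero q]
  [IsDiscreteValuationRing ↥(beta0Ring A (beta0Field A))]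
  {ζ : AlgebraicClosure ℚ}
  (hq : q.Prime) (hA : A.LiesOverPrime q) (hqM : ¬ q ∣ M) (hζ : IsPrimitiveRoot ζ q)
  (ιC : ↥(beta0Field A) →+* ℂ) (ιK : ↥(s36n2bK A ζ) →+* ℂ)
  (h : S36MidEmb ↥(s36n2bK A ζ) q M (s36i1ZK (A := A) hq hζ))

/-- `W_∞` : the vertical valuation subring of `F_{Mq}(E₀)` at the cusp `∞` -/
def s36nrWinf : ValuationSubring ↥(modularFunctionFieldFullC ↥(beta0Field A) (M * q)) :=
  vtInf (vtBase_residue (beta0Ring_irreducible_q hq hA)) (M * q)

/-- `W_0` : the vertical valuation subring of `F_{Mq}(E₀)` at the cusp `0` -/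
def s36nrW0 : ValuationSubring ↥(modularFunctionFieldFullC ↥(beta0Field A) (M * q)) :=
  vtZero (vtBase_residue (beta0Ring_irreducible_q hq hA)) ιC hq hqM

include ιK in
/-- **`Dα`** (I4) at the concrete family -/
theorem s36nr_Dalpha :
    NgDir (s36Alpha ↥(beta0Field A) M q) (s36NormAlpha ↥(beta0Field A) M q)
      (s36nrWinf M hq hA)
      (s36i1V M hq hA hqM hζ ιC h S36Comp.a) (s36i1V M hq hA hqM hζ ιC h S36Comp.c)
      (s36i1V M hq hA hqM hζ ιC h S36Comp.b) (q - 1) q :=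
  s36nr_Dalpha_of_data (vtBase_residue (beta0Ring_irreducible_q hq hA)) (s36n2b_vtBase hq hA hζ)
    (IntermediateField.inclusion (s36n2b_le_K A ζ)).toRingHom ιC ιK hq hqM h (s36i1Z hq hζ) rfl
    (s36nd_data hq hA hζ) (s36n2bZeta_isPrimitiveRoot (A := A) hq hζ)
    (s36n2b_residue_zeta hq hA hζ) (Nat.cast_ne_zero.mpr hq.ne_zero) (v := 1)
    (by rw [map_one]; exact one_ne_zero) (mul_one _).symm

include ιK in
/-- **`Dβ`** (I4) at the concrete family -/
theorem s36nr_Dbeta :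
    NgDir (s36Beta ↥(beta0Field A) M q) (s36NormBeta ↥(beta0Field A) M q)
      (s36nrW0 M hq hA hqM ιC)
      (s36i1V M hq hA hqM hζ ιC h S36Comp.b) (s36i1V M hq hA hqM hζ ιC h S36Comp.c)
      (s36i1V M hq hA hqM hζ ιC h S36Comp.a) (q - 1) q :=
  s36nr_Dbeta_of_data (vtBase_residue (beta0Ring_irreducible_q hq hA)) (s36n2b_vtBase hq hA hζ)
    (IntermediateField.inclusion (s36n2b_le_K A ζ)).toRingHom ιC ιK hq hqM h (s36i1Z hq hζ) rfl
    (s36nd_data hq hA hζ) (s36n2bZeta_isPrimitiveRoot (A := A) hq hζ)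
    (s36n2b_residue_zeta hq hA hζ) (Nat.cast_ne_zero.mpr hq.ne_zero) (v := 1)
    (by rw [map_one]; exact one_ne_zero) (mul_one _).symm

end Concrete

end Fermat.Agent.S36
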