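import Fermat.Agent.S36.N2Val
import Fermat.Agent.S36.NormOrdInv
import Fermat.Agent.UNIP.MGVertCompat

/-!
# S36 / G-nr, part 2 (helper20): the kernel of the Gauss reduction as a subgroup of `K((Q))`

`(A, ι : A → K, r : A → k)` a base.  `s36nrKer ι r ⊆ K((Q))` is the set of quotients `T / b` of
series over `A` with `r̂ b ≠ 0`, `r̂ T = 0`: the maximal ideal of the Gauss ring.

* `s36nrKer_mul` : closed under multiplication;
* `s36nr_mem_ker_iff` : `y ∈ ker ↔ ∃ h : y ∈ gaussRing, gaussRed ⟨y, h⟩ = 0`;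
* `s36nr_cut` : `x ∈ 𝔪(vtSub hB e hfrac) ↔ e x ∈ ker` ("`vtSub` is cut out by `e`");
* `s36nr_cut_bc` : the same after a compatible base change `ψ : E → K` of the coefficients;
* `s36nr_kronRot_mem_ker_iff` : the kernel is stable under the rotations `Q ↦ z Q`, `z ∈ Aˣ`;
* `s36nr_kronRot_div_sub_one` : if `r z = 1` then `y(zQ) / y(Q) ≡ 1` for every Gauss unit `y`.
-/

set_option autoImplicit false
set_option linter.unusedSectionVars false
set_option linter.style.haveILetI false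

noncomputable section

namespace Fermat.Agent.S36

open ModularCurve Fermat.Agent.UNIP Fermat.Agent.INJ Fermat.Agent.ES

section Ker

variable {A K k : Type*} [CommRing A] [Field K] [Field k] (ι : A →+* K) (r : A →+* k)

/-- the kernel of the Gauss reduction (the maximal ideal of the Gauss ring), as an additive
subgroup of `K((Q))` -/
def s36nrKer : AddSubgroup (LaurentSeries K) where
  carrier := {y | ∃ T b : LaurentSeries A, coeffMap r b ≠ 0 ∧ coeffMap r T = 0 ∧
    coeffMap ι b * y = coeffMap ι T}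
  zero_mem' := ⟨0, 1, by simp, by simp, by simp⟩
  add_mem' := by
    rintro x y ⟨T, b, hb, hT, h⟩ ⟨T', b', hb', hT', h'⟩
    refine ⟨T * b' + T' * b, b * b', ?_, ?_, ?_⟩
    · rw [map_mul]
      exact mul_ne_zero hb hb'
    · rw [map_add, map_mul, map_mul, hT, hT', zero_mul, zero_mul, add_zero]
    · rw [map_mul, map_add, map_mul, map_mul, ← h, ← h']
      ring
  neg_mem' := by
    rintro x ⟨T, b, hb, hT, h⟩
    refine ⟨-T, b, hb, ?_, ?_⟩
    · rw [map_neg, hT, neg_zero]
    · rw [map_neg, ← h]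
      ring

variable {ι r}

theorem s36nr_mem_ker {y : LaurentSeries K} :
    y ∈ s36nrKer ι r ↔ ∃ T b : LaurentSeries A, coeffMap r b ≠ 0 ∧ coeffMap r T = 0 ∧
      coeffMap ι b * y = coeffMap ι T := Iff.rfl

/-- the kernel is closed under multiplication -/
theorem s36nrKer_mul (a b : LaurentSeries K) (ha : a ∈ s36nrKer ι r) (hb : b ∈ s36nrKer ι r) :
    a * b ∈ s36nrKer ι r := by
  obtain ⟨T, c, hc, hT, h⟩ := ha
  obtain ⟨T', c', hc', hT', h'⟩ := hb
  refine ⟨T * T', c * c', ?_, ?_, ?_⟩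
  · rw [map_mul]
    exact mul_ne_zero hc hc'
  · rw [map_mul, hT, zero_mul]
  · rw [map_mul, map_mul, ← h, ← h']
    ring

/-- the kernel is the kernel of `gaussRed` -/
theorem s36nr_mem_ker_iff (hι : Function.Injective ι) {y : LaurentSeries K} :
    y ∈ s36nrKer ι r ↔ ∃ h : y ∈ gaussRing ι r, gaussRed r hι ⟨y, h⟩ = 0 := by
  constructor
  · rintro ⟨T, b, hb, hT, h⟩
    exact ⟨⟨T, b, hb, h⟩, (gaussRed_eq_zero_iff r hι ⟨y, ⟨T, b, hb, h⟩⟩ T b hb h).mpr hT⟩
  · rintro ⟨hy, h0⟩
    obtain ⟨T, b, hb, h⟩ := hy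
    exact ⟨T, b, hb, (gaussRed_eq_zero_iff r hι ⟨y, ⟨T, b, hb, h⟩⟩ T b hb h).mp h0, h⟩

/-- **the vertical valuation `vtSub hB e hfrac` is cut out by `e`** -/
theorem s36nr_cut {π : A} {F : Type*} [Field F] (hB : VtBase ι r π)
    (e : F →+* LaurentSeries K) (hfrac : ∀ x : F, VtFrac ι (e x)) (x : F) :
    x ∈ (vtSub hB e hfrac).nonunits ↔ e x ∈ s36nrKer ι r :=
  (vtSub_mem_nonunits_iff hB e hfrac).trans (s36nr_mem_ker_iff hB.inj).symm

/-- the kernel is stable under rotation -/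
theorem s36nr_kronRot_mem_ker (z : Aˣ) {y : LaurentSeries K} (hy : y ∈ s36nrKer ι r) :
    kronRot (Units.map (ι : A →* K) z) y ∈ s36nrKer ι r := by
  obtain ⟨T, b, hb, hT, h⟩ := hy
  refine ⟨kronRot z T, kronRot z b, ?_, ?_, ?_⟩
  · rw [coeffMap_kronRot]
    exact s36n2_kronRot_ne_zero _ hb
  · rw [coeffMap_kronRot, hT, map_zero]
  · rw [← s36n2_kronRot_coeffMap, ← s36n2_kronRot_coeffMap, ← map_mul, h]

theorem s36nr_kronRot_mem_ker_iff (z : Aˣ) {y : LaurentSeries K} :
    kronRot (Units.map (ι : A →* K) z) y ∈ s36nrKer ι r ↔ y ∈ s36nrKer ι r := by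
  refine ⟨fun hy => ?_, s36nr_kronRot_mem_ker z⟩
  have h1 := s36nr_kronRot_mem_ker (r := r) z⁻¹ hy
  rw [kronRot_kronRot, ← map_mul, inv_mul_cancel, map_one, kronRot_one] at h1
  exact h1

/-- **rotation by a unit reducing to `1` is trivial on the residue field**:
`y(zQ) / y(Q) ≡ 1` for every unit `y` of the Gauss ring -/
theorem s36nr_kronRot_div_sub_one (hι : Function.Injective ι) (z : Aˣ) (hz : r (z : A) = 1)
    {y : LaurentSeries K} (hy : VtUnit ι r y) :
    kronRot (Units.map (ι : A →* K) z) y / y - 1 ∈ s36nrKer ι r := by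
  have hy0 : y ≠ 0 := hy.ne_zero hι
  obtain ⟨T, b, hT, hb, h⟩ := hy
  have hz1 : Units.map (r : A →* k) z = 1 := Units.ext hz
  refine ⟨kronRot z T * b - kronRot z b * T, kronRot z b * T, ?_, ?_, ?_⟩
  · rw [map_mul, coeffMap_kronRot]
    exact mul_ne_zero (s36n2_kronRot_ne_zero _ hb) hT
  · rw [map_sub, map_mul, map_mul, coeffMap_kronRot, coeffMap_kronRot, hz1, kronRot_one,
      kronRot_one, mul_comm, sub_self]
  · have h1 : coeffMap ι (kronRot z b) * kronRot (Units.map (ι : A →* K) z) y =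
        coeffMap ι (kronRot z T) := by
      rw [← s36n2_kronRot_coeffMap, ← s36n2_kronRot_coeffMap, ← map_mul, h]
    rw [map_sub, map_mul, map_mul, ← h1, ← h]
    field_simp

end Ker

section BaseChange

variable {A E k A' K k' : Type*} [CommRing A] [Field E] [Field k]
  [CommRing A'] [Field K] [Field k']
  {ι : A →+* E} {r : A →+* k} {π : A} {ι' : A' →+* K} {r' : A' →+* k'} {π' : A'}
  {ψ : E →+* K} {κ : k →+* k'} {F : Type*} [Field F]

/-- **cut-out after base change**: `vtSub hB e hfrac` (coefficients in `E`) is cut out by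
`ψ̂ ∘ e` (coefficients in `K`) -/
theorem s36nr_cut_bc (hB : VtBase ι r π) (hB' : VtBase ι' r' π')
    (hc : VtCompat ι r ι' r' ψ κ)
    (e : F →+* LaurentSeries E) (hfrac : ∀ x : F, VtFrac ι (e x))
    (e' : F →+* LaurentSeries K) (he' : ∀ x, e' x = coeffMap ψ (e x)) (x : F) :
    x ∈ (vtSub hB e hfrac).nonunits ↔ e' x ∈ s36nrKer ι' r' := by
  have hfrac' : ∀ x : F, VtFrac ι' (e' x) := fun x => by
    rw [he']
    exact s36no_frac_compat hc hB.inj (hfrac x)
  rw [← s36nr_cut hB' e' hfrac']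
  exact (vtSub_baseChange_mem_nonunits_iff hB hB' e hfrac e' hfrac' hc (RingHom.id F) he' x).symm

/-- units after base change -/
theorem s36nr_unit_bc (hB : VtBase ι r π)
    (hc : VtCompat ι r ι' r' ψ κ)
    (e : F →+* LaurentSeries E) (hfrac : ∀ x : F, VtFrac ι (e x)) {x : F}
    (hx : (vtSub hB e hfrac).valuation x = 1) : VtUnit ι' r' (coeffMap ψ (e x)) :=
  ((vtSub_valuation_eq_one_iff hB e hfrac).mp hx).compat hc

end BaseChange

end Fermat.Agent.S36
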