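import Fermat.Agent.S36.NormRes
import Fermat.Agent.S36.N2ExtXMain
import Fermat.Agent.S36.NormOrd

/-!
# S36 / G-nr (I4), part 4 (helper20): the packages `Dα`, `Dβ` from the arithmetic data

`s36nr_ngDir_alpha` / `_beta` (`S36/NormRes.lean`) with the residue surjectivities of helper19
(`S36/N2ExtXMain.lean`) plugged in, and the Galois hypothesis taken from `S36NoData`
(helper31, `S36/NormOrd.lean`).

* `s36nr_Dalpha_of_data`, `s36nr_Dbeta_of_data` : `NgDir` at the family `s36n2V …`.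
-/

set_option autoImplicit false
set_option linter.unusedSectionVars false
set_option linter.unusedVariables false
set_option linter.style.haveILetI false

noncomputable section

namespace Fermat.Agent.S36

open ModularCurve Fermat.Agent.UNIP Fermat.Agent.INJ Fermat.Agent.AL Fermat.Agent.ES
open Fermat.Agent.STB

section Data

variable {A E k A' K k' : Type*} [CommRing A] [IsDomain A] [Field E] [CharZero E] [Algebra A E]
  [IsFractionRing A E] [Field k] [CommRing A'] [IsDomain A'] [Field K] [Field k']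
  {r : A →+* k} {π : A} {ι' : A' →+* K} {r' : A' →+* k'} {π' : A'}
  (hB : VtBase (algebraMap A E) r π) (hB' : VtBase ι' r' π')
  (ψ : E →+* K) (ιC : E →+* ℂ) (ιK : K →+* ℂ)
  {q M : ℕ} [NeZero q] [NeZero M] [NeZero (M * q)] [NeZero (M * q * q)]
  (hq : q.Prime) (hqM : ¬ q ∣ M)
  {ζ : Kˣ} (h : S36MidEmb K q M ζ) (z : A'ˣ) (hz : Units.map (ι' : A' →* K) z = ζ)
  (D : S36NoData (algebraMap A E) r π ι' r' π' ψ q ζ)
  (hζ : IsPrimitiveRoot (z : A') q) (hr : r' (z : A') = 1)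
  (hq0 : (q : A') ≠ 0) {v : A} (hv : r v ≠ 0) (hπv : (q : A) = π * v)

include D in
/-- the Galois hypothesis of `S36/NormRes.lean` from `S36NoData` -/
theorem s36nr_gal_of_data (b : ℕ) (hb1 : 1 ≤ b) (hbq : b < q) :
    ∃ (σ : K →+* K) (κ' : k' →+* k'),
      (∀ x, σ (ψ x) = ψ x) ∧ σ (ζ : K) = ((ζ ^ b : Kˣ) : K) ∧ VtCompat ι' r' ι' r' σ κ' := by
  obtain ⟨σ, κ', h1, h2, h3, -⟩ := D.gal b hb1 hbq
  exact ⟨σ, κ', h1, h2, h3⟩

include hB hB' ιC ιK hq hqM h z hz D hζ hr hq0 hv hπv in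
/-- **`Dα`** at the family `s36n2V` -/
theorem s36nr_Dalpha_of_data :
    NgDir (s36Alpha E M q) (s36NormAlpha E M q) (vtInf hB (M * q))
      (s36n2V hB hB' ψ ιC hq hqM h z hz S36Comp.a)
      (s36n2V hB hB' ψ ιC hq hqM h z hz S36Comp.c)
      (s36n2V hB hB' ψ ιC hq hqM h z hz S36Comp.b) (q - 1) q := by
  obtain ⟨κ, hc⟩ := D.compat
  exact s36nr_ngDir_alpha hB hB' ψ hc ιC ιK hq hqM (s36n2x_zeta_prim hB' z hz hζ) h z hz hr
    (s36nr_gal_of_data ψ D)
    (s36n2x_surj_alpha_a hB hB' ψ ιC ιK hq hqM h z hz hc hζ hr hq0 hv hπv)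
    (s36n2x_surj_alpha_c hB hB' ψ ιC ιK hq hqM h z hz hc hζ hr hq0 hv hπv)

include hB hB' ιC ιK hq hqM h z hz D hζ hr hq0 hv hπv in
/-- **`Dβ`** at the family `s36n2V` -/
theorem s36nr_Dbeta_of_data :
    NgDir (s36Beta E M q) (s36NormBeta E M q) (vtZero hB ιC hq hqM)
      (s36n2V hB hB' ψ ιC hq hqM h z hz S36Comp.b)
      (s36n2V hB hB' ψ ιC hq hqM h z hz S36Comp.c)
      (s36n2V hB hB' ψ ιC hq hqM h z hz S36Comp.a) (q - 1) q := by
  obtain ⟨κ, hc⟩ := D.compat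
  exact s36nr_ngDir_beta hB hB' ψ hc ιC ιK hq hqM (s36n2x_zeta_prim hB' z hz hζ) h z hz hr
    (s36nr_gal_of_data ψ D)
    (s36n2x_surj_beta_b hB hB' ψ ιC ιK hq hqM h z hz hc hζ hr hq0 hv hπv)
    (s36n2x_surj_beta_c hB hB' ψ ιC ιK hq hqM h z hz hc hζ hr hq0 hv hπv)

end Data

end Fermat.Agent.S36
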