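import Fermat.Agent.S36.Top
import Fermat.Agent.S36.DescentNorm

/-!
# S36 G-desc-N: `StmtNormSquares` (the Prop of `S36/Top.lean`) is proved

`stmtNormSquares : StmtNormSquares`, hence
`stmtCarayolKummer_of_small : StmtCarayolSmall → StmtCarayolKummer`.
-/

set_option autoImplicit false

noncomputable section

namespace Fermat.Agent.S36

/-- **G-desc-N**: the norm squares `K₀ ↔ ℚ̄` at level `M q²`, for `α` and `β`. -/
theorem stmtNormSquares : StmtNormSquares := fun _ _ _ _ hq hqM K₀ =>
  ⟨s36dn_alpha K₀ hq, s36dn_beta K₀ hq hqM⟩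

/-- the geometry of S36 from (G36-K) over the small field at the rigid levels -/
theorem stmtCarayolKummer_of_small (hsmall : StmtCarayolSmall) : StmtCarayolKummer :=
  stmtCarayolKummer_of stmtNormSquares hsmall

end Fermat.Agent.S36
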