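import Fermat.Agent.STB.Stmt

/-!
# S36 (Carayol at `q² ∥ M`): the interface

`M = M₁ * q` with `q ∣ M₁`, `q² ∤ M₁` (so `q² ∥ M`); `p ≠ q` an odd prime.
`α, β : F_{M₁} → F_{M₁ q}` are the two degeneracy embeddings of the prelude, exactly as in STB
(`Fermat.Agent.STB.stbNormAlpha/Beta`, `stbPushAlpha/Beta`, `stbNew`; these are defined for all
`M₁, q`, in particular for `q ∣ M₁`).

* `StmtCarayolKummerAt M₁ q p` : **(G36-K)**, the geometric clause in Kummer form — THE TARGET of
  the geometric part of S36: a function `u` whose divisor is divisible by `p ^ n`, whose two norms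
  to level `M₁` are constants times `p ^ n`-th powers and which is multiplied by constants times
  `p ^ n`-th powers under the inertia group at `A ∣ q`, has `u ^ c` = constant times a
  `p ^ n`-th power, `c ≠ 0` independent of `n` and `u`.
* `StmtCarayolJ M₁ q p` : **(G36-J)**, the same on `J₀(M₁ q)[p^∞]`: the inertia invariants of
  the `p`-power torsion of the `q`-new part are killed by a constant `c ≠ 0`.
  (`S36/JForm.lean`: `StmtCarayolKummerAt → StmtCarayolJ`.)
* `StmtCarayol` : (G36-J) at all levels `M₁ q`, `q ∥ M₁`, and all odd primes `p ≠ q`.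

See NOTES/S36-plan.md.
-/

set_option autoImplicit false

noncomputable section

namespace Fermat.Agent.S36

open ModularCurve AlgebraicCurve Fermat.Agent.ES Fermat.Agent.ES.G2 Fermat.Agent.ES.H
open Fermat.Agent.S24 Fermat.Agent.STB

variable (M₁ q p : ℕ) [NeZero M₁] [NeZero q]

/-- **(G36-K)** the geometric clause of S36 in Kummer form, at level `M₁ q` (used for `q ∥ M₁`)
and the prime `p` (used for `p ≠ q`, `p ≠ 2`). -/
def StmtCarayolKummerAt : Prop :=
  ∀ A : ValuationSubring Qb, A.LiesOverPrime q →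
    ∃ c : ℕ, c ≠ 0 ∧
      ∀ (n : ℕ) (u : modularFunctionFieldBar (M₁ * q)), u ≠ 0 →
        (∀ P : Place Qb (modularFunctionFieldBar (M₁ * q)), ((p ^ n : ℕ) : ℤ) ∣ P.ord u) →
        (∃ (a : Qb) (f : modularFunctionFieldBar M₁),
          stbNormAlpha M₁ q u = algebraMap Qb (modularFunctionFieldBar M₁) a * f ^ (p ^ n)) →
        (∃ (a : Qb) (f : modularFunctionFieldBar M₁),
          stbNormBeta M₁ q u = algebraMap Qb (modularFunctionFieldBar M₁) a * f ^ (p ^ n)) →
        (∀ σ ∈ A.inertiaSubgroupIn ℚ,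
          ∃ (a : Qb) (h : modularFunctionFieldBar (M₁ * q)),
            arithmeticGalois (modularFunctionFieldFull (M₁ * q)) σ • u =
              algebraMap Qb (modularFunctionFieldBar (M₁ * q)) a * h ^ (p ^ n) * u) →
          ∃ (a : Qb) (h : modularFunctionFieldBar (M₁ * q)),
            u ^ c = algebraMap Qb (modularFunctionFieldBar (M₁ * q)) a * h ^ (p ^ n)

/-- **(G36-J)** the geometric clause of S36 on `J₀(M₁ q)[p^∞]`: the inertia invariants (at a
place `A ∣ q`) of the `p`-power torsion of the `q`-new part are killed by a constant. -/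
def StmtCarayolJ : Prop :=
  ∀ A : ValuationSubring Qb, A.LiesOverPrime q →
    ∃ c : ℕ, c ≠ 0 ∧
      ∀ x : JZero (M₁ * q), (∃ n : ℕ, p ^ n • x = 0) → x ∈ stbNew M₁ q →
        (∀ σ ∈ A.inertiaSubgroupIn ℚ, σ • x = x) → c • x = 0

/-- (G36-K) at all levels. -/
def StmtCarayolKummer : Prop :=
  ∀ (M₁ q p : ℕ) [NeZero M₁] [NeZero q], q.Prime → p.Prime → p ≠ q → p ≠ 2 →
    q ∣ M₁ → ¬ q ^ 2 ∣ M₁ → StmtCarayolKummerAt M₁ q p

/-- **(G36)** = (G36-J) at all levels: the single geometric input of S36. -/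
def StmtCarayol : Prop :=
  ∀ (M₁ q p : ℕ) [NeZero M₁] [NeZero q], q.Prime → p.Prime → p ≠ q → p ≠ 2 →
    q ∣ M₁ → ¬ q ^ 2 ∣ M₁ → StmtCarayolJ M₁ q p

end Fermat.Agent.S36
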