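/-
S36 (Carayol at `q² ∥ M`), geometry, input (I6), piece (a) (helper62): `S36PtInput` at the closed
points of a chart through which exactly ONE component `V c₁` passes, the component being of
multiplicity one (`π` is a uniformizer of `V c₁`): the points of `C_a` only and of `C_b` only.

Chart setting of `UNIP/AbstractT.lean`, `section Main`: `A₀` a DVR, `π` irreducible,
`E = Frac A₀`, `u : F` transcendental over `E`, `F / E(u)` finite, `B_u = zchClosure {u}`,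
`𝔫 : AtPt π u` a closed point of the special fibre.

* `s36pab_hE`, `s36pab_hfrac`, `s36pab_hKR`, `s36pab_hVloc` : the chart forms of the globals.
* `s36pab_one` : **`S36PtInput … (atLoc 𝔫) (atThrough 𝔫 (V ·))`** from `s36n2p_ptInput_one` with
  `X = π`, `Y = 1`; ANY chart coordinate `u` (so also `u = t⁻¹`: the cusps of `C_a`, `C_b`).
* `s36pab_one_inl`, `s36pab_one_inr` : the same in the shape of `hpts` of `s36tb_small`
  (`atO π t (Sum.inl 𝔫)`, `atInc π t V (Sum.inl 𝔫)`, resp. `Sum.inr`).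
* `s36pab_gen_of_lower` : the local parameter of the branch from the chart of the level below
  (`s36n2p_gen_of_lower` for a chart homomorphism `g : C → B_u` which is integral, with
  `RegChart`-type local generation on `C`), in the form needed by `s36pab_one`.
-/
import Fermat.Agent.S36.N2PtsInput
import Fermat.Agent.UNIP.Adapter

set_option autoImplicit false
set_option linter.unusedSectionVars false
set_option linter.unusedVariables false
set_option linter.style.haveILetI false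

namespace Fermat.Agent.S36

open Fermat.Agent.UNIP Fermat.Agent.STB Fermat.Agent.INJ AlgebraicCurve IntermediateField

section One

variable {A₀ E F F₁ : Type*} [CommRing A₀] [IsDomain A₀] [IsDiscreteValuationRing A₀]
  [Field E] [Algebra A₀ E] [IsFractionRing A₀ E] [CharZero E]
  [Field F] [Algebra E F] [Algebra A₀ F] [IsScalarTower A₀ E F] [Field F₁]
  {π : A₀} {κ : Type*}

/-- `E ⊆ B_u[1/π]` -/
theorem s36pab_hE (hπ : Irreducible π) (u : F) (e : E) :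
    ∃ (n : ℕ) (a : ↥(zchClosure (A₀ := A₀) ({u} : Set F))),
      algebraMap E F e *
        algebraMap ↥(zchClosure (A₀ := A₀) ({u} : Set F)) F
          (algebraMap A₀ ↥(zchClosure (A₀ := A₀) ({u} : Set F)) π) ^ n =
      algebraMap ↥(zchClosure (A₀ := A₀) ({u} : Set F)) F a := by
  obtain ⟨a, s, hs, rfl⟩ := IsFractionRing.div_surjective (A := A₀) e
  have hs0 : s ≠ 0 := nonZeroDivisors.ne_zero hs
  obtain ⟨n, hn⟩ := IsDiscreteValuationRing.associated_pow_irreducible hs0 hπ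
  obtain ⟨w, hw⟩ := hn.symm
  -- `π ^ n * w = s`
  refine ⟨n, algebraMap A₀ ↥(zchClosure (A₀ := A₀) ({u} : Set F)) (a * ((w⁻¹ : A₀ˣ) : A₀)), ?_⟩
  have hsE : algebraMap A₀ E s ≠ 0 := by
    rw [Ne, map_eq_zero_iff _ (IsFractionRing.injective A₀ E)]
    exact hs0
  have h1 : algebraMap A₀ E a / algebraMap A₀ E s * algebraMap A₀ E π ^ n =
      algebraMap A₀ E (a * ((w⁻¹ : A₀ˣ) : A₀)) := by
    rw [div_mul_eq_mul_div, div_eq_iff hsE, ← map_pow, ← map_mul, ← map_mul, ← hw]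
    congr 1
    have : ((w⁻¹ : A₀ˣ) : A₀) * (w : A₀) = 1 := Units.inv_mul w
    linear_combination (-(a * π ^ n)) * this
  have h2 := congrArg (algebraMap E F) h1
  rw [map_mul, map_pow, ← IsScalarTower.algebraMap_apply A₀ E F,
    ← IsScalarTower.algebraMap_apply A₀ E F] at h2
  exact h2

/-- `F = Frac B_u` -/
theorem s36pab_hfrac (u : F) [FiniteDimensional E⟮u⟯ F] (x : F) :
    ∃ a b : ↥(zchClosure (A₀ := A₀) ({u} : Set F)), b ≠ 0 ∧
      x * algebraMap ↥(zchClosure (A₀ := A₀) ({u} : Set F)) F b =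
        algebraMap ↥(zchClosure (A₀ := A₀) ({u} : Set F)) F a := by
  obtain ⟨y, hy0, hy⟩ := (ad_isAlgebraic (A₀ := A₀) (E := E) u x).exists_integral_multiple
  refine ⟨⟨y • x, mem_zchClosure.mpr hy⟩,
    ⟨(y : F), mem_zchClosure.mpr (isIntegral_algebraMap (x := y))⟩, ?_, ?_⟩
  · intro h0
    apply hy0
    apply Subtype.ext
    have h1 := congrArg (fun z : ↥(zchClosure (A₀ := A₀) ({u} : Set F)) => (z : F)) h0
    exact h1
  · show x * (y : F) = y • x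
    rw [Algebra.smul_def, mul_comm]
    rfl

/-- (KR), chart form -/
theorem s36pab_hKR {u : F} (V : κ → ValuationSubring F)
    (hKR : ∀ x : F, IsIntegral ↥(Algebra.adjoin A₀ {u}) (algebraMap A₀ F π * x) →
      (∀ c, x ∈ V c) → IsIntegral ↥(Algebra.adjoin A₀ {u}) x)
    (x : F)
    (hx : ∃ b : ↥(zchClosure (A₀ := A₀) ({u} : Set F)),
      algebraMap ↥(zchClosure (A₀ := A₀) ({u} : Set F)) F
          (algebraMap A₀ ↥(zchClosure (A₀ := A₀) ({u} : Set F)) π) * x =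
        algebraMap ↥(zchClosure (A₀ := A₀) ({u} : Set F)) F b)
    (hV : ∀ c, x ∈ V c) :
    ∃ b : ↥(zchClosure (A₀ := A₀) ({u} : Set F)),
      x = algebraMap ↥(zchClosure (A₀ := A₀) ({u} : Set F)) F b := by
  obtain ⟨b, hb⟩ := hx
  have h1 : IsIntegral ↥(Algebra.adjoin A₀ {u}) (algebraMap A₀ F π * x) := by
    have h2 : algebraMap A₀ F π * x = (b : F) := hb
    rw [h2]
    exact mem_zchClosure.mp b.2
  exact ⟨⟨x, mem_zchClosure.mpr (hKR x h1 hV)⟩, rfl⟩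

/-- `hVloc`, chart form -/
theorem s36pab_hVloc {u : F} (W : ValuationSubring F)
    (hVloc : ∀ x : F, x ∈ W → ∃ b s : F, IsIntegral ↥(Algebra.adjoin A₀ {u}) b ∧
      IsIntegral ↥(Algebra.adjoin A₀ {u}) s ∧ s ∉ W.nonunits ∧ s * x = b)
    (x : F) (hx : x ∈ W) :
    ∃ b s : ↥(zchClosure (A₀ := A₀) ({u} : Set F)),
      algebraMap ↥(zchClosure (A₀ := A₀) ({u} : Set F)) F s ∉ W.nonunits ∧
      algebraMap ↥(zchClosure (A₀ := A₀) ({u} : Set F)) F s * x =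
        algebraMap ↥(zchClosure (A₀ := A₀) ({u} : Set F)) F b := by
  obtain ⟨b, s, hb, hs, hsW, hsx⟩ := hVloc x hx
  exact ⟨⟨b, mem_zchClosure.mpr hb⟩, ⟨s, mem_zchClosure.mpr hs⟩, hsW, hsx⟩

/-- **`S36PtInput` at a closed point of the chart `u` with ONE component of multiplicity one**
(`π` a uniformizer of `V c₁`): `s36n2p_ptInput_one` with `X = π`, `Y = 1`. -/
theorem s36pab_one [Finite κ] (hπ : Irreducible π) {u : F} [FiniteDimensional E⟮u⟯ F]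
    [IsNoetherianRing ↥(zchClosure (A₀ := A₀) ({u} : Set F))]
    (V : κ → ValuationSubring F)
    (hBV : ∀ c (b : F), IsIntegral ↥(Algebra.adjoin A₀ {u}) b → b ∈ V c)
    (hπV : ∀ c, algebraMap A₀ F π ∈ (V c).nonunits)
    (hKR : ∀ x : F, IsIntegral ↥(Algebra.adjoin A₀ {u}) (algebraMap A₀ F π * x) →
      (∀ c, x ∈ V c) → IsIntegral ↥(Algebra.adjoin A₀ {u}) x)
    (Q : ℕ) (hram : ∀ c (x : F), x ∈ (V c).nonunits →
      ∃ z ∈ V c, x ^ Q = algebraMap A₀ F π * z)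
    (𝔫 : AtPt (F := F) π u) (c₁ : κ) (hc₁ : atThrough 𝔫 (V c₁))
    (honly : ∀ c, atThrough 𝔫 (V c) → c = c₁)
    (hVloc : ∀ x : F, x ∈ V c₁ → ∃ b s : F, IsIntegral ↥(Algebra.adjoin A₀ {u}) b ∧
      IsIntegral ↥(Algebra.adjoin A₀ {u}) s ∧ s ∉ (V c₁).nonunits ∧ s * x = b)
    {Y₀ : ↥(zchClosure (A₀ := A₀) ({u} : Set F))} (hY₀ : Y₀ ∈ 𝔫.1)
    (hgen : S36n2pGen 𝔫.1 (V c₁) Y₀)
    (hU : ∀ x ∈ (V c₁).nonunits, ∃ z ∈ V c₁, x = algebraMap A₀ F π * z)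
    (Hor : F → Prop) (m : ℕ) (hHor : ∀ y, Hor y → ∀ P : Place E F, (m : ℤ) ∣ P.ord y)
    (α β : F₁ →+* F) (Nα Nβ : F →* F₁) (ζ₁ : F₁) (ca cb cc : κ) :
    @S36PtInput F₁ F _ _ κ Hor m α β Nα Nβ ζ₁ V ca cb cc (atLoc 𝔫)
      (haveI := 𝔫.2.1.isPrime
       ls_localSubring_isLocalRing (F := F)
        (B := ↥(zchClosure (A₀ := A₀) ({u} : Set F))) Subtype.val_injective 𝔫.1)
      (fun c => atThrough 𝔫 (V c)) := by
  haveI := 𝔫.2.1.isPrime
  have hπ0 : algebraMap A₀ F π ≠ 0 := ei_algebraMap_ne_zero (E := E) hπ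
  exact s36n2p_ptInput_one (E := E) (B := ↥(zchClosure (A₀ := A₀) ({u} : Set F)))
    Subtype.val_injective 𝔫.1 V (fun c b => hBV c _ (mem_zchClosure.mp b.2))
    (algebraMap A₀ ↥(zchClosure (A₀ := A₀) ({u} : Set F)) π)
    (s36pab_hKR V hKR) Q hram hπ0 hπV (s36pab_hE hπ u) (s36pab_hfrac (E := E) u)
    c₁ hc₁ honly (s36pab_hVloc (V c₁) hVloc) hY₀ hgen
    (s36n2pToLoc (F := F) 𝔫.1 (algebraMap A₀ ↥(zchClosure (A₀ := A₀) ({u} : Set F)) π)) 1
    (mul_one _) (hπV c₁) hU Hor m hHor α β Nα Nβ ζ₁ ca cb cc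

/-- `s36pab_one` in the shape of `hpts` of `s36tb_small`, chart `t`. -/
theorem s36pab_one_inl [Finite κ] (hπ : Irreducible π) {t : F} [FiniteDimensional E⟮t⟯ F]
    [IsNoetherianRing ↥(zchClosure (A₀ := A₀) ({t} : Set F))]
    (V : κ → ValuationSubring F)
    (hBV : ∀ c (b : F), IsIntegral ↥(Algebra.adjoin A₀ {t}) b → b ∈ V c)
    (hπV : ∀ c, algebraMap A₀ F π ∈ (V c).nonunits)
    (hKR : ∀ x : F, IsIntegral ↥(Algebra.adjoin A₀ {t}) (algebraMap A₀ F π * x) →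
      (∀ c, x ∈ V c) → IsIntegral ↥(Algebra.adjoin A₀ {t}) x)
    (Q : ℕ) (hram : ∀ c (x : F), x ∈ (V c).nonunits →
      ∃ z ∈ V c, x ^ Q = algebraMap A₀ F π * z)
    (𝔫 : AtPt (F := F) π t) (c₁ : κ) (hc₁ : atThrough 𝔫 (V c₁))
    (honly : ∀ c, atThrough 𝔫 (V c) → c = c₁)
    (hVloc : ∀ x : F, x ∈ V c₁ → ∃ b s : F, IsIntegral ↥(Algebra.adjoin A₀ {t}) b ∧
      IsIntegral ↥(Algebra.adjoin A₀ {t}) s ∧ s ∉ (V c₁).nonunits ∧ s * x = b)
    {Y₀ : ↥(zchClosure (A₀ := A₀) ({t} : Set F))} (hY₀ : Y₀ ∈ 𝔫.1)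
    (hgen : S36n2pGen 𝔫.1 (V c₁) Y₀)
    (hU : ∀ x ∈ (V c₁).nonunits, ∃ z ∈ V c₁, x = algebraMap A₀ F π * z)
    (Hor : F → Prop) (m : ℕ) (hHor : ∀ y, Hor y → ∀ P : Place E F, (m : ℤ) ∣ P.ord y)
    (α β : F₁ →+* F) (Nα Nβ : F →* F₁) (ζ₁ : F₁) (ca cb cc : κ) :
    @S36PtInput F₁ F _ _ κ Hor m α β Nα Nβ ζ₁ V ca cb cc (atO π t (Sum.inl 𝔫))
      (stb_atO_isLocalRing (π := π) t (Sum.inl 𝔫)) (atInc π t V (Sum.inl 𝔫)) :=
  s36pab_one hπ V hBV hπV hKR Q hram 𝔫 c₁ hc₁ honly hVloc hY₀ hgen hU Hor m hHor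
    α β Nα Nβ ζ₁ ca cb cc

/-- `s36pab_one` in the shape of `hpts` of `s36tb_small`, chart `t⁻¹`. -/
theorem s36pab_one_inr [Finite κ] (hπ : Irreducible π) {t : F} [FiniteDimensional E⟮t⁻¹⟯ F]
    [IsNoetherianRing ↥(zchClosure (A₀ := A₀) ({t⁻¹} : Set F))]
    (V : κ → ValuationSubring F)
    (hBV : ∀ c (b : F), IsIntegral ↥(Algebra.adjoin A₀ {t⁻¹}) b → b ∈ V c)
    (hπV : ∀ c, algebraMap A₀ F π ∈ (V c).nonunits)
    (hKR : ∀ x : F, IsIntegral ↥(Algebra.adjoin A₀ {t⁻¹}) (algebraMap A₀ F π * x) →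
      (∀ c, x ∈ V c) → IsIntegral ↥(Algebra.adjoin A₀ {t⁻¹}) x)
    (Q : ℕ) (hram : ∀ c (x : F), x ∈ (V c).nonunits →
      ∃ z ∈ V c, x ^ Q = algebraMap A₀ F π * z)
    (𝔫 : AtPt (F := F) π t⁻¹) (c₁ : κ) (hc₁ : atThrough 𝔫 (V c₁))
    (honly : ∀ c, atThrough 𝔫 (V c) → c = c₁)
    (hVloc : ∀ x : F, x ∈ V c₁ → ∃ b s : F, IsIntegral ↥(Algebra.adjoin A₀ {t⁻¹}) b ∧
      IsIntegral ↥(Algebra.adjoin A₀ {t⁻¹}) s ∧ s ∉ (V c₁).nonunits ∧ s * x = b)
    {Y₀ : ↥(zchClosure (A₀ := A₀) ({t⁻¹} : Set F))} (hY₀ : Y₀ ∈ 𝔫.1)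
    (hgen : S36n2pGen 𝔫.1 (V c₁) Y₀)
    (hU : ∀ x ∈ (V c₁).nonunits, ∃ z ∈ V c₁, x = algebraMap A₀ F π * z)
    (Hor : F → Prop) (m : ℕ) (hHor : ∀ y, Hor y → ∀ P : Place E F, (m : ℤ) ∣ P.ord y)
    (α β : F₁ →+* F) (Nα Nβ : F →* F₁) (ζ₁ : F₁) (ca cb cc : κ) :
    @S36PtInput F₁ F _ _ κ Hor m α β Nα Nβ ζ₁ V ca cb cc (atO π t (Sum.inr 𝔫))
      (stb_atO_isLocalRing (π := π) t (Sum.inr 𝔫)) (atInc π t V (Sum.inr 𝔫)) :=
  s36pab_one hπ V hBV hπV hKR Q hram 𝔫 c₁ hc₁ honly hVloc hY₀ hgen hU Hor m hHor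
    α β Nα Nβ ζ₁ ca cb cc

end One

section Gen

variable {F : Type*} [Field F] {B : Type*} [CommRing B] [Algebra B F]
  {C : Type*} [CommRing C]

/-- **The local parameter of a branch from the chart of the level below**, existence form:
`g : C → B` an INTEGRAL chart homomorphism, `(F1) : B = g C + 𝔭_V`, `C` regular along its special
fibre (`reg` = `RegChart.locGen`): at every maximal ideal `𝔫 ⊇ 𝔭_V` of `B` there is `s : C` with
`g s ∈ 𝔫` and `S36n2pGen 𝔫 V (g s)`. -/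
theorem s36pab_gen_of_lower (g : C →+* B) (hg : g.IsIntegral) (𝔫 : Ideal B) (h𝔫 : 𝔫.IsMaximal)
    (V : ValuationSubring F) (hBV : ∀ b : B, algebraMap B F b ∈ V)
    (hthrough : ∀ b : B, algebraMap B F b ∈ V.nonunits → b ∈ 𝔫)
    (hF1 : ∀ b : B, ∃ c : C, algebraMap B F (b - g c) ∈ V.nonunits)
    (π' : C) (hπ' : algebraMap B F (g π') ∈ V.nonunits)
    (reg : ∀ 𝔪 : Ideal C, 𝔪.IsMaximal → π' ∈ 𝔪 → ∃ s ∈ 𝔪, NodesLocGen 𝔪 {π', s}) :
    ∃ s : C, g s ∈ 𝔫 ∧ S36n2pGen 𝔫 V (g s) := by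
  have hmax : (𝔫.comap g).IsMaximal :=
    Ideal.isMaximal_comap_of_isIntegral_of_isMaximal' g hg 𝔫
  obtain ⟨s, hs, hgen⟩ := reg (𝔫.comap g) hmax (hthrough _ hπ')
  exact ⟨s, hs, s36n2p_gen_of_lower g 𝔫 V hBV hthrough hF1 π' s hπ' hgen⟩

/-- an `A₀`-algebra homomorphism into the integral closure of `A₀[u]` which hits `u` is
integral -/
theorem s36pab_isIntegral_of_mem_range {A₀ : Type*} [CommRing A₀] [Algebra A₀ F] [Algebra A₀ C]
    {u : F} (S : Subalgebra A₀ F)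
    (hS : ∀ x ∈ S, IsIntegral ↥(Algebra.adjoin A₀ ({u} : Set F)) x)
    (g : C →ₐ[A₀] ↥S) (c₀ : C) (hc₀ : ((g c₀ : ↥S) : F) = u) :
    (g : C →+* ↥S).IsIntegral := by
  intro b
  -- `b` is integral over `A₀[u]`, and `A₀[u] ⊆ g C`
  obtain ⟨p, hp, hpb⟩ := hS (b : F) b.2
  -- lift the coefficients of `p` to `C`
  have hlift' : ∀ y : F, y ∈ Algebra.adjoin A₀ ({u} : Set F) → ∃ c : C, ((g c : ↥S) : F) = y := by
    intro y hy
    induction hy using Algebra.adjoin_induction with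
    | mem x hx =>
      rw [Set.mem_singleton_iff] at hx
      exact ⟨c₀, by rw [hc₀, hx]⟩
    | algebraMap a => exact ⟨algebraMap A₀ C a, by rw [AlgHom.commutes]; rfl⟩
    | add x y _ _ hx hy =>
      obtain ⟨cx, hcx⟩ := hx
      obtain ⟨cy, hcy⟩ := hy
      exact ⟨cx + cy, by rw [map_add, Subalgebra.coe_add, hcx, hcy]⟩
    | mul x y _ _ hx hy =>
      obtain ⟨cx, hcx⟩ := hx
      obtain ⟨cy, hcy⟩ := hy
      exact ⟨cx * cy, by rw [map_mul, Subalgebra.coe_mul, hcx, hcy]⟩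
  have hlift : ∀ y : ↥(Algebra.adjoin A₀ ({u} : Set F)), ∃ c : C, ((g c : ↥S) : F) = (y : F) :=
    fun y => hlift' (y : F) y.2
  have hmemS : ∀ y : ↥(Algebra.adjoin A₀ ({u} : Set F)), (y : F) ∈ S := by
    intro y
    obtain ⟨c, hc⟩ := hlift y
    rw [← hc]
    exact (g c).2
  let ι : ↥(Algebra.adjoin A₀ ({u} : Set F)) →+* ↥S :=
    { toFun := fun y => ⟨(y : F), hmemS y⟩
      map_one' := rfl
      map_mul' := fun _ _ => rfl
      map_zero' := rfl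
      map_add' := fun _ _ => rfl }
  choose f hf using hlift
  have hPm : (p.map ι).Monic := hp.map _
  have hPl : p.map ι ∈ Polynomial.lifts (g : C →+* ↥S) := by
    rw [Polynomial.lifts_iff_coeff_lifts]
    intro i
    refine ⟨f (p.coeff i), Subtype.ext ?_⟩
    rw [Polynomial.coeff_map]
    exact hf (p.coeff i)
  obtain ⟨Q, hQ, -, hQm⟩ := Polynomial.lifts_and_natDegree_eq_and_monic hPl hPm
  refine ⟨Q, hQm, ?_⟩
  rw [← Polynomial.eval_map, hQ, Polynomial.eval_map]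
  apply Subtype.ext
  have h1 := Polynomial.hom_eval₂ p ι S.val.toRingHom b
  have h2 : (S.val.toRingHom.comp ι) = algebraMap ↥(Algebra.adjoin A₀ ({u} : Set F)) F :=
    RingHom.ext fun _ => rfl
  rw [h2] at h1
  exact h1.trans hpb

end Gen

end Fermat.Agent.S36
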