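/-
S36 (Carayol at `q² ∥ M`), geometric clause, (I6)(e) (helper31): CLASSIFICATION of the closed
points of the chart `j` of level `M q²` and ASSEMBLY of `h₁` (the chart-`j` half of `hpts`).

* `s36pa_le_of_uniq`      : if `𝔫` is the only prime of `S` over `𝔫 ∩ R` (`R → S` integral),
                            every ideal of `S` whose contraction lies in `𝔫 ∩ R` lies in `𝔫`.
* `s36pa_through_of_uniq` : valuation form: `V′` through `𝔫`, `V ∩ F₁ = V′ ∩ F₁` (along `φ`),
                            `𝔫` unique over its contraction ⇒ `V` through `𝔫`.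
* `s36pa_classify`        : pure logic: "at least one" + "two ⇒ three" ⇒ "exactly one, or all
                            three".
* `s36pa_h1`              : `S36PtInput` at every closed point of the chart `t`, from the four
                            case theorems (one-component points of `C_a`, `C_b`, `C_c`; triple
                            points) and the incidence facts.
-/
import Fermat.Agent.S36.TopAbsDef
import Fermat.Agent.S36.AbstractQ

set_option autoImplicit false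
set_option linter.unusedSectionVars false
set_option linter.unusedVariables false
set_option linter.style.haveILetI false

namespace Fermat.Agent.S36

open Fermat.Agent.UNIP Fermat.Agent.STB

section Abs

variable {R S : Type*} [CommRing R] [CommRing S]

/-- **Lying-over + uniqueness.**  If `𝔫` is the only prime of `S` over `𝔫 ∩ R`, every ideal of
`S` whose contraction is contained in `𝔫 ∩ R` is contained in `𝔫`. -/
theorem s36pa_le_of_uniq (g : R →+* S) (hg : g.IsIntegral) (𝔫 : Ideal S) [𝔫.IsPrime]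
    (huniq : ∀ 𝔫₂ : Ideal S, 𝔫₂.IsPrime → 𝔫₂.comap g = 𝔫.comap g → 𝔫₂ = 𝔫)
    (P : Ideal S) (hP : P.comap g ≤ 𝔫.comap g) : P ≤ 𝔫 := by
  letI : Algebra R S := g.toAlgebra
  haveI : Algebra.IsIntegral R S := ⟨hg⟩
  haveI : (𝔫.comap g).IsPrime := Ideal.comap_isPrime _ _
  obtain ⟨Q, hQ, hQ', eQ⟩ :=
    Ideal.exists_ideal_over_prime_of_isIntegral (R := R) (S := S) (𝔫.comap g) P hP
  rw [← huniq Q hQ' eQ]
  exact hQ

variable {F₁ F : Type*} [Field F₁] [Field F] [Algebra S F]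

/-- membership in the nonunits of a restriction -/
theorem s36pa_mem_nonunits_comap (φ : F₁ →+* F) (V : ValuationSubring F) (x : F₁) :
    x ∈ (V.comap φ).nonunits ↔ φ x ∈ V.nonunits := by
  rw [ValuationSubring.mem_nonunits_iff_exists_mem_maximalIdeal,
    ValuationSubring.mem_nonunits_iff_exists_mem_maximalIdeal]
  constructor
  · rintro ⟨hx, hm⟩
    have hxV : φ x ∈ V := hx
    refine ⟨hxV, ?_⟩
    rw [IsLocalRing.mem_maximalIdeal, mem_nonunits_iff] at hm ⊢
    intro hu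
    apply hm
    obtain ⟨⟨u, v, huv, hvu⟩, hu'⟩ := hu
    have hu1 : (u : F) = φ x := congrArg Subtype.val hu'
    have hx0 : x ≠ 0 := by
      rintro rfl
      rw [map_zero] at hu1
      have : (u : F) * (v : F) = 1 := congrArg Subtype.val huv
      rw [hu1, zero_mul] at this
      exact zero_ne_one this
    have hv1 : (v : F) = φ x⁻¹ := by
      have h1 : (u : F) * (v : F) = 1 := congrArg Subtype.val huv
      rw [hu1] at h1
      rw [map_inv₀]
      exact eq_inv_of_mul_eq_one_right h1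
    have hxinv : x⁻¹ ∈ V.comap φ := by
      show φ x⁻¹ ∈ V
      rw [← hv1]
      exact v.2
    refine ⟨⟨⟨x, hx⟩, ⟨x⁻¹, hxinv⟩, ?_, ?_⟩, rfl⟩
    · apply Subtype.ext
      exact mul_inv_cancel₀ hx0
    · apply Subtype.ext
      exact inv_mul_cancel₀ hx0
  · rintro ⟨hx, hm⟩
    have hxW : x ∈ V.comap φ := hx
    refine ⟨hxW, ?_⟩
    rw [IsLocalRing.mem_maximalIdeal, mem_nonunits_iff] at hm ⊢
    intro hu
    apply hm
    obtain ⟨⟨u, v, huv, hvu⟩, hu'⟩ := hu
    have hu1 : (u : F₁) = x := congrArg Subtype.val hu'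
    have h1 : (u : F₁) * (v : F₁) = 1 := congrArg Subtype.val huv
    have h2 : (v : F₁) * (u : F₁) = 1 := congrArg Subtype.val hvu
    refine ⟨⟨⟨φ x, hx⟩, ⟨φ v, v.2⟩, ?_, ?_⟩, rfl⟩
    · apply Subtype.ext
      show φ x * φ v = 1
      rw [← map_mul, ← hu1, h1, map_one]
    · apply Subtype.ext
      show φ v * φ x = 1
      rw [← map_mul, ← hu1, h2, map_one]

/-- the centre `𝔪(V) ∩ S` of a valuation ring `V ⊇ S` -/
def s36paCentre (V : ValuationSubring F) (hSV : ∀ s : S, algebraMap S F s ∈ V) : Ideal S :=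
  (IsLocalRing.maximalIdeal ↥V).comap
    ((algebraMap S F).codRestrict V.toSubring hSV)

theorem s36pa_mem_centre (V : ValuationSubring F) (hSV : ∀ s : S, algebraMap S F s ∈ V)
    (s : S) : s ∈ s36paCentre V hSV ↔ algebraMap S F s ∈ V.nonunits := by
  rw [s36paCentre, Ideal.mem_comap, ValuationSubring.mem_nonunits_iff_exists_mem_maximalIdeal]
  constructor
  · intro h
    exact ⟨hSV s, h⟩
  · rintro ⟨_, h⟩
    exact h

/-- **Valuation form.**  `V′` through `𝔫`, `V` and `V′` have the same restriction to `F₁`,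
`𝔫` is the only prime over its contraction: then `V` passes through `𝔫`. -/
theorem s36pa_through_of_uniq (g : R →+* S) (hg : g.IsIntegral) (ρ : R →+* F₁)
    (φ : F₁ →+* F) (hφ : ∀ r : R, φ (ρ r) = algebraMap S F (g r))
    (𝔫 : Ideal S) [𝔫.IsPrime]
    (huniq : ∀ 𝔫₂ : Ideal S, 𝔫₂.IsPrime → 𝔫₂.comap g = 𝔫.comap g → 𝔫₂ = 𝔫)
    (V V' : ValuationSubring F) (hSV : ∀ s : S, algebraMap S F s ∈ V)
    (hcomap : V.comap φ = V'.comap φ)
    (hthr' : ∀ s : S, algebraMap S F s ∈ V'.nonunits → s ∈ 𝔫) :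
    ∀ s : S, algebraMap S F s ∈ V.nonunits → s ∈ 𝔫 := by
  have key : s36paCentre V hSV ≤ 𝔫 := by
    refine s36pa_le_of_uniq g hg 𝔫 huniq _ ?_
    intro r hr
    rw [Ideal.mem_comap, s36pa_mem_centre, ← hφ, ← s36pa_mem_nonunits_comap, hcomap,
      s36pa_mem_nonunits_comap, hφ] at hr
    exact hthr' _ hr
  intro s hs
  exact key ((s36pa_mem_centre V hSV s).mpr hs)

end Abs

section Logic

variable {κ : Type*}

/-- **Classification, pure logic.** -/
theorem s36pa_classify (thr : κ → Prop) (ca cb cc : κ) (hκ : ∀ c, c = ca ∨ c = cb ∨ c = cc)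
    (h1 : ∃ c, thr c) (hab : thr ca → thr cb → thr cc) (hac : thr ca → thr cc → thr cb)
    (hbc : thr cb → thr cc → thr ca) :
    (thr ca ∧ ∀ c, thr c → c = ca) ∨ (thr cb ∧ ∀ c, thr c → c = cb) ∨
      (thr cc ∧ ∀ c, thr c → c = cc) ∨ (∀ c, thr c) := by
  classical
  by_cases ha : thr ca <;> by_cases hb : thr cb <;> by_cases hc : thr cc
  · right; right; right
    intro c
    rcases hκ c with rfl | rfl | rfl <;> assumption
  · exact absurd (hab ha hb) hc
  · exact absurd (hac ha hc) hb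
  · left
    refine ⟨ha, fun c hcthr => ?_⟩
    rcases hκ c with rfl | rfl | rfl
    · rfl
    · exact absurd hcthr hb
    · exact absurd hcthr hc
  · exact absurd (hbc hb hc) ha
  · right; left
    refine ⟨hb, fun c hcthr => ?_⟩
    rcases hκ c with rfl | rfl | rfl
    · exact absurd hcthr ha
    · rfl
    · exact absurd hcthr hc
  · right; right; left
    refine ⟨hc, fun c hcthr => ?_⟩
    rcases hκ c with rfl | rfl | rfl
    · exact absurd hcthr ha
    · exact absurd hcthr hb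
    · rfl
  · obtain ⟨c, hcthr⟩ := h1
    rcases hκ c with rfl | rfl | rfl
    · exact absurd hcthr ha
    · exact absurd hcthr hb
    · exact absurd hcthr hc

end Logic

section Chart

variable {A₀ E F F₁ : Type*} [CommRing A₀] [IsDomain A₀] [IsDiscreteValuationRing A₀]
  [Field E] [Algebra A₀ E] [IsFractionRing A₀ E] [Field F] [Algebra E F] [Algebra A₀ F]
  [IsScalarTower A₀ E F] [Field F₁] {κ : Type*} {π : A₀}

/-- **`h₁`** : `S36PtInput` at every closed point of the chart `t`, from the case theorems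
(a) one-component points of `C_a`, (a′) of `C_b`, (b) of `C_c`, (c) triple points, and the
incidence facts "at least one" (`aq_hpt`) and "two ⇒ three". -/
theorem s36pa_h1 {t : F} (V : κ → ValuationSubring F)
    (ca cb cc : κ) (hκ : ∀ c, c = ca ∨ c = cb ∨ c = cc)
    {Hor : F → Prop} {m : ℕ} {α β : F₁ →+* F} {Nα Nβ : F →* F₁} {ζ₁ : F₁}
    (hpt : ∀ 𝔫 : AtPt (F := F) π t, ∃ c, atThrough 𝔫 (V c))
    (hab : ∀ 𝔫 : AtPt (F := F) π t, atThrough 𝔫 (V ca) → atThrough 𝔫 (V cb) →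
      atThrough 𝔫 (V cc))
    (hac : ∀ 𝔫 : AtPt (F := F) π t, atThrough 𝔫 (V ca) → atThrough 𝔫 (V cc) →
      atThrough 𝔫 (V cb))
    (hbc : ∀ 𝔫 : AtPt (F := F) π t, atThrough 𝔫 (V cb) → atThrough 𝔫 (V cc) →
      atThrough 𝔫 (V ca))
    (hA : ∀ 𝔫 : AtPt (F := F) π t, atThrough 𝔫 (V ca) → (∀ c, atThrough 𝔫 (V c) → c = ca) →
      @S36PtInput F₁ F _ _ κ Hor m α β Nα Nβ ζ₁ V ca cb cc (atO π t (Sum.inl 𝔫))
        (stb_atO_isLocalRing (π := π) t (Sum.inl 𝔫)) (atInc π t V (Sum.inl 𝔫)))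
    (hB : ∀ 𝔫 : AtPt (F := F) π t, atThrough 𝔫 (V cb) → (∀ c, atThrough 𝔫 (V c) → c = cb) →
      @S36PtInput F₁ F _ _ κ Hor m α β Nα Nβ ζ₁ V ca cb cc (atO π t (Sum.inl 𝔫))
        (stb_atO_isLocalRing (π := π) t (Sum.inl 𝔫)) (atInc π t V (Sum.inl 𝔫)))
    (hC : ∀ 𝔫 : AtPt (F := F) π t, atThrough 𝔫 (V cc) → (∀ c, atThrough 𝔫 (V c) → c = cc) →
      @S36PtInput F₁ F _ _ κ Hor m α β Nα Nβ ζ₁ V ca cb cc (atO π t (Sum.inl 𝔫))
        (stb_atO_isLocalRing (π := π) t (Sum.inl 𝔫)) (atInc π t V (Sum.inl 𝔫)))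
    (hT : ∀ 𝔫 : AtPt (F := F) π t, (∀ c, atThrough 𝔫 (V c)) →
      @S36PtInput F₁ F _ _ κ Hor m α β Nα Nβ ζ₁ V ca cb cc (atO π t (Sum.inl 𝔫))
        (stb_atO_isLocalRing (π := π) t (Sum.inl 𝔫)) (atInc π t V (Sum.inl 𝔫))) :
    ∀ 𝔫 : AtPt (F := F) π t,
      @S36PtInput F₁ F _ _ κ Hor m α β Nα Nβ ζ₁ V ca cb cc (atO π t (Sum.inl 𝔫))
        (stb_atO_isLocalRing (π := π) t (Sum.inl 𝔫)) (atInc π t V (Sum.inl 𝔫)) := by
  intro 𝔫
  rcases s36pa_classify (fun c => atThrough 𝔫 (V c)) ca cb cc hκ (hpt 𝔫) (hab 𝔫) (hac 𝔫)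
    (hbc 𝔫) with h | h | h | h
  · exact hA 𝔫 h.1 h.2
  · exact hB 𝔫 h.1 h.2
  · exact hC 𝔫 h.1 h.2
  · exact hT 𝔫 h

end Chart

end Fermat.Agent.S36
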