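/-
S36 (Carayol at `q² ∥ M`), geometric clause, (I6)(e) (helper31), part 2: UNIQUENESS of the point
over its image along a degeneracy map, at every point of the purely inseparable component.

* `s36pa_hprime` : every PRIME `𝔮 ∋ π` of the chart contains the centre of some component
                   (`aq_hpt` for primes), from (KR) + (RAM).
* `s36pa_huniq`  : abstract.  `g : R → S` integral, injective, `R` integrally closed;
                   `V c₃` the component which is alone over its image (`hsep`) and purely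
                   inseparable over it (`hins`): every prime `𝔫 ⊇ 𝔭_{c₃}` of `S` is the ONLY
                   prime of `S` over `𝔫 ∩ R`.
-/
import Fermat.Agent.S36.PtsAll
import Fermat.Agent.S36.Incidence

set_option autoImplicit false
set_option linter.unusedSectionVars false
set_option linter.unusedVariables false
set_option linter.style.haveILetI false

namespace Fermat.Agent.S36

open Polynomial IntermediateField Fermat.Agent.INJ AlgebraicCurve Fermat.Agent.UNIP Fermat.Agent.STB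

section Prime

variable {A₀ E F : Type*} [CommRing A₀] [IsDomain A₀] [IsDiscreteValuationRing A₀]
  [Field E] [Algebra A₀ E] [IsFractionRing A₀ E] [Field F] [Algebra E F] [Algebra A₀ F]
  [IsScalarTower A₀ E F] {κ : Type*} {π : A₀}

/-- **`hpt` for primes**: every prime of the chart containing `π` contains the centre of some
component, by (KR) + (RAM). -/
theorem s36pa_hprime [Finite κ] {u : F} (V : κ → ValuationSubring F)
    (hBV : ∀ c (b : F), IsIntegral ↥(Algebra.adjoin A₀ {u}) b → b ∈ V c)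
    (hKR : ∀ x : F, IsIntegral ↥(Algebra.adjoin A₀ {u}) (algebraMap A₀ F π * x) →
      (∀ c, x ∈ V c) → IsIntegral ↥(Algebra.adjoin A₀ {u}) x)
    {Q : ℕ}
    (hram : ∀ c (x : F), x ∈ (V c).nonunits → ∃ z ∈ V c, x ^ Q = algebraMap A₀ F π * z)
    (hπ0 : algebraMap A₀ F π ≠ 0)
    (𝔮 : Ideal ↥(zchClosure (A₀ := A₀) ({u} : Set F))) [𝔮.IsPrime]
    (hπ𝔮 : algebraMap A₀ ↥(zchClosure (A₀ := A₀) ({u} : Set F)) π ∈ 𝔮) :
    ∃ c, ∀ b : ↥(zchClosure (A₀ := A₀) ({u} : Set F)), (b : F) ∈ (V c).nonunits → b ∈ 𝔮 := by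
  classical
  by_contra hcon
  simp only [not_exists, not_forall] at hcon
  choose f hf hf' using hcon
  haveI : Fintype κ := Fintype.ofFinite κ
  set g : ↥(zchClosure (A₀ := A₀) ({u} : Set F)) := ∏ c' : κ, f c' with hg
  have hprod : ∀ c, (g : F) ∈ (V c).nonunits := by
    intro c
    have e : (g : F) = ((∏ c' ∈ Finset.univ.erase c, f c' :
        ↥(zchClosure (A₀ := A₀) ({u} : Set F))) : F) * (f c : F) := by
      rw [hg, ← Finset.mul_prod_erase Finset.univ f (Finset.mem_univ c), mul_comm]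
      rfl
    rw [e]
    exact pwi_mul_mem_nonunits (V c)
      (hBV c _ (mem_zchClosure.mp (∏ c' ∈ Finset.univ.erase c, f c').2)) (hf c)
  have hint : IsIntegral ↥(Algebra.adjoin A₀ {u}) ((g : F) ^ Q / algebraMap A₀ F π) := by
    apply hKR
    · have e : algebraMap A₀ F π * ((g : F) ^ Q / algebraMap A₀ F π) = ((g ^ Q :
          ↥(zchClosure (A₀ := A₀) ({u} : Set F))) : F) := by
        push_cast; field_simp
      rw [e]
      exact mem_zchClosure.mp (g ^ Q).2
    · intro c
      obtain ⟨z, hz, hgz⟩ := hram c _ (hprod c)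
      have : (g : F) ^ Q / algebraMap A₀ F π = z := by
        rw [hgz]; field_simp
      rw [this]
      exact hz
  have hmem : g ^ Q ∈ 𝔮 := by
    have e : g ^ Q = algebraMap A₀ ↥(zchClosure (A₀ := A₀) ({u} : Set F)) π *
        ⟨(g : F) ^ Q / algebraMap A₀ F π, mem_zchClosure.mpr hint⟩ := by
      apply Subtype.ext
      push_cast
      show (g : F) ^ Q = algebraMap A₀ F π * ((g : F) ^ Q / algebraMap A₀ F π)
      field_simp
    rw [e]
    exact 𝔮.mul_mem_right _ hπ𝔮
  have hgm : g ∈ 𝔮 := Ideal.IsPrime.mem_of_pow_mem inferInstance Q hmem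
  obtain ⟨c, -, hc⟩ := Ideal.IsPrime.prod_mem_iff.mp hgm
  exact hf' c hc

end Prime

section Uniq

variable {R S : Type*} [CommRing R] [CommRing S] {F : Type*} [Field F] [Algebra S F]
  {κ : Type*}

instance s36pa_centre_isPrime (V : ValuationSubring F) (hSV : ∀ s : S, algebraMap S F s ∈ V) :
    (s36paCentre V hSV).IsPrime :=
  Ideal.comap_isPrime _ _

/-- **huniq, abstract.**  Every prime `𝔫 ⊇ 𝔭_{c₃}` of `S` is the only prime of `S` over
`𝔫 ∩ R`, when `V c₃` is separated from the other components by elements of `R` (`hsep`) and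
purely inseparable over `R` (`hins`). -/
theorem s36pa_huniq (g : R →+* S) (hg : g.IsIntegral) (hginj : Function.Injective g)
    [IsDomain R] [IsIntegrallyClosed R] [IsDomain S]
    (V : κ → ValuationSubring F) (hSV : ∀ c (s : S), algebraMap S F s ∈ V c) (ϖ : R)
    (hprime : ∀ Q : Ideal S, Q.IsPrime → g ϖ ∈ Q →
      ∃ c, ∀ s : S, algebraMap S F s ∈ (V c).nonunits → s ∈ Q)
    (c₃ : κ) (hϖ : algebraMap S F (g ϖ) ∈ (V c₃).nonunits)
    (hsep : ∀ c, c ≠ c₃ → ∃ r : R, algebraMap S F (g r) ∈ (V c).nonunits ∧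
      algebraMap S F (g r) ∉ (V c₃).nonunits)
    {n : ℕ} (hn : 0 < n)
    (hins : ∀ s : S, ∃ r : R, algebraMap S F (s ^ n - g r) ∈ (V c₃).nonunits)
    (𝔫 : Ideal S) [𝔫.IsPrime]
    (hthr : ∀ s : S, algebraMap S F s ∈ (V c₃).nonunits → s ∈ 𝔫) :
    ∀ 𝔫₂ : Ideal S, 𝔫₂.IsPrime → 𝔫₂.comap g = 𝔫.comap g → 𝔫₂ = 𝔫 := by
  letI : Algebra R S := g.toAlgebra
  haveI : Algebra.IsIntegral R S := ⟨hg⟩
  haveI : FaithfulSMul R S := (faithfulSMul_iff_algebraMap_injective R S).mpr hginj
  have hmc := s36pa_mem_centre (V c₃) (hSV c₃)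
  have hins' : ∀ x : S, ∃ r : R, x ^ n - algebraMap R S r ∈ s36paCentre (V c₃) (hSV c₃) := by
    intro x
    obtain ⟨r, hr⟩ := hins x
    exact ⟨r, (hmc _).mpr hr⟩
  haveI : ((s36paCentre (V c₃) (hSV c₃)).comap (algebraMap R S)).IsPrime :=
    Ideal.comap_isPrime _ _
  have hPa : ∀ Q : Ideal S, Q.IsPrime →
      Q.comap (algebraMap R S) = (s36paCentre (V c₃) (hSV c₃)).comap (algebraMap R S) →
      Q = s36paCentre (V c₃) (hSV c₃) := by
    intro Q hQ hQp
    haveI := hQ
    have hϖQ : g ϖ ∈ Q := by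
      have h1 : ϖ ∈ (s36paCentre (V c₃) (hSV c₃)).comap (algebraMap R S) :=
        (hmc _).mpr hϖ
      rw [← hQp] at h1
      exact h1
    obtain ⟨c, hc⟩ := hprime Q hQ hϖQ
    have hcc : c = c₃ := by
      by_contra hne
      obtain ⟨r, hr1, hr2⟩ := hsep c hne
      have h1 : r ∈ Q.comap (algebraMap R S) := hc _ hr1
      rw [hQp] at h1
      exact hr2 ((hmc _).mp h1)
    subst hcc
    have hle : s36paCentre (V c) (hSV c) ≤ Q := fun s hs => hc s ((hmc _).mp hs)
    exact (s36inc_eq_of_insep (s36paCentre (V c) (hSV c)) hn hins' le_rfl hle hQp.symm).symm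
  intro 𝔫₂ h₂ e
  haveI := h₂
  have hPa𝔫 : s36paCentre (V c₃) (hSV c₃) ≤ 𝔫 := fun s hs => hthr s ((hmc _).mp hs)
  have hp𝔫 : (s36paCentre (V c₃) (hSV c₃)).comap (algebraMap R S) ≤
      𝔫.comap (algebraMap R S) := Ideal.comap_mono hPa𝔫
  have e' : 𝔫₂.comap (algebraMap R S) = 𝔫.comap (algebraMap R S) := e
  have hPa𝔫₂ : s36paCentre (V c₃) (hSV c₃) ≤ 𝔫₂ :=
    s36inc_le_of_unique _ _ hPa 𝔫₂ (by rw [e']; exact hp𝔫)
  exact s36inc_eq_of_insep _ hn hins' hPa𝔫₂ hPa𝔫 e'

end Uniq

end Fermat.Agent.S36
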