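import Fermat.Agent.S36.PtsAB
import Fermat.Agent.S36.PtsChart
import Fermat.Agent.S36.N2ValI1
import Fermat.Agent.S36.N2LocMain
import Fermat.Agent.S36.TopSetting
import Fermat.Agent.S36.NormOrdData
import Fermat.Agent.INJ.BGFin
import Fermat.Agent.INJ.ChartFinite

/-!
# S36 / (I6)(d-A) (helper98): `S36PtInput` at the cusp points of the component `C_a`

Concrete setting of `S36/SmallPart.lean`: `A₀ = beta0Ring A E₀`, `E₀ = beta0Field A`,
`F = F_{Mqq}(E₀)`, chart `t⁻¹ = (bgJ E₀ (M q q))⁻¹`, `V = s36i1V M hq hA hqM hζ ιC h`.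

* `s36cua_hA_of` : `S36PtInput` at ONE closed point `𝔫` of the chart `j⁻¹` through which only
  `C_a` passes, from (I2) `hKR` on the chart `j` and a local parameter `Y₀` of the branch `C_a` at
  `𝔫` (`S36n2pGen`): helper62's `s36pab_one_inr` (`X = π = q`, `Y = 1`: `C_a` has multiplicity
  one) with helper91's `s36n2l_hVloc₂` and the concrete (I1) facts `s36i1c_*`.
* `s36cua_hA`    : the hypothesis `hA` of `s36cu_hpts_inf` / `s36cu_hpts` (helper84,
  `S36/PtsCusp.lean`), VERBATIM, from (I2) `hKR` and "Gen_a at the cusp points" (helper45).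
* `s36cua_inl_of`, `s36cua_hPa`, `s36cua_hPb` (+ `s36cua_hU_b`) : the same on the chart `j`
  (`Sum.inl`): the hypotheses `hPa`, `hPb` of `s36pf_h1` (helper31, `S36/PtsFinal.lean`) at
  `Hor = s36Hor E₀ m`, from (I2) `hKR` and `Gen_a`, `Gen_b` on the chart `j`.
-/

set_option autoImplicit false
set_option linter.style.haveILetI false
set_option linter.unusedSectionVars false
set_option linter.unusedVariables false
set_option linter.constructorNameAsVariable false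

noncomputable section

namespace Fermat.Agent.S36

open ModularCurve AlgebraicCurve Fermat.Agent.ES Fermat.Agent.ES.G2 Fermat.Agent.INJ
open Fermat.Agent.UNIP Fermat.Agent.STB IntermediateField

section Skeleton

variable {q : ℕ} {A : ValuationSubring (AlgebraicClosure ℚ)} (M : ℕ) [NeZero M] [NeZero q]
  [IsDiscreteValuationRing ↥(beta0Ring A (beta0Field A))]
  {ζ : AlgebraicClosure ℚ}
  (hq : q.Prime) (hA : A.LiesOverPrime q) (hqM : ¬ q ∣ M) (hζ : IsPrimitiveRoot ζ q)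
  (ιC : ↥(beta0Field A) →+* ℂ)
  (h : S36MidEmb ↥(s36n2bK A ζ) q M (s36i1ZK (A := A) hq hζ))

/-- **(d-A), one point**: `S36PtInput` at a closed point of the chart `j⁻¹` through which only
the component `C_a` passes. -/
theorem s36cua_hA_of
    (hKR : ∀ x : ↥(modularFunctionFieldFullC ↥(beta0Field A) (M * q * q)),
      IsIntegral ↥(Algebra.adjoin ↥(beta0Ring A (beta0Field A))
          {bgJ ↥(beta0Field A) (M * q * q)})
        (algebraMap ↥(beta0Ring A (beta0Field A))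
          ↥(modularFunctionFieldFullC ↥(beta0Field A) (M * q * q))
          ((q : ℕ) : ↥(beta0Ring A (beta0Field A))) * x) →
      (∀ c, x ∈ s36i1V M hq hA hqM hζ ιC h c) →
        IsIntegral ↥(Algebra.adjoin ↥(beta0Ring A (beta0Field A))
          {bgJ ↥(beta0Field A) (M * q * q)}) x)
    (𝔫 : AtPt (F := ↥(modularFunctionFieldFullC ↥(beta0Field A) (M * q * q)))
      ((q : ℕ) : ↥(beta0Ring A (beta0Field A))) (bgJ ↥(beta0Field A) (M * q * q))⁻¹)
    (hc₁ : atThrough 𝔫 (s36i1V M hq hA hqM hζ ιC h S36Comp.a))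
    (honly : ∀ c, atThrough 𝔫 (s36i1V M hq hA hqM hζ ιC h c) → c = S36Comp.a)
    {Y₀ : ↥(zchClosure (A₀ := ↥(beta0Ring A (beta0Field A)))
      ({(bgJ ↥(beta0Field A) (M * q * q))⁻¹} :
        Set ↥(modularFunctionFieldFullC ↥(beta0Field A) (M * q * q))))}
    (hY₀ : Y₀ ∈ 𝔫.1) (hgen : S36n2pGen 𝔫.1 (s36i1V M hq hA hqM hζ ιC h S36Comp.a) Y₀)
    (m : ℕ) (ζ₁ : ↥(modularFunctionFieldFullC ↥(beta0Field A) (M * q))) :
    @S36PtInput ↥(modularFunctionFieldFullC ↥(beta0Field A) (M * q))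
      ↥(modularFunctionFieldFullC ↥(beta0Field A) (M * q * q)) _ _ S36Comp
      (s36Hor ↥(beta0Field A) m) m
      (s36Alpha ↥(beta0Field A) M q) (s36Beta ↥(beta0Field A) M q)
      (s36NormAlpha ↥(beta0Field A) M q) (s36NormBeta ↥(beta0Field A) M q) ζ₁
      (s36i1V M hq hA hqM hζ ιC h) S36Comp.a S36Comp.b S36Comp.c
      (atO ((q : ℕ) : ↥(beta0Ring A (beta0Field A))) (bgJ ↥(beta0Field A) (M * q * q))
        (Sum.inr 𝔫))
      (stb_atO_isLocalRing (π := ((q : ℕ) : ↥(beta0Ring A (beta0Field A))))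
        (bgJ ↥(beta0Field A) (M * q * q)) (Sum.inr 𝔫))
      (atInc ((q : ℕ) : ↥(beta0Ring A (beta0Field A))) (bgJ ↥(beta0Field A) (M * q * q))
        (s36i1V M hq hA hqM hζ ιC h) (Sum.inr 𝔫)) := by
  have hπ : Irreducible ((q : ℕ) : ↥(beta0Ring A (beta0Field A))) :=
    beta0Ring_irreducible_q hq hA
  have ht := bgConst_transcendental_bgJ ↥(beta0Field A) (M * q * q)
  haveI : FiniteDimensional (↥(beta0Field A))⟮bgJ ↥(beta0Field A) (M * q * q)⟯
      ↥(modularFunctionFieldFullC ↥(beta0Field A) (M * q * q)) :=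
    bgFin_finiteDimensional_full ↥(beta0Field A) (M * q * q)
  haveI : FiniteDimensional (↥(beta0Field A))⟮(bgJ ↥(beta0Field A) (M * q * q))⁻¹⟯
      ↥(modularFunctionFieldFullC ↥(beta0Field A) (M * q * q)) :=
    at_finiteDimensional_inv (bgJ ↥(beta0Field A) (M * q * q))
  haveI : IsNoetherianRing ↥(zchClosure (A₀ := ↥(beta0Ring A (beta0Field A)))
      ({(bgJ ↥(beta0Field A) (M * q * q))⁻¹} :
        Set ↥(modularFunctionFieldFullC ↥(beta0Field A) (M * q * q)))) :=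
    chart_closure_isNoetherianRing (A₀ := ↥(beta0Ring A (beta0Field A)))
      (E := ↥(beta0Field A)) (zch_transcendental_inv ht)
  obtain ⟨κ, -, hκ⟩ := s36n2b_compat (A := A) (ζ := ζ) hq hA
  haveI : CharP (IsLocalRing.ResidueField ↥(beta0Ring A (beta0Field A))) q := mgvl_charP hq hA
  haveI : CharP (IsLocalRing.ResidueField ↥(beta0Ring A (s36n2bK A ζ))) q := mgvl_charP hq hA
  have hKR₂ := aq_KR_inv hπ ht (s36i1V M hq hA hqM hζ ιC h)
    (s36i1c_hBV₁ M hq hA hqM hζ ιC h) hKR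
  have hVloc := s36n2l_hVloc₂ (vtBase_residue hπ) (s36n2b_vtBase hq hA hζ)
    (IntermediateField.inclusion (s36n2b_le_K A ζ)).toRingHom ιC hq hqM h (s36i1Z hq hζ) rfl
    hπ hκ (s36n2b_residue_zeta hq hA hζ) hKR S36Comp.a
  exact s36pab_one_inr (E := ↥(beta0Field A)) hπ (s36i1V M hq hA hqM hζ ιC h)
    (s36i1c_hBV₂ M hq hA hqM hζ ιC h) (s36i1c_hπV M hq hA hqM hζ ιC h) hKR₂ (q ^ 1)
    (s36i1c_hram M hq hA hqM hζ ιC h) 𝔫 S36Comp.a hc₁ honly hVloc hY₀ hgen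
    (s36i1c_hU M hq hA hqM hζ ιC h)
    (s36Hor ↥(beta0Field A) m) m (fun y hy => hy)
    (s36Alpha ↥(beta0Field A) M q) (s36Beta ↥(beta0Field A) M q)
    (s36NormAlpha ↥(beta0Field A) M q) (s36NormBeta ↥(beta0Field A) M q) ζ₁
    S36Comp.a S36Comp.b S36Comp.c

/-- **(d-A)**: the hypothesis `hA` of `s36cu_hpts_inf` / `s36cu_hpts` (helper84), VERBATIM, from
(I2) `hKR` and a local parameter of the branch `C_a` at every cusp point of `C_a` ("Gen_a at the
cusps", helper45). -/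
theorem s36cua_hA
    (hKR : ∀ x : ↥(modularFunctionFieldFullC ↥(beta0Field A) (M * q * q)),
      IsIntegral ↥(Algebra.adjoin ↥(beta0Ring A (beta0Field A))
          {bgJ ↥(beta0Field A) (M * q * q)})
        (algebraMap ↥(beta0Ring A (beta0Field A))
          ↥(modularFunctionFieldFullC ↥(beta0Field A) (M * q * q))
          ((q : ℕ) : ↥(beta0Ring A (beta0Field A))) * x) →
      (∀ c, x ∈ s36i1V M hq hA hqM hζ ιC h c) →
        IsIntegral ↥(Algebra.adjoin ↥(beta0Ring A (beta0Field A))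
          {bgJ ↥(beta0Field A) (M * q * q)}) x)
    (hgenA : ∀ 𝔫 : AtPt (F := ↥(modularFunctionFieldFullC ↥(beta0Field A) (M * q * q)))
        ((q : ℕ) : ↥(beta0Ring A (beta0Field A))) (bgJ ↥(beta0Field A) (M * q * q))⁻¹,
      (⟨(bgJ ↥(beta0Field A) (M * q * q))⁻¹, s36pc_self_mem _⟩ :
        ↥(zchClosure (A₀ := ↥(beta0Ring A (beta0Field A)))
          ({(bgJ ↥(beta0Field A) (M * q * q))⁻¹} :
            Set ↥(modularFunctionFieldFullC ↥(beta0Field A) (M * q * q))))) ∈ 𝔫.1 →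
      atThrough 𝔫 (s36i1V M hq hA hqM hζ ιC h S36Comp.a) →
      ∃ Y₀ ∈ 𝔫.1, S36n2pGen 𝔫.1 (s36i1V M hq hA hqM hζ ιC h S36Comp.a) Y₀)
    (m : ℕ) (ζ₁ : ↥(modularFunctionFieldFullC ↥(beta0Field A) (M * q))) :
    ∀ 𝔫 : AtPt (F := ↥(modularFunctionFieldFullC ↥(beta0Field A) (M * q * q)))
        ((q : ℕ) : ↥(beta0Ring A (beta0Field A))) (bgJ ↥(beta0Field A) (M * q * q))⁻¹,
      (⟨(bgJ ↥(beta0Field A) (M * q * q))⁻¹, s36pc_self_mem _⟩ :
        ↥(zchClosure (A₀ := ↥(beta0Ring A (beta0Field A)))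
          ({(bgJ ↥(beta0Field A) (M * q * q))⁻¹} :
            Set ↥(modularFunctionFieldFullC ↥(beta0Field A) (M * q * q))))) ∈ 𝔫.1 →
      atThrough 𝔫 (s36i1V M hq hA hqM hζ ιC h S36Comp.a) →
      (∀ c, atThrough 𝔫 (s36i1V M hq hA hqM hζ ιC h c) → c = S36Comp.a) →
      @S36PtInput ↥(modularFunctionFieldFullC ↥(beta0Field A) (M * q))
        ↥(modularFunctionFieldFullC ↥(beta0Field A) (M * q * q)) _ _ S36Comp
        (s36Hor ↥(beta0Field A) m) m
        (s36Alpha ↥(beta0Field A) M q) (s36Beta ↥(beta0Field A) M q)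
        (s36NormAlpha ↥(beta0Field A) M q) (s36NormBeta ↥(beta0Field A) M q) ζ₁
        (s36i1V M hq hA hqM hζ ιC h) S36Comp.a S36Comp.b S36Comp.c
        (atO ((q : ℕ) : ↥(beta0Ring A (beta0Field A))) (bgJ ↥(beta0Field A) (M * q * q))
          (Sum.inr 𝔫))
        (stb_atO_isLocalRing (π := ((q : ℕ) : ↥(beta0Ring A (beta0Field A))))
          (bgJ ↥(beta0Field A) (M * q * q)) (Sum.inr 𝔫))
        (atInc ((q : ℕ) : ↥(beta0Ring A (beta0Field A))) (bgJ ↥(beta0Field A) (M * q * q))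
          (s36i1V M hq hA hqM hζ ιC h) (Sum.inr 𝔫)) := by
  intro 𝔫 h𝔫 hc₁ honly
  obtain ⟨Y₀, hY₀, hgen⟩ := hgenA 𝔫 h𝔫 hc₁
  exact s36cua_hA_of M hq hA hqM hζ ιC h hKR 𝔫 hc₁ honly hY₀ hgen m ζ₁

/-! ### The chart `j`: `hPa`, `hPb` of `s36pf_h1` -/

/-- **hU** for `V_b`, concrete -/
theorem s36cua_hU_b (x : ↥(modularFunctionFieldFullC ↥(beta0Field A) (M * q * q)))
    (hx : x ∈ (s36i1V M hq hA hqM hζ ιC h S36Comp.b).nonunits) :
    ∃ z ∈ s36i1V M hq hA hqM hζ ιC h S36Comp.b, x =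
      algebraMap ↥(beta0Ring A (beta0Field A))
        ↥(modularFunctionFieldFullC ↥(beta0Field A) (M * q * q))
        ((q : ℕ) : ↥(beta0Ring A (beta0Field A))) * z :=
  s36i1_hU_b (vtBase_residue (beta0Ring_irreducible_q hq hA)) (s36n2b_vtBase hq hA hζ)
    (IntermediateField.inclusion (s36n2b_le_K A ζ)).toRingHom ιC hq hqM h (s36i1Z hq hζ) rfl x hx

/-- **one-component points of multiplicity one on the chart `j`** (`c₁ = a` or `c₁ = b`), from
the multiplicity-one statement `hU` for `V c₁`. -/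
theorem s36cua_inl_of
    (hKR : ∀ x : ↥(modularFunctionFieldFullC ↥(beta0Field A) (M * q * q)),
      IsIntegral ↥(Algebra.adjoin ↥(beta0Ring A (beta0Field A))
          {bgJ ↥(beta0Field A) (M * q * q)})
        (algebraMap ↥(beta0Ring A (beta0Field A))
          ↥(modularFunctionFieldFullC ↥(beta0Field A) (M * q * q))
          ((q : ℕ) : ↥(beta0Ring A (beta0Field A))) * x) →
      (∀ c, x ∈ s36i1V M hq hA hqM hζ ιC h c) →
        IsIntegral ↥(Algebra.adjoin ↥(beta0Ring A (beta0Field A))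
          {bgJ ↥(beta0Field A) (M * q * q)}) x)
    (𝔫 : AtPt (F := ↥(modularFunctionFieldFullC ↥(beta0Field A) (M * q * q)))
        ((q : ℕ) : ↥(beta0Ring A (beta0Field A))) (bgJ ↥(beta0Field A) (M * q * q)))
    (c₁ : S36Comp)
    (hc₁ : atThrough 𝔫 (s36i1V M hq hA hqM hζ ιC h c₁))
    (honly : ∀ c, atThrough 𝔫 (s36i1V M hq hA hqM hζ ιC h c) → c = c₁)
    {Y₀ : ↥(zchClosure (A₀ := ↥(beta0Ring A (beta0Field A)))
      ({bgJ ↥(beta0Field A) (M * q * q)} :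
        Set ↥(modularFunctionFieldFullC ↥(beta0Field A) (M * q * q))))}
    (hY₀ : Y₀ ∈ 𝔫.1) (hgen : S36n2pGen 𝔫.1 (s36i1V M hq hA hqM hζ ιC h c₁) Y₀)
    (hU : ∀ x ∈ (s36i1V M hq hA hqM hζ ιC h c₁).nonunits,
      ∃ z ∈ s36i1V M hq hA hqM hζ ιC h c₁, x =
        algebraMap ↥(beta0Ring A (beta0Field A))
          ↥(modularFunctionFieldFullC ↥(beta0Field A) (M * q * q))
          ((q : ℕ) : ↥(beta0Ring A (beta0Field A))) * z)
    (m : ℕ) (ζ₁ : ↥(modularFunctionFieldFullC ↥(beta0Field A) (M * q))) :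
    @S36PtInput ↥(modularFunctionFieldFullC ↥(beta0Field A) (M * q))
      ↥(modularFunctionFieldFullC ↥(beta0Field A) (M * q * q)) _ _ S36Comp
      (s36Hor ↥(beta0Field A) m) m
      (s36Alpha ↥(beta0Field A) M q) (s36Beta ↥(beta0Field A) M q)
      (s36NormAlpha ↥(beta0Field A) M q) (s36NormBeta ↥(beta0Field A) M q) ζ₁
      (s36i1V M hq hA hqM hζ ιC h) S36Comp.a S36Comp.b S36Comp.c
      (atO ((q : ℕ) : ↥(beta0Ring A (beta0Field A))) (bgJ ↥(beta0Field A) (M * q * q))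
        (Sum.inl 𝔫))
      (stb_atO_isLocalRing (π := ((q : ℕ) : ↥(beta0Ring A (beta0Field A))))
        (bgJ ↥(beta0Field A) (M * q * q)) (Sum.inl 𝔫))
      (atInc ((q : ℕ) : ↥(beta0Ring A (beta0Field A))) (bgJ ↥(beta0Field A) (M * q * q))
        (s36i1V M hq hA hqM hζ ιC h) (Sum.inl 𝔫)) := by
  have hπ : Irreducible ((q : ℕ) : ↥(beta0Ring A (beta0Field A))) :=
    beta0Ring_irreducible_q hq hA
  have ht := bgConst_transcendental_bgJ ↥(beta0Field A) (M * q * q)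
  haveI : FiniteDimensional (↥(beta0Field A))⟮bgJ ↥(beta0Field A) (M * q * q)⟯
      ↥(modularFunctionFieldFullC ↥(beta0Field A) (M * q * q)) :=
    bgFin_finiteDimensional_full ↥(beta0Field A) (M * q * q)
  haveI : IsNoetherianRing ↥(zchClosure (A₀ := ↥(beta0Ring A (beta0Field A)))
      ({bgJ ↥(beta0Field A) (M * q * q)} :
        Set ↥(modularFunctionFieldFullC ↥(beta0Field A) (M * q * q)))) :=
    chart_closure_isNoetherianRing (A₀ := ↥(beta0Ring A (beta0Field A)))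
      (E := ↥(beta0Field A)) ht
  obtain ⟨κ, -, hκ⟩ := s36n2b_compat (A := A) (ζ := ζ) hq hA
  haveI : CharP (IsLocalRing.ResidueField ↥(beta0Ring A (beta0Field A))) q := mgvl_charP hq hA
  haveI : CharP (IsLocalRing.ResidueField ↥(beta0Ring A (s36n2bK A ζ))) q := mgvl_charP hq hA
  have hVloc := s36n2l_hVloc₁ (vtBase_residue hπ) (s36n2b_vtBase hq hA hζ)
    (IntermediateField.inclusion (s36n2b_le_K A ζ)).toRingHom ιC hq hqM h (s36i1Z hq hζ) rfl
    hπ hκ (s36n2b_residue_zeta hq hA hζ) hKR c₁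
  exact s36pab_one_inl (E := ↥(beta0Field A)) hπ (s36i1V M hq hA hqM hζ ιC h)
    (s36i1c_hBV₁ M hq hA hqM hζ ιC h) (s36i1c_hπV M hq hA hqM hζ ιC h) hKR (q ^ 1)
    (s36i1c_hram M hq hA hqM hζ ιC h) 𝔫 c₁ hc₁ honly hVloc hY₀ hgen hU
    (s36Hor ↥(beta0Field A) m) m (fun y hy => hy)
    (s36Alpha ↥(beta0Field A) M q) (s36Beta ↥(beta0Field A) M q)
    (s36NormAlpha ↥(beta0Field A) M q) (s36NormBeta ↥(beta0Field A) M q) ζ₁
    S36Comp.a S36Comp.b S36Comp.c

/-- **`hPa` of `s36pf_h1`** (helper31), VERBATIM at `Hor = s36Hor E₀ m`, from (I2) `hKR` and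
"Gen_a on the chart `j`". -/
theorem s36cua_hPa
    (hKR : ∀ x : ↥(modularFunctionFieldFullC ↥(beta0Field A) (M * q * q)),
      IsIntegral ↥(Algebra.adjoin ↥(beta0Ring A (beta0Field A))
          {bgJ ↥(beta0Field A) (M * q * q)})
        (algebraMap ↥(beta0Ring A (beta0Field A))
          ↥(modularFunctionFieldFullC ↥(beta0Field A) (M * q * q))
          ((q : ℕ) : ↥(beta0Ring A (beta0Field A))) * x) →
      (∀ c, x ∈ s36i1V M hq hA hqM hζ ιC h c) →
        IsIntegral ↥(Algebra.adjoin ↥(beta0Ring A (beta0Field A))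
          {bgJ ↥(beta0Field A) (M * q * q)}) x)
    (hgenA : ∀ 𝔫 : AtPt (F := ↥(modularFunctionFieldFullC ↥(beta0Field A) (M * q * q)))
        ((q : ℕ) : ↥(beta0Ring A (beta0Field A))) (bgJ ↥(beta0Field A) (M * q * q)),
      atThrough 𝔫 (s36i1V M hq hA hqM hζ ιC h S36Comp.a) →
      ∃ Y₀ ∈ 𝔫.1, S36n2pGen 𝔫.1 (s36i1V M hq hA hqM hζ ιC h S36Comp.a) Y₀)
    (m : ℕ) (ζ₁ : ↥(modularFunctionFieldFullC ↥(beta0Field A) (M * q))) :
    ∀ 𝔫 : AtPt (F := ↥(modularFunctionFieldFullC ↥(beta0Field A) (M * q * q)))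
        ((q : ℕ) : ↥(beta0Ring A (beta0Field A))) (bgJ ↥(beta0Field A) (M * q * q)),
      atThrough 𝔫 (s36i1V M hq hA hqM hζ ιC h S36Comp.a) →
      (∀ c, atThrough 𝔫 (s36i1V M hq hA hqM hζ ιC h c) → c = S36Comp.a) →
      @S36PtInput ↥(modularFunctionFieldFullC ↥(beta0Field A) (M * q))
        ↥(modularFunctionFieldFullC ↥(beta0Field A) (M * q * q)) _ _ S36Comp
        (s36Hor ↥(beta0Field A) m) m
        (s36Alpha ↥(beta0Field A) M q) (s36Beta ↥(beta0Field A) M q)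
        (s36NormAlpha ↥(beta0Field A) M q) (s36NormBeta ↥(beta0Field A) M q) ζ₁
        (s36i1V M hq hA hqM hζ ιC h) S36Comp.a S36Comp.b S36Comp.c
        (atO ((q : ℕ) : ↥(beta0Ring A (beta0Field A))) (bgJ ↥(beta0Field A) (M * q * q))
          (Sum.inl 𝔫))
        (stb_atO_isLocalRing (π := ((q : ℕ) : ↥(beta0Ring A (beta0Field A))))
          (bgJ ↥(beta0Field A) (M * q * q)) (Sum.inl 𝔫))
        (atInc ((q : ℕ) : ↥(beta0Ring A (beta0Field A))) (bgJ ↥(beta0Field A) (M * q * q))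
          (s36i1V M hq hA hqM hζ ιC h) (Sum.inl 𝔫)) := by
  intro 𝔫 hc₁ honly
  obtain ⟨Y₀, hY₀, hgen⟩ := hgenA 𝔫 hc₁
  exact s36cua_inl_of M hq hA hqM hζ ιC h hKR 𝔫 S36Comp.a hc₁ honly hY₀ hgen
    (s36i1c_hU M hq hA hqM hζ ιC h) m ζ₁

/-- **`hPb` of `s36pf_h1`** (helper31), VERBATIM at `Hor = s36Hor E₀ m`, from (I2) `hKR` and
"Gen_b on the chart `j`". -/
theorem s36cua_hPb
    (hKR : ∀ x : ↥(modularFunctionFieldFullC ↥(beta0Field A) (M * q * q)),
      IsIntegral ↥(Algebra.adjoin ↥(beta0Ring A (beta0Field A))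
          {bgJ ↥(beta0Field A) (M * q * q)})
        (algebraMap ↥(beta0Ring A (beta0Field A))
          ↥(modularFunctionFieldFullC ↥(beta0Field A) (M * q * q))
          ((q : ℕ) : ↥(beta0Ring A (beta0Field A))) * x) →
      (∀ c, x ∈ s36i1V M hq hA hqM hζ ιC h c) →
        IsIntegral ↥(Algebra.adjoin ↥(beta0Ring A (beta0Field A))
          {bgJ ↥(beta0Field A) (M * q * q)}) x)
    (hgenB : ∀ 𝔫 : AtPt (F := ↥(modularFunctionFieldFullC ↥(beta0Field A) (M * q * q)))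
        ((q : ℕ) : ↥(beta0Ring A (beta0Field A))) (bgJ ↥(beta0Field A) (M * q * q)),
      atThrough 𝔫 (s36i1V M hq hA hqM hζ ιC h S36Comp.b) →
      ∃ Y₀ ∈ 𝔫.1, S36n2pGen 𝔫.1 (s36i1V M hq hA hqM hζ ιC h S36Comp.b) Y₀)
    (m : ℕ) (ζ₁ : ↥(modularFunctionFieldFullC ↥(beta0Field A) (M * q))) :
    ∀ 𝔫 : AtPt (F := ↥(modularFunctionFieldFullC ↥(beta0Field A) (M * q * q)))
        ((q : ℕ) : ↥(beta0Ring A (beta0Field A))) (bgJ ↥(beta0Field A) (M * q * q)),
      atThrough 𝔫 (s36i1V M hq hA hqM hζ ιC h S36Comp.b) →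
      (∀ c, atThrough 𝔫 (s36i1V M hq hA hqM hζ ιC h c) → c = S36Comp.b) →
      @S36PtInput ↥(modularFunctionFieldFullC ↥(beta0Field A) (M * q))
        ↥(modularFunctionFieldFullC ↥(beta0Field A) (M * q * q)) _ _ S36Comp
        (s36Hor ↥(beta0Field A) m) m
        (s36Alpha ↥(beta0Field A) M q) (s36Beta ↥(beta0Field A) M q)
        (s36NormAlpha ↥(beta0Field A) M q) (s36NormBeta ↥(beta0Field A) M q) ζ₁
        (s36i1V M hq hA hqM hζ ιC h) S36Comp.a S36Comp.b S36Comp.c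
        (atO ((q : ℕ) : ↥(beta0Ring A (beta0Field A))) (bgJ ↥(beta0Field A) (M * q * q))
          (Sum.inl 𝔫))
        (stb_atO_isLocalRing (π := ((q : ℕ) : ↥(beta0Ring A (beta0Field A))))
          (bgJ ↥(beta0Field A) (M * q * q)) (Sum.inl 𝔫))
        (atInc ((q : ℕ) : ↥(beta0Ring A (beta0Field A))) (bgJ ↥(beta0Field A) (M * q * q))
          (s36i1V M hq hA hqM hζ ιC h) (Sum.inl 𝔫)) := by
  intro 𝔫 hc₁ honly
  obtain ⟨Y₀, hY₀, hgen⟩ := hgenB 𝔫 hc₁
  exact s36cua_inl_of M hq hA hqM hζ ιC h hKR 𝔫 S36Comp.b hc₁ honly hY₀ hgen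
    (s36cua_hU_b M hq hA hqM hζ ιC h) m ζ₁

end Skeleton

end Fermat.Agent.S36
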