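/-
S36 (Carayol at `q² ∥ M`), geometric clause, (I6)(e) (helper31): CONCRETE classification of the
closed points of the chart `j` of level `M q²` for the family `V = s36i1V` and assembly of `h₁`.

* `s36pf_hpt`       : every closed point lies on a component (`aq_hpt`);
* `s36pf_two_three` : a point on two components lies on all three, from the uniqueness
                      statements (Uα), (Uβ) along the chart maps `gα, gβ : B′ → B`;
* `s36pf_h1`        : `S36PtInput` at every closed point of the chart `j`, from the four case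
                      theorems.
-/
import Fermat.Agent.S36.PtsAll2
import Fermat.Agent.S36.N2ValHne

set_option autoImplicit false
set_option linter.unusedSectionVars false
set_option linter.unusedVariables false
set_option linter.style.haveILetI false
set_option linter.constructorNameAsVariable false

noncomputable section

namespace Fermat.Agent.S36

open ModularCurve AlgebraicCurve Fermat.Agent.ES Fermat.Agent.ES.G2 Fermat.Agent.INJ
open Fermat.Agent.UNIP Fermat.Agent.STB IntermediateField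

section Conc

variable {q : ℕ} {A : ValuationSubring (AlgebraicClosure ℚ)} (M : ℕ) [NeZero M] [NeZero q]
  [IsDiscreteValuationRing ↥(beta0Ring A (beta0Field A))]
  {ζ : AlgebraicClosure ℚ}
  (hq : q.Prime) (hA : A.LiesOverPrime q) (hqM : ¬ q ∣ M) (hζ : IsPrimitiveRoot ζ q)
  (ιC : ↥(beta0Field A) →+* ℂ)
  (h : S36MidEmb ↥(s36n2bK A ζ) q M (s36i1ZK (A := A) hq hζ))

/-- "at least one component", concrete -/
theorem s36pf_hpt
    (hKR : ∀ x : ↥(modularFunctionFieldFullC ↥(beta0Field A) (M * q * q)),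
      IsIntegral ↥(Algebra.adjoin ↥(beta0Ring A (beta0Field A))
          {bgJ ↥(beta0Field A) (M * q * q)})
        (algebraMap ↥(beta0Ring A (beta0Field A))
          ↥(modularFunctionFieldFullC ↥(beta0Field A) (M * q * q))
          ((q : ℕ) : ↥(beta0Ring A (beta0Field A))) * x) →
      (∀ c, x ∈ s36i1V M hq hA hqM hζ ιC h c) →
        IsIntegral ↥(Algebra.adjoin ↥(beta0Ring A (beta0Field A))
          {bgJ ↥(beta0Field A) (M * q * q)}) x)
    (𝔫 : AtPt (F := ↥(modularFunctionFieldFullC ↥(beta0Field A) (M * q * q)))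
      ((q : ℕ) : ↥(beta0Ring A (beta0Field A))) (bgJ ↥(beta0Field A) (M * q * q))) :
    ∃ c, atThrough 𝔫 (s36i1V M hq hA hqM hζ ιC h c) :=
  aq_hpt (s36i1V M hq hA hqM hζ ιC h) (s36i1c_hBV₁ M hq hA hqM hζ ιC h)
    hKR (s36i1c_hram M hq hA hqM hζ ιC h)
    (ei_algebraMap_ne_zero (E := ↥(beta0Field A)) (beta0Ring_irreducible_q hq hA)) 𝔫

/-- `B ⊆ V c` in subtype form -/
theorem s36pf_hSV (c : S36Comp)
    (s : ↥(zchClosure (A₀ := ↥(beta0Ring A (beta0Field A)))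
      ({bgJ ↥(beta0Field A) (M * q * q)} :
        Set ↥(modularFunctionFieldFullC ↥(beta0Field A) (M * q * q))))) :
    algebraMap ↥(zchClosure (A₀ := ↥(beta0Ring A (beta0Field A)))
      ({bgJ ↥(beta0Field A) (M * q * q)} :
        Set ↥(modularFunctionFieldFullC ↥(beta0Field A) (M * q * q))))
      ↥(modularFunctionFieldFullC ↥(beta0Field A) (M * q * q)) s ∈
        s36i1V M hq hA hqM hζ ιC h c :=
  s36i1c_hBV₁ M hq hA hqM hζ ιC h c _ (mem_zchClosure.mp s.2)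

/-- **two ⇒ three**, from the uniqueness statements (Uα), (Uβ) along chart maps `gα`, `gβ`. -/
theorem s36pf_two_three
    (gα gβ : ↥(zchClosure (A₀ := ↥(beta0Ring A (beta0Field A)))
        ({bgJ ↥(beta0Field A) (M * q)} :
          Set ↥(modularFunctionFieldFullC ↥(beta0Field A) (M * q)))) →+*
      ↥(zchClosure (A₀ := ↥(beta0Ring A (beta0Field A)))
        ({bgJ ↥(beta0Field A) (M * q * q)} :
          Set ↥(modularFunctionFieldFullC ↥(beta0Field A) (M * q * q)))))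
    (hgα : gα.IsIntegral) (hgβ : gβ.IsIntegral)
    (hcα : ∀ r, ((gα r : ↥(zchClosure (A₀ := ↥(beta0Ring A (beta0Field A)))
        ({bgJ ↥(beta0Field A) (M * q * q)} :
          Set ↥(modularFunctionFieldFullC ↥(beta0Field A) (M * q * q))))) :
        ↥(modularFunctionFieldFullC ↥(beta0Field A) (M * q * q))) =
      s36Alpha ↥(beta0Field A) M q (r : ↥(modularFunctionFieldFullC ↥(beta0Field A) (M * q))))
    (hcβ : ∀ r, ((gβ r : ↥(zchClosure (A₀ := ↥(beta0Ring A (beta0Field A)))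
        ({bgJ ↥(beta0Field A) (M * q * q)} :
          Set ↥(modularFunctionFieldFullC ↥(beta0Field A) (M * q * q))))) :
        ↥(modularFunctionFieldFullC ↥(beta0Field A) (M * q * q))) =
      s36Beta ↥(beta0Field A) M q (r : ↥(modularFunctionFieldFullC ↥(beta0Field A) (M * q))))
    (Uα : ∀ 𝔫 : Ideal ↥(zchClosure (A₀ := ↥(beta0Ring A (beta0Field A)))
        ({bgJ ↥(beta0Field A) (M * q * q)} :
          Set ↥(modularFunctionFieldFullC ↥(beta0Field A) (M * q * q)))), 𝔫.IsPrime →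
      (∀ b : ↥(zchClosure (A₀ := ↥(beta0Ring A (beta0Field A)))
        ({bgJ ↥(beta0Field A) (M * q * q)} :
          Set ↥(modularFunctionFieldFullC ↥(beta0Field A) (M * q * q)))),
        (b : ↥(modularFunctionFieldFullC ↥(beta0Field A) (M * q * q))) ∈
        (s36i1V M hq hA hqM hζ ιC h S36Comp.b).nonunits → b ∈ 𝔫) →
      ∀ 𝔫₂ : Ideal _, 𝔫₂.IsPrime → 𝔫₂.comap gα = 𝔫.comap gα → 𝔫₂ = 𝔫)
    (Uβ : ∀ 𝔫 : Ideal ↥(zchClosure (A₀ := ↥(beta0Ring A (beta0Field A)))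
        ({bgJ ↥(beta0Field A) (M * q * q)} :
          Set ↥(modularFunctionFieldFullC ↥(beta0Field A) (M * q * q)))), 𝔫.IsPrime →
      (∀ b : ↥(zchClosure (A₀ := ↥(beta0Ring A (beta0Field A)))
        ({bgJ ↥(beta0Field A) (M * q * q)} :
          Set ↥(modularFunctionFieldFullC ↥(beta0Field A) (M * q * q)))),
        (b : ↥(modularFunctionFieldFullC ↥(beta0Field A) (M * q * q))) ∈
        (s36i1V M hq hA hqM hζ ιC h S36Comp.a).nonunits → b ∈ 𝔫) →
      ∀ 𝔫₂ : Ideal _, 𝔫₂.IsPrime → 𝔫₂.comap gβ = 𝔫.comap gβ → 𝔫₂ = 𝔫)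
    (𝔫 : AtPt (F := ↥(modularFunctionFieldFullC ↥(beta0Field A) (M * q * q)))
      ((q : ℕ) : ↥(beta0Ring A (beta0Field A))) (bgJ ↥(beta0Field A) (M * q * q))) :
    (atThrough 𝔫 (s36i1V M hq hA hqM hζ ιC h S36Comp.a) →
      atThrough 𝔫 (s36i1V M hq hA hqM hζ ιC h S36Comp.b) →
      atThrough 𝔫 (s36i1V M hq hA hqM hζ ιC h S36Comp.c)) ∧
    (atThrough 𝔫 (s36i1V M hq hA hqM hζ ιC h S36Comp.a) →
      atThrough 𝔫 (s36i1V M hq hA hqM hζ ιC h S36Comp.c) →
      atThrough 𝔫 (s36i1V M hq hA hqM hζ ιC h S36Comp.b)) ∧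
    (atThrough 𝔫 (s36i1V M hq hA hqM hζ ιC h S36Comp.b) →
      atThrough 𝔫 (s36i1V M hq hA hqM hζ ιC h S36Comp.c) →
      atThrough 𝔫 (s36i1V M hq hA hqM hζ ιC h S36Comp.a)) := by
  haveI := 𝔫.2.1.isPrime
  have hca := s36i1c_comap_alpha M hq hA hqM hζ ιC h
  have hcb := s36i1c_comap_beta M hq hA hqM hζ ιC h
  refine ⟨fun ha hb => ?_, fun ha hc => ?_, fun hb hc => ?_⟩
  · -- a, b ⇒ c : along β, `V_c ∩ F₁ = V_b ∩ F₁`
    exact s36pa_through_of_uniq gβ hgβ (algebraMap _ _) (s36Beta ↥(beta0Field A) M q)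
      (fun r => (hcβ r).symm) 𝔫.1 (Uβ 𝔫.1 inferInstance ha)
      (s36i1V M hq hA hqM hζ ιC h S36Comp.c) (s36i1V M hq hA hqM hζ ιC h S36Comp.b)
      (s36pf_hSV M hq hA hqM hζ ιC h S36Comp.c)
      (by rw [hcb, hcb]; rfl) hb
  · -- a, c ⇒ b : along β
    exact s36pa_through_of_uniq gβ hgβ (algebraMap _ _) (s36Beta ↥(beta0Field A) M q)
      (fun r => (hcβ r).symm) 𝔫.1 (Uβ 𝔫.1 inferInstance ha)
      (s36i1V M hq hA hqM hζ ιC h S36Comp.b) (s36i1V M hq hA hqM hζ ιC h S36Comp.c)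
      (s36pf_hSV M hq hA hqM hζ ιC h S36Comp.b)
      (by rw [hcb, hcb]; rfl) hc
  · -- b, c ⇒ a : along α, `V_a ∩ F₁ = V_c ∩ F₁`
    exact s36pa_through_of_uniq gα hgα (algebraMap _ _) (s36Alpha ↥(beta0Field A) M q)
      (fun r => (hcα r).symm) 𝔫.1 (Uα 𝔫.1 inferInstance hb)
      (s36i1V M hq hA hqM hζ ιC h S36Comp.a) (s36i1V M hq hA hqM hζ ιC h S36Comp.c)
      (s36pf_hSV M hq hA hqM hζ ιC h S36Comp.a)
      (by rw [hca, hca]; rfl) hc

/-- **`h₁`, concrete**: `S36PtInput` at every closed point of the chart `j`, from (I2) `hKR`,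
the chart maps with (Uα), (Uβ), and the four case theorems. -/
theorem s36pf_h1 {F₁ : Type*} [Field F₁]
    {Hor : ↥(modularFunctionFieldFullC ↥(beta0Field A) (M * q * q)) → Prop} {m : ℕ}
    {α β : F₁ →+* ↥(modularFunctionFieldFullC ↥(beta0Field A) (M * q * q))}
    {Nα Nβ : ↥(modularFunctionFieldFullC ↥(beta0Field A) (M * q * q)) →* F₁} {ζ₁ : F₁}
    (hKR : ∀ x : ↥(modularFunctionFieldFullC ↥(beta0Field A) (M * q * q)),
      IsIntegral ↥(Algebra.adjoin ↥(beta0Ring A (beta0Field A))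
          {bgJ ↥(beta0Field A) (M * q * q)})
        (algebraMap ↥(beta0Ring A (beta0Field A))
          ↥(modularFunctionFieldFullC ↥(beta0Field A) (M * q * q))
          ((q : ℕ) : ↥(beta0Ring A (beta0Field A))) * x) →
      (∀ c, x ∈ s36i1V M hq hA hqM hζ ιC h c) →
        IsIntegral ↥(Algebra.adjoin ↥(beta0Ring A (beta0Field A))
          {bgJ ↥(beta0Field A) (M * q * q)}) x)
    (gα gβ : ↥(zchClosure (A₀ := ↥(beta0Ring A (beta0Field A)))
        ({bgJ ↥(beta0Field A) (M * q)} :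
          Set ↥(modularFunctionFieldFullC ↥(beta0Field A) (M * q)))) →+*
      ↥(zchClosure (A₀ := ↥(beta0Ring A (beta0Field A)))
        ({bgJ ↥(beta0Field A) (M * q * q)} :
          Set ↥(modularFunctionFieldFullC ↥(beta0Field A) (M * q * q)))))
    (hgα : gα.IsIntegral) (hgβ : gβ.IsIntegral)
    (hcα : ∀ r, ((gα r : ↥(zchClosure (A₀ := ↥(beta0Ring A (beta0Field A)))
        ({bgJ ↥(beta0Field A) (M * q * q)} :
          Set ↥(modularFunctionFieldFullC ↥(beta0Field A) (M * q * q))))) :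
        ↥(modularFunctionFieldFullC ↥(beta0Field A) (M * q * q))) =
      s36Alpha ↥(beta0Field A) M q (r : ↥(modularFunctionFieldFullC ↥(beta0Field A) (M * q))))
    (hcβ : ∀ r, ((gβ r : ↥(zchClosure (A₀ := ↥(beta0Ring A (beta0Field A)))
        ({bgJ ↥(beta0Field A) (M * q * q)} :
          Set ↥(modularFunctionFieldFullC ↥(beta0Field A) (M * q * q))))) :
        ↥(modularFunctionFieldFullC ↥(beta0Field A) (M * q * q))) =
      s36Beta ↥(beta0Field A) M q (r : ↥(modularFunctionFieldFullC ↥(beta0Field A) (M * q))))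
    (Uα : ∀ 𝔫 : Ideal ↥(zchClosure (A₀ := ↥(beta0Ring A (beta0Field A)))
        ({bgJ ↥(beta0Field A) (M * q * q)} :
          Set ↥(modularFunctionFieldFullC ↥(beta0Field A) (M * q * q)))), 𝔫.IsPrime →
      (∀ b : ↥(zchClosure (A₀ := ↥(beta0Ring A (beta0Field A)))
        ({bgJ ↥(beta0Field A) (M * q * q)} :
          Set ↥(modularFunctionFieldFullC ↥(beta0Field A) (M * q * q)))),
        (b : ↥(modularFunctionFieldFullC ↥(beta0Field A) (M * q * q))) ∈
        (s36i1V M hq hA hqM hζ ιC h S36Comp.b).nonunits → b ∈ 𝔫) →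
      ∀ 𝔫₂ : Ideal _, 𝔫₂.IsPrime → 𝔫₂.comap gα = 𝔫.comap gα → 𝔫₂ = 𝔫)
    (Uβ : ∀ 𝔫 : Ideal ↥(zchClosure (A₀ := ↥(beta0Ring A (beta0Field A)))
        ({bgJ ↥(beta0Field A) (M * q * q)} :
          Set ↥(modularFunctionFieldFullC ↥(beta0Field A) (M * q * q)))), 𝔫.IsPrime →
      (∀ b : ↥(zchClosure (A₀ := ↥(beta0Ring A (beta0Field A)))
        ({bgJ ↥(beta0Field A) (M * q * q)} :
          Set ↥(modularFunctionFieldFullC ↥(beta0Field A) (M * q * q)))),
        (b : ↥(modularFunctionFieldFullC ↥(beta0Field A) (M * q * q))) ∈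
        (s36i1V M hq hA hqM hζ ιC h S36Comp.a).nonunits → b ∈ 𝔫) →
      ∀ 𝔫₂ : Ideal _, 𝔫₂.IsPrime → 𝔫₂.comap gβ = 𝔫.comap gβ → 𝔫₂ = 𝔫)
    (hPa : ∀ 𝔫 : AtPt (F := ↥(modularFunctionFieldFullC ↥(beta0Field A) (M * q * q)))
        ((q : ℕ) : ↥(beta0Ring A (beta0Field A))) (bgJ ↥(beta0Field A) (M * q * q)),
      atThrough 𝔫 (s36i1V M hq hA hqM hζ ιC h S36Comp.a) →
      (∀ c, atThrough 𝔫 (s36i1V M hq hA hqM hζ ιC h c) → c = S36Comp.a) →
      @S36PtInput F₁ ↥(modularFunctionFieldFullC ↥(beta0Field A) (M * q * q)) _ _ S36Comp Hor m α β Nα Nβ ζ₁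
        (s36i1V M hq hA hqM hζ ιC h) S36Comp.a S36Comp.b S36Comp.c
        (atO ((q : ℕ) : ↥(beta0Ring A (beta0Field A))) (bgJ ↥(beta0Field A) (M * q * q))
          (Sum.inl 𝔫))
        (stb_atO_isLocalRing (π := ((q : ℕ) : ↥(beta0Ring A (beta0Field A))))
          (bgJ ↥(beta0Field A) (M * q * q)) (Sum.inl 𝔫))
        (atInc ((q : ℕ) : ↥(beta0Ring A (beta0Field A))) (bgJ ↥(beta0Field A) (M * q * q))
          (s36i1V M hq hA hqM hζ ιC h) (Sum.inl 𝔫)))
    (hPb : ∀ 𝔫 : AtPt (F := ↥(modularFunctionFieldFullC ↥(beta0Field A) (M * q * q)))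
        ((q : ℕ) : ↥(beta0Ring A (beta0Field A))) (bgJ ↥(beta0Field A) (M * q * q)),
      atThrough 𝔫 (s36i1V M hq hA hqM hζ ιC h S36Comp.b) →
      (∀ c, atThrough 𝔫 (s36i1V M hq hA hqM hζ ιC h c) → c = S36Comp.b) →
      @S36PtInput F₁ ↥(modularFunctionFieldFullC ↥(beta0Field A) (M * q * q)) _ _ S36Comp Hor m α β Nα Nβ ζ₁
        (s36i1V M hq hA hqM hζ ιC h) S36Comp.a S36Comp.b S36Comp.c
        (atO ((q : ℕ) : ↥(beta0Ring A (beta0Field A))) (bgJ ↥(beta0Field A) (M * q * q))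
          (Sum.inl 𝔫))
        (stb_atO_isLocalRing (π := ((q : ℕ) : ↥(beta0Ring A (beta0Field A))))
          (bgJ ↥(beta0Field A) (M * q * q)) (Sum.inl 𝔫))
        (atInc ((q : ℕ) : ↥(beta0Ring A (beta0Field A))) (bgJ ↥(beta0Field A) (M * q * q))
          (s36i1V M hq hA hqM hζ ιC h) (Sum.inl 𝔫)))
    (hPc : ∀ 𝔫 : AtPt (F := ↥(modularFunctionFieldFullC ↥(beta0Field A) (M * q * q)))
        ((q : ℕ) : ↥(beta0Ring A (beta0Field A))) (bgJ ↥(beta0Field A) (M * q * q)),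
      atThrough 𝔫 (s36i1V M hq hA hqM hζ ιC h S36Comp.c) →
      (∀ c, atThrough 𝔫 (s36i1V M hq hA hqM hζ ιC h c) → c = S36Comp.c) →
      @S36PtInput F₁ ↥(modularFunctionFieldFullC ↥(beta0Field A) (M * q * q)) _ _ S36Comp Hor m α β Nα Nβ ζ₁
        (s36i1V M hq hA hqM hζ ιC h) S36Comp.a S36Comp.b S36Comp.c
        (atO ((q : ℕ) : ↥(beta0Ring A (beta0Field A))) (bgJ ↥(beta0Field A) (M * q * q))
          (Sum.inl 𝔫))
        (stb_atO_isLocalRing (π := ((q : ℕ) : ↥(beta0Ring A (beta0Field A))))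
          (bgJ ↥(beta0Field A) (M * q * q)) (Sum.inl 𝔫))
        (atInc ((q : ℕ) : ↥(beta0Ring A (beta0Field A))) (bgJ ↥(beta0Field A) (M * q * q))
          (s36i1V M hq hA hqM hζ ιC h) (Sum.inl 𝔫)))
    (hPt : ∀ 𝔫 : AtPt (F := ↥(modularFunctionFieldFullC ↥(beta0Field A) (M * q * q)))
        ((q : ℕ) : ↥(beta0Ring A (beta0Field A))) (bgJ ↥(beta0Field A) (M * q * q)),
      (∀ c, atThrough 𝔫 (s36i1V M hq hA hqM hζ ιC h c)) →
      @S36PtInput F₁ ↥(modularFunctionFieldFullC ↥(beta0Field A) (M * q * q)) _ _ S36Comp Hor m α β Nα Nβ ζ₁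
        (s36i1V M hq hA hqM hζ ιC h) S36Comp.a S36Comp.b S36Comp.c
        (atO ((q : ℕ) : ↥(beta0Ring A (beta0Field A))) (bgJ ↥(beta0Field A) (M * q * q))
          (Sum.inl 𝔫))
        (stb_atO_isLocalRing (π := ((q : ℕ) : ↥(beta0Ring A (beta0Field A))))
          (bgJ ↥(beta0Field A) (M * q * q)) (Sum.inl 𝔫))
        (atInc ((q : ℕ) : ↥(beta0Ring A (beta0Field A))) (bgJ ↥(beta0Field A) (M * q * q))
          (s36i1V M hq hA hqM hζ ιC h) (Sum.inl 𝔫))) :
    ∀ 𝔫 : AtPt (F := ↥(modularFunctionFieldFullC ↥(beta0Field A) (M * q * q)))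
        ((q : ℕ) : ↥(beta0Ring A (beta0Field A))) (bgJ ↥(beta0Field A) (M * q * q)),
      @S36PtInput F₁ ↥(modularFunctionFieldFullC ↥(beta0Field A) (M * q * q)) _ _ S36Comp Hor m α β Nα Nβ ζ₁
        (s36i1V M hq hA hqM hζ ιC h) S36Comp.a S36Comp.b S36Comp.c
        (atO ((q : ℕ) : ↥(beta0Ring A (beta0Field A))) (bgJ ↥(beta0Field A) (M * q * q))
          (Sum.inl 𝔫))
        (stb_atO_isLocalRing (π := ((q : ℕ) : ↥(beta0Ring A (beta0Field A))))
          (bgJ ↥(beta0Field A) (M * q * q)) (Sum.inl 𝔫))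
        (atInc ((q : ℕ) : ↥(beta0Ring A (beta0Field A))) (bgJ ↥(beta0Field A) (M * q * q))
          (s36i1V M hq hA hqM hζ ιC h) (Sum.inl 𝔫)) := by
  refine s36pa_h1 (s36i1V M hq hA hqM hζ ιC h) S36Comp.a S36Comp.b S36Comp.c s36i1_hκ
    (s36pf_hpt M hq hA hqM hζ ιC h hKR)
    (fun 𝔫 => (s36pf_two_three M hq hA hqM hζ ιC h gα gβ hgα hgβ hcα hcβ Uα Uβ 𝔫).1)
    (fun 𝔫 => (s36pf_two_three M hq hA hqM hζ ιC h gα gβ hgα hgβ hcα hcβ Uα Uβ 𝔫).2.1)
    (fun 𝔫 => (s36pf_two_three M hq hA hqM hζ ιC h gα gβ hgα hgβ hcα hcβ Uα Uβ 𝔫).2.2)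
    hPa hPb hPc hPt

end Conc

end Fermat.Agent.S36
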