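import Fermat.Agent.S36.SmallKR
import Fermat.Agent.S36.MidCusp
import Fermat.Agent.S36.NormSquares
import Fermat.Agent.S36.NormResI4

/-!
# S36 / G-top, the LAST wiring: `StmtCarayolSmall` from (I4) and (I6) (helper98)

At the concrete family `V = s36i1V M hq hA hqM hζ ιC h` (`S36/N2ValI1.lean`), for ANY choice of the
primitive `q`-th root of unity `ζ ∈ ℚ̄`, of the embeddings `ιC : E₀ →+* ℂ`, `ιK : K →+* ℂ` and of
the expansion at the middle cusp `h`:

* `StmtS36Ng`  : (I4) the two norm–residue packages `NgDir` (helper20);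
* `StmtS36Pts` : (I6) the point inputs `hpts` at every closed point of both charts;
* `stmtCarayolSmall_of : StmtS36Ng → StmtS36Pts → StmtCarayolSmall`;
* `stmtCarayolKummer_of_ng_pts : StmtS36Ng → StmtS36Pts → StmtCarayolKummer`
  (`= the only open input of S36`, `S36/Glue.lean : s36_result_of_kummer`);
* `stmtS36Ng : StmtS36Ng` (helper20's `s36nr_Dalpha`, `s36nr_Dbeta`), hence
  **`stmtCarayolKummer_of_pts : StmtS36Pts → StmtCarayolKummer`**: ONLY (I6) is left.
-/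

set_option autoImplicit false
set_option linter.style.haveILetI false
set_option linter.unusedSectionVars false
set_option linter.unusedVariables false
set_option linter.constructorNameAsVariable false

noncomputable section

namespace Fermat.Agent.S36

open ModularCurve AlgebraicCurve Fermat.Agent.ES Fermat.Agent.ES.G2 Fermat.Agent.INJ
open Fermat.Agent.UNIP Fermat.Agent.STB IntermediateField

/-- **(I4)** at the concrete family: the two norm–residue packages. -/
def StmtS36Ng : Prop :=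
  ∀ (M q : ℕ) [NeZero M] [NeZero q] (hq : q.Prime) (hqM : ¬ q ∣ M)
    (A : ValuationSubring (AlgebraicClosure ℚ)) (hA : A.LiesOverPrime q)
    [IsDiscreteValuationRing ↥(beta0Ring A (beta0Field A))]
    (ζ : AlgebraicClosure ℚ) (hζ : IsPrimitiveRoot ζ q)
    (ιC : ↥(beta0Field A) →+* ℂ) (ιK : ↥(s36n2bK A ζ) →+* ℂ)
    (h : S36MidEmb ↥(s36n2bK A ζ) q M (s36i1ZK (A := A) hq hζ)),
    ∃ Winf W0 : ValuationSubring ↥(modularFunctionFieldFullC ↥(beta0Field A) (M * q)),
      NgDir (s36Alpha ↥(beta0Field A) M q) (s36NormAlpha ↥(beta0Field A) M q) Winf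
        (s36i1V M hq hA hqM hζ ιC h S36Comp.a) (s36i1V M hq hA hqM hζ ιC h S36Comp.c)
        (s36i1V M hq hA hqM hζ ιC h S36Comp.b) (q - 1) q ∧
      NgDir (s36Beta ↥(beta0Field A) M q) (s36NormBeta ↥(beta0Field A) M q) W0
        (s36i1V M hq hA hqM hζ ιC h S36Comp.b) (s36i1V M hq hA hqM hζ ιC h S36Comp.c)
        (s36i1V M hq hA hqM hζ ιC h S36Comp.a) (q - 1) q

/-- **(I6)** at the concrete family: the point inputs at every closed point of both charts
`j`, `1 / j`, at the rigid levels. -/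
def StmtS36Pts : Prop :=
  ∀ (M q p : ℕ) [NeZero M] [NeZero q] (hq : q.Prime) (hp : p.Prime) (hpq : p ≠ q) (hp2 : p ≠ 2)
    (hR : S36Rigid M q)
    (A : ValuationSubring (AlgebraicClosure ℚ)) (hA : A.LiesOverPrime q)
    [IsDiscreteValuationRing ↥(beta0Ring A (beta0Field A))]
    (ζ : AlgebraicClosure ℚ) (hζ : IsPrimitiveRoot ζ q)
    (ιC : ↥(beta0Field A) →+* ℂ) (ιK : ↥(s36n2bK A ζ) →+* ℂ)
    (h : S36MidEmb ↥(s36n2bK A ζ) q M (s36i1ZK (A := A) hq hζ)),
    ∀ (r : ℕ) (ζm : ↥(beta0Ring A (beta0Field A))), IsPrimitiveRoot ζm (p ^ r) →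
      ∀ i : AtPt (F := ↥(modularFunctionFieldFullC ↥(beta0Field A) (M * q * q)))
          ((q : ℕ) : ↥(beta0Ring A (beta0Field A))) (bgJ ↥(beta0Field A) (M * q * q)) ⊕
        AtPt (F := ↥(modularFunctionFieldFullC ↥(beta0Field A) (M * q * q)))
          ((q : ℕ) : ↥(beta0Ring A (beta0Field A))) (bgJ ↥(beta0Field A) (M * q * q))⁻¹,
      @S36PtInput ↥(modularFunctionFieldFullC ↥(beta0Field A) (M * q))
        ↥(modularFunctionFieldFullC ↥(beta0Field A) (M * q * q)) _ _ S36Comp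
        (s36Hor ↥(beta0Field A) (p ^ r)) (p ^ r)
        (s36Alpha ↥(beta0Field A) M q) (s36Beta ↥(beta0Field A) M q)
        (s36NormAlpha ↥(beta0Field A) M q) (s36NormBeta ↥(beta0Field A) M q)
        (algebraMap ↥(beta0Field A) ↥(modularFunctionFieldFullC ↥(beta0Field A) (M * q))
          (algebraMap ↥(beta0Ring A (beta0Field A)) ↥(beta0Field A) ζm))
        (s36i1V M hq hA hR.1 hζ ιC h) S36Comp.a S36Comp.b S36Comp.c
        (atO ((q : ℕ) : ↥(beta0Ring A (beta0Field A))) (bgJ ↥(beta0Field A) (M * q * q)) i)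
        (stb_atO_isLocalRing (π := ((q : ℕ) : ↥(beta0Ring A (beta0Field A))))
          (bgJ ↥(beta0Field A) (M * q * q)) i)
        (atInc ((q : ℕ) : ↥(beta0Ring A (beta0Field A))) (bgJ ↥(beta0Field A) (M * q * q))
          (s36i1V M hq hA hR.1 hζ ιC h) i)

theorem s36so_rigid_h2 {M q : ℕ} (hR : S36Rigid M q) : q = 2 → 3 ∣ M := fun h2 =>
  dvd_trans (by decide : 3 ∣ 9) (hR.2.2 h2)

theorem s36so_rigid_h3 {M q : ℕ} (hR : S36Rigid M q) : q = 3 → 2 ∣ M := fun h3 =>
  dvd_trans (by decide : 2 ∣ 4) (hR.2.1 (by omega))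

/-- **G-top**: `StmtCarayolSmall` from (I4) and (I6). -/
theorem stmtCarayolSmall_of (h4 : StmtS36Ng) (h6 : StmtS36Pts) : StmtCarayolSmall := by
  intro M q p _ _ hq hp hpq hp2 hR A hA
  haveI := beta0Ring_isDVR_base (A := A) hq hA
  obtain ⟨ζ, hζ⟩ := HasEnoughRootsOfUnity.exists_primitiveRoot (AlgebraicClosure ℚ) q
  obtain ⟨ιC⟩ := s36dn_exists_emb (beta0Field A)
  obtain ⟨ιK⟩ := s36dn_exists_emb (s36n2bK A ζ)
  have h : S36MidEmb ↥(s36n2bK A ζ) q M (s36i1ZK (A := A) hq hζ) :=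
    s36midEmb ↥(s36n2bK A ζ) ιK hq hR.1 (s36i1ZK hq hζ) (s36i1ZK_isPrimitiveRoot hq hζ)
  obtain ⟨Winf, W0, Dα, Dβ⟩ := h4 M q hq hR.1 A hA ζ hζ ιC ιK h
  exact s36sk_small M hq hA hR.1 hζ ιC h hp hpq (s36so_rigid_h2 hR) (s36so_rigid_h3 hR) ιK
    Winf W0 Dα Dβ (h6 M q p hq hp hpq hp2 hR A hA ζ hζ ιC ιK h)

/-- **the only open input of S36** (`StmtCarayolKummer`) from (I4) and (I6). -/
theorem stmtCarayolKummer_of_ng_pts (h4 : StmtS36Ng) (h6 : StmtS36Pts) : StmtCarayolKummer :=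
  stmtCarayolKummer_of_small (stmtCarayolSmall_of h4 h6)

/-- **(I4)** is proved (helper20, `S36/NormResI4.lean`). -/
theorem stmtS36Ng : StmtS36Ng := fun M q _ _ hq hqM A hA _ ζ hζ ιC ιK h =>
  ⟨s36nrWinf M hq hA, s36nrW0 M hq hA hqM ιC, s36nr_Dalpha M hq hA hqM hζ ιC ιK h,
    s36nr_Dbeta M hq hA hqM hζ ιC ιK h⟩

/-- **G-top** from (I6) only. -/
theorem stmtCarayolSmall_of_pts (h6 : StmtS36Pts) : StmtCarayolSmall :=
  stmtCarayolSmall_of stmtS36Ng h6

/-- **the only open input of S36** from (I6) only. -/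
theorem stmtCarayolKummer_of_pts (h6 : StmtS36Pts) : StmtCarayolKummer :=
  stmtCarayolKummer_of_small (stmtCarayolSmall_of_pts h6)

end Fermat.Agent.S36

end
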