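/-
S36 (Carayol at `q² ∥ M`), geometric clause: PLAN of (I6) (helper31).

`StmtS36Pts` (`S36/SmallOf.lean`, helper98) is the LAST open statement of S36.  It is split here
into six named statements, one per owner, and proved from them:

* `StmtS36PtsUniq`     : chart maps `gα, gβ : B′ → B` and the uniqueness statements (Uα), (Uβ);
* `StmtS36PtsOne c₁`   : `S36PtInput` at the closed points of the chart `j` lying on the
                         component `c₁` only (`c₁ = a, b, c`);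
* `StmtS36PtsTriple`   : `S36PtInput` at the triple points of the chart `j`;
* `StmtS36PtsInf`      : `S36PtInput` at the closed points of the chart `1 / j` with `1 / j ∈ 𝔫`;
* `stmtS36Pts_of`      : the six statements imply `StmtS36Pts`.
-/
import Fermat.Agent.S36.PtsFinal
import Fermat.Agent.S36.PtsChart
import Fermat.Agent.S36.SmallOf

set_option autoImplicit false
set_option linter.unusedSectionVars false
set_option linter.unusedVariables false
set_option linter.style.haveILetI false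
set_option linter.constructorNameAsVariable false

noncomputable section

namespace Fermat.Agent.S36

open ModularCurve AlgebraicCurve Fermat.Agent.ES Fermat.Agent.ES.G2 Fermat.Agent.INJ
open Fermat.Agent.UNIP Fermat.Agent.STB IntermediateField

/-- **(I6)(e-U)**: the chart maps along `α`, `β` and the uniqueness of the point over its image
at the points of `C_b` (along `α`) and of `C_a` (along `β`). -/
def StmtS36PtsUniq : Prop :=
  ∀ (M q : ℕ) [NeZero M] [NeZero q] (hq : q.Prime) (hR : S36Rigid M q)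
    (A : ValuationSubring (AlgebraicClosure ℚ)) (hA : A.LiesOverPrime q)
    [IsDiscreteValuationRing ↥(beta0Ring A (beta0Field A))]
    (ζ : AlgebraicClosure ℚ) (hζ : IsPrimitiveRoot ζ q)
    (ιC : ↥(beta0Field A) →+* ℂ) (ιK : ↥(s36n2bK A ζ) →+* ℂ)
    (h : S36MidEmb ↥(s36n2bK A ζ) q M (s36i1ZK (A := A) hq hζ)),
    ∃ gα gβ : ↥(zchClosure (A₀ := ↥(beta0Ring A (beta0Field A)))
        ({bgJ ↥(beta0Field A) (M * q)} : Set ↥(modularFunctionFieldFullC ↥(beta0Field A) (M * q)))) →+*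
      ↥(zchClosure (A₀ := ↥(beta0Ring A (beta0Field A)))
        ({bgJ ↥(beta0Field A) (M * q * q)} : Set ↥(modularFunctionFieldFullC ↥(beta0Field A) (M * q * q)))),
      gα.IsIntegral ∧ gβ.IsIntegral ∧
      (∀ r, ((gα r : ↥(zchClosure (A₀ := ↥(beta0Ring A (beta0Field A)))
        ({bgJ ↥(beta0Field A) (M * q * q)} : Set ↥(modularFunctionFieldFullC ↥(beta0Field A) (M * q * q))))) : ↥(modularFunctionFieldFullC ↥(beta0Field A) (M * q * q))) =
        s36Alpha ↥(beta0Field A) M q (r : ↥(modularFunctionFieldFullC ↥(beta0Field A) (M * q)))) ∧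
      (∀ r, ((gβ r : ↥(zchClosure (A₀ := ↥(beta0Ring A (beta0Field A)))
        ({bgJ ↥(beta0Field A) (M * q * q)} : Set ↥(modularFunctionFieldFullC ↥(beta0Field A) (M * q * q))))) : ↥(modularFunctionFieldFullC ↥(beta0Field A) (M * q * q))) =
        s36Beta ↥(beta0Field A) M q (r : ↥(modularFunctionFieldFullC ↥(beta0Field A) (M * q)))) ∧
      (∀ 𝔫 : Ideal ↥(zchClosure (A₀ := ↥(beta0Ring A (beta0Field A)))
        ({bgJ ↥(beta0Field A) (M * q * q)} : Set ↥(modularFunctionFieldFullC ↥(beta0Field A) (M * q * q)))), 𝔫.IsPrime →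
        (∀ b : ↥(zchClosure (A₀ := ↥(beta0Ring A (beta0Field A)))
        ({bgJ ↥(beta0Field A) (M * q * q)} : Set ↥(modularFunctionFieldFullC ↥(beta0Field A) (M * q * q)))),
          (b : ↥(modularFunctionFieldFullC ↥(beta0Field A) (M * q * q))) ∈
            (s36i1V M hq hA hR.1 hζ ιC h S36Comp.b).nonunits → b ∈ 𝔫) →
        ∀ 𝔫₂ : Ideal ↥(zchClosure (A₀ := ↥(beta0Ring A (beta0Field A)))
        ({bgJ ↥(beta0Field A) (M * q * q)} : Set ↥(modularFunctionFieldFullC ↥(beta0Field A) (M * q * q)))), 𝔫₂.IsPrime → 𝔫₂.comap gα = 𝔫.comap gα → 𝔫₂ = 𝔫) ∧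
      (∀ 𝔫 : Ideal ↥(zchClosure (A₀ := ↥(beta0Ring A (beta0Field A)))
        ({bgJ ↥(beta0Field A) (M * q * q)} : Set ↥(modularFunctionFieldFullC ↥(beta0Field A) (M * q * q)))), 𝔫.IsPrime →
        (∀ b : ↥(zchClosure (A₀ := ↥(beta0Ring A (beta0Field A)))
        ({bgJ ↥(beta0Field A) (M * q * q)} : Set ↥(modularFunctionFieldFullC ↥(beta0Field A) (M * q * q)))),
          (b : ↥(modularFunctionFieldFullC ↥(beta0Field A) (M * q * q))) ∈
            (s36i1V M hq hA hR.1 hζ ιC h S36Comp.a).nonunits → b ∈ 𝔫) →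
        ∀ 𝔫₂ : Ideal ↥(zchClosure (A₀ := ↥(beta0Ring A (beta0Field A)))
        ({bgJ ↥(beta0Field A) (M * q * q)} : Set ↥(modularFunctionFieldFullC ↥(beta0Field A) (M * q * q)))), 𝔫₂.IsPrime → 𝔫₂.comap gβ = 𝔫.comap gβ → 𝔫₂ = 𝔫)

/-- **(I6)(a),(b)**: the closed points of the chart `j` lying on the component `c₁` only. -/
def StmtS36PtsOne (c₁ : S36Comp) : Prop :=
  ∀ (M q p : ℕ) [NeZero M] [NeZero q] (hq : q.Prime) (hp : p.Prime) (hpq : p ≠ q) (hp2 : p ≠ 2)
    (hR : S36Rigid M q)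
    (A : ValuationSubring (AlgebraicClosure ℚ)) (hA : A.LiesOverPrime q)
    [IsDiscreteValuationRing ↥(beta0Ring A (beta0Field A))]
    (ζ : AlgebraicClosure ℚ) (hζ : IsPrimitiveRoot ζ q)
    (ιC : ↥(beta0Field A) →+* ℂ) (ιK : ↥(s36n2bK A ζ) →+* ℂ)
    (h : S36MidEmb ↥(s36n2bK A ζ) q M (s36i1ZK (A := A) hq hζ)),
    ∀ (r : ℕ) (ζm : ↥(beta0Ring A (beta0Field A))), IsPrimitiveRoot ζm (p ^ r) →
      ∀ 𝔫 : AtPt (F := ↥(modularFunctionFieldFullC ↥(beta0Field A) (M * q * q)))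
          ((q : ℕ) : ↥(beta0Ring A (beta0Field A))) (bgJ ↥(beta0Field A) (M * q * q)),
        atThrough 𝔫 (s36i1V M hq hA hR.1 hζ ιC h c₁) →
        (∀ c, atThrough 𝔫 (s36i1V M hq hA hR.1 hζ ιC h c) → c = c₁) →
        @S36PtInput ↥(modularFunctionFieldFullC ↥(beta0Field A) (M * q))
          ↥(modularFunctionFieldFullC ↥(beta0Field A) (M * q * q)) _ _ S36Comp
          (s36Hor ↥(beta0Field A) (p ^ r)) (p ^ r)
          (s36Alpha ↥(beta0Field A) M q) (s36Beta ↥(beta0Field A) M q)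
          (s36NormAlpha ↥(beta0Field A) M q) (s36NormBeta ↥(beta0Field A) M q)
          (algebraMap ↥(beta0Field A) ↥(modularFunctionFieldFullC ↥(beta0Field A) (M * q))
            (algebraMap ↥(beta0Ring A (beta0Field A)) ↥(beta0Field A) ζm))
          (s36i1V M hq hA hR.1 hζ ιC h) S36Comp.a S36Comp.b S36Comp.c
          (atO ((q : ℕ) : ↥(beta0Ring A (beta0Field A))) (bgJ ↥(beta0Field A) (M * q * q)) (Sum.inl 𝔫))
          (stb_atO_isLocalRing (π := ((q : ℕ) : ↥(beta0Ring A (beta0Field A))))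
            (bgJ ↥(beta0Field A) (M * q * q)) (Sum.inl 𝔫))
          (atInc ((q : ℕ) : ↥(beta0Ring A (beta0Field A))) (bgJ ↥(beta0Field A) (M * q * q))
            (s36i1V M hq hA hR.1 hζ ιC h) (Sum.inl 𝔫))

/-- **(I6)(c)**: the triple points of the chart `j`. -/
def StmtS36PtsTriple : Prop :=
  ∀ (M q p : ℕ) [NeZero M] [NeZero q] (hq : q.Prime) (hp : p.Prime) (hpq : p ≠ q) (hp2 : p ≠ 2)
    (hR : S36Rigid M q)
    (A : ValuationSubring (AlgebraicClosure ℚ)) (hA : A.LiesOverPrime q)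
    [IsDiscreteValuationRing ↥(beta0Ring A (beta0Field A))]
    (ζ : AlgebraicClosure ℚ) (hζ : IsPrimitiveRoot ζ q)
    (ιC : ↥(beta0Field A) →+* ℂ) (ιK : ↥(s36n2bK A ζ) →+* ℂ)
    (h : S36MidEmb ↥(s36n2bK A ζ) q M (s36i1ZK (A := A) hq hζ)),
    ∀ (r : ℕ) (ζm : ↥(beta0Ring A (beta0Field A))), IsPrimitiveRoot ζm (p ^ r) →
      ∀ 𝔫 : AtPt (F := ↥(modularFunctionFieldFullC ↥(beta0Field A) (M * q * q)))
          ((q : ℕ) : ↥(beta0Ring A (beta0Field A))) (bgJ ↥(beta0Field A) (M * q * q)),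
        (∀ c, atThrough 𝔫 (s36i1V M hq hA hR.1 hζ ιC h c)) →
        @S36PtInput ↥(modularFunctionFieldFullC ↥(beta0Field A) (M * q))
          ↥(modularFunctionFieldFullC ↥(beta0Field A) (M * q * q)) _ _ S36Comp
          (s36Hor ↥(beta0Field A) (p ^ r)) (p ^ r)
          (s36Alpha ↥(beta0Field A) M q) (s36Beta ↥(beta0Field A) M q)
          (s36NormAlpha ↥(beta0Field A) M q) (s36NormBeta ↥(beta0Field A) M q)
          (algebraMap ↥(beta0Field A) ↥(modularFunctionFieldFullC ↥(beta0Field A) (M * q))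
            (algebraMap ↥(beta0Ring A (beta0Field A)) ↥(beta0Field A) ζm))
          (s36i1V M hq hA hR.1 hζ ιC h) S36Comp.a S36Comp.b S36Comp.c
          (atO ((q : ℕ) : ↥(beta0Ring A (beta0Field A))) (bgJ ↥(beta0Field A) (M * q * q)) (Sum.inl 𝔫))
          (stb_atO_isLocalRing (π := ((q : ℕ) : ↥(beta0Ring A (beta0Field A))))
            (bgJ ↥(beta0Field A) (M * q * q)) (Sum.inl 𝔫))
          (atInc ((q : ℕ) : ↥(beta0Ring A (beta0Field A))) (bgJ ↥(beta0Field A) (M * q * q))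
            (s36i1V M hq hA hR.1 hζ ιC h) (Sum.inl 𝔫))

/-- **(I6)(d)**: the closed points at `j = ∞` (chart `1 / j`, `1 / j ∈ 𝔫`). -/
def StmtS36PtsInf : Prop :=
  ∀ (M q p : ℕ) [NeZero M] [NeZero q] (hq : q.Prime) (hp : p.Prime) (hpq : p ≠ q) (hp2 : p ≠ 2)
    (hR : S36Rigid M q)
    (A : ValuationSubring (AlgebraicClosure ℚ)) (hA : A.LiesOverPrime q)
    [IsDiscreteValuationRing ↥(beta0Ring A (beta0Field A))]
    (ζ : AlgebraicClosure ℚ) (hζ : IsPrimitiveRoot ζ q)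
    (ιC : ↥(beta0Field A) →+* ℂ) (ιK : ↥(s36n2bK A ζ) →+* ℂ)
    (h : S36MidEmb ↥(s36n2bK A ζ) q M (s36i1ZK (A := A) hq hζ)),
    ∀ (r : ℕ) (ζm : ↥(beta0Ring A (beta0Field A))), IsPrimitiveRoot ζm (p ^ r) →
      ∀ 𝔫 : AtPt (F := ↥(modularFunctionFieldFullC ↥(beta0Field A) (M * q * q)))
          ((q : ℕ) : ↥(beta0Ring A (beta0Field A))) (bgJ ↥(beta0Field A) (M * q * q))⁻¹,
        (⟨(bgJ ↥(beta0Field A) (M * q * q))⁻¹, s36pc_self_mem (bgJ ↥(beta0Field A) (M * q * q))⁻¹⟩ :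
          ↥(zchClosure (A₀ := ↥(beta0Ring A (beta0Field A)))
            ({(bgJ ↥(beta0Field A) (M * q * q))⁻¹} : Set ↥(modularFunctionFieldFullC ↥(beta0Field A) (M * q * q))))) ∈ 𝔫.1 →
        @S36PtInput ↥(modularFunctionFieldFullC ↥(beta0Field A) (M * q))
          ↥(modularFunctionFieldFullC ↥(beta0Field A) (M * q * q)) _ _ S36Comp
          (s36Hor ↥(beta0Field A) (p ^ r)) (p ^ r)
          (s36Alpha ↥(beta0Field A) M q) (s36Beta ↥(beta0Field A) M q)
          (s36NormAlpha ↥(beta0Field A) M q) (s36NormBeta ↥(beta0Field A) M q)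
          (algebraMap ↥(beta0Field A) ↥(modularFunctionFieldFullC ↥(beta0Field A) (M * q))
            (algebraMap ↥(beta0Ring A (beta0Field A)) ↥(beta0Field A) ζm))
          (s36i1V M hq hA hR.1 hζ ιC h) S36Comp.a S36Comp.b S36Comp.c
          (atO ((q : ℕ) : ↥(beta0Ring A (beta0Field A))) (bgJ ↥(beta0Field A) (M * q * q)) (Sum.inr 𝔫))
          (stb_atO_isLocalRing (π := ((q : ℕ) : ↥(beta0Ring A (beta0Field A))))
            (bgJ ↥(beta0Field A) (M * q * q)) (Sum.inr 𝔫))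
          (atInc ((q : ℕ) : ↥(beta0Ring A (beta0Field A))) (bgJ ↥(beta0Field A) (M * q * q))
            (s36i1V M hq hA hR.1 hζ ιC h) (Sum.inr 𝔫))

/-- **(I6)** from its six pieces. -/
theorem stmtS36Pts_of (hU : StmtS36PtsUniq) (ha : StmtS36PtsOne S36Comp.a)
    (hb : StmtS36PtsOne S36Comp.b) (hc : StmtS36PtsOne S36Comp.c) (ht : StmtS36PtsTriple)
    (hinf : StmtS36PtsInf) : StmtS36Pts := by
  intro M q p _ _ hq hp hpq hp2 hR A hA _ ζ hζ ιC ιK h r ζm hζm
  obtain ⟨gα, gβ, hgα, hgβ, hcα, hcβ, Uα, Uβ⟩ := hU M q hq hR A hA ζ hζ ιC ιK h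
  have hπ : Irreducible ((q : ℕ) : ↥(beta0Ring A (beta0Field A))) := beta0Ring_irreducible_q hq hA
  have ht0 : (bgJ ↥(beta0Field A) (M * q * q)) ≠ 0 := by
    intro h0
    exact bgConst_transcendental_bgJ ↥(beta0Field A) (M * q * q) (by rw [h0]; exact isAlgebraic_zero)
  refine s36pc_hpts hπ ht0 (s36i1V M hq hA hR.1 hζ ιC h)
    (s36i1c_hBV₁ M hq hA hR.1 hζ ιC h) (s36i1c_hBV₂ M hq hA hR.1 hζ ιC h) ?_ ?_
  · exact s36pf_h1 M hq hA hR.1 hζ ιC h
      (s36sk_hKR M hq hA hR.1 hζ ιC h (s36so_rigid_h2 hR) (s36so_rigid_h3 hR) ιK)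
      gα gβ hgα hgβ hcα hcβ Uα Uβ
      (ha M q p hq hp hpq hp2 hR A hA ζ hζ ιC ιK h r ζm hζm)
      (hb M q p hq hp hpq hp2 hR A hA ζ hζ ιC ιK h r ζm hζm)
      (hc M q p hq hp hpq hp2 hR A hA ζ hζ ιC ιK h r ζm hζm)
      (ht M q p hq hp hpq hp2 hR A hA ζ hζ ιC ιK h r ζm hζm)
  · exact hinf M q p hq hp hpq hp2 hR A hA ζ hζ ιC ιK h r ζm hζm

end Fermat.Agent.S36
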