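/-
S36 (Carayol at `q² ∥ M`), geometric clause, (I6)(a) (helper62): the two named statements
`StmtS36PtsOne S36Comp.a`, `StmtS36PtsOne S36Comp.b` of `S36/PtsPlan.lean` (helper31):
`S36PtInput` at the closed points of the chart `j` of level `M q²` lying on `C_a` only, resp. on
`C_b` only.

* `StmtS36GenJ c` : "Gen_c on the chart `j`" — at every closed point `𝔫` of the chart `j` on the
  component `c` the branch `V c` is regular at `𝔫` (`S36n2pGen`), uniformly in the data.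
* `stmtS36PtsOne_a_of`, `stmtS36PtsOne_b_of` : `StmtS36GenJ c → StmtS36PtsOne c` for `c = a, b`
  (`s36cua_hPa`, `s36cua_hPb` of helper98 = `s36pab_one_inl` with `X = q`, `Y = 1`; (I2) `hKR` =
  `s36sk_hKR`).
-/
import Fermat.Agent.S36.PtsPlan
import Fermat.Agent.S36.PtsCuspA

set_option autoImplicit false
set_option linter.unusedSectionVars false
set_option linter.unusedVariables false
set_option linter.style.haveILetI false
set_option linter.constructorNameAsVariable false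

noncomputable section

namespace Fermat.Agent.S36

open ModularCurve AlgebraicCurve Fermat.Agent.ES Fermat.Agent.ES.G2 Fermat.Agent.INJ
open Fermat.Agent.UNIP Fermat.Agent.STB IntermediateField

/-- **Gen_c on the chart `j`**: the branch `V c` is regular at every closed point of the chart
`j` of level `M q²` lying on the component `c`. -/
def StmtS36GenJ (c : S36Comp) : Prop :=
  ∀ (M q : ℕ) [NeZero M] [NeZero q] (hq : q.Prime) (hR : S36Rigid M q)
    (A : ValuationSubring (AlgebraicClosure ℚ)) (hA : A.LiesOverPrime q)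
    [IsDiscreteValuationRing ↥(beta0Ring A (beta0Field A))]
    (ζ : AlgebraicClosure ℚ) (hζ : IsPrimitiveRoot ζ q)
    (ιC : ↥(beta0Field A) →+* ℂ) (ιK : ↥(s36n2bK A ζ) →+* ℂ)
    (h : S36MidEmb ↥(s36n2bK A ζ) q M (s36i1ZK (A := A) hq hζ)),
    ∀ 𝔫 : AtPt (F := ↥(modularFunctionFieldFullC ↥(beta0Field A) (M * q * q)))
        ((q : ℕ) : ↥(beta0Ring A (beta0Field A))) (bgJ ↥(beta0Field A) (M * q * q)),
      atThrough 𝔫 (s36i1V M hq hA hR.1 hζ ιC h c) →
      ∃ Y₀ ∈ 𝔫.1, S36n2pGen 𝔫.1 (s36i1V M hq hA hR.1 hζ ιC h c) Y₀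

/-- **(I6)(a), `C_a`**: from Gen_a on the chart `j`. -/
theorem stmtS36PtsOne_a_of (hgen : StmtS36GenJ S36Comp.a) : StmtS36PtsOne S36Comp.a := by
  intro M q p _ _ hq hp hpq hp2 hR A hA _ ζ hζ ιC ιK h r ζm hζm 𝔫 hthr honly
  exact s36cua_hPa M hq hA hR.1 hζ ιC h
    (s36sk_hKR M hq hA hR.1 hζ ιC h (s36so_rigid_h2 hR) (s36so_rigid_h3 hR) ιK)
    (hgen M q hq hR A hA ζ hζ ιC ιK h) (p ^ r) _ 𝔫 hthr honly

/-- **(I6)(a), `C_b`**: from Gen_b on the chart `j`. -/
theorem stmtS36PtsOne_b_of (hgen : StmtS36GenJ S36Comp.b) : StmtS36PtsOne S36Comp.b := by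
  intro M q p _ _ hq hp hpq hp2 hR A hA _ ζ hζ ιC ιK h r ζm hζm 𝔫 hthr honly
  exact s36cua_hPb M hq hA hR.1 hζ ιC h
    (s36sk_hKR M hq hA hR.1 hζ ιC h (s36so_rigid_h2 hR) (s36so_rigid_h3 hR) ιK)
    (hgen M q hq hR A hA ζ hζ ιC ιK h) (p ^ r) _ 𝔫 hthr honly

end Fermat.Agent.S36
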