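import Fermat.Agent.S36.PtsAB
import Fermat.Agent.S36.N2KerF1V
import Fermat.Agent.S36.PtsOneAB

/-!
# S36 / (I6): `Gen_b` on the chart `j` (helper33)

Concrete setting of `S36/SmallPart.lean`: `A₀ = beta0Ring A E₀`, `E₀ = beta0Field A`,
`F = F_{Mqq}(E₀)`, chart `B = zchClosure {j}` of level `M q²`, `V = s36i1V M hq hA hqM hζ ιC h`.

* `s36bgen_gen_abs` : the generic chart form (twin of helper80's `s36cgen_gen_abs`, for a chart
  homomorphism induced by `ψ : F″ →ₐ[A₀] F` with `ψ t` and `u` integral over each other instead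
  of `ψ t = u`): from (F1) on the chart `u` and `RegChart π t`, `∃ Y₀ ∈ 𝔫, S36n2pGen 𝔫 V Y₀` at
  every closed point `𝔫 : AtPt π u` on `V` (`s36pab_gen_of_lower` + `RegChart.locGen`).
* `s36bgen_hgenB` : the hypothesis `hgenB` of `s36cua_hPb` (helper98, `S36/PtsCuspA.lean`),
  VERBATIM: at every closed point `𝔫` of the special fibre of the chart `j` through which the
  component `C_b` passes, the branch `V_b` is regular at `𝔫` with a local parameter `g_b s`,
  `s` in the chart `C` of level `M` (`g_b : f ↦ f(Q^{q²})`, `ψ = s36n2kPsiB`);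
  `(F1) = s36n2k_F1_b` (helper99), regularity of the chart `j` of level `M`
  (`stb_regChart_conc_J`, `RegChart.locGen`).
* `stmtS36GenJ_b : StmtS36GenJ .b`, `stmtS36PtsOne_b : StmtS36PtsOne .b` (interfaces of
  helper62's `S36/PtsOneAB.lean` and helper31's `S36/PtsPlan.lean`).
-/

set_option autoImplicit false
set_option linter.style.haveILetI false
set_option linter.unusedSectionVars false
set_option linter.unusedVariables false
set_option linter.style.longLine false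
set_option linter.constructorNameAsVariable false
set_option synthInstance.maxHeartbeats 400000
set_option maxHeartbeats 1000000

noncomputable section

namespace Fermat.Agent.S36

open ModularCurve AlgebraicCurve Fermat.Agent.ES Fermat.Agent.ES.G2 Fermat.Agent.INJ
open Fermat.Agent.UNIP Fermat.Agent.STB IntermediateField

universe u

section Abs

variable {A₀ E F'' F : Type u} [CommRing A₀] [IsDomain A₀] [IsDiscreteValuationRing A₀]
  [Field E] [Algebra A₀ E] [IsFractionRing A₀ E] [CharZero E]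
  [Field F''] [Algebra E F''] [Algebra A₀ F''] [IsScalarTower A₀ E F'']
  [Field F] [Algebra E F] [Algebra A₀ F] [IsScalarTower A₀ E F]
  (ψ : F'' →ₐ[A₀] F) (t : F'') (u : F)
  (hu : IsIntegral ↥(Algebra.adjoin A₀ ({u} : Set F)) (ψ t))
  (hu' : IsIntegral ↥(Algebra.adjoin A₀ ({ψ t} : Set F)) u)

/-- **the chart homomorphism** `g : C_t → B_u` induced by `ψ` when `ψ t` is integral over
`A₀[u]`, with values in `zchClosure {u}`. -/
def s36bgenG : ↥(integralClosure ↥(Algebra.adjoin A₀ ({t} : Set F'')) F'') →+*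
    ↥(zchClosure (A₀ := A₀) ({u} : Set F)) where
  toFun c := ⟨ψ (c : F''), mem_zchClosure.mpr (s36n2k_chart_map_mem ψ t u hu c.2)⟩
  map_one' := Subtype.ext (map_one ψ)
  map_mul' _ _ := Subtype.ext (map_mul ψ _ _)
  map_zero' := Subtype.ext (map_zero ψ)
  map_add' _ _ := Subtype.ext (map_add ψ _ _)

theorem s36bgenG_coe (c : ↥(integralClosure ↥(Algebra.adjoin A₀ ({t} : Set F'')) F'')) :
    ((s36bgenG ψ t u hu c : ↥(zchClosure (A₀ := A₀) ({u} : Set F))) : F) = ψ (c : F'') := rfl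

theorem s36bgenG_algebraMap (a : A₀) :
    s36bgenG ψ t u hu
        (algebraMap A₀ ↥(integralClosure ↥(Algebra.adjoin A₀ ({t} : Set F'')) F'') a) =
      algebraMap A₀ ↥(zchClosure (A₀ := A₀) ({u} : Set F)) a := by
  apply Subtype.ext
  show ψ (algebraMap A₀ F'' a) = algebraMap A₀ F a
  exact ψ.commutes a

include hu' in
/-- `g` is integral when moreover `u` is integral over `A₀[ψ t]`. -/
theorem s36bgenG_isIntegral : (s36bgenG ψ t u hu).IsIntegral := by
  intro b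
  obtain ⟨p, hp, hpb⟩ := s36n2kChartHom_isIntegral ψ t u hu hu' ⟨(b : F), mem_zchClosure.mp b.2⟩
  refine ⟨p, hp, ?_⟩
  apply Subtype.ext
  have h1 := congrArg (fun z : ↥(integralClosure ↥(Algebra.adjoin A₀ ({u} : Set F)) F) =>
    (z : F)) hpb
  have h2 : ∀ r : Polynomial ↥(integralClosure ↥(Algebra.adjoin A₀ ({t} : Set F'')) F''),
      ((Polynomial.eval₂ (s36bgenG ψ t u hu) b r :
        ↥(zchClosure (A₀ := A₀) ({u} : Set F))) : F) =
      ((Polynomial.eval₂ (s36n2kChartHom ψ t u hu)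
        (⟨(b : F), mem_zchClosure.mp b.2⟩ :
          ↥(integralClosure ↥(Algebra.adjoin A₀ ({u} : Set F)) F)) r :
        ↥(integralClosure ↥(Algebra.adjoin A₀ ({u} : Set F)) F)) : F) := by
    intro r
    induction r using Polynomial.induction_on' with
    | add r₁ r₂ h₁ h₂ =>
      rw [Polynomial.eval₂_add, Polynomial.eval₂_add]
      show ((Polynomial.eval₂ (s36bgenG ψ t u hu) b r₁ :
          ↥(zchClosure (A₀ := A₀) ({u} : Set F))) : F) +
        ((Polynomial.eval₂ (s36bgenG ψ t u hu) b r₂ :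
          ↥(zchClosure (A₀ := A₀) ({u} : Set F))) : F) = _
      rw [h₁, h₂]
      rfl
    | monomial n a =>
      rw [Polynomial.eval₂_monomial, Polynomial.eval₂_monomial]
      rfl
  rw [h2 p]
  exact h1

include hu hu' in
/-- **the generic chart form** (twin of helper80's `s36cgen_gen_abs`): from (F1) on the chart `u`
and `RegChart π t`, for `ψ t` and `u` integral over each other. -/
theorem s36bgen_gen_abs {π : A₀} (hReg : RegChart (E := E) π t) (V : ValuationSubring F)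
    (hBV : ∀ b : F, IsIntegral ↥(Algebra.adjoin A₀ ({u} : Set F)) b → b ∈ V)
    (hπV : algebraMap A₀ F π ∈ V.nonunits)
    (hF1 : ∀ b : F, b ∈ V → IsIntegral ↥(Algebra.adjoin A₀ ({u} : Set F)) b →
      ∃ c : ↥(integralClosure ↥(Algebra.adjoin A₀ ({t} : Set F'')) F''),
        b - ψ (c : F'') ∈ V.nonunits)
    (𝔫 : AtPt (F := F) π u) (hthr : atThrough 𝔫 V) :
    ∃ Y₀ : ↥(zchClosure (A₀ := A₀) ({u} : Set F)), Y₀ ∈ 𝔫.1 ∧ S36n2pGen 𝔫.1 V Y₀ := by
  have hg := s36bgenG_isIntegral ψ t u hu hu'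
  have hBV' : ∀ b : ↥(zchClosure (A₀ := A₀) ({u} : Set F)),
      algebraMap ↥(zchClosure (A₀ := A₀) ({u} : Set F)) F b ∈ V :=
    fun b => hBV _ (mem_zchClosure.mp b.2)
  have hF1' : ∀ b : ↥(zchClosure (A₀ := A₀) ({u} : Set F)),
      ∃ c : ↥(integralClosure ↥(Algebra.adjoin A₀ ({t} : Set F'')) F''),
        algebraMap ↥(zchClosure (A₀ := A₀) ({u} : Set F)) F
          (b - s36bgenG ψ t u hu c) ∈ V.nonunits := by
    intro b
    obtain ⟨c, hc⟩ := hF1 (b : F) (hBV _ (mem_zchClosure.mp b.2)) (mem_zchClosure.mp b.2)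
    exact ⟨c, hc⟩
  have hπ' : algebraMap ↥(zchClosure (A₀ := A₀) ({u} : Set F)) F
      (s36bgenG ψ t u hu
        (algebraMap A₀ ↥(integralClosure ↥(Algebra.adjoin A₀ ({t} : Set F'')) F'') π)) ∈
      V.nonunits := by
    rw [s36bgenG_algebraMap]
    exact hπV
  obtain ⟨s, hs, hgen⟩ := s36pab_gen_of_lower (s36bgenG ψ t u hu)
    hg 𝔫.1 𝔫.2.1 V hBV' hthr hF1'
    (algebraMap A₀ ↥(integralClosure ↥(Algebra.adjoin A₀ ({t} : Set F'')) F'') π) hπ'
    (fun 𝔪 h𝔪 hπ𝔪 => hReg.locGen 𝔪 h𝔪 hπ𝔪)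
  exact ⟨_, hs, hgen⟩

end Abs

section GenB

variable {q : ℕ} {A : ValuationSubring (AlgebraicClosure ℚ)} (M : ℕ) [NeZero M] [NeZero q]
  [IsDiscreteValuationRing ↥(beta0Ring A (beta0Field A))]
  {ζ : AlgebraicClosure ℚ}
  (hq : q.Prime) (hA : A.LiesOverPrime q) (hqM : ¬ q ∣ M) (hζ : IsPrimitiveRoot ζ q)
  (ιC : ↥(beta0Field A) →+* ℂ)
  (h : S36MidEmb ↥(s36n2bK A ζ) q M (s36i1ZK (A := A) hq hζ))

/-- **(F1) for `(V_b, ψ_b)`** on the chart `j`, element form. -/
theorem s36bgen_hF1 (h2 : q = 2 → 3 ∣ M) (h3 : q = 3 → 2 ∣ M) (ιK : ↥(s36n2bK A ζ) →+* ℂ)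
    (b : ↥(modularFunctionFieldFullC ↥(beta0Field A) (M * q * q)))
    (hb : IsIntegral ↥(Algebra.adjoin ↥(beta0Ring A (beta0Field A))
      ({bgJ ↥(beta0Field A) (M * q * q)} :
        Set ↥(modularFunctionFieldFullC ↥(beta0Field A) (M * q * q)))) b) :
    ∃ c : ↥(integralClosure ↥(Algebra.adjoin ↥(beta0Ring A (beta0Field A))
        ({bgJ ↥(beta0Field A) M} : Set ↥(modularFunctionFieldFullC ↥(beta0Field A) M)))
        ↥(modularFunctionFieldFullC ↥(beta0Field A) M)),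
      b - s36n2kPsiB ↥(beta0Ring A (beta0Field A)) ↥(beta0Field A) ιC hq hqM
          (c : ↥(modularFunctionFieldFullC ↥(beta0Field A) M)) ∈
        (s36i1V M hq hA hqM hζ ιC h S36Comp.b).nonunits := by
  obtain ⟨c, hc⟩ := s36n2kv_F1_b M hq hA hqM hζ ιC h h2 h3 ιK ⟨b, hb⟩
  exact ⟨c, hc⟩

/-- **`hgenB` of `s36cua_hPb`** (helper98), VERBATIM: a local parameter of the branch `C_b` at
every closed point of the special fibre of the chart `j` of level `M q²` on `C_b`. -/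
theorem s36bgen_hgenB (h2 : q = 2 → 3 ∣ M) (h3 : q = 3 → 2 ∣ M) (ιK : ↥(s36n2bK A ζ) →+* ℂ) :
    ∀ 𝔫 : AtPt (F := ↥(modularFunctionFieldFullC ↥(beta0Field A) (M * q * q)))
        ((q : ℕ) : ↥(beta0Ring A (beta0Field A))) (bgJ ↥(beta0Field A) (M * q * q)),
      atThrough 𝔫 (s36i1V M hq hA hqM hζ ιC h S36Comp.b) →
      ∃ Y₀ ∈ 𝔫.1, S36n2pGen 𝔫.1 (s36i1V M hq hA hqM hζ ιC h S36Comp.b) Y₀ := by
  intro 𝔫 hthr
  have hReg : RegChart (E := ↥(beta0Field A)) ((q : ℕ) : ↥(beta0Ring A (beta0Field A)))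
      (bgJ ↥(beta0Field A) M) :=
    stb_regChart_conc_J M hq hA le_rfl (beta0Ring_irreducible_q hq hA) hqM h2 h3
  exact s36bgen_gen_abs (E := ↥(beta0Field A))
    (s36n2kPsiB ↥(beta0Ring A (beta0Field A)) ↥(beta0Field A) ιC hq hqM)
    (bgJ ↥(beta0Field A) M) (bgJ ↥(beta0Field A) (M * q * q))
    (by rw [s36n2kPsiB_bgJ]; exact s36n2l_isIntegral_Jqq (A := ↥(beta0Ring A (beta0Field A))) hq)
    (by rw [s36n2kPsiB_bgJ]
        exact s36n2k_isIntegral_J_Jqq ↥(beta0Ring A (beta0Field A)) ↥(beta0Field A) ιC hq hqM)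
    hReg
    (s36i1V M hq hA hqM hζ ιC h S36Comp.b)
    (s36i1c_hBV₁ M hq hA hqM hζ ιC h S36Comp.b)
    (s36i1c_hπV M hq hA hqM hζ ιC h S36Comp.b)
    (fun b hbV hb => s36bgen_hF1 M hq hA hqM hζ ιC h h2 h3 ιK b hb)
    𝔫 hthr

end GenB

/-- **`StmtS36GenJ .b`** (helper62's interface, `S36/PtsOneAB.lean`): Gen_b on the chart `j`. -/
theorem stmtS36GenJ_b : StmtS36GenJ S36Comp.b := by
  intro M q _ _ hq hR A hA _ ζ hζ ιC ιK h
  exact s36bgen_hgenB M hq hA hR.1 hζ ιC h (s36so_rigid_h2 hR) (s36so_rigid_h3 hR) ιK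

/-- **(I6)(a), `C_b`**: `StmtS36PtsOne .b`, unconditional. -/
theorem stmtS36PtsOne_b : StmtS36PtsOne S36Comp.b :=
  stmtS36PtsOne_b_of stmtS36GenJ_b

end Fermat.Agent.S36
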