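import Fermat.Agent.S36.ThinOrd
import Fermat.Agent.ES.I2.MFFormal
import Fermat.Agent.ES.Kronecker
import Fermat.Agent.S28.Red

/-!
# S36 (Carayol), G-thin (T3): the formal `q`-series part (helper37)

* `s36tf_theta_j_pow_six` : `(θ j)⁶ = j⁴ (j − 1728)³ Δ` in `ℤ((Q))`;
  `s36tf_theta_j_pow_six_field` : the same over a field, with `G = X⁴ (X − 1728)³` explicit.
* `s36tfFrobQuot q t` : the Frobenius quotient `A = (t^q − t(Q^q)) / q ∈ ℤ((Q))` of an integral
  series `t`;  `s36tf_frobQuot_spec : C q * A = t ^ q − qExpand ℤ q t`.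
* `s36tf_theta_frobQuot` : in characteristic `q`, `θ Ā = t̄^{q-1} θ t̄ − (θ t̄)^q`.
* `s36tf_H_mul_sq` : if `Ā · C(t̄) = B(t̄)` (`Ā ∈ k(t̄)`) then, with `H = (θ t̄)^{q-1}`,
  `H · C(t̄)² = (X^{q-1} C² − B' C + B C')(t̄)`.
* `s36tf_main` : `(θ t̄)⁶ = g(t̄) Δ̄`, `P₀(t̄) = D₀(t̄) Δ̄^{1-q}`, `Ā C(t̄) = B(t̄)`, `t̄` transcendental
  `⇒ P₀ · N⁶ = (D₀ g^{q-1}) · C¹²`, `N = X^{q-1} C² − B' C + B C'`  (the hypothesis of `ThinOrd`).
* `s36tf_j_generic`, `s36tf_j_zero`, `s36tf_j_1728` : the `j`-line: `P₀(j̄) = Δ̄^{1-q}`,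
  `Ā_j C(j̄) = B(j̄)`: every zero `a ≠ 0, 1728` of `P₀` has order `≥ 12`, a zero at `0` has order
  `≥ 4`, a zero at `1728` order `≥ 6`  (`q ≥ 5`).
-/

set_option autoImplicit false
set_option linter.style.haveILetI false
set_option linter.unusedSectionVars false
set_option linter.unusedVariables false

noncomputable section

namespace Fermat.Agent.S36

open Polynomial ModularCurve HahnSeries
open Fermat.Agent.S28 Fermat.Agent.S28.Deriv Fermat.Agent.ES.I2

/-! ### `(θ j)⁶ = j⁴ (j − 1728)³ Δ` -/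

theorem s36tf_theta_j_pow_six :
    thetaFun (jqModC ℤ) ^ 6 = jqModC ℤ ^ 4 * (jqModC ℤ - 1728) ^ 3 * deltaZ := by
  rw [mf_theta_j, mf_j_sub_eq, mf_j_eq]
  have h2 := mf_deltaInvZ_mul
  linear_combination (-(mfE4L ^ 12 * mfE6L ^ 6 * deltaInvZ ^ 6)) * h2

theorem s36tf_theta_j_pow_six_ring (R : Type*) [CommRing R] :
    thetaFun (jqModC R) ^ 6 = jqModC R ^ 4 * (jqModC R - 1728) ^ 3 * deltaS R := by
  have h := congrArg (coeffMap (Int.castRingHom R)) s36tf_theta_j_pow_six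
  rw [map_pow, ← thetaFun_coeffMap, coeffMap_jqModC, map_mul, map_mul, map_pow, map_pow, map_sub,
    coeffMap_jqModC, map_ofNat] at h
  exact h

theorem s36tf_theta_j_pow_six_field (k : Type*) [Field k] :
    thetaFun (jqModC k) ^ 6 =
      aeval (jqModC k) (X ^ 4 * (X - Polynomial.C (1728 : k)) ^ 3 : k[X]) * deltaS k := by
  rw [s36tf_theta_j_pow_six_ring k]
  simp only [map_mul, map_pow, map_sub, aeval_X, aeval_C]
  congr 2
  rw [map_ofNat]

/-! ### the Frobenius quotient -/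

section FrobQuot

variable (q : ℕ) [hq : Fact q.Prime]

instance s36tf_neZero : NeZero q := ⟨hq.out.ne_zero⟩

/-- In characteristic `q`, for a series with coefficients in the prime field:
`F(Q^q) = F(Q)^q`. -/
theorem s36tf_qExpand_eq_pow (k : Type*) [CommRing k] [CharP k q] (F : LaurentSeries ℤ) :
    qExpand k q (coeffMap (Int.castRingHom k) F) = coeffMap (Int.castRingHom k) F ^ q := by
  haveI : ExpChar k q := ExpChar.prime hq.out
  rw [Fermat.Agent.ES.kron_frobenius_pow q (coeffMap (Int.castRingHom k) F), coeffMap_coeffMap]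
  congr 1
  exact coeffMap_congr (RingHom.ext_int _ _) _

/-- every coefficient of `t^q − t(Q^q)` is divisible by `q`. -/
theorem s36tf_dvd_coeff (t : LaurentSeries ℤ) (n : ℤ) :
    (q : ℤ) ∣ (t ^ q - qExpand ℤ q t).coeff n := by
  have h : coeffMap (Int.castRingHom (ZMod q)) (t ^ q - qExpand ℤ q t) = 0 := by
    rw [map_sub, map_pow, ModularCurve.coeffMap_qExpand, s36tf_qExpand_eq_pow, sub_self]
  have h1 := congrArg (fun x : LaurentSeries (ZMod q) => x.coeff n) h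
  simp only [coeffMap_coeff, HahnSeries.coeff_zero] at h1
  exact (ZMod.intCast_zmod_eq_zero_iff_dvd _ q).1 h1

/-- the Frobenius quotient `(t^q − t(Q^q)) / q` of an integral Laurent series. -/
def s36tfFrobQuot (t : LaurentSeries ℤ) : LaurentSeries ℤ where
  coeff n := (t ^ q - qExpand ℤ q t).coeff n / (q : ℤ)
  isPWO_support' := (t ^ q - qExpand ℤ q t).isPWO_support.mono (fun n hn => by
    simp only [Function.mem_support, ne_eq] at hn ⊢
    intro h
    exact hn (by rw [h, Int.zero_ediv]))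

theorem s36tf_frobQuot_spec (t : LaurentSeries ℤ) :
    (HahnSeries.C (q : ℤ) : LaurentSeries ℤ) * s36tfFrobQuot q t = t ^ q - qExpand ℤ q t := by
  ext n
  rw [HahnSeries.C_mul_eq_smul, HahnSeries.coeff_smul, smul_eq_mul]
  show (q : ℤ) * ((t ^ q - qExpand ℤ q t).coeff n / (q : ℤ)) = _
  exact Int.mul_ediv_cancel' (s36tf_dvd_coeff q t n)

/-- `θ A = t^{q-1} θ t − (θ t)(Q^q)` over `ℤ`. -/
theorem s36tf_theta_frobQuot_int (t A : LaurentSeries ℤ)
    (hA : (HahnSeries.C (q : ℤ) : LaurentSeries ℤ) * A = t ^ q - qExpand ℤ q t) :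
    thetaFun A = t ^ (q - 1) * thetaFun t - qExpand ℤ q (thetaFun t) := by
  have h := congrArg thetaFun hA
  rw [thetaFun_mul, thetaFun_C, mul_zero, add_zero, thetaFun_sub, thetaFun_pow,
    thetaFun_qExpand] at h
  have hq0 : (HahnSeries.C (q : ℤ) : LaurentSeries ℤ) ≠ 0 :=
    HahnSeries.C_ne_zero (Nat.cast_ne_zero.mpr hq.out.ne_zero)
  have hcast : ((q : ℕ) : LaurentSeries ℤ) = HahnSeries.C (q : ℤ) := by
    rw [← map_natCast (HahnSeries.C : ℤ →+* LaurentSeries ℤ) q]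
  apply mul_left_cancel₀ hq0
  rw [h, hcast]
  ring

/-- **(T3), formal part**: in characteristic `q`, `θ Ā = t̄^{q-1} θ t̄ − (θ t̄)^q`. -/
theorem s36tf_theta_frobQuot (k : Type*) [CommRing k] [CharP k q] (t A : LaurentSeries ℤ)
    (hA : (HahnSeries.C (q : ℤ) : LaurentSeries ℤ) * A = t ^ q - qExpand ℤ q t) :
    thetaFun (coeffMap (Int.castRingHom k) A) =
      coeffMap (Int.castRingHom k) t ^ (q - 1) * thetaFun (coeffMap (Int.castRingHom k) t)
        - thetaFun (coeffMap (Int.castRingHom k) t) ^ q := by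
  rw [thetaFun_coeffMap, s36tf_theta_frobQuot_int q t A hA, map_sub, map_mul, map_pow,
    ModularCurve.coeffMap_qExpand, s36tf_qExpand_eq_pow, thetaFun_coeffMap]

end FrobQuot

/-! ### `H C² = (X^{q-1} C² − B' C + B C')(t̄)` -/

/-- If `Ā ∈ k(t̄)`, `Ā · C(t̄) = B(t̄)`, and `θ Ā = t̄^{q-1} θ t̄ − (θ t̄)^q` with `θ t̄ ≠ 0`, then
`H := (θ t̄)^{q-1}` satisfies `H · C(t̄)² = (X^{q-1} C² − B' C + B C')(t̄)`. -/
theorem s36tf_H_mul_sq {k : Type*} [Field k] (q : ℕ) (hq : 0 < q)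
    (tb Ab : LaurentSeries k) (hθ : thetaFun tb ≠ 0)
    (hAb : thetaFun Ab = tb ^ (q - 1) * thetaFun tb - thetaFun tb ^ q)
    (B C : k[X]) (hBC : Ab * aeval tb C = aeval tb B) :
    thetaFun tb ^ (q - 1) * aeval tb C ^ 2 =
      aeval tb (X ^ (q - 1) * C ^ 2 - derivative B * C + B * derivative C) := by
  have h := congrArg thetaFun hBC
  rw [thetaFun_mul, thetaFun_aeval, thetaFun_aeval, hAb] at h
  have hpow : thetaFun tb ^ q = thetaFun tb ^ (q - 1) * thetaFun tb := by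
    rw [← pow_succ, Nat.sub_add_cancel hq]
  rw [hpow] at h
  apply mul_right_cancel₀ hθ
  simp only [map_add, map_sub, map_mul, map_pow, aeval_X]
  linear_combination (-(aeval tb C)) * h + (aeval tb (derivative C) * thetaFun tb) * hBC

/-! ### the main formal statement -/

/-- **(T2) + (T3), formal.**  `t̄ ∈ k((Q))` transcendental over `k` (char `q`), reduction of the
integral series `t`; `(θ t̄)⁶ = g(t̄) Δ̄`, `g ≠ 0`; `P₀(t̄) = D₀(t̄) · Δ̄^{1-q}`; the Frobenius quotient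
`Ā` is the rational function `B(t̄) / C(t̄)`.  Then `P₀ · N⁶ = (D₀ g^{q-1}) · C¹²` with
`N = X^{q-1} C² − B' C + B C'`. -/
theorem s36tf_main {k : Type*} [Field k] (q : ℕ) [hq : Fact q.Prime] [CharP k q]
    (t A : LaurentSeries ℤ)
    (hA : (HahnSeries.C (q : ℤ) : LaurentSeries ℤ) * A = t ^ q - qExpand ℤ q t)
    (ht : Transcendental k (coeffMap (Int.castRingHom k) t))
    (g : k[X]) (hg0 : g ≠ 0)
    (hg : thetaFun (coeffMap (Int.castRingHom k) t) ^ 6 =
      aeval (coeffMap (Int.castRingHom k) t) g * deltaS k)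
    (P₀ D₀ B C : k[X])
    (hP : aeval (coeffMap (Int.castRingHom k) t) P₀ =
      aeval (coeffMap (Int.castRingHom k) t) D₀ * (deltaS k * deltaInvS k ^ q))
    (hBC : coeffMap (Int.castRingHom k) A * aeval (coeffMap (Int.castRingHom k) t) C =
      aeval (coeffMap (Int.castRingHom k) t) B) :
    P₀ * (X ^ (q - 1) * C ^ 2 - derivative B * C + B * derivative C) ^ 6 =
      (D₀ * g ^ (q - 1)) * C ^ 12 := by
  set tb := coeffMap (Int.castRingHom k) t with htb
  have hΔ : deltaS k * deltaInvS k = 1 := deltaS_mul_deltaInvS k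
  have hg1 : aeval tb g ≠ 0 := by
    intro h0
    exact hg0 ((transcendental_iff_injective.1 ht) (by rw [h0, map_zero]))
  have hθ : thetaFun tb ≠ 0 := by
    intro h0
    rw [h0] at hg
    have : aeval tb g * deltaS k ≠ 0 := mul_ne_zero hg1 (deltaS_ne_zero k)
    exact this (by rw [← hg]; simp)
  have hq1 : 0 < q := hq.out.pos
  have h2 := s36tf_H_mul_sq q hq1 tb (coeffMap (Int.castRingHom k) A) hθ
    (s36tf_theta_frobQuot q k t A hA) B C hBC
  refine s36thin_poly_of_aeval ht (H := thetaFun tb ^ (q - 1)) ?_ h2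
  -- `P₀(t̄) H⁶ = D₀(t̄) g(t̄)^{q-1}`
  have hpow : deltaS k ^ (q - 1) * deltaS k = deltaS k ^ q := by
    rw [← pow_succ, Nat.sub_add_cancel hq1]
  have hΔq : deltaS k ^ q * deltaInvS k ^ q = 1 := by
    rw [← mul_pow, hΔ, one_pow]
  rw [hP, ← pow_mul, mul_comm (q - 1) 6, pow_mul, hg, mul_pow, map_mul, map_pow]
  calc aeval tb D₀ * (deltaS k * deltaInvS k ^ q) * (aeval tb g ^ (q - 1) * deltaS k ^ (q - 1))
      = aeval tb D₀ * aeval tb g ^ (q - 1) * ((deltaS k ^ (q - 1) * deltaS k) * deltaInvS k ^ q) := by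
        ring
    _ = aeval tb D₀ * aeval tb g ^ (q - 1) := by rw [hpow, hΔq, mul_one]

/-! ### the `j`-line -/

section JLine

variable {k : Type*} [Field k] (q : ℕ) [hq : Fact q.Prime] [CharP k q]

theorem s36tf_1728_ne_zero (h5 : 5 ≤ q) : (1728 : k) ≠ 0 := by
  intro h
  have h1 : ((1728 : ℕ) : k) = 0 := by exact_mod_cast h
  rw [CharP.cast_eq_zero_iff k q] at h1
  have h2 : (1728 : ℕ) = 2 ^ 6 * 3 ^ 3 := by norm_num
  rw [h2] at h1
  rcases (Nat.Prime.dvd_mul hq.out).1 h1 with h3 | h3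
  · have := (Nat.prime_dvd_prime_iff_eq hq.out Nat.prime_two).1 (hq.out.dvd_of_dvd_pow h3)
    omega
  · have := (Nat.prime_dvd_prime_iff_eq hq.out Nat.prime_three).1 (hq.out.dvd_of_dvd_pow h3)
    omega

/-- the polynomial identity on the `j`-line. -/
theorem s36tf_j_poly (P₀ B C : k[X])
    (hP : aeval (jqModC k) P₀ = deltaS k * deltaInvS k ^ q)
    (hBC : coeffMap (Int.castRingHom k) (s36tfFrobQuot q (jqModC ℤ)) * aeval (jqModC k) C =
      aeval (jqModC k) B) :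
    P₀ * (X ^ (q - 1) * C ^ 2 - derivative B * C + B * derivative C) ^ 6 =
      (X ^ 4 * (X - Polynomial.C (1728 : k)) ^ 3) ^ (q - 1) * C ^ 12 := by
  have hj : coeffMap (Int.castRingHom k) (jqModC ℤ) = jqModC k := coeffMap_jqModC _
  have hg0 : (X ^ 4 * (X - Polynomial.C (1728 : k)) ^ 3 : k[X]) ≠ 0 :=
    mul_ne_zero (pow_ne_zero _ X_ne_zero) (pow_ne_zero _ (X_sub_C_ne_zero _))
  have := s36tf_main q (jqModC ℤ) (s36tfFrobQuot q (jqModC ℤ)) (s36tf_frobQuot_spec q _)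
    (by rw [hj]; exact red_transcendental_jqModC k)
    (X ^ 4 * (X - Polynomial.C (1728 : k)) ^ 3) hg0
    (by rw [hj]; exact s36tf_theta_j_pow_six_field k) P₀ 1 B C
    (by rw [hj, map_one, one_mul]; exact hP) (by rw [hj]; exact hBC)
  rwa [one_mul] at this

theorem s36tf_P₀_ne_zero (P₀ : k[X]) (hP : aeval (jqModC k) P₀ = deltaS k * deltaInvS k ^ q) :
    P₀ ≠ 0 := by
  rintro rfl
  rw [map_zero] at hP
  have h1 : deltaInvS k ≠ 0 := by
    intro h0
    have := deltaS_mul_deltaInvS k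
    rw [h0, mul_zero] at this
    exact zero_ne_one this
  exact mul_ne_zero (deltaS_ne_zero k) (pow_ne_zero _ h1) hP.symm

/-- **Zeros of `P₀ = Δ̄^{1-q}` off `0, 1728` have order `≥ 12`.** -/
theorem s36tf_j_generic (P₀ B C : k[X]) (hC : C ≠ 0)
    (hP : aeval (jqModC k) P₀ = deltaS k * deltaInvS k ^ q)
    (hBC : coeffMap (Int.castRingHom k) (s36tfFrobQuot q (jqModC ℤ)) * aeval (jqModC k) C =
      aeval (jqModC k) B)
    (a : k) (hPa : P₀.eval a = 0) (ha0 : a ≠ 0) (ha : a ≠ 1728) :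
    (X - Polynomial.C a : k[X]) ^ 12 ∣ P₀ :=
  s36thin_j_generic q hC (s36tf_j_poly q P₀ B C hP hBC) a hPa ha0 ha

/-- a zero of `P₀` at `0` has order `≥ 4` (`q ≥ 5`). -/
theorem s36tf_j_zero (h5 : 5 ≤ q) (P₀ B C : k[X]) (hC : C ≠ 0)
    (hP : aeval (jqModC k) P₀ = deltaS k * deltaInvS k ^ q)
    (hBC : coeffMap (Int.castRingHom k) (s36tfFrobQuot q (jqModC ℤ)) * aeval (jqModC k) C =
      aeval (jqModC k) B)
    (hP0 : P₀.eval 0 = 0) :
    (X : k[X]) ^ 4 ∣ P₀ := by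
  have h1728 : (1728 : k) ≠ 0 := s36tf_1728_ne_zero q h5
  have hq3 : ¬ 3 ∣ q := by
    intro h
    have := (Nat.prime_dvd_prime_iff_eq Nat.prime_three hq.out).1 h
    omega
  exact s36thin_j_zero q (s36tf_P₀_ne_zero q P₀ hP) hC (s36tf_j_poly q P₀ B C hP hBC) h1728 hq3
    hq.out.pos hP0

/-- a zero of `P₀` at `1728` has order `≥ 6` (`q ≥ 5`). -/
theorem s36tf_j_1728 (h5 : 5 ≤ q) (P₀ B C : k[X]) (hC : C ≠ 0)
    (hP : aeval (jqModC k) P₀ = deltaS k * deltaInvS k ^ q)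
    (hBC : coeffMap (Int.castRingHom k) (s36tfFrobQuot q (jqModC ℤ)) * aeval (jqModC k) C =
      aeval (jqModC k) B)
    (hP0 : P₀.eval 1728 = 0) :
    (X - Polynomial.C (1728 : k) : k[X]) ^ 6 ∣ P₀ := by
  have h1728 : (1728 : k) ≠ 0 := s36tf_1728_ne_zero q h5
  have hq2 : ¬ 2 ∣ q := by
    intro h
    have := (Nat.prime_dvd_prime_iff_eq Nat.prime_two hq.out).1 h
    omega
  exact s36thin_j_1728 q (s36tf_P₀_ne_zero q P₀ hP) hC (s36tf_j_poly q P₀ B C hP hBC) h1728 hq2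
    hP0

end JLine

end Fermat.Agent.S36
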