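import Fermat.Agent.S36.PtsCInt
import Fermat.Agent.S36.PtsCTheta
import Fermat.Agent.S36.MidThetaMod
import Fermat.Agent.S36.ThinUnit
import Fermat.Agent.S36.N2Val

/-!
# S36 / (I6)(b-CONG): the congruence at the middle component `C_c` (helper57)

Setting of `S36/N2Val.lean`: base `(A', E', k', r', π')`, `ψ : E →+* E'`, `h : S36MidEmb E' q M ζ`,
`z : A'ˣ` a primitive `q`-th root of unity with `r' z = 1`, `V_c = s36n2VC hB' ψ hq h z hz`.
`F = modularFunctionFieldFullC E (M * q * q)`.  For ANY elements `X, t, T ∈ F` with expansions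
`X = t(Q^{q²}) − t`, `t = s36rig_t4 E` (resp. `s36rig_t9 E`), `T = uS E q = Δ(Q^q)/Δ(Q)`:

* `s36cg_cong_t4` (`4 ∣ M`, `2 ≠ 0` in `k'`):
  `(X^(q−1)/q)⁶ − (t² (t+16)⁵)^(q−1) · T ∈ 𝔪(V_c)`;
* `s36cg_cong_t9` (`9 ∣ M`, `3 ≠ 0` in `k'`):
  `(X^(q−1)/q)⁶ · (t³)^(q−1) − ((t² + 9t + 27)⁵)^(q−1) · T ∈ 𝔪(V_c)`,
  `s36cg_cong_t9'` : `(X^(q−1)/q)⁶ − ((t² + 9t + 27)⁵)^(q−1) · T / (t³)^(q−1) ∈ 𝔪(V_c)`;
* `s36cg_U_mem`, `s36cg_T_mem`, `s36cg_t4_mem`, `s36cg_t9_mem` : `X^(q−1)/q, T, t ∈ V_c`;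
  `s36cg_T_unit`, `s36cg_t9_unit` : `T`, `t₉` are units of `V_c`.

Concrete forms (`V = s36i1V M hq hA hqM hζ ιC h`, `c₁ = S36Comp.c`, `E = beta0Field A`, the
elements of `S36/PtsCElts.lean`): `S36/PtsCCongInst.lean`.
-/

set_option autoImplicit false
set_option linter.unusedSectionVars false
set_option linter.unusedVariables false
set_option linter.style.haveILetI false

noncomputable section

namespace Fermat.Agent.S36

open ModularCurve Fermat.Agent.UNIP Fermat.Agent.INJ Fermat.Agent.AL Fermat.Agent.ES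
open Fermat.Agent.S28 Fermat.Agent.S28.Deriv

/-! ## The reduced identities -/

section Red

variable (k : Type*) [Field k] (q : ℕ) [NeZero q] [hqf : Fact q.Prime] [CharP k q]

/-- `ū_q · (Δ̄ · (Δ̄⁻¹)^q) = 1` in characteristic `q` -/
theorem s36cg_uS_mul_P :
    uS k q * (deltaS k * deltaInvS k ^ q) = 1 := by
  have h1 : qExpand k q (deltaInvS k) = deltaInvS k ^ q :=
    nodesFrob_qExpand_int (k := k) q deltaInvZ
  rw [← h1, ← uInvS_eq_mul_qExpand, uS_mul_uInvS]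

/-- level `4`: `u⁶ = (t̄² (t̄ + 16)⁵)^(q−1) · ū_q` for `u = −(θ t̄)^(q−1)` -/
theorem s36cg_red_t4 (h2 : (2 : k) ≠ 0) :
    (-(thetaFun (s36rig_t4 k)) ^ (q - 1)) ^ 6 -
      (s36rig_t4 k ^ 2 * (s36rig_t4 k + 16) ^ 5) ^ (q - 1) * uS k q = 0 := by
  have h1 := s36cc_unit_t4 k h2 q hqf.out.one_le
    (u := -(thetaFun (s36rig_t4 k)) ^ (q - 1)) (Or.inl rfl)
  have h3 := s36cg_uS_mul_P k q
  rw [← h1]
  linear_combination (-(-(thetaFun (s36rig_t4 k)) ^ (q - 1)) ^ 6) * h3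

/-- level `9`: `u⁶ (t̄³)^(q−1) = ((t̄² + 9 t̄ + 27)⁵)^(q−1) · ū_q` for `u = −(θ t̄)^(q−1)` -/
theorem s36cg_red_t9 (h3 : (3 : k) ≠ 0) :
    (-(thetaFun (s36rig_t9 k)) ^ (q - 1)) ^ 6 * (s36rig_t9 k ^ 3) ^ (q - 1) -
      ((s36rig_t9 k ^ 2 + 9 * s36rig_t9 k + 27) ^ 5) ^ (q - 1) * uS k q = 0 := by
  have h1 := s36cc_unit_t9 k h3 q hqf.out.one_le
    (u := -(thetaFun (s36rig_t9 k)) ^ (q - 1)) (Or.inl rfl)
  have h4 := s36cg_uS_mul_P k q
  rw [← h1]
  linear_combination (-(-(thetaFun (s36rig_t9 k)) ^ (q - 1)) ^ 6 *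
    (s36rig_t9 k ^ 3) ^ (q - 1)) * h4

end Red

section Ne

variable (k : Type*) [Field k]

/-- `t₉ ≠ 0` in characteristic `≠ 3` -/
theorem s36cg_t9_ne_zero (h3 : (3 : k) ≠ 0) : s36rig_t9 k ≠ 0 := by
  intro h0
  have T1 := s36rig_t9_cube k
  rw [h0] at T1
  have h27 : (27 : LaurentSeries k) ≠ 0 := by
    have e : (27 : LaurentSeries k) = HahnSeries.C ((3 : k) ^ 3) := by
      rw [map_pow, map_ofNat]; norm_num
    rw [e]
    exact (map_ne_zero (HahnSeries.C : k →+* LaurentSeries k)).mpr (pow_ne_zero 3 h3)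
  have : (27 : LaurentSeries k) * hm3 k = 0 := by linear_combination -T1
  rcases mul_eq_zero.mp this with h' | h'
  · exact h27 h'
  · exact s36cc_hm3_ne_zero k h'

end Ne

/-! ## Generic part -/

section Gen

variable {E A' E' k' : Type*} [Field E] [CommRing A'] [IsDomain A'] [Field E'] [CharZero E']
  [Field k'] {ι' : A' →+* E'} {r' : A' →+* k'} {π' : A'}
  (hB' : VtBase ι' r' π') (ψ : E →+* E') (ιK : E' →+* ℂ)
  {q M : ℕ} [NeZero q] [NeZero M] [NeZero (M * q)] [NeZero (M * q * q)]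
  (hq : q.Prime) (hqM : ¬ q ∣ M)
  {ζ : E'ˣ} (h : S36MidEmb E' q M ζ) (z : A'ˣ) (hz : Units.map (ι' : A' →* E') z = ζ)

/-- expansion at the middle cusp of an element whose base change lies in `F_{Mq}(E')` -/
theorem s36cg_embC_low (x : modularFunctionFieldFullC E (M * q * q))
    (hx : coeffMap ψ (x : LaurentSeries E) ∈ modularFunctionFieldFullC E' (M * q)) :
    s36n2EmbC ψ h x = coeffMap ψ (x : LaurentSeries E) := by
  rw [s36n2EmbC_apply]
  have e1 : mgaCoeffHom ψ (M * q * q) x =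
      ⟨coeffMap ψ (x : LaurentSeries E), s36mid_low_le hx⟩ :=
    Subtype.ext (mgaCoeffHom_coe ψ _ x)
  rw [e1]
  exact h.emb_of_mem_low hx

include ιK hq hqM in
/-- expansion at the middle cusp of `Π_f = f(Q^{q²}) − f`, `f ∈ F_M(E')` -/
theorem s36cg_embC_Pi (hζq : ζ ^ q = 1) {f : LaurentSeries E'}
    (hf : f ∈ modularFunctionFieldFullC E' M)
    (X : modularFunctionFieldFullC E (M * q * q))
    (hX : coeffMap ψ (X : LaurentSeries E) = qExpand E' q (qExpand E' q f) - f) :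
    s36n2EmbC ψ h X = kronRot ζ f - f := by
  rw [s36n2EmbC_apply]
  have e1 : mgaCoeffHom ψ (M * q * q) X =
      ⟨qExpand E' q (qExpand E' q f) - f, s36th_Pi_mem hf⟩ :=
    Subtype.ext ((mgaCoeffHom_coe ψ _ X).trans hX)
  rw [e1]
  exact s36th_emb_Pi ιK hq hqM h hζq hf

include hz in
theorem s36cg_zeta_pow (hζ : IsPrimitiveRoot (z : A') q) : ζ ^ q = 1 := by
  rw [← hz, ← map_pow]
  have h1 : z ^ q = 1 := by
    apply Units.ext
    rw [Units.val_pow_eq_pow_val, hζ.pow_eq_one, Units.val_one]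
  rw [h1, map_one]

/-- the valuation subring `V_c` is the preimage of the Gauss ring -/
theorem s36cg_mem_nonunits_iff {x : modularFunctionFieldFullC E (M * q * q)} :
    x ∈ (s36n2VC hB' ψ hq h z hz).nonunits ↔
      ∃ hm : s36n2EmbC ψ h x ∈ gaussRing ι' r',
        gaussRed r' hB'.inj ⟨s36n2EmbC ψ h x, hm⟩ = 0 :=
  vtSub_mem_nonunits_iff hB' (s36n2EmbC ψ h) (fun _ => s36n2_frac_emb hB' hq h z hz _)

/-- an element with an integral expansion is in `V_c` and its reduction is the reduced series -/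
theorem s36cg_red_of_eq {x : modularFunctionFieldFullC E (M * q * q)} {S : LaurentSeries A'}
    (hx : s36n2EmbC ψ h x = coeffMap ι' S) :
    ∃ hm : s36n2EmbC ψ h x ∈ gaussRing ι' r',
      gaussRed r' hB'.inj ⟨s36n2EmbC ψ h x, hm⟩ = coeffMap r' S := by
  have hm : s36n2EmbC ψ h x ∈ gaussRing ι' r' := by
    rw [hx]; exact coeffMap_mem_gaussRing ι' r' S
  refine ⟨hm, ?_⟩
  have e1 : (⟨s36n2EmbC ψ h x, hm⟩ : gaussRing ι' r') =
      ⟨coeffMap ι' S, coeffMap_mem_gaussRing ι' r' S⟩ := Subtype.ext hx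
  rw [e1, gaussRed_coeffMap]

/-- membership in `V_c` from membership of the expansion in the Gauss ring -/
theorem s36cg_mem_of {x : modularFunctionFieldFullC E (M * q * q)}
    (hm : s36n2EmbC ψ h x ∈ gaussRing ι' r') : x ∈ s36n2VC hB' ψ hq h z hz := hm

/-- an element of `V_c` with nonzero reduction is a unit of `V_c` -/
theorem s36cg_valuation_eq_one {x : modularFunctionFieldFullC E (M * q * q)}
    (hm : s36n2EmbC ψ h x ∈ gaussRing ι' r')
    (hne : gaussRed r' hB'.inj ⟨s36n2EmbC ψ h x, hm⟩ ≠ 0) :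
    (s36n2VC hB' ψ hq h z hz).valuation x = 1 := by
  have hle : (s36n2VC hB' ψ hq h z hz).valuation x ≤ 1 :=
    ((s36n2VC hB' ψ hq h z hz).valuation_le_one_iff x).mpr hm
  refine le_antisymm hle ?_
  by_contra hlt
  rw [not_le] at hlt
  have hnu : x ∈ (s36n2VC hB' ψ hq h z hz).nonunits :=
    (ValuationSubring.mem_nonunits_iff _).mpr hlt
  obtain ⟨hm', h0⟩ := (s36cg_mem_nonunits_iff hB' ψ hq h z hz).mp hnu
  exact hne h0

/-! ### the three expansions -/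

section Exp

variable (hζ : IsPrimitiveRoot (z : A') q) (hr : r' (z : A') = 1) (hq0 : (q : A') ≠ 0)
  (X T : modularFunctionFieldFullC E (M * q * q))

include ιK in
/-- the expansion of `T = u_q` -/
theorem s36cg_emb_T (hT : (T : LaurentSeries E) = uS E q) :
    s36n2EmbC ψ h T = coeffMap ι' (uS A' q) := by
  have h1 : coeffMap ψ (T : LaurentSeries E) = uS E' q := by
    rw [hT, coeffMap_uS]
  rw [s36cg_embC_low ψ h T (by rw [h1]; exact s36tu_uS_mem E' ιK M q), h1, coeffMap_uS]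

include ιK in
/-- `T = u_q ∈ V_c`, with reduction `ū_q` -/
theorem s36cg_T_red (hT : (T : LaurentSeries E) = uS E q) :
    ∃ hm : s36n2EmbC ψ h T ∈ gaussRing ι' r',
      gaussRed r' hB'.inj ⟨s36n2EmbC ψ h T, hm⟩ = uS k' q := by
  obtain ⟨hm, hred⟩ := s36cg_red_of_eq hB' ψ h (s36cg_emb_T ψ ιK h T hT)
  exact ⟨hm, by rw [hred, coeffMap_uS]⟩

include ιK in
/-- `T ∈ V_c` -/
theorem s36cg_T_mem (hT : (T : LaurentSeries E) = uS E q) :
    T ∈ s36n2VC hB' ψ hq h z hz :=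
  (s36cg_T_red hB' ψ ιK h T hT).1

include ιK in
/-- `T` is a unit of `V_c` -/
theorem s36cg_T_unit (hT : (T : LaurentSeries E) = uS E q) :
    (s36n2VC hB' ψ hq h z hz).valuation T = 1 := by
  obtain ⟨hm, hred⟩ := s36cg_T_red hB' ψ ιK h T hT
  refine s36cg_valuation_eq_one hB' ψ hq h z hz hm ?_
  rw [hred]
  exact uS_ne_zero q k'

end Exp

/-! ### level 4 -/

section Four

variable (hζ : IsPrimitiveRoot (z : A') q) (hr : r' (z : A') = 1) (hq0 : (q : A') ≠ 0)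
  (h4 : 4 ∣ M) (hM : (M : E') ≠ 0)
  (X t T : modularFunctionFieldFullC E (M * q * q))

include h4 hM in
/-- the expansion of `t = t₄` -/
theorem s36cg_emb_t4 (ht : (t : LaurentSeries E) = s36rig_t4 E) :
    s36n2EmbC ψ h t = coeffMap ι' (s36cgT4 A') := by
  have h1 : coeffMap ψ (t : LaurentSeries E) = s36rig_t4 E' := by
    rw [ht, s36cg_coeffMap_t4]
  have hf : s36rig_t4 E' ∈ modularFunctionFieldFullC E' M := s36rig_t4_mem E' h4 hM
  rw [s36cg_embC_low ψ h t (by rw [h1]; exact full_degeneracyC_le E' (Dvd.intro q rfl) hf), h1,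
    s36cgT4_coeffMap]

include h4 hM in
/-- `t₄ ∈ V_c` with reduction `t̄₄` -/
theorem s36cg_t4_red (ht : (t : LaurentSeries E) = s36rig_t4 E) :
    ∃ hm : s36n2EmbC ψ h t ∈ gaussRing ι' r',
      gaussRed r' hB'.inj ⟨s36n2EmbC ψ h t, hm⟩ = s36rig_t4 k' := by
  obtain ⟨hm, hred⟩ := s36cg_red_of_eq hB' ψ h (s36cg_emb_t4 ψ h h4 hM t ht)
  exact ⟨hm, by rw [hred, s36cgT4_coeffMap]⟩

include h4 hM in
theorem s36cg_t4_mem (ht : (t : LaurentSeries E) = s36rig_t4 E) :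
    t ∈ s36n2VC hB' ψ hq h z hz :=
  (s36cg_t4_red hB' ψ h h4 hM t ht).1

include ιK hq hqM hz hζ hr hq0 h4 hM in
/-- `U = X^(q−1)/q ∈ V_c`, with reduction `−(θ t̄₄)^(q−1)` -/
theorem s36cg_U4_red
    (hX : (X : LaurentSeries E) = qExpand E q (qExpand E q (s36rig_t4 E)) - s36rig_t4 E) :
    ∃ hm : s36n2EmbC ψ h (X ^ (q - 1) / (q : modularFunctionFieldFullC E (M * q * q))) ∈
        gaussRing ι' r',
      gaussRed r' hB'.inj ⟨_, hm⟩ = -(thetaFun (s36rig_t4 k')) ^ (q - 1) := by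
  have hf : s36rig_t4 E' ∈ modularFunctionFieldFullC E' M := s36rig_t4_mem E' h4 hM
  have hX' : coeffMap ψ (X : LaurentSeries E) =
      qExpand E' q (qExpand E' q (s36rig_t4 E')) - s36rig_t4 E' := by
    rw [hX, map_sub, ModularCurve.coeffMap_qExpand, ModularCurve.coeffMap_qExpand,
      s36cg_coeffMap_t4]
  have heX : s36n2EmbC ψ h X =
      kronRot (Units.map (ι' : A' →* E') z) (coeffMap ι' (s36cgT4 A')) -
        coeffMap ι' (s36cgT4 A') := by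
    rw [s36cg_embC_Pi ψ ιK hq hqM h (s36cg_zeta_pow z hz hζ) hf X hX', hz, s36cgT4_coeffMap]
  have hc := s36th_natCast_emb (A := A') (s36n2EmbC ψ h) ι' q
  obtain ⟨hm, hred⟩ := s36th_pow_div_mem hB' (s36n2EmbC ψ h) hq hζ hr heX hc hq0
  exact ⟨hm, by rw [hred, s36cgT4_coeffMap]⟩

include ιK hq hqM hz hζ hr hq0 h4 hM in
theorem s36cg_U4_mem
    (hX : (X : LaurentSeries E) = qExpand E q (qExpand E q (s36rig_t4 E)) - s36rig_t4 E) :
    X ^ (q - 1) / (q : modularFunctionFieldFullC E (M * q * q)) ∈ s36n2VC hB' ψ hq h z hz :=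
  (s36cg_U4_red hB' ψ ιK hq hqM h z hz hζ hr hq0 h4 hM X hX).1

include ιK hq hqM hz hζ hr hq0 h4 hM in
/-- **(b-CONG), `q` odd, level `4`**:
`(X^(q−1)/q)⁶ − (t² (t+16)⁵)^(q−1) · T ∈ 𝔪(V_c)`. -/
theorem s36cg_cong_t4 (h2 : (2 : k') ≠ 0)
    (hX : (X : LaurentSeries E) = qExpand E q (qExpand E q (s36rig_t4 E)) - s36rig_t4 E)
    (ht : (t : LaurentSeries E) = s36rig_t4 E)
    (hT : (T : LaurentSeries E) = uS E q) :
    (X ^ (q - 1) / (q : modularFunctionFieldFullC E (M * q * q))) ^ 6 -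
        (t ^ 2 * (t + 16) ^ 5) ^ (q - 1) * T ∈ (s36n2VC hB' ψ hq h z hz).nonunits := by
  haveI : Fact q.Prime := ⟨hq⟩
  haveI : CharP k' q :=
    (CharP.charP_iff_prime_eq_zero hq).mpr (s36th_natCast_red hq hζ r' hr)
  obtain ⟨hUm, hUr⟩ := s36cg_U4_red hB' ψ ιK hq hqM h z hz hζ hr hq0 h4 hM X hX
  obtain ⟨htm, htr⟩ := s36cg_t4_red hB' ψ h h4 hM t ht
  obtain ⟨hTm, hTr⟩ := s36cg_T_red hB' ψ ιK h T hT
  rw [s36cg_mem_nonunits_iff]
  set e := s36n2EmbC ψ h with he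
  set Ug : gaussRing ι' r' :=
    ⟨e (X ^ (q - 1) / (q : modularFunctionFieldFullC E (M * q * q))), hUm⟩ with hUg
  set tg : gaussRing ι' r' := ⟨e t, htm⟩ with htg
  set Tg : gaussRing ι' r' := ⟨e T, hTm⟩ with hTg
  have hZ : ((Ug ^ 6 - (tg ^ 2 * (tg + 16) ^ 5) ^ (q - 1) * Tg : gaussRing ι' r') :
      LaurentSeries E') =
      e ((X ^ (q - 1) / (q : modularFunctionFieldFullC E (M * q * q))) ^ 6 -
        (t ^ 2 * (t + 16) ^ 5) ^ (q - 1) * T) := by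
    simp only [map_sub, map_mul, map_pow, map_add, map_ofNat]
    rfl
  have hm : e ((X ^ (q - 1) / (q : modularFunctionFieldFullC E (M * q * q))) ^ 6 -
        (t ^ 2 * (t + 16) ^ 5) ^ (q - 1) * T) ∈ gaussRing ι' r' := by
    rw [← hZ]; exact Subtype.property _
  refine ⟨hm, ?_⟩
  have e1 : (⟨_, hm⟩ : gaussRing ι' r') =
      Ug ^ 6 - (tg ^ 2 * (tg + 16) ^ 5) ^ (q - 1) * Tg := Subtype.ext hZ.symm
  rw [e1, map_sub, map_mul, map_pow, map_pow, map_mul, map_pow, map_pow, map_add, map_ofNat,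
    hUr, htr, hTr]
  exact s36cg_red_t4 k' q h2

end Four

/-! ### level 9 -/

section Nine

variable (hζ : IsPrimitiveRoot (z : A') q) (hr : r' (z : A') = 1) (hq0 : (q : A') ≠ 0)
  (h9 : 9 ∣ M) (hM : (M : E') ≠ 0)
  (X t T : modularFunctionFieldFullC E (M * q * q))

include h9 hM in
/-- the expansion of `t = t₉` -/
theorem s36cg_emb_t9 (ht : (t : LaurentSeries E) = s36rig_t9 E) :
    s36n2EmbC ψ h t = coeffMap ι' (s36cgT9 A') := by
  have h1 : coeffMap ψ (t : LaurentSeries E) = s36rig_t9 E' := by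
    rw [ht, s36cg_coeffMap_t9]
  have hf : s36rig_t9 E' ∈ modularFunctionFieldFullC E' M := s36rig_t9_mem E' h9 hM
  rw [s36cg_embC_low ψ h t (by rw [h1]; exact full_degeneracyC_le E' (Dvd.intro q rfl) hf), h1,
    s36cgT9_coeffMap]

include h9 hM in
/-- `t₉ ∈ V_c` with reduction `t̄₉` -/
theorem s36cg_t9_red (ht : (t : LaurentSeries E) = s36rig_t9 E) :
    ∃ hm : s36n2EmbC ψ h t ∈ gaussRing ι' r',
      gaussRed r' hB'.inj ⟨s36n2EmbC ψ h t, hm⟩ = s36rig_t9 k' := by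
  obtain ⟨hm, hred⟩ := s36cg_red_of_eq hB' ψ h (s36cg_emb_t9 ψ h h9 hM t ht)
  exact ⟨hm, by rw [hred, s36cgT9_coeffMap]⟩

include h9 hM in
theorem s36cg_t9_mem (ht : (t : LaurentSeries E) = s36rig_t9 E) :
    t ∈ s36n2VC hB' ψ hq h z hz :=
  (s36cg_t9_red hB' ψ h h9 hM t ht).1

include h9 hM in
/-- `t₉` is a unit of `V_c` (residue characteristic `≠ 3`) -/
theorem s36cg_t9_unit (h3 : (3 : k') ≠ 0) (ht : (t : LaurentSeries E) = s36rig_t9 E) :
    (s36n2VC hB' ψ hq h z hz).valuation t = 1 := by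
  obtain ⟨hm, hred⟩ := s36cg_t9_red hB' ψ h h9 hM t ht
  refine s36cg_valuation_eq_one hB' ψ hq h z hz hm ?_
  rw [hred]
  exact s36cg_t9_ne_zero k' h3

include ιK hq hqM hz hζ hr hq0 h9 hM in
/-- `U = X^(q−1)/q ∈ V_c`, with reduction `−(θ t̄₉)^(q−1)` -/
theorem s36cg_U9_red
    (hX : (X : LaurentSeries E) = qExpand E q (qExpand E q (s36rig_t9 E)) - s36rig_t9 E) :
    ∃ hm : s36n2EmbC ψ h (X ^ (q - 1) / (q : modularFunctionFieldFullC E (M * q * q))) ∈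
        gaussRing ι' r',
      gaussRed r' hB'.inj ⟨_, hm⟩ = -(thetaFun (s36rig_t9 k')) ^ (q - 1) := by
  have hf : s36rig_t9 E' ∈ modularFunctionFieldFullC E' M := s36rig_t9_mem E' h9 hM
  have hX' : coeffMap ψ (X : LaurentSeries E) =
      qExpand E' q (qExpand E' q (s36rig_t9 E')) - s36rig_t9 E' := by
    rw [hX, map_sub, ModularCurve.coeffMap_qExpand, ModularCurve.coeffMap_qExpand,
      s36cg_coeffMap_t9]
  have heX : s36n2EmbC ψ h X =
      kronRot (Units.map (ι' : A' →* E') z) (coeffMap ι' (s36cgT9 A')) -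
        coeffMap ι' (s36cgT9 A') := by
    rw [s36cg_embC_Pi ψ ιK hq hqM h (s36cg_zeta_pow z hz hζ) hf X hX', hz, s36cgT9_coeffMap]
  have hc := s36th_natCast_emb (A := A') (s36n2EmbC ψ h) ι' q
  obtain ⟨hm, hred⟩ := s36th_pow_div_mem hB' (s36n2EmbC ψ h) hq hζ hr heX hc hq0
  exact ⟨hm, by rw [hred, s36cgT9_coeffMap]⟩

include ιK hq hqM hz hζ hr hq0 h9 hM in
theorem s36cg_U9_mem
    (hX : (X : LaurentSeries E) = qExpand E q (qExpand E q (s36rig_t9 E)) - s36rig_t9 E) :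
    X ^ (q - 1) / (q : modularFunctionFieldFullC E (M * q * q)) ∈ s36n2VC hB' ψ hq h z hz :=
  (s36cg_U9_red hB' ψ ιK hq hqM h z hz hζ hr hq0 h9 hM X hX).1

include ιK hq hqM hz hζ hr hq0 h9 hM in
/-- **(b-CONG), level `9`** (used for `q = 2`):
`(X^(q−1)/q)⁶ · (t³)^(q−1) − ((t² + 9t + 27)⁵)^(q−1) · T ∈ 𝔪(V_c)`. -/
theorem s36cg_cong_t9 (h3 : (3 : k') ≠ 0)
    (hX : (X : LaurentSeries E) = qExpand E q (qExpand E q (s36rig_t9 E)) - s36rig_t9 E)
    (ht : (t : LaurentSeries E) = s36rig_t9 E)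
    (hT : (T : LaurentSeries E) = uS E q) :
    (X ^ (q - 1) / (q : modularFunctionFieldFullC E (M * q * q))) ^ 6 * (t ^ 3) ^ (q - 1) -
        ((t ^ 2 + 9 * t + 27) ^ 5) ^ (q - 1) * T ∈ (s36n2VC hB' ψ hq h z hz).nonunits := by
  haveI : Fact q.Prime := ⟨hq⟩
  haveI : CharP k' q :=
    (CharP.charP_iff_prime_eq_zero hq).mpr (s36th_natCast_red hq hζ r' hr)
  obtain ⟨hUm, hUr⟩ := s36cg_U9_red hB' ψ ιK hq hqM h z hz hζ hr hq0 h9 hM X hX
  obtain ⟨htm, htr⟩ := s36cg_t9_red hB' ψ h h9 hM t ht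
  obtain ⟨hTm, hTr⟩ := s36cg_T_red hB' ψ ιK h T hT
  rw [s36cg_mem_nonunits_iff]
  set e := s36n2EmbC ψ h with he
  set Ug : gaussRing ι' r' :=
    ⟨e (X ^ (q - 1) / (q : modularFunctionFieldFullC E (M * q * q))), hUm⟩ with hUg
  set tg : gaussRing ι' r' := ⟨e t, htm⟩ with htg
  set Tg : gaussRing ι' r' := ⟨e T, hTm⟩ with hTg
  have hZ : ((Ug ^ 6 * (tg ^ 3) ^ (q - 1) -
      ((tg ^ 2 + 9 * tg + 27) ^ 5) ^ (q - 1) * Tg : gaussRing ι' r') : LaurentSeries E') =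
      e ((X ^ (q - 1) / (q : modularFunctionFieldFullC E (M * q * q))) ^ 6 * (t ^ 3) ^ (q - 1) -
        ((t ^ 2 + 9 * t + 27) ^ 5) ^ (q - 1) * T) := by
    simp only [map_sub, map_mul, map_pow, map_add, map_ofNat]
    rfl
  have hm : e ((X ^ (q - 1) / (q : modularFunctionFieldFullC E (M * q * q))) ^ 6 *
        (t ^ 3) ^ (q - 1) - ((t ^ 2 + 9 * t + 27) ^ 5) ^ (q - 1) * T) ∈ gaussRing ι' r' := by
    rw [← hZ]; exact Subtype.property _
  refine ⟨hm, ?_⟩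
  have e1 : (⟨_, hm⟩ : gaussRing ι' r') =
      Ug ^ 6 * (tg ^ 3) ^ (q - 1) - ((tg ^ 2 + 9 * tg + 27) ^ 5) ^ (q - 1) * Tg :=
    Subtype.ext hZ.symm
  rw [e1]
  simp only [map_sub, map_mul, map_pow, map_add, map_ofNat, hUr, htr, hTr]
  exact s36cg_red_t9 k' q h3

include ιK hq hqM hz hζ hr hq0 h9 hM in
/-- **(b-CONG), level `9`**, in the form `(X^(q−1)/q)⁶ − g ∈ 𝔪(V_c)`,
`g = ((t² + 9t + 27)⁵)^(q−1) · T / (t³)^(q−1)`. -/
theorem s36cg_cong_t9' (h3 : (3 : k') ≠ 0)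
    (hX : (X : LaurentSeries E) = qExpand E q (qExpand E q (s36rig_t9 E)) - s36rig_t9 E)
    (ht : (t : LaurentSeries E) = s36rig_t9 E)
    (hT : (T : LaurentSeries E) = uS E q) :
    (X ^ (q - 1) / (q : modularFunctionFieldFullC E (M * q * q))) ^ 6 -
        ((t ^ 2 + 9 * t + 27) ^ 5) ^ (q - 1) * T / (t ^ 3) ^ (q - 1) ∈
      (s36n2VC hB' ψ hq h z hz).nonunits := by
  have h1 := s36cg_cong_t9 hB' ψ ιK hq hqM h z hz hζ hr hq0 h9 hM X t T h3 hX ht hT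
  have hv := s36cg_t9_unit hB' ψ hq h z hz h9 hM t h3 ht
  have ht0 : t ≠ 0 := by
    rintro rfl
    rw [map_zero] at hv
    exact zero_ne_one hv
  have hd : (t ^ 3) ^ (q - 1) ≠ 0 := pow_ne_zero _ (pow_ne_zero _ ht0)
  have e1 : (X ^ (q - 1) / (q : modularFunctionFieldFullC E (M * q * q))) ^ 6 -
      ((t ^ 2 + 9 * t + 27) ^ 5) ^ (q - 1) * T / (t ^ 3) ^ (q - 1) =
      ((X ^ (q - 1) / (q : modularFunctionFieldFullC E (M * q * q))) ^ 6 * (t ^ 3) ^ (q - 1) -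
        ((t ^ 2 + 9 * t + 27) ^ 5) ^ (q - 1) * T) / (t ^ 3) ^ (q - 1) := by
    field_simp
  rw [e1, ValuationSubring.mem_nonunits_iff, map_div₀, map_pow, map_pow, hv, one_pow, one_pow,
    div_one]
  exact (ValuationSubring.mem_nonunits_iff _).mp h1

end Nine

end Gen

end Fermat.Agent.S36

end
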