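import Fermat.Agent.S36.ThinUnit
import Fermat.Agent.S36.MidThetaMod
import Fermat.Agent.S36.PlanGeo
import Fermat.Agent.S36.Rigid9
import Fermat.Agent.INJ.BGConstJ

/-!
# S36 / (I6)(b-UNIT), part 1: the elements of `F = F_{Mq²}(E)` and their integrality over `A[j]`
(helper80)

`E` a field of characteristic `0`, `F = modularFunctionFieldFullC E (M * q * q)`,
`j = bgJ E (M * q * q)`.

Elements (all in `F`):
* `s36cunBase hf`, `s36cunSq hf`, `s36cunPi hf` : `f`, `f(Q^{q²})`, `Π_f = f(Q^{q²}) − f` for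
  `f ∈ F_M`;
* `s36cunJq`, `s36cunJqq` : `j(Q^q)`, `j(Q^{q²})`;
* `s36cunH2`, `s36cunT4`, `s36cunX4`, `s36cunG4` (`2 ∣ M` resp. `4 ∣ M`): `h₂`, `t₄`,
  `Π_{t₄}`, `(t₄² (t₄ + 16)⁵)^(q−1)`;
* `s36cunH3`, `s36cunT9`, `s36cunX9`, `s36cunD9` (`3 ∣ M` resp. `9 ∣ M`): `h₃`, `t₉`,
  `Π_{t₉}`, `t₉² + 9 t₉ + 27`;
* `s36cunT = α(u_q)`, `s36cunW = α(Δ/Δ_q)`, `s36cunW' = α(q¹² Δ_q/Δ)` (`α = s36Alpha`).

Integrality over `A[j]` (`A` any commutative ring with `Algebra A F`):
`s36cun_isIntegral_Jq/_Jqq/_H2/_T4/_X4/_G4/_H3/_T9/_X9/_D9/_W/_W'`, and in general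
`s36cun_isIntegral_sq`, `s36cun_isIntegral_Pi` (for `f ∈ F_M` integral over `A[j]` through a monic
`Φ ∈ ℤ[Y][X]`).

Relations: `s36cun_W_mul_W'`, `s36cun_W'_eq`, `s36cun_W_mul_T`.
-/

set_option autoImplicit false
set_option linter.unusedSectionVars false
set_option linter.unusedVariables false
set_option linter.style.haveILetI false
set_option synthInstance.maxHeartbeats 400000
set_option maxHeartbeats 1000000

noncomputable section

namespace Fermat.Agent.S36

open ModularCurve Polynomial IntermediateField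
open Fermat.Agent.INJ Fermat.Agent.AL Fermat.Agent.S28 Fermat.Agent.UNIP Fermat.Agent.ES

/-! ## The elements -/

section Elts

variable (E : Type*) [Field E] [CharZero E] (ιC : E →+* ℂ)
  (M q : ℕ) [NeZero q] [NeZero M] [NeZero (M * q)] [NeZero (M * q * q)]

theorem s36cun_level_ne_zero : ((M : ℕ) : E) ≠ 0 := Nat.cast_ne_zero.mpr (NeZero.ne M)

variable {E M}

/-- `f ∈ F_M` as an element of `F_{Mq²}`. -/
def s36cunBase {f : LaurentSeries E} (hf : f ∈ modularFunctionFieldFullC E M) :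
    modularFunctionFieldFullC E (M * q * q) :=
  ⟨f, s36mid_base_le hf⟩

/-- `f(Q^{q²}) ∈ F_{Mq²}` for `f ∈ F_M`. -/
def s36cunSq {f : LaurentSeries E} (hf : f ∈ modularFunctionFieldFullC E M) :
    modularFunctionFieldFullC E (M * q * q) :=
  ⟨qExpand E q (qExpand E q f), s36mid_qExpand_sq_mem hf⟩

/-- `Π_f = f(Q^{q²}) − f ∈ F_{Mq²}` for `f ∈ F_M`. -/
def s36cunPi {f : LaurentSeries E} (hf : f ∈ modularFunctionFieldFullC E M) :
    modularFunctionFieldFullC E (M * q * q) :=
  ⟨qExpand E q (qExpand E q f) - f, s36th_Pi_mem hf⟩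

@[simp]
theorem s36cunBase_coe {f : LaurentSeries E} (hf : f ∈ modularFunctionFieldFullC E M) :
    ((s36cunBase q hf : modularFunctionFieldFullC E (M * q * q)) : LaurentSeries E) = f := rfl

@[simp]
theorem s36cunSq_coe {f : LaurentSeries E} (hf : f ∈ modularFunctionFieldFullC E M) :
    ((s36cunSq q hf : modularFunctionFieldFullC E (M * q * q)) : LaurentSeries E) =
      qExpand E q (qExpand E q f) := rfl

@[simp]
theorem s36cunPi_coe {f : LaurentSeries E} (hf : f ∈ modularFunctionFieldFullC E M) :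
    ((s36cunPi q hf : modularFunctionFieldFullC E (M * q * q)) : LaurentSeries E) =
      qExpand E q (qExpand E q f) - f := rfl

theorem s36cunPi_eq {f : LaurentSeries E} (hf : f ∈ modularFunctionFieldFullC E M) :
    s36cunPi q hf = s36cunSq q hf - s36cunBase q hf := rfl

variable (E M)

/-- `j(Q^q) ∈ F_{Mq²}` -/
def s36cunJq : modularFunctionFieldFullC E (M * q * q) :=
  ⟨qExpand E q (jqModC E), s36mid_low_le (al_qExpand_mem E (jqModC_mem_full E M))⟩

/-- `j(Q^{q²}) ∈ F_{Mq²}` -/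
def s36cunJqq : modularFunctionFieldFullC E (M * q * q) :=
  s36cunSq q (jqModC_mem_full E M)

@[simp]
theorem s36cunJq_coe :
    ((s36cunJq E M q : modularFunctionFieldFullC E (M * q * q)) : LaurentSeries E) =
      qExpand E q (jqModC E) := rfl

@[simp]
theorem s36cunJqq_coe :
    ((s36cunJqq E M q : modularFunctionFieldFullC E (M * q * q)) : LaurentSeries E) =
      qExpand E q (qExpand E q (jqModC E)) := rfl

@[simp]
theorem s36cun_bgJ_coe :
    ((bgJ E (M * q * q) : modularFunctionFieldFullC E (M * q * q)) : LaurentSeries E) =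
      jqModC E := rfl

/-! ### level `4` -/

theorem s36cun_h2_mem (h2 : 2 ∣ M) : hm2 E ∈ modularFunctionFieldFullC E M :=
  hm2_mem_full E h2 (s36cun_level_ne_zero E M)

theorem s36cun_t4_mem (h4 : 4 ∣ M) : s36rig_t4 E ∈ modularFunctionFieldFullC E M :=
  s36rig_t4_mem E h4 (s36cun_level_ne_zero E M)

/-- `h₂ ∈ F_{Mq²}` -/
def s36cunH2 (h2 : 2 ∣ M) : modularFunctionFieldFullC E (M * q * q) :=
  s36cunBase q (s36cun_h2_mem E M h2)

/-- `t₄ ∈ F_{Mq²}` -/
def s36cunT4 (h4 : 4 ∣ M) : modularFunctionFieldFullC E (M * q * q) :=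
  s36cunBase q (s36cun_t4_mem E M h4)

/-- `X = Π_{t₄} = t₄(Q^{q²}) − t₄ ∈ F_{Mq²}` -/
def s36cunX4 (h4 : 4 ∣ M) : modularFunctionFieldFullC E (M * q * q) :=
  s36cunPi q (s36cun_t4_mem E M h4)

/-- `G = (t₄² (t₄ + 16)⁵)^(q−1)` -/
def s36cunG4 (h4 : 4 ∣ M) : modularFunctionFieldFullC E (M * q * q) :=
  (s36cunT4 E M q h4 ^ 2 * (s36cunT4 E M q h4 + 16) ^ 5) ^ (q - 1)

@[simp]
theorem s36cunH2_coe (h2 : 2 ∣ M) :
    ((s36cunH2 E M q h2 : modularFunctionFieldFullC E (M * q * q)) : LaurentSeries E) =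
      hm2 E := rfl

@[simp]
theorem s36cunT4_coe (h4 : 4 ∣ M) :
    ((s36cunT4 E M q h4 : modularFunctionFieldFullC E (M * q * q)) : LaurentSeries E) =
      s36rig_t4 E := rfl

@[simp]
theorem s36cunX4_coe (h4 : 4 ∣ M) :
    ((s36cunX4 E M q h4 : modularFunctionFieldFullC E (M * q * q)) : LaurentSeries E) =
      qExpand E q (qExpand E q (s36rig_t4 E)) - s36rig_t4 E := rfl

theorem s36cun_H2_j (h2 : 2 ∣ M) :
    bgJ E (M * q * q) * s36cunH2 E M q h2 ^ 2 = (s36cunH2 E M q h2 + 256) ^ 3 := by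
  apply (modularFunctionFieldFullC E (M * q * q)).val.toRingHom.injective
  simp only [map_mul, map_pow, map_add, map_ofNat]
  exact hm2_j E

theorem s36cun_T4_sq (h4 : 4 ∣ M) :
    s36cunT4 E M q h4 ^ 2 =
      s36cunH2 E M q ((show 2 ∣ 4 by norm_num).trans h4) * s36cunT4 E M q h4 +
        16 * s36cunH2 E M q ((show 2 ∣ 4 by norm_num).trans h4) := by
  apply (modularFunctionFieldFullC E (M * q * q)).val.toRingHom.injective
  simp only [map_mul, map_pow, map_add, map_ofNat]
  exact s36rig_t4_sq E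

/-! ### level `9` -/

theorem s36cun_h3_mem (h3 : 3 ∣ M) : hm3 E ∈ modularFunctionFieldFullC E M :=
  hm3_mem_full E h3 (s36cun_level_ne_zero E M)

theorem s36cun_t9_mem (h9 : 9 ∣ M) : s36rig_t9 E ∈ modularFunctionFieldFullC E M :=
  s36rig_t9_mem E h9 (s36cun_level_ne_zero E M)

/-- `h₃ ∈ F_{Mq²}` -/
def s36cunH3 (h3 : 3 ∣ M) : modularFunctionFieldFullC E (M * q * q) :=
  s36cunBase q (s36cun_h3_mem E M h3)

/-- `t₉ ∈ F_{Mq²}` -/
def s36cunT9 (h9 : 9 ∣ M) : modularFunctionFieldFullC E (M * q * q) :=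
  s36cunBase q (s36cun_t9_mem E M h9)

/-- `X = Π_{t₉} = t₉(Q^{q²}) − t₉ ∈ F_{Mq²}` -/
def s36cunX9 (h9 : 9 ∣ M) : modularFunctionFieldFullC E (M * q * q) :=
  s36cunPi q (s36cun_t9_mem E M h9)

/-- `D = t₉² + 9 t₉ + 27` -/
def s36cunD9 (h9 : 9 ∣ M) : modularFunctionFieldFullC E (M * q * q) :=
  s36cunT9 E M q h9 ^ 2 + 9 * s36cunT9 E M q h9 + 27

@[simp]
theorem s36cunH3_coe (h3 : 3 ∣ M) :
    ((s36cunH3 E M q h3 : modularFunctionFieldFullC E (M * q * q)) : LaurentSeries E) =
      hm3 E := rfl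

@[simp]
theorem s36cunT9_coe (h9 : 9 ∣ M) :
    ((s36cunT9 E M q h9 : modularFunctionFieldFullC E (M * q * q)) : LaurentSeries E) =
      s36rig_t9 E := rfl

@[simp]
theorem s36cunX9_coe (h9 : 9 ∣ M) :
    ((s36cunX9 E M q h9 : modularFunctionFieldFullC E (M * q * q)) : LaurentSeries E) =
      qExpand E q (qExpand E q (s36rig_t9 E)) - s36rig_t9 E := rfl

theorem s36cun_H3_j (h3 : 3 ∣ M) :
    bgJ E (M * q * q) * s36cunH3 E M q h3 ^ 3 =
      (s36cunH3 E M q h3 + 27) * (s36cunH3 E M q h3 + 243) ^ 3 := by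
  apply (modularFunctionFieldFullC E (M * q * q)).val.toRingHom.injective
  simp only [map_mul, map_pow, map_add, map_ofNat]
  exact hm3_j E

theorem s36cun_T9_cube (h9 : 9 ∣ M) :
    s36cunT9 E M q h9 ^ 3 =
      s36cunH3 E M q ((show 3 ∣ 9 by norm_num).trans h9) *
        (s36cunT9 E M q h9 ^ 2 + 9 * s36cunT9 E M q h9 + 27) := by
  apply (modularFunctionFieldFullC E (M * q * q)).val.toRingHom.injective
  simp only [map_mul, map_pow, map_add, map_ofNat]
  exact s36rig_t9_cube E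

/-! ### the units -/

/-- `T = α(u_q)`, `u_q = Δ(Q^q)/Δ(Q)` -/
def s36cunT : modularFunctionFieldFullC E (M * q * q) :=
  s36Alpha E M q (s36tuU0 E ιC)

/-- `W = α(Δ(Q)/Δ(Q^q))` -/
def s36cunW : modularFunctionFieldFullC E (M * q * q) :=
  s36Alpha E M q (s36tuV E ιC)

/-- `W' = α(q¹² Δ(Q^q)/Δ(Q))` -/
def s36cunW' : modularFunctionFieldFullC E (M * q * q) :=
  s36Alpha E M q (s36tuU E ιC)

@[simp]
theorem s36cunT_coe :
    ((s36cunT E ιC M q : modularFunctionFieldFullC E (M * q * q)) : LaurentSeries E) =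
      uS E q := by
  rw [s36cunT, coe_s36Alpha, s36tuU0_coe]

@[simp]
theorem s36cunW_coe :
    ((s36cunW E ιC M q : modularFunctionFieldFullC E (M * q * q)) : LaurentSeries E) =
      uInvS E q := by
  rw [s36cunW, coe_s36Alpha, s36tuV_coe]

@[simp]
theorem s36cunW'_coe :
    ((s36cunW' E ιC M q : modularFunctionFieldFullC E (M * q * q)) : LaurentSeries E) =
      HahnSeries.C ((q : E) ^ 12) * uS E q := by
  rw [s36cunW', coe_s36Alpha, s36tuU_coe]

theorem s36cunT_ne_zero : s36cunT E ιC M q ≠ 0 := by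
  rw [s36cunT, Ne, map_eq_zero_iff _ (s36Alpha E M q).injective]
  exact s36tuU0_ne_zero E ιC

/-- `W · T = 1` -/
theorem s36cun_W_mul_T : s36cunW E ιC M q * s36cunT E ιC M q = 1 := by
  rw [s36cunW, s36cunT, ← map_mul, s36tuV, inv_mul_cancel₀ (s36tuU0_ne_zero E ιC), map_one]

/-- `W' = q¹² · T` -/
theorem s36cun_W'_eq :
    s36cunW' E ιC M q =
      algebraMap E (modularFunctionFieldFullC E (M * q * q)) ((q : E) ^ 12) *
        s36cunT E ιC M q := by
  rw [s36cunW', s36cunT, s36tuU, map_mul]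
  congr 1

/-- `W · W' = q¹²` -/
theorem s36cun_W_mul_W' :
    s36cunW E ιC M q * s36cunW' E ιC M q =
      algebraMap E (modularFunctionFieldFullC E (M * q * q)) ((q : E) ^ 12) := by
  rw [s36cun_W'_eq, mul_left_comm, s36cun_W_mul_T, mul_one]

end Elts

/-! ## Integrality over `A[j]` -/

section Int

variable {A E : Type*} [CommRing A] [Field E] [CharZero E] (ιC : E →+* ℂ)
  {M q : ℕ} [NeZero q] [NeZero M] [NeZero (M * q)] [NeZero (M * q * q)] (hq : q.Prime)
  [Algebra A (modularFunctionFieldFullC E (M * q * q))]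

include hq in
/-- `j(Q^q)` is integral over `A[j]`. -/
theorem s36cun_isIntegral_Jq :
    IsIntegral (Algebra.adjoin A {bgJ E (M * q * q)}) (s36cunJq E M q) := by
  refine nodesSwap_isIntegral_of_evalInt (A := A)
    (S := modularFunctionFieldFullC E (M * q * q)) (nodesSwapPhi_monic q hq) ?_
  apply (modularFunctionFieldFullC E (M * q * q)).val.toRingHom.injective
  rw [map_eval₂_evalInt, map_zero]
  exact nodesSwapPhi_series q hq E

include hq in
/-- `j(Q^{q²})` is integral over `A[j(Q^q)]`. -/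
theorem s36cun_isIntegral_Jqq_Jq :
    IsIntegral (Algebra.adjoin A {s36cunJq E M q}) (s36cunJqq E M q) := by
  refine nodesSwap_isIntegral_of_evalInt (A := A)
    (S := modularFunctionFieldFullC E (M * q * q)) (nodesSwapPhi_monic q hq) ?_
  apply (modularFunctionFieldFullC E (M * q * q)).val.toRingHom.injective
  rw [map_eval₂_evalInt, map_zero]
  have h := congrArg (qExpand E q) (nodesSwapPhi_series q hq E)
  rw [map_eval₂_evalInt, map_zero] at h
  exact h

include hq in
/-- `j(Q^{q²})` is integral over `A[j]`. -/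
theorem s36cun_isIntegral_Jqq :
    IsIntegral (Algebra.adjoin A {bgJ E (M * q * q)}) (s36cunJqq E M q) :=
  cusp_isIntegral_adjoin_trans (A := A) (F := modularFunctionFieldFullC E (M * q * q))
    (u := bgJ E (M * q * q)) (T := s36cunJq E M q) (s36cun_isIntegral_Jq hq)
    (s36cun_isIntegral_Jqq_Jq hq)

/-- `f ∈ F_M` with `Φ(j, f) = 0`, `Φ ∈ ℤ[Y][X]` monic, is integral over `A[j]` in `F_{Mq²}`. -/
theorem s36cun_isIntegral_base {f : LaurentSeries E} (hf : f ∈ modularFunctionFieldFullC E M)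
    {Φ : Polynomial (Polynomial ℤ)} (hΦ : Φ.Monic) (h : Φ.eval₂ (evalInt (jqModC E)) f = 0) :
    IsIntegral (Algebra.adjoin A {bgJ E (M * q * q)}) (s36cunBase q hf) := by
  refine nodesSwap_isIntegral_of_evalInt (A := A)
    (S := modularFunctionFieldFullC E (M * q * q)) hΦ ?_
  apply (modularFunctionFieldFullC E (M * q * q)).val.toRingHom.injective
  rw [map_eval₂_evalInt, map_zero]
  exact h

include hq in
/-- `f ∈ F_M` with `Φ(j, f) = 0`, `Φ ∈ ℤ[Y][X]` monic: `f(Q^{q²})` is integral over `A[j]`. -/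
theorem s36cun_isIntegral_sq {f : LaurentSeries E} (hf : f ∈ modularFunctionFieldFullC E M)
    {Φ : Polynomial (Polynomial ℤ)} (hΦ : Φ.Monic) (h : Φ.eval₂ (evalInt (jqModC E)) f = 0) :
    IsIntegral (Algebra.adjoin A {bgJ E (M * q * q)}) (s36cunSq q hf) := by
  refine cusp_isIntegral_adjoin_trans (A := A) (F := modularFunctionFieldFullC E (M * q * q))
    (u := bgJ E (M * q * q)) (T := s36cunJqq E M q) (s36cun_isIntegral_Jqq hq) ?_
  refine nodesSwap_isIntegral_of_evalInt (A := A)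
    (S := modularFunctionFieldFullC E (M * q * q)) hΦ ?_
  apply (modularFunctionFieldFullC E (M * q * q)).val.toRingHom.injective
  rw [map_eval₂_evalInt, map_zero]
  have h1 := congrArg (qExpand E q) (congrArg (qExpand E q) h)
  rw [map_eval₂_evalInt, map_eval₂_evalInt, map_zero, map_zero] at h1
  exact h1

include hq in
/-- `Π_f` is integral over `A[j]`. -/
theorem s36cun_isIntegral_Pi {f : LaurentSeries E} (hf : f ∈ modularFunctionFieldFullC E M)
    {Φ : Polynomial (Polynomial ℤ)} (hΦ : Φ.Monic) (h : Φ.eval₂ (evalInt (jqModC E)) f = 0) :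
    IsIntegral (Algebra.adjoin A {bgJ E (M * q * q)}) (s36cunPi q hf) := by
  rw [s36cunPi_eq]
  exact (s36cun_isIntegral_sq hq hf hΦ h).sub (s36cun_isIntegral_base hf hΦ h)

/-! ### level `4` -/

/-- `h₂` is integral over `A[j]`. -/
theorem s36cun_isIntegral_H2 (h2 : 2 ∣ M) :
    IsIntegral (Algebra.adjoin A {bgJ E (M * q * q)}) (s36cunH2 E M q h2) :=
  s36rig_integral_h2 A (s36cun_H2_j E M q h2)

/-- `t₄` is integral over `A[j]`. -/
theorem s36cun_isIntegral_T4 (h4 : 4 ∣ M) :
    IsIntegral (Algebra.adjoin A {bgJ E (M * q * q)}) (s36cunT4 E M q h4) :=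
  s36rig_integral_t4_j A (s36cun_H2_j E M q ((show 2 ∣ 4 by norm_num).trans h4))
    (s36cun_T4_sq E M q h4)

include hq in
/-- `t₄(Q^{q²})` is integral over `A[j]`. -/
theorem s36cun_isIntegral_T4sq (h4 : 4 ∣ M) :
    IsIntegral (Algebra.adjoin A {bgJ E (M * q * q)}) (s36cunSq q (s36cun_t4_mem E M h4)) := by
  have h2 : 2 ∣ M := (show 2 ∣ 4 by norm_num).trans h4
  refine cusp_isIntegral_adjoin_trans (A := A) (F := modularFunctionFieldFullC E (M * q * q))
    (u := bgJ E (M * q * q)) (T := s36cunJqq E M q) (s36cun_isIntegral_Jqq hq) ?_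
  have e1 : s36cunJqq E M q * s36cunSq q (s36cun_h2_mem E M h2) ^ 2 =
      (s36cunSq q (s36cun_h2_mem E M h2) + 256) ^ 3 := by
    apply (modularFunctionFieldFullC E (M * q * q)).val.toRingHom.injective
    simp only [map_mul, map_pow, map_add, map_ofNat]
    have h := congrArg (qExpand E q) (congrArg (qExpand E q) (hm2_j E))
    simp only [map_mul, map_pow, map_add, map_ofNat] at h
    exact h
  have e2 : s36cunSq q (s36cun_t4_mem E M h4) ^ 2 =
      s36cunSq q (s36cun_h2_mem E M h2) * s36cunSq q (s36cun_t4_mem E M h4) +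
        16 * s36cunSq q (s36cun_h2_mem E M h2) := by
    apply (modularFunctionFieldFullC E (M * q * q)).val.toRingHom.injective
    simp only [map_mul, map_pow, map_add, map_ofNat]
    have h := congrArg (qExpand E q) (congrArg (qExpand E q) (s36rig_t4_sq E))
    simp only [map_mul, map_pow, map_add, map_ofNat] at h
    exact h
  exact s36rig_integral_t4_j A e1 e2

include hq in
/-- `X = Π_{t₄}` is integral over `A[j]`. -/
theorem s36cun_isIntegral_X4 (h4 : 4 ∣ M) :
    IsIntegral (Algebra.adjoin A {bgJ E (M * q * q)}) (s36cunX4 E M q h4) := by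
  have h1 : IsIntegral (Algebra.adjoin A {bgJ E (M * q * q)})
      (s36cunSq q (s36cun_t4_mem E M h4)) := s36cun_isIntegral_T4sq hq h4
  have h2 : IsIntegral (Algebra.adjoin A {bgJ E (M * q * q)})
      (s36cunBase q (s36cun_t4_mem E M h4)) := s36cun_isIntegral_T4 h4
  have e : s36cunX4 E M q h4 =
      s36cunSq q (s36cun_t4_mem E M h4) - s36cunBase q (s36cun_t4_mem E M h4) := rfl
  rw [e]
  exact h1.sub h2

/-- `G = (t₄² (t₄ + 16)⁵)^(q−1)` is integral over `A[j]`. -/
theorem s36cun_isIntegral_G4 (h4 : 4 ∣ M) :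
    IsIntegral (Algebra.adjoin A {bgJ E (M * q * q)}) (s36cunG4 E M q h4) := by
  have ht := s36cun_isIntegral_T4 (A := A) (E := E) (M := M) (q := q) h4
  have h16 : IsIntegral (Algebra.adjoin A {bgJ E (M * q * q)})
      ((16 : ℕ) : modularFunctionFieldFullC E (M * q * q)) := isIntegral_natCast 16
  rw [s36cunG4]
  refine IsIntegral.pow ((ht.pow 2).mul (IsIntegral.pow (ht.add ?_) 5)) _
  simpa using h16

/-! ### level `9` -/

/-- `h₃` is integral over `A[j]`. -/
theorem s36cun_isIntegral_H3 (h3 : 3 ∣ M) :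
    IsIntegral (Algebra.adjoin A {bgJ E (M * q * q)}) (s36cunH3 E M q h3) :=
  s36rig_integral_h3 A (s36cun_H3_j E M q h3)

/-- `t₉` is integral over `A[j]`. -/
theorem s36cun_isIntegral_T9 (h9 : 9 ∣ M) :
    IsIntegral (Algebra.adjoin A {bgJ E (M * q * q)}) (s36cunT9 E M q h9) :=
  cusp_isIntegral_adjoin_trans (A := A) (F := modularFunctionFieldFullC E (M * q * q))
    (u := bgJ E (M * q * q)) (T := s36cunH3 E M q ((show 3 ∣ 9 by norm_num).trans h9))
    (s36cun_isIntegral_H3 _) (s36rig_integral_t9 A (s36cun_T9_cube E M q h9))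

include hq in
/-- `t₉(Q^{q²})` is integral over `A[j]`. -/
theorem s36cun_isIntegral_T9sq (h9 : 9 ∣ M) :
    IsIntegral (Algebra.adjoin A {bgJ E (M * q * q)}) (s36cunSq q (s36cun_t9_mem E M h9)) := by
  have h3 : 3 ∣ M := (show 3 ∣ 9 by norm_num).trans h9
  refine cusp_isIntegral_adjoin_trans (A := A) (F := modularFunctionFieldFullC E (M * q * q))
    (u := bgJ E (M * q * q)) (T := s36cunJqq E M q) (s36cun_isIntegral_Jqq hq) ?_
  have e1 : s36cunJqq E M q * s36cunSq q (s36cun_h3_mem E M h3) ^ 3 =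
      (s36cunSq q (s36cun_h3_mem E M h3) + 27) *
        (s36cunSq q (s36cun_h3_mem E M h3) + 243) ^ 3 := by
    apply (modularFunctionFieldFullC E (M * q * q)).val.toRingHom.injective
    simp only [map_mul, map_pow, map_add, map_ofNat]
    have h := congrArg (qExpand E q) (congrArg (qExpand E q) (hm3_j E))
    simp only [map_mul, map_pow, map_add, map_ofNat] at h
    exact h
  have e2 : s36cunSq q (s36cun_t9_mem E M h9) ^ 3 =
      s36cunSq q (s36cun_h3_mem E M h3) * (s36cunSq q (s36cun_t9_mem E M h9) ^ 2 +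
        9 * s36cunSq q (s36cun_t9_mem E M h9) + 27) := by
    apply (modularFunctionFieldFullC E (M * q * q)).val.toRingHom.injective
    simp only [map_mul, map_pow, map_add, map_ofNat]
    have h := congrArg (qExpand E q) (congrArg (qExpand E q) (s36rig_t9_cube E))
    simp only [map_mul, map_pow, map_add, map_ofNat] at h
    exact h
  exact cusp_isIntegral_adjoin_trans (A := A) (F := modularFunctionFieldFullC E (M * q * q))
    (u := s36cunJqq E M q) (T := s36cunSq q (s36cun_h3_mem E M h3))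
    (s36rig_integral_h3 A e1) (s36rig_integral_t9 A e2)

include hq in
/-- `X = Π_{t₉}` is integral over `A[j]`. -/
theorem s36cun_isIntegral_X9 (h9 : 9 ∣ M) :
    IsIntegral (Algebra.adjoin A {bgJ E (M * q * q)}) (s36cunX9 E M q h9) := by
  have h1 : IsIntegral (Algebra.adjoin A {bgJ E (M * q * q)})
      (s36cunSq q (s36cun_t9_mem E M h9)) := s36cun_isIntegral_T9sq hq h9
  have h2 : IsIntegral (Algebra.adjoin A {bgJ E (M * q * q)})
      (s36cunBase q (s36cun_t9_mem E M h9)) := s36cun_isIntegral_T9 h9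
  have e : s36cunX9 E M q h9 =
      s36cunSq q (s36cun_t9_mem E M h9) - s36cunBase q (s36cun_t9_mem E M h9) := rfl
  rw [e]
  exact h1.sub h2

/-- `D = t₉² + 9 t₉ + 27` is integral over `A[j]`. -/
theorem s36cun_isIntegral_D9 (h9 : 9 ∣ M) :
    IsIntegral (Algebra.adjoin A {bgJ E (M * q * q)}) (s36cunD9 E M q h9) := by
  have ht := s36cun_isIntegral_T9 (A := A) (E := E) (M := M) (q := q) h9
  have h9' : IsIntegral (Algebra.adjoin A {bgJ E (M * q * q)})
      ((9 : ℕ) : modularFunctionFieldFullC E (M * q * q)) := isIntegral_natCast 9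
  have h27 : IsIntegral (Algebra.adjoin A {bgJ E (M * q * q)})
      ((27 : ℕ) : modularFunctionFieldFullC E (M * q * q)) := isIntegral_natCast 27
  rw [s36cunD9]
  refine ((ht.pow 2).add (IsIntegral.mul ?_ ht)).add ?_
  · simpa using h9'
  · simpa using h27

/-! ### the units -/

include hq in
/-- `W' = α(q¹² u_q)` is integral over `A[j]`. -/
theorem s36cun_isIntegral_W' :
    IsIntegral (Algebra.adjoin A {bgJ E (M * q * q)}) (s36cunW' E ιC M q) := by
  refine nodesSwap_isIntegral_of_evalInt (A := A)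
    (S := modularFunctionFieldFullC E (M * q * q)) (s36tuW_monic q hq) ?_
  apply (modularFunctionFieldFullC E (M * q * q)).val.toRingHom.injective
  rw [map_eval₂_evalInt, map_zero]
  have h := s36tuW_series q hq E
  rw [← s36cunW'_coe E ιC M q] at h
  exact h

include hq in
/-- `W = α(u_q⁻¹)` is integral over `A[j]`. -/
theorem s36cun_isIntegral_W :
    IsIntegral (Algebra.adjoin A {bgJ E (M * q * q)}) (s36cunW E ιC M q) := by
  refine cusp_isIntegral_adjoin_trans (A := A) (F := modularFunctionFieldFullC E (M * q * q))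
    (u := bgJ E (M * q * q)) (T := s36cunJq E M q) (s36cun_isIntegral_Jq hq) ?_
  refine nodesSwap_isIntegral_of_evalInt (A := A)
    (S := modularFunctionFieldFullC E (M * q * q)) (s36tuW_monic q hq) ?_
  apply (modularFunctionFieldFullC E (M * q * q)).val.toRingHom.injective
  rw [map_eval₂_evalInt, map_zero]
  have h := s36tuW_series' q hq E
  rw [← s36cunW_coe E ιC M q] at h
  exact h

end Int

end Fermat.Agent.S36
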