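import Fermat.Agent.S36.PtsCCong
import Fermat.Agent.S36.PtsCElts
import Fermat.Agent.S36.N2ValI1

/-!
# S36 / (I6)(b-CONG): the congruence at `C_c`, CONCRETE form (helper57)

`A` a valuation ring of `ℚ̄` over `q`, `E₀ = beta0Field A`, `K = E₀(ζ_q)`,
`V = s36i1V M hq hA hqM hζ ιC h` (helper98, `S36/N2ValI1.lean`), `c₁ = S36Comp.c`,
`F = modularFunctionFieldFullC E₀ (M * q * q)`, `π = (q : A₀)`, elements of `S36/PtsCElts.lean`
(helper80): `X = s36cunX4 E₀ M q h4`, `G = s36cunG4 E₀ M q h4`, `T = s36cunT E₀ ιC M q`, …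

* `s36cgc_cong_t4` : `(X ^ (q − 1) / π) ^ 6 − G * T ∈ 𝔪(V c)`             (`4 ∣ M`, so `q` odd)
* `s36cgc_cong_t9` : `(X ^ (q − 1) / π) ^ 6 − (D ^ 5) ^ (q − 1) * T / (t ^ 3) ^ (q − 1) ∈ 𝔪(V c)`
  (`9 ∣ M`, so `q ≠ 3`), `s36cgc_cong_t9'` (the same with `D` written out), and `s36cgc_cong_t9_two` for `q = 2` : `(X ^ (2 − 1) / π) ^ 6 − D⁵ T / t³`;
* memberships `s36cgc_U4_mem`, `s36cgc_U9_mem`, `s36cgc_T_mem`, `s36cgc_T_unit`, `s36cgc_t4_mem`,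
  `s36cgc_t9_mem`, `s36cgc_t9_unit`.

These are `hcong` of `s36pm_atPt` (`S36/PtsMidChart.lean`) with `e = q − 1`, `n = 6`.
-/

set_option autoImplicit false
set_option linter.unusedSectionVars false
set_option linter.unusedVariables false
set_option linter.style.haveILetI false

noncomputable section

namespace Fermat.Agent.S36

open ModularCurve Fermat.Agent.UNIP Fermat.Agent.INJ Fermat.Agent.AL Fermat.Agent.ES
open Fermat.Agent.S28 Fermat.Agent.S28.Deriv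

section Concrete

variable {q : ℕ} {A : ValuationSubring (AlgebraicClosure ℚ)} (M : ℕ) [NeZero M] [NeZero q]
  [IsDiscreteValuationRing ↥(beta0Ring A (beta0Field A))]
  {ζ : AlgebraicClosure ℚ}
variable (hq : q.Prime) (hA : A.LiesOverPrime q) (hqM : ¬ q ∣ M) (hζ : IsPrimitiveRoot ζ q)
  (ιC : ↥(beta0Field A) →+* ℂ)
  (h : S36MidEmb ↥(s36n2bK A ζ) q M (s36i1ZK (A := A) hq hζ))

/-- an embedding of `K = E₀(ζ)` into `ℂ` -/
theorem s36cgc_exists_emb : Nonempty (↥(s36n2bK A ζ) →+* ℂ) := by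
  haveI : Algebra.IsAlgebraic ℚ (AlgebraicClosure ℚ) := AlgebraicClosure.isAlgebraic ℚ
  exact ⟨((IsAlgClosed.lift : AlgebraicClosure ℚ →ₐ[ℚ] ℂ).toRingHom).comp
    (algebraMap ↥(s36n2bK A ζ) (AlgebraicClosure ℚ))⟩

theorem s36cgc_natCast_ne_zero {n : ℕ} (hn : n ≠ 0) :
    ((n : ℕ) : ↥(beta0Ring A (s36n2bK A ζ))) ≠ 0 := by
  intro h0
  have h1 := congrArg (fun x : ↥(beta0Ring A (s36n2bK A ζ)) =>
    ((x : ↥(s36n2bK A ζ)) : AlgebraicClosure ℚ)) h0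
  simp only [s36n2b_natCast_coe] at h1
  exact hn (by exact_mod_cast h1)

theorem s36cgc_level_ne_zero : ((M : ℕ) : ↥(s36n2bK A ζ)) ≠ 0 :=
  Nat.cast_ne_zero.mpr (NeZero.ne M)

include hq hA hζ in
/-- the residue field of `A_K` has characteristic `q` -/
theorem s36cgc_charP :
    CharP (IsLocalRing.ResidueField ↥(beta0Ring A (s36n2bK A ζ))) q :=
  (CharP.charP_iff_prime_eq_zero hq).mpr
    (s36th_natCast_red (ζ := s36i1Z (A := A) hq hζ) hq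
      (by rw [s36i1Z_coe]; exact s36n2bZeta_isPrimitiveRoot hq hζ)
      (IsLocalRing.residue ↥(beta0Ring A (s36n2bK A ζ)))
      (by rw [s36i1Z_coe]; exact s36n2b_residue_zeta hq hA hζ))

include hq hA hζ in
theorem s36cgc_prime_ne_zero {ℓ : ℕ} (hℓ : ℓ.Prime) (hne : q ≠ ℓ) :
    ((ℓ : ℕ) : IsLocalRing.ResidueField ↥(beta0Ring A (s36n2bK A ζ))) ≠ 0 := by
  haveI := s36cgc_charP (A := A) hq hA hζ
  intro h0
  have h1 := (CharP.cast_eq_zero_iff (IsLocalRing.ResidueField ↥(beta0Ring A (s36n2bK A ζ)))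
    q ℓ).mp h0
  exact hne ((Nat.prime_dvd_prime_iff_eq hq hℓ).mp h1)

/-! ### level 4 -/

section Four

variable (h4 : 4 ∣ M)

include hqM in
theorem s36cgc_q_ne_two (h4 : 4 ∣ M) : q ≠ 2 := by
  rintro rfl
  exact hqM ((show 2 ∣ 4 by norm_num).trans h4)

include hqM in
theorem s36cgc_q_ne_three (h9 : 9 ∣ M) : q ≠ 3 := by
  rintro rfl
  exact hqM ((show 3 ∣ 9 by norm_num).trans h9)

/-- `X ^ (q − 1) / q ∈ V_c` -/
theorem s36cgc_U4_mem :
    s36cunX4 ↥(beta0Field A) M q h4 ^ (q - 1) /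
      algebraMap ↥(beta0Ring A (beta0Field A))
        ↥(modularFunctionFieldFullC ↥(beta0Field A) (M * q * q))
        ((q : ℕ) : ↥(beta0Ring A (beta0Field A))) ∈ s36i1V M hq hA hqM hζ ιC h S36Comp.c := by
  obtain ⟨ιK⟩ := s36cgc_exists_emb (A := A) (ζ := ζ)
  rw [map_natCast]
  exact s36cg_U4_mem (s36n2b_vtBase hq hA hζ)
    (IntermediateField.inclusion (s36n2b_le_K A ζ)).toRingHom ιK hq hqM h (s36i1Z hq hζ) rfl
    (by rw [s36i1Z_coe]; exact s36n2bZeta_isPrimitiveRoot hq hζ)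
    (by rw [s36i1Z_coe]; exact s36n2b_residue_zeta hq hA hζ)
    (s36cgc_natCast_ne_zero hq.ne_zero) h4 (s36cgc_level_ne_zero M) _ rfl

/-- `T = α(u_q) ∈ V_c` -/
theorem s36cgc_T_mem :
    s36cunT ↥(beta0Field A) ιC M q ∈ s36i1V M hq hA hqM hζ ιC h S36Comp.c := by
  obtain ⟨ιK⟩ := s36cgc_exists_emb (A := A) (ζ := ζ)
  exact s36cg_T_mem (s36n2b_vtBase hq hA hζ)
    (IntermediateField.inclusion (s36n2b_le_K A ζ)).toRingHom ιK hq h (s36i1Z hq hζ) rfl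
    _ (s36cunT_coe _ ιC M q)

/-- `T = α(u_q)` is a unit of `V_c` -/
theorem s36cgc_T_unit :
    (s36i1V M hq hA hqM hζ ιC h S36Comp.c).valuation (s36cunT ↥(beta0Field A) ιC M q) = 1 := by
  obtain ⟨ιK⟩ := s36cgc_exists_emb (A := A) (ζ := ζ)
  exact s36cg_T_unit (s36n2b_vtBase hq hA hζ)
    (IntermediateField.inclusion (s36n2b_le_K A ζ)).toRingHom ιK hq h (s36i1Z hq hζ) rfl
    _ (s36cunT_coe _ ιC M q)

/-- `t₄ ∈ V_c` -/
theorem s36cgc_t4_mem :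
    s36cunT4 ↥(beta0Field A) M q h4 ∈ s36i1V M hq hA hqM hζ ιC h S36Comp.c :=
  s36cg_t4_mem (s36n2b_vtBase hq hA hζ)
    (IntermediateField.inclusion (s36n2b_le_K A ζ)).toRingHom hq h (s36i1Z hq hζ) rfl
    h4 (s36cgc_level_ne_zero M) _ rfl

/-- **(b-CONG), `q` odd** (`4 ∣ M`): `(X ^ (q − 1) / π) ^ 6 − G · T ∈ 𝔪(V_c)`. -/
theorem s36cgc_cong_t4 :
    (s36cunX4 ↥(beta0Field A) M q h4 ^ (q - 1) /
      algebraMap ↥(beta0Ring A (beta0Field A))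
        ↥(modularFunctionFieldFullC ↥(beta0Field A) (M * q * q))
        ((q : ℕ) : ↥(beta0Ring A (beta0Field A)))) ^ 6 -
      s36cunG4 ↥(beta0Field A) M q h4 * s36cunT ↥(beta0Field A) ιC M q ∈
        (s36i1V M hq hA hqM hζ ιC h S36Comp.c).nonunits := by
  obtain ⟨ιK⟩ := s36cgc_exists_emb (A := A) (ζ := ζ)
  rw [map_natCast]
  have h2 : (2 : IsLocalRing.ResidueField ↥(beta0Ring A (s36n2bK A ζ))) ≠ 0 := by
    have := s36cgc_prime_ne_zero (A := A) hq hA hζ Nat.prime_two (s36cgc_q_ne_two M hqM h4)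
    exact_mod_cast this
  exact s36cg_cong_t4 (s36n2b_vtBase hq hA hζ)
    (IntermediateField.inclusion (s36n2b_le_K A ζ)).toRingHom ιK hq hqM h (s36i1Z hq hζ) rfl
    (by rw [s36i1Z_coe]; exact s36n2bZeta_isPrimitiveRoot hq hζ)
    (by rw [s36i1Z_coe]; exact s36n2b_residue_zeta hq hA hζ)
    (s36cgc_natCast_ne_zero hq.ne_zero) h4 (s36cgc_level_ne_zero M)
    (s36cunX4 ↥(beta0Field A) M q h4) (s36cunT4 ↥(beta0Field A) M q h4)
    (s36cunT ↥(beta0Field A) ιC M q) h2 rfl rfl (s36cunT_coe _ ιC M q)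

end Four

/-! ### level 9 -/

section Nine

variable (h9 : 9 ∣ M)

/-- `X ^ (q − 1) / q ∈ V_c` -/
theorem s36cgc_U9_mem :
    s36cunX9 ↥(beta0Field A) M q h9 ^ (q - 1) /
      algebraMap ↥(beta0Ring A (beta0Field A))
        ↥(modularFunctionFieldFullC ↥(beta0Field A) (M * q * q))
        ((q : ℕ) : ↥(beta0Ring A (beta0Field A))) ∈ s36i1V M hq hA hqM hζ ιC h S36Comp.c := by
  obtain ⟨ιK⟩ := s36cgc_exists_emb (A := A) (ζ := ζ)
  rw [map_natCast]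
  exact s36cg_U9_mem (s36n2b_vtBase hq hA hζ)
    (IntermediateField.inclusion (s36n2b_le_K A ζ)).toRingHom ιK hq hqM h (s36i1Z hq hζ) rfl
    (by rw [s36i1Z_coe]; exact s36n2bZeta_isPrimitiveRoot hq hζ)
    (by rw [s36i1Z_coe]; exact s36n2b_residue_zeta hq hA hζ)
    (s36cgc_natCast_ne_zero hq.ne_zero) h9 (s36cgc_level_ne_zero M) _ rfl

/-- `t₉ ∈ V_c` -/
theorem s36cgc_t9_mem :
    s36cunT9 ↥(beta0Field A) M q h9 ∈ s36i1V M hq hA hqM hζ ιC h S36Comp.c :=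
  s36cg_t9_mem (s36n2b_vtBase hq hA hζ)
    (IntermediateField.inclusion (s36n2b_le_K A ζ)).toRingHom hq h (s36i1Z hq hζ) rfl
    h9 (s36cgc_level_ne_zero M) _ rfl

include hq hA hqM hζ h9 in
theorem s36cgc_three_ne_zero :
    (3 : IsLocalRing.ResidueField ↥(beta0Ring A (s36n2bK A ζ))) ≠ 0 := by
  have := s36cgc_prime_ne_zero (A := A) hq hA hζ Nat.prime_three (s36cgc_q_ne_three M hqM h9)
  exact_mod_cast this

/-- `t₉` is a unit of `V_c` -/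
theorem s36cgc_t9_unit :
    (s36i1V M hq hA hqM hζ ιC h S36Comp.c).valuation (s36cunT9 ↥(beta0Field A) M q h9) = 1 :=
  s36cg_t9_unit (s36n2b_vtBase hq hA hζ)
    (IntermediateField.inclusion (s36n2b_le_K A ζ)).toRingHom hq h (s36i1Z hq hζ) rfl
    h9 (s36cgc_level_ne_zero M) _ (s36cgc_three_ne_zero M hq hA hqM hζ h9) rfl

/-- **(b-CONG), level `9`** (`9 ∣ M`):
`(X ^ (q − 1) / π) ^ 6 − (D ^ 5) ^ (q − 1) · T / (t ^ 3) ^ (q − 1) ∈ 𝔪(V_c)`. -/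
theorem s36cgc_cong_t9 :
    (s36cunX9 ↥(beta0Field A) M q h9 ^ (q - 1) /
      algebraMap ↥(beta0Ring A (beta0Field A))
        ↥(modularFunctionFieldFullC ↥(beta0Field A) (M * q * q))
        ((q : ℕ) : ↥(beta0Ring A (beta0Field A)))) ^ 6 -
      (s36cunD9 ↥(beta0Field A) M q h9 ^ 5) ^ (q - 1) * s36cunT ↥(beta0Field A) ιC M q /
        (s36cunT9 ↥(beta0Field A) M q h9 ^ 3) ^ (q - 1) ∈
        (s36i1V M hq hA hqM hζ ιC h S36Comp.c).nonunits := by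
  obtain ⟨ιK⟩ := s36cgc_exists_emb (A := A) (ζ := ζ)
  rw [map_natCast]
  exact s36cg_cong_t9' (s36n2b_vtBase hq hA hζ)
    (IntermediateField.inclusion (s36n2b_le_K A ζ)).toRingHom ιK hq hqM h (s36i1Z hq hζ) rfl
    (by rw [s36i1Z_coe]; exact s36n2bZeta_isPrimitiveRoot hq hζ)
    (by rw [s36i1Z_coe]; exact s36n2b_residue_zeta hq hA hζ)
    (s36cgc_natCast_ne_zero hq.ne_zero) h9 (s36cgc_level_ne_zero M)
    (s36cunX9 ↥(beta0Field A) M q h9) (s36cunT9 ↥(beta0Field A) M q h9)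
    (s36cunT ↥(beta0Field A) ιC M q) (s36cgc_three_ne_zero M hq hA hqM hζ h9) rfl rfl
    (s36cunT_coe _ ιC M q)

/-- **(b-CONG), level `9`**, with `D = t² + 9 t + 27` written out
(the shape of `hcong` in `s36pm_hPc_nine`, `S36/PtsMidInst.lean`). -/
theorem s36cgc_cong_t9' :
    (s36cunX9 ↥(beta0Field A) M q h9 ^ (q - 1) /
      algebraMap ↥(beta0Ring A (beta0Field A))
        ↥(modularFunctionFieldFullC ↥(beta0Field A) (M * q * q))
        ((q : ℕ) : ↥(beta0Ring A (beta0Field A)))) ^ 6 -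
      ((s36cunT9 ↥(beta0Field A) M q h9 ^ 2 + 9 * s36cunT9 ↥(beta0Field A) M q h9 + 27) ^ 5) ^
          (q - 1) * s36cunT ↥(beta0Field A) ιC M q /
        (s36cunT9 ↥(beta0Field A) M q h9 ^ 3) ^ (q - 1) ∈
        (s36i1V M hq hA hqM hζ ιC h S36Comp.c).nonunits :=
  s36cgc_cong_t9 M hq hA hqM hζ ιC h h9

/-- **(b-CONG), `q = 2`** (`9 ∣ M`): `(X ^ (q − 1) / π) ^ 6 − D⁵ · T / t³ ∈ 𝔪(V_c)`. -/
theorem s36cgc_cong_t9_two (hq2 : q = 2) :
    (s36cunX9 ↥(beta0Field A) M q h9 ^ (q - 1) /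
      algebraMap ↥(beta0Ring A (beta0Field A))
        ↥(modularFunctionFieldFullC ↥(beta0Field A) (M * q * q))
        ((q : ℕ) : ↥(beta0Ring A (beta0Field A)))) ^ 6 -
      s36cunD9 ↥(beta0Field A) M q h9 ^ 5 * s36cunT ↥(beta0Field A) ιC M q /
        s36cunT9 ↥(beta0Field A) M q h9 ^ 3 ∈
        (s36i1V M hq hA hqM hζ ιC h S36Comp.c).nonunits := by
  have h1 := s36cgc_cong_t9 M hq hA hqM hζ ιC h h9
  have e : q - 1 = 1 := by omega
  rw [e] at h1 ⊢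
  simpa only [pow_one] using h1

end Nine

end Concrete

end Fermat.Agent.S36

end
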