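/-
S36 (Carayol at `q² ∥ M`), geometry, input (I6): **`Gen_a` / `Gen_c`** (helper80).

The local parameter `Y₀` of the branch `V_i`, `i ∈ {a, c}`, at a closed point `𝔫` of the chart `j`
(resp. `1/j`) of level `M q²` through which `V_i` passes: the hypotheses `hY₀`, `hgen` of
`s36pab_one` / `s36pm_atPt_inl` (resp. `_inr`), for the concrete family
`V = s36i1V M hq hA hqM hζ ιC h`.

Abstract part (`A₀` a DVR, `ψ : F″ →ₐ[A₀] F`, `u = ψ t`):
* `s36cgenG ψ t u hu` : the chart homomorphism `g : C_t → B_u`, `C_t = integralClosure A₀[t] F″`,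
  `B_u = zchClosure {u}`, as a homomorphism of `A₀`-algebras; `s36cgenG_coe`.
* `s36cgen_isIntegral` : `g` is integral.
* `s36cgen_gen_abs` : from (F1) on the chart `u = ψ t` and `RegChart π t`:
  `∃ Y₀ ∈ 𝔫, S36n2pGen 𝔫 V Y₀` at every closed point `𝔫 : AtPt π u` on `V`
  (`s36pab_gen_of_lower` + `RegChart.locGen` of the chart `t`).

Concrete part (`V = s36i1V`, `ψ = ψ_a = α ∘ incl`, the inclusion of `F_M` in `F_{Mqq}`):
* `s36cgen_hF`, `s36cgen_comap` : (F₁)/(F₂) and the restriction along `α` of `V_i`, `i ≠ b`.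
* **`s36cgen_alpha`** : chart `j`: `∃ Y₀ ∈ 𝔫, S36n2pGen 𝔫 (V i) Y₀` for `i ≠ b`;
  `s36cgen_a`, `s36cgen_c` : the two cases.
* **`s36cgen_alpha_inv`** : chart `1/j` (the cusps); `s36cgen_a_inv`, `s36cgen_c_inv`.
-/
import Fermat.Agent.S36.SmallKR
import Fermat.Agent.S36.N2KerF1
import Fermat.Agent.S36.N2ValHne
import Fermat.Agent.S36.PtsAB
import Fermat.Agent.UNIP.MGVertLocMain
import Fermat.Agent.UNIP.NodesCuspPoly

set_option autoImplicit false
set_option linter.style.haveILetI false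
set_option linter.unusedSectionVars false
set_option linter.unusedVariables false
set_option linter.style.longLine false
set_option synthInstance.maxHeartbeats 400000
set_option maxHeartbeats 1000000

noncomputable section

namespace Fermat.Agent.S36

open ModularCurve AlgebraicCurve Fermat.Agent.ES Fermat.Agent.ES.G2 Fermat.Agent.INJ
open Fermat.Agent.UNIP Fermat.Agent.STB IntermediateField

universe u

section Abs

variable {A₀ E F'' F : Type u} [CommRing A₀] [IsDomain A₀] [IsDiscreteValuationRing A₀]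
  [Field E] [Algebra A₀ E] [IsFractionRing A₀ E] [CharZero E]
  [Field F''] [Algebra E F''] [Algebra A₀ F''] [IsScalarTower A₀ E F'']
  [Field F] [Algebra E F] [Algebra A₀ F] [IsScalarTower A₀ E F]
  (ψ : F'' →ₐ[A₀] F) (t : F'') (u : F) (hu : ψ t = u)

include hu in
/-- `ψ` maps the chart `t` into the chart `u = ψ t` -/
theorem s36cgen_mem (c : ↥(integralClosure ↥(Algebra.adjoin A₀ ({t} : Set F'')) F'')) :
    ψ (c : F'') ∈ zchClosure (A₀ := A₀) ({u} : Set F) := by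
  rw [mem_zchClosure]
  have h1 := cusp_isIntegral_adjoin_map (A := A₀) (σ := (ψ : F'' →+* F))
    (fun a => ψ.commutes a) c.2
  have h2 : (ψ : F'' →+* F) t = u := hu
  rw [h2] at h1
  exact h1

/-- **the chart homomorphism** `g : C_t → B_u` -/
def s36cgenG : ↥(integralClosure ↥(Algebra.adjoin A₀ ({t} : Set F'')) F'') →ₐ[A₀]
    ↥(zchClosure (A₀ := A₀) ({u} : Set F)) where
  toFun c := ⟨ψ (c : F''), s36cgen_mem ψ t u hu c⟩
  map_one' := Subtype.ext (map_one ψ)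
  map_mul' _ _ := Subtype.ext (map_mul ψ _ _)
  map_zero' := Subtype.ext (map_zero ψ)
  map_add' _ _ := Subtype.ext (map_add ψ _ _)
  commutes' a := Subtype.ext (by
    show ψ (algebraMap A₀ F'' a) = algebraMap A₀ F a
    exact ψ.commutes a)

theorem s36cgenG_coe (c : ↥(integralClosure ↥(Algebra.adjoin A₀ ({t} : Set F'')) F'')) :
    ((s36cgenG ψ t u hu c : ↥(zchClosure (A₀ := A₀) ({u} : Set F))) : F) = ψ (c : F'') := rfl

/-- `g` is integral -/
theorem s36cgen_isIntegral :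
    ((s36cgenG ψ t u hu : ↥(integralClosure ↥(Algebra.adjoin A₀ ({t} : Set F'')) F'') →ₐ[A₀]
      ↥(zchClosure (A₀ := A₀) ({u} : Set F))) :
      ↥(integralClosure ↥(Algebra.adjoin A₀ ({t} : Set F'')) F'') →+*
        ↥(zchClosure (A₀ := A₀) ({u} : Set F))).IsIntegral := by
  refine s36pab_isIntegral_of_mem_range (u := u) (zchClosure (A₀ := A₀) ({u} : Set F))
    (fun x hx => mem_zchClosure.mp hx) (s36cgenG ψ t u hu)
    ⟨t, ?_⟩ ?_
  · exact isIntegral_algebraMap (R := ↥(Algebra.adjoin A₀ ({t} : Set F'')))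
      (x := ⟨t, Algebra.subset_adjoin (Set.mem_singleton _)⟩)
  · rw [s36cgenG_coe]
    exact hu

include hu in
/-- **the generic chart form**: from (F1) on the chart `u = ψ t` and `RegChart π t`. -/
theorem s36cgen_gen_abs {π : A₀} (hReg : RegChart (E := E) π t) (V : ValuationSubring F)
    (hBV : ∀ b : F, IsIntegral ↥(Algebra.adjoin A₀ ({u} : Set F)) b → b ∈ V)
    (hπV : algebraMap A₀ F π ∈ V.nonunits)
    (hF1 : ∀ b : F, b ∈ V → IsIntegral ↥(Algebra.adjoin A₀ ({u} : Set F)) b →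
      ∃ c : ↥(integralClosure ↥(Algebra.adjoin A₀ ({t} : Set F'')) F''),
        b - ψ (c : F'') ∈ V.nonunits)
    (𝔫 : AtPt (F := F) π u) (hthr : atThrough 𝔫 V) :
    ∃ Y₀ : ↥(zchClosure (A₀ := A₀) ({u} : Set F)), Y₀ ∈ 𝔫.1 ∧ S36n2pGen 𝔫.1 V Y₀ := by
  have hg := s36cgen_isIntegral ψ t u hu
  have hBV' : ∀ b : ↥(zchClosure (A₀ := A₀) ({u} : Set F)),
      algebraMap ↥(zchClosure (A₀ := A₀) ({u} : Set F)) F b ∈ V :=
    fun b => hBV _ (mem_zchClosure.mp b.2)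
  have hF1' : ∀ b : ↥(zchClosure (A₀ := A₀) ({u} : Set F)),
      ∃ c : ↥(integralClosure ↥(Algebra.adjoin A₀ ({t} : Set F'')) F''),
        algebraMap ↥(zchClosure (A₀ := A₀) ({u} : Set F)) F
          (b - ((s36cgenG ψ t u hu :
            ↥(integralClosure ↥(Algebra.adjoin A₀ ({t} : Set F'')) F'') →ₐ[A₀]
              ↥(zchClosure (A₀ := A₀) ({u} : Set F))) :
            ↥(integralClosure ↥(Algebra.adjoin A₀ ({t} : Set F'')) F'') →+*
              ↥(zchClosure (A₀ := A₀) ({u} : Set F))) c) ∈ V.nonunits := by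
    intro b
    obtain ⟨c, hc⟩ := hF1 (b : F) (hBV _ (mem_zchClosure.mp b.2)) (mem_zchClosure.mp b.2)
    exact ⟨c, hc⟩
  have hπ' : algebraMap ↥(zchClosure (A₀ := A₀) ({u} : Set F)) F
      (((s36cgenG ψ t u hu :
            ↥(integralClosure ↥(Algebra.adjoin A₀ ({t} : Set F'')) F'') →ₐ[A₀]
              ↥(zchClosure (A₀ := A₀) ({u} : Set F))) :
            ↥(integralClosure ↥(Algebra.adjoin A₀ ({t} : Set F'')) F'') →+*
              ↥(zchClosure (A₀ := A₀) ({u} : Set F)))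
        (algebraMap A₀ ↥(integralClosure ↥(Algebra.adjoin A₀ ({t} : Set F'')) F'') π)) ∈
      V.nonunits := by
    have e : (s36cgenG ψ t u hu)
        (algebraMap A₀ ↥(integralClosure ↥(Algebra.adjoin A₀ ({t} : Set F'')) F'') π) =
        algebraMap A₀ ↥(zchClosure (A₀ := A₀) ({u} : Set F)) π :=
      (s36cgenG ψ t u hu).commutes π
    have e2 : algebraMap ↥(zchClosure (A₀ := A₀) ({u} : Set F)) F
        (((s36cgenG ψ t u hu :
            ↥(integralClosure ↥(Algebra.adjoin A₀ ({t} : Set F'')) F'') →ₐ[A₀]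
              ↥(zchClosure (A₀ := A₀) ({u} : Set F))) :
            ↥(integralClosure ↥(Algebra.adjoin A₀ ({t} : Set F'')) F'') →+*
              ↥(zchClosure (A₀ := A₀) ({u} : Set F)))
          (algebraMap A₀ ↥(integralClosure ↥(Algebra.adjoin A₀ ({t} : Set F'')) F'') π)) =
        algebraMap A₀ F π := by
      show algebraMap ↥(zchClosure (A₀ := A₀) ({u} : Set F)) F
        ((s36cgenG ψ t u hu)
          (algebraMap A₀ ↥(integralClosure ↥(Algebra.adjoin A₀ ({t} : Set F'')) F'') π)) = _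
      rw [e]
      rfl
    rw [e2]
    exact hπV
  obtain ⟨s, hs, hgen⟩ := s36pab_gen_of_lower
    ((s36cgenG ψ t u hu :
            ↥(integralClosure ↥(Algebra.adjoin A₀ ({t} : Set F'')) F'') →ₐ[A₀]
              ↥(zchClosure (A₀ := A₀) ({u} : Set F))) :
            ↥(integralClosure ↥(Algebra.adjoin A₀ ({t} : Set F'')) F'') →+*
              ↥(zchClosure (A₀ := A₀) ({u} : Set F)))
    hg 𝔫.1 𝔫.2.1 V hBV' hthr hF1'
    (algebraMap A₀ ↥(integralClosure ↥(Algebra.adjoin A₀ ({t} : Set F'')) F'') π) hπ'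
    (fun 𝔪 h𝔪 hπ𝔪 => hReg.locGen 𝔪 h𝔪 hπ𝔪)
  exact ⟨_, hs, hgen⟩

end Abs

section Gen

variable {q : ℕ} {A : ValuationSubring (AlgebraicClosure ℚ)} (M : ℕ) [NeZero M] [NeZero q]
  [IsDiscreteValuationRing ↥(beta0Ring A (beta0Field A))]
  {ζ : AlgebraicClosure ℚ}
  (hq : q.Prime) (hA : A.LiesOverPrime q) (hqM : ¬ q ∣ M) (hζ : IsPrimitiveRoot ζ q)
  (ιC : ↥(beta0Field A) →+* ℂ)
  (h : S36MidEmb ↥(s36n2bK A ζ) q M (s36i1ZK (A := A) hq hζ))

/-- (F₁)/(F₂) of `s36n2x_alphaInf_main` for the concrete family, `i ≠ b` -/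
theorem s36cgen_hF (i : S36Comp) (hi : i ≠ S36Comp.b)
    (x : ↥(modularFunctionFieldFullC ↥(beta0Field A) (M * q * q)))
    (hx : x ∈ s36i1V M hq hA hqM hζ ιC h i) :
    ∃ c ∈ vtFam (vtBase_residue (beta0Ring_irreducible_q hq hA)) ιC hq hqM true,
      x - s36Alpha ↥(beta0Field A) M q c ∈ (s36i1V M hq hA hqM hζ ιC h i).nonunits := by
  obtain ⟨κ, -, hκ⟩ := s36n2b_compat (A := A) (ζ := ζ) hq hA
  obtain ⟨ιK⟩ := s36i1c_exists_emb A ζ
  have hmain := s36n2x_alphaInf_main (vtBase_residue (beta0Ring_irreducible_q hq hA))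
    (s36n2b_vtBase hq hA hζ)
    (IntermediateField.inclusion (s36n2b_le_K A ζ)).toRingHom ιC ιK hq hqM h
    (s36i1Z hq hζ) rfl hκ (s36n2bZeta_isPrimitiveRoot hq hζ) (s36n2b_residue_zeta hq hA hζ)
    (s36sk_natCast_ne_zero hq) (v := 1) (by rw [map_one]; exact one_ne_zero)
    (by rw [mul_one])
  cases i
  · exact hmain.2.1 x hx
  · exact absurd rfl hi
  · exact hmain.2.2.1 x hx

/-- the restriction of `V_i` along `α` is `V′_∞`, `i ≠ b` -/
theorem s36cgen_comap (i : S36Comp) (hi : i ≠ S36Comp.b) :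
    (s36i1V M hq hA hqM hζ ιC h i).comap (s36Alpha ↥(beta0Field A) M q) =
      vtFam (vtBase_residue (beta0Ring_irreducible_q hq hA)) ιC hq hqM true := by
  rw [s36i1c_comap_alpha]
  cases i
  · rfl
  · exact absurd rfl hi
  · rfl

/-- **`Gen_a` / `Gen_c`, chart `j`**: the local parameter of the branch `V_i`, `i ≠ b`, at a
closed point of the chart `j` of level `M q²` on `V_i`. -/
theorem s36cgen_alpha (i : S36Comp) (hi : i ≠ S36Comp.b) (h2 : q = 2 → 3 ∣ M)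
    (h3 : q = 3 → 2 ∣ M)
    (𝔫 : AtPt (F := ↥(modularFunctionFieldFullC ↥(beta0Field A) (M * q * q)))
      ((q : ℕ) : ↥(beta0Ring A (beta0Field A))) (bgJ ↥(beta0Field A) (M * q * q)))
    (hthr : atThrough 𝔫 (s36i1V M hq hA hqM hζ ιC h i)) :
    ∃ Y₀ : ↥(zchClosure (A₀ := ↥(beta0Ring A (beta0Field A)))
        ({bgJ ↥(beta0Field A) (M * q * q)} :
          Set ↥(modularFunctionFieldFullC ↥(beta0Field A) (M * q * q)))),
      Y₀ ∈ 𝔫.1 ∧ S36n2pGen 𝔫.1 (s36i1V M hq hA hqM hζ ιC h i) Y₀ := by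
  have hπ : Irreducible ((q : ℕ) : ↥(beta0Ring A (beta0Field A))) :=
    beta0Ring_irreducible_q hq hA
  haveI : Fact q.Prime := ⟨hq⟩
  haveI : CharP (IsLocalRing.ResidueField ↥(beta0Ring A (beta0Field A))) q := mgvl_charP hq hA
  have hReg : RegChart (E := ↥(beta0Field A)) ((q : ℕ) : ↥(beta0Ring A (beta0Field A)))
      (bgJ ↥(beta0Field A) M) := stb_regChart_conc_J M hq hA le_rfl hπ hqM h2 h3
  have hSS1 := mgcb_reg_SS1_J (K₀ := beta0Field A) hπ ιC hq hqM hA hReg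
  have hVloc := mgv_hVloc₁ hπ ιC hq hqM hA hSS1 true
  exact s36cgen_gen_abs (E := ↥(beta0Field A))
    (s36n2kPsi ↥(beta0Ring A (beta0Field A)) ↥(beta0Field A) M q)
    (bgJ ↥(beta0Field A) M) (bgJ ↥(beta0Field A) (M * q * q))
    (s36n2kPsi_bgJ ↥(beta0Ring A (beta0Field A)) ↥(beta0Field A) M q) hReg
    (s36i1V M hq hA hqM hζ ιC h i)
    (s36i1c_hBV₁ M hq hA hqM hζ ιC h i)
    (s36i1c_hπV M hq hA hqM hζ ιC h i)
    (fun b hbV hb => s36n2k_F1_J (beta0Field A)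
      (IsLocalRing.residue ↥(beta0Ring A (beta0Field A))) ιC hq hqM hπ (vtBase_residue hπ) hReg
      hVloc (s36i1V M hq hA hqM hζ ιC h i) (s36cgen_comap M hq hA hqM hζ ιC h i hi)
      (s36cgen_hF M hq hA hqM hζ ιC h i hi) b hbV hb)
    𝔫 hthr

/-- **`Gen_a`**, chart `j` -/
theorem s36cgen_a (h2 : q = 2 → 3 ∣ M) (h3 : q = 3 → 2 ∣ M)
    (𝔫 : AtPt (F := ↥(modularFunctionFieldFullC ↥(beta0Field A) (M * q * q)))
      ((q : ℕ) : ↥(beta0Ring A (beta0Field A))) (bgJ ↥(beta0Field A) (M * q * q)))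
    (hthr : atThrough 𝔫 (s36i1V M hq hA hqM hζ ιC h S36Comp.a)) :
    ∃ Y₀ : ↥(zchClosure (A₀ := ↥(beta0Ring A (beta0Field A)))
        ({bgJ ↥(beta0Field A) (M * q * q)} :
          Set ↥(modularFunctionFieldFullC ↥(beta0Field A) (M * q * q)))),
      Y₀ ∈ 𝔫.1 ∧ S36n2pGen 𝔫.1 (s36i1V M hq hA hqM hζ ιC h S36Comp.a) Y₀ :=
  s36cgen_alpha M hq hA hqM hζ ιC h S36Comp.a (fun e => by cases e) h2 h3 𝔫 hthr

/-- **`Gen_c`**, chart `j` (= `hGen` of `S36/PtsMidInst.lean`) -/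
theorem s36cgen_c (h2 : q = 2 → 3 ∣ M) (h3 : q = 3 → 2 ∣ M)
    (𝔫 : AtPt (F := ↥(modularFunctionFieldFullC ↥(beta0Field A) (M * q * q)))
      ((q : ℕ) : ↥(beta0Ring A (beta0Field A))) (bgJ ↥(beta0Field A) (M * q * q)))
    (hthr : atThrough 𝔫 (s36i1V M hq hA hqM hζ ιC h S36Comp.c)) :
    ∃ Y₀ : ↥(zchClosure (A₀ := ↥(beta0Ring A (beta0Field A)))
        ({bgJ ↥(beta0Field A) (M * q * q)} :
          Set ↥(modularFunctionFieldFullC ↥(beta0Field A) (M * q * q)))),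
      Y₀ ∈ 𝔫.1 ∧ S36n2pGen 𝔫.1 (s36i1V M hq hA hqM hζ ιC h S36Comp.c) Y₀ :=
  s36cgen_alpha M hq hA hqM hζ ιC h S36Comp.c (fun e => by cases e) h2 h3 𝔫 hthr

/-- **`Gen_a` / `Gen_c`, chart `1/j`** (the cusps): the local parameter of the branch `V_i`,
`i ≠ b`, at a closed point of the chart `1/j` of level `M q²` on `V_i`. -/
theorem s36cgen_alpha_inv (i : S36Comp) (hi : i ≠ S36Comp.b) (h2 : q = 2 → 3 ∣ M)
    (h3 : q = 3 → 2 ∣ M)
    (𝔫 : AtPt (F := ↥(modularFunctionFieldFullC ↥(beta0Field A) (M * q * q)))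
      ((q : ℕ) : ↥(beta0Ring A (beta0Field A))) (bgJ ↥(beta0Field A) (M * q * q))⁻¹)
    (hthr : atThrough 𝔫 (s36i1V M hq hA hqM hζ ιC h i)) :
    ∃ Y₀ : ↥(zchClosure (A₀ := ↥(beta0Ring A (beta0Field A)))
        ({(bgJ ↥(beta0Field A) (M * q * q))⁻¹} :
          Set ↥(modularFunctionFieldFullC ↥(beta0Field A) (M * q * q)))),
      Y₀ ∈ 𝔫.1 ∧ S36n2pGen 𝔫.1 (s36i1V M hq hA hqM hζ ιC h i) Y₀ := by
  have hπ : Irreducible ((q : ℕ) : ↥(beta0Ring A (beta0Field A))) :=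
    beta0Ring_irreducible_q hq hA
  haveI : Fact q.Prime := ⟨hq⟩
  haveI : CharP (IsLocalRing.ResidueField ↥(beta0Ring A (beta0Field A))) q := mgvl_charP hq hA
  have hReg : RegChart (E := ↥(beta0Field A)) ((q : ℕ) : ↥(beta0Ring A (beta0Field A)))
      (bgJ ↥(beta0Field A) M) := stb_regChart_conc_J M hq hA le_rfl hπ hqM h2 h3
  have hReg' : RegChart (E := ↥(beta0Field A)) ((q : ℕ) : ↥(beta0Ring A (beta0Field A)))
      (bgJ ↥(beta0Field A) M)⁻¹ := stb_regChart_conc_Jinv M hq hA le_rfl hπ hqM h2 h3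
  have hSS1 := mgcb_reg_SS1_J (K₀ := beta0Field A) hπ ιC hq hqM hA hReg
  have hVloc := mgv_hVloc₁ hπ ιC hq hqM hA hSS1 true
  exact s36cgen_gen_abs (E := ↥(beta0Field A))
    (s36n2kPsi ↥(beta0Ring A (beta0Field A)) ↥(beta0Field A) M q)
    (bgJ ↥(beta0Field A) M)⁻¹ (bgJ ↥(beta0Field A) (M * q * q))⁻¹
    (s36n2kPsi_bgJ_inv ↥(beta0Ring A (beta0Field A)) ↥(beta0Field A) M q) hReg'
    (s36i1V M hq hA hqM hζ ιC h i)
    (s36i1c_hBV₂ M hq hA hqM hζ ιC h i)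
    (s36i1c_hπV M hq hA hqM hζ ιC h i)
    (fun b hbV hb => s36n2k_F1_Jinv (beta0Field A)
      (IsLocalRing.residue ↥(beta0Ring A (beta0Field A))) ιC hq hqM hπ (vtBase_residue hπ) hReg
      hReg' hVloc (s36i1V M hq hA hqM hζ ιC h i) (s36cgen_comap M hq hA hqM hζ ιC h i hi)
      (s36cgen_hF M hq hA hqM hζ ιC h i hi) b hbV hb)
    𝔫 hthr

/-- **`Gen_a`**, chart `1/j` -/
theorem s36cgen_a_inv (h2 : q = 2 → 3 ∣ M) (h3 : q = 3 → 2 ∣ M)
    (𝔫 : AtPt (F := ↥(modularFunctionFieldFullC ↥(beta0Field A) (M * q * q)))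
      ((q : ℕ) : ↥(beta0Ring A (beta0Field A))) (bgJ ↥(beta0Field A) (M * q * q))⁻¹)
    (hthr : atThrough 𝔫 (s36i1V M hq hA hqM hζ ιC h S36Comp.a)) :
    ∃ Y₀ : ↥(zchClosure (A₀ := ↥(beta0Ring A (beta0Field A)))
        ({(bgJ ↥(beta0Field A) (M * q * q))⁻¹} :
          Set ↥(modularFunctionFieldFullC ↥(beta0Field A) (M * q * q)))),
      Y₀ ∈ 𝔫.1 ∧ S36n2pGen 𝔫.1 (s36i1V M hq hA hqM hζ ιC h S36Comp.a) Y₀ :=
  s36cgen_alpha_inv M hq hA hqM hζ ιC h S36Comp.a (fun e => by cases e) h2 h3 𝔫 hthr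

/-- **`Gen_c`**, chart `1/j` -/
theorem s36cgen_c_inv (h2 : q = 2 → 3 ∣ M) (h3 : q = 3 → 2 ∣ M)
    (𝔫 : AtPt (F := ↥(modularFunctionFieldFullC ↥(beta0Field A) (M * q * q)))
      ((q : ℕ) : ↥(beta0Ring A (beta0Field A))) (bgJ ↥(beta0Field A) (M * q * q))⁻¹)
    (hthr : atThrough 𝔫 (s36i1V M hq hA hqM hζ ιC h S36Comp.c)) :
    ∃ Y₀ : ↥(zchClosure (A₀ := ↥(beta0Ring A (beta0Field A)))
        ({(bgJ ↥(beta0Field A) (M * q * q))⁻¹} :
          Set ↥(modularFunctionFieldFullC ↥(beta0Field A) (M * q * q)))),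
      Y₀ ∈ 𝔫.1 ∧ S36n2pGen 𝔫.1 (s36i1V M hq hA hqM hζ ιC h S36Comp.c) Y₀ :=
  s36cgen_alpha_inv M hq hA hqM hζ ιC h S36Comp.c (fun e => by cases e) h2 h3 𝔫 hthr

end Gen

end Fermat.Agent.S36

end
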