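/-
S36 (I6): `Gen_a`, `Gen_c` on the chart `j` in the packaged form `StmtS36GenJ` of
`S36/PtsOneAB.lean` (helper80, on helper93's request).
-/
import Fermat.Agent.S36.PtsOneAB
import Fermat.Agent.S36.PtsCGen

set_option autoImplicit false
set_option linter.style.haveILetI false
set_option linter.unusedSectionVars false
set_option linter.unusedVariables false
set_option linter.style.longLine false
set_option synthInstance.maxHeartbeats 400000
set_option maxHeartbeats 1000000

namespace Fermat.Agent.S36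

open ModularCurve AlgebraicCurve Fermat.Agent.ES Fermat.Agent.ES.G2 Fermat.Agent.INJ
open Fermat.Agent.UNIP Fermat.Agent.STB IntermediateField

/-- **Gen_c on the chart `j`**, packaged. -/
theorem stmtS36GenJ_c : StmtS36GenJ S36Comp.c := by
  intro M q _ _ hq hR A hA _ ζ hζ ιC ιK h 𝔫 hthr
  exact s36cgen_c M hq hA hR.1 hζ ιC h (s36so_rigid_h2 hR) (s36so_rigid_h3 hR) 𝔫 hthr

/-- **Gen_a on the chart `j`**, packaged. -/
theorem stmtS36GenJ_a : StmtS36GenJ S36Comp.a := by
  intro M q _ _ hq hR A hA _ ζ hζ ιC ιK h 𝔫 hthr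
  exact s36cgen_a M hq hA hR.1 hζ ιC h (s36so_rigid_h2 hR) (s36so_rigid_h3 hR) 𝔫 hthr

end Fermat.Agent.S36
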