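import Fermat.Agent.S36.PtsMid
import Fermat.Agent.S36.PtsChart
import Fermat.Agent.UNIP.Adapter

/-!
# S36 / (I6)(b): the points of the middle component, chart form (helper93)

Setting of `UNIP/AbstractT.lean` (`A₀` a DVR, `E = Frac A₀`, `F / E(u)` finite), chart
`B_u = zchClosure {u}`, closed point `𝔫 : AtPt π u`, `O = atLoc 𝔫`.

* `s36pm_hfrac`, `s36pm_hE` : `F = Frac B_u`, `E ⊆ B_u[1/π]`;
* **`s36pm_atPt`** : `S36PtInput` at a closed point `𝔫` with exactly one component `V c₁`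
  through it, from `X ∈ O`, a unit `g` of `O` and the congruence
  `(X ^ e / π) ^ n ≡ g` at `V c₁` — all hypotheses in the "integral over `A₀[u]`" form of
  `s36tb_small` (`hBV`, `hKR`, `hram`, `hVloc`);
* `s36pm_atPt_inl`, `s36pm_atPt_inr` : the same in the forms `atO π t (Sum.inl 𝔫)`,
  `atO π t (Sum.inr 𝔫)` of `hpts`.
-/

set_option autoImplicit false
set_option linter.unusedSectionVars false
set_option linter.unusedVariables false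
set_option linter.style.haveILetI false

namespace Fermat.Agent.S36

open Fermat.Agent.UNIP Fermat.Agent.STB Fermat.Agent.INJ IntermediateField AlgebraicCurve

section Chart

variable {A₀ E F : Type*} [CommRing A₀] [IsDomain A₀] [IsDiscreteValuationRing A₀]
  [Field E] [Algebra A₀ E] [IsFractionRing A₀ E] [CharZero E]
  [Field F] [Algebra E F] [Algebra A₀ F] [IsScalarTower A₀ E F]
  {π : A₀} {κ : Type*} {F₁ : Type*} [Field F₁]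

/-- `E ⊆ B_u[1/π]` -/
theorem s36pm_hE (hπ : Irreducible π) (u : F) (x : E) :
    ∃ (n : ℕ) (a : ↥(zchClosure (A₀ := A₀) ({u} : Set F))),
      algebraMap E F x * algebraMap ↥(zchClosure (A₀ := A₀) ({u} : Set F)) F
        (algebraMap A₀ ↥(zchClosure (A₀ := A₀) ({u} : Set F)) π) ^ n =
        algebraMap ↥(zchClosure (A₀ := A₀) ({u} : Set F)) F a := by
  obtain ⟨a, b, hb, rfl⟩ := IsFractionRing.div_surjective (A := A₀) x
  have hb0 : b ≠ 0 := nonZeroDivisors.ne_zero hb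
  obtain ⟨n, w, hw⟩ := IsDiscreteValuationRing.eq_unit_mul_pow_irreducible hb0 hπ
  refine ⟨n, algebraMap A₀ _ (a * ((w⁻¹ : A₀ˣ) : A₀)), ?_⟩
  have hbE : algebraMap A₀ E b ≠ 0 :=
    (map_ne_zero_iff _ (IsFractionRing.injective A₀ E)).2 hb0
  have e1 : algebraMap ↥(zchClosure (A₀ := A₀) ({u} : Set F)) F
      (algebraMap A₀ ↥(zchClosure (A₀ := A₀) ({u} : Set F)) π) = algebraMap A₀ F π := rfl
  have e2 : algebraMap ↥(zchClosure (A₀ := A₀) ({u} : Set F)) F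
      (algebraMap A₀ ↥(zchClosure (A₀ := A₀) ({u} : Set F)) (a * ((w⁻¹ : A₀ˣ) : A₀))) =
      algebraMap A₀ F (a * ((w⁻¹ : A₀ˣ) : A₀)) := rfl
  rw [e1, e2, IsScalarTower.algebraMap_apply A₀ E F π,
    IsScalarTower.algebraMap_apply A₀ E F (a * _), ← map_pow, ← map_mul]
  congr 1
  have hwu : algebraMap A₀ E ((w : A₀)) * algebraMap A₀ E (((w⁻¹ : A₀ˣ) : A₀)) = 1 := by
    rw [← map_mul, Units.mul_inv, map_one]
  rw [div_mul_eq_mul_div, div_eq_iff hbE, map_mul, hw]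
  rw [map_mul, map_pow]
  linear_combination (algebraMap A₀ E a * algebraMap A₀ E π ^ n) * (-hwu)

/-- `F` is the fraction field of the chart `B_u` -/
theorem s36pm_hfrac (u : F) [FiniteDimensional E⟮u⟯ F] (x : F) :
    ∃ a b : ↥(zchClosure (A₀ := A₀) ({u} : Set F)), b ≠ 0 ∧
      x * algebraMap ↥(zchClosure (A₀ := A₀) ({u} : Set F)) F b =
        algebraMap ↥(zchClosure (A₀ := A₀) ({u} : Set F)) F a := by
  obtain ⟨y, hy0, hy⟩ := (ad_isAlgebraic (A₀ := A₀) (E := E) u x).exists_integral_multiple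
  refine ⟨⟨y • x, hy⟩, ⟨(y : F), isIntegral_algebraMap
    (R := ↥(Algebra.adjoin A₀ ({u} : Set F))) (x := y)⟩, ?_, ?_⟩
  · intro h0
    apply hy0
    apply Subtype.ext
    exact congrArg (fun z : ↥(zchClosure (A₀ := A₀) ({u} : Set F)) => (z : F)) h0
  · show x * (y : F) = y • x
    rw [Algebra.smul_def, mul_comm]
    rfl

/-- (KR) in the chart form of `S36/N2PtsReg.lean` -/
theorem s36pm_hKR {u : F} (V : κ → ValuationSubring F)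
    (hKR : ∀ x : F, IsIntegral ↥(Algebra.adjoin A₀ {u}) (algebraMap A₀ F π * x) →
      (∀ c, x ∈ V c) → IsIntegral ↥(Algebra.adjoin A₀ {u}) x)
    (x : F)
    (hx : ∃ b : ↥(zchClosure (A₀ := A₀) ({u} : Set F)),
      algebraMap ↥(zchClosure (A₀ := A₀) ({u} : Set F)) F
        (algebraMap A₀ ↥(zchClosure (A₀ := A₀) ({u} : Set F)) π) * x =
        algebraMap ↥(zchClosure (A₀ := A₀) ({u} : Set F)) F b)
    (hV : ∀ c, x ∈ V c) :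
    ∃ b : ↥(zchClosure (A₀ := A₀) ({u} : Set F)),
      x = algebraMap ↥(zchClosure (A₀ := A₀) ({u} : Set F)) F b := by
  obtain ⟨b, hb⟩ := hx
  have h1 : IsIntegral ↥(Algebra.adjoin A₀ {u}) (algebraMap A₀ F π * x) := by
    have e : algebraMap A₀ F π * x = (b : F) := hb
    rw [e]
    exact mem_zchClosure.mp b.2
  exact ⟨⟨x, mem_zchClosure.mpr (hKR x h1 hV)⟩, rfl⟩

/-- **`S36PtInput` at a closed point of a chart with exactly one component `V c₁` through it**,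
of multiplicity `e`: `X ∈ O`, `(X ^ e / π) ^ n ≡ g` at `V c₁` with `g` a unit of `O`. -/
theorem s36pm_atPt [Finite κ] (hπ : Irreducible π) {u : F} [FiniteDimensional E⟮u⟯ F]
    [IsNoetherianRing ↥(zchClosure (A₀ := A₀) ({u} : Set F))]
    (V : κ → ValuationSubring F)
    (hBV : ∀ c (b : F), IsIntegral ↥(Algebra.adjoin A₀ {u}) b → b ∈ V c)
    (hπV : ∀ c, algebraMap A₀ F π ∈ (V c).nonunits)
    (hKR : ∀ x : F, IsIntegral ↥(Algebra.adjoin A₀ {u}) (algebraMap A₀ F π * x) →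
      (∀ c, x ∈ V c) → IsIntegral ↥(Algebra.adjoin A₀ {u}) x)
    (Q : ℕ) (hram : ∀ c (x : F), x ∈ (V c).nonunits → ∃ z ∈ V c, x ^ Q = algebraMap A₀ F π * z)
    (𝔫 : AtPt (F := F) π u) (c₁ : κ) (hc₁ : atThrough 𝔫 (V c₁))
    (honly : ∀ c, atThrough 𝔫 (V c) → c = c₁)
    (hVloc : ∀ x : F, x ∈ V c₁ → ∃ b s : F, IsIntegral ↥(Algebra.adjoin A₀ {u}) b ∧
      IsIntegral ↥(Algebra.adjoin A₀ {u}) s ∧ s ∉ (V c₁).nonunits ∧ s * x = b)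
    {Y₀ : ↥(zchClosure (A₀ := A₀) ({u} : Set F))} (hY₀ : Y₀ ∈ 𝔫.1)
    (hgen : S36n2pGen 𝔫.1 (V c₁) Y₀)
    {X g : F} (hX : X ∈ atLoc 𝔫) (hg : g ∈ atLoc 𝔫) (hg' : g⁻¹ ∈ atLoc 𝔫) (hg0 : g ≠ 0)
    (e n : ℕ) (he : 0 < e) (hn : 0 < n)
    (hcong : (X ^ e / algebraMap A₀ F π) ^ n - g ∈ (V c₁).nonunits)
    (hramc : ∀ x : F, x ∈ (V c₁).nonunits → ∃ z ∈ V c₁, x ^ e = algebraMap A₀ F π * z)
    (Hor : F → Prop) (m : ℕ) (hHor : ∀ y, Hor y → ∀ P : Place E F, (m : ℤ) ∣ P.ord y)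
    (α β : F₁ →+* F) (Nα Nβ : F →* F₁) (ζ₁ : F₁) (ca cb cc : κ) :
    @S36PtInput F₁ F _ _ κ Hor m α β Nα Nβ ζ₁ V ca cb cc (atLoc 𝔫)
      (haveI := 𝔫.2.1.isPrime; ls_localSubring_isLocalRing Subtype.val_injective 𝔫.1)
      (fun c => atThrough 𝔫 (V c)) := by
  haveI := 𝔫.2.1.isPrime
  have hπ0 : algebraMap A₀ F π ≠ 0 := ei_algebraMap_ne_zero (E := E) hπ
  have hgu : IsUnit (⟨g, hg⟩ : ls_localSubring (F := F) 𝔫.1) :=
    IsUnit.of_mul_eq_one ⟨g⁻¹, hg'⟩ (Subtype.ext (mul_inv_cancel₀ hg0))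
  exact s36pm_ptInput (E := E) (B := ↥(zchClosure (A₀ := A₀) ({u} : Set F)))
    Subtype.val_injective 𝔫.1 V (fun c b => hBV c _ b.2)
    (algebraMap A₀ ↥(zchClosure (A₀ := A₀) ({u} : Set F)) π)
    (s36pm_hKR V hKR) Q hram hπ0 c₁ hc₁ honly ⟨X, hX⟩ ⟨g, hg⟩ e n hn hgu hcong
    hπV (s36pm_hE hπ u) (s36pm_hfrac (E := E) u)
    (fun x hx => by
      obtain ⟨b, s, hb, hs, hsV, hsx⟩ := hVloc x hx
      exact ⟨⟨b, mem_zchClosure.mpr hb⟩, ⟨s, mem_zchClosure.mpr hs⟩, hsV, hsx⟩)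
    hY₀ hgen he hramc Hor m hHor α β Nα Nβ ζ₁ ca cb cc

/-- the form `atO π t (Sum.inl 𝔫)` of `hpts` -/
theorem s36pm_atPt_inl [Finite κ] (hπ : Irreducible π) {t : F} [FiniteDimensional E⟮t⟯ F]
    [IsNoetherianRing ↥(zchClosure (A₀ := A₀) ({t} : Set F))]
    (V : κ → ValuationSubring F)
    (hBV : ∀ c (b : F), IsIntegral ↥(Algebra.adjoin A₀ {t}) b → b ∈ V c)
    (hπV : ∀ c, algebraMap A₀ F π ∈ (V c).nonunits)
    (hKR : ∀ x : F, IsIntegral ↥(Algebra.adjoin A₀ {t}) (algebraMap A₀ F π * x) →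
      (∀ c, x ∈ V c) → IsIntegral ↥(Algebra.adjoin A₀ {t}) x)
    (Q : ℕ) (hram : ∀ c (x : F), x ∈ (V c).nonunits → ∃ z ∈ V c, x ^ Q = algebraMap A₀ F π * z)
    (𝔫 : AtPt (F := F) π t) (c₁ : κ) (hc₁ : atThrough 𝔫 (V c₁))
    (honly : ∀ c, atThrough 𝔫 (V c) → c = c₁)
    (hVloc : ∀ x : F, x ∈ V c₁ → ∃ b s : F, IsIntegral ↥(Algebra.adjoin A₀ {t}) b ∧
      IsIntegral ↥(Algebra.adjoin A₀ {t}) s ∧ s ∉ (V c₁).nonunits ∧ s * x = b)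
    {Y₀ : ↥(zchClosure (A₀ := A₀) ({t} : Set F))} (hY₀ : Y₀ ∈ 𝔫.1)
    (hgen : S36n2pGen 𝔫.1 (V c₁) Y₀)
    {X g : F} (hX : X ∈ atLoc 𝔫) (hg : g ∈ atLoc 𝔫) (hg' : g⁻¹ ∈ atLoc 𝔫) (hg0 : g ≠ 0)
    (e n : ℕ) (he : 0 < e) (hn : 0 < n)
    (hcong : (X ^ e / algebraMap A₀ F π) ^ n - g ∈ (V c₁).nonunits)
    (hramc : ∀ x : F, x ∈ (V c₁).nonunits → ∃ z ∈ V c₁, x ^ e = algebraMap A₀ F π * z)
    (Hor : F → Prop) (m : ℕ) (hHor : ∀ y, Hor y → ∀ P : Place E F, (m : ℤ) ∣ P.ord y)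
    (α β : F₁ →+* F) (Nα Nβ : F →* F₁) (ζ₁ : F₁) (ca cb cc : κ) :
    @S36PtInput F₁ F _ _ κ Hor m α β Nα Nβ ζ₁ V ca cb cc (atO π t (Sum.inl 𝔫))
      (stb_atO_isLocalRing (π := π) t (Sum.inl 𝔫)) (atInc π t V (Sum.inl 𝔫)) :=
  s36pm_atPt (E := E) hπ V hBV hπV hKR Q hram 𝔫 c₁ hc₁ honly hVloc hY₀ hgen hX hg hg' hg0 e n he
    hn hcong hramc Hor m hHor α β Nα Nβ ζ₁ ca cb cc

/-- the form `atO π t (Sum.inr 𝔫)` of `hpts` (points of the chart `t⁻¹`) -/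
theorem s36pm_atPt_inr [Finite κ] (hπ : Irreducible π) {t : F} [FiniteDimensional E⟮t⁻¹⟯ F]
    [IsNoetherianRing ↥(zchClosure (A₀ := A₀) ({t⁻¹} : Set F))]
    (V : κ → ValuationSubring F)
    (hBV : ∀ c (b : F), IsIntegral ↥(Algebra.adjoin A₀ {t⁻¹}) b → b ∈ V c)
    (hπV : ∀ c, algebraMap A₀ F π ∈ (V c).nonunits)
    (hKR : ∀ x : F, IsIntegral ↥(Algebra.adjoin A₀ {t⁻¹}) (algebraMap A₀ F π * x) →
      (∀ c, x ∈ V c) → IsIntegral ↥(Algebra.adjoin A₀ {t⁻¹}) x)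
    (Q : ℕ) (hram : ∀ c (x : F), x ∈ (V c).nonunits → ∃ z ∈ V c, x ^ Q = algebraMap A₀ F π * z)
    (𝔫 : AtPt (F := F) π t⁻¹) (c₁ : κ) (hc₁ : atThrough 𝔫 (V c₁))
    (honly : ∀ c, atThrough 𝔫 (V c) → c = c₁)
    (hVloc : ∀ x : F, x ∈ V c₁ → ∃ b s : F, IsIntegral ↥(Algebra.adjoin A₀ {t⁻¹}) b ∧
      IsIntegral ↥(Algebra.adjoin A₀ {t⁻¹}) s ∧ s ∉ (V c₁).nonunits ∧ s * x = b)
    {Y₀ : ↥(zchClosure (A₀ := A₀) ({t⁻¹} : Set F))} (hY₀ : Y₀ ∈ 𝔫.1)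
    (hgen : S36n2pGen 𝔫.1 (V c₁) Y₀)
    {X g : F} (hX : X ∈ atLoc 𝔫) (hg : g ∈ atLoc 𝔫) (hg' : g⁻¹ ∈ atLoc 𝔫) (hg0 : g ≠ 0)
    (e n : ℕ) (he : 0 < e) (hn : 0 < n)
    (hcong : (X ^ e / algebraMap A₀ F π) ^ n - g ∈ (V c₁).nonunits)
    (hramc : ∀ x : F, x ∈ (V c₁).nonunits → ∃ z ∈ V c₁, x ^ e = algebraMap A₀ F π * z)
    (Hor : F → Prop) (m : ℕ) (hHor : ∀ y, Hor y → ∀ P : Place E F, (m : ℤ) ∣ P.ord y)
    (α β : F₁ →+* F) (Nα Nβ : F →* F₁) (ζ₁ : F₁) (ca cb cc : κ) :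
    @S36PtInput F₁ F _ _ κ Hor m α β Nα Nβ ζ₁ V ca cb cc (atO π t (Sum.inr 𝔫))
      (stb_atO_isLocalRing (π := π) t (Sum.inr 𝔫)) (atInc π t V (Sum.inr 𝔫)) :=
  s36pm_atPt (E := E) hπ V hBV hπV hKR Q hram 𝔫 c₁ hc₁ honly hVloc hY₀ hgen hX hg hg' hg0 e n he
    hn hcong hramc Hor m hHor α β Nα Nβ ζ₁ ca cb cc

end Chart

end Fermat.Agent.S36
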