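import Fermat.Agent.S36.PtsCElts
import Fermat.Agent.S36.PtsCAbs
import Fermat.Agent.S36.PtsMidChart

/-!
# S36 / (I6)(b-UNIT): the unit `g` and `X ∈ O` at the points of `C_c` only (helper80)

Consumer: `s36pm_atPt` / `s36pm_atPt_inl` (`S36/PtsMidChart.lean`, helper93), which needs
`X g : F`, `hX : X ∈ atLoc 𝔫`, `hg : g ∈ atLoc 𝔫`, `hg' : g⁻¹ ∈ atLoc 𝔫`, `hg0 : g ≠ 0`.

## Chart part (any chart `B_u = zchClosure {u}` of a field `F`, `𝔫 : AtPt π u`, `O = atLoc 𝔫`)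
* `s36cun_mem_atLoc` : `B_u ⊆ O`;
* `s36cun_inv_mem_atLoc` : `x ∈ B_u`, `x ∉ 𝔫` ⇒ `x⁻¹ ∈ O`;
* `s36cun_mem_atLoc_of_pow_mul` : local (KR), iterated: `π ^ n x ∈ B_u`, `x ∈ V c` for the
  components through `𝔫` ⇒ `x ∈ O`;
* `s36cun_cong_div` : `a s − b ∈ 𝔪(V)`, `s⁻¹ ∈ V` ⇒ `a − b / s ∈ 𝔪(V)`.

## Modular part (`F = F_{Mq²}(E)`, `u = j = bgJ E (M q q)`, `π = q`)
* `s36cun_two_notMem`, `s36cun_three_notMem` : `2 ∉ 𝔫` (`q ≠ 2`), `3 ∉ 𝔫` (`q ≠ 3`);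
* (U2) `s36cun_T4_notMem`, `s36cun_T4_add_notMem`, `s36cun_G4_notMem` (`2 ∉ 𝔫`),
  `s36cun_T9_notMem`, `s36cun_D9_notMem` (`3 ∉ 𝔫`);
* (U3) `s36cun_T_mem`, `s36cun_T_inv_mem` : `T = α(u_q)` is a unit of `O`;
* **`s36cun_main_odd`** (`4 ∣ M`, `q ≠ 2`) : `X = Π_{t₄} ∈ O`, `g = G · T ∈ O`, `g⁻¹ ∈ O`, `g ≠ 0`;
* **`s36cun_main_two`** (`9 ∣ M`, `q ≠ 3`) : `X = Π_{t₉} ∈ O`, `g = D⁵ · T / t₉³ ∈ O`, `g⁻¹ ∈ O`,
  `g ≠ 0`;  **`s36cun_main_nine`** : the same for `g = (D⁵)^(q−1) · T / (t₉³)^(q−1)`.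
-/

set_option autoImplicit false
set_option linter.unusedSectionVars false
set_option linter.unusedVariables false
set_option linter.style.haveILetI false
set_option synthInstance.maxHeartbeats 400000
set_option maxHeartbeats 1000000

noncomputable section

namespace Fermat.Agent.S36

open ModularCurve Polynomial IntermediateField
open Fermat.Agent.INJ Fermat.Agent.AL Fermat.Agent.S28 Fermat.Agent.UNIP Fermat.Agent.ES
open Fermat.Agent.STB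

/-! ## Chart part -/

section Chart

variable {A₀ E F : Type*} [CommRing A₀] [IsDomain A₀] [IsDiscreteValuationRing A₀]
  [Field E] [Algebra A₀ E] [IsFractionRing A₀ E] [CharZero E]
  [Field F] [Algebra E F] [Algebra A₀ F] [IsScalarTower A₀ E F]
  {π : A₀} {κ : Type*}

/-- `B_u ⊆ (B_u)_𝔫` -/
theorem s36cun_mem_atLoc {u : F} (𝔫 : AtPt (F := F) π u) {x : F}
    (hx : IsIntegral ↥(Algebra.adjoin A₀ {u}) x) : x ∈ atLoc 𝔫 := by
  haveI := 𝔫.2.1.isPrime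
  exact ls_algebraMap_mem 𝔫.1 (⟨x, mem_zchClosure.mpr hx⟩ : ↥(zchClosure (A₀ := A₀) ({u} : Set F)))

/-- the inverse of an element of the chart outside `𝔫` lies in `(B_u)_𝔫` -/
theorem s36cun_inv_mem_atLoc {u : F} (𝔫 : AtPt (F := F) π u) {x : F}
    (hx : IsIntegral ↥(Algebra.adjoin A₀ {u}) x)
    (hxn : (⟨x, mem_zchClosure.mpr hx⟩ : ↥(zchClosure (A₀ := A₀) ({u} : Set F))) ∉ 𝔫.1) :
    x⁻¹ ∈ atLoc 𝔫 := by
  haveI := 𝔫.2.1.isPrime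
  have h1 : (1 : ↥(zchClosure (A₀ := A₀) ({u} : Set F))) ∉ 𝔫.1 := fun h =>
    𝔫.2.1.isPrime.ne_top ((Ideal.eq_top_iff_one 𝔫.1).mpr h)
  have hx0 : x ≠ 0 := by
    rintro rfl
    exact hxn (by
      have : (⟨0, mem_zchClosure.mpr hx⟩ : ↥(zchClosure (A₀ := A₀) ({u} : Set F))) = 0 := rfl
      rw [this]
      exact 𝔫.1.zero_mem)
  refine (ls_unit_mem_localSubring (B := ↥(zchClosure (A₀ := A₀) ({u} : Set F)))
    Subtype.val_injective 𝔫.1 (ε := x⁻¹)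
    (s := ⟨x, mem_zchClosure.mpr hx⟩) (t := 1) hxn h1 ?_).1
  show x * x⁻¹ = ((1 : ↥(zchClosure (A₀ := A₀) ({u} : Set F))) : F)
  rw [mul_inv_cancel₀ hx0]
  rfl

/-- local (KR), iterated, in the "integral over `A₀[u]`" form -/
theorem s36cun_mem_atLoc_of_pow_mul [Finite κ] {u : F} (V : κ → ValuationSubring F)
    (hBV : ∀ c (b : F), IsIntegral ↥(Algebra.adjoin A₀ {u}) b → b ∈ V c)
    (hKR : ∀ x : F, IsIntegral ↥(Algebra.adjoin A₀ {u}) (algebraMap A₀ F π * x) →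
      (∀ c, x ∈ V c) → IsIntegral ↥(Algebra.adjoin A₀ {u}) x)
    (Q : ℕ) (hram : ∀ c (x : F), x ∈ (V c).nonunits → ∃ z ∈ V c, x ^ Q = algebraMap A₀ F π * z)
    (𝔫 : AtPt (F := F) π u) (n : ℕ) (x : F)
    (hx : IsIntegral ↥(Algebra.adjoin A₀ {u}) (algebraMap A₀ F π ^ n * x))
    (hxV : ∀ c, atThrough 𝔫 (V c) → x ∈ V c) : x ∈ atLoc 𝔫 := by
  haveI := 𝔫.2.1.isPrime
  refine s36cc_KRloc_pow (B := ↥(zchClosure (A₀ := A₀) ({u} : Set F))) 𝔫.1 V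
    (fun c b => hBV c _ b.2) (algebraMap A₀ ↥(zchClosure (A₀ := A₀) ({u} : Set F)) π)
    (s36pm_hKR V hKR) Q hram n x ?_ hxV
  exact s36cun_mem_atLoc 𝔫 hx

/-- `a s − b ∈ 𝔪(V)` and `s⁻¹ ∈ V` ⇒ `a − b / s ∈ 𝔪(V)` -/
theorem s36cun_cong_div (V : ValuationSubring F) {a b s : F} (hs0 : s ≠ 0) (hs : s⁻¹ ∈ V)
    (h : a * s - b ∈ V.nonunits) : a - b / s ∈ V.nonunits := by
  have e : a - b / s = (a * s - b) * s⁻¹ := by field_simp
  rw [e, V.mem_nonunits_iff, map_mul]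
  have h1 : V.valuation (a * s - b) < 1 := V.mem_nonunits_iff.mp h
  have h2 : V.valuation s⁻¹ ≤ 1 := (V.valuation_le_one_iff _).mpr hs
  calc V.valuation (a * s - b) * V.valuation s⁻¹
      ≤ V.valuation (a * s - b) * 1 := mul_le_mul' le_rfl h2
    _ = V.valuation (a * s - b) := mul_one _
    _ < 1 := h1

end Chart

/-! ## Modular part -/

section Mod

variable {A₀ E : Type*} [CommRing A₀] [IsDomain A₀] [IsDiscreteValuationRing A₀]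
  [Field E] [Algebra A₀ E] [IsFractionRing A₀ E] [CharZero E] (ιC : E →+* ℂ)
  {M q : ℕ} [NeZero q] [NeZero M] [NeZero (M * q)] [NeZero (M * q * q)] (hq : q.Prime)
  [Algebra A₀ (modularFunctionFieldFullC E (M * q * q))]
  [IsScalarTower A₀ E (modularFunctionFieldFullC E (M * q * q))]
  {κ : Type*}

/-- a natural number prime to `q` is not in a prime ideal containing `q` -/
theorem s36cun_natCast_notMem {R : Type*} [CommRing R] (P : Ideal R) [hP : P.IsPrime]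
    (hqP : ((q : ℕ) : R) ∈ P) {n : ℕ} (hn : Nat.Coprime n q) : ((n : ℕ) : R) ∉ P := by
  intro hnP
  have h1 : ((Nat.gcd n q : ℕ) : R) ∈ P := by
    have hb := Nat.gcd_eq_gcd_ab n q
    have e : ((Nat.gcd n q : ℕ) : R) =
        (n : R) * ((Nat.gcdA n q : ℤ) : R) + (q : R) * ((Nat.gcdB n q : ℤ) : R) := by
      have := congrArg (fun z : ℤ => (z : R)) hb
      simpa using this
    rw [e]
    exact P.add_mem (P.mul_mem_right _ hnP) (P.mul_mem_right _ hqP)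
  rw [hn, Nat.cast_one] at h1
  exact hP.ne_top ((Ideal.eq_top_iff_one P).mpr h1)

variable (𝔫 : AtPt (F := modularFunctionFieldFullC E (M * q * q)) ((q : ℕ) : A₀)
  (bgJ E (M * q * q)))

include hq in
/-- `2 ∉ 𝔫` for `q ≠ 2` -/
theorem s36cun_two_notMem (hq2 : q ≠ 2) :
    (2 : ↥(zchClosure (A₀ := A₀)
      ({bgJ E (M * q * q)} : Set (modularFunctionFieldFullC E (M * q * q))))) ∉ 𝔫.1 := by
  haveI := 𝔫.2.1.isPrime
  have hqn : ((q : ℕ) : ↥(zchClosure (A₀ := A₀)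
      ({bgJ E (M * q * q)} : Set (modularFunctionFieldFullC E (M * q * q))))) ∈ 𝔫.1 := by
    have h := 𝔫.2.2
    have e : algebraMap A₀ ↥(zchClosure (A₀ := A₀)
        ({bgJ E (M * q * q)} : Set (modularFunctionFieldFullC E (M * q * q)))) ((q : ℕ) : A₀) =
        ((q : ℕ) : ↥(zchClosure (A₀ := A₀)
          ({bgJ E (M * q * q)} : Set (modularFunctionFieldFullC E (M * q * q))))) :=
      map_natCast _ q
    exact Eq.mp (congrArg (fun z => z ∈ 𝔫.1) e) h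
  have h := s36cun_natCast_notMem 𝔫.1 hqn (n := 2)
    ((Nat.coprime_primes Nat.prime_two hq).mpr (Ne.symm hq2))
  simpa using h

include hq in
/-- `3 ∉ 𝔫` for `q ≠ 3` -/
theorem s36cun_three_notMem (hq3 : q ≠ 3) :
    (3 : ↥(zchClosure (A₀ := A₀)
      ({bgJ E (M * q * q)} : Set (modularFunctionFieldFullC E (M * q * q))))) ∉ 𝔫.1 := by
  haveI := 𝔫.2.1.isPrime
  have hqn : ((q : ℕ) : ↥(zchClosure (A₀ := A₀)
      ({bgJ E (M * q * q)} : Set (modularFunctionFieldFullC E (M * q * q))))) ∈ 𝔫.1 := by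
    have h := 𝔫.2.2
    have e : algebraMap A₀ ↥(zchClosure (A₀ := A₀)
        ({bgJ E (M * q * q)} : Set (modularFunctionFieldFullC E (M * q * q)))) ((q : ℕ) : A₀) =
        ((q : ℕ) : ↥(zchClosure (A₀ := A₀)
          ({bgJ E (M * q * q)} : Set (modularFunctionFieldFullC E (M * q * q))))) :=
      map_natCast _ q
    exact Eq.mp (congrArg (fun z => z ∈ 𝔫.1) e) h
  have h := s36cun_natCast_notMem 𝔫.1 hqn (n := 3)
    ((Nat.coprime_primes Nat.prime_three hq).mpr (Ne.symm hq3))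
  simpa using h

/-- an element of `F` integral over `A₀[j]`, as an element of the chart -/
def s36cunB {x : modularFunctionFieldFullC E (M * q * q)}
    (hx : IsIntegral ↥(Algebra.adjoin A₀ {bgJ E (M * q * q)}) x) :
    ↥(zchClosure (A₀ := A₀)
      ({bgJ E (M * q * q)} : Set (modularFunctionFieldFullC E (M * q * q)))) :=
  ⟨x, mem_zchClosure.mpr hx⟩

/-! ### (U2), level 4 -/

/-- `t₄ + 16 ∉ 𝔫` -/
theorem s36cun_T4_add_notMem (h4 : 4 ∣ M)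
    (h2 : (2 : ↥(zchClosure (A₀ := A₀)
      ({bgJ E (M * q * q)} : Set (modularFunctionFieldFullC E (M * q * q))))) ∉ 𝔫.1) :
    s36cunB (s36cun_isIntegral_T4 (A := A₀) (E := E) (M := M) (q := q) h4) + 16 ∉ 𝔫.1 := by
  haveI := 𝔫.2.1.isPrime
  refine s36rig_t4_add_notMem h2
    (h := s36cunB (s36cun_isIntegral_H2 (A := A₀) (E := E) (M := M) (q := q)
      ((show 2 ∣ 4 by norm_num).trans h4))) ?_
  apply Subtype.ext
  exact s36cun_T4_sq E M q h4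

/-- `h₂ ∉ 𝔫` -/
theorem s36cun_H2_notMem (h2' : 2 ∣ M)
    (h2 : (2 : ↥(zchClosure (A₀ := A₀)
      ({bgJ E (M * q * q)} : Set (modularFunctionFieldFullC E (M * q * q))))) ∉ 𝔫.1) :
    s36cunB (s36cun_isIntegral_H2 (A := A₀) (E := E) (M := M) (q := q) h2') ∉ 𝔫.1 := by
  haveI := 𝔫.2.1.isPrime
  refine s36rig_h2_notMem h2
    (j := s36cunB (A₀ := A₀) (x := bgJ E (M * q * q)) (s36pc_self_mem _)) ?_
  apply Subtype.ext
  exact s36cun_H2_j E M q h2'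

/-- `t₄ ∉ 𝔫` -/
theorem s36cun_T4_notMem (h4 : 4 ∣ M)
    (h2 : (2 : ↥(zchClosure (A₀ := A₀)
      ({bgJ E (M * q * q)} : Set (modularFunctionFieldFullC E (M * q * q))))) ∉ 𝔫.1) :
    s36cunB (s36cun_isIntegral_T4 (A := A₀) (E := E) (M := M) (q := q) h4) ∉ 𝔫.1 := by
  haveI := 𝔫.2.1.isPrime
  intro ht
  have e : s36cunB (s36cun_isIntegral_T4 (A := A₀) (E := E) (M := M) (q := q) h4) ^ 2 =
      s36cunB (s36cun_isIntegral_H2 (A := A₀) (E := E) (M := M) (q := q)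
        ((show 2 ∣ 4 by norm_num).trans h4)) *
      (s36cunB (s36cun_isIntegral_T4 (A := A₀) (E := E) (M := M) (q := q) h4) + 16) := by
    apply Subtype.ext
    have := s36cun_T4_sq E M q h4
    show s36cunT4 E M q h4 ^ 2 =
      s36cunH2 E M q ((show 2 ∣ 4 by norm_num).trans h4) * (s36cunT4 E M q h4 + 16)
    rw [this]
    ring
  have h1 : s36cunB (s36cun_isIntegral_H2 (A := A₀) (E := E) (M := M) (q := q)
        ((show 2 ∣ 4 by norm_num).trans h4)) *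
      (s36cunB (s36cun_isIntegral_T4 (A := A₀) (E := E) (M := M) (q := q) h4) + 16) ∈ 𝔫.1 := by
    rw [← e]
    exact Ideal.pow_mem_of_mem _ ht 2 (by norm_num)
  rcases 𝔫.2.1.isPrime.mem_or_mem h1 with h | h
  · exact s36cun_H2_notMem 𝔫 ((show 2 ∣ 4 by norm_num).trans h4) h2 h
  · exact s36cun_T4_add_notMem 𝔫 h4 h2 h

/-- `G = (t₄² (t₄ + 16)⁵)^(q−1) ∉ 𝔫` -/
theorem s36cun_G4_notMem (h4 : 4 ∣ M)
    (h2 : (2 : ↥(zchClosure (A₀ := A₀)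
      ({bgJ E (M * q * q)} : Set (modularFunctionFieldFullC E (M * q * q))))) ∉ 𝔫.1) :
    s36cunB (s36cun_isIntegral_G4 (A := A₀) (E := E) (M := M) (q := q) h4) ∉ 𝔫.1 := by
  haveI := 𝔫.2.1.isPrime
  have e : s36cunB (s36cun_isIntegral_G4 (A := A₀) (E := E) (M := M) (q := q) h4) =
      (s36cunB (s36cun_isIntegral_T4 (A := A₀) (E := E) (M := M) (q := q) h4) ^ 2 *
        (s36cunB (s36cun_isIntegral_T4 (A := A₀) (E := E) (M := M) (q := q) h4) + 16) ^ 5) ^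
          (q - 1) := by
    apply Subtype.ext
    rfl
  rw [e]
  intro h
  have h1 := 𝔫.2.1.isPrime.mem_of_pow_mem _ h
  rcases 𝔫.2.1.isPrime.mem_or_mem h1 with h' | h'
  · exact s36cun_T4_notMem 𝔫 h4 h2 (𝔫.2.1.isPrime.mem_of_pow_mem _ h')
  · exact s36cun_T4_add_notMem 𝔫 h4 h2 (𝔫.2.1.isPrime.mem_of_pow_mem _ h')

/-! ### (U2), level 9 -/

/-- `h₃ ∉ 𝔫` -/
theorem s36cun_H3_notMem (h3' : 3 ∣ M)
    (h3 : (3 : ↥(zchClosure (A₀ := A₀)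
      ({bgJ E (M * q * q)} : Set (modularFunctionFieldFullC E (M * q * q))))) ∉ 𝔫.1) :
    s36cunB (s36cun_isIntegral_H3 (A := A₀) (E := E) (M := M) (q := q) h3') ∉ 𝔫.1 := by
  haveI := 𝔫.2.1.isPrime
  refine s36rig_h3_notMem h3
    (j := s36cunB (A₀ := A₀) (x := bgJ E (M * q * q)) (s36pc_self_mem _)) ?_
  apply Subtype.ext
  exact s36cun_H3_j E M q h3'

/-- `t₉ ∉ 𝔫` and `D ∉ 𝔫` -/
theorem s36cun_T9_D9_notMem (h9 : 9 ∣ M)
    (h3 : (3 : ↥(zchClosure (A₀ := A₀)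
      ({bgJ E (M * q * q)} : Set (modularFunctionFieldFullC E (M * q * q))))) ∉ 𝔫.1) :
    s36cunB (s36cun_isIntegral_T9 (A := A₀) (E := E) (M := M) (q := q) h9) ∉ 𝔫.1 ∧
      s36cunB (s36cun_isIntegral_D9 (A := A₀) (E := E) (M := M) (q := q) h9) ∉ 𝔫.1 := by
  haveI := 𝔫.2.1.isPrime
  set t := s36cunB (s36cun_isIntegral_T9 (A := A₀) (E := E) (M := M) (q := q) h9) with ht
  set D := s36cunB (s36cun_isIntegral_D9 (A := A₀) (E := E) (M := M) (q := q) h9) with hD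
  set h := s36cunB (s36cun_isIntegral_H3 (A := A₀) (E := E) (M := M) (q := q)
    ((show 3 ∣ 9 by norm_num).trans h9)) with hh
  have eD : D = t ^ 2 + 9 * t + 27 := by
    apply Subtype.ext
    rfl
  have e : t ^ 3 = h * D := by
    rw [eD]
    apply Subtype.ext
    exact s36cun_T9_cube E M q h9
  -- `t ∈ 𝔫 ⇒ 27 ∈ 𝔫`
  have key : t ∈ 𝔫.1 → D ∈ 𝔫.1 → False := by
    intro h1 h2
    have h27 : (3 : ↥(zchClosure (A₀ := A₀)
        ({bgJ E (M * q * q)} : Set (modularFunctionFieldFullC E (M * q * q))))) ^ 3 ∈ 𝔫.1 := by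
      have e27 : (3 : ↥(zchClosure (A₀ := A₀)
          ({bgJ E (M * q * q)} : Set (modularFunctionFieldFullC E (M * q * q))))) ^ 3 =
          D - t * (t + 9) := by
        rw [eD]; ring
      rw [e27]
      exact 𝔫.1.sub_mem h2 (𝔫.1.mul_mem_right _ h1)
    exact s36rig_three_pow_notMem h3 3 h27
  have hDt : D ∈ 𝔫.1 → t ∈ 𝔫.1 := by
    intro h2
    have : t ^ 3 ∈ 𝔫.1 := by rw [e]; exact 𝔫.1.mul_mem_left _ h2
    exact 𝔫.2.1.isPrime.mem_of_pow_mem _ this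
  have htD : t ∈ 𝔫.1 → D ∈ 𝔫.1 := by
    intro h1
    have : h * D ∈ 𝔫.1 := by rw [← e]; exact Ideal.pow_mem_of_mem _ h1 3 (by norm_num)
    rcases 𝔫.2.1.isPrime.mem_or_mem this with h' | h'
    · exact absurd h' (s36cun_H3_notMem 𝔫 ((show 3 ∣ 9 by norm_num).trans h9) h3)
    · exact h'
  exact ⟨fun h1 => key h1 (htD h1), fun h2 => key (hDt h2) h2⟩

/-! ### (U3): `T = α(u_q)` is a unit of `O` -/

variable [Finite κ] (V : κ → ValuationSubring (modularFunctionFieldFullC E (M * q * q)))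
  (hBV : ∀ c (b : modularFunctionFieldFullC E (M * q * q)),
    IsIntegral ↥(Algebra.adjoin A₀ {bgJ E (M * q * q)}) b → b ∈ V c)
  (hKR : ∀ x : modularFunctionFieldFullC E (M * q * q),
    IsIntegral ↥(Algebra.adjoin A₀ {bgJ E (M * q * q)})
      (algebraMap A₀ (modularFunctionFieldFullC E (M * q * q)) ((q : ℕ) : A₀) * x) →
    (∀ c, x ∈ V c) → IsIntegral ↥(Algebra.adjoin A₀ {bgJ E (M * q * q)}) x)
  (Q : ℕ) (hram : ∀ c (x : modularFunctionFieldFullC E (M * q * q)), x ∈ (V c).nonunits →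
    ∃ z ∈ V c, x ^ Q =
      algebraMap A₀ (modularFunctionFieldFullC E (M * q * q)) ((q : ℕ) : A₀) * z)
  (hTV : ∀ c, atThrough 𝔫 (V c) → s36cunT E ιC M q ∈ V c)

include hq hBV hKR hram hTV in
/-- `T ∈ O` -/
theorem s36cun_T_mem : s36cunT E ιC M q ∈ atLoc 𝔫 := by
  refine s36cun_mem_atLoc_of_pow_mul V hBV hKR Q hram 𝔫 12 _ ?_ hTV
  have e : algebraMap A₀ (modularFunctionFieldFullC E (M * q * q)) ((q : ℕ) : A₀) ^ 12 *
      s36cunT E ιC M q = s36cunW' E ιC M q := by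
    rw [s36cun_W'_eq, map_natCast, map_pow, map_natCast]
  rw [e]
  exact s36cun_isIntegral_W' ιC hq

include hq in
/-- `T⁻¹ = W ∈ O` -/
theorem s36cun_T_inv_mem : (s36cunT E ιC M q)⁻¹ ∈ atLoc 𝔫 := by
  have e : (s36cunT E ιC M q)⁻¹ = s36cunW E ιC M q :=
    (eq_inv_of_mul_eq_one_left (s36cun_W_mul_T E ιC M q)).symm
  rw [e]
  exact s36cun_mem_atLoc 𝔫 (s36cun_isIntegral_W ιC hq)

include hq hBV hKR hram hTV in
/-- **(b-UNIT), `q` odd, `4 ∣ M`**: `X = Π_{t₄} ∈ O` and `g = G · T` is a unit of `O`. -/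
theorem s36cun_main_odd (h4 : 4 ∣ M) (hq2 : q ≠ 2) :
    s36cunX4 E M q h4 ∈ atLoc 𝔫 ∧
    s36cunG4 E M q h4 * s36cunT E ιC M q ∈ atLoc 𝔫 ∧
    (s36cunG4 E M q h4 * s36cunT E ιC M q)⁻¹ ∈ atLoc 𝔫 ∧
    s36cunG4 E M q h4 * s36cunT E ιC M q ≠ 0 := by
  have h2 := s36cun_two_notMem hq 𝔫 hq2
  have hG := s36cun_G4_notMem 𝔫 h4 h2
  have hGm : s36cunG4 E M q h4 ∈ atLoc 𝔫 := s36cun_mem_atLoc 𝔫 (s36cun_isIntegral_G4 h4)
  have hGi : (s36cunG4 E M q h4)⁻¹ ∈ atLoc 𝔫 :=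
    s36cun_inv_mem_atLoc 𝔫 (s36cun_isIntegral_G4 h4) hG
  have hG0 : s36cunG4 E M q h4 ≠ 0 := by
    intro h0
    apply hG
    have : s36cunB (s36cun_isIntegral_G4 (A := A₀) (E := E) (M := M) (q := q) h4) = 0 :=
      Subtype.ext h0
    rw [this]
    exact 𝔫.1.zero_mem
  refine ⟨s36cun_mem_atLoc 𝔫 (s36cun_isIntegral_X4 hq h4),
    (atLoc 𝔫).mul_mem hGm (s36cun_T_mem ιC hq 𝔫 V hBV hKR Q hram hTV), ?_,
    mul_ne_zero hG0 (s36cunT_ne_zero E ιC M q)⟩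
  rw [mul_inv]
  exact (atLoc 𝔫).mul_mem hGi (s36cun_T_inv_mem ιC hq 𝔫)

include hq hBV hKR hram hTV in
/-- **(b-UNIT), `9 ∣ M`, `q ≠ 3`** (used for `q = 2`): `X = Π_{t₉} ∈ O` and
`g = D⁵ · T / t₉³` is a unit of `O`. -/
theorem s36cun_main_two (h9 : 9 ∣ M) (hq3 : q ≠ 3) :
    s36cunX9 E M q h9 ∈ atLoc 𝔫 ∧
    s36cunD9 E M q h9 ^ 5 * s36cunT E ιC M q / s36cunT9 E M q h9 ^ 3 ∈ atLoc 𝔫 ∧
    (s36cunD9 E M q h9 ^ 5 * s36cunT E ιC M q / s36cunT9 E M q h9 ^ 3)⁻¹ ∈ atLoc 𝔫 ∧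
    s36cunD9 E M q h9 ^ 5 * s36cunT E ιC M q / s36cunT9 E M q h9 ^ 3 ≠ 0 := by
  have h3 := s36cun_three_notMem hq 𝔫 hq3
  obtain ⟨ht, hD⟩ := s36cun_T9_D9_notMem 𝔫 h9 h3
  have hDm : s36cunD9 E M q h9 ∈ atLoc 𝔫 := s36cun_mem_atLoc 𝔫 (s36cun_isIntegral_D9 h9)
  have hDi : (s36cunD9 E M q h9)⁻¹ ∈ atLoc 𝔫 :=
    s36cun_inv_mem_atLoc 𝔫 (s36cun_isIntegral_D9 h9) hD
  have htm : s36cunT9 E M q h9 ∈ atLoc 𝔫 := s36cun_mem_atLoc 𝔫 (s36cun_isIntegral_T9 h9)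
  have hti : (s36cunT9 E M q h9)⁻¹ ∈ atLoc 𝔫 :=
    s36cun_inv_mem_atLoc 𝔫 (s36cun_isIntegral_T9 h9) ht
  have hD0 : s36cunD9 E M q h9 ≠ 0 := by
    intro h0
    apply hD
    have : s36cunB (s36cun_isIntegral_D9 (A := A₀) (E := E) (M := M) (q := q) h9) = 0 :=
      Subtype.ext h0
    rw [this]
    exact 𝔫.1.zero_mem
  have ht0 : s36cunT9 E M q h9 ≠ 0 := by
    intro h0
    apply ht
    have : s36cunB (s36cun_isIntegral_T9 (A := A₀) (E := E) (M := M) (q := q) h9) = 0 :=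
      Subtype.ext h0
    rw [this]
    exact 𝔫.1.zero_mem
  have hTm := s36cun_T_mem ιC hq 𝔫 V hBV hKR Q hram hTV
  have hTi := s36cun_T_inv_mem ιC hq 𝔫 (A₀ := A₀) (E := E) (M := M) (q := q)
  have hT0 := s36cunT_ne_zero E ιC M q
  refine ⟨s36cun_mem_atLoc 𝔫 (s36cun_isIntegral_X9 hq h9), ?_, ?_, ?_⟩
  · rw [div_eq_mul_inv, ← inv_pow]
    exact (atLoc 𝔫).mul_mem ((atLoc 𝔫).mul_mem ((atLoc 𝔫).pow_mem hDm 5) hTm)
      ((atLoc 𝔫).pow_mem hti 3)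
  · rw [inv_div, div_eq_mul_inv, mul_inv, ← inv_pow]
    exact (atLoc 𝔫).mul_mem ((atLoc 𝔫).pow_mem htm 3)
      ((atLoc 𝔫).mul_mem ((atLoc 𝔫).pow_mem hDi 5) hTi)
  · exact div_ne_zero (mul_ne_zero (pow_ne_zero 5 hD0) hT0) (pow_ne_zero 3 ht0)

include hq hBV hKR hram hTV in
/-- **(b-UNIT), `9 ∣ M`, `q ≠ 3`, general exponent** (the shape of `s36cg_cong_t9'`):
`g = (D⁵)^(q−1) · T / (t₉³)^(q−1)` is a unit of `O`. -/
theorem s36cun_main_nine (h9 : 9 ∣ M) (hq3 : q ≠ 3) :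
    s36cunX9 E M q h9 ∈ atLoc 𝔫 ∧
    ((s36cunT9 E M q h9 ^ 2 + 9 * s36cunT9 E M q h9 + 27) ^ 5) ^ (q - 1) * s36cunT E ιC M q /
      (s36cunT9 E M q h9 ^ 3) ^ (q - 1) ∈ atLoc 𝔫 ∧
    (((s36cunT9 E M q h9 ^ 2 + 9 * s36cunT9 E M q h9 + 27) ^ 5) ^ (q - 1) * s36cunT E ιC M q /
      (s36cunT9 E M q h9 ^ 3) ^ (q - 1))⁻¹ ∈ atLoc 𝔫 ∧
    ((s36cunT9 E M q h9 ^ 2 + 9 * s36cunT9 E M q h9 + 27) ^ 5) ^ (q - 1) * s36cunT E ιC M q /
      (s36cunT9 E M q h9 ^ 3) ^ (q - 1) ≠ 0 := by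
  have h3 := s36cun_three_notMem hq 𝔫 hq3
  obtain ⟨ht, hD⟩ := s36cun_T9_D9_notMem 𝔫 h9 h3
  have hDm : s36cunD9 E M q h9 ∈ atLoc 𝔫 := s36cun_mem_atLoc 𝔫 (s36cun_isIntegral_D9 h9)
  have hDi : (s36cunD9 E M q h9)⁻¹ ∈ atLoc 𝔫 :=
    s36cun_inv_mem_atLoc 𝔫 (s36cun_isIntegral_D9 h9) hD
  have htm : s36cunT9 E M q h9 ∈ atLoc 𝔫 := s36cun_mem_atLoc 𝔫 (s36cun_isIntegral_T9 h9)
  have hti : (s36cunT9 E M q h9)⁻¹ ∈ atLoc 𝔫 :=
    s36cun_inv_mem_atLoc 𝔫 (s36cun_isIntegral_T9 h9) ht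
  have hD0 : s36cunD9 E M q h9 ≠ 0 := by
    intro h0
    apply hD
    have : s36cunB (s36cun_isIntegral_D9 (A := A₀) (E := E) (M := M) (q := q) h9) = 0 :=
      Subtype.ext h0
    rw [this]
    exact 𝔫.1.zero_mem
  have ht0 : s36cunT9 E M q h9 ≠ 0 := by
    intro h0
    apply ht
    have : s36cunB (s36cun_isIntegral_T9 (A := A₀) (E := E) (M := M) (q := q) h9) = 0 :=
      Subtype.ext h0
    rw [this]
    exact 𝔫.1.zero_mem
  have hTm := s36cun_T_mem ιC hq 𝔫 V hBV hKR Q hram hTV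
  have hTi := s36cun_T_inv_mem ιC hq 𝔫 (A₀ := A₀) (E := E) (M := M) (q := q)
  have hT0 := s36cunT_ne_zero E ιC M q
  have eD : s36cunT9 E M q h9 ^ 2 + 9 * s36cunT9 E M q h9 + 27 = s36cunD9 E M q h9 := rfl
  rw [eD]
  refine ⟨s36cun_mem_atLoc 𝔫 (s36cun_isIntegral_X9 hq h9), ?_, ?_, ?_⟩
  · rw [div_eq_mul_inv, ← inv_pow, ← inv_pow]
    exact (atLoc 𝔫).mul_mem
      ((atLoc 𝔫).mul_mem ((atLoc 𝔫).pow_mem ((atLoc 𝔫).pow_mem hDm 5) _) hTm)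
      ((atLoc 𝔫).pow_mem ((atLoc 𝔫).pow_mem hti 3) _)
  · rw [inv_div, div_eq_mul_inv, mul_inv, ← inv_pow, ← inv_pow]
    exact (atLoc 𝔫).mul_mem ((atLoc 𝔫).pow_mem ((atLoc 𝔫).pow_mem htm 3) _)
      ((atLoc 𝔫).mul_mem ((atLoc 𝔫).pow_mem ((atLoc 𝔫).pow_mem hDi 5) _) hTi)
  · exact div_ne_zero (mul_ne_zero (pow_ne_zero _ (pow_ne_zero 5 hD0)) hT0)
      (pow_ne_zero _ (pow_ne_zero 3 ht0))

end Mod

end Fermat.Agent.S36
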