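import Fermat.Agent.S36.PtsMidChart
import Fermat.Agent.S36.N2ValI1
import Fermat.Agent.S36.N2LocMain
import Fermat.Agent.S36.TopSetting
import Fermat.Agent.S36.NormOrdData
import Fermat.Agent.INJ.BGFin
import Fermat.Agent.INJ.ChartFinite

/-!
# S36 / (I6)(d-C) (helper20): `S36PtInput` at the cusp points of the middle component `C_c`

Concrete setting of `S36/SmallPart.lean`: `A₀ = beta0Ring A E₀`, `E₀ = beta0Field A`,
`F = F_{Mqq}(E₀)`, chart `t⁻¹ = (bgJ E₀ (M q q))⁻¹`, `V = s36i1V M hq hA hqM hζ ιC h`.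

* `s36cuc_hC_of` : the hypothesis `hC` of `s36cu_hpts_inf` / `s36cu_hpts` (helper84,
  `S36/PtsCusp.lean`) from
    (I2) `hKR` on the chart `j`,
    (1)  `X, g ∈ O`, `g` a unit of `O`, `X ^ (q − 1) / q ≡ g` at `V_c`   (helper58, CuspMid),
    (2)  a local parameter `Y₀` of the branch `C_c` at `𝔫` (`S36n2pGen`).
-/

set_option autoImplicit false
set_option linter.style.haveILetI false
set_option linter.unusedSectionVars false
set_option linter.unusedVariables false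
set_option linter.constructorNameAsVariable false

noncomputable section

namespace Fermat.Agent.S36

open ModularCurve AlgebraicCurve Fermat.Agent.ES Fermat.Agent.ES.G2 Fermat.Agent.INJ
open Fermat.Agent.UNIP Fermat.Agent.STB IntermediateField

section Skeleton

variable {q : ℕ} {A : ValuationSubring (AlgebraicClosure ℚ)} (M : ℕ) [NeZero M] [NeZero q]
  [IsDiscreteValuationRing ↥(beta0Ring A (beta0Field A))]
  {ζ : AlgebraicClosure ℚ}
  (hq : q.Prime) (hA : A.LiesOverPrime q) (hqM : ¬ q ∣ M) (hζ : IsPrimitiveRoot ζ q)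
  (ιC : ↥(beta0Field A) →+* ℂ)
  (h : S36MidEmb ↥(s36n2bK A ζ) q M (s36i1ZK (A := A) hq hζ))

/-- **(d-C), skeleton**: `hC` of `s36cu_hpts_inf` at the concrete family. -/
theorem s36cuc_hC_of
    (hKR : ∀ x : ↥(modularFunctionFieldFullC ↥(beta0Field A) (M * q * q)),
      IsIntegral ↥(Algebra.adjoin ↥(beta0Ring A (beta0Field A))
          {bgJ ↥(beta0Field A) (M * q * q)})
        (algebraMap ↥(beta0Ring A (beta0Field A))
          ↥(modularFunctionFieldFullC ↥(beta0Field A) (M * q * q))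
          ((q : ℕ) : ↥(beta0Ring A (beta0Field A))) * x) →
      (∀ c, x ∈ s36i1V M hq hA hqM hζ ιC h c) →
        IsIntegral ↥(Algebra.adjoin ↥(beta0Ring A (beta0Field A))
          {bgJ ↥(beta0Field A) (M * q * q)}) x)
    (𝔫 : AtPt (F := ↥(modularFunctionFieldFullC ↥(beta0Field A) (M * q * q)))
      ((q : ℕ) : ↥(beta0Ring A (beta0Field A))) (bgJ ↥(beta0Field A) (M * q * q))⁻¹)
    (hc₁ : atThrough 𝔫 (s36i1V M hq hA hqM hζ ιC h S36Comp.c))
    (honly : ∀ c, atThrough 𝔫 (s36i1V M hq hA hqM hζ ιC h c) → c = S36Comp.c)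
    -- (1)
    {X g : ↥(modularFunctionFieldFullC ↥(beta0Field A) (M * q * q))}
    (hX : X ∈ atLoc 𝔫) (hg : g ∈ atLoc 𝔫) (hg' : g⁻¹ ∈ atLoc 𝔫) (hg0 : g ≠ 0)
    (hcong : (X ^ (q - 1) / algebraMap ↥(beta0Ring A (beta0Field A))
        ↥(modularFunctionFieldFullC ↥(beta0Field A) (M * q * q))
        ((q : ℕ) : ↥(beta0Ring A (beta0Field A)))) ^ 1 - g ∈
      (s36i1V M hq hA hqM hζ ιC h S36Comp.c).nonunits)
    -- (2)
    {Y₀ : ↥(zchClosure (A₀ := ↥(beta0Ring A (beta0Field A)))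
      ({(bgJ ↥(beta0Field A) (M * q * q))⁻¹} :
        Set ↥(modularFunctionFieldFullC ↥(beta0Field A) (M * q * q))))}
    (hY₀ : Y₀ ∈ 𝔫.1) (hgen : S36n2pGen 𝔫.1 (s36i1V M hq hA hqM hζ ιC h S36Comp.c) Y₀)
    (m : ℕ) (ζ₁ : ↥(modularFunctionFieldFullC ↥(beta0Field A) (M * q))) :
    @S36PtInput ↥(modularFunctionFieldFullC ↥(beta0Field A) (M * q))
      ↥(modularFunctionFieldFullC ↥(beta0Field A) (M * q * q)) _ _ S36Comp
      (s36Hor ↥(beta0Field A) m) m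
      (s36Alpha ↥(beta0Field A) M q) (s36Beta ↥(beta0Field A) M q)
      (s36NormAlpha ↥(beta0Field A) M q) (s36NormBeta ↥(beta0Field A) M q) ζ₁
      (s36i1V M hq hA hqM hζ ιC h) S36Comp.a S36Comp.b S36Comp.c
      (atO ((q : ℕ) : ↥(beta0Ring A (beta0Field A))) (bgJ ↥(beta0Field A) (M * q * q))
        (Sum.inr 𝔫))
      (stb_atO_isLocalRing (π := ((q : ℕ) : ↥(beta0Ring A (beta0Field A))))
        (bgJ ↥(beta0Field A) (M * q * q)) (Sum.inr 𝔫))
      (atInc ((q : ℕ) : ↥(beta0Ring A (beta0Field A))) (bgJ ↥(beta0Field A) (M * q * q))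
        (s36i1V M hq hA hqM hζ ιC h) (Sum.inr 𝔫)) := by
  have hπ : Irreducible ((q : ℕ) : ↥(beta0Ring A (beta0Field A))) :=
    beta0Ring_irreducible_q hq hA
  have ht := bgConst_transcendental_bgJ ↥(beta0Field A) (M * q * q)
  haveI : FiniteDimensional (↥(beta0Field A))⟮bgJ ↥(beta0Field A) (M * q * q)⟯
      ↥(modularFunctionFieldFullC ↥(beta0Field A) (M * q * q)) :=
    bgFin_finiteDimensional_full ↥(beta0Field A) (M * q * q)
  haveI : FiniteDimensional (↥(beta0Field A))⟮(bgJ ↥(beta0Field A) (M * q * q))⁻¹⟯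
      ↥(modularFunctionFieldFullC ↥(beta0Field A) (M * q * q)) :=
    at_finiteDimensional_inv (bgJ ↥(beta0Field A) (M * q * q))
  haveI : IsNoetherianRing ↥(zchClosure (A₀ := ↥(beta0Ring A (beta0Field A)))
      ({(bgJ ↥(beta0Field A) (M * q * q))⁻¹} :
        Set ↥(modularFunctionFieldFullC ↥(beta0Field A) (M * q * q)))) :=
    chart_closure_isNoetherianRing (A₀ := ↥(beta0Ring A (beta0Field A)))
      (E := ↥(beta0Field A)) (zch_transcendental_inv ht)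
  obtain ⟨κ, -, hκ⟩ := s36n2b_compat (A := A) (ζ := ζ) hq hA
  haveI : CharP (IsLocalRing.ResidueField ↥(beta0Ring A (beta0Field A))) q := mgvl_charP hq hA
  haveI : CharP (IsLocalRing.ResidueField ↥(beta0Ring A (s36n2bK A ζ))) q := mgvl_charP hq hA
  have hKR₂ := aq_KR_inv hπ ht (s36i1V M hq hA hqM hζ ιC h)
    (s36i1c_hBV₁ M hq hA hqM hζ ιC h) hKR
  have hVloc := s36n2l_hVloc₂ (vtBase_residue hπ) (s36n2b_vtBase hq hA hζ)
    (IntermediateField.inclusion (s36n2b_le_K A ζ)).toRingHom ιC hq hqM h (s36i1Z hq hζ) rfl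
    hπ hκ (s36n2b_residue_zeta hq hA hζ) hKR S36Comp.c
  have hramc : ∀ x : ↥(modularFunctionFieldFullC ↥(beta0Field A) (M * q * q)),
      x ∈ (s36i1V M hq hA hqM hζ ιC h S36Comp.c).nonunits →
      ∃ z ∈ s36i1V M hq hA hqM hζ ιC h S36Comp.c, x ^ (q - 1) =
        algebraMap ↥(beta0Ring A (beta0Field A))
          ↥(modularFunctionFieldFullC ↥(beta0Field A) (M * q * q))
          ((q : ℕ) : ↥(beta0Ring A (beta0Field A))) * z := fun x hx =>
    s36vt_hram (s36n2b_vtBase hq hA hζ)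
      (s36n2EmbC (IntermediateField.inclusion (s36n2b_le_K A ζ)).toRingHom h)
      (fun _ => s36n2_frac_emb (s36n2b_vtBase hq hA hζ) hq h (s36i1Z hq hζ) rfl _)
      (s36i1_ord_c (IntermediateField.inclusion (s36n2b_le_K A ζ)).toRingHom h
        (s36i1c_ram hq hA hζ)) le_rfl hx
  exact s36pm_atPt_inr (E := ↥(beta0Field A)) hπ (s36i1V M hq hA hqM hζ ιC h)
    (s36i1c_hBV₂ M hq hA hqM hζ ιC h) (s36i1c_hπV M hq hA hqM hζ ιC h) hKR₂ (q ^ 1)
    (s36i1c_hram M hq hA hqM hζ ιC h) 𝔫 S36Comp.c hc₁ honly hVloc hY₀ hgen hX hg hg' hg0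
    (q - 1) 1 (Nat.sub_pos_of_lt hq.one_lt) Nat.one_pos hcong hramc
    (s36Hor ↥(beta0Field A) m) m (fun y hy => hy)
    (s36Alpha ↥(beta0Field A) M q) (s36Beta ↥(beta0Field A) M q)
    (s36NormAlpha ↥(beta0Field A) M q) (s36NormBeta ↥(beta0Field A) M q) ζ₁
    S36Comp.a S36Comp.b S36Comp.c

/-- **(d-C)**: the hypothesis `hC` of `s36cu_hpts_inf` / `s36cu_hpts` (helper84), VERBATIM, from
(I2) `hKR`, (1) the congruence data at every cusp point of `C_c`, (2) a local parameter of the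
branch `C_c` at every cusp point of `C_c`. -/
theorem s36cuc_hC
    (hKR : ∀ x : ↥(modularFunctionFieldFullC ↥(beta0Field A) (M * q * q)),
      IsIntegral ↥(Algebra.adjoin ↥(beta0Ring A (beta0Field A))
          {bgJ ↥(beta0Field A) (M * q * q)})
        (algebraMap ↥(beta0Ring A (beta0Field A))
          ↥(modularFunctionFieldFullC ↥(beta0Field A) (M * q * q))
          ((q : ℕ) : ↥(beta0Ring A (beta0Field A))) * x) →
      (∀ c, x ∈ s36i1V M hq hA hqM hζ ιC h c) →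
        IsIntegral ↥(Algebra.adjoin ↥(beta0Ring A (beta0Field A))
          {bgJ ↥(beta0Field A) (M * q * q)}) x)
    -- (1)
    (h1 : ∀ 𝔫 : AtPt (F := ↥(modularFunctionFieldFullC ↥(beta0Field A) (M * q * q)))
        ((q : ℕ) : ↥(beta0Ring A (beta0Field A))) (bgJ ↥(beta0Field A) (M * q * q))⁻¹,
      (⟨(bgJ ↥(beta0Field A) (M * q * q))⁻¹, s36pc_self_mem _⟩ :
        ↥(zchClosure (A₀ := ↥(beta0Ring A (beta0Field A)))
          ({(bgJ ↥(beta0Field A) (M * q * q))⁻¹} :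
            Set ↥(modularFunctionFieldFullC ↥(beta0Field A) (M * q * q))))) ∈ 𝔫.1 →
      atThrough 𝔫 (s36i1V M hq hA hqM hζ ιC h S36Comp.c) →
      (∀ c, atThrough 𝔫 (s36i1V M hq hA hqM hζ ιC h c) → c = S36Comp.c) →
      ∃ X g : ↥(modularFunctionFieldFullC ↥(beta0Field A) (M * q * q)),
        X ∈ atLoc 𝔫 ∧ g ∈ atLoc 𝔫 ∧ g⁻¹ ∈ atLoc 𝔫 ∧ g ≠ 0 ∧
        (X ^ (q - 1) / algebraMap ↥(beta0Ring A (beta0Field A))
          ↥(modularFunctionFieldFullC ↥(beta0Field A) (M * q * q))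
          ((q : ℕ) : ↥(beta0Ring A (beta0Field A)))) ^ 1 - g ∈
        (s36i1V M hq hA hqM hζ ιC h S36Comp.c).nonunits)
    -- (2)
    (h2 : ∀ 𝔫 : AtPt (F := ↥(modularFunctionFieldFullC ↥(beta0Field A) (M * q * q)))
        ((q : ℕ) : ↥(beta0Ring A (beta0Field A))) (bgJ ↥(beta0Field A) (M * q * q))⁻¹,
      (⟨(bgJ ↥(beta0Field A) (M * q * q))⁻¹, s36pc_self_mem _⟩ :
        ↥(zchClosure (A₀ := ↥(beta0Ring A (beta0Field A)))
          ({(bgJ ↥(beta0Field A) (M * q * q))⁻¹} :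
            Set ↥(modularFunctionFieldFullC ↥(beta0Field A) (M * q * q))))) ∈ 𝔫.1 →
      atThrough 𝔫 (s36i1V M hq hA hqM hζ ιC h S36Comp.c) →
      ∃ Y₀ ∈ 𝔫.1, S36n2pGen 𝔫.1 (s36i1V M hq hA hqM hζ ιC h S36Comp.c) Y₀)
    (m : ℕ) (ζ₁ : ↥(modularFunctionFieldFullC ↥(beta0Field A) (M * q))) :
    ∀ 𝔫 : AtPt (F := ↥(modularFunctionFieldFullC ↥(beta0Field A) (M * q * q)))
        ((q : ℕ) : ↥(beta0Ring A (beta0Field A))) (bgJ ↥(beta0Field A) (M * q * q))⁻¹,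
      (⟨(bgJ ↥(beta0Field A) (M * q * q))⁻¹, s36pc_self_mem _⟩ :
        ↥(zchClosure (A₀ := ↥(beta0Ring A (beta0Field A)))
          ({(bgJ ↥(beta0Field A) (M * q * q))⁻¹} :
            Set ↥(modularFunctionFieldFullC ↥(beta0Field A) (M * q * q))))) ∈ 𝔫.1 →
      atThrough 𝔫 (s36i1V M hq hA hqM hζ ιC h S36Comp.c) →
      (∀ c, atThrough 𝔫 (s36i1V M hq hA hqM hζ ιC h c) → c = S36Comp.c) →
      @S36PtInput ↥(modularFunctionFieldFullC ↥(beta0Field A) (M * q))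
        ↥(modularFunctionFieldFullC ↥(beta0Field A) (M * q * q)) _ _ S36Comp
        (s36Hor ↥(beta0Field A) m) m
        (s36Alpha ↥(beta0Field A) M q) (s36Beta ↥(beta0Field A) M q)
        (s36NormAlpha ↥(beta0Field A) M q) (s36NormBeta ↥(beta0Field A) M q) ζ₁
        (s36i1V M hq hA hqM hζ ιC h) S36Comp.a S36Comp.b S36Comp.c
        (atO ((q : ℕ) : ↥(beta0Ring A (beta0Field A))) (bgJ ↥(beta0Field A) (M * q * q))
          (Sum.inr 𝔫))
        (stb_atO_isLocalRing (π := ((q : ℕ) : ↥(beta0Ring A (beta0Field A))))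
          (bgJ ↥(beta0Field A) (M * q * q)) (Sum.inr 𝔫))
        (atInc ((q : ℕ) : ↥(beta0Ring A (beta0Field A))) (bgJ ↥(beta0Field A) (M * q * q))
          (s36i1V M hq hA hqM hζ ιC h) (Sum.inr 𝔫)) := by
  intro 𝔫 h𝔫 hc₁ honly
  obtain ⟨X, g, hX, hg, hg', hg0, hcong⟩ := h1 𝔫 h𝔫 hc₁ honly
  obtain ⟨Y₀, hY₀, hgen⟩ := h2 𝔫 h𝔫 hc₁
  exact s36cuc_hC_of M hq hA hqM hζ ιC h hKR 𝔫 hc₁ honly hX hg hg' hg0 hcong hY₀ hgen m ζ₁

end Skeleton

end Fermat.Agent.S36
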