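import Fermat.Agent.S36.PtsCuspC
import Fermat.Agent.S36.CuspMid

/-!
# S36 / (I6)(d-C), part 2 (helper20): `hC` with the congruence data of helper58 plugged in

* `s36cuc_h1` : the hypothesis (1) of `s36cuc_hC` (`S36/PtsCuspC.lean`) from `s36cm_cusp`
  (helper58, `S36/CuspMid.lean`): `X = J / Jqq − 1`, `g = X ^ (q − 1) / q`;
* `s36cuc_hC_of_gen` : `hC` of `s36cu_hpts_inf` from (I2) `hKR` and (2) the local parameters
  of the branch `C_c` at its cusp points ((d-GEN), helper45).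
-/

set_option autoImplicit false
set_option linter.style.haveILetI false
set_option linter.unusedSectionVars false
set_option linter.unusedVariables false
set_option linter.constructorNameAsVariable false

noncomputable section

namespace Fermat.Agent.S36

open ModularCurve AlgebraicCurve Fermat.Agent.ES Fermat.Agent.ES.G2 Fermat.Agent.INJ
open Fermat.Agent.UNIP Fermat.Agent.STB IntermediateField

section Plug

variable {q : ℕ} {A : ValuationSubring (AlgebraicClosure ℚ)} (M : ℕ) [NeZero M] [NeZero q]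
  [IsDiscreteValuationRing ↥(beta0Ring A (beta0Field A))]
  {ζ : AlgebraicClosure ℚ}
  (hq : q.Prime) (hA : A.LiesOverPrime q) (hqM : ¬ q ∣ M) (hζ : IsPrimitiveRoot ζ q)
  (ιC : ↥(beta0Field A) →+* ℂ)
  (h : S36MidEmb ↥(s36n2bK A ζ) q M (s36i1ZK (A := A) hq hζ))

/-- **(1)**: the congruence data at the cusp points of `C_c` -/
theorem s36cuc_h1
    (hKR : ∀ x : ↥(modularFunctionFieldFullC ↥(beta0Field A) (M * q * q)),
      IsIntegral ↥(Algebra.adjoin ↥(beta0Ring A (beta0Field A))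
          {bgJ ↥(beta0Field A) (M * q * q)})
        (algebraMap ↥(beta0Ring A (beta0Field A))
          ↥(modularFunctionFieldFullC ↥(beta0Field A) (M * q * q))
          ((q : ℕ) : ↥(beta0Ring A (beta0Field A))) * x) →
      (∀ c, x ∈ s36i1V M hq hA hqM hζ ιC h c) →
        IsIntegral ↥(Algebra.adjoin ↥(beta0Ring A (beta0Field A))
          {bgJ ↥(beta0Field A) (M * q * q)}) x)
    (𝔫 : AtPt (F := ↥(modularFunctionFieldFullC ↥(beta0Field A) (M * q * q)))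
        ((q : ℕ) : ↥(beta0Ring A (beta0Field A))) (bgJ ↥(beta0Field A) (M * q * q))⁻¹)
    (h𝔫 : (⟨(bgJ ↥(beta0Field A) (M * q * q))⁻¹, s36pc_self_mem _⟩ :
        ↥(zchClosure (A₀ := ↥(beta0Ring A (beta0Field A)))
          ({(bgJ ↥(beta0Field A) (M * q * q))⁻¹} :
            Set ↥(modularFunctionFieldFullC ↥(beta0Field A) (M * q * q))))) ∈ 𝔫.1)
    (hc₁ : atThrough 𝔫 (s36i1V M hq hA hqM hζ ιC h S36Comp.c))
    (honly : ∀ c, atThrough 𝔫 (s36i1V M hq hA hqM hζ ιC h c) → c = S36Comp.c) :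
    ∃ X g : ↥(modularFunctionFieldFullC ↥(beta0Field A) (M * q * q)),
      X ∈ atLoc 𝔫 ∧ g ∈ atLoc 𝔫 ∧ g⁻¹ ∈ atLoc 𝔫 ∧ g ≠ 0 ∧
      (X ^ (q - 1) / algebraMap ↥(beta0Ring A (beta0Field A))
        ↥(modularFunctionFieldFullC ↥(beta0Field A) (M * q * q))
        ((q : ℕ) : ↥(beta0Ring A (beta0Field A)))) ^ 1 - g ∈
      (s36i1V M hq hA hqM hζ ιC h S36Comp.c).nonunits := by
  have hπ : Irreducible ((q : ℕ) : ↥(beta0Ring A (beta0Field A))) :=
    beta0Ring_irreducible_q hq hA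
  have ht := bgConst_transcendental_bgJ ↥(beta0Field A) (M * q * q)
  haveI : FiniteDimensional (↥(beta0Field A))⟮bgJ ↥(beta0Field A) (M * q * q)⟯
      ↥(modularFunctionFieldFullC ↥(beta0Field A) (M * q * q)) :=
    bgFin_finiteDimensional_full ↥(beta0Field A) (M * q * q)
  haveI : Fact q.Prime := ⟨hq⟩
  haveI : CharP (IsLocalRing.ResidueField ↥(beta0Ring A (s36n2bK A ζ))) q := mgvl_charP hq hA
  have hKR₂ := aq_KR_inv hπ ht (s36i1V M hq hA hqM hζ ιC h)
    (s36i1c_hBV₁ M hq hA hqM hζ ιC h) hKR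
  have key := s36cm_cusp (A₀ := ↥(beta0Ring A (beta0Field A))) (E₀ := ↥(beta0Field A))
    (M := M) (q := q) (s36n2b_vtBase hq hA hζ)
    (s36n2EmbC (IntermediateField.inclusion (s36n2b_le_K A ζ)).toRingHom h)
    (fun _ => s36n2_frac_emb (s36n2b_vtBase hq hA hζ) hq h (s36i1Z hq hζ) rfl _)
    (s36i1Z hq hζ) (s36n2bZeta_isPrimitiveRoot (A := A) hq hζ)
    (s36n2b_residue_zeta hq hA hζ) (Nat.cast_ne_zero.mpr hq.ne_zero)
    (s36n2l_embC_J (IntermediateField.inclusion (s36n2b_le_K A ζ)).toRingHom h)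
    (s36n2l_embC_Jq (IntermediateField.inclusion (s36n2b_le_K A ζ)).toRingHom h)
    (s36n2l_embC_Jqq (IntermediateField.inclusion (s36n2b_le_K A ζ)).toRingHom h)
    (map_natCast _ q)
    (s36i1V M hq hA hqM hζ ιC h) (s36i1c_hBV₂ M hq hA hqM hζ ιC h) hKR₂ (q ^ 1)
    (s36i1c_hram M hq hA hqM hζ ιC h) 𝔫 h𝔫 S36Comp.c rfl hc₁ honly
  refine ⟨_, _, key.1, key.2.1, key.2.2.1, key.2.2.2, ?_⟩
  rw [pow_one, sub_self, ValuationSubring.mem_nonunits_iff, map_zero]
  exact zero_lt_one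

/-- **(d-C)**: `hC` of `s36cu_hpts_inf` / `s36cu_hpts` from (I2) `hKR` and the local parameters
(d-GEN) of the branch `C_c` at its cusp points. -/
theorem s36cuc_hC_of_gen
    (hKR : ∀ x : ↥(modularFunctionFieldFullC ↥(beta0Field A) (M * q * q)),
      IsIntegral ↥(Algebra.adjoin ↥(beta0Ring A (beta0Field A))
          {bgJ ↥(beta0Field A) (M * q * q)})
        (algebraMap ↥(beta0Ring A (beta0Field A))
          ↥(modularFunctionFieldFullC ↥(beta0Field A) (M * q * q))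
          ((q : ℕ) : ↥(beta0Ring A (beta0Field A))) * x) →
      (∀ c, x ∈ s36i1V M hq hA hqM hζ ιC h c) →
        IsIntegral ↥(Algebra.adjoin ↥(beta0Ring A (beta0Field A))
          {bgJ ↥(beta0Field A) (M * q * q)}) x)
    (h2 : ∀ 𝔫 : AtPt (F := ↥(modularFunctionFieldFullC ↥(beta0Field A) (M * q * q)))
        ((q : ℕ) : ↥(beta0Ring A (beta0Field A))) (bgJ ↥(beta0Field A) (M * q * q))⁻¹,
      (⟨(bgJ ↥(beta0Field A) (M * q * q))⁻¹, s36pc_self_mem _⟩ :
        ↥(zchClosure (A₀ := ↥(beta0Ring A (beta0Field A)))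
          ({(bgJ ↥(beta0Field A) (M * q * q))⁻¹} :
            Set ↥(modularFunctionFieldFullC ↥(beta0Field A) (M * q * q))))) ∈ 𝔫.1 →
      atThrough 𝔫 (s36i1V M hq hA hqM hζ ιC h S36Comp.c) →
      ∃ Y₀ ∈ 𝔫.1, S36n2pGen 𝔫.1 (s36i1V M hq hA hqM hζ ιC h S36Comp.c) Y₀)
    (m : ℕ) (ζ₁ : ↥(modularFunctionFieldFullC ↥(beta0Field A) (M * q))) :
    ∀ 𝔫 : AtPt (F := ↥(modularFunctionFieldFullC ↥(beta0Field A) (M * q * q)))
        ((q : ℕ) : ↥(beta0Ring A (beta0Field A))) (bgJ ↥(beta0Field A) (M * q * q))⁻¹,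
      (⟨(bgJ ↥(beta0Field A) (M * q * q))⁻¹, s36pc_self_mem _⟩ :
        ↥(zchClosure (A₀ := ↥(beta0Ring A (beta0Field A)))
          ({(bgJ ↥(beta0Field A) (M * q * q))⁻¹} :
            Set ↥(modularFunctionFieldFullC ↥(beta0Field A) (M * q * q))))) ∈ 𝔫.1 →
      atThrough 𝔫 (s36i1V M hq hA hqM hζ ιC h S36Comp.c) →
      (∀ c, atThrough 𝔫 (s36i1V M hq hA hqM hζ ιC h c) → c = S36Comp.c) →
      @S36PtInput ↥(modularFunctionFieldFullC ↥(beta0Field A) (M * q))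
        ↥(modularFunctionFieldFullC ↥(beta0Field A) (M * q * q)) _ _ S36Comp
        (s36Hor ↥(beta0Field A) m) m
        (s36Alpha ↥(beta0Field A) M q) (s36Beta ↥(beta0Field A) M q)
        (s36NormAlpha ↥(beta0Field A) M q) (s36NormBeta ↥(beta0Field A) M q) ζ₁
        (s36i1V M hq hA hqM hζ ιC h) S36Comp.a S36Comp.b S36Comp.c
        (atO ((q : ℕ) : ↥(beta0Ring A (beta0Field A))) (bgJ ↥(beta0Field A) (M * q * q))
          (Sum.inr 𝔫))
        (stb_atO_isLocalRing (π := ((q : ℕ) : ↥(beta0Ring A (beta0Field A))))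
          (bgJ ↥(beta0Field A) (M * q * q)) (Sum.inr 𝔫))
        (atInc ((q : ℕ) : ↥(beta0Ring A (beta0Field A))) (bgJ ↥(beta0Field A) (M * q * q))
          (s36i1V M hq hA hqM hζ ιC h) (Sum.inr 𝔫)) :=
  s36cuc_hC M hq hA hqM hζ ιC h hKR
    (fun 𝔫 h𝔫 hc₁ honly => s36cuc_h1 M hq hA hqM hζ ιC h hKR 𝔫 h𝔫 hc₁ honly) h2 m ζ₁

end Plug

end Fermat.Agent.S36
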