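import Fermat.Agent.S36.PtsAB
import Fermat.Agent.S36.PtsChart
import Fermat.Agent.S36.N2KerF1b
import Fermat.Agent.S36.N2ValHne
import Fermat.Agent.S36.N2ExtXMain
import Fermat.Agent.UNIP.MGChartsBeta0Reg
import Fermat.Agent.UNIP.MGVertLocMain
import Fermat.Agent.STB.FrobReg

/-!
# S36 / (I6)(d-GEN) (helper45): the local parameter of the branches `C_a`, `C_c` at the closed
points of the charts `j`, `1/j` of level `M q²` — CONCRETE

Concrete setting of `S36/SmallPart.lean`: `A₀ = beta0Ring A E₀`, `E₀ = beta0Field A`,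
`F = F_{Mqq}(E₀)`, `π = q`, `V = s36i1V M hq hA hqM hζ ιC h`.

* `s36cugHom ψ t T hT` : the chart homomorphism induced by `ψ`, with target the chart in the
  form `zchClosure {T}` (the ring of `AtPt`); `s36cugHom_isIntegral`, `s36cugHom_algebraMap`.
For `c = a` and `c = c` (the components over the cusp `∞` of level `M q` along `α`):
* `s36cug_hF`       : (F) the residue field of `V c` is that of `V′_∞` (helper19);
* `s36cug_F1_J`, `s36cug_F1_Jinv` : (F1) (helper99, element form) at the concrete family;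
* `s36cug_gen_J`, `s36cug_gen_Jinv` : **Gen**: at EVERY closed point `𝔫` of the chart `j`
  (resp. `1/j`) through which `V c` passes there is `Y₀ ∈ 𝔫` with `S36n2pGen 𝔫 (V c) Y₀`
  (helper62's `s36pab_gen_of_lower` + (F1) + `RegChart.locGen` at level `M`);
* `s36cug_genA_cusp`, `s36cug_genC_cusp` : the hypotheses `hgenA` of `s36cua_hA`
  (`S36/PtsCuspA.lean`) and `h2` of `s36cuc_hC_of_gen` (`S36/PtsCuspC2.lean`), VERBATIM;
* `s36cug_genA_J`, `s36cug_genC_J` : the same on the chart `j` (`hgenA` of `s36cua_hPa`).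
`h2 : q = 2 → 3 ∣ M`, `h3 : q = 3 → 2 ∣ M` (from `S36Rigid M q`: `s36so_rigid_h2/_h3`).
-/

set_option autoImplicit false
set_option linter.style.haveILetI false
set_option linter.unusedSectionVars false
set_option linter.unusedVariables false
set_option linter.constructorNameAsVariable false
set_option linter.style.longLine false
set_option synthInstance.maxHeartbeats 400000
set_option maxHeartbeats 1000000

noncomputable section

namespace Fermat.Agent.S36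

open ModularCurve AlgebraicCurve Fermat.Agent.ES Fermat.Agent.ES.G2 Fermat.Agent.INJ
open Fermat.Agent.UNIP Fermat.Agent.STB Fermat.Agent.AL IntermediateField

section Hom

variable {A₀ F'' F : Type*} [CommRing A₀] [IsDomain A₀] [IsDiscreteValuationRing A₀]
  [Field F''] [Field F] [Algebra A₀ F''] [Algebra A₀ F]

/-- The homomorphism of charts induced by `ψ`, with target `zchClosure {T}`. -/
def s36cugHom (ψ : F'' →ₐ[A₀] F) (t : F'') (T : F)
    (hT : IsIntegral ↥(Algebra.adjoin A₀ ({T} : Set F)) (ψ t)) :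
    ↥(integralClosure ↥(Algebra.adjoin A₀ ({t} : Set F'')) F'') →+*
      ↥(zchClosure (A₀ := A₀) ({T} : Set F)) where
  toFun x := ⟨ψ (x : F''), mem_zchClosure.mpr (s36n2k_chart_map_mem ψ t T hT x.2)⟩
  map_one' := Subtype.ext (map_one ψ)
  map_mul' _ _ := Subtype.ext (map_mul ψ _ _)
  map_zero' := Subtype.ext (map_zero ψ)
  map_add' _ _ := Subtype.ext (map_add ψ _ _)

@[simp]
theorem s36cugHom_coe (ψ : F'' →ₐ[A₀] F) (t : F'') (T : F)
    (hT : IsIntegral ↥(Algebra.adjoin A₀ ({T} : Set F)) (ψ t))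
    (x : ↥(integralClosure ↥(Algebra.adjoin A₀ ({t} : Set F'')) F'')) :
    ((s36cugHom ψ t T hT x : ↥(zchClosure (A₀ := A₀) ({T} : Set F))) : F) = ψ (x : F'') := rfl

theorem s36cugHom_algebraMap (ψ : F'' →ₐ[A₀] F) (t : F'') (T : F)
    (hT : IsIntegral ↥(Algebra.adjoin A₀ ({T} : Set F)) (ψ t)) (a : A₀) :
    s36cugHom ψ t T hT
        (algebraMap A₀ ↥(integralClosure ↥(Algebra.adjoin A₀ ({t} : Set F'')) F'') a) =
      algebraMap A₀ ↥(zchClosure (A₀ := A₀) ({T} : Set F)) a := by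
  apply Subtype.ext
  show ψ (algebraMap A₀ F'' a) = algebraMap A₀ F a
  exact ψ.commutes a

/-- The chart homomorphism is integral if `T` is integral over `A₀[ψ t]`. -/
theorem s36cugHom_isIntegral (ψ : F'' →ₐ[A₀] F) (t : F'') (T : F)
    (hT : IsIntegral ↥(Algebra.adjoin A₀ ({T} : Set F)) (ψ t))
    (hT' : IsIntegral ↥(Algebra.adjoin A₀ ({ψ t} : Set F)) T) :
    (s36cugHom ψ t T hT).IsIntegral := by
  intro b
  have hb : IsIntegral ↥(Algebra.adjoin A₀ ({ψ t} : Set F)) (b : F) :=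
    cusp_isIntegral_adjoin_trans hT' (mem_zchClosure.mp b.2)
  obtain ⟨p, hp, hpb⟩ := (s36n2k_isIntegral_adjoin_iff ψ t (b : F)).mp hb
  refine ⟨p.map (algebraMap ↥(Algebra.adjoin A₀ ({t} : Set F''))
    ↥(integralClosure ↥(Algebra.adjoin A₀ ({t} : Set F'')) F'')), hp.map _, ?_⟩
  rw [Polynomial.eval₂_map]
  have key := Polynomial.hom_eval₂ p
    ((s36cugHom ψ t T hT).comp (algebraMap ↥(Algebra.adjoin A₀ ({t} : Set F''))
      ↥(integralClosure ↥(Algebra.adjoin A₀ ({t} : Set F'')) F'')))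
    (zchClosure (A₀ := A₀) ({T} : Set F)).val.toRingHom b
  apply Subtype.val_injective
  exact key.trans hpb

/-- **Gen from the level below**, abstract chart form: `ψ : F″ → F` maps the chart `C_t` of `F″`
integrally into the chart `B_T` of `F`, (F1) `B_T = ψ C_t + 𝔪(V)`, `C_t` regular along its special
fibre (`reg` = `RegChart.locGen`): at every maximal ideal `𝔫` of `B_T` through which `V` passes
there is a local parameter `Y₀ ∈ 𝔫` of the branch `V`. -/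
theorem s36cug_gen_abs (ψ : F'' →ₐ[A₀] F) (t : F'') (T : F)
    (hT : IsIntegral ↥(Algebra.adjoin A₀ ({T} : Set F)) (ψ t))
    (hT' : IsIntegral ↥(Algebra.adjoin A₀ ({ψ t} : Set F)) T) (π : A₀)
    (𝔫 : Ideal ↥(zchClosure (A₀ := A₀) ({T} : Set F))) (h𝔫 : 𝔫.IsMaximal)
    (V : ValuationSubring F)
    (hBV : ∀ b : F, IsIntegral ↥(Algebra.adjoin A₀ ({T} : Set F)) b → b ∈ V)
    (hthr : ∀ b : ↥(zchClosure (A₀ := A₀) ({T} : Set F)), (b : F) ∈ V.nonunits → b ∈ 𝔫)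
    (hF1 : ∀ b : F, IsIntegral ↥(Algebra.adjoin A₀ ({T} : Set F)) b →
      ∃ c' : ↥(integralClosure ↥(Algebra.adjoin A₀ ({t} : Set F'')) F''),
        b - ψ (c' : F'') ∈ V.nonunits)
    (hπV : algebraMap A₀ F π ∈ V.nonunits)
    (reg : ∀ 𝔪 : Ideal ↥(integralClosure ↥(Algebra.adjoin A₀ ({t} : Set F'')) F''),
      𝔪.IsMaximal →
      algebraMap A₀ ↥(integralClosure ↥(Algebra.adjoin A₀ ({t} : Set F'')) F'') π ∈ 𝔪 →
      ∃ s ∈ 𝔪, ∀ x ∈ 𝔪, ∃ u, u ∉ 𝔪 ∧ u * x ∈ Ideal.span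
        {algebraMap A₀ ↥(integralClosure ↥(Algebra.adjoin A₀ ({t} : Set F'')) F'') π, s}) :
    ∃ Y₀ ∈ 𝔫, S36n2pGen 𝔫 V Y₀ := by
  obtain ⟨s, hs, hgen⟩ := s36pab_gen_of_lower (s36cugHom ψ t T hT)
    (s36cugHom_isIntegral ψ t T hT hT') 𝔫 h𝔫 V
    (fun b => hBV _ (mem_zchClosure.mp b.2)) hthr
    (fun b => by
      obtain ⟨c', hc'⟩ := hF1 (b : F) (mem_zchClosure.mp b.2)
      exact ⟨c', hc'⟩)
    (algebraMap A₀ ↥(integralClosure ↥(Algebra.adjoin A₀ ({t} : Set F'')) F'') π)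
    (by
      rw [s36cugHom_algebraMap]
      exact hπV)
    (fun 𝔪 h𝔪 hπ𝔪 => reg 𝔪 h𝔪 hπ𝔪)
  exact ⟨_, hs, hgen⟩

end Hom

section Concrete

variable {q : ℕ} {A : ValuationSubring (AlgebraicClosure ℚ)} (M : ℕ) [NeZero M] [NeZero q]
  [IsDiscreteValuationRing ↥(beta0Ring A (beta0Field A))]
  {ζ : AlgebraicClosure ℚ}
  (hq : q.Prime) (hA : A.LiesOverPrime q) (hqM : ¬ q ∣ M) (hζ : IsPrimitiveRoot ζ q)
  (ιC : ↥(beta0Field A) →+* ℂ)
  (h : S36MidEmb ↥(s36n2bK A ζ) q M (s36i1ZK (A := A) hq hζ))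

/-- **(F)** for `V_a`, `V_c` along `α` (helper19's `s36n2x_alphaInf_main`), concrete. -/
theorem s36cug_hF (ιK : ↥(s36n2bK A ζ) →+* ℂ) (c : S36Comp) (hc : s36n2CompAlpha c = true)
    (x : ↥(modularFunctionFieldFullC ↥(beta0Field A) (M * q * q)))
    (hx : x ∈ s36i1V M hq hA hqM hζ ιC h c) :
    ∃ y ∈ vtFam (vtBase_residue (beta0Ring_irreducible_q hq hA)) ιC hq hqM true,
      x - s36Alpha ↥(beta0Field A) M q y ∈ (s36i1V M hq hA hqM hζ ιC h c).nonunits := by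
  obtain ⟨κ, -, hκ⟩ := s36n2b_compat (A := A) (ζ := ζ) hq hA
  have main := s36n2x_alphaInf_main (vtBase_residue (beta0Ring_irreducible_q hq hA))
    (s36n2b_vtBase hq hA hζ)
    (IntermediateField.inclusion (s36n2b_le_K A ζ)).toRingHom ιC ιK hq hqM h
    (s36i1Z hq hζ) rfl hκ (s36n2bZeta_isPrimitiveRoot (A := A) hq hζ)
    (s36n2b_residue_zeta hq hA hζ) (Nat.cast_ne_zero.mpr hq.ne_zero) (v := 1)
    (by rw [map_one]; exact one_ne_zero) (mul_one _).symm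
  cases c
  · exact main.2.1 x hx
  · exact absurd hc (by decide)
  · exact main.2.2.1 x hx

/-- **(F1)**, chart `j`, for `V_a`, `V_c` at the concrete family (element form). -/
theorem s36cug_F1_J (h2 : q = 2 → 3 ∣ M) (h3 : q = 3 → 2 ∣ M) (ιK : ↥(s36n2bK A ζ) →+* ℂ)
    (c : S36Comp) (hc : s36n2CompAlpha c = true)
    (b : ↥(modularFunctionFieldFullC ↥(beta0Field A) (M * q * q)))
    (hb : IsIntegral ↥(Algebra.adjoin ↥(beta0Ring A (beta0Field A))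
      ({bgJ ↥(beta0Field A) (M * q * q)} : Set ↥(modularFunctionFieldFullC ↥(beta0Field A) (M * q * q)))) b) :
    ∃ c' : ↥(integralClosure ↥(Algebra.adjoin ↥(beta0Ring A (beta0Field A))
        ({bgJ ↥(beta0Field A) M} : Set ↥(modularFunctionFieldFullC ↥(beta0Field A) M)))
          ↥(modularFunctionFieldFullC ↥(beta0Field A) M)),
      b - s36n2kPsi ↥(beta0Ring A (beta0Field A)) ↥(beta0Field A) M q
          (c' : ↥(modularFunctionFieldFullC ↥(beta0Field A) M)) ∈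
        (s36i1V M hq hA hqM hζ ιC h c).nonunits := by
  haveI : Fact q.Prime := ⟨hq⟩
  haveI : CharP (IsLocalRing.ResidueField ↥(beta0Ring A (beta0Field A))) q := mgvl_charP hq hA
  have hπ : Irreducible ((q : ℕ) : ↥(beta0Ring A (beta0Field A))) :=
    beta0Ring_irreducible_q hq hA
  have hreg : RegChart (E := ↥(beta0Field A)) ((q : ℕ) : ↥(beta0Ring A (beta0Field A)))
      (bgJ ↥(beta0Field A) M) := stb_regChart_conc_J M hq hA le_rfl hπ hqM h2 h3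
  have hcomap := s36i1c_comap_alpha M hq hA hqM hζ ιC h c
  rw [hc] at hcomap
  exact s36n2k_F1_J (beta0Field A) (IsLocalRing.residue ↥(beta0Ring A (beta0Field A))) ιC hq hqM
    hπ (vtBase_residue hπ) hreg
    (fun x hx => mgv_hVloc₁ hπ ιC hq hqM hA (mgcb_reg_SS1_J hπ ιC hq hqM hA hreg) true x hx)
    (s36i1V M hq hA hqM hζ ιC h c) hcomap
    (fun x hx => s36cug_hF M hq hA hqM hζ ιC h ιK c hc x hx)
    b (s36i1c_hBV₁ M hq hA hqM hζ ιC h c b hb) hb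

/-- **(F1)**, chart `1/j`, for `V_a`, `V_c` at the concrete family (element form). -/
theorem s36cug_F1_Jinv (h2 : q = 2 → 3 ∣ M) (h3 : q = 3 → 2 ∣ M) (ιK : ↥(s36n2bK A ζ) →+* ℂ)
    (c : S36Comp) (hc : s36n2CompAlpha c = true)
    (b : ↥(modularFunctionFieldFullC ↥(beta0Field A) (M * q * q)))
    (hb : IsIntegral ↥(Algebra.adjoin ↥(beta0Ring A (beta0Field A))
      ({(bgJ ↥(beta0Field A) (M * q * q))⁻¹} : Set ↥(modularFunctionFieldFullC ↥(beta0Field A) (M * q * q)))) b) :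
    ∃ c' : ↥(integralClosure ↥(Algebra.adjoin ↥(beta0Ring A (beta0Field A))
        ({(bgJ ↥(beta0Field A) M)⁻¹} : Set ↥(modularFunctionFieldFullC ↥(beta0Field A) M)))
          ↥(modularFunctionFieldFullC ↥(beta0Field A) M)),
      b - s36n2kPsi ↥(beta0Ring A (beta0Field A)) ↥(beta0Field A) M q
          (c' : ↥(modularFunctionFieldFullC ↥(beta0Field A) M)) ∈
        (s36i1V M hq hA hqM hζ ιC h c).nonunits := by
  haveI : Fact q.Prime := ⟨hq⟩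
  haveI : CharP (IsLocalRing.ResidueField ↥(beta0Ring A (beta0Field A))) q := mgvl_charP hq hA
  have hπ : Irreducible ((q : ℕ) : ↥(beta0Ring A (beta0Field A))) :=
    beta0Ring_irreducible_q hq hA
  have hreg : RegChart (E := ↥(beta0Field A)) ((q : ℕ) : ↥(beta0Ring A (beta0Field A)))
      (bgJ ↥(beta0Field A) M) := stb_regChart_conc_J M hq hA le_rfl hπ hqM h2 h3
  have hreg' : RegChart (E := ↥(beta0Field A)) ((q : ℕ) : ↥(beta0Ring A (beta0Field A)))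
      (bgJ ↥(beta0Field A) M)⁻¹ := stb_regChart_conc_Jinv M hq hA le_rfl hπ hqM h2 h3
  have hcomap := s36i1c_comap_alpha M hq hA hqM hζ ιC h c
  rw [hc] at hcomap
  exact s36n2k_F1_Jinv (beta0Field A) (IsLocalRing.residue ↥(beta0Ring A (beta0Field A))) ιC hq hqM
    hπ (vtBase_residue hπ) hreg hreg'
    (fun x hx => mgv_hVloc₁ hπ ιC hq hqM hA (mgcb_reg_SS1_J hπ ιC hq hqM hA hreg) true x hx)
    (s36i1V M hq hA hqM hζ ιC h c) hcomap
    (fun x hx => s36cug_hF M hq hA hqM hζ ιC h ιK c hc x hx)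
    b (s36i1c_hBV₂ M hq hA hqM hζ ιC h c b hb) hb

/-- **Gen, chart `j`**: the local parameter of the branch `V c` (`c = a, c`) at every closed
point of the chart `j` of level `M q²` on it. -/
theorem s36cug_gen_J (h2 : q = 2 → 3 ∣ M) (h3 : q = 3 → 2 ∣ M) (ιK : ↥(s36n2bK A ζ) →+* ℂ)
    (c : S36Comp) (hc : s36n2CompAlpha c = true)
    (𝔫 : AtPt (F := ↥(modularFunctionFieldFullC ↥(beta0Field A) (M * q * q)))
      ((q : ℕ) : ↥(beta0Ring A (beta0Field A))) (bgJ ↥(beta0Field A) (M * q * q)))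
    (hthr : atThrough 𝔫 (s36i1V M hq hA hqM hζ ιC h c)) :
    ∃ Y₀ ∈ 𝔫.1, S36n2pGen 𝔫.1 (s36i1V M hq hA hqM hζ ιC h c) Y₀ := by
  have hπ : Irreducible ((q : ℕ) : ↥(beta0Ring A (beta0Field A))) :=
    beta0Ring_irreducible_q hq hA
  have hreg : RegChart (E := ↥(beta0Field A)) ((q : ℕ) : ↥(beta0Ring A (beta0Field A)))
      (bgJ ↥(beta0Field A) M) := stb_regChart_conc_J M hq hA le_rfl hπ hqM h2 h3
  have hT : IsIntegral ↥(Algebra.adjoin ↥(beta0Ring A (beta0Field A))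
      ({bgJ ↥(beta0Field A) (M * q * q)} : Set ↥(modularFunctionFieldFullC ↥(beta0Field A) (M * q * q))))
      (s36n2kPsi ↥(beta0Ring A (beta0Field A)) ↥(beta0Field A) M q (bgJ ↥(beta0Field A) M)) := by
    rw [s36n2kPsi_bgJ]
    exact s36n2k_isIntegral_self ↥(beta0Ring A (beta0Field A)) _
  have hT' : IsIntegral ↥(Algebra.adjoin ↥(beta0Ring A (beta0Field A))
      ({s36n2kPsi ↥(beta0Ring A (beta0Field A)) ↥(beta0Field A) M q (bgJ ↥(beta0Field A) M)} :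
        Set ↥(modularFunctionFieldFullC ↥(beta0Field A) (M * q * q)))) (bgJ ↥(beta0Field A) (M * q * q)) := by
    rw [s36n2kPsi_bgJ]
    exact s36n2k_isIntegral_self ↥(beta0Ring A (beta0Field A)) _
  exact s36cug_gen_abs (s36n2kPsi ↥(beta0Ring A (beta0Field A)) ↥(beta0Field A) M q)
    (bgJ ↥(beta0Field A) M) (bgJ ↥(beta0Field A) (M * q * q)) hT hT' ((q : ℕ) : ↥(beta0Ring A (beta0Field A))) 𝔫.1 𝔫.2.1
    (s36i1V M hq hA hqM hζ ιC h c)
    (fun b hb => s36i1c_hBV₁ M hq hA hqM hζ ιC h c b hb) hthr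
    (fun b hb => s36cug_F1_J M hq hA hqM hζ ιC h h2 h3 ιK c hc b hb)
    (s36i1c_hπV M hq hA hqM hζ ιC h c)
    (fun 𝔪 h𝔪 hπ𝔪 => hreg.locGen 𝔪 h𝔪 hπ𝔪)

/-- **Gen, chart `1/j`**: the local parameter of the branch `V c` (`c = a, c`) at every closed
point of the chart `1/j` of level `M q²` on it. -/
theorem s36cug_gen_Jinv (h2 : q = 2 → 3 ∣ M) (h3 : q = 3 → 2 ∣ M) (ιK : ↥(s36n2bK A ζ) →+* ℂ)
    (c : S36Comp) (hc : s36n2CompAlpha c = true)
    (𝔫 : AtPt (F := ↥(modularFunctionFieldFullC ↥(beta0Field A) (M * q * q)))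
      ((q : ℕ) : ↥(beta0Ring A (beta0Field A))) ((bgJ ↥(beta0Field A) (M * q * q))⁻¹))
    (hthr : atThrough 𝔫 (s36i1V M hq hA hqM hζ ιC h c)) :
    ∃ Y₀ ∈ 𝔫.1, S36n2pGen 𝔫.1 (s36i1V M hq hA hqM hζ ιC h c) Y₀ := by
  have hπ : Irreducible ((q : ℕ) : ↥(beta0Ring A (beta0Field A))) :=
    beta0Ring_irreducible_q hq hA
  have hreg : RegChart (E := ↥(beta0Field A)) ((q : ℕ) : ↥(beta0Ring A (beta0Field A)))
      ((bgJ ↥(beta0Field A) M)⁻¹) := stb_regChart_conc_Jinv M hq hA le_rfl hπ hqM h2 h3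
  have hT : IsIntegral ↥(Algebra.adjoin ↥(beta0Ring A (beta0Field A))
      ({(bgJ ↥(beta0Field A) (M * q * q))⁻¹} : Set ↥(modularFunctionFieldFullC ↥(beta0Field A) (M * q * q))))
      (s36n2kPsi ↥(beta0Ring A (beta0Field A)) ↥(beta0Field A) M q ((bgJ ↥(beta0Field A) M)⁻¹)) := by
    rw [s36n2kPsi_bgJ_inv]
    exact s36n2k_isIntegral_self ↥(beta0Ring A (beta0Field A)) _
  have hT' : IsIntegral ↥(Algebra.adjoin ↥(beta0Ring A (beta0Field A))
      ({s36n2kPsi ↥(beta0Ring A (beta0Field A)) ↥(beta0Field A) M q ((bgJ ↥(beta0Field A) M)⁻¹)} :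
        Set ↥(modularFunctionFieldFullC ↥(beta0Field A) (M * q * q)))) ((bgJ ↥(beta0Field A) (M * q * q))⁻¹) := by
    rw [s36n2kPsi_bgJ_inv]
    exact s36n2k_isIntegral_self ↥(beta0Ring A (beta0Field A)) _
  exact s36cug_gen_abs (s36n2kPsi ↥(beta0Ring A (beta0Field A)) ↥(beta0Field A) M q)
    ((bgJ ↥(beta0Field A) M)⁻¹) ((bgJ ↥(beta0Field A) (M * q * q))⁻¹) hT hT' ((q : ℕ) : ↥(beta0Ring A (beta0Field A))) 𝔫.1 𝔫.2.1
    (s36i1V M hq hA hqM hζ ιC h c)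
    (fun b hb => s36i1c_hBV₂ M hq hA hqM hζ ιC h c b hb) hthr
    (fun b hb => s36cug_F1_Jinv M hq hA hqM hζ ιC h h2 h3 ιK c hc b hb)
    (s36i1c_hπV M hq hA hqM hζ ιC h c)
    (fun 𝔪 h𝔪 hπ𝔪 => hreg.locGen 𝔪 h𝔪 hπ𝔪)

/-- **(d-GEN) for `C_a`** : `hgenA` of `s36cua_hA`, VERBATIM. -/
theorem s36cug_genA_cusp (h2 : q = 2 → 3 ∣ M) (h3 : q = 3 → 2 ∣ M)
    (ιK : ↥(s36n2bK A ζ) →+* ℂ) :
    ∀ 𝔫 : AtPt (F := ↥(modularFunctionFieldFullC ↥(beta0Field A) (M * q * q)))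
        ((q : ℕ) : ↥(beta0Ring A (beta0Field A))) (bgJ ↥(beta0Field A) (M * q * q))⁻¹,
      (⟨(bgJ ↥(beta0Field A) (M * q * q))⁻¹, s36pc_self_mem _⟩ :
        ↥(zchClosure (A₀ := ↥(beta0Ring A (beta0Field A)))
          ({(bgJ ↥(beta0Field A) (M * q * q))⁻¹} :
            Set ↥(modularFunctionFieldFullC ↥(beta0Field A) (M * q * q))))) ∈ 𝔫.1 →
      atThrough 𝔫 (s36i1V M hq hA hqM hζ ιC h S36Comp.a) →
      ∃ Y₀ ∈ 𝔫.1, S36n2pGen 𝔫.1 (s36i1V M hq hA hqM hζ ιC h S36Comp.a) Y₀ :=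
  fun 𝔫 _ hthr => s36cug_gen_Jinv M hq hA hqM hζ ιC h h2 h3 ιK S36Comp.a rfl 𝔫 hthr

/-- **(d-GEN) for `C_c`** : `h2` of `s36cuc_hC_of_gen`, VERBATIM. -/
theorem s36cug_genC_cusp (h2 : q = 2 → 3 ∣ M) (h3 : q = 3 → 2 ∣ M)
    (ιK : ↥(s36n2bK A ζ) →+* ℂ) :
    ∀ 𝔫 : AtPt (F := ↥(modularFunctionFieldFullC ↥(beta0Field A) (M * q * q)))
        ((q : ℕ) : ↥(beta0Ring A (beta0Field A))) (bgJ ↥(beta0Field A) (M * q * q))⁻¹,
      (⟨(bgJ ↥(beta0Field A) (M * q * q))⁻¹, s36pc_self_mem _⟩ :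
        ↥(zchClosure (A₀ := ↥(beta0Ring A (beta0Field A)))
          ({(bgJ ↥(beta0Field A) (M * q * q))⁻¹} :
            Set ↥(modularFunctionFieldFullC ↥(beta0Field A) (M * q * q))))) ∈ 𝔫.1 →
      atThrough 𝔫 (s36i1V M hq hA hqM hζ ιC h S36Comp.c) →
      ∃ Y₀ ∈ 𝔫.1, S36n2pGen 𝔫.1 (s36i1V M hq hA hqM hζ ιC h S36Comp.c) Y₀ :=
  fun 𝔫 _ hthr => s36cug_gen_Jinv M hq hA hqM hζ ιC h h2 h3 ιK S36Comp.c rfl 𝔫 hthr

/-- **Gen_a on the chart `j`** : `hgenA` of `s36cua_hPa`, VERBATIM. -/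
theorem s36cug_genA_J (h2 : q = 2 → 3 ∣ M) (h3 : q = 3 → 2 ∣ M)
    (ιK : ↥(s36n2bK A ζ) →+* ℂ) :
    ∀ 𝔫 : AtPt (F := ↥(modularFunctionFieldFullC ↥(beta0Field A) (M * q * q)))
        ((q : ℕ) : ↥(beta0Ring A (beta0Field A))) (bgJ ↥(beta0Field A) (M * q * q)),
      atThrough 𝔫 (s36i1V M hq hA hqM hζ ιC h S36Comp.a) →
      ∃ Y₀ ∈ 𝔫.1, S36n2pGen 𝔫.1 (s36i1V M hq hA hqM hζ ιC h S36Comp.a) Y₀ :=
  fun 𝔫 hthr => s36cug_gen_J M hq hA hqM hζ ιC h h2 h3 ιK S36Comp.a rfl 𝔫 hthr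

/-- **Gen_c on the chart `j`**. -/
theorem s36cug_genC_J (h2 : q = 2 → 3 ∣ M) (h3 : q = 3 → 2 ∣ M)
    (ιK : ↥(s36n2bK A ζ) →+* ℂ) :
    ∀ 𝔫 : AtPt (F := ↥(modularFunctionFieldFullC ↥(beta0Field A) (M * q * q)))
        ((q : ℕ) : ↥(beta0Ring A (beta0Field A))) (bgJ ↥(beta0Field A) (M * q * q)),
      atThrough 𝔫 (s36i1V M hq hA hqM hζ ιC h S36Comp.c) →
      ∃ Y₀ ∈ 𝔫.1, S36n2pGen 𝔫.1 (s36i1V M hq hA hqM hζ ιC h S36Comp.c) Y₀ :=
  fun 𝔫 hthr => s36cug_gen_J M hq hA hqM hζ ιC h h2 h3 ιK S36Comp.c rfl 𝔫 hthr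

end Concrete

end Fermat.Agent.S36
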