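import Fermat.Agent.S36.PtsCuspC2
import Fermat.Agent.S36.PtsCuspGen
import Fermat.Agent.S36.SmallKR

/-!
# S36 / (I6)(d-C), part 3 (helper20): `hC`, final form

`s36cuc_hC_final` : `hC` of `s36cu_hpts_inf` / `s36cu_hpts` (helper84, `S36/PtsCusp.lean`) VERBATIM,
with NO geometric hypothesis left: (I2) `hKR` is `s36sk_hKR` (helper98) and the local parameters
of `C_c` at its cusp points are `s36cug_genC_cusp` (helper45).  Binders: those of
`S36/SmallPart.lean` + `h2 h3 ιK` (as in `s36sk_hKR`, `s36cug_genC_cusp`).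
-/

set_option autoImplicit false
set_option linter.style.haveILetI false
set_option linter.unusedSectionVars false
set_option linter.unusedVariables false
set_option linter.constructorNameAsVariable false

noncomputable section

namespace Fermat.Agent.S36

open ModularCurve AlgebraicCurve Fermat.Agent.ES Fermat.Agent.ES.G2 Fermat.Agent.INJ
open Fermat.Agent.UNIP Fermat.Agent.STB IntermediateField

section Final

variable {q : ℕ} {A : ValuationSubring (AlgebraicClosure ℚ)} (M : ℕ) [NeZero M] [NeZero q]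
  [IsDiscreteValuationRing ↥(beta0Ring A (beta0Field A))]
  {ζ : AlgebraicClosure ℚ}
  (hq : q.Prime) (hA : A.LiesOverPrime q) (hqM : ¬ q ∣ M) (hζ : IsPrimitiveRoot ζ q)
  (ιC : ↥(beta0Field A) →+* ℂ)
  (h : S36MidEmb ↥(s36n2bK A ζ) q M (s36i1ZK (A := A) hq hζ))

/-- **(d-C), final**: `hC` of `s36cu_hpts_inf` / `s36cu_hpts`. -/
theorem s36cuc_hC_final (h2 : q = 2 → 3 ∣ M) (h3 : q = 3 → 2 ∣ M)
    (ιK : ↥(s36n2bK A ζ) →+* ℂ)
    (m : ℕ) (ζ₁ : ↥(modularFunctionFieldFullC ↥(beta0Field A) (M * q))) :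
    ∀ 𝔫 : AtPt (F := ↥(modularFunctionFieldFullC ↥(beta0Field A) (M * q * q)))
        ((q : ℕ) : ↥(beta0Ring A (beta0Field A))) (bgJ ↥(beta0Field A) (M * q * q))⁻¹,
      (⟨(bgJ ↥(beta0Field A) (M * q * q))⁻¹, s36pc_self_mem _⟩ :
        ↥(zchClosure (A₀ := ↥(beta0Ring A (beta0Field A)))
          ({(bgJ ↥(beta0Field A) (M * q * q))⁻¹} :
            Set ↥(modularFunctionFieldFullC ↥(beta0Field A) (M * q * q))))) ∈ 𝔫.1 →
      atThrough 𝔫 (s36i1V M hq hA hqM hζ ιC h S36Comp.c) →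
      (∀ c, atThrough 𝔫 (s36i1V M hq hA hqM hζ ιC h c) → c = S36Comp.c) →
      @S36PtInput ↥(modularFunctionFieldFullC ↥(beta0Field A) (M * q))
        ↥(modularFunctionFieldFullC ↥(beta0Field A) (M * q * q)) _ _ S36Comp
        (s36Hor ↥(beta0Field A) m) m
        (s36Alpha ↥(beta0Field A) M q) (s36Beta ↥(beta0Field A) M q)
        (s36NormAlpha ↥(beta0Field A) M q) (s36NormBeta ↥(beta0Field A) M q) ζ₁
        (s36i1V M hq hA hqM hζ ιC h) S36Comp.a S36Comp.b S36Comp.c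
        (atO ((q : ℕ) : ↥(beta0Ring A (beta0Field A))) (bgJ ↥(beta0Field A) (M * q * q))
          (Sum.inr 𝔫))
        (stb_atO_isLocalRing (π := ((q : ℕ) : ↥(beta0Ring A (beta0Field A))))
          (bgJ ↥(beta0Field A) (M * q * q)) (Sum.inr 𝔫))
        (atInc ((q : ℕ) : ↥(beta0Ring A (beta0Field A))) (bgJ ↥(beta0Field A) (M * q * q))
          (s36i1V M hq hA hqM hζ ιC h) (Sum.inr 𝔫)) :=
  s36cuc_hC_of_gen M hq hA hqM hζ ιC h
    (fun x hx hV => s36sk_hKR M hq hA hqM hζ ιC h h2 h3 ιK x hx hV)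
    (s36cug_genC_cusp M hq hA hqM hζ ιC h h2 h3 ιK) m ζ₁

end Final

end Fermat.Agent.S36
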