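import Fermat.Agent.S36.PtsCuspWc
import Fermat.Agent.S36.PtsCElts
import Fermat.Agent.S36.TopSetting
import Fermat.Agent.UNIP.NodesCuspPoly

/-!
# S36 / (I6)(d-W): the `W`-data of `s36cu_hpts` at `w = w_{q²}` (helper29)

Concrete setting of `S36/SmallOf.lean`: `E₀ = beta0Field A`, `A₀ = beta0Ring A E₀`,
`F = F_{Mqq}(E₀)`, `t = bgJ E₀ (M q q) = j`, `V = s36i1V M hq hA hqM hζ ιC h`,
`w = (s36n2W E₀ ιC hq hqM).toRingEquiv : F ≃+* F` (the Atkin–Lehner involution `w_{q²}`).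

* `s36cuw_hwA`  : `w` fixes `A₀`;
* `s36cuw_w_J`, `s36cuw_w_Jqq`, `s36cuw_symm` : `w j = j_{qq}`, `w j_{qq} = j`, `w.symm = w`;
* `s36cuw_hw₁`, `s36cuw_hw₂` : `j` is integral over `A₀[w j]` and over `A₀[w.symm j]`;
* `s36cuw_hwab`, `s36cuw_hwba`, `s36cuw_hwcc` : `w` exchanges `V_a` and `V_b` and fixes `V_c`;
* `s36cuw_hHor` : `s36Hor E₀ m` is stable under `w` (any `E₀`-algebra automorphism:
  `s36cuw_hor_algEquiv`).
These are the hypotheses `hwA hw₁ hw₂ hwab hwba hwcc hHor` of `s36cu_hpts` (`S36/PtsCusp.lean`).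
-/

set_option autoImplicit false
set_option linter.unusedSectionVars false
set_option linter.unusedVariables false
set_option linter.style.haveILetI false

noncomputable section

namespace Fermat.Agent.S36

open ModularCurve AlgebraicCurve Fermat.Agent.INJ Fermat.Agent.UNIP Fermat.Agent.AL
  Fermat.Agent.ES Fermat.Agent.STB

/-! ### A. `Hor` is stable under automorphisms -/

section Hor

variable {K : Type*} [Field K] {F : Type*} [Field F] [Algebra K F]

/-- divisibility of all orders is stable under `K`-automorphisms of `F` -/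
theorem s36cuw_hor_algEquiv (σ : F ≃ₐ[K] F) {m : ℕ} {y : F} (hy : s36Hor K m y) :
    s36Hor K m (σ y) := by
  intro P
  have h1 := Place.ord_smul σ (σ⁻¹ • P) y
  rw [smul_inv_smul] at h1
  rw [h1]
  exact hy _

end Hor

/-! ### B. Generic facts on `w_{q²}` -/

section Gen

variable (E : Type*) [Field E] [CharZero E] (ιC : E →+* ℂ)
  {M q : ℕ} [NeZero q] [NeZero M] [NeZero (M * q)] [NeZero (M * q * q)]
  (hq : q.Prime) (hqM : ¬ q ∣ M)

/-- `w j = j(Q^{q²})` -/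
theorem s36cuw_w_J :
    s36n2W E ιC hq hqM (bgJ E (M * q * q)) = s36cunJqq E M q := by
  apply Subtype.ext
  exact s36n2W_base E ιC hq hqM (jqModC_mem_full E M)

/-- `w j(Q^{q²}) = j` -/
theorem s36cuw_w_Jqq :
    s36n2W E ιC hq hqM (s36cunJqq E M q) = bgJ E (M * q * q) := by
  apply Subtype.ext
  exact s36n2W_qExpand_sq E ιC hq hqM (jqModC_mem_full E M)

variable {A₀ : Type*} [CommRing A₀] [Algebra A₀ E]
  [Algebra A₀ (modularFunctionFieldFullC E (M * q * q))]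
  [IsScalarTower A₀ E (modularFunctionFieldFullC E (M * q * q))]

/-- `w` fixes the constants of `A₀` -/
theorem s36cuw_hwA_gen (a : A₀) :
    (s36n2W E ιC hq hqM).toRingEquiv
        (algebraMap A₀ (modularFunctionFieldFullC E (M * q * q)) a) =
      algebraMap A₀ (modularFunctionFieldFullC E (M * q * q)) a := by
  rw [IsScalarTower.algebraMap_apply A₀ E (modularFunctionFieldFullC E (M * q * q))]
  exact (s36n2W E ιC hq hqM).commutes _

/-- `j` is integral over `A₀[w j]` -/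
theorem s36cuw_hw₁_gen :
    IsIntegral ↥(Algebra.adjoin A₀
        {(s36n2W E ιC hq hqM).toRingEquiv (bgJ E (M * q * q))})
      (bgJ E (M * q * q)) := by
  have h1 := cusp_isIntegral_adjoin_map (A := A₀)
    ((s36n2W E ιC hq hqM).toRingEquiv.toRingHom)
    (fun c => s36cuw_hwA_gen E ιC hq hqM c)
    (s36cun_isIntegral_Jqq (A := A₀) (E := E) (M := M) hq)
  have e1 : (s36n2W E ιC hq hqM).toRingEquiv.toRingHom (s36cunJqq E M q) =
      bgJ E (M * q * q) := s36cuw_w_Jqq E ιC hq hqM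
  rw [e1] at h1
  exact h1

/-- `w.symm = w` on elements -/
theorem s36cuw_symm (x : modularFunctionFieldFullC E (M * q * q)) :
    (s36n2W E ιC hq hqM).toRingEquiv.symm x = (s36n2W E ιC hq hqM).toRingEquiv x := by
  apply (s36n2W E ιC hq hqM).toRingEquiv.injective
  rw [RingEquiv.apply_symm_apply]
  exact (s36n2W_invol E ιC hq hqM x).symm

/-- `j` is integral over `A₀[w.symm j]` -/
theorem s36cuw_hw₂_gen :
    IsIntegral ↥(Algebra.adjoin A₀
        {(s36n2W E ιC hq hqM).toRingEquiv.symm (bgJ E (M * q * q))})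
      (bgJ E (M * q * q)) := by
  rw [s36cuw_symm]
  exact s36cuw_hw₁_gen E ιC hq hqM

end Gen

/-! ### C. The concrete `W`-data -/

section Concrete

variable {q : ℕ} {A : ValuationSubring (AlgebraicClosure ℚ)} (M : ℕ) [NeZero M] [NeZero q]
  [IsDiscreteValuationRing ↥(beta0Ring A (beta0Field A))]
  {ζ : AlgebraicClosure ℚ}
  (hq : q.Prime) (hA : A.LiesOverPrime q) (hqM : ¬ q ∣ M) (hζ : IsPrimitiveRoot ζ q)
  (ιC : ↥(beta0Field A) →+* ℂ)
  (h : S36MidEmb ↥(s36n2bK A ζ) q M (s36i1ZK (A := A) hq hζ))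

/-- **`hwA`** -/
theorem s36cuw_hwA (a : ↥(beta0Ring A (beta0Field A))) :
    (s36n2W ↥(beta0Field A) ιC hq hqM).toRingEquiv
        (algebraMap ↥(beta0Ring A (beta0Field A))
          ↥(modularFunctionFieldFullC ↥(beta0Field A) (M * q * q)) a) =
      algebraMap ↥(beta0Ring A (beta0Field A))
        ↥(modularFunctionFieldFullC ↥(beta0Field A) (M * q * q)) a :=
  s36cuw_hwA_gen ↥(beta0Field A) ιC hq hqM a

/-- **`hw₁`** -/
theorem s36cuw_hw₁ :
    IsIntegral ↥(Algebra.adjoin ↥(beta0Ring A (beta0Field A))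
        {(s36n2W ↥(beta0Field A) ιC hq hqM).toRingEquiv (bgJ ↥(beta0Field A) (M * q * q))})
      (bgJ ↥(beta0Field A) (M * q * q)) :=
  s36cuw_hw₁_gen ↥(beta0Field A) ιC hq hqM

/-- **`hw₂`** -/
theorem s36cuw_hw₂ :
    IsIntegral ↥(Algebra.adjoin ↥(beta0Ring A (beta0Field A))
        {(s36n2W ↥(beta0Field A) ιC hq hqM).toRingEquiv.symm
          (bgJ ↥(beta0Field A) (M * q * q))})
      (bgJ ↥(beta0Field A) (M * q * q)) :=
  s36cuw_hw₂_gen ↥(beta0Field A) ιC hq hqM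

/-- **`hwab`**: `x ∈ V_b ↔ w x ∈ V_a` -/
theorem s36cuw_hwab (x : ↥(modularFunctionFieldFullC ↥(beta0Field A) (M * q * q))) :
    x ∈ s36i1V M hq hA hqM hζ ιC h S36Comp.b ↔
      (s36n2W ↥(beta0Field A) ιC hq hqM).toRingEquiv x ∈
        s36i1V M hq hA hqM hζ ιC h S36Comp.a :=
  Iff.rfl

/-- **`hwba`**: `x ∈ V_a ↔ w x ∈ V_b` -/
theorem s36cuw_hwba (x : ↥(modularFunctionFieldFullC ↥(beta0Field A) (M * q * q))) :
    x ∈ s36i1V M hq hA hqM hζ ιC h S36Comp.a ↔
      (s36n2W ↥(beta0Field A) ιC hq hqM).toRingEquiv x ∈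
        s36i1V M hq hA hqM hζ ιC h S36Comp.b := by
  have h1 := s36cuw_hwab M hq hA hqM hζ ιC h
    ((s36n2W ↥(beta0Field A) ιC hq hqM).toRingEquiv x)
  have e1 : (s36n2W ↥(beta0Field A) ιC hq hqM).toRingEquiv
      ((s36n2W ↥(beta0Field A) ιC hq hqM).toRingEquiv x) = x :=
    s36n2W_invol ↥(beta0Field A) ιC hq hqM x
  rw [e1] at h1
  exact h1.symm

/-- **`hwcc`**: `x ∈ V_c ↔ w x ∈ V_c` -/
theorem s36cuw_hwcc (ιK : ↥(s36n2bK A ζ) →+* ℂ)
    (x : ↥(modularFunctionFieldFullC ↥(beta0Field A) (M * q * q))) :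
    x ∈ s36i1V M hq hA hqM hζ ιC h S36Comp.c ↔
      (s36n2W ↥(beta0Field A) ιC hq hqM).toRingEquiv x ∈
        s36i1V M hq hA hqM hζ ιC h S36Comp.c :=
  s36cwc_hwcc_conc' M hq hA hqM hζ ιC h ιK x

/-- **`hHor`** -/
theorem s36cuw_hHor (m : ℕ) (y : ↥(modularFunctionFieldFullC ↥(beta0Field A) (M * q * q)))
    (hy : s36Hor ↥(beta0Field A) m y) :
    s36Hor ↥(beta0Field A) m ((s36n2W ↥(beta0Field A) ιC hq hqM).toRingEquiv y) :=
  s36cuw_hor_algEquiv (s36n2W ↥(beta0Field A) ιC hq hqM) hy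

end Concrete

end Fermat.Agent.S36

end
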