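/-
S36 (Carayol at `q² ∥ M`), geometry, (I6)-(P2) CONCRETE, part Y (helper84):
the SEPARATING FUNCTION at the points over `j = ∞`, input of `s36cu_hpts` (`S36/PtsCusp.lean`).

`J = j`, `Jq = j(Q^q)`, `Jqq = j(Q^{q²})` (`S36/N2LocElts.lean`), `n = q * q`,

  `y  = Jqq · (J⁻¹) ^ n`,   `z_c = (J⁻¹) ^ (n − 1)`,   `z_b = (Jqq⁻¹) ^ (n · n − 1)`.

* `s36cuy_hya`, `s36cuy_hyb`, `s36cuy_hyc` : `y ≡ 1` at `V_a`, `y ≡ z_b` at `V_b`, `y ≡ z_c` at
  `V_c` (`V = s36n2V …`, generic bases): Kronecker's congruences `Jqq ≡ J ^ n` at `V_a`,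
  `J ≡ Jqq ^ n` at `V_b`, `Jqq ≡ J` at `V_c`;
* `s36cuy_hyO` : `y ∈ O` at every point at `J = ∞` (abstract chart setting):
  `y = (Jqq · (Jq⁻¹) ^ q) · (Jq · (J⁻¹) ^ q) ^ q`, the two factors are integral over `A₀[Jq⁻¹]`,
  `A₀[J⁻¹]` (helper61, `wpd_e_integral_of_eval`), and `Jq` has a pole where `J` has one
  (`s36cu_pole`);
* `s36cuy_hzc`, `s36cuy_hzb` : `z_c, z_b ∈ 𝔪_O` at every point at `J = ∞`.
-/
import Fermat.Agent.S36.PtsCusp
import Fermat.Agent.S36.N2LocMain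
import Fermat.Agent.S33.WildPhiDeg
import Fermat.Agent.UNIP.NodesCuspPoly

set_option autoImplicit false
set_option linter.unusedSectionVars false
set_option linter.unusedVariables false
set_option linter.style.haveILetI false

noncomputable section

namespace Fermat.Agent.S36

open ModularCurve AlgebraicCurve Polynomial IntermediateField Fermat.Agent.INJ Fermat.Agent.UNIP
open Fermat.Agent.AL Fermat.Agent.ES Fermat.Agent.S28 Fermat.Agent.STB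

/-! ### field identities -/

section Field

variable {F : Type*} [Field F]

theorem s36cuy_id_a {J Jqq : F} (hJ : J ≠ 0) (n : ℕ) :
    Jqq * J⁻¹ ^ n - 1 = (Jqq - J ^ n) * J⁻¹ ^ n := by
  rw [sub_mul, inv_pow, mul_inv_cancel₀ (pow_ne_zero n hJ)]

theorem s36cuy_id_c {J Jqq : F} (hJ : J ≠ 0) {n : ℕ} (hn : 0 < n) :
    Jqq * J⁻¹ ^ n - J⁻¹ ^ (n - 1) = (Jqq - J) * J⁻¹ ^ n := by
  obtain ⟨m, rfl⟩ : ∃ m, n = m + 1 := ⟨n - 1, by omega⟩
  have e : J * (J⁻¹ ^ m * J⁻¹) = J⁻¹ ^ m := by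
    rw [mul_left_comm, mul_inv_cancel₀ hJ, mul_one]
  rw [Nat.add_sub_cancel, sub_mul, pow_succ J⁻¹ m, e]

theorem s36cuy_id_b {J Jqq : F} (hJqq : Jqq ≠ 0) {n : ℕ} (hn : 0 < n) :
    Jqq * J⁻¹ ^ n - Jqq⁻¹ ^ (n * n - 1) = Jqq * (J⁻¹ ^ n - (Jqq⁻¹ ^ n) ^ n) := by
  have hnn : 0 < n * n := Nat.mul_pos hn hn
  obtain ⟨m, hm⟩ : ∃ m, n * n = m + 1 := ⟨n * n - 1, by omega⟩
  rw [mul_sub, ← pow_mul, hm, Nat.add_sub_cancel, pow_succ Jqq⁻¹ m]
  congr 1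
  rw [mul_comm (Jqq⁻¹ ^ m), ← mul_assoc, mul_inv_cancel₀ hJqq, one_mul]

theorem s36cuy_id_b' {J Jqq : F} (hJ : J ≠ 0) (hJqq : Jqq ≠ 0) (n : ℕ) :
    J⁻¹ - Jqq⁻¹ ^ n = -((J - Jqq ^ n) * (J⁻¹ * Jqq⁻¹ ^ n)) := by
  have h1 : Jqq ^ n * Jqq⁻¹ ^ n = 1 := by
    rw [inv_pow, mul_inv_cancel₀ (pow_ne_zero n hJqq)]
  have h2 : (J - Jqq ^ n) * (J⁻¹ * Jqq⁻¹ ^ n) =
      (J * J⁻¹) * Jqq⁻¹ ^ n - (Jqq ^ n * Jqq⁻¹ ^ n) * J⁻¹ := by ring
  rw [h2, h1, mul_inv_cancel₀ hJ, one_mul, one_mul, neg_sub]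

/-- in a valuation ring: `a ≡ b` implies `a ^ n ≡ b ^ n` -/
theorem s36cuy_pow_sub_pow_mem (V : ValuationSubring F) {a b : F} (ha : a ∈ V) (hb : b ∈ V)
    (hab : a - b ∈ V.nonunits) (n : ℕ) : a ^ n - b ^ n ∈ V.nonunits := by
  obtain ⟨c, hc⟩ := sub_dvd_pow_sub_pow (⟨a, ha⟩ : V) ⟨b, hb⟩ n
  have h2 : a ^ n - b ^ n = (a - b) * (c : F) := congrArg Subtype.val hc
  rw [h2, mul_comm]
  exact vt_mul_mem_nonunits V c.2 hab

/-- `𝔪(V) · V ⊆ 𝔪(V)` -/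
theorem s36cuy_mul_mem (V : ValuationSubring F) {x y : F} (hx : x ∈ V.nonunits) (hy : y ∈ V) :
    x * y ∈ V.nonunits := by
  rw [mul_comm]
  exact vt_mul_mem_nonunits V hy hx

end Field

/-! ### congruences from the expansions -/

section Abs

variable {A E k : Type*} [CommRing A] [Field E] [Field k]
  {ι : A →+* E} {r : A →+* k} {π : A} {F : Type*} [Field F]
  (hB : VtBase ι r π) (e : F →+* LaurentSeries E) (hfrac : ∀ x : F, VtFrac ι (e x))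

/-- `x − x' ^ n ∈ 𝔪(V)` from the reductions of the expansions -/
theorem s36cuy_sub_pow_mem {x x' : F} {T T' : LaurentSeries A} (n : ℕ)
    (hx : e x = coeffMap ι T) (hx' : e x' = coeffMap ι T')
    (hred : coeffMap r T = coeffMap r T' ^ n) :
    x - x' ^ n ∈ (vtSub hB e hfrac).nonunits := by
  have e1 : e (x - x' ^ n) = coeffMap ι (T - T' ^ n) := by
    rw [map_sub, map_pow, hx, hx', map_sub, map_pow]
  rw [s36n2l_mem_nonunits_iff_coeffMap hB e hfrac e1, map_sub, map_pow, hred, sub_self]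

end Abs

/-! ### the elements -/

section Elts

variable (E : Type*) [Field E] (M q : ℕ) [NeZero M] [NeZero q] [NeZero (M * q)]
  [NeZero (M * q * q)]

/-- the separating function `y = j(Q^{q²}) / j ^ (q²)` -/
def s36cuyY : modularFunctionFieldFullC E (M * q * q) :=
  s36n2lJqq E M q * (s36n2lJ E M q)⁻¹ ^ (q * q)

/-- `z_c = (1 / j) ^ (q² − 1)` -/
def s36cuyZc : modularFunctionFieldFullC E (M * q * q) :=
  (s36n2lJ E M q)⁻¹ ^ (q * q - 1)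

/-- `z_b = (1 / j(Q^{q²})) ^ (q⁴ − 1)` -/
def s36cuyZb : modularFunctionFieldFullC E (M * q * q) :=
  (s36n2lJqq E M q)⁻¹ ^ (q * q * (q * q) - 1)

theorem s36cuy_Jqq_ne_zero : s36n2lJqq E M q ≠ 0 := by
  intro h0
  have h1 := congrArg (fun x : modularFunctionFieldFullC E (M * q * q) =>
    (x : LaurentSeries E)) h0
  simp only [s36n2lJqq_coe] at h1
  exact jqModC_ne_zero_of_nontrivial E
    (qExpand_injective q (qExpand_injective q (by rw [h1]; simp)))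

end Elts

/-! ### `J` is integral over `A[Jq]` and over `A[Jqq]` -/

section Int

variable (E : Type*) [Field E] (ιC : E →+* ℂ) {q M : ℕ} [NeZero q] [NeZero M] [NeZero (M * q)]
  [NeZero (M * q * q)] (hq : q.Prime) (hqM : ¬ q ∣ M)
  {A : Type*} [CommRing A] [Algebra A E]
  [Algebra A (modularFunctionFieldFullC E (M * q * q))]
  [IsScalarTower A E (modularFunctionFieldFullC E (M * q * q))]

theorem s36cuy_w_const (a : A) :
    (s36n2W E ιC hq hqM).toRingEquiv.toRingHom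
        (algebraMap A (modularFunctionFieldFullC E (M * q * q)) a) =
      algebraMap A (modularFunctionFieldFullC E (M * q * q)) a := by
  rw [IsScalarTower.algebraMap_apply A E (modularFunctionFieldFullC E (M * q * q))]
  exact (s36n2W E ιC hq hqM).commutes _

include ιC hq hqM in
/-- `J` is integral over `A[Jqq]` -/
theorem s36cuy_isIntegral_J_Jqq :
    IsIntegral (Algebra.adjoin A {s36n2lJqq E M q}) (s36n2lJ E M q) := by
  have h1 : IsIntegral (Algebra.adjoin A {s36n2lJ E M q}) (s36n2lJqq E M q) :=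
    s36n2l_isIntegral_Jqq hq
  have h2 := cusp_isIntegral_adjoin_map (A := A)
    ((s36n2W E ιC hq hqM).toRingEquiv.toRingHom) (s36cuy_w_const E ιC hq hqM) h1
  have e1 : (s36n2W E ιC hq hqM).toRingEquiv.toRingHom (s36n2lJ E M q) = s36n2lJqq E M q :=
    Subtype.ext (s36n2W_base E ιC hq hqM (jqModC_mem_full E M))
  have e2 : (s36n2W E ιC hq hqM).toRingEquiv.toRingHom (s36n2lJqq E M q) = s36n2lJ E M q :=
    Subtype.ext (s36n2W_qExpand_sq E ιC hq hqM (jqModC_mem_full E M))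
  rwa [e1, e2] at h2

include ιC hq hqM in
/-- `J` is integral over `A[Jq]` -/
theorem s36cuy_isIntegral_J_Jq :
    IsIntegral (Algebra.adjoin A {s36n2lJq E M q}) (s36n2lJ E M q) := by
  have h1 : IsIntegral (Algebra.adjoin A {s36n2lJq E M q}) (s36n2lJqq E M q) :=
    nodesSwap_isIntegral_of_evalInt (A := A) (nodesSwapPhi_monic q hq) (s36n2l_phi_Jqq hq)
  have h2 := cusp_isIntegral_adjoin_map (A := A)
    ((s36n2W E ιC hq hqM).toRingEquiv.toRingHom) (s36cuy_w_const E ιC hq hqM) h1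
  have e1 : (s36n2W E ιC hq hqM).toRingEquiv.toRingHom (s36n2lJq E M q) = s36n2lJq E M q :=
    Subtype.ext (s36n2W_mid E ιC hq hqM (jqModC_mem_full E M))
  have e2 : (s36n2W E ιC hq hqM).toRingEquiv.toRingHom (s36n2lJqq E M q) = s36n2lJ E M q :=
    Subtype.ext (s36n2W_qExpand_sq E ιC hq hqM (jqModC_mem_full E M))
  rwa [e1, e2] at h2

end Int

/-! ### the three congruences -/

section Fam

variable {A E k A' E' k' : Type*} [CommRing A] [IsDomain A] [Field E] [Algebra A E]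
  [IsFractionRing A E] [Field k] [CommRing A'] [Field E'] [Field k']
  {r : A →+* k} {π : A} {ι' : A' →+* E'} {r' : A' →+* k'} {π' : A'}
  (hB : VtBase (algebraMap A E) r π) (hB' : VtBase ι' r' π')
  (ψ : E →+* E') (ιC : E →+* ℂ)
  {q M : ℕ} [NeZero q] [NeZero M] [NeZero (M * q)] [NeZero (M * q * q)]
  (hq : q.Prime) (hqM : ¬ q ∣ M)
  {ζ : E'ˣ} (h : S36MidEmb E' q M ζ) (z : A'ˣ) (hz : Units.map (ι' : A' →* E') z = ζ)
  [CharP k q] [CharP k' q]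

include hq in
/-- the reduction of `j(Q^{q²})` is `j ^ (q²)` -/
theorem s36cuy_red (k : Type*) [Field k] [CharP k q] (A : Type*) [CommRing A] (r : A →+* k) :
    coeffMap r (qExpand A q (qExpand A q (jqModC A))) = coeffMap r (jqModC A) ^ (q * q) := by
  haveI : Fact q.Prime := ⟨hq⟩
  rw [coeffMap_qExpand, coeffMap_qExpand, coeffMap_jqModC, s36n2l_red_qq k q, pow_mul]

include hq in
/-- **Kronecker at `V_a`**: `Jqq ≡ J ^ (q²)` -/
theorem s36cuy_kron_a :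
    s36n2lJqq E M q - s36n2lJ E M q ^ (q * q) ∈
      (s36n2V hB hB' ψ ιC hq hqM h z hz S36Comp.a).nonunits := by
  refine s36cuy_sub_pow_mem hB (vtEmb E (M * q * q))
    (fun x => vt_frac_fullC hB (M * q * q) x.2) (T := qExpand A q (qExpand A q (jqModC A)))
    (T' := jqModC A) (q * q) ?_ s36n2l_expA (s36cuy_red hq k A r)
  rw [coeffMap_qExpand, coeffMap_qExpand, coeffMap_jqModC]
  rfl

/-- **Kronecker at `V_b`**: `J ≡ Jqq ^ (q²)` -/
theorem s36cuy_kron_b :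
    s36n2lJ E M q - s36n2lJqq E M q ^ (q * q) ∈
      (s36n2V hB hB' ψ ιC hq hqM h z hz S36Comp.b).nonunits := by
  refine s36cuy_sub_pow_mem hB (s36n2EmbB ιC hq hqM)
    (fun x => vt_frac_fullC hB (M * q * q) (s36n2W E ιC hq hqM x).2)
    (T := qExpand A q (qExpand A q (jqModC A)))
    (T' := jqModC A) (q * q) (s36n2l_expB ιC hq hqM) ?_ (s36cuy_red hq k A r)
  rw [s36n2l_embB_Jqq, coeffMap_jqModC]

/-- `Jqq` is a unit of `V_b` -/
theorem s36cuy_Jqq_val_b :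
    (s36n2V hB hB' ψ ιC hq hqM h z hz S36Comp.b).valuation (s36n2lJqq E M q) = 1 :=
  vtSub_valuation_eq_one_of_eq_coeffMap hB (s36n2EmbB ιC hq hqM)
    (fun x => vt_frac_fullC hB (M * q * q) (s36n2W E ιC hq hqM x).2)
    (T := jqModC A) (by rw [s36n2l_embB_Jqq, coeffMap_jqModC])
    (by rw [coeffMap_jqModC]; exact jqModC_ne_zero_of_nontrivial k)

include hq in
/-- **hya**: `y ≡ 1` at `V_a` -/
theorem s36cuy_hya :
    s36cuyY E M q - 1 ∈ (s36n2V hB hB' ψ ιC hq hqM h z hz S36Comp.a).nonunits := by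
  unfold s36cuyY
  rw [s36cuy_id_a s36n2l_J_ne_zero]
  exact s36cuy_mul_mem _ (s36cuy_kron_a hB hB' ψ ιC hq hqM h z hz)
    ((s36n2V hB hB' ψ ιC hq hqM h z hz S36Comp.a).pow_mem
      (s36n2l_Jinv_mem hB hB' ψ ιC hq hqM h z hz S36Comp.a) _)

include hq in
/-- **hyc**: `y ≡ z_c` at `V_c` -/
theorem s36cuy_hyc (hz1 : r' z = 1) :
    s36cuyY E M q - s36cuyZc E M q ∈
      (s36n2V hB hB' ψ ιC hq hqM h z hz S36Comp.c).nonunits := by
  unfold s36cuyY s36cuyZc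
  rw [s36cuy_id_c s36n2l_J_ne_zero (Nat.mul_pos hq.pos hq.pos)]
  exact s36cuy_mul_mem _ (s36n2l_tableC hB' ψ hq h z hz hz1).2.2
    ((s36n2V hB hB' ψ ιC hq hqM h z hz S36Comp.c).pow_mem
      (s36n2l_Jinv_mem hB hB' ψ ιC hq hqM h z hz S36Comp.c) _)

include hq in
/-- **hyb**: `y ≡ z_b` at `V_b` -/
theorem s36cuy_hyb :
    s36cuyY E M q - s36cuyZb E M q ∈
      (s36n2V hB hB' ψ ιC hq hqM h z hz S36Comp.b).nonunits := by
  unfold s36cuyY s36cuyZb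
  set V := s36n2V hB hB' ψ ιC hq hqM h z hz S36Comp.b with hV
  have hJqq0 : s36n2lJqq E M q ≠ 0 := s36cuy_Jqq_ne_zero E M q
  have hJ0 : s36n2lJ E M q ≠ 0 := s36n2l_J_ne_zero
  have hu := (vt_valuation_eq_one_iff _ _).mp (s36cuy_Jqq_val_b hB hB' ψ ιC hq hqM h z hz)
  have hJqqV : s36n2lJqq E M q ∈ V := hu.2.1
  have hJqqV' : (s36n2lJqq E M q)⁻¹ ∈ V := hu.2.2
  have hJV' : (s36n2lJ E M q)⁻¹ ∈ V := s36n2l_Jinv_mem hB hB' ψ ιC hq hqM h z hz S36Comp.b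
  rw [s36cuy_id_b hJqq0 (Nat.mul_pos hq.pos hq.pos)]
  refine vt_mul_mem_nonunits V hJqqV ?_
  refine s36cuy_pow_sub_pow_mem V hJV' (V.pow_mem hJqqV' _) ?_ _
  rw [s36cuy_id_b' hJ0 hJqq0]
  refine vt_neg_mem_nonunits V ?_
  exact s36cuy_mul_mem V (s36cuy_kron_b hB hB' ψ ιC hq hqM h z hz)
    (V.mul_mem _ _ hJV' (V.pow_mem hJqqV' _))

end Fam

/-! ### the points at `J = ∞` -/

section Chart

variable {A₀ E F : Type*} [CommRing A₀] [IsDomain A₀] [IsDiscreteValuationRing A₀]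
  [Field E] [Algebra A₀ E] [IsFractionRing A₀ E] [CharZero E]
  [Field F] [Algebra E F] [Algebra A₀ F] [IsScalarTower A₀ E F]
  {π : A₀}

include E in
/-- **hyO**: `y = Jqq · (J⁻¹) ^ (q²)` lies in the local ring of every point at `J = ∞`. -/
theorem s36cuy_hyO (hπ : Irreducible π) {q : ℕ} [NeZero q] (hq : q.Prime) {J Jq Jqq : F}
    (hJ0 : J ≠ 0)
    (h1 : (nodesSwapPhi q hq).eval₂ (evalInt J) Jq = 0)
    (h2 : (nodesSwapPhi q hq).eval₂ (evalInt Jq) Jqq = 0)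
    (hJq : IsIntegral ↥(Algebra.adjoin A₀ {Jq}) J)
    (𝔫 : AtPt (F := F) π J⁻¹)
    (h𝔫 : (⟨J⁻¹, s36pc_self_mem J⁻¹⟩ : ↥(zchClosure (A₀ := A₀) ({J⁻¹} : Set F))) ∈ 𝔫.1) :
    Jqq * J⁻¹ ^ (q * q) ∈ atLoc 𝔫 := by
  obtain ⟨-, ht𝔫, htn𝔫⟩ := s36cu_pt_data (E := E) hπ hJ0 𝔫 h𝔫
  haveI : IsLocalRing (atLoc 𝔫) := stb_atO_isLocalRing (π := π) J (Sum.inr 𝔫)
  -- `Jq` has a pole
  obtain ⟨hq1, hq2⟩ := s36cu_pole (A₀ := A₀) (O := atLoc 𝔫) (s36cu_atLoc_ic 𝔫)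
    (s36cu_atLoc_algebraMap 𝔫) hJq ht𝔫 htn𝔫
  have hJq0 : Jq ≠ 0 := by
    rintro rfl
    exact hq2 (atLoc 𝔫).zero_mem
  -- the two factors
  have hu₁ : Jq * J⁻¹ ^ q ∈ atLoc 𝔫 :=
    s36cu_atLoc_chart 𝔫 (Fermat.Agent.S33.wpd_e_integral_of_eval q hq hJ0 h1)
  have hu₂ : Jqq * Jq⁻¹ ^ q ∈ atLoc 𝔫 :=
    s36cu_mem_of_isIntegral (A₀ := A₀) (s36cu_atLoc_ic 𝔫) (s36cu_atLoc_algebraMap 𝔫) hq1
      (Fermat.Agent.S33.wpd_e_integral_of_eval q hq hJq0 h2)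
  have e : Jqq * J⁻¹ ^ (q * q) = (Jqq * Jq⁻¹ ^ q) * (Jq * J⁻¹ ^ q) ^ q := by
    have h3 : Jq⁻¹ ^ q * Jq ^ q = 1 := by
      rw [inv_pow, inv_mul_cancel₀ (pow_ne_zero q hJq0)]
    rw [mul_pow, ← pow_mul, mul_assoc, ← mul_assoc (Jq⁻¹ ^ q), h3, one_mul]
  rw [e]
  exact (atLoc 𝔫).mul_mem hu₂ ((atLoc 𝔫).pow_mem hu₁ q)

end Chart

end Fermat.Agent.S36

end
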