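/-
S36 (Carayol at `q² ∥ M`), geometry, (I6)(d) FINAL CALL (helper84): `StmtS36PtsInf`
(`S36/PtsPlan.lean`, helper31) = `S36PtInput` at every closed point at `j = ∞` (chart `1 / j`,
`1 / j ∈ 𝔫`), at the concrete family `V = s36i1V M hq hA hqM hζ ιC h`.

* `s36cui_inf_of`  : from `hA`, `hC` (verbatim hypotheses of `s36cu_hpts_inf`) and (I2) `hKR`:
  the W-data is `S36/PtsCuspW.lean` (helper29), the Y-data is `S36/PtsCuspY.lean`;
* `s36cui_inf_of_gen` : from (I2) `hKR` and the local parameters (d-GEN) of the branches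
  `C_a`, `C_c` at their cusp points (`hA` = helper98 `s36cua_hA`, `hC` = helper20
  `s36cuc_hC_of_gen`, with helper58's `s36cm_cusp`);
* **`stmtS36PtsInf : StmtS36PtsInf`**, UNCONDITIONAL ((d-GEN) = helper45,
  `S36/PtsCuspGen.lean`; (I2) `hKR` = helper98, `s36sk_hKR`).
-/
import Fermat.Agent.S36.PtsCuspY
import Fermat.Agent.S36.PtsCuspW
import Fermat.Agent.S36.PtsCuspA
import Fermat.Agent.S36.PtsCuspC2
import Fermat.Agent.S36.PtsCuspGen
import Fermat.Agent.S36.PtsPlan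

set_option autoImplicit false
set_option linter.style.haveILetI false
set_option linter.unusedSectionVars false
set_option linter.unusedVariables false
set_option linter.constructorNameAsVariable false

noncomputable section

namespace Fermat.Agent.S36

open ModularCurve AlgebraicCurve Fermat.Agent.ES Fermat.Agent.ES.G2 Fermat.Agent.INJ
open Fermat.Agent.UNIP Fermat.Agent.STB IntermediateField

section Inst

variable {q : ℕ} {A : ValuationSubring (AlgebraicClosure ℚ)} (M : ℕ) [NeZero M] [NeZero q]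
  [IsDiscreteValuationRing ↥(beta0Ring A (beta0Field A))]
  {ζ : AlgebraicClosure ℚ}
  (hq : q.Prime) (hA : A.LiesOverPrime q) (hqM : ¬ q ∣ M) (hζ : IsPrimitiveRoot ζ q)
  (ιC : ↥(beta0Field A) →+* ℂ)
  (h : S36MidEmb ↥(s36n2bK A ζ) q M (s36i1ZK (A := A) hq hζ))

/-- **(I6)(d)**: `S36PtInput` at the points at `j = ∞`, from `hA`, `hC`. -/
theorem s36cui_inf_of (ιK : ↥(s36n2bK A ζ) →+* ℂ)
    (hKR : ∀ x : ↥(modularFunctionFieldFullC ↥(beta0Field A) (M * q * q)),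
      IsIntegral ↥(Algebra.adjoin ↥(beta0Ring A (beta0Field A))
          {bgJ ↥(beta0Field A) (M * q * q)})
        (algebraMap ↥(beta0Ring A (beta0Field A))
          ↥(modularFunctionFieldFullC ↥(beta0Field A) (M * q * q))
          ((q : ℕ) : ↥(beta0Ring A (beta0Field A))) * x) →
      (∀ c, x ∈ s36i1V M hq hA hqM hζ ιC h c) →
        IsIntegral ↥(Algebra.adjoin ↥(beta0Ring A (beta0Field A))
          {bgJ ↥(beta0Field A) (M * q * q)}) x)
    (m : ℕ) (ζ₁ : ↥(modularFunctionFieldFullC ↥(beta0Field A) (M * q)))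
    (hA' : ∀ 𝔫 : AtPt (F := ↥(modularFunctionFieldFullC ↥(beta0Field A) (M * q * q)))
        ((q : ℕ) : ↥(beta0Ring A (beta0Field A))) (bgJ ↥(beta0Field A) (M * q * q))⁻¹,
      (⟨(bgJ ↥(beta0Field A) (M * q * q))⁻¹, s36pc_self_mem _⟩ :
        ↥(zchClosure (A₀ := ↥(beta0Ring A (beta0Field A)))
          ({(bgJ ↥(beta0Field A) (M * q * q))⁻¹} :
            Set ↥(modularFunctionFieldFullC ↥(beta0Field A) (M * q * q))))) ∈ 𝔫.1 →
      atThrough 𝔫 (s36i1V M hq hA hqM hζ ιC h S36Comp.a) →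
      (∀ c, atThrough 𝔫 (s36i1V M hq hA hqM hζ ιC h c) → c = S36Comp.a) →
      @S36PtInput ↥(modularFunctionFieldFullC ↥(beta0Field A) (M * q))
        ↥(modularFunctionFieldFullC ↥(beta0Field A) (M * q * q)) _ _ S36Comp
        (s36Hor ↥(beta0Field A) m) m
        (s36Alpha ↥(beta0Field A) M q) (s36Beta ↥(beta0Field A) M q)
        (s36NormAlpha ↥(beta0Field A) M q) (s36NormBeta ↥(beta0Field A) M q) ζ₁
        (s36i1V M hq hA hqM hζ ιC h) S36Comp.a S36Comp.b S36Comp.c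
        (atO ((q : ℕ) : ↥(beta0Ring A (beta0Field A))) (bgJ ↥(beta0Field A) (M * q * q))
          (Sum.inr 𝔫))
        (stb_atO_isLocalRing (π := ((q : ℕ) : ↥(beta0Ring A (beta0Field A))))
          (bgJ ↥(beta0Field A) (M * q * q)) (Sum.inr 𝔫))
        (atInc ((q : ℕ) : ↥(beta0Ring A (beta0Field A))) (bgJ ↥(beta0Field A) (M * q * q))
          (s36i1V M hq hA hqM hζ ιC h) (Sum.inr 𝔫)))
    (hC : ∀ 𝔫 : AtPt (F := ↥(modularFunctionFieldFullC ↥(beta0Field A) (M * q * q)))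
        ((q : ℕ) : ↥(beta0Ring A (beta0Field A))) (bgJ ↥(beta0Field A) (M * q * q))⁻¹,
      (⟨(bgJ ↥(beta0Field A) (M * q * q))⁻¹, s36pc_self_mem _⟩ :
        ↥(zchClosure (A₀ := ↥(beta0Ring A (beta0Field A)))
          ({(bgJ ↥(beta0Field A) (M * q * q))⁻¹} :
            Set ↥(modularFunctionFieldFullC ↥(beta0Field A) (M * q * q))))) ∈ 𝔫.1 →
      atThrough 𝔫 (s36i1V M hq hA hqM hζ ιC h S36Comp.c) →
      (∀ c, atThrough 𝔫 (s36i1V M hq hA hqM hζ ιC h c) → c = S36Comp.c) →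
      @S36PtInput ↥(modularFunctionFieldFullC ↥(beta0Field A) (M * q))
        ↥(modularFunctionFieldFullC ↥(beta0Field A) (M * q * q)) _ _ S36Comp
        (s36Hor ↥(beta0Field A) m) m
        (s36Alpha ↥(beta0Field A) M q) (s36Beta ↥(beta0Field A) M q)
        (s36NormAlpha ↥(beta0Field A) M q) (s36NormBeta ↥(beta0Field A) M q) ζ₁
        (s36i1V M hq hA hqM hζ ιC h) S36Comp.a S36Comp.b S36Comp.c
        (atO ((q : ℕ) : ↥(beta0Ring A (beta0Field A))) (bgJ ↥(beta0Field A) (M * q * q))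
          (Sum.inr 𝔫))
        (stb_atO_isLocalRing (π := ((q : ℕ) : ↥(beta0Ring A (beta0Field A))))
          (bgJ ↥(beta0Field A) (M * q * q)) (Sum.inr 𝔫))
        (atInc ((q : ℕ) : ↥(beta0Ring A (beta0Field A))) (bgJ ↥(beta0Field A) (M * q * q))
          (s36i1V M hq hA hqM hζ ιC h) (Sum.inr 𝔫))) :
    ∀ 𝔫 : AtPt (F := ↥(modularFunctionFieldFullC ↥(beta0Field A) (M * q * q)))
        ((q : ℕ) : ↥(beta0Ring A (beta0Field A))) (bgJ ↥(beta0Field A) (M * q * q))⁻¹,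
      (⟨(bgJ ↥(beta0Field A) (M * q * q))⁻¹, s36pc_self_mem _⟩ :
        ↥(zchClosure (A₀ := ↥(beta0Ring A (beta0Field A)))
          ({(bgJ ↥(beta0Field A) (M * q * q))⁻¹} :
            Set ↥(modularFunctionFieldFullC ↥(beta0Field A) (M * q * q))))) ∈ 𝔫.1 →
      @S36PtInput ↥(modularFunctionFieldFullC ↥(beta0Field A) (M * q))
        ↥(modularFunctionFieldFullC ↥(beta0Field A) (M * q * q)) _ _ S36Comp
        (s36Hor ↥(beta0Field A) m) m
        (s36Alpha ↥(beta0Field A) M q) (s36Beta ↥(beta0Field A) M q)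
        (s36NormAlpha ↥(beta0Field A) M q) (s36NormBeta ↥(beta0Field A) M q) ζ₁
        (s36i1V M hq hA hqM hζ ιC h) S36Comp.a S36Comp.b S36Comp.c
        (atO ((q : ℕ) : ↥(beta0Ring A (beta0Field A))) (bgJ ↥(beta0Field A) (M * q * q))
          (Sum.inr 𝔫))
        (stb_atO_isLocalRing (π := ((q : ℕ) : ↥(beta0Ring A (beta0Field A))))
          (bgJ ↥(beta0Field A) (M * q * q)) (Sum.inr 𝔫))
        (atInc ((q : ℕ) : ↥(beta0Ring A (beta0Field A))) (bgJ ↥(beta0Field A) (M * q * q))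
          (s36i1V M hq hA hqM hζ ιC h) (Sum.inr 𝔫)) := by
  have hπ : Irreducible ((q : ℕ) : ↥(beta0Ring A (beta0Field A))) :=
    beta0Ring_irreducible_q hq hA
  have ht := bgConst_transcendental_bgJ ↥(beta0Field A) (M * q * q)
  haveI : FiniteDimensional (↥(beta0Field A))⟮bgJ ↥(beta0Field A) (M * q * q)⟯
      ↥(modularFunctionFieldFullC ↥(beta0Field A) (M * q * q)) :=
    bgFin_finiteDimensional_full ↥(beta0Field A) (M * q * q)
  haveI : CharP (IsLocalRing.ResidueField ↥(beta0Ring A (beta0Field A))) q := mgvl_charP hq hA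
  haveI : CharP (IsLocalRing.ResidueField ↥(beta0Ring A (s36n2bK A ζ))) q := mgvl_charP hq hA
  have ht0 : bgJ ↥(beta0Field A) (M * q * q) ≠ 0 := by
    intro h0
    exact ht (by rw [h0]; exact isAlgebraic_zero)
  have hq2 : 2 ≤ q := hq.two_le
  have hkc : 0 < q * q - 1 := by
    have : 4 ≤ q * q := Nat.mul_le_mul hq2 hq2
    omega
  have hkb : 0 < q * q * (q * q) - 1 := by
    have h4 : 4 ≤ q * q := Nat.mul_le_mul hq2 hq2
    have : 16 ≤ q * q * (q * q) := Nat.mul_le_mul h4 h4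
    omega
  have hJq : IsIntegral ↥(Algebra.adjoin ↥(beta0Ring A (beta0Field A))
      {s36n2lJq ↥(beta0Field A) M q}) (s36n2lJ ↥(beta0Field A) M q) :=
    s36cuy_isIntegral_J_Jq ↥(beta0Field A) ιC hq hqM
  have hJqq : IsIntegral ↥(Algebra.adjoin ↥(beta0Ring A (beta0Field A))
      {s36n2lJqq ↥(beta0Field A) M q}) (s36n2lJ ↥(beta0Field A) M q) :=
    s36cuy_isIntegral_J_Jqq ↥(beta0Field A) ιC hq hqM
  have hJJ : IsIntegral ↥(Algebra.adjoin ↥(beta0Ring A (beta0Field A))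
      {s36n2lJ ↥(beta0Field A) M q}) (s36n2lJ ↥(beta0Field A) M q) :=
    s36n2l_isIntegral_J
  exact s36cu_hpts_inf (E := ↥(beta0Field A)) hπ ht (s36i1V M hq hA hqM hζ ιC h)
    (s36i1c_hBV₁ M hq hA hqM hζ ιC h) (s36i1c_hBV₂ M hq hA hqM hζ ιC h) hKR
    (s36i1c_hram M hq hA hqM hζ ιC h)
    S36Comp.a S36Comp.b S36Comp.c s36i1_hκ s36i1_hab s36i1_hac s36i1_hbc
    (s36n2W ↥(beta0Field A) ιC hq hqM).toRingEquiv
    (s36cuw_hwA M hq hqM ιC) (s36cuw_hw₁ M hq hqM ιC) (s36cuw_hw₂ M hq hqM ιC)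
    (s36cuw_hwab M hq hA hqM hζ ιC h) (s36cuw_hwba M hq hA hqM hζ ιC h)
    (s36cuw_hwcc M hq hA hqM hζ ιC h ιK) (s36cuw_hHor M hq hqM ιC m)
    (y := s36cuyY ↥(beta0Field A) M q) (zb := s36cuyZb ↥(beta0Field A) M q)
    (zc := s36cuyZc ↥(beta0Field A) M q)
    (fun 𝔫 h𝔫 _ => s36cuy_hyO (E := ↥(beta0Field A)) hπ hq ht0 (s36n2l_phi_Jq hq)
      (s36n2l_phi_Jqq hq) hJq 𝔫 h𝔫)
    (fun 𝔫 h𝔫 => s36cu_pow_inv_mem (E := ↥(beta0Field A)) hπ ht0 hJqq hkb 𝔫 h𝔫)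
    (fun 𝔫 h𝔫 => s36cu_pow_inv_mem (E := ↥(beta0Field A)) hπ ht0 hJJ hkc 𝔫 h𝔫)
    (s36cuy_hya (vtBase_residue hπ) (s36n2b_vtBase hq hA hζ)
      (IntermediateField.inclusion (s36n2b_le_K A ζ)).toRingHom ιC hq hqM h (s36i1Z hq hζ) rfl)
    (s36cuy_hyb (vtBase_residue hπ) (s36n2b_vtBase hq hA hζ)
      (IntermediateField.inclusion (s36n2b_le_K A ζ)).toRingHom ιC hq hqM h (s36i1Z hq hζ) rfl)
    (s36cuy_hyc (vtBase_residue hπ) (s36n2b_vtBase hq hA hζ)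
      (IntermediateField.inclusion (s36n2b_le_K A ζ)).toRingHom ιC hq hqM h (s36i1Z hq hζ) rfl
      (s36n2b_residue_zeta hq hA hζ))
    hA' hC

/-- **(I6)(d)** from (I2) `hKR` and the local parameters (d-GEN) of the branches `C_a`, `C_c`
at their cusp points. -/
theorem s36cui_inf_of_gen (ιK : ↥(s36n2bK A ζ) →+* ℂ)
    (hKR : ∀ x : ↥(modularFunctionFieldFullC ↥(beta0Field A) (M * q * q)),
      IsIntegral ↥(Algebra.adjoin ↥(beta0Ring A (beta0Field A))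
          {bgJ ↥(beta0Field A) (M * q * q)})
        (algebraMap ↥(beta0Ring A (beta0Field A))
          ↥(modularFunctionFieldFullC ↥(beta0Field A) (M * q * q))
          ((q : ℕ) : ↥(beta0Ring A (beta0Field A))) * x) →
      (∀ c, x ∈ s36i1V M hq hA hqM hζ ιC h c) →
        IsIntegral ↥(Algebra.adjoin ↥(beta0Ring A (beta0Field A))
          {bgJ ↥(beta0Field A) (M * q * q)}) x)
    (hgenA : ∀ 𝔫 : AtPt (F := ↥(modularFunctionFieldFullC ↥(beta0Field A) (M * q * q)))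
        ((q : ℕ) : ↥(beta0Ring A (beta0Field A))) (bgJ ↥(beta0Field A) (M * q * q))⁻¹,
      (⟨(bgJ ↥(beta0Field A) (M * q * q))⁻¹, s36pc_self_mem _⟩ :
        ↥(zchClosure (A₀ := ↥(beta0Ring A (beta0Field A)))
          ({(bgJ ↥(beta0Field A) (M * q * q))⁻¹} :
            Set ↥(modularFunctionFieldFullC ↥(beta0Field A) (M * q * q))))) ∈ 𝔫.1 →
      atThrough 𝔫 (s36i1V M hq hA hqM hζ ιC h S36Comp.a) →
      ∃ Y₀ ∈ 𝔫.1, S36n2pGen 𝔫.1 (s36i1V M hq hA hqM hζ ιC h S36Comp.a) Y₀)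
    (hgenC : ∀ 𝔫 : AtPt (F := ↥(modularFunctionFieldFullC ↥(beta0Field A) (M * q * q)))
        ((q : ℕ) : ↥(beta0Ring A (beta0Field A))) (bgJ ↥(beta0Field A) (M * q * q))⁻¹,
      (⟨(bgJ ↥(beta0Field A) (M * q * q))⁻¹, s36pc_self_mem _⟩ :
        ↥(zchClosure (A₀ := ↥(beta0Ring A (beta0Field A)))
          ({(bgJ ↥(beta0Field A) (M * q * q))⁻¹} :
            Set ↥(modularFunctionFieldFullC ↥(beta0Field A) (M * q * q))))) ∈ 𝔫.1 →
      atThrough 𝔫 (s36i1V M hq hA hqM hζ ιC h S36Comp.c) →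
      ∃ Y₀ ∈ 𝔫.1, S36n2pGen 𝔫.1 (s36i1V M hq hA hqM hζ ιC h S36Comp.c) Y₀)
    (m : ℕ) (ζ₁ : ↥(modularFunctionFieldFullC ↥(beta0Field A) (M * q))) :
    ∀ 𝔫 : AtPt (F := ↥(modularFunctionFieldFullC ↥(beta0Field A) (M * q * q)))
        ((q : ℕ) : ↥(beta0Ring A (beta0Field A))) (bgJ ↥(beta0Field A) (M * q * q))⁻¹,
      (⟨(bgJ ↥(beta0Field A) (M * q * q))⁻¹, s36pc_self_mem _⟩ :
        ↥(zchClosure (A₀ := ↥(beta0Ring A (beta0Field A)))
          ({(bgJ ↥(beta0Field A) (M * q * q))⁻¹} :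
            Set ↥(modularFunctionFieldFullC ↥(beta0Field A) (M * q * q))))) ∈ 𝔫.1 →
      @S36PtInput ↥(modularFunctionFieldFullC ↥(beta0Field A) (M * q))
        ↥(modularFunctionFieldFullC ↥(beta0Field A) (M * q * q)) _ _ S36Comp
        (s36Hor ↥(beta0Field A) m) m
        (s36Alpha ↥(beta0Field A) M q) (s36Beta ↥(beta0Field A) M q)
        (s36NormAlpha ↥(beta0Field A) M q) (s36NormBeta ↥(beta0Field A) M q) ζ₁
        (s36i1V M hq hA hqM hζ ιC h) S36Comp.a S36Comp.b S36Comp.c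
        (atO ((q : ℕ) : ↥(beta0Ring A (beta0Field A))) (bgJ ↥(beta0Field A) (M * q * q))
          (Sum.inr 𝔫))
        (stb_atO_isLocalRing (π := ((q : ℕ) : ↥(beta0Ring A (beta0Field A))))
          (bgJ ↥(beta0Field A) (M * q * q)) (Sum.inr 𝔫))
        (atInc ((q : ℕ) : ↥(beta0Ring A (beta0Field A))) (bgJ ↥(beta0Field A) (M * q * q))
          (s36i1V M hq hA hqM hζ ιC h) (Sum.inr 𝔫)) :=
  s36cui_inf_of M hq hA hqM hζ ιC h ιK hKR m ζ₁
    (s36cua_hA M hq hA hqM hζ ιC h hKR hgenA m ζ₁)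
    (s36cuc_hC_of_gen M hq hA hqM hζ ιC h hKR hgenC m ζ₁)

end Inst

/-- **(I6)(d)**: `StmtS36PtsInf` (`S36/PtsPlan.lean`), UNCONDITIONAL:
`S36PtInput` at every closed point at `j = ∞` of the chart `1 / j`. -/
theorem stmtS36PtsInf : StmtS36PtsInf := by
  intro M q p _ _ hq hp hpq hp2 hR A hA _ ζ hζ ιC ιK h r ζm hζm
  exact s36cui_inf_of_gen M hq hA hR.1 hζ ιC h ιK
    (s36sk_hKR M hq hA hR.1 hζ ιC h (s36so_rigid_h2 hR) (s36so_rigid_h3 hR) ιK)
    (s36cug_genA_cusp M hq hA hR.1 hζ ιC h (s36so_rigid_h2 hR) (s36so_rigid_h3 hR) ιK)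
    (s36cug_genC_cusp M hq hA hR.1 hζ ιC h (s36so_rigid_h2 hR) (s36so_rigid_h3 hR) ιK)
    (p ^ r) _

end Fermat.Agent.S36

end
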