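import Fermat.Agent.S36.N2ValI1
import Fermat.Agent.S36.NormConj
import Fermat.Agent.S36.NormOrdData

/-!
# S36 / (I6)(d), piece `hwcc`: the middle component `V_c` is stable under `w_{q²}` (helper29)

Setting of `S36/N2Val.lean` (section `Emb`): `F = F_{M q²}(E)`, `ψ : E →+* E'`, `ζ : E'ˣ` a
primitive `q`-th root of unity, `μ_ζ = h.emb` the expansion at the middle cusp of `F_{M q²}(E')`,
`ψ̂ = mgaCoeffHom ψ`, `w = s36n2W E ιC hq hqM` the Atkin–Lehner involution `w_{q²}`,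
`V_c = s36n2VC = { x | μ_ζ (ψ̂ x) ∈ gaussRing }`.

* `s36cwc_coeffHom_gen` : `ψ̂ j_e = j_e`;
* `s36cwc_w_low`, `s36cwc_w_mid`, `s36cwc_w_high` : `w j_d = j_{dqq}`, `w j_{dq} = j_{dq}`,
  `w j_{dqq} = j_d` for `d ∣ M`, as elements of `F`;
* **`s36cwc_emb_w`** : `μ_ζ (ψ̂ (w x)) = kronRot ζ (μ_{ζ^(q-1)} (ψ̂ x))`
  (the expansion of `w x` at the middle cusp is the rotated expansion of `x` at the conjugate
  middle cusp);
* **`s36cwc_hwcc`** : `x ∈ s36n2VC ↔ w x ∈ s36n2VC` (generic, with `D : S36NoData …`);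
* **`s36cwc_hwcc_conc`** : the same for `V = s36i1V M hq hA hqM hζ ιC h`, component `S36Comp.c`
  = the hypothesis `hwcc` of `s36cu_hpts` (`S36/PtsCusp.lean`); `s36cwc_hwcc_conc'` is the form
  with `w` as a ring equivalence.
-/

set_option autoImplicit false
set_option linter.unusedSectionVars false
set_option linter.unusedVariables false
set_option linter.style.haveILetI false

noncomputable section

namespace Fermat.Agent.S36

open ModularCurve Fermat.Agent.INJ Fermat.Agent.UNIP Fermat.Agent.AL Fermat.Agent.ES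
open Fermat.Agent.STB

/-! ### A. The ring-homomorphism identity -/

section Hom

variable {E K : Type*} [Field E] [Field K] (ψ : E →+* K) (ιC : E →+* ℂ)
  {q M : ℕ} [NeZero q] [NeZero M] [NeZero (M * q)] [NeZero (M * q * q)]
  (hq : q.Prime) (hqM : ¬ q ∣ M) {ζ : Kˣ}

/-- `ψ̂ j_e = j_e` -/
theorem s36cwc_coeffHom_gen {N : ℕ} [NeZero N] (e : ℕ) [NeZero e] (he : e ∣ N) :
    mgaCoeffHom ψ N ⟨qExpand E e (jqModC E), jqModCd_mem_full E N he⟩ =
      ⟨qExpand K e (jqModC K), jqModCd_mem_full K N he⟩ := by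
  apply Subtype.ext
  show coeffMap ψ (qExpand E e (jqModC E)) = qExpand K e (jqModC K)
  have := coeffMap_jqNModC ψ e
  rwa [jqNModC, jqNModC] at this

include hq hqM in
theorem s36cwc_dvd_low {d : ℕ} (hd : d ∣ M) : d ∣ M * q * q :=
  (hd.mul_right q).mul_right q

include hq hqM in
theorem s36cwc_dvd_mid {d : ℕ} (hd : d ∣ M) : d * q ∣ M * q * q :=
  (Nat.mul_dvd_mul_right hd q).mul_right q

include hq hqM in
theorem s36cwc_dvd_high {d : ℕ} (hd : d ∣ M) : d * q * q ∣ M * q * q :=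
  Nat.mul_dvd_mul_right (Nat.mul_dvd_mul_right hd q) q

/-- `w j_d = j_{dqq}` for `d ∣ M` -/
theorem s36cwc_w_low (d : ℕ) [NeZero d] [NeZero (d * q * q)] (hd : d ∣ M) :
    s36n2W E ιC hq hqM ⟨qExpand E d (jqModC E),
        jqModCd_mem_full E (M * q * q) (s36cwc_dvd_low hq hqM hd)⟩ =
      ⟨qExpand E (d * q * q) (jqModC E),
        jqModCd_mem_full E (M * q * q) (s36cwc_dvd_high hq hqM hd)⟩ := by
  apply Subtype.ext
  have h1 := s36n2W_base E ιC hq hqM (jqModCd_mem_full E M hd)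
  refine h1.trans ?_
  show qExpand E q (qExpand E q (qExpand E d (jqModC E))) = qExpand E (d * q * q) (jqModC E)
  rw [qExpand_qExpand, qExpand_qExpand]
  exact qExpand_congr (by ring) _

/-- `w j_{dq} = j_{dq}` for `d ∣ M` -/
theorem s36cwc_w_mid (d : ℕ) [NeZero d] [NeZero (d * q)] (hd : d ∣ M) :
    s36n2W E ιC hq hqM ⟨qExpand E (d * q) (jqModC E),
        jqModCd_mem_full E (M * q * q) (s36cwc_dvd_mid hq hqM hd)⟩ =
      ⟨qExpand E (d * q) (jqModC E),
        jqModCd_mem_full E (M * q * q) (s36cwc_dvd_mid hq hqM hd)⟩ := by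
  have e1 : qExpand E (d * q) (jqModC E) = qExpand E q (qExpand E d (jqModC E)) := by
    rw [qExpand_qExpand]
    exact qExpand_congr (mul_comm d q) _
  have h1 := s36n2W_mid E ιC hq hqM (jqModCd_mem_full E M hd)
  have e2 : (⟨qExpand E (d * q) (jqModC E),
      jqModCd_mem_full E (M * q * q) (s36cwc_dvd_mid hq hqM hd)⟩ :
      modularFunctionFieldFullC E (M * q * q)) =
      ⟨qExpand E q (qExpand E d (jqModC E)),
        alq_mem_of_mem_lower E (al_qExpand_mem E (jqModCd_mem_full E M hd))⟩ :=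
    Subtype.ext e1
  rw [e2]
  exact Subtype.ext h1

/-- `w j_{dqq} = j_d` for `d ∣ M` -/
theorem s36cwc_w_high (d : ℕ) [NeZero d] [NeZero (d * q * q)] (hd : d ∣ M) :
    s36n2W E ιC hq hqM ⟨qExpand E (d * q * q) (jqModC E),
        jqModCd_mem_full E (M * q * q) (s36cwc_dvd_high hq hqM hd)⟩ =
      ⟨qExpand E d (jqModC E),
        jqModCd_mem_full E (M * q * q) (s36cwc_dvd_low hq hqM hd)⟩ := by
  have e1 : qExpand E (d * q * q) (jqModC E) =
      qExpand E q (qExpand E q (qExpand E d (jqModC E))) := by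
    rw [qExpand_qExpand, qExpand_qExpand]
    exact qExpand_congr (by ring) _
  have h1 := s36n2W_qExpand_sq E ιC hq hqM (jqModCd_mem_full E M hd)
  have e2 : (⟨qExpand E (d * q * q) (jqModC E),
      jqModCd_mem_full E (M * q * q) (s36cwc_dvd_high hq hqM hd)⟩ :
      modularFunctionFieldFullC E (M * q * q)) =
      ⟨qExpand E q (qExpand E q (qExpand E d (jqModC E))),
        alq_qExpand_mem E (al_qExpand_mem E (jqModCd_mem_full E M hd))⟩ :=
    Subtype.ext e1
  rw [e2]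
  exact Subtype.ext h1

/-- **The expansion of `w x` at the middle cusp**:
`μ_ζ (ψ̂ (w x)) = (μ_{ζ^(q-1)} (ψ̂ x))(ζ Q)`. -/
theorem s36cwc_emb_w (h : S36MidEmb K q M ζ) (h' : S36MidEmb K q M (ζ ^ (q - 1)))
    (hζq : ζ ^ q = 1) (x : modularFunctionFieldFullC E (M * q * q)) :
    h.emb (mgaCoeffHom ψ (M * q * q) (s36n2W E ιC hq hqM x)) =
      kronRot ζ (h'.emb (mgaCoeffHom ψ (M * q * q) x)) := by
  set φ₁ : modularFunctionFieldFullC E (M * q * q) →+* LaurentSeries K :=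
    h.emb.toRingHom.comp ((mgaCoeffHom ψ (M * q * q)).comp
      (s36n2W E ιC hq hqM).toRingEquiv.toRingHom) with hφ₁
  set φ₂ : modularFunctionFieldFullC E (M * q * q) →+* LaurentSeries K :=
    (kronRot ζ).comp (h'.emb.toRingHom.comp (mgaCoeffHom ψ (M * q * q))) with hφ₂
  have hq1 : ζ * ζ ^ (q - 1) = 1 := by
    rw [← pow_succ', Nat.sub_add_cancel hq.one_le, hζq]
  have key : φ₁ = φ₂ := by
    apply al_ringHom_ext E (M * q * q)
    · intro c
      show h.emb (mgaCoeffHom ψ (M * q * q) (s36n2W E ιC hq hqM (algebraMap E _ c))) =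
        kronRot ζ (h'.emb (mgaCoeffHom ψ (M * q * q) (algebraMap E _ c)))
      rw [AlgEquiv.commutes, mgaCoeffHom_algebraMap, h.emb.commutes, h'.emb.commutes,
        s36mid_kronRot_algebraMap]
    · intro e _ he
      show h.emb (mgaCoeffHom ψ (M * q * q) (s36n2W E ιC hq hqM
          ⟨qExpand E e (jqModC E), jqModCd_mem_full E (M * q * q) he⟩)) =
        kronRot ζ (h'.emb (mgaCoeffHom ψ (M * q * q)
          ⟨qExpand E e (jqModC E), jqModCd_mem_full E (M * q * q) he⟩))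
      rcases s36mid_divisor_cases hq he with he' | ⟨d, hd, rfl⟩
      · rcases al_divisor_cases hq hqM he' with hd | ⟨d, hd, rfl⟩
        · -- `e ∣ M`
          haveI : NeZero (e * q * q) :=
            ⟨Nat.mul_ne_zero (Nat.mul_ne_zero (NeZero.ne e) (NeZero.ne q)) (NeZero.ne q)⟩
          rw [s36cwc_w_low ιC hq hqM e hd,
            s36cwc_coeffHom_gen ψ (e * q * q) (s36cwc_dvd_high hq hqM hd),
            s36cwc_coeffHom_gen ψ e he, h.emb_high e hd, h'.emb_low e he']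
        · -- `e = d q`, `d ∣ M`
          have hd0 : d ≠ 0 := fun h0 => NeZero.ne M (by rw [h0, zero_dvd_iff] at hd; exact hd)
          haveI : NeZero d := ⟨hd0⟩
          rw [s36cwc_w_mid ιC hq hqM d hd,
            s36cwc_coeffHom_gen ψ (d * q) (s36cwc_dvd_mid hq hqM hd), h.emb_low (d * q) he',
            h'.emb_low (d * q) he']
          have e1 : qExpand K (d * q) (jqModC K) = qExpand K q (qExpand K d (jqModC K)) := by
            rw [qExpand_qExpand]
            exact qExpand_congr (mul_comm d q) _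
          rw [e1, qExpand_kronRot_pow, hζq, kronRot_one]
      · -- `e = d q²`, `d ∣ M`
        have hd0 : d ≠ 0 := fun h0 => NeZero.ne M (by rw [h0, zero_dvd_iff] at hd; exact hd)
        haveI : NeZero d := ⟨hd0⟩
        rw [s36cwc_w_high ιC hq hqM d hd,
          s36cwc_coeffHom_gen ψ d (s36cwc_dvd_low hq hqM hd),
          s36cwc_coeffHom_gen ψ (d * q * q) (s36cwc_dvd_high hq hqM hd),
          h.emb_low d (hd.mul_right q), h'.emb_high d hd, kronRot_kronRot, hq1, kronRot_one]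
  exact congrArg (fun φ : modularFunctionFieldFullC E (M * q * q) →+* LaurentSeries K => φ x) key

end Hom

/-! ### B. `V_c` is stable under `w_{q²}` -/

section Stable

variable {A E k A' E' k' : Type*} [CommRing A] [IsDomain A] [Field E] [Algebra A E]
  [IsFractionRing A E] [Field k] [CommRing A'] [Field E'] [Field k']
  {r : A →+* k} {π : A} {ι' : A' →+* E'} {r' : A' →+* k'} {π' : A'}
  (hB' : VtBase ι' r' π')
  (ψ : E →+* E') (ιC : E →+* ℂ)
  {q M : ℕ} [NeZero q] [NeZero M] [NeZero (M * q)] [NeZero (M * q * q)]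
  (hq : q.Prime) (hqM : ¬ q ∣ M)
  {ζ : E'ˣ} (h : S36MidEmb E' q M ζ) (z : A'ˣ) (hz : Units.map (ι' : A' →* E') z = ζ)

include hq in
theorem s36cwc_not_dvd : ¬ q ∣ q - 1 :=
  Nat.not_dvd_of_pos_of_lt (Nat.sub_pos_of_lt hq.one_lt) (Nat.sub_lt hq.pos Nat.one_pos)

include hq in
/-- membership in the Gauss ring of the two conjugate middle expansions -/
theorem s36cwc_gal_mem (D : S36NoData (algebraMap A E) r π ι' r' π' ψ q ζ)
    (h' : S36MidEmb E' q M (ζ ^ (q - 1))) (x : modularFunctionFieldFullC E (M * q * q)) :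
    h'.emb (mgaCoeffHom ψ (M * q * q) x) ∈ gaussRing ι' r' ↔
      h.emb (mgaCoeffHom ψ (M * q * q) x) ∈ gaussRing ι' r' := by
  by_cases hx : x = 0
  · subst hx
    rw [map_zero, map_zero, map_zero]
  · have hb1 : 1 ≤ q - 1 := Nat.sub_pos_of_lt hq.one_lt
    have hbq : q - 1 < q := Nat.sub_lt hq.pos Nat.one_pos
    have hgal := s36noVc_gal hq D h hb1 hbq h' hx
    unfold s36noVc at hgal
    rw [← s36noOrd_nonneg_iff D.hB₁ (s36no_mid_ne_zero h' hx)
        (s36no_frac_mid D.hB₁ hq (D.zeta_pow (q - 1)) h' _),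
      ← s36noOrd_nonneg_iff D.hB₁ (s36no_mid_ne_zero h hx)
        (s36no_frac_mid D.hB₁ hq D.zeta h _), hgal]

/-- **`hwcc`, generic form**: `V_c` is stable under the Atkin–Lehner involution `w_{q²}`. -/
theorem s36cwc_hwcc (D : S36NoData (algebraMap A E) r π ι' r' π' ψ q ζ) (ιK : E' →+* ℂ)
    (hζ : IsPrimitiveRoot (ζ : E') q) (x : modularFunctionFieldFullC E (M * q * q)) :
    x ∈ s36n2VC hB' ψ hq h z hz ↔ s36n2W E ιC hq hqM x ∈ s36n2VC hB' ψ hq h z hz := by
  have hζq : ζ ^ q = 1 := by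
    have h1 := s36nc_pow_q ζ hζ 1
    rwa [pow_one] at h1
  set h' : S36MidEmb E' q M (ζ ^ (q - 1)) :=
    s36ncMuK ιK hq hqM ζ hζ (s36cwc_not_dvd hq) with hh'
  have hrot : ∀ y : LaurentSeries E', kronRot ζ y ∈ gaussRing ι' r' ↔ y ∈ gaussRing ι' r' := by
    intro y
    have h1 := s36n2_kronRot_mem_iff (ι := ι') (r := r') z (x := y)
    rwa [hz] at h1
  rw [mem_s36n2VC, mem_s36n2VC, s36cwc_emb_w ψ ιC hq hqM h h' hζq x, hrot]
  exact (s36cwc_gal_mem ψ hq h D h' x).symm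

end Stable

/-! ### C. The concrete form -/

section Concrete

variable {q : ℕ} {A : ValuationSubring (AlgebraicClosure ℚ)} (M : ℕ) [NeZero M] [NeZero q]
  [IsDiscreteValuationRing ↥(beta0Ring A (beta0Field A))]
  {ζ : AlgebraicClosure ℚ}
  (hq : q.Prime) (hA : A.LiesOverPrime q) (hqM : ¬ q ∣ M) (hζ : IsPrimitiveRoot ζ q)
  (ιC : ↥(beta0Field A) →+* ℂ)
  (h : S36MidEmb ↥(s36n2bK A ζ) q M (s36i1ZK (A := A) hq hζ))

/-- **`hwcc` of `s36cu_hpts`** at `V = s36i1V`, `w = s36n2W`. -/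
theorem s36cwc_hwcc_conc (ιK : ↥(s36n2bK A ζ) →+* ℂ)
    (x : ↥(modularFunctionFieldFullC ↥(beta0Field A) (M * q * q))) :
    x ∈ s36i1V M hq hA hqM hζ ιC h S36Comp.c ↔
      s36n2W ↥(beta0Field A) ιC hq hqM x ∈ s36i1V M hq hA hqM hζ ιC h S36Comp.c :=
  s36cwc_hwcc (s36n2b_vtBase hq hA hζ)
    (IntermediateField.inclusion (s36n2b_le_K A ζ)).toRingHom ιC hq hqM h (s36i1Z hq hζ) rfl
    (s36nd_data hq hA hζ) ιK (s36i1ZK_isPrimitiveRoot hq hζ) x

/-- the same with `w` as a ring equivalence -/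
theorem s36cwc_hwcc_conc' (ιK : ↥(s36n2bK A ζ) →+* ℂ)
    (x : ↥(modularFunctionFieldFullC ↥(beta0Field A) (M * q * q))) :
    x ∈ s36i1V M hq hA hqM hζ ιC h S36Comp.c ↔
      (s36n2W ↥(beta0Field A) ιC hq hqM).toRingEquiv x ∈
        s36i1V M hq hA hqM hζ ιC h S36Comp.c :=
  s36cwc_hwcc_conc M hq hA hqM hζ ιC h ιK x

end Concrete

end Fermat.Agent.S36

end
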