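/-
S36 (Carayol at `q² ∥ M`), geometric clause, (I6)(a): the named statement `StmtS36PtsOne a`
(`S36/PtsPlan.lean`) from helper62's `stmtS36PtsOne_a_of` and helper80's `stmtS36GenJ_a`
(`S36/PtsCGenStmt.lean`).  (helper31)
-/
import Fermat.Agent.S36.PtsOneAB
import Fermat.Agent.S36.PtsCGenStmt

set_option autoImplicit false

namespace Fermat.Agent.S36

/-- **(I6)(a)**: the closed points of the chart `j` on `C_a` only. -/
theorem stmtS36PtsOne_a : StmtS36PtsOne S36Comp.a :=
  stmtS36PtsOne_a_of stmtS36GenJ_a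

end Fermat.Agent.S36
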