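import Fermat.Agent.S36.PtsMidStmt
import Fermat.Agent.S36.PtsCGen

/-!
# S36 / (I6)(b): `StmtS36PtsOne S36Comp.c` — PROVED (helper93)

The closed points of the chart `j` of level `M q²` lying on the component `C_c` (multiplicity
`q − 1`) only.

* **`stmtS36PtsOne_c : StmtS36PtsOne S36Comp.c`** : one of the six statements of
  `S36/PtsPlan.lean` (`stmtS36Pts_of`).  `Gen_c` (the branch `C_c` is regular at these points) is
  helper80's `s36cgen_c`: `Gen` from level `M` through (F1) and `RegChart`.

Ingredients: the abstract criterion `s36pm_ptInput` (`S36/PtsMid.lean`: `X ∈ O`,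
`(X ^ e / π) ^ n ≡ g` at `V_c` with `g ∈ Oˣ`, `e` = the multiplicity of `C_c`), its chart forms
(`S36/PtsMidChart.lean`, `S36/PtsMidInst.lean`), (b-UNIT) helper80 (`S36/PtsCUnit.lean`),
(b-CONG) helper57 (`S36/PtsCCongInst.lean`), the `θ`-identities helper31 (`S36/PtsCTheta.lean`),
(KR) helper98/helper99 (`S36/SmallKR.lean`), `hVloc` helper91 (`S36/N2LocMain.lean`).
-/

set_option autoImplicit false
set_option linter.style.haveILetI false
set_option linter.unusedSectionVars false
set_option linter.unusedVariables false
set_option linter.constructorNameAsVariable false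
set_option linter.style.longLine false

noncomputable section

namespace Fermat.Agent.S36

open ModularCurve AlgebraicCurve Fermat.Agent.INJ Fermat.Agent.UNIP Fermat.Agent.STB
  IntermediateField

/-- **(I6)(b)**: `S36PtInput` at the closed points of the chart `j` on `C_c` only. -/
theorem stmtS36PtsOne_c : StmtS36PtsOne S36Comp.c :=
  stmtS36PtsOne_c_of (fun M q _ _ hq hR A hA _ ζ hζ ιC ιK h 𝔫 hthr =>
    s36cgen_c M hq hA hR.1 hζ ιC h (s36so_rigid_h2 hR) (s36so_rigid_h3 hR) 𝔫 hthr)

end Fermat.Agent.S36
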