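import Fermat.Agent.S36.PtsTripleFinal
import Fermat.Agent.RT.K6.DLFConc

/-!
# S36 / (I6)(c): `StmtS36PtsTriple`, unconditional

`stmtS36PtsTriple_of_thin` (`S36/PtsTripleFinal.lean`, helper50) with its only input
`StmtS36ThinJ` discharged by `rtk6lfb0_thinAt_J` (`RT/K6/DLFConc.lean`, helper54).

* `stmtS36ThinJ`     : `StmtS36ThinJ`;
* **`stmtS36PtsTriple`** : `StmtS36PtsTriple` (`S36/PtsPlan.lean`).
-/

set_option autoImplicit false
set_option linter.style.haveILetI false
set_option linter.unusedSectionVars false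
set_option linter.unusedVariables false
set_option linter.style.longLine false
set_option linter.constructorNameAsVariable false
set_option synthInstance.maxHeartbeats 400000
set_option maxHeartbeats 1000000

noncomputable section

namespace Fermat.Agent.S36

open ModularCurve AlgebraicCurve Fermat.Agent.ES Fermat.Agent.ES.G2 Fermat.Agent.INJ
open Fermat.Agent.UNIP Fermat.Agent.STB Fermat.Agent.RT.K6 IntermediateField

/-- the thin nodes of the chart `j` of level `M q` (helper54 `rtk6lfb0_thinAt_J`) -/
theorem stmtS36ThinJ : StmtS36ThinJ := by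
  intro M q _ _ hq hR A hA _ ιC 𝔫' _ _
  haveI : NeZero (M * q) := ⟨Nat.mul_ne_zero (NeZero.ne M) (NeZero.ne q)⟩
  exact rtk6lfb0_thinAt_J (beta0Ring_irreducible_q hq hA) ιC hq hR.1 hA hR.2 𝔫'

/-- **(I6)(c)**: `S36PtInput` at the triple points of the chart `j`. -/
theorem stmtS36PtsTriple : StmtS36PtsTriple :=
  stmtS36PtsTriple_of_thin stmtS36ThinJ

end Fermat.Agent.S36

end
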