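/-
S36 (Carayol at `q² ∥ M`), geometric clause, (I6): `StmtS36Pts` from the two statements
`StmtS36PtsUniq` (helper19) and `StmtS36PtsInf` (helper84); the four other pieces of
`stmtS36Pts_of` (`S36/PtsPlan.lean`) are proved:
`stmtS36PtsOne_a` (helper62, helper98, helper80), `stmtS36PtsOne_b` (helper33),
`stmtS36PtsOne_c` (helper93, helper57, helper80), `stmtS36PtsTriple` (helper37, helper50,
helper6, helper19, helper54, helper99).  (helper31)
-/
import Fermat.Agent.S36.PtsPlan
import Fermat.Agent.S36.PtsGenJ
import Fermat.Agent.S36.PtsBGen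
import Fermat.Agent.S36.PtsOneC
import Fermat.Agent.S36.PtsTripleDone

set_option autoImplicit false

namespace Fermat.Agent.S36

/-- **(I6)** from the uniqueness statement and the points at infinity. -/
theorem stmtS36Pts_of_uniq_inf (hU : StmtS36PtsUniq) (hinf : StmtS36PtsInf) : StmtS36Pts :=
  stmtS36Pts_of hU stmtS36PtsOne_a stmtS36PtsOne_b stmtS36PtsOne_c stmtS36PtsTriple hinf

end Fermat.Agent.S36
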