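import Fermat.Agent.S36.PtsPlan
import Fermat.Agent.S36.NgLocInst
import Fermat.Agent.UNIP.MGVertLocMain

/-!
# S36 / (I6)(e-U) (helper19): `StmtS36PtsUniq`

The chart maps `gα = s36nglCmAlpha`, `gβ = s36nglCmBeta` of `S36/NgLocInst.lean` at the concrete
base `A₀ = beta0Ring A (beta0Field A)`, and the uniqueness statements (Uα), (Uβ) from
`s36ngl_Ualpha`, `s36ngl_Ubeta` with `hWloc = mgv_hVloc₁` ((SS1) at level `M q`:
`mgcb_reg_SS1_J`, `stb_regChart_conc_J`).

* `s36pu_hWloc` : `V′_c` is the localisation of the chart `j` of level `M q`;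
* `stmtS36PtsUniq : StmtS36PtsUniq`.
-/

set_option autoImplicit false
set_option linter.style.haveILetI false
set_option linter.unusedSectionVars false
set_option linter.unusedVariables false
set_option linter.constructorNameAsVariable false

noncomputable section

namespace Fermat.Agent.S36

open ModularCurve AlgebraicCurve Fermat.Agent.ES Fermat.Agent.ES.G2 Fermat.Agent.INJ
open Fermat.Agent.UNIP Fermat.Agent.STB IntermediateField

section U

variable {q : ℕ} {A : ValuationSubring (AlgebraicClosure ℚ)} (M : ℕ) [NeZero M] [NeZero q]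
  [IsDiscreteValuationRing ↥(beta0Ring A (beta0Field A))]
  {ζ : AlgebraicClosure ℚ}
  (hq : q.Prime) (hA : A.LiesOverPrime q) (hqM : ¬ q ∣ M) (hζ : IsPrimitiveRoot ζ q)
  (ιC : ↥(beta0Field A) →+* ℂ)
  (h : S36MidEmb ↥(s36n2bK A ζ) q M (s36i1ZK (A := A) hq hζ))

/-- `hWloc` of `s36ngl_Ualpha` / `s36ngl_alpha`: the vertical valuation rings of level `M q` are
localisations of the chart `j`. -/
theorem s36pu_hWloc (h2 : q = 2 → 3 ∣ M) (h3 : q = 3 → 2 ∣ M) (c : Bool)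
    (y : ↥(modularFunctionFieldFullC ↥(beta0Field A) (M * q)))
    (hy : y ∈ vtFam (vtBase_residue (beta0Ring_irreducible_q hq hA)) ιC hq hqM c) :
    ∃ b s : ↥(modularFunctionFieldFullC ↥(beta0Field A) (M * q)),
      IsIntegral ↥(Algebra.adjoin ↥(beta0Ring A (beta0Field A))
        ({bgJ ↥(beta0Field A) (M * q)} : Set ↥(modularFunctionFieldFullC ↥(beta0Field A) (M * q))))
        b ∧
      IsIntegral ↥(Algebra.adjoin ↥(beta0Ring A (beta0Field A))
        ({bgJ ↥(beta0Field A) (M * q)} : Set ↥(modularFunctionFieldFullC ↥(beta0Field A) (M * q))))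
        s ∧
      s ∉ (vtFam (vtBase_residue (beta0Ring_irreducible_q hq hA)) ιC hq hqM c).nonunits ∧
      s * y = b := by
  have hπ : Irreducible ((q : ℕ) : ↥(beta0Ring A (beta0Field A))) :=
    beta0Ring_irreducible_q hq hA
  exact mgv_hVloc₁ hπ ιC hq hqM hA
    (mgcb_reg_SS1_J (K₀ := beta0Field A) hπ ιC hq hqM hA
      (stb_regChart_conc_J M hq hA le_rfl hπ hqM h2 h3)) c y hy

end U

set_option maxHeartbeats 1600000 in
/-- **(I6)(e-U)** -/
theorem stmtS36PtsUniq : StmtS36PtsUniq := by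
  intro M q _ _ hq hR A hA _ ζ hζ ιC ιK h
  have hπ : Irreducible ((q : ℕ) : ↥(beta0Ring A (beta0Field A))) :=
    beta0Ring_irreducible_q hq hA
  obtain ⟨κ, -, hκ⟩ := s36n2b_compat (A := A) (ζ := ζ) hq hA
  have h2 := s36so_rigid_h2 hR
  have h3 := s36so_rigid_h3 hR
  refine ⟨s36nglCmAlpha ↥(beta0Ring A (beta0Field A)) ↥(beta0Field A) M q,
    s36nglCmBeta ↥(beta0Ring A (beta0Field A)) ↥(beta0Field A) M q hq,
    s36nglCmAlpha_isIntegral, s36nglCmBeta_isIntegral hq, fun _ => rfl, fun _ => rfl, ?_, ?_⟩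
  · intro 𝔫 h𝔫 hthr 𝔫₂ h₂ e
    haveI := h𝔫
    exact s36ngl_Ualpha (vtBase_residue hπ) (s36n2b_vtBase hq hA hζ)
      (IntermediateField.inclusion (s36n2b_le_K A ζ)).toRingHom ιC hq hR.1 h
      (s36i1Z hq hζ) rfl hκ (s36n2bZeta_isPrimitiveRoot hq hζ) (s36n2b_residue_zeta hq hA hζ)
      (fun y hy => s36pu_hWloc M hq hA hR.1 ιC h2 h3 false y hy) 𝔫 hthr 𝔫₂ h₂ e
  · intro 𝔫 h𝔫 hthr 𝔫₂ h₂ e
    haveI := h𝔫
    exact s36ngl_Ubeta (vtBase_residue hπ) (s36n2b_vtBase hq hA hζ)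
      (IntermediateField.inclusion (s36n2b_le_K A ζ)).toRingHom ιC hq hR.1 h
      (s36i1Z hq hζ) rfl hκ (s36n2bZeta_isPrimitiveRoot hq hζ) (s36n2b_residue_zeta hq hA hζ)
      (fun y hy => s36pu_hWloc M hq hA hR.1 ιC h2 h3 true y hy) 𝔫 hthr 𝔫₂ h₂ e

end Fermat.Agent.S36
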