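/-
S36 (I6) closed: `stmtS36Pts : StmtS36Pts`, from the uniqueness part (`stmtS36PtsUniq`,
`S36/PtsUniq.lean`) and the part at j = infinity (`stmtS36PtsInf`, `S36/PtsCuspInst.lean`) through
`stmtS36Pts_of_uniq_inf` (`S36/PtsStmt.lean`).
-/
import Fermat.Agent.S36.PtsStmt
import Fermat.Agent.S36.PtsUniq
import Fermat.Agent.S36.PtsCuspInst

set_option autoImplicit false

namespace Fermat.Agent.S36

/-- **(I6)**: the pointwise statement `StmtS36Pts`, unconditionally. -/
theorem stmtS36Pts : StmtS36Pts :=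
  stmtS36Pts_of_uniq_inf stmtS36PtsUniq stmtS36PtsInf

end Fermat.Agent.S36
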