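import Fermat.Agent.S36.N2PtsInput

/-!
# S36 / (I6)(b): the points of a component of multiplicity `e` (the middle component `C_c`)

Setting of `S36/N2PtsInput.lean`: chart `B`, prime `𝔫`, `O = ls_localSubring 𝔫 = B_𝔫`, vertical
valuations `V : κ → ValuationSubring F`, globals (KR), (RAM).  Only ONE component `V c₁` passes
through `𝔫`, and `ϖ` is NOT a uniformizer of `V c₁` (`e = q − 1` for the middle component).

* `s36pm_mem` : `X ∈ O`, `(X ^ e / ϖ) ^ n ≡ g` at `V c₁` for a unit `g` of `O`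
  ⇒ `X ^ e / ϖ ∈ O` (local (KR));
* `s36pm_isUnit` : … and it is a unit of `O`;
* `s36pm_exists_mul` : `∃ Y ∈ O, X * Y = ϖ`;
* `s36pm_unif` : `X` is a uniformizer of `V c₁` (from (RAM) with exponent `e` at `c₁`);
* **`s36pm_ptInput`** : `S36PtInput` at such a point.

For `C_c`: `X = Π_t = t(Q^{q²}) − t`, `e = q − 1`, `n = 6`, the reduction of `Π_t^{q−1}/q` is
`−(θ t̄)^{q−1}` (N2-theta) and `(θ t̄)^{6(q−1)}` is the reduction of a unit of `O`.
-/

set_option autoImplicit false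
set_option linter.unusedSectionVars false
set_option linter.unusedVariables false
set_option linter.style.haveILetI false

namespace Fermat.Agent.S36

open Fermat.Agent.UNIP Fermat.Agent.STB AlgebraicCurve

section Mid

variable {E F F₁ : Type*} [Field E] [Field F] [Field F₁] [Algebra E F]
  {B : Type*} [CommRing B] [Algebra B F]
variable (hinj : Function.Injective (algebraMap B F)) (𝔫 : Ideal B) [h𝔫 : 𝔫.IsPrime]
variable {κ : Type*} [Finite κ]

/-- a valuation-ring element whose power is congruent to a unit is a unit -/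
theorem s36pm_val_eq_one (V : ValuationSubring F) {w g : F} {n : ℕ} (hn : 0 < n)
    (hg : V.valuation g = 1) (h : w ^ n - g ∈ V.nonunits) : V.valuation w = 1 := by
  have h1 : V.valuation (w ^ n - g) < 1 := (ValuationSubring.mem_nonunits_iff V).1 h
  have h2 : V.valuation (w ^ n) = 1 := by
    have e : w ^ n = (w ^ n - g) + g := by ring
    rw [e]
    have := Valuation.map_add_eq_of_lt_right V.valuation (x := w ^ n - g) (y := g)
      (by rw [hg]; exact h1)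
    rw [this, hg]
  rw [map_pow] at h2
  exact (pow_eq_one_iff_of_nonneg zero_le' hn.ne').mp h2

include hinj in
/-- an element of `O` congruent at a branch through `𝔫` to a unit of `O` is a unit -/
theorem s36pm_isUnit_of_congr (V : ValuationSubring F)
    (hBV : ∀ b : B, algebraMap B F b ∈ V)
    (hthr : ∀ b : B, algebraMap B F b ∈ V.nonunits → b ∈ 𝔫)
    (a g : ls_localSubring (F := F) 𝔫) (hg : IsUnit g)
    (h : (a : F) - (g : F) ∈ V.nonunits) : IsUnit a := by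
  haveI := ls_localSubring_isLocalRing (F := F) hinj 𝔫
  have hOV := stb_gc_le 𝔫 V hBV hthr
  have hnu : ¬ IsUnit (a - g) := by
    intro hu
    have := stb_val_unit (ls_localSubring (F := F) 𝔫) V hOV hu
    have h1 : V.valuation ((a : F) - (g : F)) < 1 := (ValuationSubring.mem_nonunits_iff V).1 h
    exact absurd this (ne_of_lt h1)
  have e : a = g + (a - g) := by ring
  rw [e]
  by_contra hna
  have hm : g + (a - g) ∈ IsLocalRing.maximalIdeal (ls_localSubring (F := F) 𝔫) :=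
    (IsLocalRing.mem_maximalIdeal _).2 hna
  have hm2 : a - g ∈ IsLocalRing.maximalIdeal (ls_localSubring (F := F) 𝔫) :=
    (IsLocalRing.mem_maximalIdeal _).2 hnu
  have hm3 : g ∈ IsLocalRing.maximalIdeal (ls_localSubring (F := F) 𝔫) := by
    have := Ideal.sub_mem _ hm hm2
    simpa using this
  exact (IsLocalRing.mem_maximalIdeal _).1 hm3 hg

variable (V : κ → ValuationSubring F) (hBV : ∀ c (b : B), algebraMap B F b ∈ V c) (ϖ : B)
  (hKR : ∀ x : F, (∃ b : B, algebraMap B F ϖ * x = algebraMap B F b) → (∀ c, x ∈ V c) →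
    ∃ b : B, x = algebraMap B F b)
  (Q : ℕ) (hram : ∀ c (x : F), x ∈ (V c).nonunits → ∃ z ∈ V c, x ^ Q = algebraMap B F ϖ * z)
  (hϖ0 : algebraMap B F ϖ ≠ 0)
  (c₁ : κ) (hc₁ : ∀ b : B, algebraMap B F b ∈ (V c₁).nonunits → b ∈ 𝔫)
  (honly : ∀ c, (∀ b : B, algebraMap B F b ∈ (V c).nonunits → b ∈ 𝔫) → c = c₁)
  (X g : ls_localSubring (F := F) 𝔫) (e n : ℕ) (hn : 0 < n) (hg : IsUnit g)
  (hcong : ((X : F) ^ e / algebraMap B F ϖ) ^ n - (g : F) ∈ (V c₁).nonunits)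

include hinj hBV hKR hram hc₁ honly hn hg hcong in
/-- `X ^ e / ϖ ∈ O` -/
theorem s36pm_mem : (X : F) ^ e / algebraMap B F ϖ ∈ ls_localSubring (F := F) 𝔫 := by
  haveI := ls_localSubring_isLocalRing (F := F) hinj 𝔫
  have hOV := stb_gc_le 𝔫 (V c₁) (hBV c₁) hc₁
  have hvg : (V c₁).valuation (g : F) = 1 :=
    stb_val_unit (ls_localSubring (F := F) 𝔫) (V c₁) hOV hg
  have hv := s36pm_val_eq_one (V c₁) hn hvg hcong
  refine s36n2p_KRloc 𝔫 V hBV ϖ hKR Q hram _ ?_ ?_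
  · by_cases h0 : algebraMap B F ϖ = 0
    · rw [h0, zero_mul]; exact (ls_localSubring (F := F) 𝔫).zero_mem
    · rw [mul_div_cancel₀ _ h0]
      exact (X ^ e).2
  · intro c hc
    rw [honly c hc]
    exact (V c₁).valuation_le_one_iff _ |>.1 (le_of_eq hv)

include hinj hBV hKR hram hc₁ honly hn hg hcong in
/-- `X ^ e / ϖ` is a unit of `O` -/
theorem s36pm_isUnit :
    IsUnit (⟨(X : F) ^ e / algebraMap B F ϖ,
      s36pm_mem hinj 𝔫 V hBV ϖ hKR Q hram c₁ hc₁ honly X g e n hn hg hcong⟩ :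
        ls_localSubring (F := F) 𝔫) := by
  haveI := ls_localSubring_isLocalRing (F := F) hinj 𝔫
  set w : ls_localSubring (F := F) 𝔫 := ⟨(X : F) ^ e / algebraMap B F ϖ,
      s36pm_mem hinj 𝔫 V hBV ϖ hKR Q hram c₁ hc₁ honly X g e n hn hg hcong⟩ with hw
  have h1 : IsUnit (w ^ n) :=
    s36pm_isUnit_of_congr hinj 𝔫 (V c₁) (hBV c₁) hc₁ (w ^ n) g hg hcong
  exact (isUnit_pow_iff hn.ne').1 h1

include hinj hBV hKR hram hϖ0 hc₁ honly hn hg hcong in
/-- `X ∣ ϖ` in `O` (for `e ≥ 1`) -/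
theorem s36pm_exists_mul (he : 0 < e) :
    ∃ Y : ls_localSubring (F := F) 𝔫, X * Y = s36n2pToLoc (F := F) 𝔫 ϖ := by
  obtain ⟨u, hu⟩ := s36pm_isUnit hinj 𝔫 V hBV ϖ hKR Q hram c₁ hc₁ honly X g e n hn hg hcong
  refine ⟨X ^ (e - 1) * (↑u⁻¹ : ls_localSubring (F := F) 𝔫), ?_⟩
  have h1 : X * X ^ (e - 1) = X ^ e := by
    rw [← pow_succ']
    congr 1
    omega
  have h2 : X ^ e = s36n2pToLoc (F := F) 𝔫 ϖ * (u : ls_localSubring (F := F) 𝔫) := by
    apply Subtype.ext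
    rw [hu]
    show (X : F) ^ e = algebraMap B F ϖ * ((X : F) ^ e / algebraMap B F ϖ)
    rw [mul_div_cancel₀ _ hϖ0]
  rw [← mul_assoc, h1, h2, mul_assoc, Units.mul_inv, mul_one]

include hinj hBV hKR hram hϖ0 hc₁ honly hn hg hcong in
/-- `X` is a uniformizer of `V c₁`, if `x ∈ 𝔪(V c₁) ⇒ x ^ e ∈ ϖ V c₁` -/
theorem s36pm_unif (he : 0 < e)
    (hramc : ∀ x : F, x ∈ (V c₁).nonunits → ∃ z ∈ V c₁, x ^ e = algebraMap B F ϖ * z)
    (x : F) (hx : x ∈ (V c₁).nonunits) : ∃ z ∈ V c₁, x = (X : F) * z := by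
  haveI := ls_localSubring_isLocalRing (F := F) hinj 𝔫
  have hOV := stb_gc_le 𝔫 (V c₁) (hBV c₁) hc₁
  have hu := s36pm_isUnit hinj 𝔫 V hBV ϖ hKR Q hram c₁ hc₁ honly X g e n hn hg hcong
  have hvw : (V c₁).valuation ((X : F) ^ e / algebraMap B F ϖ) = 1 :=
    stb_val_unit (ls_localSubring (F := F) 𝔫) (V c₁) hOV hu
  have hX0 : (X : F) ≠ 0 := by
    intro h0
    rw [h0, zero_pow he.ne', zero_div, map_zero] at hvw
    exact zero_ne_one hvw
  obtain ⟨z, hz, hxz⟩ := hramc x hx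
  refine ⟨x / (X : F), ?_, by field_simp⟩
  rw [← (V c₁).valuation_le_one_iff]
  have h1 : (V c₁).valuation (x / (X : F)) ^ e ≤ 1 := by
    rw [← map_pow, div_pow, hxz]
    have e1 : algebraMap B F ϖ * z / (X : F) ^ e = z / ((X : F) ^ e / algebraMap B F ϖ) := by
      field_simp
    rw [e1, map_div₀, hvw, div_one]
    exact (V c₁).valuation_le_one_iff _ |>.2 hz
  by_contra hlt
  push Not at hlt
  exact absurd h1 (not_le.2 (one_lt_pow₀ hlt he.ne'))

include hinj hBV hKR hram hϖ0 hc₁ honly hn hg hcong in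
/-- `X ∈ 𝔪(V c₁)` -/
theorem s36pm_mem_nonunits (he : 0 < e) (hϖV : algebraMap B F ϖ ∈ (V c₁).nonunits) :
    (X : F) ∈ (V c₁).nonunits := by
  haveI := ls_localSubring_isLocalRing (F := F) hinj 𝔫
  have hOV := stb_gc_le 𝔫 (V c₁) (hBV c₁) hc₁
  have hu := s36pm_isUnit hinj 𝔫 V hBV ϖ hKR Q hram c₁ hc₁ honly X g e n hn hg hcong
  have hvw : (V c₁).valuation ((X : F) ^ e / algebraMap B F ϖ) = 1 :=
    stb_val_unit (ls_localSubring (F := F) 𝔫) (V c₁) hOV hu
  rw [ValuationSubring.mem_nonunits_iff]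
  have h1 : (V c₁).valuation (algebraMap B F ϖ) < 1 :=
    (ValuationSubring.mem_nonunits_iff (V c₁)).1 hϖV
  have h2 : (V c₁).valuation (X : F) ^ e = (V c₁).valuation (algebraMap B F ϖ) := by
    rw [map_div₀, div_eq_one_iff_eq] at hvw
    · rw [← map_pow]; exact hvw
    · rw [ne_eq, map_eq_zero]; exact hϖ0
  by_contra hge
  push Not at hge
  have := one_le_pow₀ (n := e) hge
  rw [h2] at this
  exact absurd h1 (not_lt.2 this)

include hinj hBV hKR hram hϖ0 hc₁ honly hn hg hcong in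
/-- **`S36PtInput` at a point of a component of multiplicity `e`.** -/
theorem s36pm_ptInput [IsNoetherianRing B]
    (hϖV : ∀ c, algebraMap B F ϖ ∈ (V c).nonunits)
    (hE : ∀ x : E, ∃ (n : ℕ) (a : B),
      algebraMap E F x * algebraMap B F ϖ ^ n = algebraMap B F a)
    (hfrac : ∀ x : F, ∃ a b : B, b ≠ 0 ∧ x * algebraMap B F b = algebraMap B F a)
    (hVloc : ∀ x : F, x ∈ V c₁ → ∃ b s : B, algebraMap B F s ∉ (V c₁).nonunits ∧
      algebraMap B F s * x = algebraMap B F b)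
    {Y₀ : B} (hY₀ : Y₀ ∈ 𝔫) (hgen : S36n2pGen 𝔫 (V c₁) Y₀)
    (he : 0 < e)
    (hramc : ∀ x : F, x ∈ (V c₁).nonunits → ∃ z ∈ V c₁, x ^ e = algebraMap B F ϖ * z)
    (Hor : F → Prop) (m : ℕ) (hHor : ∀ y, Hor y → ∀ P : Place E F, (m : ℤ) ∣ P.ord y)
    (α β : F₁ →+* F) (Nα Nβ : F →* F₁) (ζ₁ : F₁) (ca cb cc : κ) :
    @S36PtInput F₁ F _ _ κ Hor m α β Nα Nβ ζ₁ V ca cb cc (ls_localSubring (F := F) 𝔫)
      (ls_localSubring_isLocalRing hinj 𝔫)
      (fun c => ∀ b : B, algebraMap B F b ∈ (V c).nonunits → b ∈ 𝔫) := by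
  obtain ⟨Y, hXY⟩ := s36pm_exists_mul hinj 𝔫 V hBV ϖ hKR Q hram hϖ0 c₁ hc₁ honly X g e n hn hg
    hcong he
  exact s36n2p_ptInput_one (E := E) hinj 𝔫 V hBV ϖ hKR Q hram hϖ0 hϖV hE hfrac c₁ hc₁ honly
    hVloc hY₀ hgen X Y hXY
    (s36pm_mem_nonunits hinj 𝔫 V hBV ϖ hKR Q hram hϖ0 c₁ hc₁ honly X g e n hn hg hcong he
      (hϖV c₁))
    (s36pm_unif hinj 𝔫 V hBV ϖ hKR Q hram hϖ0 c₁ hc₁ honly X g e n hn hg hcong he hramc)
    Hor m hHor α β Nα Nβ ζ₁ ca cb cc

end Mid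

end Fermat.Agent.S36
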