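import Fermat.Agent.S36.PtsMidInst
import Fermat.Agent.S36.PtsCCongInst
import Fermat.Agent.S36.SmallKR

/-!
# S36 / (I6)(b): the points of `C_c` only — FINAL form of `hPc` (helper93)

`V = s36i1V M hq hA hqM hζ ιC h`, chart `j = bgJ E₀ (M*q*q)`, `π = (q : A₀)`, rigid level
(`q ≠ 2 → 4 ∣ M`, `q = 2 → 9 ∣ M`).

* **`s36pm_hPc`** : `hPc` of `s36pf_h1` (`S36/PtsFinal.lean`): `S36PtInput` at every closed point
  of the chart `j` through which only `V_c` passes.  (KR) = helper98's `s36sk_hKR`, (b-UNIT) =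
  helper80's `s36cun_main_odd/_nine`, (b-CONG) = helper57's `s36cgc_cong_t4/_t9'`.
  The ONLY input left is `Gen_c`: the branch `C_c` is regular at `𝔫`, with a local parameter
  `Y₀ ∈ 𝔫` (from level `M`).
-/

set_option autoImplicit false
set_option linter.style.haveILetI false
set_option linter.unusedSectionVars false
set_option linter.unusedVariables false
set_option linter.constructorNameAsVariable false
set_option linter.style.longLine false

noncomputable section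

namespace Fermat.Agent.S36

open ModularCurve AlgebraicCurve Fermat.Agent.INJ Fermat.Agent.UNIP Fermat.Agent.STB
  IntermediateField

section Final

variable {q : ℕ} {A : ValuationSubring (AlgebraicClosure ℚ)} (M : ℕ) [NeZero M] [NeZero q]
  [IsDiscreteValuationRing ↥(beta0Ring A (beta0Field A))]
  {ζ : AlgebraicClosure ℚ}
  (hq : q.Prime) (hA : A.LiesOverPrime q) (hqM : ¬ q ∣ M) (hζ : IsPrimitiveRoot ζ q)
  (ιC : ↥(beta0Field A) →+* ℂ)
  (h : S36MidEmb ↥(s36n2bK A ζ) q M (s36i1ZK (A := A) hq hζ))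

/-- **`hPc`**: `S36PtInput` at the closed points of the chart `j` on `C_c` only, from `Gen_c`. -/
theorem s36pm_hPc {F₁ : Type*} [Field F₁] (hR4 : q ≠ 2 → 4 ∣ M) (hR9 : q = 2 → 9 ∣ M)
    (ιK : ↥(s36n2bK A ζ) →+* ℂ)
    (hGenC : ∀ 𝔫 : AtPt (F := ↥(modularFunctionFieldFullC ↥(beta0Field A) (M * q * q)))
        ((q : ℕ) : ↥(beta0Ring A (beta0Field A))) (bgJ ↥(beta0Field A) (M * q * q)),
      atThrough 𝔫 (s36i1V M hq hA hqM hζ ιC h S36Comp.c) →
      ∃ Y₀ : ↥(zchClosure (A₀ := ↥(beta0Ring A (beta0Field A)))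
        ({bgJ ↥(beta0Field A) (M * q * q)} :
          Set ↥(modularFunctionFieldFullC ↥(beta0Field A) (M * q * q)))),
        Y₀ ∈ 𝔫.1 ∧ S36n2pGen 𝔫.1 (s36i1V M hq hA hqM hζ ιC h S36Comp.c) Y₀)
    (Hor : ↥(modularFunctionFieldFullC ↥(beta0Field A) (M * q * q)) → Prop) (m : ℕ)
    (hHor : ∀ y, Hor y → ∀ P : Place ↥(beta0Field A)
      ↥(modularFunctionFieldFullC ↥(beta0Field A) (M * q * q)), (m : ℤ) ∣ P.ord y)
    (α β : F₁ →+* ↥(modularFunctionFieldFullC ↥(beta0Field A) (M * q * q)))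
    (Nα Nβ : ↥(modularFunctionFieldFullC ↥(beta0Field A) (M * q * q)) →* F₁) (ζ₁ : F₁)
    (𝔫 : AtPt (F := ↥(modularFunctionFieldFullC ↥(beta0Field A) (M * q * q)))
      ((q : ℕ) : ↥(beta0Ring A (beta0Field A))) (bgJ ↥(beta0Field A) (M * q * q)))
    (hc : atThrough 𝔫 (s36i1V M hq hA hqM hζ ιC h S36Comp.c))
    (honly : ∀ c, atThrough 𝔫 (s36i1V M hq hA hqM hζ ιC h c) → c = S36Comp.c) :
    @S36PtInput F₁ ↥(modularFunctionFieldFullC ↥(beta0Field A) (M * q * q)) _ _ S36Comp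
      Hor m α β Nα Nβ ζ₁
      (s36i1V M hq hA hqM hζ ιC h) S36Comp.a S36Comp.b S36Comp.c
      (atO ((q : ℕ) : ↥(beta0Ring A (beta0Field A))) (bgJ ↥(beta0Field A) (M * q * q))
        (Sum.inl 𝔫))
      (stb_atO_isLocalRing (π := ((q : ℕ) : ↥(beta0Ring A (beta0Field A))))
        (bgJ ↥(beta0Field A) (M * q * q)) (Sum.inl 𝔫))
      (atInc ((q : ℕ) : ↥(beta0Ring A (beta0Field A))) (bgJ ↥(beta0Field A) (M * q * q))
        (s36i1V M hq hA hqM hζ ιC h) (Sum.inl 𝔫)) := by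
  have h2 : q = 2 → 3 ∣ M := fun e => (show 3 ∣ 9 by norm_num).trans (hR9 e)
  have h3 : q = 3 → 2 ∣ M := fun e =>
    (show 2 ∣ 4 by norm_num).trans (hR4 (by rw [e]; norm_num))
  have hKR := s36sk_hKR M hq hA hqM hζ ιC h h2 h3 ιK
  have hT := s36cgc_T_mem M hq hA hqM hζ ιC h
  by_cases hq2 : q = 2
  · have h9 : 9 ∣ M := hR9 hq2
    have hq3 : q ≠ 3 := by rw [hq2]; norm_num
    exact s36pm_hPc_nine M hq hA hqM hζ ιC h h9 hq3 hKR hT
      (s36cgc_cong_t9' M hq hA hqM hζ ιC h h9) 𝔫 hc honly (hGenC 𝔫 hc)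
      Hor m hHor α β Nα Nβ ζ₁
  · have h4 : 4 ∣ M := hR4 hq2
    exact s36pm_hPc_odd M hq hA hqM hζ ιC h h4 hq2 hKR hT
      (s36cgc_cong_t4 M hq hA hqM hζ ιC h h4) 𝔫 hc honly (hGenC 𝔫 hc)
      Hor m hHor α β Nα Nβ ζ₁

end Final

end Fermat.Agent.S36
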