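import Fermat.Agent.S36.PtsMidChart
import Fermat.Agent.S36.PtsCUnit
import Fermat.Agent.S36.N2LocMain
import Fermat.Agent.S36.N2ValI1
import Fermat.Agent.S36.TopSetting
import Fermat.Agent.INJ.BGFin
import Fermat.Agent.INJ.ChartFinite

/-!
# S36 / (I6)(b): the points of `C_c` only, concrete setting (helper93)

Setting of `S36/TopB.lean`, `S36/SmallPart.lean`: `A₀ = beta0Ring A (beta0Field A)`,
`E₀ = beta0Field A`, `F = F_{Mqq}(E₀)`, `t = bgJ E₀ (M*q*q)`, `π = q`,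
`V = s36i1V M hq hA hqM hζ ιC h`.

* `s36pm_hVloc` : `hVloc` for `V` on the chart `j` (helper91's `s36n2l_hVloc₁`);
* `s36pm_hramc` : `x ∈ 𝔪(V c) ⇒ x ^ (q − 1) ∈ q V c`;
* **`s36pm_hPc_of`** : `S36PtInput` at a closed point `𝔫` of the chart `j` through which only
  `V_c` passes, from (KR), the regular branch `Gen_c`, and `X, g` with
  `(X ^ (q − 1) / q) ^ n ≡ g` at `V_c`, `g` a unit of `B_𝔫` (pieces b-UNIT, b-CONG);
* **`s36pm_hPc_odd`** (`4 ∣ M`, `q ≠ 2`), **`s36pm_hPc_nine`** (`9 ∣ M`, `q ≠ 3`) : the same with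
  `X, g` those of `S36/PtsCElts.lean` and (b-UNIT) discharged (`S36/PtsCUnit.lean`); the inputs
  left are (KR), `Gen_c`, `T ∈ V_c` and the congruence (b-CONG).
-/

set_option autoImplicit false
set_option linter.style.haveILetI false
set_option linter.unusedSectionVars false
set_option linter.unusedVariables false
set_option linter.constructorNameAsVariable false
set_option linter.style.longLine false

noncomputable section

namespace Fermat.Agent.S36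

open ModularCurve AlgebraicCurve Fermat.Agent.INJ Fermat.Agent.UNIP Fermat.Agent.STB
  IntermediateField

section Inst

variable {q : ℕ} {A : ValuationSubring (AlgebraicClosure ℚ)} (M : ℕ) [NeZero M] [NeZero q]
  [IsDiscreteValuationRing ↥(beta0Ring A (beta0Field A))]
  {ζ : AlgebraicClosure ℚ}
  (hq : q.Prime) (hA : A.LiesOverPrime q) (hqM : ¬ q ∣ M) (hζ : IsPrimitiveRoot ζ q)
  (ιC : ↥(beta0Field A) →+* ℂ)
  (h : S36MidEmb ↥(s36n2bK A ζ) q M (s36i1ZK (A := A) hq hζ))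

/-- `x ∈ 𝔪(V c) ⇒ x ^ (q − 1) ∈ q V c` -/
theorem s36pm_hramc (c : S36Comp)
    (x : ↥(modularFunctionFieldFullC ↥(beta0Field A) (M * q * q)))
    (hx : x ∈ (s36i1V M hq hA hqM hζ ιC h c).nonunits) :
    ∃ z ∈ s36i1V M hq hA hqM hζ ιC h c, x ^ (q - 1) =
      algebraMap ↥(beta0Ring A (beta0Field A))
        ↥(modularFunctionFieldFullC ↥(beta0Field A) (M * q * q))
        ((q : ℕ) : ↥(beta0Ring A (beta0Field A))) * z :=
  s36i1_hram (vtBase_residue (beta0Ring_irreducible_q hq hA)) (s36n2b_vtBase hq hA hζ)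
    (IntermediateField.inclusion (s36n2b_le_K A ζ)).toRingHom ιC hq hqM h (s36i1Z hq hζ) rfl
    (s36i1c_ram hq hA hζ) (Nat.sub_pos_of_lt hq.one_lt) le_rfl c x hx

/-- **hVloc** on the chart `j`, from (KR) -/
theorem s36pm_hVloc
    (hKR : ∀ x : ↥(modularFunctionFieldFullC ↥(beta0Field A) (M * q * q)),
      IsIntegral ↥(Algebra.adjoin ↥(beta0Ring A (beta0Field A))
          {bgJ ↥(beta0Field A) (M * q * q)})
        (algebraMap ↥(beta0Ring A (beta0Field A))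
          ↥(modularFunctionFieldFullC ↥(beta0Field A) (M * q * q))
          ((q : ℕ) : ↥(beta0Ring A (beta0Field A))) * x) →
      (∀ c, x ∈ s36i1V M hq hA hqM hζ ιC h c) →
        IsIntegral ↥(Algebra.adjoin ↥(beta0Ring A (beta0Field A))
          {bgJ ↥(beta0Field A) (M * q * q)}) x)
    (c : S36Comp) (x : ↥(modularFunctionFieldFullC ↥(beta0Field A) (M * q * q)))
    (hx : x ∈ s36i1V M hq hA hqM hζ ιC h c) :
    ∃ b s : ↥(modularFunctionFieldFullC ↥(beta0Field A) (M * q * q)),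
      IsIntegral ↥(Algebra.adjoin ↥(beta0Ring A (beta0Field A))
        {bgJ ↥(beta0Field A) (M * q * q)}) b ∧
      IsIntegral ↥(Algebra.adjoin ↥(beta0Ring A (beta0Field A))
        {bgJ ↥(beta0Field A) (M * q * q)}) s ∧
      s ∉ (s36i1V M hq hA hqM hζ ιC h c).nonunits ∧ s * x = b := by
  haveI : Fact q.Prime := ⟨hq⟩
  haveI : CharP (IsLocalRing.ResidueField ↥(beta0Ring A (beta0Field A))) q := mgvl_charP hq hA
  haveI : CharP (IsLocalRing.ResidueField ↥(beta0Ring A (s36n2bK A ζ))) q := mgvl_charP hq hA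
  obtain ⟨κ, -, hκ⟩ := s36n2b_compat (A := A) (ζ := ζ) hq hA
  exact s36n2l_hVloc₁ (vtBase_residue (beta0Ring_irreducible_q hq hA)) (s36n2b_vtBase hq hA hζ)
    (IntermediateField.inclusion (s36n2b_le_K A ζ)).toRingHom ιC hq hqM h (s36i1Z hq hζ) rfl
    (beta0Ring_irreducible_q hq hA) hκ (s36n2b_residue_zeta hq hA hζ) hKR c x hx

/-- **(I6)(b), general form**: `S36PtInput` at a closed point of the chart `j` through which
only `V_c` passes. -/
theorem s36pm_hPc_of {F₁ : Type*} [Field F₁]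
    (hKR : ∀ x : ↥(modularFunctionFieldFullC ↥(beta0Field A) (M * q * q)),
      IsIntegral ↥(Algebra.adjoin ↥(beta0Ring A (beta0Field A))
          {bgJ ↥(beta0Field A) (M * q * q)})
        (algebraMap ↥(beta0Ring A (beta0Field A))
          ↥(modularFunctionFieldFullC ↥(beta0Field A) (M * q * q))
          ((q : ℕ) : ↥(beta0Ring A (beta0Field A))) * x) →
      (∀ c, x ∈ s36i1V M hq hA hqM hζ ιC h c) →
        IsIntegral ↥(Algebra.adjoin ↥(beta0Ring A (beta0Field A))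
          {bgJ ↥(beta0Field A) (M * q * q)}) x)
    (𝔫 : AtPt (F := ↥(modularFunctionFieldFullC ↥(beta0Field A) (M * q * q)))
      ((q : ℕ) : ↥(beta0Ring A (beta0Field A))) (bgJ ↥(beta0Field A) (M * q * q)))
    (hc : atThrough 𝔫 (s36i1V M hq hA hqM hζ ιC h S36Comp.c))
    (honly : ∀ c, atThrough 𝔫 (s36i1V M hq hA hqM hζ ιC h c) → c = S36Comp.c)
    (hGen : ∃ Y₀ : ↥(zchClosure (A₀ := ↥(beta0Ring A (beta0Field A)))
        ({bgJ ↥(beta0Field A) (M * q * q)} :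
          Set ↥(modularFunctionFieldFullC ↥(beta0Field A) (M * q * q)))),
      Y₀ ∈ 𝔫.1 ∧ S36n2pGen 𝔫.1 (s36i1V M hq hA hqM hζ ιC h S36Comp.c) Y₀)
    {X g : ↥(modularFunctionFieldFullC ↥(beta0Field A) (M * q * q))}
    (hX : X ∈ atLoc 𝔫) (hg : g ∈ atLoc 𝔫) (hg' : g⁻¹ ∈ atLoc 𝔫) (hg0 : g ≠ 0)
    (n : ℕ) (hn : 0 < n)
    (hcong : (X ^ (q - 1) / algebraMap ↥(beta0Ring A (beta0Field A))
        ↥(modularFunctionFieldFullC ↥(beta0Field A) (M * q * q))
        ((q : ℕ) : ↥(beta0Ring A (beta0Field A)))) ^ n - g ∈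
      (s36i1V M hq hA hqM hζ ιC h S36Comp.c).nonunits)
    (Hor : ↥(modularFunctionFieldFullC ↥(beta0Field A) (M * q * q)) → Prop) (m : ℕ)
    (hHor : ∀ y, Hor y → ∀ P : Place ↥(beta0Field A)
      ↥(modularFunctionFieldFullC ↥(beta0Field A) (M * q * q)), (m : ℤ) ∣ P.ord y)
    (α β : F₁ →+* ↥(modularFunctionFieldFullC ↥(beta0Field A) (M * q * q)))
    (Nα Nβ : ↥(modularFunctionFieldFullC ↥(beta0Field A) (M * q * q)) →* F₁) (ζ₁ : F₁) :
    @S36PtInput F₁ ↥(modularFunctionFieldFullC ↥(beta0Field A) (M * q * q)) _ _ S36Comp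
      Hor m α β Nα Nβ ζ₁
      (s36i1V M hq hA hqM hζ ιC h) S36Comp.a S36Comp.b S36Comp.c
      (atO ((q : ℕ) : ↥(beta0Ring A (beta0Field A))) (bgJ ↥(beta0Field A) (M * q * q))
        (Sum.inl 𝔫))
      (stb_atO_isLocalRing (π := ((q : ℕ) : ↥(beta0Ring A (beta0Field A))))
        (bgJ ↥(beta0Field A) (M * q * q)) (Sum.inl 𝔫))
      (atInc ((q : ℕ) : ↥(beta0Ring A (beta0Field A))) (bgJ ↥(beta0Field A) (M * q * q))
        (s36i1V M hq hA hqM hζ ιC h) (Sum.inl 𝔫)) := by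
  haveI : FiniteDimensional (↥(beta0Field A))⟮bgJ ↥(beta0Field A) (M * q * q)⟯
      ↥(modularFunctionFieldFullC ↥(beta0Field A) (M * q * q)) :=
    bgFin_finiteDimensional_full ↥(beta0Field A) (M * q * q)
  haveI : IsNoetherianRing ↥(zchClosure (A₀ := ↥(beta0Ring A (beta0Field A)))
      ({bgJ ↥(beta0Field A) (M * q * q)} :
        Set ↥(modularFunctionFieldFullC ↥(beta0Field A) (M * q * q)))) :=
    chart_closure_isNoetherianRing (A₀ := ↥(beta0Ring A (beta0Field A)))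
      (E := ↥(beta0Field A)) (bgConst_transcendental_bgJ ↥(beta0Field A) (M * q * q))
  obtain ⟨Y₀, hY₀, hgen⟩ := hGen
  exact s36pm_atPt_inl (E := ↥(beta0Field A)) (beta0Ring_irreducible_q hq hA)
    (s36i1V M hq hA hqM hζ ιC h) (s36i1c_hBV₁ M hq hA hqM hζ ιC h)
    (s36i1c_hπV M hq hA hqM hζ ιC h) hKR (q ^ 1) (s36i1c_hram M hq hA hqM hζ ιC h)
    𝔫 S36Comp.c hc honly (s36pm_hVloc M hq hA hqM hζ ιC h hKR S36Comp.c) hY₀ hgen
    hX hg hg' hg0 (q - 1) n (Nat.sub_pos_of_lt hq.one_lt) hn hcong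
    (s36pm_hramc M hq hA hqM hζ ιC h S36Comp.c) Hor m hHor α β Nα Nβ ζ₁
    S36Comp.a S36Comp.b S36Comp.c

/-- **(I6)(b), `q ≠ 2`, `4 ∣ M`**: `S36PtInput` at a closed point of the chart `j` through which
only `V_c` passes, with `X = Π_{t₄}`, `g = G · T` (b-UNIT discharged).  Inputs left: (KR), `Gen_c`,
`T ∈ V_c`, and the congruence (b-CONG). -/
theorem s36pm_hPc_odd {F₁ : Type*} [Field F₁] (h4 : 4 ∣ M) (hq2 : q ≠ 2)
    (hKR : ∀ x : ↥(modularFunctionFieldFullC ↥(beta0Field A) (M * q * q)),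
      IsIntegral ↥(Algebra.adjoin ↥(beta0Ring A (beta0Field A))
          {bgJ ↥(beta0Field A) (M * q * q)})
        (algebraMap ↥(beta0Ring A (beta0Field A))
          ↥(modularFunctionFieldFullC ↥(beta0Field A) (M * q * q))
          ((q : ℕ) : ↥(beta0Ring A (beta0Field A))) * x) →
      (∀ c, x ∈ s36i1V M hq hA hqM hζ ιC h c) →
        IsIntegral ↥(Algebra.adjoin ↥(beta0Ring A (beta0Field A))
          {bgJ ↥(beta0Field A) (M * q * q)}) x)
    (hT : s36cunT ↥(beta0Field A) ιC M q ∈ s36i1V M hq hA hqM hζ ιC h S36Comp.c)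
    (hcong : (s36cunX4 ↥(beta0Field A) M q h4 ^ (q - 1) /
        algebraMap ↥(beta0Ring A (beta0Field A))
          ↥(modularFunctionFieldFullC ↥(beta0Field A) (M * q * q))
          ((q : ℕ) : ↥(beta0Ring A (beta0Field A)))) ^ 6 -
        s36cunG4 ↥(beta0Field A) M q h4 * s36cunT ↥(beta0Field A) ιC M q ∈
      (s36i1V M hq hA hqM hζ ιC h S36Comp.c).nonunits)
    (𝔫 : AtPt (F := ↥(modularFunctionFieldFullC ↥(beta0Field A) (M * q * q)))
      ((q : ℕ) : ↥(beta0Ring A (beta0Field A))) (bgJ ↥(beta0Field A) (M * q * q)))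
    (hc : atThrough 𝔫 (s36i1V M hq hA hqM hζ ιC h S36Comp.c))
    (honly : ∀ c, atThrough 𝔫 (s36i1V M hq hA hqM hζ ιC h c) → c = S36Comp.c)
    (hGen : ∃ Y₀ : ↥(zchClosure (A₀ := ↥(beta0Ring A (beta0Field A)))
        ({bgJ ↥(beta0Field A) (M * q * q)} :
          Set ↥(modularFunctionFieldFullC ↥(beta0Field A) (M * q * q)))),
      Y₀ ∈ 𝔫.1 ∧ S36n2pGen 𝔫.1 (s36i1V M hq hA hqM hζ ιC h S36Comp.c) Y₀)
    (Hor : ↥(modularFunctionFieldFullC ↥(beta0Field A) (M * q * q)) → Prop) (m : ℕ)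
    (hHor : ∀ y, Hor y → ∀ P : Place ↥(beta0Field A)
      ↥(modularFunctionFieldFullC ↥(beta0Field A) (M * q * q)), (m : ℤ) ∣ P.ord y)
    (α β : F₁ →+* ↥(modularFunctionFieldFullC ↥(beta0Field A) (M * q * q)))
    (Nα Nβ : ↥(modularFunctionFieldFullC ↥(beta0Field A) (M * q * q)) →* F₁) (ζ₁ : F₁) :
    @S36PtInput F₁ ↥(modularFunctionFieldFullC ↥(beta0Field A) (M * q * q)) _ _ S36Comp
      Hor m α β Nα Nβ ζ₁
      (s36i1V M hq hA hqM hζ ιC h) S36Comp.a S36Comp.b S36Comp.c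
      (atO ((q : ℕ) : ↥(beta0Ring A (beta0Field A))) (bgJ ↥(beta0Field A) (M * q * q))
        (Sum.inl 𝔫))
      (stb_atO_isLocalRing (π := ((q : ℕ) : ↥(beta0Ring A (beta0Field A))))
        (bgJ ↥(beta0Field A) (M * q * q)) (Sum.inl 𝔫))
      (atInc ((q : ℕ) : ↥(beta0Ring A (beta0Field A))) (bgJ ↥(beta0Field A) (M * q * q))
        (s36i1V M hq hA hqM hζ ιC h) (Sum.inl 𝔫)) := by
  obtain ⟨hX, hg, hg', hg0⟩ := s36cun_main_odd ιC hq 𝔫 (s36i1V M hq hA hqM hζ ιC h)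
    (s36i1c_hBV₁ M hq hA hqM hζ ιC h) hKR (q ^ 1) (s36i1c_hram M hq hA hqM hζ ιC h)
    (fun c hc' => by rw [honly c hc']; exact hT) h4 hq2
  exact s36pm_hPc_of M hq hA hqM hζ ιC h hKR 𝔫 hc honly hGen hX hg hg' hg0 6 (by norm_num)
    hcong Hor m hHor α β Nα Nβ ζ₁

/-- **(I6)(b), `q ≠ 3`, `9 ∣ M`** (used for `q = 2`): the same with `X = Π_{t₉}`,
`g = (D⁵)^(q−1) · T / (t₉³)^(q−1)`. -/
theorem s36pm_hPc_nine {F₁ : Type*} [Field F₁] (h9 : 9 ∣ M) (hq3 : q ≠ 3)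
    (hKR : ∀ x : ↥(modularFunctionFieldFullC ↥(beta0Field A) (M * q * q)),
      IsIntegral ↥(Algebra.adjoin ↥(beta0Ring A (beta0Field A))
          {bgJ ↥(beta0Field A) (M * q * q)})
        (algebraMap ↥(beta0Ring A (beta0Field A))
          ↥(modularFunctionFieldFullC ↥(beta0Field A) (M * q * q))
          ((q : ℕ) : ↥(beta0Ring A (beta0Field A))) * x) →
      (∀ c, x ∈ s36i1V M hq hA hqM hζ ιC h c) →
        IsIntegral ↥(Algebra.adjoin ↥(beta0Ring A (beta0Field A))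
          {bgJ ↥(beta0Field A) (M * q * q)}) x)
    (hT : s36cunT ↥(beta0Field A) ιC M q ∈ s36i1V M hq hA hqM hζ ιC h S36Comp.c)
    (hcong : (s36cunX9 ↥(beta0Field A) M q h9 ^ (q - 1) /
        algebraMap ↥(beta0Ring A (beta0Field A))
          ↥(modularFunctionFieldFullC ↥(beta0Field A) (M * q * q))
          ((q : ℕ) : ↥(beta0Ring A (beta0Field A)))) ^ 6 -
        ((s36cunT9 ↥(beta0Field A) M q h9 ^ 2 + 9 * s36cunT9 ↥(beta0Field A) M q h9 + 27) ^ 5) ^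
            (q - 1) * s36cunT ↥(beta0Field A) ιC M q /
          (s36cunT9 ↥(beta0Field A) M q h9 ^ 3) ^ (q - 1) ∈
      (s36i1V M hq hA hqM hζ ιC h S36Comp.c).nonunits)
    (𝔫 : AtPt (F := ↥(modularFunctionFieldFullC ↥(beta0Field A) (M * q * q)))
      ((q : ℕ) : ↥(beta0Ring A (beta0Field A))) (bgJ ↥(beta0Field A) (M * q * q)))
    (hc : atThrough 𝔫 (s36i1V M hq hA hqM hζ ιC h S36Comp.c))
    (honly : ∀ c, atThrough 𝔫 (s36i1V M hq hA hqM hζ ιC h c) → c = S36Comp.c)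
    (hGen : ∃ Y₀ : ↥(zchClosure (A₀ := ↥(beta0Ring A (beta0Field A)))
        ({bgJ ↥(beta0Field A) (M * q * q)} :
          Set ↥(modularFunctionFieldFullC ↥(beta0Field A) (M * q * q)))),
      Y₀ ∈ 𝔫.1 ∧ S36n2pGen 𝔫.1 (s36i1V M hq hA hqM hζ ιC h S36Comp.c) Y₀)
    (Hor : ↥(modularFunctionFieldFullC ↥(beta0Field A) (M * q * q)) → Prop) (m : ℕ)
    (hHor : ∀ y, Hor y → ∀ P : Place ↥(beta0Field A)
      ↥(modularFunctionFieldFullC ↥(beta0Field A) (M * q * q)), (m : ℤ) ∣ P.ord y)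
    (α β : F₁ →+* ↥(modularFunctionFieldFullC ↥(beta0Field A) (M * q * q)))
    (Nα Nβ : ↥(modularFunctionFieldFullC ↥(beta0Field A) (M * q * q)) →* F₁) (ζ₁ : F₁) :
    @S36PtInput F₁ ↥(modularFunctionFieldFullC ↥(beta0Field A) (M * q * q)) _ _ S36Comp
      Hor m α β Nα Nβ ζ₁
      (s36i1V M hq hA hqM hζ ιC h) S36Comp.a S36Comp.b S36Comp.c
      (atO ((q : ℕ) : ↥(beta0Ring A (beta0Field A))) (bgJ ↥(beta0Field A) (M * q * q))
        (Sum.inl 𝔫))
      (stb_atO_isLocalRing (π := ((q : ℕ) : ↥(beta0Ring A (beta0Field A))))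
        (bgJ ↥(beta0Field A) (M * q * q)) (Sum.inl 𝔫))
      (atInc ((q : ℕ) : ↥(beta0Ring A (beta0Field A))) (bgJ ↥(beta0Field A) (M * q * q))
        (s36i1V M hq hA hqM hζ ιC h) (Sum.inl 𝔫)) := by
  obtain ⟨hX, hg, hg', hg0⟩ := s36cun_main_nine ιC hq 𝔫 (s36i1V M hq hA hqM hζ ιC h)
    (s36i1c_hBV₁ M hq hA hqM hζ ιC h) hKR (q ^ 1) (s36i1c_hram M hq hA hqM hζ ιC h)
    (fun c hc' => by rw [honly c hc']; exact hT) h9 hq3
  exact s36pm_hPc_of M hq hA hqM hζ ιC h hKR 𝔫 hc honly hGen hX hg hg' hg0 6 (by norm_num)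
    hcong Hor m hHor α β Nα Nβ ζ₁

end Inst

end Fermat.Agent.S36
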