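import Fermat.Agent.S36.PtsMidFinal
import Fermat.Agent.S36.PtsOneAB

/-!
# S36 / (I6)(b): `StmtS36PtsOne S36Comp.c` from `Gen_c` (helper93)

* **`stmtS36PtsOne_c_of : StmtS36GenJ S36Comp.c → StmtS36PtsOne S36Comp.c`**
  (`StmtS36GenJ` : `S36/PtsOneAB.lean`, helper62; `StmtS36PtsOne` : `S36/PtsPlan.lean`, helper31).
-/

set_option autoImplicit false
set_option linter.style.haveILetI false
set_option linter.unusedSectionVars false
set_option linter.unusedVariables false
set_option linter.constructorNameAsVariable false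
set_option linter.style.longLine false

noncomputable section

namespace Fermat.Agent.S36

open ModularCurve AlgebraicCurve Fermat.Agent.INJ Fermat.Agent.UNIP Fermat.Agent.STB
  IntermediateField

/-- **(I6)(b)**: the closed points of the chart `j` on `C_c` only, from `Gen_c`. -/
theorem stmtS36PtsOne_c_of (hgen : StmtS36GenJ S36Comp.c) : StmtS36PtsOne S36Comp.c := by
  intro M q p _ _ hq hp hpq hp2 hR A hA _ ζ hζ ιC ιK h r ζm hζm 𝔫 hc honly
  exact s36pm_hPc M hq hA hR.1 hζ ιC h hR.2.1 hR.2.2 ιK (hgen M q hq hR A hA ζ hζ ιC ιK h)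
    (s36Hor ↥(beta0Field A) (p ^ r)) (p ^ r) (fun y hy => hy) _ _ _ _ _ 𝔫 hc honly

end Fermat.Agent.S36
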