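import Fermat.Agent.S36.N2PtsInput

/-!
# S36 / (I6)(c): the TRIPLE points, abstract assembly (helper37)

Setting of `S36/N2PtsInput.lean`: chart `B` (level `M q²`), prime `𝔫`, `O = ls_localSubring 𝔫`,
vertical valuations `V : κ → ValuationSubring F`, `κ = {ca, cb, cc}` all through `𝔫`.

Level `M`: a chart `C` with two embeddings `ga, gb : C →+* B` (`ga = ` inclusion, `gb = ββ`,
`s ↦ s(Q^{q²})`), the surjectivities `(F1)` (`B = ga C + 𝔭_a = ga C + 𝔭_c = gb C + 𝔭_b`, N2-ker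
(K2)), a regular point `𝔫 ∩ C = (π, s)` (UNIP `RegChart`), and the Frobenius congruences for an
(inverse) Frobenius lift `ψ₂ : C → C` and `Q₂ = q²`:

* **(Ka)** `gb c ≡ (ga (ψ₂ c)) ^ Q₂` at `V ca`,
* **(Kb)** `ga c ≡ (gb (ψ₂ c)) ^ Q₂` at `V cb`,
* **(Kc)** `gb c ≡ ga c` at `V cc`.

Then:
* `s36pt_comap_eq`   : `𝔫 ∩ ga C = 𝔫 ∩ gb C`;
* `s36pt_gen_a/_b/_c`: the three branches are regular, parameters `ga s`, `gb s`, `ga s`;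
* `s36pt_gen_ca`     : `Yca = ga s − gb s ∈ 𝔭_c` is a parameter of the branch `a`;
* `s36pt_gen_cb`     : `Ycb = gb s − ga s ∈ 𝔭_c` is a parameter of the branch `b`;
* `s36pt_gen_ab`     : `Yab = gb s − (ga (ψ₂ s)) ^ Q₂ ∈ 𝔭_a` is a parameter of the branch `b`;
* `s36pt_reg`        : `X, Y ∈ O` from the thin node of level `M q` transported by `β`;
* **`s36pt_ptInput`**: `S36PtInput` at the triple point.
-/

set_option autoImplicit false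
set_option linter.unusedSectionVars false
set_option linter.unusedVariables false
set_option linter.style.haveILetI false

namespace Fermat.Agent.S36

open Fermat.Agent.UNIP Fermat.Agent.STB AlgebraicCurve

section Params

variable {F : Type*} [Field F] {B : Type*} [CommRing B] [Algebra B F]
variable (𝔫 : Ideal B) [h𝔫 : 𝔫.IsPrime]
variable {C : Type*} [CommRing C] (ga gb : C →+* B)
variable (Va Vb Vc : ValuationSubring F)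

/-- `𝔫 ∩ ga C = 𝔫 ∩ gb C` at a point on the middle component. -/
theorem s36pt_comap_eq
    (hthrc : ∀ b : B, algebraMap B F b ∈ Vc.nonunits → b ∈ 𝔫)
    (hKc : ∀ c : C, algebraMap B F (gb c - ga c) ∈ Vc.nonunits) :
    𝔫.comap gb = 𝔫.comap ga := by
  ext c
  rw [Ideal.mem_comap, Ideal.mem_comap]
  have h1 : gb c - ga c ∈ 𝔫 := hthrc _ (hKc c)
  constructor
  · intro h
    have := 𝔫.sub_mem h h1
    rwa [sub_sub_cancel] at this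
  · intro h
    have := 𝔫.add_mem h1 h
    rwa [sub_add_cancel] at this

/-- the branch `a` is regular with parameter `ga s` -/
theorem s36pt_gen_a (hBVa : ∀ b : B, algebraMap B F b ∈ Va)
    (hthra : ∀ b : B, algebraMap B F b ∈ Va.nonunits → b ∈ 𝔫)
    (hFa : ∀ b : B, ∃ c : C, algebraMap B F (b - ga c) ∈ Va.nonunits)
    (π s : C) (hπa : algebraMap B F (ga π) ∈ Va.nonunits)
    (hgen : NodesLocGen (𝔫.comap ga) {π, s}) : S36n2pGen 𝔫 Va (ga s) :=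
  s36n2p_gen_of_lower ga 𝔫 Va hBVa hthra hFa π s hπa hgen

/-- the branch `b` is regular with parameter `gb s` -/
theorem s36pt_gen_b (hBVb : ∀ b : B, algebraMap B F b ∈ Vb)
    (hthrb : ∀ b : B, algebraMap B F b ∈ Vb.nonunits → b ∈ 𝔫)
    (hthrc : ∀ b : B, algebraMap B F b ∈ Vc.nonunits → b ∈ 𝔫)
    (hFb : ∀ b : B, ∃ c : C, algebraMap B F (b - gb c) ∈ Vb.nonunits)
    (hKc : ∀ c : C, algebraMap B F (gb c - ga c) ∈ Vc.nonunits)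
    (π s : C) (hπb : algebraMap B F (gb π) ∈ Vb.nonunits)
    (hgen : NodesLocGen (𝔫.comap ga) {π, s}) : S36n2pGen 𝔫 Vb (gb s) := by
  refine s36n2p_gen_of_lower gb 𝔫 Vb hBVb hthrb hFb π s hπb ?_
  rw [s36pt_comap_eq 𝔫 ga gb Vc hthrc hKc]
  exact hgen

/-- `ga (ψ₂ c) ∈ 𝔫` for `c ∈ 𝔫 ∩ C`. -/
theorem s36pt_psi_mem_a
    (hthra : ∀ b : B, algebraMap B F b ∈ Va.nonunits → b ∈ 𝔫)
    (hthrc : ∀ b : B, algebraMap B F b ∈ Vc.nonunits → b ∈ 𝔫)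
    (ψ₂ : C → C) {Q₂ : ℕ}
    (hKa : ∀ c : C, algebraMap B F (gb c - ga (ψ₂ c) ^ Q₂) ∈ Va.nonunits)
    (hKc : ∀ c : C, algebraMap B F (gb c - ga c) ∈ Vc.nonunits)
    (c : C) (hc : ga c ∈ 𝔫) : ga (ψ₂ c) ∈ 𝔫 := by
  have h1 : gb c ∈ 𝔫 := by
    have : c ∈ 𝔫.comap gb := by
      rw [s36pt_comap_eq 𝔫 ga gb Vc hthrc hKc]; exact hc
    exact this
  have h2 : gb c - ga (ψ₂ c) ^ Q₂ ∈ 𝔫 := hthra _ (hKa c)
  have h3 : ga (ψ₂ c) ^ Q₂ ∈ 𝔫 := by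
    have := 𝔫.sub_mem h1 h2
    rwa [sub_sub_cancel] at this
  exact h𝔫.mem_of_pow_mem _ h3

/-- `gb (ψ₂ c) ∈ 𝔫` for `c ∈ 𝔫 ∩ C`. -/
theorem s36pt_psi_mem_b
    (hthrb : ∀ b : B, algebraMap B F b ∈ Vb.nonunits → b ∈ 𝔫)
    (ψ₂ : C → C) {Q₂ : ℕ}
    (hKb : ∀ c : C, algebraMap B F (ga c - gb (ψ₂ c) ^ Q₂) ∈ Vb.nonunits)
    (c : C) (hc : ga c ∈ 𝔫) : gb (ψ₂ c) ∈ 𝔫 := by
  have h2 : ga c - gb (ψ₂ c) ^ Q₂ ∈ 𝔫 := hthrb _ (hKb c)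
  have h3 : gb (ψ₂ c) ^ Q₂ ∈ 𝔫 := by
    have := 𝔫.sub_mem hc h2
    rwa [sub_sub_cancel] at this
  exact h𝔫.mem_of_pow_mem _ h3

/-- **a–c**: `ga s − gb s ∈ 𝔭_c` is a local parameter of the branch `a`. -/
theorem s36pt_gen_ca (hBVa : ∀ b : B, algebraMap B F b ∈ Va)
    (hthra : ∀ b : B, algebraMap B F b ∈ Va.nonunits → b ∈ 𝔫)
    (hthrc : ∀ b : B, algebraMap B F b ∈ Vc.nonunits → b ∈ 𝔫)
    (ψ₂ : C → C) {Q₂ : ℕ} (hQ₂ : 2 ≤ Q₂)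
    (hKa : ∀ c : C, algebraMap B F (gb c - ga (ψ₂ c) ^ Q₂) ∈ Va.nonunits)
    (hKc : ∀ c : C, algebraMap B F (gb c - ga c) ∈ Vc.nonunits)
    {s : C} (hs : ga s ∈ 𝔫) (hgena : S36n2pGen 𝔫 Va (ga s)) :
    S36n2pGen 𝔫 Va (ga s - gb s) := by
  refine s36n2p_gen_change 𝔫 Va hBVa hs
    (s36pt_psi_mem_a 𝔫 ga gb Va Vc hthra hthrc ψ₂ hKa hKc s hs) hQ₂ ?_ hgena
  have e : ga s - gb s - (ga s - ga (ψ₂ s) ^ Q₂) = -(gb s - ga (ψ₂ s) ^ Q₂) := by ring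
  rw [e, map_neg]
  exact Va.nonunits.neg_mem (hKa s)

/-- **c–b**: `gb s − ga s ∈ 𝔭_c` is a local parameter of the branch `b`. -/
theorem s36pt_gen_cb (hBVb : ∀ b : B, algebraMap B F b ∈ Vb)
    (hthrb : ∀ b : B, algebraMap B F b ∈ Vb.nonunits → b ∈ 𝔫)
    (hthrc : ∀ b : B, algebraMap B F b ∈ Vc.nonunits → b ∈ 𝔫)
    (ψ₂ : C → C) {Q₂ : ℕ} (hQ₂ : 2 ≤ Q₂)
    (hKb : ∀ c : C, algebraMap B F (ga c - gb (ψ₂ c) ^ Q₂) ∈ Vb.nonunits)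
    (hKc : ∀ c : C, algebraMap B F (gb c - ga c) ∈ Vc.nonunits)
    {s : C} (hs : ga s ∈ 𝔫) (hgenb : S36n2pGen 𝔫 Vb (gb s)) :
    S36n2pGen 𝔫 Vb (gb s - ga s) := by
  have hsb : gb s ∈ 𝔫 := by
    have : s ∈ 𝔫.comap gb := by
      rw [s36pt_comap_eq 𝔫 ga gb Vc hthrc hKc]; exact hs
    exact this
  refine s36n2p_gen_change 𝔫 Vb hBVb hsb
    (s36pt_psi_mem_b 𝔫 ga gb Vb hthrb ψ₂ hKb s hs) hQ₂ ?_ hgenb
  have e : gb s - ga s - (gb s - gb (ψ₂ s) ^ Q₂) = -(ga s - gb (ψ₂ s) ^ Q₂) := by ring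
  rw [e, map_neg]
  exact Vb.nonunits.neg_mem (hKb s)

/-- **a–b**: `gb s − (ga (ψ₂ s)) ^ Q₂ ∈ 𝔭_a` is a local parameter of the branch `b`. -/
theorem s36pt_gen_ab (hBVb : ∀ b : B, algebraMap B F b ∈ Vb)
    (hthra : ∀ b : B, algebraMap B F b ∈ Va.nonunits → b ∈ 𝔫)
    (hthrb : ∀ b : B, algebraMap B F b ∈ Vb.nonunits → b ∈ 𝔫)
    (hthrc : ∀ b : B, algebraMap B F b ∈ Vc.nonunits → b ∈ 𝔫)
    (ψ₂ : C → C) {Q₂ : ℕ} (hQ₂ : 2 ≤ Q₂)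
    (hKa : ∀ c : C, algebraMap B F (gb c - ga (ψ₂ c) ^ Q₂) ∈ Va.nonunits)
    (hKb : ∀ c : C, algebraMap B F (ga c - gb (ψ₂ c) ^ Q₂) ∈ Vb.nonunits)
    (hKc : ∀ c : C, algebraMap B F (gb c - ga c) ∈ Vc.nonunits)
    {s : C} (hs : ga s ∈ 𝔫) (hgenb : S36n2pGen 𝔫 Vb (gb s)) :
    S36n2pGen 𝔫 Vb (gb s - ga (ψ₂ s) ^ Q₂) := by
  have hsb : gb s ∈ 𝔫 := by
    have : s ∈ 𝔫.comap gb := by
      rw [s36pt_comap_eq 𝔫 ga gb Vc hthrc hKc]; exact hs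
    exact this
  have hψa : ga (ψ₂ s) ∈ 𝔫 := s36pt_psi_mem_a 𝔫 ga gb Va Vc hthra hthrc ψ₂ hKa hKc s hs
  have hψψb : gb (ψ₂ (ψ₂ s)) ∈ 𝔫 := s36pt_psi_mem_b 𝔫 ga gb Vb hthrb ψ₂ hKb (ψ₂ s) hψa
  -- `(ga (ψ₂ s)) ^ Q₂ ≡ (gb (ψ₂ (ψ₂ s))) ^ (Q₂ * Q₂)` at `Vb`
  have hcong : algebraMap B F (ga (ψ₂ s) ^ Q₂ - gb (ψ₂ (ψ₂ s)) ^ (Q₂ * Q₂)) ∈ Vb.nonunits := by
    have h1 := hKb (ψ₂ s)
    obtain ⟨d, hd⟩ := sub_dvd_pow_sub_pow (ga (ψ₂ s)) (gb (ψ₂ (ψ₂ s)) ^ Q₂) Q₂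
    have h2 : ga (ψ₂ s) ^ Q₂ - gb (ψ₂ (ψ₂ s)) ^ (Q₂ * Q₂) =
        (ga (ψ₂ s) - gb (ψ₂ (ψ₂ s)) ^ Q₂) * d := by
      rw [← hd, ← pow_mul]
    rw [h2, map_mul, mul_comm]
    exact pwi_mul_mem_nonunits Vb (hBVb _) h1
  refine s36n2p_gen_change 𝔫 Vb hBVb hsb hψψb
    (show 2 ≤ Q₂ * Q₂ from le_trans hQ₂ (Nat.le_mul_of_pos_right _ (by omega))) ?_ hgenb
  have e : gb s - ga (ψ₂ s) ^ Q₂ - (gb s - gb (ψ₂ (ψ₂ s)) ^ (Q₂ * Q₂)) =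
      -(ga (ψ₂ s) ^ Q₂ - gb (ψ₂ (ψ₂ s)) ^ (Q₂ * Q₂)) := by ring
  rw [e, map_neg]
  exact Vb.nonunits.neg_mem hcong

end Params

section Reg

variable {F F₁ : Type*} [Field F] [Field F₁] {B : Type*} [CommRing B] [Algebra B F]
  {B' : Type*} [CommRing B'] [Algebra B' F₁]
variable (hinj : Function.Injective (algebraMap B F)) (𝔫 : Ideal B) [h𝔫 : 𝔫.IsPrime]

include hinj in
/-- **REG through the branch `a` at a triple point**: the thin node `u ϖ' = X' Y''` of the level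
below (`X'` a generator of `𝔭′_∞` at `𝔫′ = β⁻¹ 𝔫`, a unit at `V′_0`), transported by `β`. -/
theorem s36pt_reg (β : F₁ →+* F) (βB : B' →+* B)
    (hβ : ∀ b', algebraMap B F (βB b') = β (algebraMap B' F₁ b'))
    (Va Vb Vc : ValuationSubring F) (Winf W0 : ValuationSubring F₁)
    (hBVa : ∀ b : B, algebraMap B F b ∈ Va)
    (hthra : ∀ b : B, algebraMap B F b ∈ Va.nonunits → b ∈ 𝔫)
    (hβinf : ∀ y, y ∈ Winf.nonunits → β y ∈ Va.nonunits)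
    (hβ0b : ∀ y, y ∈ W0 → β y ∈ Vb) (hβ0c : ∀ y, y ∈ W0 → β y ∈ Vc)
    (ϖ' : B') (ϖ : B) (hϖ : βB ϖ' = ϖ)
    (X' Y'' u : B') (hu : βB u ∉ 𝔫) (huπ : u * ϖ' = X' * Y'')
    (hX'inf : algebraMap B' F₁ X' ∈ Winf.nonunits)
    (hX'0 : (algebraMap B' F₁ X')⁻¹ ∈ W0)
    (hUa : ∀ x ∈ Va.nonunits, ∃ z ∈ Va, x = algebraMap B F ϖ * z) :
    ∃ X Y : ls_localSubring (F := F) 𝔫, X * Y = s36n2pToLoc (F := F) 𝔫 ϖ ∧
      (X : F) ∈ Va.nonunits ∧ (∀ x ∈ Va.nonunits, ∃ z ∈ Va, x = (X : F) * z) ∧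
      (X : F)⁻¹ ∈ Vb ∧ (X : F)⁻¹ ∈ Vc := by
  have hu0 : algebraMap B F (βB u) ≠ 0 := stb_gc_algebraMap_ne_zero hinj 𝔫 hu
  have hYmem : algebraMap B F (βB Y'') / algebraMap B F (βB u) ∈ ls_localSubring (F := F) 𝔫 :=
    ⟨βB Y'', βB u, hu, by field_simp⟩
  have hXY : algebraMap B F (βB X') * (algebraMap B F (βB Y'') / algebraMap B F (βB u)) =
      algebraMap B F ϖ := by
    have h1 : algebraMap B F (βB u) * algebraMap B F ϖ =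
        algebraMap B F (βB X') * algebraMap B F (βB Y'') := by
      rw [← hϖ, ← map_mul, ← map_mul, ← map_mul, ← map_mul, huπ]
    rw [mul_div_assoc', div_eq_iff hu0, ← h1, mul_comm]
  have hOVa := stb_gc_le 𝔫 Va hBVa hthra
  refine ⟨s36n2pToLoc (F := F) 𝔫 (βB X'), ⟨_, hYmem⟩, Subtype.ext hXY, ?_, ?_, ?_, ?_⟩
  · show algebraMap B F (βB X') ∈ Va.nonunits
    rw [hβ]; exact hβinf _ hX'inf
  · intro x hx
    obtain ⟨z, hz, hxz⟩ := hUa x hx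
    refine ⟨(algebraMap B F (βB Y'') / algebraMap B F (βB u)) * z,
      Va.mul_mem _ _ (hOVa _ hYmem) hz, ?_⟩
    show x = algebraMap B F (βB X') * _
    rw [← mul_assoc, hXY, hxz]
  · show (algebraMap B F (βB X'))⁻¹ ∈ Vb
    rw [hβ, ← map_inv₀]; exact hβ0b _ hX'0
  · show (algebraMap B F (βB X'))⁻¹ ∈ Vc
    rw [hβ, ← map_inv₀]; exact hβ0c _ hX'0

end Reg

section Input

variable {E F F₁ : Type*} [Field E] [Field F] [Field F₁] [Algebra E F]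
  {B : Type*} [CommRing B] [Algebra B F]
variable (hinj : Function.Injective (algebraMap B F)) (𝔫 : Ideal B) [h𝔫 : 𝔫.IsPrime]
variable {κ : Type*} [Finite κ]

include hinj in
/-- **`S36PtInput` at a TRIPLE point**, from the level-`M` chart `C` (two embeddings, (F1),
a regular point, the Frobenius congruences), the element `X` (thin node of level `M q`,
`s36pt_reg`) and the packages `NgLoc`. -/
theorem s36pt_ptInput [IsNoetherianRing B]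
    (V : κ → ValuationSubring F) (hBV : ∀ c (b : B), algebraMap B F b ∈ V c) (ϖ : B)
    (hKR : ∀ x : F, (∃ b : B, algebraMap B F ϖ * x = algebraMap B F b) → (∀ c, x ∈ V c) →
      ∃ b : B, x = algebraMap B F b)
    (Q : ℕ) (hram : ∀ c (x : F), x ∈ (V c).nonunits → ∃ z ∈ V c, x ^ Q = algebraMap B F ϖ * z)
    (hϖ0 : algebraMap B F ϖ ≠ 0) (hϖV : ∀ c, algebraMap B F ϖ ∈ (V c).nonunits)
    (hE : ∀ e : E, ∃ (n : ℕ) (a : B),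
      algebraMap E F e * algebraMap B F ϖ ^ n = algebraMap B F a)
    (hfrac : ∀ x : F, ∃ a b : B, b ≠ 0 ∧ x * algebraMap B F b = algebraMap B F a)
    (ca cb cc : κ) (hκ : ∀ c, c = ca ∨ c = cb ∨ c = cc)
    (hthr : ∀ c, ∀ b : B, algebraMap B F b ∈ (V c).nonunits → b ∈ 𝔫)
    (hVloc : ∀ c, ∀ x : F, x ∈ V c → ∃ b s : B, algebraMap B F s ∉ (V c).nonunits ∧
      algebraMap B F s * x = algebraMap B F b)
    -- level `M`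
    {C : Type*} [CommRing C] (ga gb : C →+* B)
    (hFa : ∀ b : B, ∃ c : C, algebraMap B F (b - ga c) ∈ (V ca).nonunits)
    (hFb : ∀ b : B, ∃ c : C, algebraMap B F (b - gb c) ∈ (V cb).nonunits)
    (hFc : ∀ b : B, ∃ c : C, algebraMap B F (b - ga c) ∈ (V cc).nonunits)
    (π s : C) (hgaπ : ga π = ϖ) (hgbπ : gb π = ϖ) (hs : s ∈ 𝔫.comap ga)
    (hgen : NodesLocGen (𝔫.comap ga) {π, s})
    -- Frobenius congruences
    (ψ₂ : C → C) {Q₂ : ℕ} (hQ₂ : 2 ≤ Q₂)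
    (hKa : ∀ c : C, algebraMap B F (gb c - ga (ψ₂ c) ^ Q₂) ∈ (V ca).nonunits)
    (hKb : ∀ c : C, algebraMap B F (ga c - gb (ψ₂ c) ^ Q₂) ∈ (V cb).nonunits)
    (hKc : ∀ c : C, algebraMap B F (gb c - ga c) ∈ (V cc).nonunits)
    -- REG through the branch `a`
    (X Y : ls_localSubring (F := F) 𝔫) (hXY : X * Y = s36n2pToLoc (F := F) 𝔫 ϖ)
    (hX1 : (X : F) ∈ (V ca).nonunits)
    (hU : ∀ x ∈ (V ca).nonunits, ∃ z ∈ V ca, x = (X : F) * z)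
    (hXu : ∀ c, c ≠ ca → (X : F)⁻¹ ∈ V c)
    (Hor : F → Prop) (m : ℕ) (hHor : ∀ y, Hor y → ∀ P : Place E F, (m : ℤ) ∣ P.ord y)
    (α β : F₁ →+* F) (Nα Nβ : F →* F₁) (ζ₁ : F₁)
    (hNα : ∃ Oα : Subring F₁, NgLoc α Nα (V ca) (V cc) m ζ₁ (ls_localSubring (F := F) 𝔫) Oα)
    (hNβ : ∃ Oβ : Subring F₁, NgLoc β Nβ (V cb) (V cc) m ζ₁ (ls_localSubring (F := F) 𝔫) Oβ) :
    @S36PtInput F₁ F _ _ κ Hor m α β Nα Nβ ζ₁ V ca cb cc (ls_localSubring (F := F) 𝔫)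
      (ls_localSubring_isLocalRing hinj 𝔫)
      (fun c => ∀ b : B, algebraMap B F b ∈ (V c).nonunits → b ∈ 𝔫) := by
  have hsa : ga s ∈ 𝔫 := hs
  have hsb : gb s ∈ 𝔫 := by
    have : s ∈ 𝔫.comap gb := by
      rw [s36pt_comap_eq 𝔫 ga gb (V cc) (hthr cc) hKc]; exact hs
    exact this
  have hgena : S36n2pGen 𝔫 (V ca) (ga s) :=
    s36pt_gen_a 𝔫 ga (V ca) (hBV ca) (hthr ca) hFa π s (by rw [hgaπ]; exact hϖV ca) hgen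
  have hgenc : S36n2pGen 𝔫 (V cc) (ga s) :=
    s36pt_gen_a 𝔫 ga (V cc) (hBV cc) (hthr cc) hFc π s (by rw [hgaπ]; exact hϖV cc) hgen
  have hgenb : S36n2pGen 𝔫 (V cb) (gb s) :=
    s36pt_gen_b 𝔫 ga gb (V cb) (V cc) (hBV cb) (hthr cb) (hthr cc) hFb hKc π s
      (by rw [hgbπ]; exact hϖV cb) hgen
  refine s36n2p_ptInput_triple (E := E) hinj 𝔫 V hBV ϖ hKR Q hram hϖ0 hϖV hE hfrac ca cb cc hκ
    hthr hVloc hsa hgenc
    (Yab := gb s - ga (ψ₂ s) ^ Q₂) (hKa s)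
    (s36pt_gen_ab 𝔫 ga gb (V ca) (V cb) (V cc) (hBV cb) (hthr ca) (hthr cb) (hthr cc) ψ₂ hQ₂
      hKa hKb hKc hsa hgenb)
    (Yca := ga s - gb s) ?_
    (s36pt_gen_ca 𝔫 ga gb (V ca) (V cc) (hBV ca) (hthr ca) (hthr cc) ψ₂ hQ₂ hKa hKc hsa hgena)
    (Ycb := gb s - ga s) (hKc s)
    (s36pt_gen_cb 𝔫 ga gb (V cb) (V cc) (hBV cb) (hthr cb) (hthr cc) ψ₂ hQ₂ hKb hKc hsa hgenb)
    X Y hXY hX1 hU hXu Hor m hHor α β Nα Nβ ζ₁ hNα hNβ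
  have e : ga s - gb s = -(gb s - ga s) := by ring
  rw [e, map_neg]
  exact (V cc).nonunits.neg_mem (hKc s)

end Input

end Fermat.Agent.S36
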