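import Fermat.Agent.S36.PtsTriple
import Fermat.Agent.S36.PtsMidChart

/-!
# S36 / (I6)(c): the TRIPLE points, chart form (helper37)

Setting of `UNIP/AbstractT.lean` (`A₀` a DVR, `E = Frac A₀`, `F / E(u)` finite), chart
`B_u = zchClosure {u}`, closed point `𝔫 : AtPt π u` through which ALL the components pass.

* **`s36pt_atPt`** : `S36PtInput` at the triple point `𝔫`, all hypotheses in the
  "integral over `A₀[u]`" form of `s36tb_small` (`hBV`, `hKR`, `hram`, `hVloc`), the level-`M`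
  data `ga gb : C →+* B_u` with (F1), (K) in coerced form, the elements `X, Y` of `s36pt_reg`
  and the two packages `NgLoc`;
* `s36pt_atPt_inl`, `s36pt_atPt_inr` : the same in the forms `atO π t (Sum.inl 𝔫)`,
  `atO π t (Sum.inr 𝔫)` of `hpts` (= `hPt` of `s36pf_h1`).
-/

set_option autoImplicit false
set_option linter.unusedSectionVars false
set_option linter.unusedVariables false
set_option linter.style.haveILetI false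

namespace Fermat.Agent.S36

open Fermat.Agent.UNIP Fermat.Agent.STB Fermat.Agent.INJ IntermediateField AlgebraicCurve

section Chart

variable {A₀ E F : Type*} [CommRing A₀] [IsDomain A₀] [IsDiscreteValuationRing A₀]
  [Field E] [Algebra A₀ E] [IsFractionRing A₀ E] [CharZero E]
  [Field F] [Algebra E F] [Algebra A₀ F] [IsScalarTower A₀ E F]
  {π : A₀} {κ : Type*} {F₁ : Type*} [Field F₁]

/-- **`S36PtInput` at a TRIPLE point of a chart.** -/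
theorem s36pt_atPt [Finite κ] (hπ : Irreducible π) {u : F} [FiniteDimensional E⟮u⟯ F]
    [IsNoetherianRing ↥(zchClosure (A₀ := A₀) ({u} : Set F))]
    (V : κ → ValuationSubring F)
    (hBV : ∀ c (b : F), IsIntegral ↥(Algebra.adjoin A₀ {u}) b → b ∈ V c)
    (hπV : ∀ c, algebraMap A₀ F π ∈ (V c).nonunits)
    (hKR : ∀ x : F, IsIntegral ↥(Algebra.adjoin A₀ {u}) (algebraMap A₀ F π * x) →
      (∀ c, x ∈ V c) → IsIntegral ↥(Algebra.adjoin A₀ {u}) x)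
    (Q : ℕ) (hram : ∀ c (x : F), x ∈ (V c).nonunits → ∃ z ∈ V c, x ^ Q = algebraMap A₀ F π * z)
    (𝔫 : AtPt (F := F) π u) (ca cb cc : κ) (hκ : ∀ c, c = ca ∨ c = cb ∨ c = cc)
    (hthr : ∀ c, atThrough 𝔫 (V c))
    (hVloc : ∀ c, ∀ x : F, x ∈ V c → ∃ b s : F, IsIntegral ↥(Algebra.adjoin A₀ {u}) b ∧
      IsIntegral ↥(Algebra.adjoin A₀ {u}) s ∧ s ∉ (V c).nonunits ∧ s * x = b)
    -- level `M`
    {C : Type*} [CommRing C] (ga gb : C →+* ↥(zchClosure (A₀ := A₀) ({u} : Set F)))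
    (hFa : ∀ b : ↥(zchClosure (A₀ := A₀) ({u} : Set F)), ∃ c : C,
      (b : F) - (ga c : F) ∈ (V ca).nonunits)
    (hFb : ∀ b : ↥(zchClosure (A₀ := A₀) ({u} : Set F)), ∃ c : C,
      (b : F) - (gb c : F) ∈ (V cb).nonunits)
    (hFc : ∀ b : ↥(zchClosure (A₀ := A₀) ({u} : Set F)), ∃ c : C,
      (b : F) - (ga c : F) ∈ (V cc).nonunits)
    (πC s : C) (hgaπ : ga πC = algebraMap A₀ ↥(zchClosure (A₀ := A₀) ({u} : Set F)) π)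
    (hgbπ : gb πC = algebraMap A₀ ↥(zchClosure (A₀ := A₀) ({u} : Set F)) π)
    (hs : ga s ∈ 𝔫.1) (hgen : NodesLocGen (𝔫.1.comap ga) {πC, s})
    -- Frobenius congruences
    (ψ₂ : C → C) {Q₂ : ℕ} (hQ₂ : 2 ≤ Q₂)
    (hKa : ∀ c : C, (gb c : F) - (ga (ψ₂ c) : F) ^ Q₂ ∈ (V ca).nonunits)
    (hKb : ∀ c : C, (ga c : F) - (gb (ψ₂ c) : F) ^ Q₂ ∈ (V cb).nonunits)
    (hKc : ∀ c : C, (gb c : F) - (ga c : F) ∈ (V cc).nonunits)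
    -- REG through the branch `a`
    (hreg : ∃ X Y : F, X ∈ atLoc 𝔫 ∧ Y ∈ atLoc 𝔫 ∧ X * Y = algebraMap A₀ F π ∧
      X ∈ (V ca).nonunits ∧ (∀ x ∈ (V ca).nonunits, ∃ z ∈ V ca, x = X * z) ∧
      X⁻¹ ∈ V cb ∧ X⁻¹ ∈ V cc)
    (Hor : F → Prop) (m : ℕ) (hHor : ∀ y, Hor y → ∀ P : Place E F, (m : ℤ) ∣ P.ord y)
    (α β : F₁ →+* F) (Nα Nβ : F →* F₁) (ζ₁ : F₁)
    (hNα : ∃ Oα : Subring F₁, NgLoc α Nα (V ca) (V cc) m ζ₁ (atLoc 𝔫) Oα)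
    (hNβ : ∃ Oβ : Subring F₁, NgLoc β Nβ (V cb) (V cc) m ζ₁ (atLoc 𝔫) Oβ) :
    @S36PtInput F₁ F _ _ κ Hor m α β Nα Nβ ζ₁ V ca cb cc (atLoc 𝔫)
      (haveI := 𝔫.2.1.isPrime; ls_localSubring_isLocalRing Subtype.val_injective 𝔫.1)
      (fun c => atThrough 𝔫 (V c)) := by
  haveI := 𝔫.2.1.isPrime
  have hπ0 : algebraMap A₀ F π ≠ 0 := ei_algebraMap_ne_zero (E := E) hπ
  obtain ⟨X, Y, hX, hY, hXY, hX1, hU, hXb, hXc⟩ := hreg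
  exact s36pt_ptInput (E := E) (B := ↥(zchClosure (A₀ := A₀) ({u} : Set F)))
    Subtype.val_injective 𝔫.1 V (fun c b => hBV c _ b.2)
    (algebraMap A₀ ↥(zchClosure (A₀ := A₀) ({u} : Set F)) π)
    (s36pm_hKR V hKR) Q hram hπ0 hπV (s36pm_hE hπ u) (s36pm_hfrac (E := E) u)
    ca cb cc hκ hthr
    (fun c x hx => by
      obtain ⟨b, s, hb, hs, hsV, hsx⟩ := hVloc c x hx
      exact ⟨⟨b, mem_zchClosure.mpr hb⟩, ⟨s, mem_zchClosure.mpr hs⟩, hsV, hsx⟩)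
    ga gb hFa hFb hFc πC s hgaπ hgbπ hs hgen ψ₂ hQ₂ hKa hKb hKc
    ⟨X, hX⟩ ⟨Y, hY⟩ (Subtype.ext hXY) hX1 hU
    (fun c hc => by
      rcases hκ c with h | h | h
      · exact absurd h hc
      · rw [h]; exact hXb
      · rw [h]; exact hXc)
    Hor m hHor α β Nα Nβ ζ₁ hNα hNβ

/-- the form `atO π t (Sum.inl 𝔫)` of `hpts` (= `hPt` of `s36pf_h1`) -/
theorem s36pt_atPt_inl [Finite κ] (hπ : Irreducible π) {t : F} [FiniteDimensional E⟮t⟯ F]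
    [IsNoetherianRing ↥(zchClosure (A₀ := A₀) ({t} : Set F))]
    (V : κ → ValuationSubring F)
    (hBV : ∀ c (b : F), IsIntegral ↥(Algebra.adjoin A₀ {t}) b → b ∈ V c)
    (hπV : ∀ c, algebraMap A₀ F π ∈ (V c).nonunits)
    (hKR : ∀ x : F, IsIntegral ↥(Algebra.adjoin A₀ {t}) (algebraMap A₀ F π * x) →
      (∀ c, x ∈ V c) → IsIntegral ↥(Algebra.adjoin A₀ {t}) x)
    (Q : ℕ) (hram : ∀ c (x : F), x ∈ (V c).nonunits → ∃ z ∈ V c, x ^ Q = algebraMap A₀ F π * z)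
    (𝔫 : AtPt (F := F) π t) (ca cb cc : κ) (hκ : ∀ c, c = ca ∨ c = cb ∨ c = cc)
    (hthr : ∀ c, atThrough 𝔫 (V c))
    (hVloc : ∀ c, ∀ x : F, x ∈ V c → ∃ b s : F, IsIntegral ↥(Algebra.adjoin A₀ {t}) b ∧
      IsIntegral ↥(Algebra.adjoin A₀ {t}) s ∧ s ∉ (V c).nonunits ∧ s * x = b)
    -- level `M`
    {C : Type*} [CommRing C] (ga gb : C →+* ↥(zchClosure (A₀ := A₀) ({t} : Set F)))
    (hFa : ∀ b : ↥(zchClosure (A₀ := A₀) ({t} : Set F)), ∃ c : C,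
      (b : F) - (ga c : F) ∈ (V ca).nonunits)
    (hFb : ∀ b : ↥(zchClosure (A₀ := A₀) ({t} : Set F)), ∃ c : C,
      (b : F) - (gb c : F) ∈ (V cb).nonunits)
    (hFc : ∀ b : ↥(zchClosure (A₀ := A₀) ({t} : Set F)), ∃ c : C,
      (b : F) - (ga c : F) ∈ (V cc).nonunits)
    (πC s : C) (hgaπ : ga πC = algebraMap A₀ ↥(zchClosure (A₀ := A₀) ({t} : Set F)) π)
    (hgbπ : gb πC = algebraMap A₀ ↥(zchClosure (A₀ := A₀) ({t} : Set F)) π)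
    (hs : ga s ∈ 𝔫.1) (hgen : NodesLocGen (𝔫.1.comap ga) {πC, s})
    -- Frobenius congruences
    (ψ₂ : C → C) {Q₂ : ℕ} (hQ₂ : 2 ≤ Q₂)
    (hKa : ∀ c : C, (gb c : F) - (ga (ψ₂ c) : F) ^ Q₂ ∈ (V ca).nonunits)
    (hKb : ∀ c : C, (ga c : F) - (gb (ψ₂ c) : F) ^ Q₂ ∈ (V cb).nonunits)
    (hKc : ∀ c : C, (gb c : F) - (ga c : F) ∈ (V cc).nonunits)
    -- REG through the branch `a`
    (hreg : ∃ X Y : F, X ∈ atLoc 𝔫 ∧ Y ∈ atLoc 𝔫 ∧ X * Y = algebraMap A₀ F π ∧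
      X ∈ (V ca).nonunits ∧ (∀ x ∈ (V ca).nonunits, ∃ z ∈ V ca, x = X * z) ∧
      X⁻¹ ∈ V cb ∧ X⁻¹ ∈ V cc)
    (Hor : F → Prop) (m : ℕ) (hHor : ∀ y, Hor y → ∀ P : Place E F, (m : ℤ) ∣ P.ord y)
    (α β : F₁ →+* F) (Nα Nβ : F →* F₁) (ζ₁ : F₁)
    (hNα : ∃ Oα : Subring F₁, NgLoc α Nα (V ca) (V cc) m ζ₁ (atLoc 𝔫) Oα)
    (hNβ : ∃ Oβ : Subring F₁, NgLoc β Nβ (V cb) (V cc) m ζ₁ (atLoc 𝔫) Oβ) :
    @S36PtInput F₁ F _ _ κ Hor m α β Nα Nβ ζ₁ V ca cb cc (atO π t (Sum.inl 𝔫))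
      (stb_atO_isLocalRing (π := π) t (Sum.inl 𝔫)) (atInc π t V (Sum.inl 𝔫)) :=
  s36pt_atPt (E := E) hπ V hBV hπV hKR Q hram 𝔫 ca cb cc hκ hthr hVloc ga gb hFa hFb hFc πC s hgaπ hgbπ hs hgen ψ₂ hQ₂
    hKa hKb hKc hreg Hor m hHor α β Nα Nβ ζ₁ hNα hNβ

/-- the form `atO π t (Sum.inr 𝔫)` of `hpts` (points of the chart `t⁻¹`) -/
theorem s36pt_atPt_inr [Finite κ] (hπ : Irreducible π) {t : F} [FiniteDimensional E⟮t⁻¹⟯ F]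
    [IsNoetherianRing ↥(zchClosure (A₀ := A₀) ({t⁻¹} : Set F))]
    (V : κ → ValuationSubring F)
    (hBV : ∀ c (b : F), IsIntegral ↥(Algebra.adjoin A₀ {t⁻¹}) b → b ∈ V c)
    (hπV : ∀ c, algebraMap A₀ F π ∈ (V c).nonunits)
    (hKR : ∀ x : F, IsIntegral ↥(Algebra.adjoin A₀ {t⁻¹}) (algebraMap A₀ F π * x) →
      (∀ c, x ∈ V c) → IsIntegral ↥(Algebra.adjoin A₀ {t⁻¹}) x)
    (Q : ℕ) (hram : ∀ c (x : F), x ∈ (V c).nonunits → ∃ z ∈ V c, x ^ Q = algebraMap A₀ F π * z)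
    (𝔫 : AtPt (F := F) π t⁻¹) (ca cb cc : κ) (hκ : ∀ c, c = ca ∨ c = cb ∨ c = cc)
    (hthr : ∀ c, atThrough 𝔫 (V c))
    (hVloc : ∀ c, ∀ x : F, x ∈ V c → ∃ b s : F, IsIntegral ↥(Algebra.adjoin A₀ {t⁻¹}) b ∧
      IsIntegral ↥(Algebra.adjoin A₀ {t⁻¹}) s ∧ s ∉ (V c).nonunits ∧ s * x = b)
    -- level `M`
    {C : Type*} [CommRing C] (ga gb : C →+* ↥(zchClosure (A₀ := A₀) ({t⁻¹} : Set F)))
    (hFa : ∀ b : ↥(zchClosure (A₀ := A₀) ({t⁻¹} : Set F)), ∃ c : C,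
      (b : F) - (ga c : F) ∈ (V ca).nonunits)
    (hFb : ∀ b : ↥(zchClosure (A₀ := A₀) ({t⁻¹} : Set F)), ∃ c : C,
      (b : F) - (gb c : F) ∈ (V cb).nonunits)
    (hFc : ∀ b : ↥(zchClosure (A₀ := A₀) ({t⁻¹} : Set F)), ∃ c : C,
      (b : F) - (ga c : F) ∈ (V cc).nonunits)
    (πC s : C) (hgaπ : ga πC = algebraMap A₀ ↥(zchClosure (A₀ := A₀) ({t⁻¹} : Set F)) π)
    (hgbπ : gb πC = algebraMap A₀ ↥(zchClosure (A₀ := A₀) ({t⁻¹} : Set F)) π)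
    (hs : ga s ∈ 𝔫.1) (hgen : NodesLocGen (𝔫.1.comap ga) {πC, s})
    -- Frobenius congruences
    (ψ₂ : C → C) {Q₂ : ℕ} (hQ₂ : 2 ≤ Q₂)
    (hKa : ∀ c : C, (gb c : F) - (ga (ψ₂ c) : F) ^ Q₂ ∈ (V ca).nonunits)
    (hKb : ∀ c : C, (ga c : F) - (gb (ψ₂ c) : F) ^ Q₂ ∈ (V cb).nonunits)
    (hKc : ∀ c : C, (gb c : F) - (ga c : F) ∈ (V cc).nonunits)
    -- REG through the branch `a`
    (hreg : ∃ X Y : F, X ∈ atLoc 𝔫 ∧ Y ∈ atLoc 𝔫 ∧ X * Y = algebraMap A₀ F π ∧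
      X ∈ (V ca).nonunits ∧ (∀ x ∈ (V ca).nonunits, ∃ z ∈ V ca, x = X * z) ∧
      X⁻¹ ∈ V cb ∧ X⁻¹ ∈ V cc)
    (Hor : F → Prop) (m : ℕ) (hHor : ∀ y, Hor y → ∀ P : Place E F, (m : ℤ) ∣ P.ord y)
    (α β : F₁ →+* F) (Nα Nβ : F →* F₁) (ζ₁ : F₁)
    (hNα : ∃ Oα : Subring F₁, NgLoc α Nα (V ca) (V cc) m ζ₁ (atLoc 𝔫) Oα)
    (hNβ : ∃ Oβ : Subring F₁, NgLoc β Nβ (V cb) (V cc) m ζ₁ (atLoc 𝔫) Oβ) :
    @S36PtInput F₁ F _ _ κ Hor m α β Nα Nβ ζ₁ V ca cb cc (atO π t (Sum.inr 𝔫))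
      (stb_atO_isLocalRing (π := π) t (Sum.inr 𝔫)) (atInc π t V (Sum.inr 𝔫)) :=
  s36pt_atPt (E := E) hπ V hBV hπV hKR Q hram 𝔫 ca cb cc hκ hthr hVloc ga gb hFa hFb hFc πC s hgaπ hgbπ hs hgen ψ₂ hQ₂
    hKa hKb hKc hreg Hor m hHor α β Nα Nβ ζ₁ hNα hNβ

end Chart

end Fermat.Agent.S36
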