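import Fermat.Agent.S36.PtsTripleK
import Fermat.Agent.S36.N2KerF1b
import Fermat.Agent.UNIP.NodesFrobInst
import Fermat.Agent.S36.N2ValHne
import Fermat.Agent.STB.FrobLift
import Fermat.Agent.STB.FrobGal
import Fermat.Agent.Common.FrobExists

/-!
# S36 / (I6)(c): (Ka), (Kb), (Kc) for the chart homomorphisms `g_a`, `g_b` (helper37)

Setting of `S36/N2Val.lean` + Frobenius lift `ψA ψE θ`; `C = integralClosure A[j] F_M`,
`B = integralClosure A[j] F_{Mqq}`, `g_a = s36n2kGa`, `g_b = s36n2kGb` (helper99,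
`S36/N2KerF1b.lean`).

* `s36ptkPsi2`    : `ψ₂ : C → C`, the Frobenius lift applied twice (`nodesFrobInstLift`);
* `s36ptk_mem`    : the elements of `C` lie in the Gauss ring;
* **`s36ptk_Ka_G`, `s36ptk_Kb_G`, `s36ptk_Kc_G`** : the hypotheses `hKa`, `hKb`, `hKc` of
  `s36pt_atPt` with `Q₂ = q ^ 2`.
-/

set_option autoImplicit false
set_option linter.unusedSectionVars false
set_option linter.unusedVariables false
set_option linter.style.haveILetI false
set_option linter.style.longLine false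

noncomputable section

namespace Fermat.Agent.S36

open ModularCurve Fermat.Agent.UNIP Fermat.Agent.INJ Fermat.Agent.AL Fermat.Agent.ES

section G

variable {A E k A' E' k' : Type*} [CommRing A] [IsDomain A] [WfDvdMonoid A] [Field E]
  [Algebra A E] [IsFractionRing A E] [Field k] [CommRing A'] [Field E'] [Field k']
  {r : A →+* k} {π : A} {ι' : A' →+* E'} {r' : A' →+* k'} {π' : A'}
  (hB : VtBase (algebraMap A E) r π) (hB' : VtBase ι' r' π')
  (ψ : E →+* E') (ιC : E →+* ℂ) (ιK : E' →+* ℂ)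
  {q M : ℕ} [NeZero q] [NeZero M] [NeZero (M * q)] [NeZero (M * q * q)]
  (hq : q.Prime) (hqM : ¬ q ∣ M)
  {ζ : E'ˣ} (h : S36MidEmb E' q M ζ) (z : A'ˣ) (hz : Units.map (ι' : A' →* E') z = ζ)
  [Algebra A (modularFunctionFieldFullC E M)]
  [IsScalarTower A E (modularFunctionFieldFullC E M)]
  [Algebra A (modularFunctionFieldFullC E (M * q * q))]
  [IsScalarTower A E (modularFunctionFieldFullC E (M * q * q))]
  (ψA : A →+* A) (ψE : E →+* E) (θ : k →+* k)

/-- **`ψ₂`**: the (inverse) Frobenius lift, twice, on the chart `j` of level `M`. -/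
def s36ptkPsi2 (hψ : ∀ a, ψE (algebraMap A E a) = algebraMap A E (ψA a))
    (c : ↥(integralClosure ↥(Algebra.adjoin A
      ({bgJ E M} : Set (modularFunctionFieldFullC E M))) (modularFunctionFieldFullC E M))) :
    ↥(integralClosure ↥(Algebra.adjoin A
      ({bgJ E M} : Set (modularFunctionFieldFullC E M))) (modularFunctionFieldFullC E M)) :=
  nodesFrobInstLift ψA ψE hψ (bgJ E M) (nodesFrobInst_J_fixed ψE)
    (nodesFrobInstLift ψA ψE hψ (bgJ E M) (nodesFrobInst_J_fixed ψE) c)

theorem s36ptkPsi2_series (hψ : ∀ a, ψE (algebraMap A E a) = algebraMap A E (ψA a))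
    (c : ↥(integralClosure ↥(Algebra.adjoin A
      ({bgJ E M} : Set (modularFunctionFieldFullC E M))) (modularFunctionFieldFullC E M))) :
    (((s36ptkPsi2 ψA ψE hψ c : ↥(integralClosure ↥(Algebra.adjoin A
        ({bgJ E M} : Set (modularFunctionFieldFullC E M))) (modularFunctionFieldFullC E M))) :
      modularFunctionFieldFullC E M) : LaurentSeries E) =
      coeffMap ψE (coeffMap ψE ((c : modularFunctionFieldFullC E M) : LaurentSeries E)) := rfl

include hB in
/-- the elements of the chart `j` of level `M` lie in the Gauss ring -/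
theorem s36ptk_mem
    (c : ↥(integralClosure ↥(Algebra.adjoin A
      ({bgJ E M} : Set (modularFunctionFieldFullC E M))) (modularFunctionFieldFullC E M))) :
    ((c : modularFunctionFieldFullC E M) : LaurentSeries E) ∈ gaussRing (algebraMap A E) r :=
  s36n2k_hCV hB M (bgJ E M) (nodesFrobInst_J_mem r) c

/-- **(Ka)** for `g_a`, `g_b`. -/
theorem s36ptk_Ka_G [Fact q.Prime] [CharP k q]
    (hψ : ∀ a, ψE (algebraMap A E a) = algebraMap A E (ψA a))
    (hθ : ∀ a, r (ψA a) = θ (r a)) (hθq : ∀ x, θ x ^ q = x)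
    (c : ↥(integralClosure ↥(Algebra.adjoin A
      ({bgJ E M} : Set (modularFunctionFieldFullC E M))) (modularFunctionFieldFullC E M))) :
    ((s36n2kGb A E ιC hq hqM c : ↥(integralClosure ↥(Algebra.adjoin A
      ({bgJ E (M * q * q)} : Set (modularFunctionFieldFullC E (M * q * q))))
        (modularFunctionFieldFullC E (M * q * q)))) : modularFunctionFieldFullC E (M * q * q)) -
      ((s36n2kGa A E (M := M) (q := q) (s36ptkPsi2 ψA ψE hψ c) :
        ↥(integralClosure ↥(Algebra.adjoin A
          ({bgJ E (M * q * q)} : Set (modularFunctionFieldFullC E (M * q * q))))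
            (modularFunctionFieldFullC E (M * q * q)))) :
        modularFunctionFieldFullC E (M * q * q)) ^ (q ^ 2) ∈
      (s36n2VA (q := q) (M := M) hB).nonunits :=
  s36ptk_Ka hB ψA ψE θ hψ hθ hθq (s36ptk_mem hB c) _ _ (s36n2kGb_series A E ιC hq hqM c)
    ((s36n2kGa_series A E (s36ptkPsi2 ψA ψE hψ c)).trans (s36ptkPsi2_series ψA ψE hψ c))

/-- **(Kb)** for `g_a`, `g_b`. -/
theorem s36ptk_Kb_G [Fact q.Prime] [CharP k q]
    (hψ : ∀ a, ψE (algebraMap A E a) = algebraMap A E (ψA a))
    (hθ : ∀ a, r (ψA a) = θ (r a)) (hθq : ∀ x, θ x ^ q = x)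
    (c : ↥(integralClosure ↥(Algebra.adjoin A
      ({bgJ E M} : Set (modularFunctionFieldFullC E M))) (modularFunctionFieldFullC E M))) :
    ((s36n2kGa A E (M := M) (q := q) c : ↥(integralClosure ↥(Algebra.adjoin A
      ({bgJ E (M * q * q)} : Set (modularFunctionFieldFullC E (M * q * q))))
        (modularFunctionFieldFullC E (M * q * q)))) : modularFunctionFieldFullC E (M * q * q)) -
      ((s36n2kGb A E ιC hq hqM (s36ptkPsi2 ψA ψE hψ c) :
        ↥(integralClosure ↥(Algebra.adjoin A
          ({bgJ E (M * q * q)} : Set (modularFunctionFieldFullC E (M * q * q))))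
            (modularFunctionFieldFullC E (M * q * q)))) :
        modularFunctionFieldFullC E (M * q * q)) ^ (q ^ 2) ∈
      (s36n2VB hB ιC hq hqM).nonunits :=
  s36ptk_Kb hB ιC hq hqM ψA ψE θ hψ hθ hθq (c : modularFunctionFieldFullC E M).2
    (s36ptk_mem hB c) _ _ (s36n2kGa_series A E c)
    ((s36n2kGb_series A E ιC hq hqM (s36ptkPsi2 ψA ψE hψ c)).trans
      (by rw [s36ptkPsi2_series]))

include ιK hB in
/-- **(Kc)** for `g_a`, `g_b`. -/
theorem s36ptk_Kc_G {κ : k →+* k'} (hcomp : VtCompat (algebraMap A E) r ι' r' ψ κ)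
    (hζq : ζ ^ q = 1) (hz1 : r' (z : A') = 1)
    (c : ↥(integralClosure ↥(Algebra.adjoin A
      ({bgJ E M} : Set (modularFunctionFieldFullC E M))) (modularFunctionFieldFullC E M))) :
    ((s36n2kGb A E ιC hq hqM c : ↥(integralClosure ↥(Algebra.adjoin A
      ({bgJ E (M * q * q)} : Set (modularFunctionFieldFullC E (M * q * q))))
        (modularFunctionFieldFullC E (M * q * q)))) : modularFunctionFieldFullC E (M * q * q)) -
      ((s36n2kGa A E (M := M) (q := q) c : ↥(integralClosure ↥(Algebra.adjoin A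
        ({bgJ E (M * q * q)} : Set (modularFunctionFieldFullC E (M * q * q))))
          (modularFunctionFieldFullC E (M * q * q)))) :
        modularFunctionFieldFullC E (M * q * q)) ∈
      (s36n2VC hB' ψ hq h z hz).nonunits :=
  s36ptk_Kc hB' ψ ιK hq hqM h z hz hcomp hζq hz1 (c : modularFunctionFieldFullC E M).2
    (s36ptk_mem hB c) _ _ (s36n2kGb_series A E ιC hq hqM c) (s36n2kGa_series A E c)

end G

/-! ### the concrete family `V = s36i1V` -/

section Concrete

open Fermat.Agent.STB

variable {q : ℕ} {A : ValuationSubring (AlgebraicClosure ℚ)} (M : ℕ) [NeZero M] [NeZero q]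
  [IsDiscreteValuationRing ↥(beta0Ring A (beta0Field A))]
  {ζ : AlgebraicClosure ℚ}
  (hq : q.Prime) (hA : A.LiesOverPrime q) (hqM : ¬ q ∣ M) (hζ : IsPrimitiveRoot ζ q)
  (ιC : ↥(beta0Field A) →+* ℂ)
  (h : S36MidEmb ↥(s36n2bK A ζ) q M (s36i1ZK (A := A) hq hζ))

set_option maxHeartbeats 3200000 in
/-- **`ψ₂`, (Ka), (Kb), (Kc) at the concrete family** `V = s36i1V`, for `g_a = s36n2kGa`,
`g_b = s36n2kGb`: the hypotheses `ψ₂ hKa hKb hKc` of `s36pt_hPt_of` with `Q₂ = q ^ 2`. -/
theorem s36ptk_conc (ιK : ↥(s36n2bK A ζ) →+* ℂ) :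
    ∃ ψ₂ : ↥(integralClosure ↥(Algebra.adjoin ↥(beta0Ring A (beta0Field A))
        ({bgJ ↥(beta0Field A) M} : Set ↥(modularFunctionFieldFullC ↥(beta0Field A) M)))
          ↥(modularFunctionFieldFullC ↥(beta0Field A) M)) →
      ↥(integralClosure ↥(Algebra.adjoin ↥(beta0Ring A (beta0Field A))
        ({bgJ ↥(beta0Field A) M} : Set ↥(modularFunctionFieldFullC ↥(beta0Field A) M)))
          ↥(modularFunctionFieldFullC ↥(beta0Field A) M)),
      (∀ c, ((s36n2kGb ↥(beta0Ring A (beta0Field A)) ↥(beta0Field A) ιC hq hqM c :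
            ↥(integralClosure ↥(Algebra.adjoin ↥(beta0Ring A (beta0Field A))
              ({bgJ ↥(beta0Field A) (M * q * q)} :
                Set ↥(modularFunctionFieldFullC ↥(beta0Field A) (M * q * q))))
              ↥(modularFunctionFieldFullC ↥(beta0Field A) (M * q * q)))) :
            ↥(modularFunctionFieldFullC ↥(beta0Field A) (M * q * q))) -
          ((s36n2kGa ↥(beta0Ring A (beta0Field A)) ↥(beta0Field A) (M := M) (q := q) (ψ₂ c) :
            ↥(integralClosure ↥(Algebra.adjoin ↥(beta0Ring A (beta0Field A))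
              ({bgJ ↥(beta0Field A) (M * q * q)} :
                Set ↥(modularFunctionFieldFullC ↥(beta0Field A) (M * q * q))))
              ↥(modularFunctionFieldFullC ↥(beta0Field A) (M * q * q)))) :
            ↥(modularFunctionFieldFullC ↥(beta0Field A) (M * q * q))) ^ (q ^ 2) ∈
          (s36i1V M hq hA hqM hζ ιC h S36Comp.a).nonunits) ∧
      (∀ c, ((s36n2kGa ↥(beta0Ring A (beta0Field A)) ↥(beta0Field A) (M := M) (q := q) c :
            ↥(integralClosure ↥(Algebra.adjoin ↥(beta0Ring A (beta0Field A))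
              ({bgJ ↥(beta0Field A) (M * q * q)} :
                Set ↥(modularFunctionFieldFullC ↥(beta0Field A) (M * q * q))))
              ↥(modularFunctionFieldFullC ↥(beta0Field A) (M * q * q)))) :
            ↥(modularFunctionFieldFullC ↥(beta0Field A) (M * q * q))) -
          ((s36n2kGb ↥(beta0Ring A (beta0Field A)) ↥(beta0Field A) ιC hq hqM (ψ₂ c) :
            ↥(integralClosure ↥(Algebra.adjoin ↥(beta0Ring A (beta0Field A))
              ({bgJ ↥(beta0Field A) (M * q * q)} :
                Set ↥(modularFunctionFieldFullC ↥(beta0Field A) (M * q * q))))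
              ↥(modularFunctionFieldFullC ↥(beta0Field A) (M * q * q)))) :
            ↥(modularFunctionFieldFullC ↥(beta0Field A) (M * q * q))) ^ (q ^ 2) ∈
          (s36i1V M hq hA hqM hζ ιC h S36Comp.b).nonunits) ∧
      (∀ c, ((s36n2kGb ↥(beta0Ring A (beta0Field A)) ↥(beta0Field A) ιC hq hqM c :
            ↥(integralClosure ↥(Algebra.adjoin ↥(beta0Ring A (beta0Field A))
              ({bgJ ↥(beta0Field A) (M * q * q)} :
                Set ↥(modularFunctionFieldFullC ↥(beta0Field A) (M * q * q))))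
              ↥(modularFunctionFieldFullC ↥(beta0Field A) (M * q * q)))) :
            ↥(modularFunctionFieldFullC ↥(beta0Field A) (M * q * q))) -
          ((s36n2kGa ↥(beta0Ring A (beta0Field A)) ↥(beta0Field A) (M := M) (q := q) c :
            ↥(integralClosure ↥(Algebra.adjoin ↥(beta0Ring A (beta0Field A))
              ({bgJ ↥(beta0Field A) (M * q * q)} :
                Set ↥(modularFunctionFieldFullC ↥(beta0Field A) (M * q * q))))
              ↥(modularFunctionFieldFullC ↥(beta0Field A) (M * q * q)))) :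
            ↥(modularFunctionFieldFullC ↥(beta0Field A) (M * q * q))) ∈
          (s36i1V M hq hA hqM hζ ιC h S36Comp.c).nonunits) := by
  have hπ : Irreducible ((q : ℕ) : ↥(beta0Ring A (beta0Field A))) :=
    beta0Ring_irreducible_q hq hA
  haveI : Fact q.Prime := ⟨hq⟩
  haveI : CharP (IsLocalRing.ResidueField ↥(beta0Ring A (beta0Field A))) q := mgvl_charP hq hA
  obtain ⟨φ, hφF⟩ := Fermat.Agent.Common.exists_isFrobeniusAt_of_liesOverPrime q hq A hA
  have hφ : ∀ x ∈ beta0Field A, φ x ∈ beta0Field A :=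
    stb_stable_beta0 hφF.mem_decompositionSubgroup
  obtain ⟨κ, -, hκ⟩ := s36n2b_compat (A := A) (ζ := ζ) hq hA
  refine ⟨s36ptkPsi2
    ((stbLiftA hφF hφ).symm : ↥(beta0Ring A (beta0Field A)) →+* ↥(beta0Ring A (beta0Field A)))
    ((mgaRestrictEquiv (beta0Field A) φ hφ).symm : ↥(beta0Field A) →+* ↥(beta0Field A))
    (stbLift_hψ' hφF hφ), fun c => ?_, fun c => ?_, fun c => ?_⟩
  · exact s36ptk_Ka_G (vtBase_residue hπ) ιC hq hqM _ _ (stbLiftTheta hφF hφ)
      (stbLift_hψ' hφF hφ) (stbLift_hθ hφF hφ) (stbLift_hθq hφF hφ) c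
  · exact s36ptk_Kb_G (vtBase_residue hπ) ιC hq hqM _ _ (stbLiftTheta hφF hφ)
      (stbLift_hψ' hφF hφ) (stbLift_hθ hφF hφ) (stbLift_hθq hφF hφ) c
  · exact s36ptk_Kc_G (vtBase_residue hπ) (s36n2b_vtBase hq hA hζ)
      (IntermediateField.inclusion (s36n2b_le_K A ζ)).toRingHom ιC ιK hq hqM h
      (s36i1Z hq hζ) rfl hκ (s36i1c_zeta_pow hq hζ) (s36n2b_residue_zeta hq hA hζ) c

end Concrete

end Fermat.Agent.S36

end
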