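import Fermat.Agent.S36.PtsTripleInst
import Fermat.Agent.S36.N2KerF1V
import Fermat.Agent.S36.PtsTripleKG

/-!
# S36 / (I6)(c), piece (c-LVM): the level-`M` inputs of `s36pt_hPt_of`, and the assembly (helper6)

## Generic part (setting of `S36/N2KerF1b.lean`, section `G`, with `A₀` a DVR)
* `s36ptl_comap_isMaximal_gen` : `𝔫.comap g_a` is maximal (`g_a = s36n2kGa` is integral);
* `s36ptl_gen_gen` : **reg**: if the chart `j` of level `M` is regular along its special fibre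
  (`RegChart π (bgJ E M)`), then at every maximal ideal `𝔫 ∋ π` of the chart `j` of level `M q²`
  there is `s` with `g_a s ∈ 𝔫` and `NodesLocGen (𝔫.comap g_a) {π, s}`.

## Concrete part (setting of `S36/PtsTripleInst.lean`)
`A₀ = beta0Ring A E₀`, `E₀ = beta0Field A`, `F = F_{M q²}(E₀)`, `V = s36i1V M hq hA hqM hζ ιC h`.
The chart homomorphisms of helper99 (`S36/N2KerF1b.lean`), between the charts in the form
`zchClosure` (in the concrete context the class `CommRing` is NOT found for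
`↥(integralClosure A₀[j] F_M)`, but it is for `↥(zchClosure {j})`):

    s36ptlGa M           = s36n2kGa A₀ E₀           : zchClosure {j_M} →+* zchClosure {j_{Mqq}},
    s36ptlGb M hq hqM ιC = s36n2kGb A₀ E₀ ιC hq hqM : zchClosure {j_M} →+* zchClosure {j_{Mqq}}.

* `s36ptl_hgaπ`, `s36ptl_hgbπ` : `ga q = q`, `gb q = q`;
* `s36ptl_hFa`, `s36ptl_hFb`, `s36ptl_hFc` : (F1) (helper99 `s36n2kv_F1_a/_b/_c`) in the shape of
  `hFa hFb hFc` of `s36pt_hPt_of`;
* **`s36ptl_gen`** : reg = `∃ s, ga s ∈ 𝔫 ∧ NodesLocGen (𝔫.comap ga) {q, s}`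
  (= the hypotheses `hs hgen` of `s36pt_hPt_of`), from `h2 : q = 2 → 3 ∣ M`, `h3 : q = 3 → 2 ∣ M`;
* `s36ptl_K` : `ψ₂`, (Ka), (Kb), (Kc) (helper37 `s36ptk_conc`) in the shape of `hKa hKb hKc`;
* `s36ptl_two_le`    : `2 ≤ q ^ 2`;
* **`s36ptl_hPt_of`** : `s36pt_hPt_of` with (I2) `hKR` (helper98 `s36sk_hKR`), the level-`M` data
  and the Frobenius congruences DISCHARGED; left: `hthr`, `hreg`, `hNα`, `hNβ`.
-/

set_option autoImplicit false
set_option linter.unusedSectionVars false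
set_option linter.unusedVariables false
set_option linter.style.haveILetI false
set_option linter.style.longLine false
set_option linter.constructorNameAsVariable false
set_option synthInstance.maxHeartbeats 400000
set_option maxHeartbeats 1000000

noncomputable section

namespace Fermat.Agent.S36

open ModularCurve AlgebraicCurve Fermat.Agent.ES Fermat.Agent.ES.G2 Fermat.Agent.INJ
open Fermat.Agent.UNIP Fermat.Agent.STB IntermediateField

/-! ## Generic part -/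

section Gen

universe u

variable {A₀ E : Type u} [CommRing A₀] [IsDomain A₀] [IsDiscreteValuationRing A₀]
  [Field E] [Algebra A₀ E] [IsFractionRing A₀ E] [CharZero E]
  {M q : ℕ} [NeZero q] [NeZero M] [NeZero (M * q)] [NeZero (M * q * q)]
  [Algebra A₀ (modularFunctionFieldFullC E M)]
  [IsScalarTower A₀ E (modularFunctionFieldFullC E M)]
  [Algebra A₀ (modularFunctionFieldFullC E (M * q * q))]
  [IsScalarTower A₀ E (modularFunctionFieldFullC E (M * q * q))]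
  {π : A₀}

/-- `𝔫.comap g_a` is a maximal ideal of the chart of level `M`. -/
theorem s36ptl_comap_isMaximal_gen
    (𝔫 : Ideal ↥(integralClosure ↥(Algebra.adjoin A₀
      ({bgJ E (M * q * q)} : Set (modularFunctionFieldFullC E (M * q * q))))
        (modularFunctionFieldFullC E (M * q * q))))
    (h𝔫 : 𝔫.IsMaximal) :
    (𝔫.comap (s36n2kGa A₀ E (M := M) (q := q))).IsMaximal :=
  haveI := h𝔫
  Ideal.isMaximal_comap_of_isIntegral_of_isMaximal' (s36n2kGa A₀ E (M := M) (q := q))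
    (s36n2kGa_isIntegral A₀ E) 𝔫

/-- **reg**, generic: the point of level `M` under `𝔫` is generated, locally, by `π` and one
more element. -/
theorem s36ptl_gen_gen (h : RegChart (E := E) π (bgJ E M))
    (𝔫 : Ideal ↥(integralClosure ↥(Algebra.adjoin A₀
      ({bgJ E (M * q * q)} : Set (modularFunctionFieldFullC E (M * q * q))))
        (modularFunctionFieldFullC E (M * q * q))))
    (h𝔫 : 𝔫.IsMaximal)
    (hπ𝔫 : algebraMap A₀ ↥(integralClosure ↥(Algebra.adjoin A₀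
      ({bgJ E (M * q * q)} : Set (modularFunctionFieldFullC E (M * q * q))))
        (modularFunctionFieldFullC E (M * q * q))) π ∈ 𝔫) :
    ∃ s : ↥(integralClosure ↥(Algebra.adjoin A₀
      ({bgJ E M} : Set (modularFunctionFieldFullC E M))) (modularFunctionFieldFullC E M)),
      s36n2kGa A₀ E (M := M) (q := q) s ∈ 𝔫 ∧
      NodesLocGen (𝔫.comap (s36n2kGa A₀ E (M := M) (q := q)))
        {algebraMap A₀ ↥(integralClosure ↥(Algebra.adjoin A₀
      ({bgJ E M} : Set (modularFunctionFieldFullC E M))) (modularFunctionFieldFullC E M)) π, s} := by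
  have hmax := s36ptl_comap_isMaximal_gen (M := M) (q := q) 𝔫 h𝔫
  have hπ : algebraMap A₀ ↥(integralClosure ↥(Algebra.adjoin A₀
      ({bgJ E M} : Set (modularFunctionFieldFullC E M))) (modularFunctionFieldFullC E M)) π ∈
      𝔫.comap (s36n2kGa A₀ E (M := M) (q := q)) := by
    rw [Ideal.mem_comap, s36n2kGa_algebraMap]
    exact hπ𝔫
  obtain ⟨s, hs, hgen⟩ := h.locGen _ hmax hπ
  exact ⟨s, hs, hgen⟩

end Gen

/-! ## Concrete part -/

section LvM

variable {q : ℕ} {A : ValuationSubring (AlgebraicClosure ℚ)} (M : ℕ) [NeZero M] [NeZero q]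
  [IsDiscreteValuationRing ↥(beta0Ring A (beta0Field A))]
  {ζ : AlgebraicClosure ℚ}
  (hq : q.Prime) (hA : A.LiesOverPrime q) (hqM : ¬ q ∣ M) (hζ : IsPrimitiveRoot ζ q)
  (ιC : ↥(beta0Field A) →+* ℂ)
  (h : S36MidEmb ↥(s36n2bK A ζ) q M (s36i1ZK (A := A) hq hζ))

include hq in
/-- `2 ≤ q ^ 2` -/
theorem s36ptl_two_le : 2 ≤ q ^ 2 := by
  have h1 : 2 ≤ q := hq.two_le
  nlinarith

/-- **`g_a`** (helper99 `s36n2kGa`) between the charts in the form `zchClosure`. -/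
def s36ptlGa : ↥(zchClosure (A₀ := ↥(beta0Ring A (beta0Field A)))
        ({bgJ ↥(beta0Field A) M} : Set ↥(modularFunctionFieldFullC ↥(beta0Field A) M))) →+*
    ↥(zchClosure (A₀ := ↥(beta0Ring A (beta0Field A)))
        ({bgJ ↥(beta0Field A) (M * q * q)} :
          Set ↥(modularFunctionFieldFullC ↥(beta0Field A) (M * q * q)))) :=
  s36n2kGa ↥(beta0Ring A (beta0Field A)) ↥(beta0Field A) (M := M) (q := q)

/-- **`g_b`** (helper99 `s36n2kGb`) between the charts in the form `zchClosure`. -/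
def s36ptlGb : ↥(zchClosure (A₀ := ↥(beta0Ring A (beta0Field A)))
        ({bgJ ↥(beta0Field A) M} : Set ↥(modularFunctionFieldFullC ↥(beta0Field A) M))) →+*
    ↥(zchClosure (A₀ := ↥(beta0Ring A (beta0Field A)))
        ({bgJ ↥(beta0Field A) (M * q * q)} :
          Set ↥(modularFunctionFieldFullC ↥(beta0Field A) (M * q * q)))) :=
  s36n2kGb ↥(beta0Ring A (beta0Field A)) ↥(beta0Field A) ιC hq hqM

/-! ### the uniformizer -/

/-- `g_a q = q` -/
theorem s36ptl_hgaπ :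
    s36ptlGa (A := A) (q := q) M (algebraMap ↥(beta0Ring A (beta0Field A)) _ ((q : ℕ) : ↥(beta0Ring A (beta0Field A)))) =
      algebraMap ↥(beta0Ring A (beta0Field A)) _ ((q : ℕ) : ↥(beta0Ring A (beta0Field A))) :=
  s36n2kGa_algebraMap ↥(beta0Ring A (beta0Field A)) ↥(beta0Field A) (M := M) (q := q) _

/-- `g_b q = q` -/
theorem s36ptl_hgbπ :
    s36ptlGb (A := A) M hq hqM ιC (algebraMap ↥(beta0Ring A (beta0Field A)) _ ((q : ℕ) : ↥(beta0Ring A (beta0Field A)))) =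
      algebraMap ↥(beta0Ring A (beta0Field A)) _ ((q : ℕ) : ↥(beta0Ring A (beta0Field A))) :=
  s36n2kGb_algebraMap ↥(beta0Ring A (beta0Field A)) ↥(beta0Field A) ιC hq hqM _

/-! ### (F1) -/

include hq hA hqM hζ ιC h in
/-- **(F1) at `V_a`** = `hFa` of `s36pt_hPt_of`. -/
theorem s36ptl_hFa (h2 : q = 2 → 3 ∣ M) (h3 : q = 3 → 2 ∣ M) (ιK : ↥(s36n2bK A ζ) →+* ℂ)
    (b : ↥(zchClosure (A₀ := ↥(beta0Ring A (beta0Field A)))
        ({bgJ ↥(beta0Field A) (M * q * q)} :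
          Set ↥(modularFunctionFieldFullC ↥(beta0Field A) (M * q * q))))) :
    ∃ c : ↥(zchClosure (A₀ := ↥(beta0Ring A (beta0Field A)))
        ({bgJ ↥(beta0Field A) M} : Set ↥(modularFunctionFieldFullC ↥(beta0Field A) M))),
      (b : ↥(modularFunctionFieldFullC ↥(beta0Field A) (M * q * q))) -
        (s36ptlGa (A := A) (q := q) M c : ↥(modularFunctionFieldFullC ↥(beta0Field A) (M * q * q))) ∈
        (s36i1V M hq hA hqM hζ ιC h S36Comp.a).nonunits :=
  s36n2kv_F1_a M hq hA hqM hζ ιC h h2 h3 ιK b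

include hq hA hqM hζ ιC h in
/-- **(F1) at `V_b`** = `hFb` of `s36pt_hPt_of`. -/
theorem s36ptl_hFb (h2 : q = 2 → 3 ∣ M) (h3 : q = 3 → 2 ∣ M) (ιK : ↥(s36n2bK A ζ) →+* ℂ)
    (b : ↥(zchClosure (A₀ := ↥(beta0Ring A (beta0Field A)))
        ({bgJ ↥(beta0Field A) (M * q * q)} :
          Set ↥(modularFunctionFieldFullC ↥(beta0Field A) (M * q * q))))) :
    ∃ c : ↥(zchClosure (A₀ := ↥(beta0Ring A (beta0Field A)))
        ({bgJ ↥(beta0Field A) M} : Set ↥(modularFunctionFieldFullC ↥(beta0Field A) M))),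
      (b : ↥(modularFunctionFieldFullC ↥(beta0Field A) (M * q * q))) -
        (s36ptlGb (A := A) M hq hqM ιC c : ↥(modularFunctionFieldFullC ↥(beta0Field A) (M * q * q))) ∈
        (s36i1V M hq hA hqM hζ ιC h S36Comp.b).nonunits :=
  s36n2kv_F1_b M hq hA hqM hζ ιC h h2 h3 ιK b

include hq hA hqM hζ ιC h in
/-- **(F1) at `V_c`** = `hFc` of `s36pt_hPt_of`. -/
theorem s36ptl_hFc (h2 : q = 2 → 3 ∣ M) (h3 : q = 3 → 2 ∣ M) (ιK : ↥(s36n2bK A ζ) →+* ℂ)
    (b : ↥(zchClosure (A₀ := ↥(beta0Ring A (beta0Field A)))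
        ({bgJ ↥(beta0Field A) (M * q * q)} :
          Set ↥(modularFunctionFieldFullC ↥(beta0Field A) (M * q * q))))) :
    ∃ c : ↥(zchClosure (A₀ := ↥(beta0Ring A (beta0Field A)))
        ({bgJ ↥(beta0Field A) M} : Set ↥(modularFunctionFieldFullC ↥(beta0Field A) M))),
      (b : ↥(modularFunctionFieldFullC ↥(beta0Field A) (M * q * q))) -
        (s36ptlGa (A := A) (q := q) M c : ↥(modularFunctionFieldFullC ↥(beta0Field A) (M * q * q))) ∈
        (s36i1V M hq hA hqM hζ ιC h S36Comp.c).nonunits :=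
  s36n2kv_F1_c M hq hA hqM hζ ιC h h2 h3 ιK b

/-! ### reg -/

include hq hA hqM in
/-- **reg** = `hs`, `hgen` of `s36pt_hPt_of`: the point of level `M` under `𝔫` is generated,
locally, by `q` and one more element. -/
theorem s36ptl_gen (h2 : q = 2 → 3 ∣ M) (h3 : q = 3 → 2 ∣ M)
    (𝔫 : AtPt (F := ↥(modularFunctionFieldFullC ↥(beta0Field A) (M * q * q)))
      ((q : ℕ) : ↥(beta0Ring A (beta0Field A))) (bgJ ↥(beta0Field A) (M * q * q))) :
    ∃ s : ↥(zchClosure (A₀ := ↥(beta0Ring A (beta0Field A)))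
        ({bgJ ↥(beta0Field A) M} : Set ↥(modularFunctionFieldFullC ↥(beta0Field A) M))),
      s36ptlGa (A := A) (q := q) M s ∈ 𝔫.1 ∧
      NodesLocGen (𝔫.1.comap (s36ptlGa (A := A) (q := q) M))
        {algebraMap ↥(beta0Ring A (beta0Field A)) _ ((q : ℕ) : ↥(beta0Ring A (beta0Field A))), s} :=
  s36ptl_gen_gen (M := M) (q := q) (s36n2kv_reg M hq hA hqM h2 h3) 𝔫.1 𝔫.2.1 𝔫.2.2

/-! ### the Frobenius congruences -/

include hq hA hqM hζ ιC h in
/-- **`ψ₂`, (Ka), (Kb), (Kc)** (helper37 `s36ptk_conc`) = `ψ₂ hKa hKb hKc` of `s36pt_hPt_of`,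
`Q₂ = q ^ 2`. -/
theorem s36ptl_K (ιK : ↥(s36n2bK A ζ) →+* ℂ) :
    ∃ ψ₂ : ↥(zchClosure (A₀ := ↥(beta0Ring A (beta0Field A)))
        ({bgJ ↥(beta0Field A) M} : Set ↥(modularFunctionFieldFullC ↥(beta0Field A) M))) →
      ↥(zchClosure (A₀ := ↥(beta0Ring A (beta0Field A)))
        ({bgJ ↥(beta0Field A) M} : Set ↥(modularFunctionFieldFullC ↥(beta0Field A) M))),
      (∀ c, ((s36ptlGb (A := A) M hq hqM ιC c : _) : ↥(modularFunctionFieldFullC ↥(beta0Field A) (M * q * q))) -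
          (s36ptlGa (A := A) (q := q) M (ψ₂ c) : _) ^ (q ^ 2) ∈
          (s36i1V M hq hA hqM hζ ιC h S36Comp.a).nonunits) ∧
      (∀ c, ((s36ptlGa (A := A) (q := q) M c : _) : ↥(modularFunctionFieldFullC ↥(beta0Field A) (M * q * q))) -
          (s36ptlGb (A := A) M hq hqM ιC (ψ₂ c) : _) ^ (q ^ 2) ∈
          (s36i1V M hq hA hqM hζ ιC h S36Comp.b).nonunits) ∧
      (∀ c, ((s36ptlGb (A := A) M hq hqM ιC c : _) : ↥(modularFunctionFieldFullC ↥(beta0Field A) (M * q * q))) -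
          (s36ptlGa (A := A) (q := q) M c : _) ∈
          (s36i1V M hq hA hqM hζ ιC h S36Comp.c).nonunits) :=
  s36ptk_conc M hq hA hqM hζ ιC h ιK

/-! ### the assembly -/

include hq hA hqM hζ ιC h in
/-- **(c), assembled**: `hPt` of `s36pf_h1` at a triple point, from the elements `X, Y` of the
thin node (`hreg`) and the two packages `NgLoc` only. -/
theorem s36ptl_hPt_of (h2 : q = 2 → 3 ∣ M) (h3 : q = 3 → 2 ∣ M) (ιK : ↥(s36n2bK A ζ) →+* ℂ)
    (𝔫 : AtPt (F := ↥(modularFunctionFieldFullC ↥(beta0Field A) (M * q * q)))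
      ((q : ℕ) : ↥(beta0Ring A (beta0Field A))) (bgJ ↥(beta0Field A) (M * q * q)))
    (hthr : ∀ c, atThrough 𝔫 (s36i1V M hq hA hqM hζ ιC h c))
    (hreg : ∃ X Y : ↥(modularFunctionFieldFullC ↥(beta0Field A) (M * q * q)),
      X ∈ atLoc 𝔫 ∧ Y ∈ atLoc 𝔫 ∧
      X * Y = algebraMap ↥(beta0Ring A (beta0Field A))
        ↥(modularFunctionFieldFullC ↥(beta0Field A) (M * q * q))
        ((q : ℕ) : ↥(beta0Ring A (beta0Field A))) ∧
      X ∈ (s36i1V M hq hA hqM hζ ιC h S36Comp.a).nonunits ∧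
      (∀ x ∈ (s36i1V M hq hA hqM hζ ιC h S36Comp.a).nonunits,
        ∃ z ∈ s36i1V M hq hA hqM hζ ιC h S36Comp.a, x = X * z) ∧
      X⁻¹ ∈ s36i1V M hq hA hqM hζ ιC h S36Comp.b ∧
      X⁻¹ ∈ s36i1V M hq hA hqM hζ ιC h S36Comp.c)
    (m : ℕ) (ζ₁ : ↥(modularFunctionFieldFullC ↥(beta0Field A) (M * q)))
    (hNα : ∃ Oα : Subring ↥(modularFunctionFieldFullC ↥(beta0Field A) (M * q)),
      NgLoc (s36Alpha ↥(beta0Field A) M q) (s36NormAlpha ↥(beta0Field A) M q)
        (s36i1V M hq hA hqM hζ ιC h S36Comp.a) (s36i1V M hq hA hqM hζ ιC h S36Comp.c) m ζ₁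
        (atLoc 𝔫) Oα)
    (hNβ : ∃ Oβ : Subring ↥(modularFunctionFieldFullC ↥(beta0Field A) (M * q)),
      NgLoc (s36Beta ↥(beta0Field A) M q) (s36NormBeta ↥(beta0Field A) M q)
        (s36i1V M hq hA hqM hζ ιC h S36Comp.b) (s36i1V M hq hA hqM hζ ιC h S36Comp.c) m ζ₁
        (atLoc 𝔫) Oβ) :
    @S36PtInput ↥(modularFunctionFieldFullC ↥(beta0Field A) (M * q))
      ↥(modularFunctionFieldFullC ↥(beta0Field A) (M * q * q)) _ _ S36Comp
      (s36Hor ↥(beta0Field A) m) m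
      (s36Alpha ↥(beta0Field A) M q) (s36Beta ↥(beta0Field A) M q)
      (s36NormAlpha ↥(beta0Field A) M q) (s36NormBeta ↥(beta0Field A) M q) ζ₁
      (s36i1V M hq hA hqM hζ ιC h) S36Comp.a S36Comp.b S36Comp.c
      (atO ((q : ℕ) : ↥(beta0Ring A (beta0Field A))) (bgJ ↥(beta0Field A) (M * q * q))
        (Sum.inl 𝔫))
      (stb_atO_isLocalRing (π := ((q : ℕ) : ↥(beta0Ring A (beta0Field A))))
        (bgJ ↥(beta0Field A) (M * q * q)) (Sum.inl 𝔫))
      (atInc ((q : ℕ) : ↥(beta0Ring A (beta0Field A))) (bgJ ↥(beta0Field A) (M * q * q))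
        (s36i1V M hq hA hqM hζ ιC h) (Sum.inl 𝔫)) := by
  obtain ⟨s, hs, hgen⟩ := s36ptl_gen M hq hA hqM h2 h3 𝔫
  obtain ⟨ψ₂, hKa, hKb, hKc⟩ := s36ptl_K M hq hA hqM hζ ιC h ιK
  exact s36pt_hPt_of M hq hA hqM hζ ιC h (s36sk_hKR M hq hA hqM hζ ιC h h2 h3 ιK) 𝔫 hthr
    (s36ptlGa (A := A) (q := q) M) (s36ptlGb (A := A) M hq hqM ιC)
    (s36ptl_hFa M hq hA hqM hζ ιC h h2 h3 ιK) (s36ptl_hFb M hq hA hqM hζ ιC h h2 h3 ιK)
    (s36ptl_hFc M hq hA hqM hζ ιC h h2 h3 ιK)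
    (algebraMap ↥(beta0Ring A (beta0Field A)) _ ((q : ℕ) : ↥(beta0Ring A (beta0Field A)))) s
    (s36ptl_hgaπ M) (s36ptl_hgbπ M hq hqM ιC) hs hgen ψ₂ (s36ptl_two_le hq) hKa hKb hKc
    hreg m ζ₁ hNα hNβ

end LvM

end Fermat.Agent.S36

end
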