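import Fermat.Agent.S36.NgLocInst
import Fermat.Agent.S36.N2KerF1V
import Fermat.Agent.S36.PtsTripleKG

/-!
# S36 / (I6)(c-NG) (helper50): the packages `NgLoc` at the TRIPLE points, concrete family

`hNα`, `hNβ` of `s36pt_hPt_of` (`S36/PtsTripleInst.lean`, helper37) at `V = s36i1V`, from
helper19's `s36ngl_alpha`, `s36ngl_beta` (`S36/NgLocInst.lean`).  The open hypotheses of these are
discharged here:

* `hWloc` : `mgv_hVloc₁` + (SS1) at level `M q` (`mgcb_reg_SS1_J`, `stb_regChart_conc_J`);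
* `hGSa`, `hGSc` (along `α`) : helper99's (F1) `s36n2kv_F1_a`, `s36n2kv_F1_c`
  (`s − g_a c ∈ 𝔪(V)`, `g_a c = α (incl c)`);
* `hGSb` (along `β`) : `s36n2kv_F1_b` (`s − g_b c ∈ 𝔪(V_b)`, `g_b c = β (w_q (incl c))`);
* `hGSc` (along `β`) : `s36n2kv_F1_c` + helper37's (Kc) `s36ptk_Kc_G` (`g_b c − g_a c ∈ 𝔪(V_c)`).

Results: `s36ptn_alpha`, `s36ptn_beta`.
-/

set_option autoImplicit false
set_option linter.style.haveILetI false
set_option linter.unusedSectionVars false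
set_option linter.unusedVariables false
set_option linter.style.longLine false
set_option linter.constructorNameAsVariable false
set_option synthInstance.maxHeartbeats 400000
set_option maxHeartbeats 1000000

noncomputable section

namespace Fermat.Agent.S36

open ModularCurve AlgebraicCurve Fermat.Agent.ES Fermat.Agent.ES.G2 Fermat.Agent.INJ
open Fermat.Agent.UNIP Fermat.Agent.STB Fermat.Agent.AL IntermediateField

section Elts

variable (A E : Type*) [CommRing A] [IsDomain A] [Field E] [Algebra A E] [IsFractionRing A E]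
  (ιC : E →+* ℂ)
  {M q : ℕ} [NeZero q] [NeZero M] [NeZero (M * q)] [NeZero (M * q * q)]
  (hq : q.Prime) (hqM : ¬ q ∣ M)
  [Algebra A (modularFunctionFieldFullC E M)]
  [IsScalarTower A E (modularFunctionFieldFullC E M)]
  [Algebra A (modularFunctionFieldFullC E (M * q))]
  [IsScalarTower A E (modularFunctionFieldFullC E (M * q))]
  [Algebra A (modularFunctionFieldFullC E (M * q * q))]
  [IsScalarTower A E (modularFunctionFieldFullC E (M * q * q))]

/-- `incl c` lies in the chart `j` of level `M q` -/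
theorem s36ptn_isIntegral_incl {c : modularFunctionFieldFullC E M}
    (hc : IsIntegral ↥(Algebra.adjoin A ({bgJ E M} : Set (modularFunctionFieldFullC E M))) c) :
    IsIntegral ↥(Algebra.adjoin A
      ({bgJ E (M * q)} : Set (modularFunctionFieldFullC E (M * q))))
      (nodesInstIncl E M q c) :=
  nodesInst_isIntegral_incl A M q (bgJ E M) hc

/-- `g_a c = α (incl c)` -/
theorem s36ptn_alpha_incl (c : modularFunctionFieldFullC E M) :
    s36Alpha E M q (nodesInstIncl E M q c) = s36n2kPsi A E M q c := rfl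

include hq in
/-- `w_q (incl c)` lies in the chart `j` of level `M q` -/
theorem s36ptn_isIntegral_w {c : modularFunctionFieldFullC E M}
    (hc : IsIntegral ↥(Algebra.adjoin A ({bgJ E M} : Set (modularFunctionFieldFullC E M))) c) :
    IsIntegral ↥(Algebra.adjoin A
      ({bgJ E (M * q)} : Set (modularFunctionFieldFullC E (M * q))))
      (atkinLehner E ιC hq hqM (nodesInstIncl E M q c)) := by
  have h1 := s36ptn_isIntegral_incl A E (q := q) hc
  have h2 := cusp_isIntegral_adjoin_map (A := A)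
    ((atkinLehner E ιC hq hqM).toRingEquiv.toRingHom :
      modularFunctionFieldFullC E (M * q) →+* modularFunctionFieldFullC E (M * q))
    (fun a => by
      rw [IsScalarTower.algebraMap_apply A E (modularFunctionFieldFullC E (M * q))]
      exact (atkinLehner E ιC hq hqM).commutes _) h1
  have e : bgJ E (M * q) = nodesFrobJ E M q := Subtype.ext rfl
  have h3 : IsIntegral ↥(Algebra.adjoin A
      ({bgJ E (M * q)} : Set (modularFunctionFieldFullC E (M * q))))
      ((atkinLehner E ιC hq hqM).toRingEquiv.toRingHom (bgJ E (M * q))) := by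
    show IsIntegral _ (atkinLehner E ιC hq hqM (bgJ E (M * q)))
    rw [e, nodesFrob_atkinLehner_J]
    exact nodesSwap_isIntegral_Jq (A := A) hq
  exact cusp_isIntegral_adjoin_trans h3 h2

/-- `g_b c = β (w_q (incl c))` -/
theorem s36ptn_beta_w (c : modularFunctionFieldFullC E M) :
    s36Beta E M q (atkinLehner E ιC hq hqM (nodesInstIncl E M q c)) =
      s36n2kPsiB A E ιC hq hqM c := by
  apply Subtype.ext
  rw [coe_s36Beta, s36n2kPsiB_coe]
  congr 1
  have e : nodesInstIncl E M q c = ⟨(c : LaurentSeries E), al_mem_of_mem_low E c.2⟩ :=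
    Subtype.ext (nodesInstIncl_coe M q c)
  rw [e]
  exact atkinLehner_of_mem_low E ιC hq hqM c.2

end Elts

section Conc

variable {q : ℕ} {A : ValuationSubring (AlgebraicClosure ℚ)} (M : ℕ) [NeZero M] [NeZero q]
  [IsDiscreteValuationRing ↥(beta0Ring A (beta0Field A))]
  {ζ : AlgebraicClosure ℚ}
  (hq : q.Prime) (hA : A.LiesOverPrime q) (hqM : ¬ q ∣ M) (hζ : IsPrimitiveRoot ζ q)
  (ιC : ↥(beta0Field A) →+* ℂ)
  (h : S36MidEmb ↥(s36n2bK A ζ) q M (s36i1ZK (A := A) hq hζ))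

include hA in
/-- **`hWloc`**: `V′_c` (`c : Bool`) is the localisation of the chart `j` of level `M q`. -/
theorem s36ptn_hWloc (h2 : q = 2 → 3 ∣ M) (h3 : q = 3 → 2 ∣ M) (c : Bool) :
    ∀ y ∈ vtFam (vtBase_residue (beta0Ring_irreducible_q hq hA)) ιC hq hqM c,
      ∃ b s : ↥(modularFunctionFieldFullC ↥(beta0Field A) (M * q)),
        IsIntegral ↥(Algebra.adjoin ↥(beta0Ring A (beta0Field A))
          ({bgJ ↥(beta0Field A) (M * q)} :
            Set ↥(modularFunctionFieldFullC ↥(beta0Field A) (M * q)))) b ∧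
        IsIntegral ↥(Algebra.adjoin ↥(beta0Ring A (beta0Field A))
          ({bgJ ↥(beta0Field A) (M * q)} :
            Set ↥(modularFunctionFieldFullC ↥(beta0Field A) (M * q)))) s ∧
        s ∉ (vtFam (vtBase_residue (beta0Ring_irreducible_q hq hA)) ιC hq hqM c).nonunits ∧
        s * y = b :=
  fun y hy => mgv_hVloc₁ (K₀ := beta0Field A) (beta0Ring_irreducible_q hq hA) ιC hq hqM hA
    (mgcb_reg_SS1_J (K₀ := beta0Field A) (beta0Ring_irreducible_q hq hA) ιC hq hqM hA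
      (s36n2kv_reg M hq hA hqM h2 h3)) c y hy

/-- **`hGSa` along `α`**: `B ⊆ α(B′) + 𝔪(V_a)`. -/
theorem s36ptn_hGS_alpha_a (h2 : q = 2 → 3 ∣ M) (h3 : q = 3 → 2 ∣ M)
    (ιK : ↥(s36n2bK A ζ) →+* ℂ)
    (s : ↥(modularFunctionFieldFullC ↥(beta0Field A) (M * q * q)))
    (hs : IsIntegral ↥(Algebra.adjoin ↥(beta0Ring A (beta0Field A))
      ({bgJ ↥(beta0Field A) (M * q * q)} :
        Set ↥(modularFunctionFieldFullC ↥(beta0Field A) (M * q * q)))) s) :
    ∃ r₁ : ↥(modularFunctionFieldFullC ↥(beta0Field A) (M * q)),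
      IsIntegral ↥(Algebra.adjoin ↥(beta0Ring A (beta0Field A))
        ({bgJ ↥(beta0Field A) (M * q)} :
          Set ↥(modularFunctionFieldFullC ↥(beta0Field A) (M * q)))) r₁ ∧
      s - s36Alpha ↥(beta0Field A) M q r₁ ∈
        (s36i1V M hq hA hqM hζ ιC h S36Comp.a).nonunits := by
  obtain ⟨c, hc⟩ := s36n2kv_F1_a M hq hA hqM hζ ιC h h2 h3 ιK ⟨s, hs⟩
  exact ⟨nodesInstIncl ↥(beta0Field A) M q (c : ↥(modularFunctionFieldFullC ↥(beta0Field A) M)),
    s36ptn_isIntegral_incl ↥(beta0Ring A (beta0Field A)) ↥(beta0Field A) c.2, hc⟩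

/-- **`hGSc` along `α`**: `B ⊆ α(B′) + 𝔪(V_c)`. -/
theorem s36ptn_hGS_alpha_c (h2 : q = 2 → 3 ∣ M) (h3 : q = 3 → 2 ∣ M)
    (ιK : ↥(s36n2bK A ζ) →+* ℂ)
    (s : ↥(modularFunctionFieldFullC ↥(beta0Field A) (M * q * q)))
    (hs : IsIntegral ↥(Algebra.adjoin ↥(beta0Ring A (beta0Field A))
      ({bgJ ↥(beta0Field A) (M * q * q)} :
        Set ↥(modularFunctionFieldFullC ↥(beta0Field A) (M * q * q)))) s) :
    ∃ r₁ : ↥(modularFunctionFieldFullC ↥(beta0Field A) (M * q)),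
      IsIntegral ↥(Algebra.adjoin ↥(beta0Ring A (beta0Field A))
        ({bgJ ↥(beta0Field A) (M * q)} :
          Set ↥(modularFunctionFieldFullC ↥(beta0Field A) (M * q)))) r₁ ∧
      s - s36Alpha ↥(beta0Field A) M q r₁ ∈
        (s36i1V M hq hA hqM hζ ιC h S36Comp.c).nonunits := by
  obtain ⟨c, hc⟩ := s36n2kv_F1_c M hq hA hqM hζ ιC h h2 h3 ιK ⟨s, hs⟩
  exact ⟨nodesInstIncl ↥(beta0Field A) M q (c : ↥(modularFunctionFieldFullC ↥(beta0Field A) M)),
    s36ptn_isIntegral_incl ↥(beta0Ring A (beta0Field A)) ↥(beta0Field A) c.2, hc⟩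

/-- **`hGSb` along `β`**: `B ⊆ β(B′) + 𝔪(V_b)`. -/
theorem s36ptn_hGS_beta_b (h2 : q = 2 → 3 ∣ M) (h3 : q = 3 → 2 ∣ M)
    (ιK : ↥(s36n2bK A ζ) →+* ℂ)
    (s : ↥(modularFunctionFieldFullC ↥(beta0Field A) (M * q * q)))
    (hs : IsIntegral ↥(Algebra.adjoin ↥(beta0Ring A (beta0Field A))
      ({bgJ ↥(beta0Field A) (M * q * q)} :
        Set ↥(modularFunctionFieldFullC ↥(beta0Field A) (M * q * q)))) s) :
    ∃ r₁ : ↥(modularFunctionFieldFullC ↥(beta0Field A) (M * q)),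
      IsIntegral ↥(Algebra.adjoin ↥(beta0Ring A (beta0Field A))
        ({bgJ ↥(beta0Field A) (M * q)} :
          Set ↥(modularFunctionFieldFullC ↥(beta0Field A) (M * q)))) r₁ ∧
      s - s36Beta ↥(beta0Field A) M q r₁ ∈
        (s36i1V M hq hA hqM hζ ιC h S36Comp.b).nonunits := by
  obtain ⟨c, hc⟩ := s36n2kv_F1_b M hq hA hqM hζ ιC h h2 h3 ιK ⟨s, hs⟩
  refine ⟨atkinLehner ↥(beta0Field A) ιC hq hqM
      (nodesInstIncl ↥(beta0Field A) M q (c : ↥(modularFunctionFieldFullC ↥(beta0Field A) M))),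
    s36ptn_isIntegral_w ↥(beta0Ring A (beta0Field A)) ↥(beta0Field A) ιC hq hqM c.2, ?_⟩
  rw [s36ptn_beta_w ↥(beta0Ring A (beta0Field A)) ↥(beta0Field A) ιC hq hqM]
  exact hc

/-- **`hGSc` along `β`**: `B ⊆ β(B′) + 𝔪(V_c)` (from (F1) for `(V_c, g_a)` and (Kc)). -/
theorem s36ptn_hGS_beta_c (h2 : q = 2 → 3 ∣ M) (h3 : q = 3 → 2 ∣ M)
    (ιK : ↥(s36n2bK A ζ) →+* ℂ)
    (s : ↥(modularFunctionFieldFullC ↥(beta0Field A) (M * q * q)))
    (hs : IsIntegral ↥(Algebra.adjoin ↥(beta0Ring A (beta0Field A))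
      ({bgJ ↥(beta0Field A) (M * q * q)} :
        Set ↥(modularFunctionFieldFullC ↥(beta0Field A) (M * q * q)))) s) :
    ∃ r₁ : ↥(modularFunctionFieldFullC ↥(beta0Field A) (M * q)),
      IsIntegral ↥(Algebra.adjoin ↥(beta0Ring A (beta0Field A))
        ({bgJ ↥(beta0Field A) (M * q)} :
          Set ↥(modularFunctionFieldFullC ↥(beta0Field A) (M * q)))) r₁ ∧
      s - s36Beta ↥(beta0Field A) M q r₁ ∈
        (s36i1V M hq hA hqM hζ ιC h S36Comp.c).nonunits := by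
  have hπ : Irreducible ((q : ℕ) : ↥(beta0Ring A (beta0Field A))) :=
    beta0Ring_irreducible_q hq hA
  obtain ⟨κ, -, hκ⟩ := s36n2b_compat (A := A) (ζ := ζ) hq hA
  obtain ⟨c, hc⟩ := s36n2kv_F1_c M hq hA hqM hζ ιC h h2 h3 ιK ⟨s, hs⟩
  have hK := s36ptk_Kc_G (vtBase_residue hπ) (s36n2b_vtBase hq hA hζ)
    (IntermediateField.inclusion (s36n2b_le_K A ζ)).toRingHom ιC ιK hq hqM h
    (s36i1Z hq hζ) rfl hκ (s36i1c_zeta_pow hq hζ) (s36n2b_residue_zeta hq hA hζ) c
  refine ⟨atkinLehner ↥(beta0Field A) ιC hq hqM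
      (nodesInstIncl ↥(beta0Field A) M q (c : ↥(modularFunctionFieldFullC ↥(beta0Field A) M))),
    s36ptn_isIntegral_w ↥(beta0Ring A (beta0Field A)) ↥(beta0Field A) ιC hq hqM c.2, ?_⟩
  rw [s36ptn_beta_w ↥(beta0Ring A (beta0Field A)) ↥(beta0Field A) ιC hq hqM]
  have hsum := s36n2k_add_mem_nonunits (s36i1V M hq hA hqM hζ ιC h S36Comp.c) hc
    (s36n2k_neg_mem_nonunits (s36i1V M hq hA hqM hζ ιC h S36Comp.c) hK)
  have e : s - s36n2kPsiB ↥(beta0Ring A (beta0Field A)) ↥(beta0Field A) ιC hq hqM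
        (c : ↥(modularFunctionFieldFullC ↥(beta0Field A) M)) =
      (s - s36n2kPsi ↥(beta0Ring A (beta0Field A)) ↥(beta0Field A) M q
        (c : ↥(modularFunctionFieldFullC ↥(beta0Field A) M))) +
      -(s36n2kPsiB ↥(beta0Ring A (beta0Field A)) ↥(beta0Field A) ιC hq hqM
          (c : ↥(modularFunctionFieldFullC ↥(beta0Field A) M)) -
        s36n2kPsi ↥(beta0Ring A (beta0Field A)) ↥(beta0Field A) M q
          (c : ↥(modularFunctionFieldFullC ↥(beta0Field A) M))) := by ring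
  rw [e]
  exact hsum

/-- **`hζ₁`**: a constant of `A₀` lies in the chart `j` of level `M q`. -/
theorem s36ptn_const_isIntegral (ζm : ↥(beta0Ring A (beta0Field A))) :
    IsIntegral ↥(Algebra.adjoin ↥(beta0Ring A (beta0Field A))
      ({bgJ ↥(beta0Field A) (M * q)} :
        Set ↥(modularFunctionFieldFullC ↥(beta0Field A) (M * q))))
      (algebraMap ↥(beta0Field A) ↥(modularFunctionFieldFullC ↥(beta0Field A) (M * q))
        (algebraMap ↥(beta0Ring A (beta0Field A)) ↥(beta0Field A) ζm)) := by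
  rw [← IsScalarTower.algebraMap_apply ↥(beta0Ring A (beta0Field A)) ↥(beta0Field A)
    ↥(modularFunctionFieldFullC ↥(beta0Field A) (M * q))]
  have h1 : algebraMap ↥(beta0Ring A (beta0Field A))
      ↥(modularFunctionFieldFullC ↥(beta0Field A) (M * q)) ζm =
      algebraMap ↥(Algebra.adjoin ↥(beta0Ring A (beta0Field A))
        ({bgJ ↥(beta0Field A) (M * q)} :
          Set ↥(modularFunctionFieldFullC ↥(beta0Field A) (M * q))))
        ↥(modularFunctionFieldFullC ↥(beta0Field A) (M * q))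
        (algebraMap ↥(beta0Ring A (beta0Field A)) _ ζm) := rfl
  rw [h1]
  exact isIntegral_algebraMap

/-! ### the packages -/

/-- **`hNα`** of `s36pt_hPt_of` / `s36ptl_hPt_of`: `NgLoc` for `α` at a triple point of the
chart `j`. -/
theorem s36ptn_alpha (h2 : q = 2 → 3 ∣ M) (h3 : q = 3 → 2 ∣ M) (ιK : ↥(s36n2bK A ζ) →+* ℂ)
    (𝔫 : AtPt (F := ↥(modularFunctionFieldFullC ↥(beta0Field A) (M * q * q)))
      ((q : ℕ) : ↥(beta0Ring A (beta0Field A))) (bgJ ↥(beta0Field A) (M * q * q)))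
    (hthr : ∀ c, atThrough 𝔫 (s36i1V M hq hA hqM hζ ιC h c))
    {m : ℕ} (hm : 0 < m) (ζm : ↥(beta0Ring A (beta0Field A))) :
    ∃ Oα : Subring ↥(modularFunctionFieldFullC ↥(beta0Field A) (M * q)),
      NgLoc (s36Alpha ↥(beta0Field A) M q) (s36NormAlpha ↥(beta0Field A) M q)
        (s36i1V M hq hA hqM hζ ιC h S36Comp.a) (s36i1V M hq hA hqM hζ ιC h S36Comp.c) m
        (algebraMap ↥(beta0Field A) ↥(modularFunctionFieldFullC ↥(beta0Field A) (M * q))
          (algebraMap ↥(beta0Ring A (beta0Field A)) ↥(beta0Field A) ζm))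
        (atLoc 𝔫) Oα := by
  have hπ : Irreducible ((q : ℕ) : ↥(beta0Ring A (beta0Field A))) :=
    beta0Ring_irreducible_q hq hA
  haveI : Fact q.Prime := ⟨hq⟩
  haveI : CharP (IsLocalRing.ResidueField ↥(beta0Ring A (beta0Field A))) q := mgvl_charP hq hA
  haveI := 𝔫.2.1.isPrime
  obtain ⟨κ, -, hκ⟩ := s36n2b_compat (A := A) (ζ := ζ) hq hA
  exact s36ngl_alpha (vtBase_residue hπ) (s36n2b_vtBase hq hA hζ)
    (IntermediateField.inclusion (s36n2b_le_K A ζ)).toRingHom ιC ιK hq hqM h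
    (s36i1Z hq hζ) rfl hκ (s36n2bZeta_isPrimitiveRoot hq hζ) (s36n2b_residue_zeta hq hA hζ)
    (s36ptn_hWloc M hq hA hqM ιC h2 h3 false)
    (s36ptn_hGS_alpha_a M hq hA hqM hζ ιC h h2 h3 ιK)
    (s36ptn_hGS_alpha_c M hq hA hqM hζ ιC h h2 h3 ιK)
    𝔫.1 (fun c b hb => hthr c b hb) hm (s36ptn_const_isIntegral M ζm)

/-- **`hNβ`** of `s36pt_hPt_of` / `s36ptl_hPt_of`: `NgLoc` for `β` at a triple point of the
chart `j`. -/
theorem s36ptn_beta (h2 : q = 2 → 3 ∣ M) (h3 : q = 3 → 2 ∣ M) (ιK : ↥(s36n2bK A ζ) →+* ℂ)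
    (𝔫 : AtPt (F := ↥(modularFunctionFieldFullC ↥(beta0Field A) (M * q * q)))
      ((q : ℕ) : ↥(beta0Ring A (beta0Field A))) (bgJ ↥(beta0Field A) (M * q * q)))
    (hthr : ∀ c, atThrough 𝔫 (s36i1V M hq hA hqM hζ ιC h c))
    {m : ℕ} (hm : 0 < m) (ζm : ↥(beta0Ring A (beta0Field A))) :
    ∃ Oβ : Subring ↥(modularFunctionFieldFullC ↥(beta0Field A) (M * q)),
      NgLoc (s36Beta ↥(beta0Field A) M q) (s36NormBeta ↥(beta0Field A) M q)
        (s36i1V M hq hA hqM hζ ιC h S36Comp.b) (s36i1V M hq hA hqM hζ ιC h S36Comp.c) m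
        (algebraMap ↥(beta0Field A) ↥(modularFunctionFieldFullC ↥(beta0Field A) (M * q))
          (algebraMap ↥(beta0Ring A (beta0Field A)) ↥(beta0Field A) ζm))
        (atLoc 𝔫) Oβ := by
  have hπ : Irreducible ((q : ℕ) : ↥(beta0Ring A (beta0Field A))) :=
    beta0Ring_irreducible_q hq hA
  haveI : Fact q.Prime := ⟨hq⟩
  haveI : CharP (IsLocalRing.ResidueField ↥(beta0Ring A (beta0Field A))) q := mgvl_charP hq hA
  haveI := 𝔫.2.1.isPrime
  obtain ⟨κ, -, hκ⟩ := s36n2b_compat (A := A) (ζ := ζ) hq hA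
  exact s36ngl_beta (vtBase_residue hπ) (s36n2b_vtBase hq hA hζ)
    (IntermediateField.inclusion (s36n2b_le_K A ζ)).toRingHom ιC ιK hq hqM h
    (s36i1Z hq hζ) rfl hκ (s36n2bZeta_isPrimitiveRoot hq hζ) (s36n2b_residue_zeta hq hA hζ)
    (s36ptn_hWloc M hq hA hqM ιC h2 h3 true)
    (s36ptn_hGS_beta_b M hq hA hqM hζ ιC h h2 h3 ιK)
    (s36ptn_hGS_beta_c M hq hA hqM hζ ιC h h2 h3 ιK)
    𝔫.1 (fun c b hb => hthr c b hb) hm (s36ptn_const_isIntegral M ζm)

end Conc

end Fermat.Agent.S36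

end
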