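import Fermat.Agent.S36.PtsTriple
import Fermat.Agent.S36.N2ValHne
import Fermat.Agent.S36.TopSetting
import Fermat.Agent.RT.K6.DLFChart
import Fermat.Agent.STB.SmoothOnly
import Fermat.Agent.STB.FrobReg
import Fermat.Agent.UNIP.MGChartsBeta0Reg
import Fermat.Agent.UNIP.MGVertLocMain
import Fermat.Agent.UNIP.MGVloc
import Fermat.Agent.INJ.BGFin
import Fermat.Agent.INJ.ChartFinite

/-!
# S36 / (I6)(c-REG) (helper50): the elements `X, Y` at the TRIPLE points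

`hreg` of `s36pt_hPt_of` (`S36/PtsTripleInst.lean`, helper37): at a closed point `𝔫` of the chart
`j` of level `M q²` through which `V_a` and `V_b` pass, there are `X, Y ∈ B_𝔫` with `X Y = π`,
`X` a uniformizer of `V_a` and a unit of `V_b`, `V_c`.

They come from the THIN crossing of level `M q` at the point `𝔫′ = gβ⁻¹ 𝔫` (`gβ : B′ → B` the chart
map over `β : f ↦ f(Q^q)`): `w π = X′ Y″`, `w ∉ 𝔫′`, `X′ ∈ 𝔪(V′_∞)`, `Y″ ∈ 𝔪(V′_0)`
(`RT.K6.Rtk6lfThinAt`, helper54), since `β⁻¹ V_a = V′_∞`, `β⁻¹ V_b = β⁻¹ V_c = V′_0`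
(`S36/N2ValRes.lean`, helper93).

* `s36ptr_reg_abs`   : abstract form (two charts `B′ → B`, valuation rings);
* `s36ptr_pt`        : the closed point `𝔫′ = gβ⁻¹ 𝔫` of the chart below;
* `s36ptr_reg_chart` : chart form over a discrete valuation ring `A₀`;
* `s36ptr_hreg`      : CONCRETE, `V = s36i1V M hq hA hqM hζ ιC h`, in the shape `hreg` of
                       `s36pt_hPt_of`.
-/

set_option autoImplicit false
set_option linter.unusedSectionVars false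
set_option linter.unusedVariables false
set_option linter.style.haveILetI false
set_option linter.constructorNameAsVariable false

noncomputable section

namespace Fermat.Agent.S36

open ModularCurve AlgebraicCurve Fermat.Agent.ES Fermat.Agent.ES.G2 Fermat.Agent.INJ
open Fermat.Agent.UNIP Fermat.Agent.STB Fermat.Agent.RT.K6 IntermediateField

section Abs

variable {F F₁ : Type*} [Field F] [Field F₁] {B : Type*} [CommRing B] [Algebra B F]
  {B' : Type*} [CommRing B'] [Algebra B' F₁]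

/-- nonunits of a restriction -/
theorem s36ptr_mem_nonunits_comap (V : ValuationSubring F) (β : F₁ →+* F) (x : F₁) :
    x ∈ (V.comap β).nonunits ↔ β x ∈ V.nonunits := by
  rw [ValuationSubring.mem_nonunits_iff_or, ValuationSubring.mem_nonunits_iff_or,
    ValuationSubring.mem_comap, map_inv₀, map_eq_zero]

/-- an element of `W` which is not in `𝔪(W)` is a unit of `W` -/
theorem s36ptr_inv_mem (W : ValuationSubring F₁) {x : F₁} (hx : x ∉ W.nonunits) : x⁻¹ ∈ W := by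
  by_contra h
  exact hx ((W.mem_nonunits_iff_or).mpr (Or.inr h))

/-- at a thin crossing `w ϖ = X Y` (`w` a unit of `W0`, `Y ∈ 𝔪(W0)`, `𝔪(W0) = ϖ W0`) the element
`X` is a unit of `W0`. -/
theorem s36ptr_cross_unit (W0 : ValuationSubring F₁) {ϖ X Y w : F₁} (hϖ0 : ϖ ≠ 0)
    (hU0 : ∀ x ∈ W0.nonunits, ∃ z ∈ W0, x = ϖ * z) (hϖW0 : ϖ ∈ W0.nonunits)
    (hw : w ∉ W0.nonunits) (hwπ : w * ϖ = X * Y) (hY : Y ∈ W0.nonunits) :
    X ∉ W0.nonunits := by
  intro hX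
  obtain ⟨z₁, hz₁, e₁⟩ := hU0 X hX
  obtain ⟨z₂, hz₂, e₂⟩ := hU0 Y hY
  apply hw
  have e : w = (z₁ * z₂) * ϖ := by
    have h1 : w * ϖ = ((z₁ * z₂) * ϖ) * ϖ := by rw [hwπ, e₁, e₂]; ring
    exact mul_right_cancel₀ hϖ0 h1
  rw [e]
  exact pwi_mul_mem_nonunits W0 (W0.mul_mem _ _ hz₁ hz₂) hϖW0

variable (hinj : Function.Injective (algebraMap B F)) (𝔫 : Ideal B) [h𝔫 : 𝔫.IsPrime]

include hinj in
/-- **REG at a triple point, abstract form**: the thin crossing `w ϖ′ = X′ Y″` of the chart `B′`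
below at `𝔫′ = βB⁻¹ 𝔫`, transported by `β`. -/
theorem s36ptr_reg_abs (β : F₁ →+* F) (βB : B' →+* B)
    (hβ : ∀ b', algebraMap B F (βB b') = β (algebraMap B' F₁ b'))
    (Va Vb Vc : ValuationSubring F) (Winf W0 : ValuationSubring F₁)
    (hOVa : ∀ x ∈ ls_localSubring (F := F) 𝔫, x ∈ Va)
    (hthrb : ∀ b : B, algebraMap B F b ∈ Vb.nonunits → b ∈ 𝔫)
    (hca : Va.comap β = Winf) (hcb : Vb.comap β = W0) (hcc : Vc.comap β = W0)
    (ϖ' : B') (ϖF : F) (hϖ : β (algebraMap B' F₁ ϖ') = ϖF)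
    (hϖ0 : algebraMap B' F₁ ϖ' ≠ 0)
    (hU0 : ∀ x ∈ W0.nonunits, ∃ z ∈ W0, x = algebraMap B' F₁ ϖ' * z)
    (hϖW0 : algebraMap B' F₁ ϖ' ∈ W0.nonunits)
    (X' Y'' w : B') (hw : βB w ∉ 𝔫) (hwπ : w * ϖ' = X' * Y'')
    (hX' : algebraMap B' F₁ X' ∈ Winf.nonunits) (hY'' : algebraMap B' F₁ Y'' ∈ W0.nonunits)
    (hUa : ∀ x ∈ Va.nonunits, ∃ z ∈ Va, x = ϖF * z) :
    ∃ X Y : F, X ∈ ls_localSubring (F := F) 𝔫 ∧ Y ∈ ls_localSubring (F := F) 𝔫 ∧ X * Y = ϖF ∧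
      X ∈ Va.nonunits ∧ (∀ x ∈ Va.nonunits, ∃ z ∈ Va, x = X * z) ∧ X⁻¹ ∈ Vb ∧ X⁻¹ ∈ Vc := by
  have hw0 : algebraMap B F (βB w) ≠ 0 := stb_gc_algebraMap_ne_zero hinj 𝔫 hw
  have hYmem : algebraMap B F (βB Y'') / algebraMap B F (βB w) ∈ ls_localSubring (F := F) 𝔫 :=
    ⟨βB Y'', βB w, hw, by field_simp⟩
  have hϖ' : algebraMap B F (βB ϖ') = ϖF := by rw [hβ, hϖ]
  have hXY : algebraMap B F (βB X') * (algebraMap B F (βB Y'') / algebraMap B F (βB w)) = ϖF := by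
    have h1 : algebraMap B F (βB w) * ϖF =
        algebraMap B F (βB X') * algebraMap B F (βB Y'') := by
      rw [← hϖ', ← map_mul, ← map_mul, ← map_mul, ← map_mul, hwπ]
    rw [mul_div_assoc', div_eq_iff hw0, ← h1, mul_comm]
  -- `w` is a unit of `W0`
  have hwW0 : algebraMap B' F₁ w ∉ W0.nonunits := by
    intro h1
    apply hw
    apply hthrb
    rw [hβ]
    rw [← hcb] at h1
    exact (s36ptr_mem_nonunits_comap Vb β _).mp h1
  -- `X′` is a unit of `W0`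
  have hX'0 : (algebraMap B' F₁ X')⁻¹ ∈ W0 := by
    apply s36ptr_inv_mem
    refine s36ptr_cross_unit W0 hϖ0 hU0 hϖW0 hwW0 ?_ hY''
    rw [← map_mul, ← map_mul, hwπ]
  refine ⟨algebraMap B F (βB X'), algebraMap B F (βB Y'') / algebraMap B F (βB w),
    ls_algebraMap_mem 𝔫 _, hYmem, hXY, ?_, ?_, ?_, ?_⟩
  · rw [hβ]
    rw [← hca] at hX'
    exact (s36ptr_mem_nonunits_comap Va β _).mp hX'
  · intro x hx
    obtain ⟨z, hz, hxz⟩ := hUa x hx
    refine ⟨(algebraMap B F (βB Y'') / algebraMap B F (βB w)) * z,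
      Va.mul_mem _ _ (hOVa _ hYmem) hz, ?_⟩
    rw [← mul_assoc, hXY, hxz]
  · rw [hβ, ← map_inv₀]
    rw [← hcb] at hX'0
    exact hX'0
  · rw [hβ, ← map_inv₀]
    rw [← hcc] at hX'0
    exact hX'0

end Abs

section Chart

universe u

variable {A₀ E F₁ F : Type u} [CommRing A₀] [IsDomain A₀] [IsDiscreteValuationRing A₀]
  [Field E] [Algebra A₀ E] [IsFractionRing A₀ E] [CharZero E]
  [Field F₁] [Algebra E F₁] [Algebra A₀ F₁] [IsScalarTower A₀ E F₁]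
  [Field F] [Algebra E F] [Algebra A₀ F] [IsScalarTower A₀ E F]
  {π : A₀} {u' : F₁} {u : F}

/-- the chart map sends the uniformizer to the uniformizer -/
theorem s36ptr_map_unif (β : F₁ →+* F)
    (gβ : ↥(zchClosure (A₀ := A₀) ({u'} : Set F₁)) →+* ↥(zchClosure (A₀ := A₀) ({u} : Set F)))
    (hcβ : ∀ r, ((gβ r : ↥(zchClosure (A₀ := A₀) ({u} : Set F))) : F) = β (r : F₁))
    (hβπ : β (algebraMap A₀ F₁ π) = algebraMap A₀ F π) :
    gβ (algebraMap A₀ ↥(zchClosure (A₀ := A₀) ({u'} : Set F₁)) π) =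
      algebraMap A₀ ↥(zchClosure (A₀ := A₀) ({u} : Set F)) π := by
  apply Subtype.ext
  rw [hcβ]
  exact hβπ

/-- **the closed point `𝔫′ = gβ⁻¹ 𝔫` of the chart below** -/
def s36ptrPt
    (gβ : ↥(zchClosure (A₀ := A₀) ({u'} : Set F₁)) →+* ↥(zchClosure (A₀ := A₀) ({u} : Set F)))
    (hgβ : gβ.IsIntegral)
    (hgπ : gβ (algebraMap A₀ ↥(zchClosure (A₀ := A₀) ({u'} : Set F₁)) π) =
      algebraMap A₀ ↥(zchClosure (A₀ := A₀) ({u} : Set F)) π)
    (𝔫 : AtPt (F := F) π u) : AtPt (F := F₁) π u' :=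
  ⟨𝔫.1.comap gβ,
    haveI := 𝔫.2.1
    Ideal.isMaximal_comap_of_isIntegral_of_isMaximal' gβ hgβ 𝔫.1,
    by rw [Ideal.mem_comap, hgπ]; exact 𝔫.2.2⟩

theorem s36ptrPt_val
    (gβ : ↥(zchClosure (A₀ := A₀) ({u'} : Set F₁)) →+* ↥(zchClosure (A₀ := A₀) ({u} : Set F)))
    (hgβ : gβ.IsIntegral)
    (hgπ : gβ (algebraMap A₀ ↥(zchClosure (A₀ := A₀) ({u'} : Set F₁)) π) =
      algebraMap A₀ ↥(zchClosure (A₀ := A₀) ({u} : Set F)) π)
    (𝔫 : AtPt (F := F) π u) : (s36ptrPt gβ hgβ hgπ 𝔫).1 = 𝔫.1.comap gβ := rfl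

/-- a component `W = β⁻¹ V` of the chart below passes through `𝔫′` if `V` passes through `𝔫` -/
theorem s36ptr_through (β : F₁ →+* F)
    (gβ : ↥(zchClosure (A₀ := A₀) ({u'} : Set F₁)) →+* ↥(zchClosure (A₀ := A₀) ({u} : Set F)))
    (hgβ : gβ.IsIntegral)
    (hcβ : ∀ r, ((gβ r : ↥(zchClosure (A₀ := A₀) ({u} : Set F))) : F) = β (r : F₁))
    (hgπ : gβ (algebraMap A₀ ↥(zchClosure (A₀ := A₀) ({u'} : Set F₁)) π) =
      algebraMap A₀ ↥(zchClosure (A₀ := A₀) ({u} : Set F)) π)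
    (𝔫 : AtPt (F := F) π u) (V : ValuationSubring F) (W : ValuationSubring F₁)
    (hVW : V.comap β = W) (hthr : atThrough 𝔫 V) :
    atThrough (s36ptrPt gβ hgβ hgπ 𝔫) W := by
  intro b hb
  rw [s36ptrPt_val, Ideal.mem_comap]
  apply hthr
  rw [hcβ]
  rw [← hVW] at hb
  exact (s36ptr_mem_nonunits_comap V β _).mp hb

include E in
/-- **REG at a triple point, chart form.**  Charts `B′ = B_{u′}` (below) and `B = B_u` (above)
over the discrete valuation ring `A₀`, chart map `gβ : B′ → B` over `β : F₁ → F`; the chart below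
has two vertical valuation rings `V′ true`, `V′ false`, (SS1), and thin nodes.  At a closed point
`𝔫` of `B` through which `V_a` and `V_b` pass (`β⁻¹ V_a = V′ true`, `β⁻¹ V_b = β⁻¹ V_c = V′ false`)
there are `X, Y ∈ B_𝔫` with `X Y = π`, `𝔪(V_a) = X V_a`, `X` a unit of `V_b` and `V_c`. -/
theorem s36ptr_reg_chart (hπ : Irreducible π)
    [IsNoetherianRing ↥(zchClosure (A₀ := A₀) ({u'} : Set F₁))]
    (β : F₁ →+* F)
    (gβ : ↥(zchClosure (A₀ := A₀) ({u'} : Set F₁)) →+* ↥(zchClosure (A₀ := A₀) ({u} : Set F)))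
    (hgβ : gβ.IsIntegral)
    (hcβ : ∀ r, ((gβ r : ↥(zchClosure (A₀ := A₀) ({u} : Set F))) : F) = β (r : F₁))
    (hβπ : β (algebraMap A₀ F₁ π) = algebraMap A₀ F π)
    -- the chart below
    (V' : Bool → ValuationSubring F₁)
    (hBV' : ∀ c (b : F₁), IsIntegral ↥(Algebra.adjoin A₀ {u'}) b → b ∈ V' c)
    (hπV' : ∀ c, algebraMap A₀ F₁ π ∈ (V' c).nonunits)
    (hSS1' : ∀ b : F₁, IsIntegral ↥(Algebra.adjoin A₀ {u'}) b → (∀ c, b ∈ (V' c).nonunits) →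
      ∃ b' : F₁, IsIntegral ↥(Algebra.adjoin A₀ {u'}) b' ∧ b = algebraMap A₀ F₁ π * b')
    (harch' : ∀ c (a x : F₁), a ∈ (V' c).nonunits → ∃ N : ℕ, a ^ N * x ∈ (V' c).nonunits)
    (hVloc' : ∀ c (x : F₁), x ∈ V' c → ∃ b s : F₁, IsIntegral ↥(Algebra.adjoin A₀ {u'}) b ∧
      IsIntegral ↥(Algebra.adjoin A₀ {u'}) s ∧ s ∉ (V' c).nonunits ∧ s * x = b)
    (hne' : V' true ≠ V' false)
    (hthin : ∀ 𝔫' : AtPt (F := F₁) π u', atThrough 𝔫' (V' true) → atThrough 𝔫' (V' false) →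
      Rtk6lfThinAt (V' true) (V' false) 𝔫')
    -- the chart above
    (Va Vb Vc : ValuationSubring F)
    (hBVa : ∀ b : F, IsIntegral ↥(Algebra.adjoin A₀ {u}) b → b ∈ Va)
    (hca : Va.comap β = V' true) (hcb : Vb.comap β = V' false) (hcc : Vc.comap β = V' false)
    (hUa : ∀ x ∈ Va.nonunits, ∃ z ∈ Va, x = algebraMap A₀ F π * z)
    (𝔫 : AtPt (F := F) π u) (ha : atThrough 𝔫 Va) (hb : atThrough 𝔫 Vb) :
    ∃ X Y : F, X ∈ atLoc 𝔫 ∧ Y ∈ atLoc 𝔫 ∧ X * Y = algebraMap A₀ F π ∧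
      X ∈ Va.nonunits ∧ (∀ x ∈ Va.nonunits, ∃ z ∈ Va, x = X * z) ∧ X⁻¹ ∈ Vb ∧ X⁻¹ ∈ Vc := by
  haveI := 𝔫.2.1.isPrime
  have hπ0' : algebraMap A₀ F₁ π ≠ 0 := ei_algebraMap_ne_zero (E := E) hπ
  have hgπ := s36ptr_map_unif β gβ hcβ hβπ
  have hne'' : ∀ c c', c ≠ c' → V' c ≠ V' c' := by
    intro c c' hcc'
    cases c <;> cases c'
    · exact absurd rfl hcc'
    · exact fun e => hne' e.symm
    · exact hne'
    · exact absurd rfl hcc'
  have harch'' : ∀ c, StbArch (V' c) := fun c x a ha => by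
    obtain ⟨N, hN⟩ := harch' c a x ha
    exact ⟨N, by rw [mul_comm]; exact hN⟩
  have hnle : ∀ c c', c ≠ c' → ¬ V' c ≤ V' c' := fun c c' hcc' =>
    stb_not_le_of_ne (harch'' c) hπ0' (hπV' c') (hne'' c c' hcc')
  have hU' := rtk6lfc_hU (E := E) hπ V' hBV' hπV' hSS1' harch' hVloc' hne''
  -- the point below
  have h1 : atThrough (s36ptrPt gβ hgβ hgπ 𝔫) (V' true) :=
    s36ptr_through β gβ hgβ hcβ hgπ 𝔫 Va (V' true) hca ha
  have h2 : atThrough (s36ptrPt gβ hgβ hgπ 𝔫) (V' false) :=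
    s36ptr_through β gβ hgβ hcβ hgπ 𝔫 Vb (V' false) hcb hb
  rcases hthin (s36ptrPt gβ hgβ hgπ 𝔫) h1 h2 with ⟨s, hs, hgen⟩ | ⟨X', Y'', hcr⟩
  · -- a smooth point lies on one component only
    exact absurd (stb_sx_only V' hBV' hπV' hVloc' hnle (s36ptrPt gβ hgβ hgπ 𝔫) s hs hgen
      true false h1 h2) (by decide)
  · obtain ⟨-, -, hX, hY, ⟨w, hw, hXY⟩, -⟩ := hcr
    exact s36ptr_reg_abs (B := ↥(zchClosure (A₀ := A₀) ({u} : Set F)))
      (B' := ↥(zchClosure (A₀ := A₀) ({u'} : Set F₁))) Subtype.val_injective 𝔫.1 β gβ hcβ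
      Va Vb Vc (V' true) (V' false)
      (stb_loc_le 𝔫 Va hBVa ha) hb hca hcb hcc
      (algebraMap A₀ ↥(zchClosure (A₀ := A₀) ({u'} : Set F₁)) π) (algebraMap A₀ F π) hβπ
      hπ0' (hU' false) (hπV' false) X' Y'' w hw hXY hX hY hUa

end Chart

section Conc

variable {q : ℕ} {A : ValuationSubring (AlgebraicClosure ℚ)} (M : ℕ) [NeZero M] [NeZero q]
  [IsDiscreteValuationRing ↥(beta0Ring A (beta0Field A))]
  {ζ : AlgebraicClosure ℚ}
  (hq : q.Prime) (hA : A.LiesOverPrime q) (hqM : ¬ q ∣ M) (hζ : IsPrimitiveRoot ζ q)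
  (ιC : ↥(beta0Field A) →+* ℂ)
  (h : S36MidEmb ↥(s36n2bK A ζ) q M (s36i1ZK (A := A) hq hζ))

/-- `β` fixes the uniformizer `q` -/
theorem s36ptr_beta_unif :
    s36Beta ↥(beta0Field A) M q
      (algebraMap ↥(beta0Ring A (beta0Field A))
        ↥(modularFunctionFieldFullC ↥(beta0Field A) (M * q))
        ((q : ℕ) : ↥(beta0Ring A (beta0Field A)))) =
      algebraMap ↥(beta0Ring A (beta0Field A))
        ↥(modularFunctionFieldFullC ↥(beta0Field A) (M * q * q))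
        ((q : ℕ) : ↥(beta0Ring A (beta0Field A))) := by
  rw [IsScalarTower.algebraMap_apply ↥(beta0Ring A (beta0Field A)) ↥(beta0Field A)
      ↥(modularFunctionFieldFullC ↥(beta0Field A) (M * q)),
    s36Beta_algebraMap,
    ← IsScalarTower.algebraMap_apply ↥(beta0Ring A (beta0Field A)) ↥(beta0Field A)
      ↥(modularFunctionFieldFullC ↥(beta0Field A) (M * q * q))]

/-- **(c-REG), CONCRETE** = `hreg` of `s36pt_hPt_of` (`S36/PtsTripleInst.lean`): the elements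
`X, Y` at a closed point of the chart `j` of level `M q²` through which `V_a` and `V_b` pass,
from the chart map `gβ` over `β` (helper19) and the thin nodes of the chart `j` of level `M q`
at the points on both components (helper54, helper80). -/
theorem s36ptr_hreg (h2 : q = 2 → 3 ∣ M) (h3 : q = 3 → 2 ∣ M)
    (gβ : ↥(zchClosure (A₀ := ↥(beta0Ring A (beta0Field A)))
        ({bgJ ↥(beta0Field A) (M * q)} :
          Set ↥(modularFunctionFieldFullC ↥(beta0Field A) (M * q)))) →+*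
      ↥(zchClosure (A₀ := ↥(beta0Ring A (beta0Field A)))
        ({bgJ ↥(beta0Field A) (M * q * q)} :
          Set ↥(modularFunctionFieldFullC ↥(beta0Field A) (M * q * q)))))
    (hgβ : gβ.IsIntegral)
    (hcβ : ∀ r, ((gβ r : ↥(zchClosure (A₀ := ↥(beta0Ring A (beta0Field A)))
        ({bgJ ↥(beta0Field A) (M * q * q)} :
          Set ↥(modularFunctionFieldFullC ↥(beta0Field A) (M * q * q))))) :
        ↥(modularFunctionFieldFullC ↥(beta0Field A) (M * q * q))) =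
      s36Beta ↥(beta0Field A) M q (r : ↥(modularFunctionFieldFullC ↥(beta0Field A) (M * q))))
    (hthin : ∀ 𝔫' : AtPt (F := ↥(modularFunctionFieldFullC ↥(beta0Field A) (M * q)))
        ((q : ℕ) : ↥(beta0Ring A (beta0Field A))) (bgJ ↥(beta0Field A) (M * q)),
      atThrough 𝔫' (mgvV (beta0Ring_irreducible_q hq hA) ιC hq hqM true) →
      atThrough 𝔫' (mgvV (beta0Ring_irreducible_q hq hA) ιC hq hqM false) →
      Rtk6lfThinAt (mgvV (beta0Ring_irreducible_q hq hA) ιC hq hqM true)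
        (mgvV (beta0Ring_irreducible_q hq hA) ιC hq hqM false) 𝔫')
    (𝔫 : AtPt (F := ↥(modularFunctionFieldFullC ↥(beta0Field A) (M * q * q)))
      ((q : ℕ) : ↥(beta0Ring A (beta0Field A))) (bgJ ↥(beta0Field A) (M * q * q)))
    (ha : atThrough 𝔫 (s36i1V M hq hA hqM hζ ιC h S36Comp.a))
    (hb : atThrough 𝔫 (s36i1V M hq hA hqM hζ ιC h S36Comp.b)) :
    ∃ X Y : ↥(modularFunctionFieldFullC ↥(beta0Field A) (M * q * q)),
      X ∈ atLoc 𝔫 ∧ Y ∈ atLoc 𝔫 ∧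
      X * Y = algebraMap ↥(beta0Ring A (beta0Field A))
        ↥(modularFunctionFieldFullC ↥(beta0Field A) (M * q * q))
        ((q : ℕ) : ↥(beta0Ring A (beta0Field A))) ∧
      X ∈ (s36i1V M hq hA hqM hζ ιC h S36Comp.a).nonunits ∧
      (∀ x ∈ (s36i1V M hq hA hqM hζ ιC h S36Comp.a).nonunits,
        ∃ z ∈ s36i1V M hq hA hqM hζ ιC h S36Comp.a, x = X * z) ∧
      X⁻¹ ∈ s36i1V M hq hA hqM hζ ιC h S36Comp.b ∧
      X⁻¹ ∈ s36i1V M hq hA hqM hζ ιC h S36Comp.c := by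
  have hπ : Irreducible ((q : ℕ) : ↥(beta0Ring A (beta0Field A))) :=
    beta0Ring_irreducible_q hq hA
  have ht := bgConst_transcendental_bgJ ↥(beta0Field A) (M * q)
  haveI : FiniteDimensional (↥(beta0Field A))⟮bgJ ↥(beta0Field A) (M * q)⟯
      ↥(modularFunctionFieldFullC ↥(beta0Field A) (M * q)) :=
    bgFin_finiteDimensional_full ↥(beta0Field A) (M * q)
  haveI : IsNoetherianRing ↥(zchClosure (A₀ := ↥(beta0Ring A (beta0Field A)))
      ({bgJ ↥(beta0Field A) (M * q)} :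
        Set ↥(modularFunctionFieldFullC ↥(beta0Field A) (M * q)))) :=
    chart_closure_isNoetherianRing (A₀ := ↥(beta0Ring A (beta0Field A)))
      (E := ↥(beta0Field A)) ht
  haveI : Fact q.Prime := ⟨hq⟩
  haveI : CharP (IsLocalRing.ResidueField ↥(beta0Ring A (beta0Field A))) q := mgvl_charP hq hA
  have hSS1 := mgcb_reg_SS1_J (K₀ := beta0Field A) hπ ιC hq hqM hA
    (stb_regChart_conc_J M hq hA le_rfl hπ hqM h2 h3)
  exact s36ptr_reg_chart (E := ↥(beta0Field A)) hπ (s36Beta ↥(beta0Field A) M q) gβ hgβ hcβ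
    (s36ptr_beta_unif M)
    (mgvV hπ ιC hq hqM) (mgv_hBV₁ hπ ιC hq hqM) (mgv_hπV hπ ιC hq hqM) hSS1
    (mgv_harch hπ ιC hq hqM) (mgv_hVloc₁ hπ ιC hq hqM hA hSS1)
    (mgvl_vtFam_ne (vtBase_residue hπ) ιC hq hqM) hthin
    (s36i1V M hq hA hqM hζ ιC h S36Comp.a) (s36i1V M hq hA hqM hζ ιC h S36Comp.b)
    (s36i1V M hq hA hqM hζ ιC h S36Comp.c)
    (s36i1c_hBV₁ M hq hA hqM hζ ιC h S36Comp.a)
    (s36i1c_comap_beta M hq hA hqM hζ ιC h S36Comp.a)
    (s36i1c_comap_beta M hq hA hqM hζ ιC h S36Comp.b)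
    (s36i1c_comap_beta M hq hA hqM hζ ιC h S36Comp.c)
    (fun x hx => s36i1c_hU M hq hA hqM hζ ιC h x hx) 𝔫 ha hb

end Conc

end Fermat.Agent.S36

end
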