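import Fermat.Agent.S36.PtsPlan
import Fermat.Agent.S36.PtsTripleLvM
import Fermat.Agent.S36.PtsTripleReg
import Fermat.Agent.S36.PtsTripleNg

/-!
# S36 / (I6)(c) (helper50): `StmtS36PtsTriple` from the thin nodes of level `M q`

`StmtS36PtsTriple` (`S36/PtsPlan.lean`, helper31) is helper6's assembly `s36ptl_hPt_of`
(`S36/PtsTripleLvM.lean`) applied to

* `hreg` : `s36ptr_hreg` (`S36/PtsTripleReg.lean`) with the chart map `gβ = s36nglCmBeta`
  (helper19) — needs the thin nodes of the chart `j` of level `M q` (`StmtS36ThinJ` below,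
  helper54 `RT/K6/DLFConc.lean`);
* `hNα`, `hNβ` : `s36ptn_alpha`, `s36ptn_beta` (`S36/PtsTripleNg.lean`).

Results: `StmtS36ThinJ` (the only input), `stmtS36PtsTriple_of_thin`.
-/

set_option autoImplicit false
set_option linter.style.haveILetI false
set_option linter.unusedSectionVars false
set_option linter.unusedVariables false
set_option linter.style.longLine false
set_option linter.constructorNameAsVariable false
set_option synthInstance.maxHeartbeats 400000
set_option maxHeartbeats 1000000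

noncomputable section

namespace Fermat.Agent.S36

open ModularCurve AlgebraicCurve Fermat.Agent.ES Fermat.Agent.ES.G2 Fermat.Agent.INJ
open Fermat.Agent.UNIP Fermat.Agent.STB Fermat.Agent.RT.K6 IntermediateField

/-- **The thin nodes of the chart `j` of level `M q`** (over `E₀ = beta0Field A`): at every closed
point `𝔫′` of the chart through which both vertical components `V′_∞`, `V′_0` pass, the
relation of the node is thin (`Rtk6lfThinAt`). -/
def StmtS36ThinJ : Prop :=
  ∀ (M q : ℕ) [NeZero M] [NeZero q] (hq : q.Prime) (hR : S36Rigid M q)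
    (A : ValuationSubring (AlgebraicClosure ℚ)) (hA : A.LiesOverPrime q)
    [IsDiscreteValuationRing ↥(beta0Ring A (beta0Field A))]
    (ιC : ↥(beta0Field A) →+* ℂ),
    ∀ 𝔫' : AtPt (F := ↥(modularFunctionFieldFullC ↥(beta0Field A) (M * q)))
        ((q : ℕ) : ↥(beta0Ring A (beta0Field A))) (bgJ ↥(beta0Field A) (M * q)),
      atThrough 𝔫' (mgvV (beta0Ring_irreducible_q hq hA) ιC hq hR.1 true) →
      atThrough 𝔫' (mgvV (beta0Ring_irreducible_q hq hA) ιC hq hR.1 false) →
      Rtk6lfThinAt (mgvV (beta0Ring_irreducible_q hq hA) ιC hq hR.1 true)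
        (mgvV (beta0Ring_irreducible_q hq hA) ιC hq hR.1 false) 𝔫'

theorem s36ptf_rigid_h2 {M q : ℕ} (hR : S36Rigid M q) : q = 2 → 3 ∣ M := fun h2 =>
  dvd_trans (by decide : 3 ∣ 9) (hR.2.2 h2)

theorem s36ptf_rigid_h3 {M q : ℕ} (hR : S36Rigid M q) : q = 3 → 2 ∣ M := fun h3 =>
  dvd_trans (by decide : 2 ∣ 4) (hR.2.1 (by omega))

/-- **(I6)(c)**: `StmtS36PtsTriple` from the thin nodes of level `M q`. -/
theorem stmtS36PtsTriple_of_thin (hthin : StmtS36ThinJ) : StmtS36PtsTriple := by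
  intro M q p _ _ hq hp hpq hp2 hR A hA _ ζ hζ ιC ιK h r ζm hζm 𝔫 hthr
  have h2 := s36ptf_rigid_h2 hR
  have h3 := s36ptf_rigid_h3 hR
  exact s36ptl_hPt_of M hq hA hR.1 hζ ιC h h2 h3 ιK 𝔫 hthr
    (s36ptr_hreg M hq hA hR.1 hζ ιC h h2 h3
      (s36nglCmBeta ↥(beta0Ring A (beta0Field A)) ↥(beta0Field A) M q hq)
      (s36nglCmBeta_isIntegral hq) (s36nglCmBeta_coe hq)
      (hthin M q hq hR A hA ιC) 𝔫 (hthr S36Comp.a) (hthr S36Comp.b))
    (p ^ r) _
    (s36ptn_alpha M hq hA hR.1 hζ ιC h h2 h3 ιK 𝔫 hthr (pow_pos hp.pos r) ζm)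
    (s36ptn_beta M hq hA hR.1 hζ ιC h h2 h3 ιK 𝔫 hthr (pow_pos hp.pos r) ζm)

end Fermat.Agent.S36

end
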