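import Fermat.Agent.S36.PtsTripleChart
import Fermat.Agent.S36.N2ValI1
import Fermat.Agent.S36.N2LocMain
import Fermat.Agent.S36.TopSetting
import Fermat.Agent.S36.NormOrdData
import Fermat.Agent.INJ.BGFin
import Fermat.Agent.INJ.ChartFinite

/-!
# S36 / (I6)(c) (helper37): `S36PtInput` at the TRIPLE points, concrete family

Concrete setting of `S36/SmallPart.lean`: `A₀ = beta0Ring A E₀`, `E₀ = beta0Field A`,
`F = F_{Mqq}(E₀)`, chart `t = bgJ E₀ (M q q)`, `V = s36i1V M hq hA hqM hζ ιC h`.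

* `s36pt_hPt_of` : `S36PtInput` at a closed point `𝔫` of the chart `j` through which all three
  components pass (= `hPt` of `s36pf_h1`, `S36/PtsFinal.lean`), from
    (I2) `hKR` on the chart `j`,
    (1)  the level-`M` data `ga gb : C →+* B` with (F1), the regular point, (Ka), (Kb), (Kc),
    (2)  the elements `X, Y` of the thin node (`hreg`),
    (3)  the two packages `NgLoc`.
-/

set_option autoImplicit false
set_option linter.style.haveILetI false
set_option linter.unusedSectionVars false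
set_option linter.unusedVariables false
set_option linter.constructorNameAsVariable false

noncomputable section

namespace Fermat.Agent.S36

open ModularCurve AlgebraicCurve Fermat.Agent.ES Fermat.Agent.ES.G2 Fermat.Agent.INJ
open Fermat.Agent.UNIP Fermat.Agent.STB IntermediateField

section Skeleton

variable {q : ℕ} {A : ValuationSubring (AlgebraicClosure ℚ)} (M : ℕ) [NeZero M] [NeZero q]
  [IsDiscreteValuationRing ↥(beta0Ring A (beta0Field A))]
  {ζ : AlgebraicClosure ℚ}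
  (hq : q.Prime) (hA : A.LiesOverPrime q) (hqM : ¬ q ∣ M) (hζ : IsPrimitiveRoot ζ q)
  (ιC : ↥(beta0Field A) →+* ℂ)
  (h : S36MidEmb ↥(s36n2bK A ζ) q M (s36i1ZK (A := A) hq hζ))

/-- **(c), skeleton**: `hPt` of `s36pf_h1` at the concrete family. -/
theorem s36pt_hPt_of
    (hKR : ∀ x : ↥(modularFunctionFieldFullC ↥(beta0Field A) (M * q * q)),
      IsIntegral ↥(Algebra.adjoin ↥(beta0Ring A (beta0Field A))
          {bgJ ↥(beta0Field A) (M * q * q)})
        (algebraMap ↥(beta0Ring A (beta0Field A))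
          ↥(modularFunctionFieldFullC ↥(beta0Field A) (M * q * q))
          ((q : ℕ) : ↥(beta0Ring A (beta0Field A))) * x) →
      (∀ c, x ∈ s36i1V M hq hA hqM hζ ιC h c) →
        IsIntegral ↥(Algebra.adjoin ↥(beta0Ring A (beta0Field A))
          {bgJ ↥(beta0Field A) (M * q * q)}) x)
    (𝔫 : AtPt (F := ↥(modularFunctionFieldFullC ↥(beta0Field A) (M * q * q)))
      ((q : ℕ) : ↥(beta0Ring A (beta0Field A))) (bgJ ↥(beta0Field A) (M * q * q)))
    (hthr : ∀ c, atThrough 𝔫 (s36i1V M hq hA hqM hζ ιC h c))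
    -- (1) level `M`
    {C : Type*} [CommRing C]
    (ga gb : C →+* ↥(zchClosure (A₀ := ↥(beta0Ring A (beta0Field A)))
      ({bgJ ↥(beta0Field A) (M * q * q)} :
        Set ↥(modularFunctionFieldFullC ↥(beta0Field A) (M * q * q)))))
    (hFa : ∀ b : ↥(zchClosure (A₀ := ↥(beta0Ring A (beta0Field A)))
        ({bgJ ↥(beta0Field A) (M * q * q)} :
          Set ↥(modularFunctionFieldFullC ↥(beta0Field A) (M * q * q)))), ∃ c : C,
      (b : ↥(modularFunctionFieldFullC ↥(beta0Field A) (M * q * q))) - (ga c : _) ∈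
        (s36i1V M hq hA hqM hζ ιC h S36Comp.a).nonunits)
    (hFb : ∀ b : ↥(zchClosure (A₀ := ↥(beta0Ring A (beta0Field A)))
        ({bgJ ↥(beta0Field A) (M * q * q)} :
          Set ↥(modularFunctionFieldFullC ↥(beta0Field A) (M * q * q)))), ∃ c : C,
      (b : ↥(modularFunctionFieldFullC ↥(beta0Field A) (M * q * q))) - (gb c : _) ∈
        (s36i1V M hq hA hqM hζ ιC h S36Comp.b).nonunits)
    (hFc : ∀ b : ↥(zchClosure (A₀ := ↥(beta0Ring A (beta0Field A)))
        ({bgJ ↥(beta0Field A) (M * q * q)} :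
          Set ↥(modularFunctionFieldFullC ↥(beta0Field A) (M * q * q)))), ∃ c : C,
      (b : ↥(modularFunctionFieldFullC ↥(beta0Field A) (M * q * q))) - (ga c : _) ∈
        (s36i1V M hq hA hqM hζ ιC h S36Comp.c).nonunits)
    (πC s : C)
    (hgaπ : ga πC = algebraMap ↥(beta0Ring A (beta0Field A)) _
      ((q : ℕ) : ↥(beta0Ring A (beta0Field A))))
    (hgbπ : gb πC = algebraMap ↥(beta0Ring A (beta0Field A)) _
      ((q : ℕ) : ↥(beta0Ring A (beta0Field A))))
    (hs : ga s ∈ 𝔫.1) (hgen : NodesLocGen (𝔫.1.comap ga) {πC, s})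
    (ψ₂ : C → C) {Q₂ : ℕ} (hQ₂ : 2 ≤ Q₂)
    (hKa : ∀ c : C, ((gb c : _) : ↥(modularFunctionFieldFullC ↥(beta0Field A) (M * q * q))) -
        (ga (ψ₂ c) : _) ^ Q₂ ∈ (s36i1V M hq hA hqM hζ ιC h S36Comp.a).nonunits)
    (hKb : ∀ c : C, ((ga c : _) : ↥(modularFunctionFieldFullC ↥(beta0Field A) (M * q * q))) -
        (gb (ψ₂ c) : _) ^ Q₂ ∈ (s36i1V M hq hA hqM hζ ιC h S36Comp.b).nonunits)
    (hKc : ∀ c : C, ((gb c : _) : ↥(modularFunctionFieldFullC ↥(beta0Field A) (M * q * q))) -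
        (ga c : _) ∈ (s36i1V M hq hA hqM hζ ιC h S36Comp.c).nonunits)
    -- (2) REG
    (hreg : ∃ X Y : ↥(modularFunctionFieldFullC ↥(beta0Field A) (M * q * q)),
      X ∈ atLoc 𝔫 ∧ Y ∈ atLoc 𝔫 ∧
      X * Y = algebraMap ↥(beta0Ring A (beta0Field A))
        ↥(modularFunctionFieldFullC ↥(beta0Field A) (M * q * q))
        ((q : ℕ) : ↥(beta0Ring A (beta0Field A))) ∧
      X ∈ (s36i1V M hq hA hqM hζ ιC h S36Comp.a).nonunits ∧
      (∀ x ∈ (s36i1V M hq hA hqM hζ ιC h S36Comp.a).nonunits,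
        ∃ z ∈ s36i1V M hq hA hqM hζ ιC h S36Comp.a, x = X * z) ∧
      X⁻¹ ∈ s36i1V M hq hA hqM hζ ιC h S36Comp.b ∧
      X⁻¹ ∈ s36i1V M hq hA hqM hζ ιC h S36Comp.c)
    -- (3) NgLoc
    (m : ℕ) (ζ₁ : ↥(modularFunctionFieldFullC ↥(beta0Field A) (M * q)))
    (hNα : ∃ Oα : Subring ↥(modularFunctionFieldFullC ↥(beta0Field A) (M * q)),
      NgLoc (s36Alpha ↥(beta0Field A) M q) (s36NormAlpha ↥(beta0Field A) M q)
        (s36i1V M hq hA hqM hζ ιC h S36Comp.a) (s36i1V M hq hA hqM hζ ιC h S36Comp.c) m ζ₁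
        (atLoc 𝔫) Oα)
    (hNβ : ∃ Oβ : Subring ↥(modularFunctionFieldFullC ↥(beta0Field A) (M * q)),
      NgLoc (s36Beta ↥(beta0Field A) M q) (s36NormBeta ↥(beta0Field A) M q)
        (s36i1V M hq hA hqM hζ ιC h S36Comp.b) (s36i1V M hq hA hqM hζ ιC h S36Comp.c) m ζ₁
        (atLoc 𝔫) Oβ) :
    @S36PtInput ↥(modularFunctionFieldFullC ↥(beta0Field A) (M * q))
      ↥(modularFunctionFieldFullC ↥(beta0Field A) (M * q * q)) _ _ S36Comp
      (s36Hor ↥(beta0Field A) m) m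
      (s36Alpha ↥(beta0Field A) M q) (s36Beta ↥(beta0Field A) M q)
      (s36NormAlpha ↥(beta0Field A) M q) (s36NormBeta ↥(beta0Field A) M q) ζ₁
      (s36i1V M hq hA hqM hζ ιC h) S36Comp.a S36Comp.b S36Comp.c
      (atO ((q : ℕ) : ↥(beta0Ring A (beta0Field A))) (bgJ ↥(beta0Field A) (M * q * q))
        (Sum.inl 𝔫))
      (stb_atO_isLocalRing (π := ((q : ℕ) : ↥(beta0Ring A (beta0Field A))))
        (bgJ ↥(beta0Field A) (M * q * q)) (Sum.inl 𝔫))
      (atInc ((q : ℕ) : ↥(beta0Ring A (beta0Field A))) (bgJ ↥(beta0Field A) (M * q * q))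
        (s36i1V M hq hA hqM hζ ιC h) (Sum.inl 𝔫)) := by
  have hπ : Irreducible ((q : ℕ) : ↥(beta0Ring A (beta0Field A))) :=
    beta0Ring_irreducible_q hq hA
  have ht := bgConst_transcendental_bgJ ↥(beta0Field A) (M * q * q)
  haveI : FiniteDimensional (↥(beta0Field A))⟮bgJ ↥(beta0Field A) (M * q * q)⟯
      ↥(modularFunctionFieldFullC ↥(beta0Field A) (M * q * q)) :=
    bgFin_finiteDimensional_full ↥(beta0Field A) (M * q * q)
  haveI : IsNoetherianRing ↥(zchClosure (A₀ := ↥(beta0Ring A (beta0Field A)))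
      ({bgJ ↥(beta0Field A) (M * q * q)} :
        Set ↥(modularFunctionFieldFullC ↥(beta0Field A) (M * q * q)))) :=
    chart_closure_isNoetherianRing (A₀ := ↥(beta0Ring A (beta0Field A)))
      (E := ↥(beta0Field A)) ht
  obtain ⟨κ, -, hκ⟩ := s36n2b_compat (A := A) (ζ := ζ) hq hA
  haveI : CharP (IsLocalRing.ResidueField ↥(beta0Ring A (beta0Field A))) q := mgvl_charP hq hA
  haveI : CharP (IsLocalRing.ResidueField ↥(beta0Ring A (s36n2bK A ζ))) q := mgvl_charP hq hA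
  have hVloc := s36n2l_hVloc₁ (vtBase_residue hπ) (s36n2b_vtBase hq hA hζ)
    (IntermediateField.inclusion (s36n2b_le_K A ζ)).toRingHom ιC hq hqM h (s36i1Z hq hζ) rfl
    hπ hκ (s36n2b_residue_zeta hq hA hζ) hKR
  exact s36pt_atPt_inl (E := ↥(beta0Field A)) hπ (s36i1V M hq hA hqM hζ ιC h)
    (s36i1c_hBV₁ M hq hA hqM hζ ιC h) (s36i1c_hπV M hq hA hqM hζ ιC h) hKR (q ^ 1)
    (s36i1c_hram M hq hA hqM hζ ιC h) 𝔫 S36Comp.a S36Comp.b S36Comp.c s36i1_hκ hthr hVloc
    ga gb hFa hFb hFc πC s hgaπ hgbπ hs hgen ψ₂ hQ₂ hKa hKb hKc hreg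
    (s36Hor ↥(beta0Field A) m) m (fun y hy => hy)
    (s36Alpha ↥(beta0Field A) M q) (s36Beta ↥(beta0Field A) M q)
    (s36NormAlpha ↥(beta0Field A) M q) (s36NormBeta ↥(beta0Field A) M q) ζ₁ hNα hNβ

end Skeleton

end Fermat.Agent.S36

end
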