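import Fermat.Agent.S36.N2Val
import Fermat.Agent.S36.MidThetaMod
import Fermat.Agent.UNIP.FrStab
import Fermat.Agent.UNIP.MGVertCompat

/-!
# S36 / (I6)(c): the Frobenius congruences (Ka), (Kb), (Kc) at the three vertical valuations
(helper37)

Setting of `S36/N2Val.lean` (`V = s36n2V hB hB' ψ ιC hq hqM h z hz`), plus a Frobenius lift
`ψA : A →+* A`, `ψE : E →+* E`, `θ : k →+* k` (`θ = Frob⁻¹`), as in `UNIP/NodesFrobInst.lean`.

Series level (any `x` in the Gauss ring):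
* `s36ptk_series_frob` : `x(Q^{q²}) − (ψE² x)^{q²}` has reduction `0`;
* `s36ptk_series_rot`  : `x(ζ Q) − x` has reduction `0` if `ζ ≡ 1`.

Valuation level, for `c ∈ F_M` in the Gauss ring and elements `u, v` of `F = F_{M q²}` given by
their expansions:
* **`s36ptk_Ka`** : `u = c(Q^{q²})`, `v = ψE² c`  ⇒ `u − v ^ q² ∈ 𝔪(V_a)`;
* **`s36ptk_Kb`** : `u = c`, `v = (ψE² c)(Q^{q²})` ⇒ `u − v ^ q² ∈ 𝔪(V_b)`;
* **`s36ptk_Kc`** : `u = c(Q^{q²})`, `v = c`      ⇒ `u − v ∈ 𝔪(V_c)`.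
-/

set_option autoImplicit false
set_option linter.unusedSectionVars false
set_option linter.unusedVariables false
set_option linter.style.haveILetI false

noncomputable section

namespace Fermat.Agent.S36

open ModularCurve Fermat.Agent.UNIP Fermat.Agent.INJ Fermat.Agent.AL Fermat.Agent.ES

/-! ### A. series level -/

section Series

variable {A E k : Type*} [CommRing A] [Field E] [Field k]
  {ι : A →+* E} {r : A →+* k}

/-- `x(Q^{q²}) ≡ (ψE² x)^{q²}` in the Gauss ring. -/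
theorem s36ptk_series_frob (hι : Function.Injective ι) (q : ℕ) [hq : Fact q.Prime] [NeZero q]
    [CharP k q] (ψA : A →+* A) (ψE : E →+* E) (θ : k →+* k)
    (hψ : ∀ a, ψE (ι a) = ι (ψA a)) (hθ : ∀ a, r (ψA a) = θ (r a)) (hθq : ∀ x, θ x ^ q = x)
    {x : LaurentSeries E} (hx : x ∈ gaussRing ι r) :
    ∃ h : qExpand E q (qExpand E q x) - (coeffMap ψE (coeffMap ψE x)) ^ (q ^ 2) ∈ gaussRing ι r,
      gaussRed r hι ⟨_, h⟩ = 0 := by
  have h1 : qExpand E q x ∈ gaussRing ι r := s36n2_qExpand_mem q hx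
  have h2 : qExpand E q (qExpand E q x) ∈ gaussRing ι r := s36n2_qExpand_mem q h1
  have h3 : coeffMap ψE x ∈ gaussRing ι r := frStab_mem_gaussRing ι r ψA ψE θ hψ hθ hx
  have h4 : coeffMap ψE (coeffMap ψE x) ∈ gaussRing ι r :=
    frStab_mem_gaussRing ι r ψA ψE θ hψ hθ h3
  have hmem : qExpand E q (qExpand E q x) - (coeffMap ψE (coeffMap ψE x)) ^ (q ^ 2) ∈
      gaussRing ι r := (gaussRing ι r).sub_mem h2 ((gaussRing ι r).pow_mem h4 _)
  refine ⟨hmem, ?_⟩
  have e0 : (⟨_, hmem⟩ : gaussRing ι r) =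
      ⟨qExpand E q (qExpand E q x), h2⟩ - ⟨coeffMap ψE (coeffMap ψE x), h4⟩ ^ (q ^ 2) := rfl
  have e1 : gaussRed r hι ⟨qExpand E q (qExpand E q x), h2⟩ =
      qExpand k q (qExpand k q (gaussRed r hι ⟨x, hx⟩)) := by
    have a1 := s36n2_gaussRed_qExpand (r := r) hι q ⟨qExpand E q x, h1⟩
    have a2 := s36n2_gaussRed_qExpand (r := r) hι q ⟨x, hx⟩
    rw [a2] at a1
    exact a1
  have e2 : gaussRed r hι ⟨coeffMap ψE (coeffMap ψE x), h4⟩ =
      coeffMap θ (coeffMap θ (gaussRed r hι ⟨x, hx⟩)) := by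
    have a1 := frStab_gaussRed r ψA ψE θ hι hψ hθ ⟨coeffMap ψE x, h3⟩
    have a2 := frStab_gaussRed r ψA ψE θ hι hψ hθ ⟨x, hx⟩
    rw [a2] at a1
    exact a1
  rw [e0, map_sub, map_pow, e1, e2, s36th_qExpand_sq_frob q θ hθq, sub_self]

/-- `x(ζ Q) ≡ x` in the Gauss ring, if `ζ ≡ 1`. -/
theorem s36ptk_series_rot (hι : Function.Injective ι) (z : Aˣ) (hz1 : r (z : A) = 1)
    {x : LaurentSeries E} (hx : x ∈ gaussRing ι r) :
    ∃ h : kronRot (Units.map (ι : A →* E) z) x - x ∈ gaussRing ι r,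
      gaussRed r hι ⟨_, h⟩ = 0 := by
  have h1 : kronRot (Units.map (ι : A →* E) z) x ∈ gaussRing ι r := s36n2_kronRot_mem z hx
  have hmem : kronRot (Units.map (ι : A →* E) z) x - x ∈ gaussRing ι r :=
    (gaussRing ι r).sub_mem h1 hx
  refine ⟨hmem, ?_⟩
  have e0 : (⟨_, hmem⟩ : gaussRing ι r) =
      ⟨kronRot (Units.map (ι : A →* E) z) x, h1⟩ - ⟨x, hx⟩ := rfl
  obtain ⟨T, b, hb, h⟩ := hx
  have hrz : Units.map (r : A →* k) z = 1 := by
    apply Units.ext
    show r (z : A) = 1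
    exact hz1
  have hb' : coeffMap r (kronRot z b) ≠ 0 := by
    rw [coeffMap_kronRot]
    exact s36n2_kronRot_ne_zero _ hb
  have e1 : gaussRed r hι ⟨kronRot (Units.map (ι : A →* E) z) x, h1⟩ =
      coeffMap r T / coeffMap r b := by
    rw [gaussRed_eq r hι _ (kronRot z T) (kronRot z b) hb'
      (by
        show coeffMap ι (kronRot z b) * kronRot (Units.map (ι : A →* E) z) x = _
        rw [← s36n2_kronRot_coeffMap, ← s36n2_kronRot_coeffMap, ← map_mul, h]),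
      coeffMap_kronRot, coeffMap_kronRot, hrz, kronRot_one, kronRot_one]
  rw [e0, map_sub, e1, gaussRed_eq r hι ⟨x, ⟨T, b, hb, h⟩⟩ T b hb h, sub_self]

end Series

/-! ### B. valuation level -/

section Val

variable {A E k A' E' k' : Type*} [CommRing A] [IsDomain A] [Field E] [Algebra A E]
  [IsFractionRing A E] [Field k] [CommRing A'] [Field E'] [Field k']
  {r : A →+* k} {π : A} {ι' : A' →+* E'} {r' : A' →+* k'} {π' : A'}
  (hB : VtBase (algebraMap A E) r π) (hB' : VtBase ι' r' π')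
  (ψ : E →+* E') (ιC : E →+* ℂ) (ιK : E' →+* ℂ)
  {q M : ℕ} [NeZero q] [NeZero M] [NeZero (M * q)] [NeZero (M * q * q)]
  (hq : q.Prime) (hqM : ¬ q ∣ M)
  {ζ : E'ˣ} (h : S36MidEmb E' q M ζ) (z : A'ˣ) (hz : Units.map (ι' : A' →* E') z = ζ)

/-- an element whose expansion has reduction `0` is a nonunit of the vertical valuation -/
theorem s36ptk_nonunits_of_series {A E k F : Type*} [CommRing A] [Field E] [Field k] [Field F]
    {ι : A →+* E} {r : A →+* k} {π : A} (hB : VtBase ι r π) (e : F →+* LaurentSeries E)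
    (hfrac : ∀ x : F, VtFrac ι (e x)) {x : F} {y : LaurentSeries E} (hxy : e x = y)
    (hy : ∃ h : y ∈ gaussRing ι r, gaussRed r hB.inj ⟨y, h⟩ = 0) :
    x ∈ (vtSub hB e hfrac).nonunits := by
  subst hxy
  exact (vtSub_mem_nonunits_iff hB e hfrac).mpr hy

/-- **(Ka)**: `c(Q^{q²}) ≡ (ψE² c)^{q²}` at `V_a`. -/
theorem s36ptk_Ka [Fact q.Prime] [CharP k q] (ψA : A →+* A) (ψE : E →+* E) (θ : k →+* k)
    (hψ : ∀ a, ψE (algebraMap A E a) = algebraMap A E (ψA a))
    (hθ : ∀ a, r (ψA a) = θ (r a)) (hθq : ∀ x, θ x ^ q = x)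
    {c : LaurentSeries E} (hc : c ∈ gaussRing (algebraMap A E) r)
    (u v : modularFunctionFieldFullC E (M * q * q))
    (hu : (u : LaurentSeries E) = qExpand E q (qExpand E q c))
    (hv : (v : LaurentSeries E) = coeffMap ψE (coeffMap ψE c)) :
    u - v ^ (q ^ 2) ∈ (s36n2VA (q := q) (M := M) hB).nonunits := by
  refine s36ptk_nonunits_of_series hB (vtEmb E (M * q * q))
    (fun x => vt_frac_fullC hB (M * q * q) x.2) ?_
    (s36ptk_series_frob hB.inj q ψA ψE θ hψ hθ hθq hc)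
  rw [map_sub, map_pow, vtEmb_apply, vtEmb_apply, hu, hv]

/-- **(Kb)**: `c ≡ ((ψE² c)(Q^{q²}))^{q²}` at `V_b`. -/
theorem s36ptk_Kb [Fact q.Prime] [CharP k q] (ψA : A →+* A) (ψE : E →+* E) (θ : k →+* k)
    (hψ : ∀ a, ψE (algebraMap A E a) = algebraMap A E (ψA a))
    (hθ : ∀ a, r (ψA a) = θ (r a)) (hθq : ∀ x, θ x ^ q = x)
    {c : LaurentSeries E} (hcM : c ∈ modularFunctionFieldFullC E M)
    (hc : c ∈ gaussRing (algebraMap A E) r)
    (u v : modularFunctionFieldFullC E (M * q * q))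
    (hu : (u : LaurentSeries E) = c)
    (hv : (v : LaurentSeries E) = qExpand E q (qExpand E q (coeffMap ψE (coeffMap ψE c)))) :
    u - v ^ (q ^ 2) ∈ (s36n2VB hB ιC hq hqM).nonunits := by
  have hc' : coeffMap ψE (coeffMap ψE c) ∈ modularFunctionFieldFullC E M :=
    al_coeffMap_mem E M ψE (al_coeffMap_mem E M ψE hcM)
  refine s36ptk_nonunits_of_series hB (s36n2EmbB ιC hq hqM)
    (fun x => vt_frac_fullC hB (M * q * q) (s36n2W E ιC hq hqM x).2) ?_
    (s36ptk_series_frob hB.inj q ψA ψE θ hψ hθ hθq hc)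
  have eu : u = ⟨c, s36n2_mem_of_mem_base E hcM⟩ := Subtype.ext hu
  have ev : v = ⟨qExpand E q (qExpand E q (coeffMap ψE (coeffMap ψE c))),
      alq_qExpand_mem E (al_qExpand_mem E hc')⟩ := Subtype.ext hv
  rw [map_sub, map_pow, s36n2EmbB_apply, s36n2EmbB_apply, eu, ev,
    s36n2W_base E ιC hq hqM hcM, s36n2W_qExpand_sq E ιC hq hqM hc']

include ιK hqM in
/-- **(Kc)**: `c(Q^{q²}) ≡ c` at `V_c`. -/
theorem s36ptk_Kc {κ : k →+* k'} (hcomp : VtCompat (algebraMap A E) r ι' r' ψ κ)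
    (hζq : ζ ^ q = 1) (hz1 : r' (z : A') = 1)
    {c : LaurentSeries E} (hcM : c ∈ modularFunctionFieldFullC E M)
    (hc : c ∈ gaussRing (algebraMap A E) r)
    (u v : modularFunctionFieldFullC E (M * q * q))
    (hu : (u : LaurentSeries E) = qExpand E q (qExpand E q c))
    (hv : (v : LaurentSeries E) = c) :
    u - v ∈ (s36n2VC hB' ψ hq h z hz).nonunits := by
  have hf : coeffMap ψ c ∈ modularFunctionFieldFullC E' M := nf_coeffMap_mem_fullC ψ M hcM
  have hfG : coeffMap ψ c ∈ gaussRing ι' r' := vt_compat_mem hcomp hc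
  have hrot := s36ptk_series_rot (r := r') hB'.inj z hz1 hfG
  rw [hz] at hrot
  refine s36ptk_nonunits_of_series hB' (s36n2EmbC ψ h)
    (fun _ => s36n2_frac_emb hB' hq h z hz _) ?_ hrot
  rw [s36n2EmbC_apply, ← s36th_emb_Pi ιK hq hqM h hζq hf]
  congr 1
  apply Subtype.ext
  show coeffMap ψ ((u : LaurentSeries E) - (v : LaurentSeries E)) = _
  rw [hu, hv, map_sub, coeffMap_qExpand, coeffMap_qExpand]

end Val

end Fermat.Agent.S36

end
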