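import Fermat.Agent.S36.RegAlg

/-!
# S36 (Carayol), wall Q2-loc: the crossing criterion with a LOWER bound only (helper37)

In `s36reg_span_eq` the hypothesis `hu : ∀ f ∈ 𝔭, u ∣ f ^ n` already gives `u ∣ s ^ n`, i.e. the
order of the image of `u` along `𝔮` is `≤ n`.  Hence only the lower bound is an input:

* `s36reg_associated_of_dvd` : `u ∣ s ^ n` and `mk s ^ n ∣ mk u` in `O ⧸ 𝔮` `⇒` associated;
* `s36reg_span_eq_of_dvd` (R1'): `𝔭 = (s)` from `hu` and `mk s ^ n ∣ mk u`;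
* `s36reg_ufd_of_crossing_of_dvd` (R0 + R1'): factoriality at a crossing point from `hu` and
  `ϖ ^ n ∣ mk u` for one (every) uniformizer `ϖ` of `O ⧸ 𝔮`;
* `s36reg_ufd_of_crossing_of_mem` : the same with the hypothesis `u ∈ 𝔪 ^ n ⊔ 𝔮`.
-/

set_option autoImplicit false
set_option linter.style.haveILetI false
set_option linter.unusedSectionVars false
set_option linter.unnecessarySimpa false

namespace Fermat.Agent.S36

open Ideal

section R1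

variable {O : Type*} [CommRing O] [IsLocalRing O]

/-- `u ∣ s ^ n` in `O` and `mk s ^ n ∣ mk u` in the domain `O ⧸ 𝔮`: the images are associated. -/
theorem s36reg_associated_of_dvd (𝔮 : Ideal O) [𝔮.IsPrime] {s u : O} {n : ℕ}
    (h : u ∣ s ^ n)
    (hge : Ideal.Quotient.mk 𝔮 s ^ n ∣ Ideal.Quotient.mk 𝔮 u) :
    Associated (Ideal.Quotient.mk 𝔮 u) (Ideal.Quotient.mk 𝔮 s ^ n) := by
  refine associated_of_dvd_dvd ?_ hge
  rw [← map_pow]
  exact map_dvd _ h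

variable [IsDomain O] [IsIntegrallyClosed O]

/-- **(R1')**: `𝔭 = (s)`, lower-bound form.  `O` an integrally closed local domain, `s ∈ 𝔭`,
`u ∣ f ^ n` for every `f ∈ 𝔭`, and the image of `u` in `O ⧸ 𝔮` is divisible by the `n`-th power
of the image of `s`. -/
theorem s36reg_span_eq_of_dvd (𝔭 𝔮 : Ideal O) [𝔮.IsPrime] {s u : O} {n : ℕ} (hn : n ≠ 0)
    (hs𝔭 : s ∈ 𝔭) (hs : s ∉ 𝔮) (hu : ∀ f ∈ 𝔭, u ∣ f ^ n)
    (hge : Ideal.Quotient.mk 𝔮 s ^ n ∣ Ideal.Quotient.mk 𝔮 u) :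
    𝔭 = Ideal.span {s} :=
  s36reg_span_eq 𝔭 𝔮 hn hs𝔭 hs hu (s36reg_associated_of_dvd 𝔮 (hu s hs𝔭) hge)

end R1

section Crossing

variable {O : Type*} [CommRing O] [IsLocalRing O]
variable [IsDomain O] [IsNoetherianRing O] [IsIntegrallyClosed O]

/-- **(R0) + (R1'): factoriality at a crossing point, lower-bound form.**  As
`s36reg_ufd_of_crossing`, but the image of `u` in `O ⧸ 𝔮` is only required to be divisible by the
`n`-th power of a uniformizer (the upper bound is automatic). -/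
theorem s36reg_ufd_of_crossing_of_dvd (𝔭 𝔮 : Ideal O) [𝔭.IsPrime] [𝔮.IsPrime] (h𝔭 : 𝔭 ≠ ⊥)
    (htr : 𝔭 ⊔ 𝔮 = IsLocalRing.maximalIdeal O)
    [IsPrincipalIdealRing (O ⧸ 𝔭)] [IsDiscreteValuationRing (O ⧸ 𝔮)]
    {u : O} {n : ℕ} (hn : n ≠ 0) (hu : ∀ f ∈ 𝔭, u ∣ f ^ n)
    (hge : ∃ ϖ : O ⧸ 𝔮, Irreducible ϖ ∧ ϖ ^ n ∣ Ideal.Quotient.mk 𝔮 u) :
    (∃ s : O, Prime s ∧ 𝔭 = Ideal.span {s}) ∧ UniqueFactorizationMonoid O := by
  refine s36reg_ufd_of_crossing 𝔭 𝔮 h𝔭 htr hn hu ?_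
  intro ϖ' hϖ'
  obtain ⟨ϖ, hϖ, hdvd⟩ := hge
  obtain ⟨s, hs𝔭, hsirr⟩ := s36reg_exists_transversal 𝔭 𝔮 htr
  -- all uniformizers are associated
  have h1 : Associated ϖ (Ideal.Quotient.mk 𝔮 s) :=
    IsDiscreteValuationRing.associated_of_irreducible _ hϖ hsirr
  have h2 : Associated (Ideal.Quotient.mk 𝔮 s) ϖ' :=
    IsDiscreteValuationRing.associated_of_irreducible _ hsirr hϖ'
  have hge' : Ideal.Quotient.mk 𝔮 s ^ n ∣ Ideal.Quotient.mk 𝔮 u :=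
    (h1.pow_pow (n := n)).symm.dvd.trans hdvd
  exact (s36reg_associated_of_dvd 𝔮 (hu s hs𝔭) hge').trans (h2.pow_pow)

/-- The same with the hypothesis `u ∈ 𝔪 ^ n ⊔ 𝔮` (the image of `u` in `O ⧸ 𝔮` lies in the `n`-th
power of the maximal ideal). -/
theorem s36reg_ufd_of_crossing_of_mem (𝔭 𝔮 : Ideal O) [𝔭.IsPrime] [𝔮.IsPrime] (h𝔭 : 𝔭 ≠ ⊥)
    (htr : 𝔭 ⊔ 𝔮 = IsLocalRing.maximalIdeal O)
    [IsPrincipalIdealRing (O ⧸ 𝔭)] [IsDiscreteValuationRing (O ⧸ 𝔮)]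
    {u : O} {n : ℕ} (hn : n ≠ 0) (hu : ∀ f ∈ 𝔭, u ∣ f ^ n)
    (hmem : u ∈ (IsLocalRing.maximalIdeal O) ^ n ⊔ 𝔮) :
    (∃ s : O, Prime s ∧ 𝔭 = Ideal.span {s}) ∧ UniqueFactorizationMonoid O := by
  refine s36reg_ufd_of_crossing_of_dvd 𝔭 𝔮 h𝔭 htr hn hu ?_
  obtain ⟨s, hs𝔭, hsirr⟩ := s36reg_exists_transversal 𝔭 𝔮 htr
  refine ⟨_, hsirr, ?_⟩
  -- `𝔪 ^ n ⊔ 𝔮 = (s) ^ n ⊔ 𝔮`, since `𝔪 = (s) ⊔ 𝔮` modulo `𝔮`
  obtain ⟨a, ha, b, hb, rfl⟩ := Submodule.mem_sup.1 hmem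
  have hmk : Ideal.Quotient.mk 𝔮 (a + b) = Ideal.Quotient.mk 𝔮 a := by
    rw [map_add, Ideal.Quotient.eq_zero_iff_mem.2 hb, add_zero]
  rw [hmk]
  -- the image of `𝔪` in `O ⧸ 𝔮` is generated by `mk s`
  have hmax : Ideal.map (Ideal.Quotient.mk 𝔮) (IsLocalRing.maximalIdeal O) =
      Ideal.span {Ideal.Quotient.mk 𝔮 s} := by
    have hle : Ideal.map (Ideal.Quotient.mk 𝔮) (IsLocalRing.maximalIdeal O) ≤
        IsLocalRing.maximalIdeal (O ⧸ 𝔮) := by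
      rw [Ideal.map_le_iff_le_comap]
      intro x hx
      rw [Ideal.mem_comap, IsLocalRing.mem_maximalIdeal]
      intro hxu
      have hq : 𝔮 ≤ IsLocalRing.maximalIdeal O :=
        IsLocalRing.le_maximalIdeal (Ideal.IsPrime.ne_top ‹_›)
      obtain ⟨d, hd⟩ := hxu.exists_right_inv
      obtain ⟨d', rfl⟩ := Ideal.Quotient.mk_surjective d
      rw [← map_mul, ← map_one (Ideal.Quotient.mk 𝔮), Ideal.Quotient.eq] at hd
      have h5 : (1 : O) ∈ IsLocalRing.maximalIdeal O := by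
        have := (IsLocalRing.maximalIdeal O).sub_mem
          ((IsLocalRing.maximalIdeal O).mul_mem_right d' hx) (hq hd)
        simpa using this
      exact (Ideal.ne_top_iff_one _).1 (IsLocalRing.maximalIdeal.isMaximal O).ne_top h5
    have hirr : IsLocalRing.maximalIdeal (O ⧸ 𝔮) = Ideal.span {Ideal.Quotient.mk 𝔮 s} :=
      (IsDiscreteValuationRing.irreducible_iff_uniformizer _).1 hsirr
    refine le_antisymm (hle.trans hirr.le) ?_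
    rw [Ideal.span_singleton_le_iff_mem]
    refine Ideal.mem_map_of_mem _ ?_
    rw [← htr]
    exact Ideal.mem_sup_left hs𝔭
  have h1 : Ideal.Quotient.mk 𝔮 a ∈
      Ideal.map (Ideal.Quotient.mk 𝔮) ((IsLocalRing.maximalIdeal O) ^ n) :=
    Ideal.mem_map_of_mem _ ha
  rw [Ideal.map_pow, hmax, Ideal.span_singleton_pow, Ideal.mem_span_singleton] at h1
  exact h1

end Crossing

end Fermat.Agent.S36
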