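import Fermat.Agent.S36.PlanAlg
import Fermat.Agent.S53.BurnsideRep

/-!
# S36, piece A3: residual absolute irreducibility gives a unit `Ξ'(τ₁, σ₁)`

`Mρ : G_ℚ →* M₂(O')` with absolutely irreducible residual representation, `c² = 1`,
`det Mρ(c) = −1`, `2 ∈ O'ˣ`.  Over the residue field `k` the matrices `r̄(σ)` span `M₂(k)`
(Burnside, `S53.Burnside.span_range_eq_top`), and `Q r̄(x) P r̄(y) Q = Ξ'(x,y) • Q`
(`S36CH.QxPyQ`) with `P = 1 + r̄(c) ≠ 0`, `Q = 1 − r̄(c) ≠ 0`.  If all `Ξ'(x,y)` were `0` in `k`
then `Q X P Y Q = 0` for all matrices `X, Y`, hence `Q² = 0`, `2 Q = 0`, `Q = 0`: contradiction.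
-/

set_option autoImplicit false
set_option linter.style.haveILetI false

noncomputable section

namespace Fermat.Agent.S36

open Fermat.Agent.S53 (Gal M2 MatCont ofMatrix)

section Abstract

variable {G k : Type*} [Group G] [Field k]

/-- Cayley–Hamilton for an invertible `2 × 2` matrix. -/
theorem s36ru_ch (M M' : Matrix (Fin 2) (Fin 2) k) (h : M * M' = 1) :
    M + M.det • M' = M.trace • (1 : Matrix (Fin 2) (Fin 2) k) := by
  have h1 : M.adjugate = M.det • M' := by
    calc M.adjugate = M.adjugate * (M * M') := by rw [h, mul_one]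
      _ = (M.adjugate * M) * M' := by rw [mul_assoc]
      _ = M.det • M' := by rw [Matrix.adjugate_mul, Matrix.smul_mul, one_mul]
  rw [← h1, Matrix.adjugate_fin_two]
  ext i j
  fin_cases i <;> fin_cases j <;>
    simp [Matrix.trace_fin_two] <;> ring

/-- The Cayley–Hamilton datum of a `2 × 2` matrix representation. -/
theorem s36ru_ch_datum (r : G →* Matrix (Fin 2) (Fin 2) k) (c : G) (hc : c * c = 1)
    (hdet : (r c).det = -1) :
    S36CH (R := k) (E := Matrix (Fin 2) (Fin 2) k) r (fun σ => (r σ).det)
      (fun σ => (r σ).trace) c :=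
  S36CH.of_exact
    (fun σ => by
      have : r σ * r σ⁻¹ = 1 := by rw [← map_mul, mul_inv_cancel, map_one]
      exact s36ru_ch (r σ) (r σ⁻¹) this)
    (fun x y => by rw [map_mul, Matrix.det_mul]) hc hdet

/-- **A3, abstract form.**  A `2 × 2` matrix representation over a field with `2 ≠ 0` whose image
spans all matrices, with an involution `c` of determinant `−1`, has a nonzero `Ξ'(x, y)`. -/
theorem s36ru_exists_ne_zero (h2 : (2 : k) ≠ 0) (r : G →* Matrix (Fin 2) (Fin 2) k) (c : G)
    (hc : c * c = 1) (hdet : (r c).det = -1)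
    (hspan : Submodule.span k (Set.range r) = ⊤) :
    ∃ x y : G, s36Xi' (fun σ => (r σ).trace) c x y ≠ 0 := by
  by_contra hcon
  simp only [not_exists, not_not] at hcon
  have hCH := s36ru_ch_datum r c hc hdet
  set P : Matrix (Fin 2) (Fin 2) k := s36P r c with hP
  set Q : Matrix (Fin 2) (Fin 2) k := s36Q r c with hQ
  have hrc2 : r c * r c = 1 := by rw [← map_mul, hc, map_one]
  have h11 : (1 : k) ≠ -1 := by
    intro h
    apply h2
    have : (2 : k) = 1 + 1 := by norm_num
    rw [this]
    nth_rewrite 2 [h]
    ring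
  -- `P ≠ 0`
  have hP0 : P ≠ 0 := by
    intro h0
    have hrc : r c = -1 := by
      have : (1 : Matrix (Fin 2) (Fin 2) k) + r c = 0 := h0
      exact eq_neg_of_add_eq_zero_right this
    have hd : (r c).det = 1 := by
      rw [hrc, Matrix.det_neg, Matrix.det_one]
      simp
    rw [hdet] at hd
    exact h11 hd.symm
  -- `Q ≠ 0`
  have hQ0 : Q ≠ 0 := by
    intro h0
    have hrc : r c = 1 := by
      have : (1 : Matrix (Fin 2) (Fin 2) k) - r c = 0 := h0
      exact (sub_eq_zero.mp this).symm
    have hd : (r c).det = 1 := by rw [hrc, Matrix.det_one]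
    rw [hdet] at hd
    exact h11 hd.symm
  -- `Q r(x) P r(y) Q = 0`
  have h0 : ∀ x y : G, Q * r x * P * r y * Q = 0 := by
    intro x y
    rw [hCH.QxPyQ x y, hcon x y, zero_smul]
  -- extend to all matrices
  have h1 : ∀ (X : Matrix (Fin 2) (Fin 2) k) (y : G), Q * X * P * r y * Q = 0 := by
    intro X y
    have hX : X ∈ Submodule.span k (Set.range r) := by rw [hspan]; trivial
    induction hX using Submodule.span_induction with
    | mem X hX =>
      obtain ⟨x, rfl⟩ := hX
      exact h0 x y
    | zero => simp
    | add X X' _ _ hX hX' =>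
      have : Q * (X + X') * P * r y * Q = Q * X * P * r y * Q + Q * X' * P * r y * Q := by
        simp only [mul_add, add_mul]
      rw [this, hX, hX', add_zero]
    | smul a X _ hX =>
      have : Q * (a • X) * P * r y * Q = a • (Q * X * P * r y * Q) := by
        simp only [Matrix.mul_smul, Matrix.smul_mul]
      rw [this, hX, smul_zero]
  have h2' : ∀ X Y : Matrix (Fin 2) (Fin 2) k, Q * X * P * Y * Q = 0 := by
    intro X Y
    have hY : Y ∈ Submodule.span k (Set.range r) := by rw [hspan]; trivial
    induction hY using Submodule.span_induction with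
    | mem Y hY =>
      obtain ⟨y, rfl⟩ := hY
      exact h1 X y
    | zero => simp
    | add Y Y' _ _ hY hY' =>
      have : Q * X * P * (Y + Y') * Q = Q * X * P * Y * Q + Q * X * P * Y' * Q := by
        simp only [mul_add, add_mul]
      rw [this, hY, hY', add_zero]
    | smul a Y _ hY =>
      have : Q * X * P * (a • Y) * Q = a • (Q * X * P * Y * Q) := by
        simp only [Matrix.mul_smul, Matrix.smul_mul]
      rw [this, hY, smul_zero]
  -- a nonzero entry of `P`
  obtain ⟨i, j, hij⟩ : ∃ i j, P i j ≠ 0 := by
    by_contra hne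
    simp only [not_exists, not_not] at hne
    exact hP0 (Matrix.ext hne)
  -- `Q E_ab Q = 0`
  have h3 : ∀ a b : Fin 2, Q * Matrix.single a b (1 : k) * Q = 0 := by
    intro a b
    have e := h2' (Matrix.single a i (1 : k)) (Matrix.single j b (1 : k))
    have e1 : Q * Matrix.single a i (1 : k) * P * Matrix.single j b (1 : k) * Q
        = P i j • (Q * Matrix.single a b (1 : k) * Q) := by
      have : Matrix.single a i (1 : k) * P * Matrix.single j b (1 : k)
          = P i j • Matrix.single a b (1 : k) := by
        rw [Matrix.single_mul_mul_single, one_mul, mul_one]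
        ext a' b'
        simp [Matrix.single, Matrix.smul_apply]
      calc Q * Matrix.single a i (1 : k) * P * Matrix.single j b (1 : k) * Q
          = Q * (Matrix.single a i (1 : k) * P * Matrix.single j b (1 : k)) * Q := by
            simp only [mul_assoc]
        _ = P i j • (Q * Matrix.single a b (1 : k) * Q) := by
            rw [this, Matrix.mul_smul, Matrix.smul_mul]
    rw [e1] at e
    exact (smul_eq_zero.mp e).resolve_left hij
  -- `Q Q = 0`
  have h4 : Q * Q = 0 := by
    have : Q * (∑ a : Fin 2, Matrix.single a a (1 : k)) * Q = 0 := by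
      rw [Finset.mul_sum, Finset.sum_mul]
      exact Finset.sum_eq_zero fun a _ => h3 a a
    rwa [Matrix.sum_single_one, mul_one] at this
  have h5 : (2 : k) • Q = 0 := by rw [← hCH.QQ]; exact h4
  exact hQ0 ((smul_eq_zero.mp h5).resolve_left h2)

end Abstract

section Residual

open IsLocalRing

variable {A : Type} [CommRing A] [IsLocalRing A]

/-- the reduction of a matrix representation -/
def s36ruBar (r : Gal →* M2 A) : Gal →* M2 (ResidueField A) :=
  ((residue A).mapMatrix : M2 A →+* M2 (ResidueField A)).toMonoidHom.comp r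

theorem s36ruBar_apply (r : Gal →* M2 A) (σ : Gal) :
    s36ruBar r σ = (r σ).map (residue A) := rfl

/-- Burnside in matrix form: the reductions `r̄(σ)` span `M₂(k)`. -/
theorem s36ru_span_bar (r : Gal →* M2 A) (hr : MatCont A r)
    (habs : (ofMatrix r hr).residual.IsAbsolutelyIrreducible) :
    Submodule.span (ResidueField A) (Set.range (s36ruBar r)) = ⊤ := by
  have hB := Fermat.Agent.S53.Burnside.span_range_eq_top (ofMatrix r hr).residual habs
  set e := Fermat.Agent.S53.residualMatEquiv r hr with he
  -- the linear equivalence `End_k(V) ≃ M₂(k)`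
  let Φ : Module.End (ResidueField A) (ofMatrix r hr).residual.V ≃ₗ[ResidueField A]
      M2 (ResidueField A) :=
    (LinearEquiv.conj e).trans (LinearMap.toMatrix' : _ ≃ₗ[ResidueField A] _)
  have hΦ : ∀ σ : Gal, Φ ((ofMatrix r hr).residual.ρ σ) = s36ruBar r σ := by
    intro σ
    have h1 : LinearEquiv.conj e ((ofMatrix r hr).residual.ρ σ)
        = Matrix.toLin' ((r σ).map (residue A)) := by
      apply LinearMap.ext
      intro v
      rw [LinearEquiv.conj_apply_apply, Matrix.toLin'_apply]
      have := Fermat.Agent.S53.residualMatEquiv_apply r hr σ (e.symm v)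
      rw [LinearEquiv.apply_symm_apply] at this
      exact this
    show LinearMap.toMatrix' (LinearEquiv.conj e ((ofMatrix r hr).residual.ρ σ)) = _
    rw [h1, LinearMap.toMatrix'_toLin']
    rfl
  have hmap : Submodule.map (Φ : Module.End (ResidueField A) (ofMatrix r hr).residual.V
      →ₗ[ResidueField A] M2 (ResidueField A))
      (Submodule.span (ResidueField A) (Set.range (ofMatrix r hr).residual.ρ))
      = Submodule.span (ResidueField A) (Set.range (s36ruBar r)) := by
    rw [Submodule.map_span]
    congr 1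
    ext X
    constructor
    · rintro ⟨_, ⟨σ, rfl⟩, rfl⟩
      exact ⟨σ, (hΦ σ).symm⟩
    · rintro ⟨σ, rfl⟩
      exact ⟨_, ⟨σ, rfl⟩, hΦ σ⟩
  rw [← hmap, hB, Submodule.map_top, LinearMap.range_eq_top]
  exact Φ.surjective

theorem s36ru_residue_xi' (t : Gal → A) (c x y : Gal) :
    residue A (s36Xi' t c x y) = s36Xi' (fun σ => residue A (t σ)) c x y := by
  simp only [s36Xi', s36D, map_sub, map_mul, map_ofNat]

end Residual

/-- **S36-A3.** -/
theorem stmtResidUnit : StmtResidUnit := by
  intro O' _ _ _ Mρ hM c hc hdet h2 habs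
  have h2k : (2 : IsLocalRing.ResidueField O') ≠ 0 := by
    intro h0
    have : IsLocalRing.residue O' (2 : O') = 0 := by rw [map_ofNat]; exact h0
    rw [IsLocalRing.residue_eq_zero_iff] at this
    exact (IsLocalRing.mem_maximalIdeal _).mp this h2
  have hdetk : (s36ruBar Mρ c).det = -1 := by
    rw [s36ruBar_apply]
    have : ((Mρ c).map (IsLocalRing.residue O')).det = IsLocalRing.residue O' ((Mρ c).det) :=
      (RingHom.map_det (IsLocalRing.residue O') (Mρ c)).symm
    rw [this, hdet, map_neg, map_one]
  obtain ⟨x, y, hxy⟩ := s36ru_exists_ne_zero h2k (s36ruBar Mρ) c hc hdetk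
    (s36ru_span_bar Mρ hM habs)
  refine ⟨y, x, ?_⟩
  have htr : (fun σ => ((s36ruBar Mρ) σ).trace)
      = fun σ => IsLocalRing.residue O' ((Mρ σ).trace) := by
    funext σ
    rw [s36ruBar_apply]
    simp [Matrix.trace, Matrix.diag]
  rw [htr, ← s36ru_residue_xi'] at hxy
  by_contra hu
  apply hxy
  rw [IsLocalRing.residue_eq_zero_iff]
  exact (IsLocalRing.mem_maximalIdeal _).mpr hu

end Fermat.Agent.S36
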