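import Mathlib

/-!
# S36 / GAP D, local part: rigidity of level `4` and level `9` at the elliptic values (helper31)

Pure commutative algebra.  `R` a commutative ring, `P` a prime ideal (the closed point), and
elements `j h t : R` satisfying the Hauptmodul relations

* level 2: `j * h ^ 2 = (h + 256) ^ 3`,
* level 4: `t ^ 2 = h * t + 16 * h`   (`t` the Hauptmodul of `X₀(4)`, `h = t² / (t + 16)`),
* level 3 → 9: `t ^ 3 = h * (t ^ 2 + 9 * t + 27)`  (`t` the Hauptmodul of `X₀(9)`).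

Then every elliptic value is attained with multiplicity divisible by its order:

* `s36rig_j_zero`      : `2 ∉ P`, `j ∈ P` ⇒ `∃ s ∉ P, s * j ∈ P ^ 3`;
* `s36rig_j_1728`      : `2 ∉ P`, `j - 1728 ∈ P` ⇒ `∃ s ∉ P, s * (j - 1728) ∈ P ^ 2`;
* `s36rig_h2_neg64`    : `2 ∉ P`, `h + 64 ∈ P` ⇒ `∃ s ∉ P, s * (h + 64) ∈ P ^ 2`;
* `s36rig_h3_neg27`    : `3 ∉ P`, `h + 27 ∈ P` ⇒ `∃ s ∉ P, s * (h + 27) ∈ P ^ 3`.
-/

set_option autoImplicit false

namespace Fermat.Agent.S36

variable {R : Type*} [CommRing R]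

/-- a power of two does not lie in a prime ideal that does not contain `2` -/
theorem s36rig_two_pow_notMem {P : Ideal R} [P.IsPrime] (h2 : (2 : R) ∉ P) (n : ℕ) :
    (2 : R) ^ n ∉ P := fun h => h2 (Ideal.IsPrime.mem_of_pow_mem inferInstance n h)

/-- a power of three does not lie in a prime ideal that does not contain `3` -/
theorem s36rig_three_pow_notMem {P : Ideal R} [P.IsPrime] (h3 : (3 : R) ∉ P) (n : ℕ) :
    (3 : R) ^ n ∉ P := fun h => h3 (Ideal.IsPrime.mem_of_pow_mem inferInstance n h)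

/-- level 2: `h` is a unit at every point of residue characteristic `≠ 2`
where `j` is finite. -/
theorem s36rig_h2_notMem {P : Ideal R} [P.IsPrime] (h2 : (2 : R) ∉ P) {j h : R}
    (hj : j * h ^ 2 = (h + 256) ^ 3) : h ∉ P := by
  intro hh
  have h1 : (h + 256) ^ 3 ∈ P := by
    rw [← hj]
    exact P.mul_mem_left _ (P.pow_mem_of_mem hh 2 (by norm_num))
  have h2' : h + 256 ∈ P := Ideal.IsPrime.mem_of_pow_mem inferInstance 3 h1
  have h3 : (2 : R) ^ 8 ∈ P := by
    have : (2 : R) ^ 8 = (h + 256) - h := by ring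
    rw [this]
    exact P.sub_mem h2' hh
  exact s36rig_two_pow_notMem h2 8 h3

/-- level 4: `t + 16` is a unit at every point of residue characteristic `≠ 2`. -/
theorem s36rig_t4_add_notMem {P : Ideal R} [P.IsPrime] (h2 : (2 : R) ∉ P) {h t : R}
    (ht : t ^ 2 = h * t + 16 * h) : t + 16 ∉ P := by
  intro hh
  have h1 : (t + 32) ^ 2 ∈ P := by
    have : (t + 32) ^ 2 = (t + 16) * (h + 64) := by linear_combination ht
    rw [this]
    exact P.mul_mem_right _ hh
  have h2' : t + 32 ∈ P := Ideal.IsPrime.mem_of_pow_mem inferInstance 2 h1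
  have h3 : (2 : R) ^ 4 ∈ P := by
    have : (2 : R) ^ 4 = (t + 32) - (t + 16) := by ring
    rw [this]
    exact P.sub_mem h2' hh
  exact s36rig_two_pow_notMem h2 4 h3

/-- **`j = 0` has multiplicity `≥ 3`** at level `2` (residue characteristic `≠ 2`). -/
theorem s36rig_j_zero {P : Ideal R} [P.IsPrime] (h2 : (2 : R) ∉ P) {j h : R}
    (hj : j * h ^ 2 = (h + 256) ^ 3) (hjP : j ∈ P) :
    ∃ s : R, s ∉ P ∧ s * j ∈ P ^ 3 := by
  have hh : h ∉ P := s36rig_h2_notMem h2 hj
  refine ⟨h ^ 2, fun h' => hh (Ideal.IsPrime.mem_of_pow_mem inferInstance 2 h'), ?_⟩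
  have h1 : (h + 256) ^ 3 ∈ P := by
    rw [← hj]; exact P.mul_mem_right _ hjP
  have h2' : h + 256 ∈ P := Ideal.IsPrime.mem_of_pow_mem inferInstance 3 h1
  rw [mul_comm, hj]
  exact Ideal.pow_mem_pow h2' 3

/-- level 2: `(j - 1728) h² = (h + 64)(h - 512)²`. -/
theorem s36rig_j_1728_eq {j h : R} (hj : j * h ^ 2 = (h + 256) ^ 3) :
    (j - 1728) * h ^ 2 = (h + 64) * (h - 512) ^ 2 := by
  linear_combination hj

/-- level 4: `(t + 16)(h + 64) = (t + 32)²`. -/
theorem s36rig_t4_eq {h t : R} (ht : t ^ 2 = h * t + 16 * h) :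
    (t + 16) * (h + 64) = (t + 32) ^ 2 := by
  linear_combination -ht

/-- **`h₂ = -64` has multiplicity `≥ 2`** at level `4` (residue characteristic `≠ 2`). -/
theorem s36rig_h2_neg64 {P : Ideal R} [P.IsPrime] (h2 : (2 : R) ∉ P) {h t : R}
    (ht : t ^ 2 = h * t + 16 * h) (hP : h + 64 ∈ P) :
    ∃ s : R, s ∉ P ∧ s * (h + 64) ∈ P ^ 2 := by
  refine ⟨t + 16, s36rig_t4_add_notMem h2 ht, ?_⟩
  rw [s36rig_t4_eq ht]
  have h1 : (t + 32) ^ 2 ∈ P := by
    rw [← s36rig_t4_eq ht]; exact P.mul_mem_left _ hP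
  exact Ideal.pow_mem_pow (Ideal.IsPrime.mem_of_pow_mem inferInstance 2 h1) 2

/-- **`j = 1728` has multiplicity `≥ 2`** at level `4` (residue characteristic `≠ 2`). -/
theorem s36rig_j_1728 {P : Ideal R} [P.IsPrime] (h2 : (2 : R) ∉ P) {j h t : R}
    (hj : j * h ^ 2 = (h + 256) ^ 3) (ht : t ^ 2 = h * t + 16 * h) (hjP : j - 1728 ∈ P) :
    ∃ s : R, s ∉ P ∧ s * (j - 1728) ∈ P ^ 2 := by
  have hh : h ∉ P := s36rig_h2_notMem h2 hj
  have htt : t + 16 ∉ P := s36rig_t4_add_notMem h2 ht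
  have hs : h ^ 2 * (t + 16) ∉ P := by
    intro h'
    rcases Ideal.IsPrime.mem_or_mem inferInstance h' with h'' | h''
    · exact hh (Ideal.IsPrime.mem_of_pow_mem inferInstance 2 h'')
    · exact htt h''
  refine ⟨h ^ 2 * (t + 16), hs, ?_⟩
  have e : h ^ 2 * (t + 16) * (j - 1728) = ((t + 32) * (h - 512)) ^ 2 := by
    linear_combination (t + 16) * s36rig_j_1728_eq hj + (h - 512) ^ 2 * s36rig_t4_eq ht
  have h1 : ((t + 32) * (h - 512)) ^ 2 ∈ P := by
    rw [← e]; exact P.mul_mem_left _ hjP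
  rw [e]
  exact Ideal.pow_mem_pow (Ideal.IsPrime.mem_of_pow_mem inferInstance 2 h1) 2

/-- level 9: `(h + 27)(t² + 9t + 27) = (t + 9)³`. -/
theorem s36rig_t9_eq {h t : R} (ht : t ^ 3 = h * (t ^ 2 + 9 * t + 27)) :
    (h + 27) * (t ^ 2 + 9 * t + 27) = (t + 9) ^ 3 := by
  linear_combination -ht

/-- **`h₃ = -27` has multiplicity `≥ 3`** at level `9` (residue characteristic `≠ 3`). -/
theorem s36rig_h3_neg27 {P : Ideal R} [P.IsPrime] (h3 : (3 : R) ∉ P) {h t : R}
    (ht : t ^ 3 = h * (t ^ 2 + 9 * t + 27)) (hP : h + 27 ∈ P) :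
    ∃ s : R, s ∉ P ∧ s * (h + 27) ∈ P ^ 3 := by
  have h1 : (t + 9) ^ 3 ∈ P := by
    rw [← s36rig_t9_eq ht]; exact P.mul_mem_right _ hP
  have h2 : t + 9 ∈ P := Ideal.IsPrime.mem_of_pow_mem inferInstance 3 h1
  refine ⟨t ^ 2 + 9 * t + 27, ?_, ?_⟩
  · intro hs
    have h4 : (3 : R) ^ 3 ∈ P := by
      have : (3 : R) ^ 3 = (t ^ 2 + 9 * t + 27) - (t + 9) * t := by ring
      rw [this]
      exact P.sub_mem hs (P.mul_mem_right _ h2)
    exact s36rig_three_pow_notMem h3 3 h4
  · rw [mul_comm, s36rig_t9_eq ht]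
    exact Ideal.pow_mem_pow h2 3

/-- level 3: `h₃` is a unit at every point of residue characteristic `≠ 3` where `j` is
finite. -/
theorem s36rig_h3_notMem {P : Ideal R} [P.IsPrime] (h3 : (3 : R) ∉ P) {j h : R}
    (hj : j * h ^ 3 = (h + 27) * (h + 243) ^ 3) : h ∉ P := by
  intro hh
  have h1 : (h + 27) * (h + 243) ^ 3 ∈ P := by
    rw [← hj]
    exact P.mul_mem_left _ (P.pow_mem_of_mem hh 3 (by norm_num))
  rcases Ideal.IsPrime.mem_or_mem inferInstance h1 with h' | h'
  · have : (3 : R) ^ 3 = (h + 27) - h := by ring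
    exact s36rig_three_pow_notMem h3 3 (this ▸ P.sub_mem h' hh)
  · have h'' : h + 243 ∈ P := Ideal.IsPrime.mem_of_pow_mem inferInstance 3 h'
    have : (3 : R) ^ 5 = (h + 243) - h := by ring
    exact s36rig_three_pow_notMem h3 5 (this ▸ P.sub_mem h'' hh)

/-! ### integrality of the Hauptmoduln over the chart rings -/

section Integral

open Polynomial

/-- `xⁿ + q(x) = 0` with `deg q < n` makes `x` integral. -/
theorem s36rig_integral_of_eq {S L : Type*} [CommRing S] [CommRing L] [Algebra S L] (x : L)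
    (n : ℕ) (q : S[X]) (hq : q.degree < n) (h : x ^ n + aeval x q = 0) : IsIntegral S x :=
  ⟨X ^ n + q, monic_X_pow_add hq, by
    rw [← aeval_def, map_add, map_pow, aeval_X, h]⟩

variable (A : Type*) {L : Type*} [CommRing A] [CommRing L] [Algebra A L]

/-- level 4: `t` is integral over `A[h]`. -/
theorem s36rig_integral_t4 {h t : L} (ht : t ^ 2 = h * t + 16 * h) :
    IsIntegral (Algebra.adjoin A {h}) t := by
  set h' : Algebra.adjoin A {h} := ⟨h, Algebra.subset_adjoin rfl⟩ with hh'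
  refine s36rig_integral_of_eq t 2 (-(C h' * X) - C (16 * h')) ?_ ?_
  · refine lt_of_le_of_lt ?_ (show ((1 : ℕ) : WithBot ℕ) < ((2 : ℕ) : WithBot ℕ) by norm_num)
    compute_degree
    all_goals norm_num
  · simp only [map_sub, map_neg, map_mul, aeval_C, aeval_X, map_ofNat]
    have e : algebraMap (Algebra.adjoin A {h}) L h' = h := rfl
    rw [e]
    linear_combination ht

/-- level 2: `h` is integral over `A[j]`. -/
theorem s36rig_integral_h2 {j h : L} (hj : j * h ^ 2 = (h + 256) ^ 3) :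
    IsIntegral (Algebra.adjoin A {j}) h := by
  set j' : Algebra.adjoin A {j} := ⟨j, Algebra.subset_adjoin rfl⟩ with hj'
  refine s36rig_integral_of_eq h 3 (C (768 - j') * X ^ 2 + C 196608 * X + C 16777216) ?_ ?_
  · refine lt_of_le_of_lt ?_ (show ((2 : ℕ) : WithBot ℕ) < ((3 : ℕ) : WithBot ℕ) by norm_num)
    compute_degree
    all_goals norm_num
  · simp only [map_add, map_sub, map_mul, map_pow, aeval_C, aeval_X, map_ofNat]
    have e : algebraMap (Algebra.adjoin A {j}) L j' = j := rfl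
    rw [e]
    linear_combination -hj

/-- level 4: `j t⁴ (t + 16) = (t² + 256 t + 4096)³`. -/
theorem s36rig_t4_j {j h t : L} (hj : j * h ^ 2 = (h + 256) ^ 3)
    (ht : t ^ 2 = h * t + 16 * h) :
    j * t ^ 4 * (t + 16) = (t ^ 2 + 256 * t + 4096) ^ 3 := by
  have e1 : t ^ 2 = h * (t + 16) := by linear_combination ht
  have e2 : t ^ 2 + 256 * t + 4096 = (h + 256) * (t + 16) := by linear_combination ht
  rw [e2, mul_pow, ← hj, show t ^ 4 = (t ^ 2) ^ 2 by ring, e1]
  ring

/-- level 4: `t` is integral over `A[j]`. -/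
theorem s36rig_integral_t4_j {j h t : L} (hj : j * h ^ 2 = (h + 256) ^ 3)
    (ht : t ^ 2 = h * t + 16 * h) : IsIntegral (Algebra.adjoin A {j}) t := by
  set j' : Algebra.adjoin A {j} := ⟨j, Algebra.subset_adjoin rfl⟩ with hj'
  refine s36rig_integral_of_eq t 6 (C (768 - j') * X ^ 5 + C (208896 - 16 * j') * X ^ 4 +
    C 23068672 * X ^ 3 + C 855638016 * X ^ 2 + C 12884901888 * X + C 68719476736) ?_ ?_
  · refine lt_of_le_of_lt ?_ (show ((5 : ℕ) : WithBot ℕ) < ((6 : ℕ) : WithBot ℕ) by norm_num)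
    compute_degree
    all_goals norm_num
  · simp only [map_add, map_sub, map_mul, map_pow, aeval_C, aeval_X, map_ofNat]
    have e : algebraMap (Algebra.adjoin A {j}) L j' = j := rfl
    rw [e]
    linear_combination -(s36rig_t4_j hj ht)

/-- level 3: `h` is integral over `A[j]`. -/
theorem s36rig_integral_h3 {j h : L} (hj : j * h ^ 3 = (h + 27) * (h + 243) ^ 3) :
    IsIntegral (Algebra.adjoin A {j}) h := by
  set j' : Algebra.adjoin A {j} := ⟨j, Algebra.subset_adjoin rfl⟩ with hj'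
  refine s36rig_integral_of_eq h 4
    (C (756 - j') * X ^ 3 + C 196830 * X ^ 2 + C 19131876 * X + C 387420489) ?_ ?_
  · refine lt_of_le_of_lt ?_ (show ((3 : ℕ) : WithBot ℕ) < ((4 : ℕ) : WithBot ℕ) by norm_num)
    compute_degree
    all_goals norm_num
  · simp only [map_add, map_sub, map_mul, map_pow, aeval_C, aeval_X, map_ofNat]
    have e : algebraMap (Algebra.adjoin A {j}) L j' = j := rfl
    rw [e]
    linear_combination -hj

/-- level 9: `t` is integral over `A[h]`. -/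
theorem s36rig_integral_t9 {h t : L} (ht : t ^ 3 = h * (t ^ 2 + 9 * t + 27)) :
    IsIntegral (Algebra.adjoin A {h}) t := by
  set h' : Algebra.adjoin A {h} := ⟨h, Algebra.subset_adjoin rfl⟩ with hh'
  refine s36rig_integral_of_eq t 3 (-(C h' * X ^ 2) - C (9 * h') * X - C (27 * h')) ?_ ?_
  · refine lt_of_le_of_lt ?_ (show ((2 : ℕ) : WithBot ℕ) < ((3 : ℕ) : WithBot ℕ) by norm_num)
    compute_degree
    all_goals norm_num
  · simp only [map_sub, map_neg, map_mul, map_pow, aeval_C, aeval_X, map_ofNat]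
    have e : algebraMap (Algebra.adjoin A {h}) L h' = h := rfl
    rw [e]
    linear_combination ht

end Integral

end Fermat.Agent.S36
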