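import Fermat.Agent.INJ.GaussHaupt
import Fermat.Agent.S28.LaurentRank
import Fermat.Agent.S36.RigidLocal

/-!
# S36 / GAP D, level 4: the Hauptmodul of `X₀(4)` (helper31)

`h = hm2 K` (Hauptmodul of `X₀(2)`), `k = h(Q²)`.  From the two landed identities
`hm2_j2 : j(Q²)·h = (h+16)³` and (dilated) `hm2_j : j(Q²)·k² = (k+256)³`:

  `(h+16)³ k² = (k+256)³ h`,   and   `(h+16)³k² − (k+256)³h = −(hk − 4096)·Φ₄(h,k)`,
  `Φ₄ = (k − 16h)² − h(h+16)(k+256)`.

Since `hk` has order `−3`, `Φ₄(h,k) = 0`, so `t := (k − 16h)/(h+16) ∈ F₄` satisfies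
`t² = h·t + 16·h`.  **No new Sturm identity.**

* `s36rig_t4 K`, `s36rig_t4_sq : t² = h t + 16 h`,
* `s36rig_t4_mem : 4 ∣ N → (N : K) ≠ 0 → s36rig_t4 K ∈ modularFunctionFieldFullC K N`.
-/

set_option autoImplicit false

noncomputable section

namespace Fermat.Agent.S36

open ModularCurve Fermat.Agent.INJ HahnSeries

section Ring

variable (K : Type*) [CommRing K]

/-- `h₂(Q²)` -/
def s36rig_h2d : LaurentSeries K := qExpand K 2 (hm2 K)

/-- `j(Q²)·h₂(Q²)² = (h₂(Q²)+256)³` -/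
theorem s36rig_h2d_j : jqNModC K 2 * s36rig_h2d K ^ 2 = (s36rig_h2d K + 256) ^ 3 := by
  have h := congrArg (qExpand K 2) (hm2_j K)
  simpa only [map_mul, map_pow, map_add, map_ofNat, jqNModC, s36rig_h2d] using h

/-- `(h+16)³ k² = (k+256)³ h` -/
theorem s36rig_rel4 :
    (hm2 K + 16) ^ 3 * s36rig_h2d K ^ 2 = (s36rig_h2d K + 256) ^ 3 * hm2 K := by
  rw [← hm2_j2, ← s36rig_h2d_j]; ring

/-- the modular polynomial `Φ₄` of the pair `(h₂(Q), h₂(Q²))` -/
def s36rig_phi4 {A : Type*} [CommRing A] (h k : A) : A :=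
  (k - 16 * h) ^ 2 - h * (h + 16) * (k + 256)

theorem s36rig_phi4_mul :
    (hm2 K * s36rig_h2d K - 4096) * s36rig_phi4 (hm2 K) (s36rig_h2d K) = 0 := by
  unfold s36rig_phi4
  linear_combination -(s36rig_rel4 K)

end Ring

section Field

variable (K : Type*) [Field K]

/-- a Laurent series whose order is not `0` is not a constant -/
theorem s36rig_ne_C {x : LaurentSeries K} (hx : x.order ≠ 0) (c : K) :
    x ≠ HahnSeries.C c := by
  rintro rfl
  apply hx
  rcases eq_or_ne c 0 with rfl | hc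
  · simp
  · rw [HahnSeries.C_apply, HahnSeries.order_single hc]

/-- the order of `q⁻¹ · (unit power series)` -/
theorem s36rig_order_unit {u : PowerSeries ℤ} (hu : PowerSeries.constantCoeff u = 1) :
    (HahnSeries.single (-1 : ℤ) (1 : K) *
      HahnSeries.ofPowerSeries ℤ K (u.map (Int.castRingHom K))).order = -1 := by
  have hy0 : (HahnSeries.ofPowerSeries ℤ K (u.map (Int.castRingHom K))).coeff 0 = 1 := by
    have := HahnSeries.ofPowerSeries_apply_coeff (Γ := ℤ) (R := K)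
      (u.map (Int.castRingHom K)) 0
    rw [Nat.cast_zero] at this
    rw [this, PowerSeries.coeff_map, PowerSeries.coeff_zero_eq_constantCoeff_apply, hu]
    simp
  have hy : HahnSeries.ofPowerSeries ℤ K (u.map (Int.castRingHom K)) ≠ 0 := by
    intro h0
    rw [h0] at hy0
    simp at hy0
  have ho : (HahnSeries.ofPowerSeries ℤ K (u.map (Int.castRingHom K))).order = 0 := by
    apply le_antisymm
    · exact HahnSeries.order_le_of_coeff_ne_zero (by rw [hy0]; exact one_ne_zero)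
    · by_contra hlt
      rw [not_le] at hlt
      exact hy (HahnSeries.coeff_order_eq_zero.mp (ofPowerSeries_coeff_of_neg _ hlt))
  rw [HahnSeries.order_mul (HahnSeries.single_ne_zero one_ne_zero) hy,
    HahnSeries.order_single one_ne_zero, ho, add_zero]

theorem s36rig_order_hm2 : (hm2 K).order = -1 := by
  rw [hm2_eq]; exact s36rig_order_unit K constantCoeff_hm2U

theorem s36rig_order_hm3 : (hm3 K).order = -1 := by
  rw [hm3_eq]; exact s36rig_order_unit K constantCoeff_hm3U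

theorem s36rig_order_h2d : (s36rig_h2d K).order = -2 := by
  rw [s36rig_h2d, Fermat.Agent.S28.order_qExpand, s36rig_order_hm2]; norm_num

theorem s36rig_h2d_ne_zero : s36rig_h2d K ≠ 0 := by
  intro h
  have := s36rig_order_h2d K
  rw [h, HahnSeries.order_zero] at this
  omega

/-- a numeral is a constant -/
theorem s36rig_natCast_eq_C (n : ℕ) : ((n : ℕ) : LaurentSeries K) = HahnSeries.C (n : K) :=
  (map_natCast (HahnSeries.C : K →+* LaurentSeries K) n).symm

theorem s36rig_hk4_ne : hm2 K * s36rig_h2d K - 4096 ≠ 0 := by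
  intro h
  have h1 : hm2 K * s36rig_h2d K = HahnSeries.C (4096 : K) := by
    have := s36rig_natCast_eq_C K 4096
    rw [← sub_eq_zero]
    rw [← h]
    push_cast at this
    rw [← this]
  refine s36rig_ne_C K ?_ _ h1
  rw [HahnSeries.order_mul (hm2_ne_zero' K) (s36rig_h2d_ne_zero K), s36rig_order_hm2,
    s36rig_order_h2d]
  norm_num

/-- **the modular equation of level `4`** for the Hauptmodul of `X₀(2)` -/
theorem s36rig_phi4_eq_zero : s36rig_phi4 (hm2 K) (s36rig_h2d K) = 0 :=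
  (mul_eq_zero.mp (s36rig_phi4_mul K)).resolve_left (s36rig_hk4_ne K)

theorem s36rig_h2_add16_ne : hm2 K + 16 ≠ 0 := by
  intro h
  have h1 : hm2 K = HahnSeries.C (-16 : K) := by
    have := s36rig_natCast_eq_C K 16
    push_cast at this
    rw [map_neg, ← this]
    exact eq_neg_of_add_eq_zero_left h
  refine s36rig_ne_C K ?_ _ h1
  rw [s36rig_order_hm2]; norm_num

/-- **the Hauptmodul of `X₀(4)`**, `t = (h₂(Q²) − 16 h₂)/(h₂ + 16)`
(`= η(z)⁸/η(4z)⁸`, `h₂ = t²/(t+16)`). -/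
def s36rig_t4 : LaurentSeries K := (s36rig_h2d K - 16 * hm2 K) / (hm2 K + 16)

/-- `t² = h·t + 16·h`: the Hauptmodul of `X₀(4)` is integral over `ℤ[h₂]`. -/
theorem s36rig_t4_sq :
    s36rig_t4 K ^ 2 = hm2 K * s36rig_t4 K + 16 * hm2 K := by
  have h0 := s36rig_h2_add16_ne K
  have hΦ := s36rig_phi4_eq_zero K
  unfold s36rig_phi4 at hΦ
  unfold s36rig_t4
  field_simp
  linear_combination hΦ

/-- `(t + 16)(h + 64) = (t + 32)²` -/
theorem s36rig_t4_rel : (s36rig_t4 K + 16) * (hm2 K + 64) = (s36rig_t4 K + 32) ^ 2 :=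
  s36rig_t4_eq (s36rig_t4_sq K)

/-- `t ∈ F_N` for `4 ∣ N`. -/
theorem s36rig_t4_mem {N : ℕ} [NeZero N] (h4 : 4 ∣ N) (hN : (N : K) ≠ 0) :
    s36rig_t4 K ∈ modularFunctionFieldFullC K N := by
  have h2 : 2 ∣ N := (show 2 ∣ 4 by norm_num).trans h4
  have hh : hm2 K ∈ modularFunctionFieldFullC K N := hm2_mem_full K h2 hN
  have h2K : ((2 : ℕ) : K) ≠ 0 := natCast_ne_zero_of_dvd K h2 hN
  have hh2 : hm2 K ∈ modularFunctionFieldFullC K 2 := by
    have : NeZero (2 : ℕ) := ⟨by norm_num⟩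
    exact hm2_mem_full K (dvd_refl 2) h2K
  have hk : s36rig_h2d K ∈ modularFunctionFieldFullC K N := by
    have h1 : s36rig_h2d K ∈ modularFunctionFieldFullC K (2 * 2) :=
      full_degeneracyC_map_le K 2 2 ⟨hm2 K, hh2, rfl⟩
    exact full_degeneracyC_le K (show 2 * 2 ∣ N from h4) h1
  unfold s36rig_t4
  refine div_mem (sub_mem hk (mul_mem ?_ hh)) (add_mem hh ?_)
  · exact ofNat_mem _ 16
  · exact ofNat_mem _ 16

end Field

end Fermat.Agent.S36
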