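import Fermat.Agent.S36.TopAbs
import Fermat.Agent.S36.TopSetting
import Fermat.Agent.UNIP.MGMain

/-!
# S36 geometry, G-topB: the instantiation of the abstract chain (helper58)

`A ∣ q` a valuation ring of `ℚ̄`, `E₀ = beta0Field A = ℚ̄^I`, `A₀ = beta0Ring A E₀ = A ∩ E₀`
(a DVR with uniformizer `q`), `F = F_{Mqq}(E₀)`, `F₁ = F_{Mq}(E₀)`, `α = s36Alpha`, `β = s36Beta`,
`Nα = s36NormAlpha`, `Nβ = s36NormBeta`, `Hor = s36Hor E₀ (p ^ r)`.

* `s36tb_small` : `s36ta_main` (helper84) at this setting, with the base hypotheses discharged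
  (`hπ`, `hcl`, `hpu`, `hunit`, `hqπ`, `ζm`, the constants, `Hor`): the hypotheses which remain are
  EXACTLY the modular inputs
    (I1) N2-val   : `V`, `hne`, `hBV₁`, `hBV₂`, `hπV`, `hram`, `c₀`, `hU`, `hG`, `harch`
    (I2) N2-ker   : `hKR`
    (I3) G-nr-ord : `ord`, `winf`, `w0` and the norm–order formulas
    (I4) G-nr     : `Winf`, `W0`, `Dα`, `Dβ`
    (I5) G-desc-N : `stbDeg α = q`, `stbDeg β = q`
    (I6) N2-pts / G-reg / G-thin / G-inc : `hpts` (for every `r` and every primitive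
         `p ^ r`-th root of unity `ζm ∈ A₀`)
    (I7) the chart coordinate `t` (transcendental, `F / E₀(t)` finite).
  Conclusion: `StmtCarayolSmallAt M q p A` with `c = (q + 1) (q − 1) (q − 1) (q + 1)`.
-/

set_option autoImplicit false
set_option linter.style.haveILetI false
set_option linter.unusedSectionVars false
set_option linter.unusedVariables false

noncomputable section

namespace Fermat.Agent.S36

open ModularCurve AlgebraicCurve Fermat.Agent.ES Fermat.Agent.ES.G2 Fermat.Agent.INJ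
open Fermat.Agent.UNIP Fermat.Agent.STB IntermediateField

section Main

variable {q : ℕ} {A : ValuationSubring Qb} (M : ℕ) [NeZero M] [NeZero q]
  [IsDiscreteValuationRing ↥(beta0Ring A (beta0Field A))]

/-- **G-topB**: the abstract chain at the modular setting over the small field. -/
theorem s36tb_small (hq : q.Prime) (hA : A.LiesOverPrime q) {p : ℕ} (hp : p.Prime) (hpq : p ≠ q)
    -- (I5)
    (hdegα : stbDeg (s36Alpha ↥(beta0Field A) M q) = q)
    (hdegβ : stbDeg (s36Beta ↥(beta0Field A) M q) = q)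
    -- (I7)
    {t : ↥(modularFunctionFieldFullC ↥(beta0Field A) (M * q * q))}
    (ht : Transcendental ↥(beta0Field A) t)
    (hfin : FiniteDimensional (↥(beta0Field A))⟮t⟯
      ↥(modularFunctionFieldFullC ↥(beta0Field A) (M * q * q)))
    -- (I1), (I2)
    (N : ℕ) {κ : Type*} [Finite κ]
    (V : κ → ValuationSubring ↥(modularFunctionFieldFullC ↥(beta0Field A) (M * q * q)))
    (hne : ∀ c c', c ≠ c' → V c ≠ V c')
    (hBV₁ : ∀ c (b : ↥(modularFunctionFieldFullC ↥(beta0Field A) (M * q * q))),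
      IsIntegral ↥(Algebra.adjoin ↥(beta0Ring A (beta0Field A)) {t}) b → b ∈ V c)
    (hBV₂ : ∀ c (b : ↥(modularFunctionFieldFullC ↥(beta0Field A) (M * q * q))),
      IsIntegral ↥(Algebra.adjoin ↥(beta0Ring A (beta0Field A)) {t⁻¹}) b → b ∈ V c)
    (hπV : ∀ c, algebraMap ↥(beta0Ring A (beta0Field A))
      ↥(modularFunctionFieldFullC ↥(beta0Field A) (M * q * q))
        ((q : ℕ) : ↥(beta0Ring A (beta0Field A))) ∈ (V c).nonunits)
    (hKR : ∀ x : ↥(modularFunctionFieldFullC ↥(beta0Field A) (M * q * q)),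
      IsIntegral ↥(Algebra.adjoin ↥(beta0Ring A (beta0Field A)) {t})
        (algebraMap ↥(beta0Ring A (beta0Field A))
          ↥(modularFunctionFieldFullC ↥(beta0Field A) (M * q * q))
          ((q : ℕ) : ↥(beta0Ring A (beta0Field A))) * x) →
      (∀ c, x ∈ V c) → IsIntegral ↥(Algebra.adjoin ↥(beta0Ring A (beta0Field A)) {t}) x)
    (hram : ∀ c (x : ↥(modularFunctionFieldFullC ↥(beta0Field A) (M * q * q))),
      x ∈ (V c).nonunits → ∃ z ∈ V c, x ^ (q ^ N) =
        algebraMap ↥(beta0Ring A (beta0Field A))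
          ↥(modularFunctionFieldFullC ↥(beta0Field A) (M * q * q))
          ((q : ℕ) : ↥(beta0Ring A (beta0Field A))) * z)
    (c₀ : κ)
    (hU : ∀ x : ↥(modularFunctionFieldFullC ↥(beta0Field A) (M * q * q)),
      x ∈ (V c₀).nonunits → ∃ z ∈ V c₀, x =
        algebraMap ↥(beta0Ring A (beta0Field A))
          ↥(modularFunctionFieldFullC ↥(beta0Field A) (M * q * q))
          ((q : ℕ) : ↥(beta0Ring A (beta0Field A))) * z)
    (hG : ∀ s : ↥(modularFunctionFieldFullC ↥(beta0Field A) (M * q * q)),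
      EIPrimeTo ((q : ℕ) : ↥(beta0Ring A (beta0Field A))) t s → s ∉ (V c₀).nonunits)
    (harch : ∀ c (a x : ↥(modularFunctionFieldFullC ↥(beta0Field A) (M * q * q))),
      a ∈ (V c).nonunits → ∃ n : ℕ, a ^ n * x ∈ (V c).nonunits)
    (ca cb cc : κ) (hκ : ∀ c, c = ca ∨ c = cb ∨ c = cc) (hab : ca ≠ cb) (hac : ca ≠ cc)
    (hbc : cb ≠ cc)
    -- (I3)
    (ord : κ → ↥(modularFunctionFieldFullC ↥(beta0Field A) (M * q * q)) → ℤ)
    (hord : ∀ c (x y : ↥(modularFunctionFieldFullC ↥(beta0Field A) (M * q * q))),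
      x ≠ 0 → y ≠ 0 → ord c (x * y) = ord c x + ord c y)
    (hord0 : ∀ c (x : ↥(modularFunctionFieldFullC ↥(beta0Field A) (M * q * q))),
      x ≠ 0 → (ord c x = 0 ↔ (V c).valuation x = 1))
    (hπa : ord ca (algebraMap ↥(beta0Ring A (beta0Field A))
      ↥(modularFunctionFieldFullC ↥(beta0Field A) (M * q * q))
        ((q : ℕ) : ↥(beta0Ring A (beta0Field A)))) = 1)
    (hπb : ord cb (algebraMap ↥(beta0Ring A (beta0Field A))
      ↥(modularFunctionFieldFullC ↥(beta0Field A) (M * q * q))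
        ((q : ℕ) : ↥(beta0Ring A (beta0Field A)))) = 1)
    (hπc : ord cc (algebraMap ↥(beta0Ring A (beta0Field A))
      ↥(modularFunctionFieldFullC ↥(beta0Field A) (M * q * q))
        ((q : ℕ) : ↥(beta0Ring A (beta0Field A)))) = (q : ℤ) - 1)
    {ϖc : ↥(modularFunctionFieldFullC ↥(beta0Field A) (M * q * q))} (hϖc0 : ϖc ≠ 0)
    (hϖc : ord cc ϖc = 1)
    -- (I4)
    (Winf W0 : ValuationSubring ↥(modularFunctionFieldFullC ↥(beta0Field A) (M * q)))
    (Dα : NgDir (s36Alpha ↥(beta0Field A) M q) (s36NormAlpha ↥(beta0Field A) M q) Winf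
      (V ca) (V cc) (V cb) (q - 1) q)
    (Dβ : NgDir (s36Beta ↥(beta0Field A) M q) (s36NormBeta ↥(beta0Field A) M q) W0
      (V cb) (V cc) (V ca) (q - 1) q)
    (winf w0 : ↥(modularFunctionFieldFullC ↥(beta0Field A) (M * q)) → ℤ)
    (hwinf : ∀ x y : ↥(modularFunctionFieldFullC ↥(beta0Field A) (M * q)),
      x ≠ 0 → y ≠ 0 → winf (x * y) = winf x + winf y)
    (hw0 : ∀ x y : ↥(modularFunctionFieldFullC ↥(beta0Field A) (M * q)),
      x ≠ 0 → y ≠ 0 → w0 (x * y) = w0 x + w0 y)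
    (hαinf : ∀ x : ↥(modularFunctionFieldFullC ↥(beta0Field A) (M * q * q)), x ≠ 0 →
      winf (s36NormAlpha ↥(beta0Field A) M q x) = ord ca x + ord cc x)
    (hα0 : ∀ x : ↥(modularFunctionFieldFullC ↥(beta0Field A) (M * q * q)), x ≠ 0 →
      w0 (s36NormAlpha ↥(beta0Field A) M q x) = q * ord cb x)
    (hβinf : ∀ x : ↥(modularFunctionFieldFullC ↥(beta0Field A) (M * q * q)), x ≠ 0 →
      winf (s36NormBeta ↥(beta0Field A) M q x) = q * ord ca x)
    (hβ0 : ∀ x : ↥(modularFunctionFieldFullC ↥(beta0Field A) (M * q * q)), x ≠ 0 →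
      w0 (s36NormBeta ↥(beta0Field A) M q x) = ord cc x + ord cb x)
    -- (I6)
    (hpts : ∀ (r : ℕ) (ζm : ↥(beta0Ring A (beta0Field A))), IsPrimitiveRoot ζm (p ^ r) →
      ∀ i : AtPt (F := ↥(modularFunctionFieldFullC ↥(beta0Field A) (M * q * q)))
          ((q : ℕ) : ↥(beta0Ring A (beta0Field A))) t ⊕
        AtPt (F := ↥(modularFunctionFieldFullC ↥(beta0Field A) (M * q * q)))
          ((q : ℕ) : ↥(beta0Ring A (beta0Field A))) t⁻¹,
      @S36PtInput ↥(modularFunctionFieldFullC ↥(beta0Field A) (M * q))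
        ↥(modularFunctionFieldFullC ↥(beta0Field A) (M * q * q)) _ _ κ
        (s36Hor ↥(beta0Field A) (p ^ r)) (p ^ r)
        (s36Alpha ↥(beta0Field A) M q) (s36Beta ↥(beta0Field A) M q)
        (s36NormAlpha ↥(beta0Field A) M q) (s36NormBeta ↥(beta0Field A) M q)
        (algebraMap ↥(beta0Field A) ↥(modularFunctionFieldFullC ↥(beta0Field A) (M * q))
          (algebraMap ↥(beta0Ring A (beta0Field A)) ↥(beta0Field A) ζm))
        V ca cb cc (atO ((q : ℕ) : ↥(beta0Ring A (beta0Field A))) t i)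
        (stb_atO_isLocalRing (π := ((q : ℕ) : ↥(beta0Ring A (beta0Field A)))) t i)
        (atInc ((q : ℕ) : ↥(beta0Ring A (beta0Field A))) t V i)) :
    StmtCarayolSmallAt M q p A := by
  haveI := hfin
  have hM : ∀ r : ℕ, (((p ^ r : ℕ) : ℕ) : Qb) ∉ A.nonunits := by
    intro r
    have := Fermat.Agent.S31.natCast_pow_not_mem_nonunits A hp hq (Ne.symm hpq) hA r
    exact_mod_cast this
  have hM1 : ((p : ℕ) : Qb) ∉ A.nonunits := by
    have := hM 1
    rwa [pow_one] at this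
  have hE : beta0Field A ≤ beta0Field A := le_refl _
  have hpu : IsUnit ((p : ℕ) : ↥(beta0Ring A (beta0Field A))) := beta0Ring_hpu hM1
  have hunit := beta0Ring_hunit (A := A) (K₀ := beta0Field A) hq hA hE hp.ne_zero hM1
  have hπ : Irreducible ((q : ℕ) : ↥(beta0Ring A (beta0Field A))) :=
    beta0Ring_irreducible_q hq hA
  have hcl : ∀ x : ↥(modularFunctionFieldFullC ↥(beta0Field A) (M * q * q)),
      IsAlgebraic ↥(beta0Field A) x →
        x ∈ (algebraMap ↥(beta0Field A)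
          ↥(modularFunctionFieldFullC ↥(beta0Field A) (M * q * q))).range :=
    fun x hx => bgConst_mem_range_of_isAlgebraic
      (modularFunctionFieldFullC ↥(beta0Field A) (M * q * q)) x hx
  refine ⟨(q + 1) * ((q - 1) * ((q - 1) * (q + 1))), ?_, ?_⟩
  · have h1 : q - 1 ≠ 0 := Nat.sub_ne_zero_of_lt hq.one_lt
    exact Nat.mul_ne_zero (Nat.succ_ne_zero q)
      (Nat.mul_ne_zero h1 (Nat.mul_ne_zero h1 (Nat.succ_ne_zero q)))
  intro n u hu hordu hNα hNβ
  obtain ⟨ζm, hζm⟩ := beta0Ring_exists_primitiveRoot (A := A) (K₀ := beta0Field A) hE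
    (pow_ne_zero n hp.ne_zero) (hM n)
  exact s36ta_main hπ ht hcl hp hpu hunit hq (Ne.symm hpq) (dvd_refl _) N V hne hBV₁ hBV₂ hπV
    hKR hram c₀ hU hG harch ca cb cc hκ hab hac hbc ord hord hord0 hπa hπb hπc hϖc0 hϖc
    (s36Alpha ↥(beta0Field A) M q) (s36Beta ↥(beta0Field A) M q)
    (s36NormAlpha ↥(beta0Field A) M q) (s36NormBeta ↥(beta0Field A) M q)
    (s36Alpha_algebraMap ↥(beta0Field A) M q) (s36Beta_algebraMap ↥(beta0Field A) M q)
    (fun e => by rw [s36NormAlpha_algebraMap, hdegα])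
    (fun e => by rw [s36NormBeta_algebraMap, hdegβ])
    Winf W0 Dα Dβ winf w0 hwinf hw0 hαinf hα0 hβinf hβ0 n hζm
    (s36Hor ↥(beta0Field A) (p ^ n))
    (fun x y hx hy => s36Hor_mul hx hy) (fun x hx => s36Hor_inv hx)
    (fun e _ => s36Hor_algebraMap (p ^ n) e) (fun x _ => s36Hor_pow_self (p ^ n) x)
    (hpts n ζm hζm) hu hordu hNα hNβ

end Main

end Fermat.Agent.S36
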