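import Fermat.Agent.S36.N2ValI1
import Fermat.Agent.S36.N2ValRes
import Fermat.Agent.S36.NormOrdI3
import Fermat.Agent.S36.NormOrdData
import Fermat.Agent.S36.TopB
import Fermat.Agent.S36.DescentNorm
import Fermat.Agent.INJ.BGFin

/-!
# S36 / G-top, PARTIAL WIRING: `s36tb_small` with (I1), (I3), (I5), (I7) discharged (helper98)

`V := s36i1V M hq hA hqM hζ ιC h` (the concrete family of `S36/N2ValI1.lean`), `t := bgJ E₀ (M*q*q)`,
`N := 1`, `c₀ = ca := a`, `cb := b`, `cc := c`.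

* `s36sp_hne`   : (I1) `hne` at the concrete family (helper93's `s36n2V_ne`);
* `s36sp_data`  : the concrete `S36NoData` (helper62's `s36nd_data`) in the form needed here;
* `s36sp_small` : **`StmtCarayolSmallAt M q p A`** from exactly
    (I2) `hKR`, (I4) `Winf W0 Dα Dβ`, (I6) `hpts`.
-/

set_option autoImplicit false
set_option linter.style.haveILetI false
set_option linter.unusedSectionVars false
set_option linter.unusedVariables false
set_option linter.constructorNameAsVariable false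

noncomputable section

namespace Fermat.Agent.S36

open ModularCurve AlgebraicCurve Fermat.Agent.ES Fermat.Agent.ES.G2 Fermat.Agent.INJ
open Fermat.Agent.UNIP Fermat.Agent.STB IntermediateField

section Part

variable {q : ℕ} {A : ValuationSubring (AlgebraicClosure ℚ)} (M : ℕ) [NeZero M] [NeZero q]
  [IsDiscreteValuationRing ↥(beta0Ring A (beta0Field A))]
  {ζ : AlgebraicClosure ℚ}
  (hq : q.Prime) (hA : A.LiesOverPrime q) (hqM : ¬ q ∣ M) (hζ : IsPrimitiveRoot ζ q)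
  (ιC : ↥(beta0Field A) →+* ℂ)
  (h : S36MidEmb ↥(s36n2bK A ζ) q M (s36i1ZK (A := A) hq hζ))

include hA in
/-- the concrete arithmetic data, with the root of unity `s36i1ZK` -/
theorem s36sp_data :
    S36NoData (algebraMap ↥(beta0Ring A (beta0Field A)) ↥(beta0Field A))
      (IsLocalRing.residue ↥(beta0Ring A (beta0Field A)))
      ((q : ℕ) : beta0Ring A (beta0Field A))
      (algebraMap ↥(beta0Ring A (s36n2bK A ζ)) ↥(s36n2bK A ζ))
      (IsLocalRing.residue ↥(beta0Ring A (s36n2bK A ζ))) (s36n2bPi hq hζ)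
      (IntermediateField.inclusion (s36n2b_le_K A ζ)).toRingHom q (s36i1ZK (A := A) hq hζ) :=
  s36nd_data hq hA hζ

include hq in
theorem s36sp_zeta_pow : (s36i1ZK (A := A) hq hζ) ^ q = 1 := by
  apply Units.ext
  rw [Units.val_pow_eq_pow_val, Units.val_one]
  exact (s36i1ZK_isPrimitiveRoot (A := A) hq hζ).pow_eq_one

/-- **hne** for the concrete family -/
theorem s36sp_hne (ιK : ↥(s36n2bK A ζ) →+* ℂ) (c c' : S36Comp) (hcc : c ≠ c') :
    s36i1V M hq hA hqM hζ ιC h c ≠ s36i1V M hq hA hqM hζ ιC h c' := by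
  haveI : Fact q.Prime := ⟨hq⟩
  haveI : CharP (IsLocalRing.ResidueField ↥(beta0Ring A (beta0Field A))) q := mgvl_charP hq hA
  obtain ⟨κ, -, hκ⟩ := s36n2b_compat (A := A) (ζ := ζ) hq hA
  exact s36n2V_ne (vtBase_residue (beta0Ring_irreducible_q hq hA)) (s36n2b_vtBase hq hA hζ) hκ
    ιC ιK hq hqM h (s36i1Z hq hζ) rfl (s36sp_zeta_pow hq hζ) hcc

/-- **PARTIAL WIRING**: `StmtCarayolSmallAt M q p A` from (I2) `hKR`, (I4) `Winf W0 Dα Dβ`,
(I6) `hpts` at the concrete family `V = s36i1V M hq hA hqM hζ ιC h`, chart `t = j`. -/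
theorem s36sp_small {p : ℕ} (hp : p.Prime) (hpq : p ≠ q)
    (ιK : ↥(s36n2bK A ζ) →+* ℂ)
    -- (I2)
    (hKR : ∀ x : ↥(modularFunctionFieldFullC ↥(beta0Field A) (M * q * q)),
      IsIntegral ↥(Algebra.adjoin ↥(beta0Ring A (beta0Field A))
          {bgJ ↥(beta0Field A) (M * q * q)})
        (algebraMap ↥(beta0Ring A (beta0Field A))
          ↥(modularFunctionFieldFullC ↥(beta0Field A) (M * q * q))
          ((q : ℕ) : ↥(beta0Ring A (beta0Field A))) * x) →
      (∀ c, x ∈ s36i1V M hq hA hqM hζ ιC h c) →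
        IsIntegral ↥(Algebra.adjoin ↥(beta0Ring A (beta0Field A))
          {bgJ ↥(beta0Field A) (M * q * q)}) x)
    -- (I4)
    (Winf W0 : ValuationSubring ↥(modularFunctionFieldFullC ↥(beta0Field A) (M * q)))
    (Dα : NgDir (s36Alpha ↥(beta0Field A) M q) (s36NormAlpha ↥(beta0Field A) M q) Winf
      (s36i1V M hq hA hqM hζ ιC h S36Comp.a) (s36i1V M hq hA hqM hζ ιC h S36Comp.c)
      (s36i1V M hq hA hqM hζ ιC h S36Comp.b) (q - 1) q)
    (Dβ : NgDir (s36Beta ↥(beta0Field A) M q) (s36NormBeta ↥(beta0Field A) M q) W0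
      (s36i1V M hq hA hqM hζ ιC h S36Comp.b) (s36i1V M hq hA hqM hζ ιC h S36Comp.c)
      (s36i1V M hq hA hqM hζ ιC h S36Comp.a) (q - 1) q)
    -- (I6)
    (hpts : ∀ (r : ℕ) (ζm : ↥(beta0Ring A (beta0Field A))), IsPrimitiveRoot ζm (p ^ r) →
      ∀ i : AtPt (F := ↥(modularFunctionFieldFullC ↥(beta0Field A) (M * q * q)))
          ((q : ℕ) : ↥(beta0Ring A (beta0Field A))) (bgJ ↥(beta0Field A) (M * q * q)) ⊕
        AtPt (F := ↥(modularFunctionFieldFullC ↥(beta0Field A) (M * q * q)))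
          ((q : ℕ) : ↥(beta0Ring A (beta0Field A))) (bgJ ↥(beta0Field A) (M * q * q))⁻¹,
      @S36PtInput ↥(modularFunctionFieldFullC ↥(beta0Field A) (M * q))
        ↥(modularFunctionFieldFullC ↥(beta0Field A) (M * q * q)) _ _ S36Comp
        (s36Hor ↥(beta0Field A) (p ^ r)) (p ^ r)
        (s36Alpha ↥(beta0Field A) M q) (s36Beta ↥(beta0Field A) M q)
        (s36NormAlpha ↥(beta0Field A) M q) (s36NormBeta ↥(beta0Field A) M q)
        (algebraMap ↥(beta0Field A) ↥(modularFunctionFieldFullC ↥(beta0Field A) (M * q))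
          (algebraMap ↥(beta0Ring A (beta0Field A)) ↥(beta0Field A) ζm))
        (s36i1V M hq hA hqM hζ ιC h) S36Comp.a S36Comp.b S36Comp.c
        (atO ((q : ℕ) : ↥(beta0Ring A (beta0Field A))) (bgJ ↥(beta0Field A) (M * q * q)) i)
        (stb_atO_isLocalRing (π := ((q : ℕ) : ↥(beta0Ring A (beta0Field A))))
          (bgJ ↥(beta0Field A) (M * q * q)) i)
        (atInc ((q : ℕ) : ↥(beta0Ring A (beta0Field A))) (bgJ ↥(beta0Field A) (M * q * q))
          (s36i1V M hq hA hqM hζ ιC h) i)) :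
    StmtCarayolSmallAt M q p A := by
  have hqM' : q ∣ M * q := Dvd.intro_left M rfl
  obtain ⟨ord, winf, w0, ϖc, hord, hord0, hπa, hπb, hπc, hϖc0, hϖc, hwinf, hw0, hαinf, hα0,
      hβinf, hβ0⟩ :=
    s36i3_main (A := ↥(beta0Ring A (beta0Field A))) (E := ↥(beta0Field A))
      (IntermediateField.inclusion (s36n2b_le_K A ζ)).toRingHom ιC hq hqM h
      (s36sp_data hq hA hζ) (vtBase_residue (beta0Ring_irreducible_q hq hA))
      (s36n2b_vtBase hq hA hζ) (s36i1Z hq hζ) rfl (s36nd_pi hq hζ)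
      (s36i1ZK_isPrimitiveRoot hq hζ) ιK
  exact s36tb_small (A := A) M hq hA hp hpq
    (s36dn_deg_alpha ↥(beta0Field A) M q hq) (s36dn_deg_beta ↥(beta0Field A) ιC hq hqM)
    (bgConst_transcendental_bgJ ↥(beta0Field A) (M * q * q))
    (bgFin_finiteDimensional_full ↥(beta0Field A) (M * q * q)) 1
    (s36i1V M hq hA hqM hζ ιC h) (s36sp_hne M hq hA hqM hζ ιC h ιK)
    (s36i1c_hBV₁ M hq hA hqM hζ ιC h) (s36i1c_hBV₂ M hq hA hqM hζ ιC h)
    (s36i1c_hπV M hq hA hqM hζ ιC h) hKR (s36i1c_hram M hq hA hqM hζ ιC h)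
    S36Comp.a (s36i1c_hU M hq hA hqM hζ ιC h) (s36i1c_hG M hq hA hqM hζ ιC h)
    (s36i1c_harch M hq hA hqM hζ ιC h) S36Comp.a S36Comp.b S36Comp.c
    s36i1_hκ s36i1_hab s36i1_hac s36i1_hbc
    ord hord hord0 hπa hπb hπc hϖc0 hϖc Winf W0 Dα Dβ winf w0 hwinf hw0 hαinf hα0 hβinf hβ0 hpts

end Part

end Fermat.Agent.S36

end
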