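import Fermat.Agent.S36.RegAlgDvd
import Fermat.Agent.UNIP.NodesMain

/-!
# S36 (Carayol), G-thin (T4a): the thin node, abstract chart form (helper37)

`B` a Noetherian integrally closed domain (the chart of level `M q`), `ρ, ρ₀ : B →+* L` the two
reductions (`L` a domain), `𝔫` a prime ideal containing both kernels (a crossing point), with the
local coordinates of UNIP (SS3): `ρ X = 0`, `ρ₀ Y = 0`, `X` a local parameter of the branch `ρ₀`,
`Y` a local parameter of the branch `ρ`, `𝔫 = (π, X, Y)` locally.  If moreover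

* `hu : ρ f = 0 → U ∣ f ^ n`   (helper80: `s36tu_hu`, `n = 12`),
* `hord : ∃ s ∉ 𝔫, s · U ∈ 𝔫 ^ n + ker ρ₀`   (`s36tk_hord`: `ord_x ρ₀(U) ≥ n`),

then **`ker ρ` is generated by `X` at `𝔫`** and `B_𝔫` is factorial.
-/

set_option autoImplicit false
set_option linter.style.haveILetI false
set_option linter.unusedSectionVars false
set_option linter.unusedVariables false

namespace Fermat.Agent.S36

open Fermat.Agent.UNIP

section Node

variable {B L : Type*} [CommRing B] [IsDomain B] [CommRing L] [IsDomain L]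

/-- the image of `𝔫` in `B_𝔫 ⧸ 𝔮 B_𝔫` is generated by the image of a local parameter of the
branch `ρ₀`. -/
theorem s36thin_node_mk_mem (ρ₀ : B →+* L) (𝔫 : Ideal B) [h𝔫 : 𝔫.IsPrime]
    {X : B} (hsX : NodesSmoothAt ρ₀ 𝔫 X) (b : B) (hb : b ∈ 𝔫) :
    Ideal.Quotient.mk ((RingHom.ker ρ₀).map (algebraMap B (Localization.AtPrime 𝔫)))
        (algebraMap B (Localization.AtPrime 𝔫) b) ∈
      Ideal.span {Ideal.Quotient.mk ((RingHom.ker ρ₀).map (algebraMap B (Localization.AtPrime 𝔫)))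
        (algebraMap B (Localization.AtPrime 𝔫) X)} := by
  obtain ⟨u, v, hu, huv⟩ := hsX.2 b hb
  set a := algebraMap B (Localization.AtPrime 𝔫)
  set 𝔮 := (RingHom.ker ρ₀).map a
  have hker : u * b - v * X ∈ RingHom.ker ρ₀ := by
    rw [RingHom.mem_ker, map_sub, huv, sub_self]
  have h1 : Ideal.Quotient.mk 𝔮 (a (u * b)) = Ideal.Quotient.mk 𝔮 (a (v * X)) := by
    rw [Ideal.Quotient.eq, ← map_sub]
    exact Ideal.mem_map_of_mem a hker
  have hunit : IsUnit (a u) := IsLocalization.map_units (Localization.AtPrime 𝔫)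
    (⟨u, hu⟩ : 𝔫.primeCompl)
  obtain ⟨w, hw⟩ := hunit
  rw [Ideal.mem_span_singleton]
  refine ⟨Ideal.Quotient.mk 𝔮 ((↑w⁻¹ : Localization.AtPrime 𝔫) * a v), ?_⟩
  have h2 : a b = (↑w⁻¹ : Localization.AtPrime 𝔫) * a (u * b) := by
    rw [map_mul, ← hw, ← mul_assoc, Units.inv_mul, one_mul]
  rw [h2, map_mul, h1, map_mul, map_mul, map_mul]
  ring

/-- **The thin node (abstract).** -/
theorem s36thin_node_abs [IsNoetherianRing B] [IsIntegrallyClosed B]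
    (ρ ρ₀ : B →+* L) (𝔫 : Ideal B) [h𝔫 : 𝔫.IsPrime]
    (h𝔭 : RingHom.ker ρ ≤ 𝔫) (h𝔮 : RingHom.ker ρ₀ ≤ 𝔫)
    {π X Y : B} (hπ : ρ π = 0) (hπ₀ : ρ₀ π = 0) (hX : ρ X = 0) (hY : ρ₀ Y = 0)
    (hsX : NodesSmoothAt ρ₀ 𝔫 X) (hsY : NodesSmoothAt ρ 𝔫 Y)
    (hX₀ : ρ₀ X ≠ 0)
    {U : B} {n : ℕ} (hn : n ≠ 0) (hu : ∀ f, ρ f = 0 → U ∣ f ^ n)
    (hord : ∃ s, s ∉ 𝔫 ∧ s * U ∈ 𝔫 ^ n ⊔ RingHom.ker ρ₀) :
    (∀ b, ρ b = 0 → ∃ u, u ∉ 𝔫 ∧ X ∣ u * b) ∧
      UniqueFactorizationMonoid (Localization.AtPrime 𝔫) := by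
  classical
  set O := Localization.AtPrime 𝔫 with hO
  set a : B →+* O := algebraMap B O with ha
  haveI : IsIntegrallyClosed O :=
    isIntegrallyClosed_of_isLocalization O 𝔫.primeCompl 𝔫.primeCompl_le_nonZeroDivisors
  have hainj : Function.Injective a :=
    IsLocalization.injective O 𝔫.primeCompl_le_nonZeroDivisors
  set 𝔭 : Ideal O := (RingHom.ker ρ).map a with h𝔭def
  set 𝔮 : Ideal O := (RingHom.ker ρ₀).map a with h𝔮def
  haveI hkρ : (RingHom.ker ρ).IsPrime := RingHom.ker_isPrime ρ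
  haveI hkρ₀ : (RingHom.ker ρ₀).IsPrime := RingHom.ker_isPrime ρ₀
  have hdisj : Disjoint (𝔫.primeCompl : Set B) (RingHom.ker ρ : Set B) := by
    rw [Set.disjoint_left]
    intro x hx hx'
    exact hx (h𝔭 hx')
  have hdisj₀ : Disjoint (𝔫.primeCompl : Set B) (RingHom.ker ρ₀ : Set B) := by
    rw [Set.disjoint_left]
    intro x hx hx'
    exact hx (h𝔮 hx')
  haveI h𝔭p : 𝔭.IsPrime :=
    IsLocalization.isPrime_of_isPrime_disjoint 𝔫.primeCompl O _ hkρ hdisj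
  haveI h𝔮p : 𝔮.IsPrime :=
    IsLocalization.isPrime_of_isPrime_disjoint 𝔫.primeCompl O _ hkρ₀ hdisj₀
  have hcomap₀ : 𝔮.comap a = RingHom.ker ρ₀ :=
    IsLocalization.under_map_of_isPrime_disjoint 𝔫.primeCompl O hkρ₀ hdisj₀
  have hunit : ∀ s : B, s ∉ 𝔫 → IsUnit (a s) := fun s hs =>
    IsLocalization.map_units O (⟨s, hs⟩ : 𝔫.primeCompl)
  -- the hypotheses of `s36reg_span_eq_of_dvd`
  have hs𝔭 : a X ∈ 𝔭 := Ideal.mem_map_of_mem a (RingHom.mem_ker.2 hX)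
  have hs𝔮 : a X ∉ 𝔮 := by
    intro hmem
    have : X ∈ 𝔮.comap a := hmem
    rw [hcomap₀] at this
    exact hX₀ (RingHom.mem_ker.1 this)
  have hu' : ∀ f ∈ 𝔭, a U ∣ f ^ n := by
    intro f hf
    obtain ⟨⟨b, s⟩, hbs⟩ := (IsLocalization.mem_map_algebraMap_iff 𝔫.primeCompl O).1 hf
    obtain ⟨c, hc⟩ := hu b.1 (RingHom.mem_ker.1 b.2)
    have h1 : a U ∣ (f * a s.1) ^ n := by
      rw [hbs, ← map_pow, hc, map_mul]
      exact dvd_mul_right _ _
    rw [mul_pow] at h1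
    exact ((hunit s.1 s.2).pow n).dvd_mul_right.1 h1
  have hge : Ideal.Quotient.mk 𝔮 (a X) ^ n ∣ Ideal.Quotient.mk 𝔮 (a U) := by
    obtain ⟨s, hs, hsU⟩ := hord
    obtain ⟨m, hm, z, hz, hmz⟩ := Submodule.mem_sup.1 hsU
    -- the image of `𝔫 ^ n`
    have hmap : (𝔫.map ((Ideal.Quotient.mk 𝔮).comp a)) ≤
        Ideal.span {Ideal.Quotient.mk 𝔮 (a X)} := by
      rw [Ideal.map_le_iff_le_comap]
      intro b hb
      exact s36thin_node_mk_mem ρ₀ 𝔫 hsX b hb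
    have hm' : Ideal.Quotient.mk 𝔮 (a m) ∈ Ideal.span {Ideal.Quotient.mk 𝔮 (a X) ^ n} := by
      rw [← Ideal.span_singleton_pow]
      have h1 : ((Ideal.Quotient.mk 𝔮).comp a) m ∈ (𝔫 ^ n).map ((Ideal.Quotient.mk 𝔮).comp a) :=
        Ideal.mem_map_of_mem _ hm
      rw [Ideal.map_pow] at h1
      exact Ideal.pow_right_mono hmap n h1
    have hz' : Ideal.Quotient.mk 𝔮 (a z) = 0 :=
      Ideal.Quotient.eq_zero_iff_mem.2 (Ideal.mem_map_of_mem a hz)
    have h2 : Ideal.Quotient.mk 𝔮 (a s) * Ideal.Quotient.mk 𝔮 (a U) =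
        Ideal.Quotient.mk 𝔮 (a m) := by
      rw [← map_mul, ← map_mul, ← hmz, map_add, map_add, hz', add_zero]
    have h3 : IsUnit (Ideal.Quotient.mk 𝔮 (a s)) := (hunit s hs).map _
    rw [Ideal.mem_span_singleton, ← h2] at hm'
    exact h3.dvd_mul_left.1 hm'
  have hspan : 𝔭 = Ideal.span {a X} := s36reg_span_eq_of_dvd 𝔭 𝔮 hn hs𝔭 hs𝔮 hu' hge
  refine ⟨?_, ?_⟩
  · intro b hb
    have hb' : a b ∈ 𝔭 := Ideal.mem_map_of_mem a (RingHom.mem_ker.2 hb)
    rw [hspan, Ideal.mem_span_singleton] at hb'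
    obtain ⟨c, hc⟩ := hb'
    obtain ⟨⟨c', s⟩, hcs⟩ := IsLocalization.surj 𝔫.primeCompl c
    refine ⟨s.1, s.2, c', ?_⟩
    apply hainj
    rw [map_mul, map_mul, hc, ← hcs]
    ring
  · -- `B_𝔫` is factorial
    have hX0 : a X ≠ 0 := by
      intro h0
      apply hX₀
      have : X = 0 := hainj (h0.trans (map_zero a).symm)
      rw [this, map_zero]
    have hprime : Prime (a X) := by
      rw [← Ideal.span_singleton_prime hX0, ← hspan]
      exact h𝔭p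
    -- `O ⧸ 𝔭` is a principal ideal ring
    haveI hpir : IsPrincipalIdealRing (O ⧸ Ideal.span {a X}) := by
      rw [← hspan]
      haveI : IsLocalRing (O ⧸ 𝔭) :=
        IsLocalRing.of_surjective' (Ideal.Quotient.mk 𝔭) Ideal.Quotient.mk_surjective
      refine ((tfae_of_isNoetherianRing_of_isLocalRing_of_isDomain (O ⧸ 𝔭)).out 0 4).2 ?_
      refine ⟨⟨Ideal.Quotient.mk 𝔭 (a Y), ?_⟩⟩
      show IsLocalRing.maximalIdeal (O ⧸ 𝔭) = Ideal.span {Ideal.Quotient.mk 𝔭 (a Y)}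
      apply le_antisymm
      · intro x hx
        obtain ⟨y, rfl⟩ := Ideal.Quotient.mk_surjective x
        have hy : y ∈ IsLocalRing.maximalIdeal O := by
          rw [IsLocalRing.mem_maximalIdeal]
          intro hyu
          exact (IsLocalRing.mem_maximalIdeal _).1 hx (hyu.map _)
        obtain ⟨⟨b, s⟩, hbs⟩ := IsLocalization.surj 𝔫.primeCompl y
        have hb : b ∈ 𝔫 := by
          by_contra hb
          have h1 : IsUnit (y * a s.1) := by
            rw [hbs]; exact hunit b hb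
          exact (IsLocalRing.mem_maximalIdeal _).1 hy (isUnit_of_mul_isUnit_left h1)
        have h1 := s36thin_node_mk_mem ρ 𝔫 hsY b hb
        have h2 : IsUnit (Ideal.Quotient.mk 𝔭 (a s.1)) := (hunit s.1 s.2).map _
        have h3 : Ideal.Quotient.mk 𝔭 y * Ideal.Quotient.mk 𝔭 (a s.1) ∈
            Ideal.span {Ideal.Quotient.mk 𝔭 (a Y)} := by
          rw [← map_mul, hbs]
          exact h1
        exact (Ideal.unit_mul_mem_iff_mem _ h2).1 (by rwa [mul_comm] at h3)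
      · rw [Ideal.span_singleton_le_iff_mem, IsLocalRing.mem_maximalIdeal]
        intro hunitY
        -- `a Y` would be a unit of `O`
        have h1 : IsUnit (a Y) := by
          by_contra hnu
          have hmem : a Y ∈ IsLocalRing.maximalIdeal O := (IsLocalRing.mem_maximalIdeal _).2 hnu
          have h𝔭le : 𝔭 ≤ IsLocalRing.maximalIdeal O :=
            IsLocalRing.le_maximalIdeal h𝔭p.ne_top
          obtain ⟨c, hc⟩ := hunitY.exists_right_inv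
          obtain ⟨c', rfl⟩ := Ideal.Quotient.mk_surjective c
          rw [← map_mul, ← map_one (Ideal.Quotient.mk 𝔭), Ideal.Quotient.eq] at hc
          have h2 : a Y * c' ∈ IsLocalRing.maximalIdeal O := Ideal.mul_mem_right _ _ hmem
          have h3 : (1 : O) ∈ IsLocalRing.maximalIdeal O := by
            have h4 := Ideal.sub_mem _ h2 (h𝔭le hc)
            rwa [sub_sub_cancel] at h4
          exact (IsLocalRing.mem_maximalIdeal _).1 h3 isUnit_one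
        have h2 : Y ∈ 𝔫 := hsY.1
        exact (IsLocalization.AtPrime.isUnit_to_map_iff O 𝔫 Y).1 h1 h2
    exact s36reg_ufd_local hprime

/-- **`π = X · Y″` at the thin node**: if `ker ρ` is generated by `X` at `𝔫` and
`ker ρ ∩ ker ρ₀ = π B` (SS1), then `u π = X Y″` with `u ∉ 𝔫`, `ρ₀ Y″ = 0`, `ρ Y″ ≠ 0`
(so `X` is a uniformizer of the branch `ρ`, and `Y″` one of the branch `ρ₀`). -/
theorem s36thin_node_split (ρ ρ₀ : B →+* L) (𝔫 : Ideal B) [h𝔫 : 𝔫.IsPrime]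
    {π X : B} (hπ0 : π ≠ 0) (hπ : ρ π = 0) (hπ₀ : ρ₀ π = 0) (hX𝔫 : X ∈ 𝔫) (hX₀ : ρ₀ X ≠ 0)
    (hSS1 : ∀ x, ρ x = 0 → ρ₀ x = 0 → π ∣ x)
    (hgen : ∀ b, ρ b = 0 → ∃ u, u ∉ 𝔫 ∧ X ∣ u * b) :
    ∃ Y' u : B, u ∉ 𝔫 ∧ u * π = X * Y' ∧ ρ₀ Y' = 0 ∧ ρ Y' ≠ 0 := by
  obtain ⟨u, hu, Y', hY'⟩ := hgen π hπ
  refine ⟨Y', u, hu, hY', ?_, ?_⟩
  · have h1 : ρ₀ X * ρ₀ Y' = 0 := by
      rw [← map_mul, ← hY', map_mul, hπ₀, mul_zero]
    exact (mul_eq_zero.1 h1).resolve_left hX₀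
  · intro h0
    have h1 : ρ₀ X * ρ₀ Y' = 0 := by
      rw [← map_mul, ← hY', map_mul, hπ₀, mul_zero]
    have h2 : ρ₀ Y' = 0 := (mul_eq_zero.1 h1).resolve_left hX₀
    obtain ⟨y, hy⟩ := hSS1 Y' h0 h2
    rw [hy] at hY'
    have h3 : π * u = π * (X * y) := by
      rw [mul_comm π u, hY']; ring
    have h4 : u = X * y := mul_left_cancel₀ hπ0 h3
    exact hu (h4 ▸ 𝔫.mul_mem_right _ hX𝔫)

end Node

end Fermat.Agent.S36
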