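import Fermat.Agent.S36.Rigid9
import Fermat.Agent.ES.I2.MFFormal

/-!
# S36 / G-thin (T3′): the small primes `q ∈ {2, 3}` (helper80)

Over a ring `k` with `240 = 0` (characteristic `2`, `3` or `5`): `Ē₄ = 1`, hence `j̄ = Δ̄⁻¹` and
`P := Δ̄ (Δ̄⁻¹)^q = j̄^(q-1)`.  With the Hauptmoduln of the rigid levels:

* `q = 3`, level `4`: `j h² = (h + 256)³`, `(t + 16)(h + 64) = (t + 32)²`, `256 ≡ 64 mod 3`
  ⟹ `P h⁴ (t + 16)⁶ = (t + 32)¹²`;
* `q = 2`, level `9`: `j h³ = (h + 27)(h + 243)³`, `(h + 27)(t² + 9t + 27) = (t + 9)³`,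
  `243 ≡ 27 mod 2` ⟹ `P h³ (t² + 9t + 27)⁴ = (t + 9)¹²`.

At a prime `𝔪 ∋ P` the cofactor is a unit, so `∃ s ∉ 𝔪, s P ∈ 𝔪¹²`:
`s36ts_hord3`, `s36ts_hord2` (same shape as `s36tk_hord`, no point `a`, no rigidity hypothesis).
-/

set_option autoImplicit false

noncomputable section

namespace Fermat.Agent.S36

open ModularCurve Fermat.Agent.INJ Fermat.Agent.S28 Fermat.Agent.ES.I2

section Series

variable (k : Type*) [CommRing k]

/-- `Ē₄ = 1` when `240 = 0`. -/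
theorem s36ts_E4 (h240 : (240 : k) = 0) : coeffMap (Int.castRingHom k) mfE4L = 1 := by
  rw [mfE4L, coeffMap_ofPowerSeries]
  have h1 : (eisenstein4.map (Int.castRingHom k) : PowerSeries k) = 1 := by
    ext n
    rw [PowerSeries.coeff_map, eisenstein4, PowerSeries.coeff_mk, PowerSeries.coeff_one]
    split_ifs with hn
    · simp
    · rw [map_mul, map_ofNat, h240, zero_mul]
  rw [h1, map_one]

/-- `j̄ = Δ̄⁻¹` when `240 = 0`. -/
theorem s36ts_j_eq (h240 : (240 : k) = 0) : jqModC k = deltaInvS k := by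
  have h := congrArg (coeffMap (Int.castRingHom k)) mf_j_eq
  rw [coeffMap_jqModC, map_mul, map_pow, s36ts_E4 k h240, one_pow, one_mul] at h
  exact h

/-- `Δ̄ (Δ̄⁻¹)^(n+1) = j̄^n` when `240 = 0`. -/
theorem s36ts_P_eq (h240 : (240 : k) = 0) (n : ℕ) :
    deltaS k * deltaInvS k ^ (n + 1) = jqModC k ^ n := by
  rw [s36ts_j_eq k h240, pow_succ, ← mul_assoc, mul_comm (deltaS k), mul_assoc,
    deltaS_mul_deltaInvS, mul_one]

end Series

section Three

variable (k : Type*) [Field k] [CharP k 3]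

theorem s36ts_three_eq_zero : (3 : k) = 0 := by
  have := CharP.cast_eq_zero k 3
  exact_mod_cast this

/-- the series identity for `q = 3` -/
theorem s36ts_series3 :
    (deltaS k * deltaInvS k ^ 3) * hm2 k ^ 4 * (s36rig_t4 k + 16) ^ 6 = (s36rig_t4 k + 32) ^ 12 := by
  have h3 : (3 : LaurentSeries k) = 0 := by
    rw [← map_ofNat (HahnSeries.C (Γ := ℤ) (R := k)) 3, s36ts_three_eq_zero k, map_zero]
  have h240 : (240 : k) = 0 := by
    have : (240 : k) = 3 * 80 := by norm_num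
    rw [this, s36ts_three_eq_zero k, zero_mul]
  rw [s36ts_P_eq k h240 2]
  have hj := hm2_j k
  have hr := s36rig_t4_rel k
  have e1 : (hm2 k + 256 : LaurentSeries k) = hm2 k + 64 := by
    linear_combination (64 : LaurentSeries k) * h3
  rw [e1] at hj
  calc jqModC k ^ 2 * hm2 k ^ 4 * (s36rig_t4 k + 16) ^ 6
      = (jqModC k * hm2 k ^ 2) ^ 2 * (s36rig_t4 k + 16) ^ 6 := by ring
    _ = ((s36rig_t4 k + 16) * (hm2 k + 64)) ^ 6 := by rw [hj]; ring
    _ = (s36rig_t4 k + 32) ^ 12 := by rw [hr]; ring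

/-- **hord for `q = 3`** (rigid level `4`). -/
theorem s36ts_hord3 {R : Type*} [CommRing R] (ι : R →+* LaurentSeries k)
    (hι : Function.Injective ι) (P h t : R) (hP : ι P = deltaS k * deltaInvS k ^ 3)
    (hh : ι h = hm2 k) (ht : ι t = s36rig_t4 k) (𝔪 : Ideal R) [𝔪.IsPrime] (hPm : P ∈ 𝔪) :
    ∃ s : R, s ∉ 𝔪 ∧ s * P ∈ 𝔪 ^ 12 := by
  have h3L : (3 : LaurentSeries k) = 0 := by
    rw [← map_ofNat (HahnSeries.C (Γ := ℤ) (R := k)) 3, s36ts_three_eq_zero k, map_zero]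
  have h3 : (3 : R) = 0 := by
    apply hι
    rw [map_ofNat, map_zero, h3L]
  -- the identities in `R`
  have hid : P * h ^ 4 * (t + 16) ^ 6 = (t + 32) ^ 12 := by
    apply hι
    simp only [map_mul, map_pow, map_add, map_ofNat, hP, hh, ht]
    exact s36ts_series3 k
  have hsq : t ^ 2 = h * t + 16 * h := by
    apply hι
    simp only [map_mul, map_pow, map_add, map_ofNat, hh, ht]
    exact s36rig_t4_sq k
  have hne : (1 : R) ∉ 𝔪 := fun h1 => (Ideal.ne_top_iff_one 𝔪).mp (Ideal.IsPrime.ne_top inferInstance) h1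
  -- `t + 32 ∈ 𝔪`
  have ht32 : t + 32 ∈ 𝔪 := by
    have : (t + 32) ^ 12 ∈ 𝔪 := by
      rw [← hid, mul_assoc]
      exact 𝔪.mul_mem_right _ hPm
    exact Ideal.IsPrime.mem_of_pow_mem inferInstance 12 this
  have h2 : (2 : R) ∉ 𝔪 := by
    intro h2
    apply hne
    have : (1 : R) = 2 * 2 - 3 := by ring
    rw [this, h3, sub_zero]
    exact 𝔪.mul_mem_left _ h2
  have ht16 : t + 16 ∉ 𝔪 := by
    intro h16
    apply h2
    have h16' : (16 : R) ∈ 𝔪 := by
      have := 𝔪.sub_mem ht32 h16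
      have e : t + 32 - (t + 16) = 16 := by ring
      rwa [e] at this
    have e : (16 : R) = 2 ^ 4 := by norm_num
    rw [e] at h16'
    exact Ideal.IsPrime.mem_of_pow_mem inferInstance 4 h16'
  have hh' : h ∉ 𝔪 := by
    intro hhm
    apply h2
    have ht2 : t ^ 2 ∈ 𝔪 := by
      rw [hsq]
      exact 𝔪.add_mem (𝔪.mul_mem_right _ hhm) (𝔪.mul_mem_left _ hhm)
    have htm : t ∈ 𝔪 := Ideal.IsPrime.mem_of_pow_mem inferInstance 2 ht2
    have h32 : (32 : R) ∈ 𝔪 := by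
      have := 𝔪.sub_mem ht32 htm
      have e : t + 32 - t = 32 := by ring
      rwa [e] at this
    have e : (32 : R) = 2 ^ 5 := by norm_num
    rw [e] at h32
    exact Ideal.IsPrime.mem_of_pow_mem inferInstance 5 h32
  refine ⟨h ^ 4 * (t + 16) ^ 6, ?_, ?_⟩
  · intro hs
    rcases Ideal.IsPrime.mem_or_mem inferInstance hs with h1 | h1
    · exact hh' (Ideal.IsPrime.mem_of_pow_mem inferInstance 4 h1)
    · exact ht16 (Ideal.IsPrime.mem_of_pow_mem inferInstance 6 h1)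
  · have e : h ^ 4 * (t + 16) ^ 6 * P = (t + 32) ^ 12 := by rw [← hid]; ring
    rw [e]
    exact Ideal.pow_mem_pow ht32 12

end Three

section Two

variable (k : Type*) [Field k] [CharP k 2]

theorem s36ts_two_eq_zero : (2 : k) = 0 := by
  have := CharP.cast_eq_zero k 2
  exact_mod_cast this

/-- the series identity for `q = 2` -/
theorem s36ts_series2 :
    (deltaS k * deltaInvS k ^ 2) * hm3 k ^ 3 *
      (s36rig_t9 k ^ 2 + 9 * s36rig_t9 k + 27) ^ 4 = (s36rig_t9 k + 9) ^ 12 := by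
  have h2 : (2 : LaurentSeries k) = 0 := by
    rw [← map_ofNat (HahnSeries.C (Γ := ℤ) (R := k)) 2, s36ts_two_eq_zero k, map_zero]
  have h240 : (240 : k) = 0 := by
    have : (240 : k) = 2 * 120 := by norm_num
    rw [this, s36ts_two_eq_zero k, zero_mul]
  rw [s36ts_P_eq k h240 1, pow_one]
  have hj := hm3_j k
  have hr := s36rig_t9_rel k
  have e1 : (hm3 k + 243 : LaurentSeries k) = hm3 k + 27 := by
    linear_combination (108 : LaurentSeries k) * h2
  rw [e1] at hj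
  calc jqModC k * hm3 k ^ 3 * (s36rig_t9 k ^ 2 + 9 * s36rig_t9 k + 27) ^ 4
      = (jqModC k * hm3 k ^ 3) * (s36rig_t9 k ^ 2 + 9 * s36rig_t9 k + 27) ^ 4 := by ring
    _ = ((hm3 k + 27) * (s36rig_t9 k ^ 2 + 9 * s36rig_t9 k + 27)) ^ 4 := by rw [hj]; ring
    _ = (s36rig_t9 k + 9) ^ 12 := by rw [hr]; ring

/-- **hord for `q = 2`** (rigid level `9`). -/
theorem s36ts_hord2 {R : Type*} [CommRing R] (ι : R →+* LaurentSeries k)
    (hι : Function.Injective ι) (P h t : R) (hP : ι P = deltaS k * deltaInvS k ^ 2)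
    (hh : ι h = hm3 k) (ht : ι t = s36rig_t9 k) (𝔪 : Ideal R) [𝔪.IsPrime] (hPm : P ∈ 𝔪) :
    ∃ s : R, s ∉ 𝔪 ∧ s * P ∈ 𝔪 ^ 12 := by
  have h2L : (2 : LaurentSeries k) = 0 := by
    rw [← map_ofNat (HahnSeries.C (Γ := ℤ) (R := k)) 2, s36ts_two_eq_zero k, map_zero]
  have h2 : (2 : R) = 0 := by
    apply hι
    rw [map_ofNat, map_zero, h2L]
  have hid : P * h ^ 3 * (t ^ 2 + 9 * t + 27) ^ 4 = (t + 9) ^ 12 := by
    apply hι
    simp only [map_mul, map_pow, map_add, map_ofNat, hP, hh, ht]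
    exact s36ts_series2 k
  have hcube : t ^ 3 = h * (t ^ 2 + 9 * t + 27) := by
    apply hι
    simp only [map_mul, map_pow, map_add, map_ofNat, hh, ht]
    exact s36rig_t9_cube k
  have hne : (1 : R) ∉ 𝔪 := fun h1 => (Ideal.ne_top_iff_one 𝔪).mp (Ideal.IsPrime.ne_top inferInstance) h1
  have ht9 : t + 9 ∈ 𝔪 := by
    have : (t + 9) ^ 12 ∈ 𝔪 := by
      rw [← hid, mul_assoc]
      exact 𝔪.mul_mem_right _ hPm
    exact Ideal.IsPrime.mem_of_pow_mem inferInstance 12 this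
  have hq : t ^ 2 + 9 * t + 27 ∉ 𝔪 := by
    intro hqm
    apply hne
    have e : (1 : R) = (t ^ 2 + 9 * t + 27) - (t + 9) * t - 13 * 2 := by ring
    rw [e, h2, mul_zero, sub_zero]
    exact 𝔪.sub_mem hqm (𝔪.mul_mem_right _ ht9)
  have hh' : h ∉ 𝔪 := by
    intro hhm
    apply hne
    have ht3 : t ^ 3 ∈ 𝔪 := by
      rw [hcube]
      exact 𝔪.mul_mem_right _ hhm
    have htm : t ∈ 𝔪 := Ideal.IsPrime.mem_of_pow_mem inferInstance 3 ht3
    have e : (1 : R) = (t + 9) - t - 4 * 2 := by ring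
    rw [e, h2, mul_zero, sub_zero]
    exact 𝔪.sub_mem ht9 htm
  refine ⟨h ^ 3 * (t ^ 2 + 9 * t + 27) ^ 4, ?_, ?_⟩
  · intro hs
    rcases Ideal.IsPrime.mem_or_mem inferInstance hs with h1 | h1
    · exact hh' (Ideal.IsPrime.mem_of_pow_mem inferInstance 3 h1)
    · exact hq (Ideal.IsPrime.mem_of_pow_mem inferInstance 4 h1)
  · have e : h ^ 3 * (t ^ 2 + 9 * t + 27) ^ 4 * P = (t + 9) ^ 12 := by rw [← hid]; ring
    rw [e]
    exact Ideal.pow_mem_pow ht9 12

end Two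

end Fermat.Agent.S36
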