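import Fermat.Agent.S36.ThinIrr
import Fermat.Agent.S36.ThinSmall
import Fermat.Agent.S36.ThinNode
import Fermat.Agent.S36.Rigid4

/-!
# S36 (Carayol), G-thin (T4b): `hord` and the thin node in chart form (helper37)

`B` the chart of level `M q`, `ρ, ρ₀ : B →+* k((Q))` the two reductions, `𝔫` a prime ideal
containing `ker ρ₀`.  All statements are about elements of `B` and their `ρ₀`-images.

* `s36thin_hord_of_quot` : `hord` in `B ⧸ ker ρ₀` gives `∃ s ∉ 𝔫, s · U ∈ 𝔫 ^ n ⊔ ker ρ₀`.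
* `s36thin_hord_chart_odd` : `q` odd, `J, H, T, U ∈ B` with `ρ₀ J = j̄`, `ρ₀ H = h̄₂`, `ρ₀ T = t̄₄`,
  `ρ₀ U = Δ̄ (Δ̄⁻¹)^q`, `U ∈ 𝔫`  ⇒  `∃ s ∉ 𝔫, s · U ∈ 𝔫 ^ 12 ⊔ ker ρ₀`.
* `s36thin_hord_chart_two` : `q = 2`, `H, T, U ∈ B` with `ρ₀ H = h̄₃`, `ρ₀ T = t̄₉`.
* `s36thin_node_odd`, `s36thin_node_two` : **the thin node**: with the (SS3) coordinates `X, Y`
  of UNIP and `hu : ρ f = 0 → U ∣ f ^ 12`:  `ker ρ` is generated by `X` at `𝔫`, and `B_𝔫` is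
  factorial.
-/

set_option autoImplicit false
set_option linter.style.haveILetI false
set_option linter.unusedSectionVars false
set_option linter.unusedVariables false

noncomputable section

namespace Fermat.Agent.S36

open Polynomial ModularCurve
open Fermat.Agent.S28 Fermat.Agent.S28.Deriv Fermat.Agent.UNIP Fermat.Agent.INJ

section Quot

variable {B L : Type*} [CommRing B] [CommRing L]

/-- `hord` in `B ⧸ ker ρ₀` gives `hord` in `B`-form. -/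
theorem s36thin_hord_of_quot (ρ₀ : B →+* L) (𝔫 : Ideal B) (U : B) (n : ℕ)
    (h : ∃ s : B ⧸ RingHom.ker ρ₀, s ∉ 𝔫.map (Ideal.Quotient.mk (RingHom.ker ρ₀)) ∧
      s * Ideal.Quotient.mk (RingHom.ker ρ₀) U ∈
        (𝔫.map (Ideal.Quotient.mk (RingHom.ker ρ₀))) ^ n) :
    ∃ s, s ∉ 𝔫 ∧ s * U ∈ 𝔫 ^ n ⊔ RingHom.ker ρ₀ := by
  obtain ⟨s, hs, hsU⟩ := h
  obtain ⟨s', rfl⟩ := Ideal.Quotient.mk_surjective s
  refine ⟨s', fun hmem => hs (Ideal.mem_map_of_mem _ hmem), ?_⟩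
  rw [← map_mul, ← Ideal.map_pow, Ideal.mem_quotient_iff_mem_sup] at hsU
  exact hsU

variable [IsDomain L]

/-- the image of `𝔫 ⊇ ker ρ₀` in `B ⧸ ker ρ₀` is prime -/
theorem s36thin_map_isPrime (ρ₀ : B →+* L) (𝔫 : Ideal B) [h𝔫 : 𝔫.IsPrime]
    (h𝔮 : RingHom.ker ρ₀ ≤ 𝔫) : (𝔫.map (Ideal.Quotient.mk (RingHom.ker ρ₀))).IsPrime := by
  apply Ideal.map_isPrime_of_surjective Ideal.Quotient.mk_surjective
  rw [Ideal.mk_ker]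
  exact h𝔮

theorem s36thin_mk_mem_iff (ρ₀ : B →+* L) (𝔫 : Ideal B) (h𝔮 : RingHom.ker ρ₀ ≤ 𝔫) (x : B) :
    Ideal.Quotient.mk (RingHom.ker ρ₀) x ∈ 𝔫.map (Ideal.Quotient.mk (RingHom.ker ρ₀)) ↔ x ∈ 𝔫 :=
  Ideal.mem_quotient_iff_mem h𝔮

end Quot

section Chart

variable (q : ℕ) [hq : Fact q.Prime] (k : Type*) [Field k] [CharP k q]
variable {B : Type*} [CommRing B]

/-- **`hord`, chart form, `q ≥ 5`.** -/
theorem s36thin_hord_chart5 (h5 : 5 ≤ q) (ρ₀ : B →+* LaurentSeries k)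
    (hk : ∀ c : k, ∃ b : B, ρ₀ b = HahnSeries.C c)
    (J H T U : B) (hJ : ρ₀ J = jqModC k) (hH : ρ₀ H = hm2 k) (hT : ρ₀ T = s36rig_t4 k)
    (hU : ρ₀ U = deltaS k * deltaInvS k ^ q)
    (𝔫 : Ideal B) [h𝔫 : 𝔫.IsPrime] (h𝔮 : RingHom.ker ρ₀ ≤ 𝔫) (hU𝔫 : U ∈ 𝔫) :
    ∃ s, s ∉ 𝔫 ∧ s * U ∈ 𝔫 ^ 12 ⊔ RingHom.ker ρ₀ := by
  classical
  apply s36thin_hord_of_quot
  haveI hkp : (RingHom.ker ρ₀).IsPrime := RingHom.ker_isPrime ρ₀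
  set mk := Ideal.Quotient.mk (RingHom.ker ρ₀) with hmk
  set ι : B ⧸ RingHom.ker ρ₀ →+* LaurentSeries k := RingHom.kerLift ρ₀ with hιdef
  have hι : Function.Injective ι := RingHom.kerLift_injective ρ₀
  have hιmk : ∀ x, ι (mk x) = ρ₀ x := fun x => RingHom.kerLift_mk ρ₀ x
  haveI h𝔪 : (𝔫.map mk).IsPrime := s36thin_map_isPrime ρ₀ 𝔫 h𝔮
  -- the identities in the quotient
  have hid1 : mk J * mk H ^ 2 = (mk H + 256) ^ 3 := by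
    apply hι
    rw [map_mul, map_pow, map_pow, map_add, map_ofNat, hιmk, hιmk, hJ, hH]
    exact hm2_j k
  have hid2 : mk T ^ 2 = mk H * mk T + 16 * mk H := by
    apply hι
    rw [map_pow, map_add, map_mul, map_mul, map_ofNat, hιmk, hιmk, hT, hH]
    exact s36rig_t4_sq k
  -- `2 ∉ 𝔪`
  have hq0 : ((q : ℕ) : B ⧸ RingHom.ker ρ₀) = 0 := by
    apply hι
    rw [map_natCast, map_zero]
    have : ((q : ℕ) : LaurentSeries k) = HahnSeries.C ((q : ℕ) : k) := by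
      rw [map_natCast]
    rw [this, CharP.cast_eq_zero k q, map_zero]
  have h2 : (2 : B ⧸ RingHom.ker ρ₀) ∉ 𝔫.map mk := by
    intro h2m
    have hodd : q % 2 = 1 := by
      rcases hq.out.eq_two_or_odd with h | h
      · omega
      · exact h
    have h1 : ((q : ℕ) : B ⧸ RingHom.ker ρ₀) = 2 * ((q / 2 : ℕ) : B ⧸ RingHom.ker ρ₀) + 1 := by
      have : q = 2 * (q / 2) + 1 := by omega
      conv_lhs => rw [this]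
      push_cast
      ring
    have h3 : (1 : B ⧸ RingHom.ker ρ₀) ∈ 𝔫.map mk := by
      have h4 : (1 : B ⧸ RingHom.ker ρ₀) =
          ((q : ℕ) : B ⧸ RingHom.ker ρ₀) - 2 * ((q / 2 : ℕ) : B ⧸ RingHom.ker ρ₀) := by
        rw [h1]; ring
      rw [h4, hq0, zero_sub]
      exact neg_mem (Ideal.mul_mem_right _ _ h2m)
    exact h𝔪.ne_top ((Ideal.eq_top_iff_one _).2 h3)
  refine s36tk_hord_ringHom q k h5 ι hι ?_ (mk J) (mk U) ?_ ?_ (𝔫.map mk) ?_ ?_ ?_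
  · intro c
    obtain ⟨b, hb⟩ := hk c
    exact ⟨mk b, by rw [hιmk, hb]⟩
  · rw [hιmk, hJ]
  · rw [hιmk, hU]
  · exact Ideal.mem_map_of_mem _ hU𝔫
  · intro hjm
    exact s36rig_j_zero h2 hid1 hjm
  · intro hjm
    exact s36rig_j_1728 h2 hid1 hid2 hjm

/-- **`hord`, chart form, `q = 3`.** -/
theorem s36thin_hord_chart3 (h3 : q = 3) (ρ₀ : B →+* LaurentSeries k)
    (H T U : B) (hH : ρ₀ H = hm2 k) (hT : ρ₀ T = s36rig_t4 k)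
    (hU : ρ₀ U = deltaS k * deltaInvS k ^ q)
    (𝔫 : Ideal B) [h𝔫 : 𝔫.IsPrime] (h𝔮 : RingHom.ker ρ₀ ≤ 𝔫) (hU𝔫 : U ∈ 𝔫) :
    ∃ s, s ∉ 𝔫 ∧ s * U ∈ 𝔫 ^ 12 ⊔ RingHom.ker ρ₀ := by
  classical
  subst h3
  apply s36thin_hord_of_quot
  set mk := Ideal.Quotient.mk (RingHom.ker ρ₀) with hmk
  set ι : B ⧸ RingHom.ker ρ₀ →+* LaurentSeries k := RingHom.kerLift ρ₀ with hιdef
  have hι : Function.Injective ι := RingHom.kerLift_injective ρ₀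
  have hιmk : ∀ x, ι (mk x) = ρ₀ x := fun x => RingHom.kerLift_mk ρ₀ x
  haveI h𝔪 : (𝔫.map mk).IsPrime := s36thin_map_isPrime ρ₀ 𝔫 h𝔮
  exact s36ts_hord3 k ι hι (mk U) (mk H) (mk T) (by rw [hιmk, hU]) (by rw [hιmk, hH])
    (by rw [hιmk, hT]) (𝔫.map mk) (Ideal.mem_map_of_mem _ hU𝔫)

/-- **`hord`, chart form, `q` odd.** -/
theorem s36thin_hord_chart_odd (hodd : q ≠ 2) (ρ₀ : B →+* LaurentSeries k)
    (hk : ∀ c : k, ∃ b : B, ρ₀ b = HahnSeries.C c)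
    (J H T U : B) (hJ : ρ₀ J = jqModC k) (hH : ρ₀ H = hm2 k) (hT : ρ₀ T = s36rig_t4 k)
    (hU : ρ₀ U = deltaS k * deltaInvS k ^ q)
    (𝔫 : Ideal B) [h𝔫 : 𝔫.IsPrime] (h𝔮 : RingHom.ker ρ₀ ≤ 𝔫) (hU𝔫 : U ∈ 𝔫) :
    ∃ s, s ∉ 𝔫 ∧ s * U ∈ 𝔫 ^ 12 ⊔ RingHom.ker ρ₀ := by
  by_cases h3 : q = 3
  · exact s36thin_hord_chart3 q k h3 ρ₀ H T U hH hT hU 𝔫 h𝔮 hU𝔫
  · have h5 : 5 ≤ q := by
      have h2 := hq.out.two_le
      by_contra hlt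
      have h4 : q = 4 := by omega
      rw [h4] at hq
      exact absurd hq.out (by norm_num)
    exact s36thin_hord_chart5 q k h5 ρ₀ hk J H T U hJ hH hT hU 𝔫 h𝔮 hU𝔫

/-- **`hord`, chart form, `q = 2`.** -/
theorem s36thin_hord_chart_two (h2 : q = 2) (ρ₀ : B →+* LaurentSeries k)
    (H T U : B) (hH : ρ₀ H = hm3 k) (hT : ρ₀ T = s36rig_t9 k)
    (hU : ρ₀ U = deltaS k * deltaInvS k ^ q)
    (𝔫 : Ideal B) [h𝔫 : 𝔫.IsPrime] (h𝔮 : RingHom.ker ρ₀ ≤ 𝔫) (hU𝔫 : U ∈ 𝔫) :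
    ∃ s, s ∉ 𝔫 ∧ s * U ∈ 𝔫 ^ 12 ⊔ RingHom.ker ρ₀ := by
  classical
  subst h2
  apply s36thin_hord_of_quot
  set mk := Ideal.Quotient.mk (RingHom.ker ρ₀) with hmk
  set ι : B ⧸ RingHom.ker ρ₀ →+* LaurentSeries k := RingHom.kerLift ρ₀ with hιdef
  have hι : Function.Injective ι := RingHom.kerLift_injective ρ₀
  have hιmk : ∀ x, ι (mk x) = ρ₀ x := fun x => RingHom.kerLift_mk ρ₀ x
  haveI h𝔪 : (𝔫.map mk).IsPrime := s36thin_map_isPrime ρ₀ 𝔫 h𝔮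
  exact s36ts_hord2 k ι hι (mk U) (mk H) (mk T) (by rw [hιmk, hU]) (by rw [hιmk, hH])
    (by rw [hιmk, hT]) (𝔫.map mk) (Ideal.mem_map_of_mem _ hU𝔫)

end Chart

section NodeChart

variable (q : ℕ) [hq : Fact q.Prime] (k : Type*) [Field k] [CharP k q]
variable {B : Type*} [CommRing B] [IsDomain B] [IsNoetherianRing B] [IsIntegrallyClosed B]

/-- `Δ̄ (Δ̄⁻¹)^q ≠ 0`. -/
theorem s36thin_P_ne_zero : deltaS k * deltaInvS k ^ q ≠ 0 := by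
  have h1 : deltaS k ≠ 0 := deltaS_ne_zero k
  have h2 : deltaInvS k ≠ 0 := by
    intro h0
    have := deltaS_mul_deltaInvS k
    rw [h0, mul_zero] at this
    exact zero_ne_one this
  exact mul_ne_zero h1 (pow_ne_zero _ h2)

/-- a local parameter `X` of the branch `ρ₀` at `𝔫` does not vanish on the branch, as soon as
some element of `𝔫` does not. -/
theorem s36thin_param_ne_zero {L : Type*} [CommRing L] [IsDomain L] (ρ₀ : B →+* L) (𝔫 : Ideal B)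
    (h𝔮 : RingHom.ker ρ₀ ≤ 𝔫) {X U : B} (hsX : NodesSmoothAt ρ₀ 𝔫 X) (hU𝔫 : U ∈ 𝔫)
    (hU₀ : ρ₀ U ≠ 0) : ρ₀ X ≠ 0 := by
  intro h0
  obtain ⟨u, v, hu, huv⟩ := hsX.2 U hU𝔫
  rw [map_mul, map_mul, h0, mul_zero] at huv
  rcases mul_eq_zero.1 huv with h1 | h1
  · exact hu (h𝔮 (RingHom.mem_ker.2 h1))
  · exact hU₀ h1

/-- **The thin node, `q` odd** (chart form).  `4 ∣ M`: `J, H, T ∈ B` reduce (on the branch `ρ₀`)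
to `j̄`, `h̄₂`, `t̄₄`. -/
theorem s36thin_node_odd (hodd : q ≠ 2) (ρ ρ₀ : B →+* LaurentSeries k)
    (hk : ∀ c : k, ∃ b : B, ρ₀ b = HahnSeries.C c)
    (𝔫 : Ideal B) [h𝔫 : 𝔫.IsPrime]
    (h𝔭 : RingHom.ker ρ ≤ 𝔫) (h𝔮 : RingHom.ker ρ₀ ≤ 𝔫)
    {π X Y : B} (hπ : ρ π = 0) (hπ₀ : ρ₀ π = 0) (hX : ρ X = 0) (hY : ρ₀ Y = 0)
    (hsX : NodesSmoothAt ρ₀ 𝔫 X) (hsY : NodesSmoothAt ρ 𝔫 Y)
    (J H T U : B) (hJ : ρ₀ J = jqModC k) (hH : ρ₀ H = hm2 k) (hT : ρ₀ T = s36rig_t4 k)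
    (hU : ρ₀ U = deltaS k * deltaInvS k ^ q) (hρU : ρ U = 0)
    (hu : ∀ f, ρ f = 0 → U ∣ f ^ 12) :
    (∀ b, ρ b = 0 → ∃ u, u ∉ 𝔫 ∧ X ∣ u * b) ∧
      UniqueFactorizationMonoid (Localization.AtPrime 𝔫) := by
  have hU𝔫 : U ∈ 𝔫 := h𝔭 (RingHom.mem_ker.2 hρU)
  have hU₀ : ρ₀ U ≠ 0 := by rw [hU]; exact s36thin_P_ne_zero q k
  exact s36thin_node_abs ρ ρ₀ 𝔫 h𝔭 h𝔮 hπ hπ₀ hX hY hsX hsY
    (s36thin_param_ne_zero ρ₀ 𝔫 h𝔮 hsX hU𝔫 hU₀) (by norm_num) hu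
    (s36thin_hord_chart_odd q k hodd ρ₀ hk J H T U hJ hH hT hU 𝔫 h𝔮 hU𝔫)

/-- **The thin node, `q = 2`** (chart form).  `9 ∣ M`: `H, T ∈ B` reduce (on the branch `ρ₀`)
to `h̄₃`, `t̄₉`. -/
theorem s36thin_node_two (h2 : q = 2) (ρ ρ₀ : B →+* LaurentSeries k)
    (𝔫 : Ideal B) [h𝔫 : 𝔫.IsPrime]
    (h𝔭 : RingHom.ker ρ ≤ 𝔫) (h𝔮 : RingHom.ker ρ₀ ≤ 𝔫)
    {π X Y : B} (hπ : ρ π = 0) (hπ₀ : ρ₀ π = 0) (hX : ρ X = 0) (hY : ρ₀ Y = 0)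
    (hsX : NodesSmoothAt ρ₀ 𝔫 X) (hsY : NodesSmoothAt ρ 𝔫 Y)
    (H T U : B) (hH : ρ₀ H = hm3 k) (hT : ρ₀ T = s36rig_t9 k)
    (hU : ρ₀ U = deltaS k * deltaInvS k ^ q) (hρU : ρ U = 0)
    (hu : ∀ f, ρ f = 0 → U ∣ f ^ 12) :
    (∀ b, ρ b = 0 → ∃ u, u ∉ 𝔫 ∧ X ∣ u * b) ∧
      UniqueFactorizationMonoid (Localization.AtPrime 𝔫) := by
  have hU𝔫 : U ∈ 𝔫 := h𝔭 (RingHom.mem_ker.2 hρU)
  have hU₀ : ρ₀ U ≠ 0 := by rw [hU]; exact s36thin_P_ne_zero q k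
  exact s36thin_node_abs ρ ρ₀ 𝔫 h𝔭 h𝔮 hπ hπ₀ hX hY hsX hsY
    (s36thin_param_ne_zero ρ₀ 𝔫 h𝔮 hsX hU𝔫 hU₀) (by norm_num) hu
    (s36thin_hord_chart_two q k h2 ρ₀ H T U hH hT hU 𝔫 h𝔮 hU𝔫)

end NodeChart

end Fermat.Agent.S36
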