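import Fermat.Agent.S36.ThinChart

/-!
# S36 (Carayol), G-thin (T4b′): the thin node in chart form, IDENTITY hypotheses (helper37)

As `ThinChart.lean`, but the Hauptmoduln `H, T ∈ B` are only required to satisfy the modular
identities on the branch `ρ₀` (no explicit reduction of `hm2`, `s36rig_t4`, … is needed):

* `q` odd: `ρ₀ J = j̄`, `ρ₀ J · (ρ₀ H)² = (ρ₀ H + 256)³`, `(ρ₀ T)² = ρ₀ H · ρ₀ T + 16 ρ₀ H`;
* `q = 2`: `ρ₀ J = j̄`, `ρ₀ J · (ρ₀ H)³ = (ρ₀ H + 27)(ρ₀ H + 243)³`,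
  `(ρ₀ T)³ = ρ₀ H ((ρ₀ T)² + 9 ρ₀ T + 27)`.

Main statements: `s36thin_node_odd'`, `s36thin_node_two'`.
-/

set_option autoImplicit false
set_option linter.style.haveILetI false
set_option linter.unusedSectionVars false
set_option linter.unusedVariables false

noncomputable section

namespace Fermat.Agent.S36

open Polynomial ModularCurve
open Fermat.Agent.S28 Fermat.Agent.S28.Deriv Fermat.Agent.UNIP Fermat.Agent.INJ

section Three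

variable (k : Type*) [Field k] [CharP k 3]

/-- **`hord`, `q = 3`, identity form.** -/
theorem s36thin_hord_id3 {R : Type*} [CommRing R] (ι : R →+* LaurentSeries k)
    (hι : Function.Injective ι) (P j h t : R) (hP : ι P = deltaS k * deltaInvS k ^ 3)
    (hj : ι j = jqModC k) (hjh : j * h ^ 2 = (h + 256) ^ 3) (hth : t ^ 2 = h * t + 16 * h)
    (𝔪 : Ideal R) [h𝔪 : 𝔪.IsPrime] (hPm : P ∈ 𝔪) :
    ∃ s : R, s ∉ 𝔪 ∧ s * P ∈ 𝔪 ^ 12 := by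
  have h3k : (3 : k) = 0 := s36ts_three_eq_zero k
  have h240 : (240 : k) = 0 := by
    have : (240 : k) = 3 * 80 := by norm_num
    rw [this, h3k, zero_mul]
  have h3L : (3 : LaurentSeries k) = 0 := by
    rw [← map_ofNat (HahnSeries.C (Γ := ℤ) (R := k)) 3, h3k, map_zero]
  have h3 : (3 : R) = 0 := by
    apply hι
    rw [map_ofNat, map_zero, h3L]
  have hPj : P = j ^ 2 := by
    apply hι
    rw [hP, map_pow, hj]
    exact s36ts_P_eq k h240 2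
  have h2 : (2 : R) ∉ 𝔪 := by
    intro h2m
    have h1 : (1 : R) = 3 - 2 := by norm_num
    have : (1 : R) ∈ 𝔪 := by
      rw [h1, h3, zero_sub]
      exact neg_mem h2m
    exact h𝔪.ne_top ((Ideal.eq_top_iff_one _).2 this)
  have hrel : (t + 16) * (h + 64) = (t + 32) ^ 2 := s36rig_t4_eq hth
  have hid : (h ^ 4 * (t + 16) ^ 6) * P = (t + 32) ^ 12 := by
    have e1 : (h + 256 : R) = (h + 64) + 3 * 64 := by ring
    have e2 : (h + 256 : R) = h + 64 := by rw [e1, h3, zero_mul, add_zero]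
    rw [e2] at hjh
    have e3 : (h ^ 4 * (t + 16) ^ 6) * P = ((t + 16) * (h + 64)) ^ 6 := by
      rw [hPj]
      have : (h ^ 4 * (t + 16) ^ 6) * j ^ 2 = (t + 16) ^ 6 * (j * h ^ 2) ^ 2 := by ring
      rw [this, hjh]
      ring
    rw [e3, hrel]
    ring
  have hh : h ∉ 𝔪 := by
    have hjh' : j * h ^ 2 = (h + 256) ^ 3 := by
      have e1 : (h + 256 : R) = (h + 64) + 3 * 64 := by ring
      have e2 : (h + 256 : R) = h + 64 := by rw [e1, h3, zero_mul, add_zero]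
      rw [e2]
      have e3 : (h + 256 : R) ^ 3 = (h + 64) ^ 3 := by rw [e2]
      rw [← e3, e2]
      first
        | exact hjh
        | (rw [e2] at hjh; exact hjh)
    exact s36rig_h2_notMem h2 hjh'
  have htt : t + 16 ∉ 𝔪 := s36rig_t4_add_notMem h2 hth
  refine ⟨h ^ 4 * (t + 16) ^ 6, ?_, ?_⟩
  · intro hmem
    rcases h𝔪.mem_or_mem hmem with h1 | h1
    · exact hh (h𝔪.mem_of_pow_mem _ h1)
    · exact htt (h𝔪.mem_of_pow_mem _ h1)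
  · rw [hid]
    have h1 : (t + 32) ^ 12 ∈ 𝔪 := by
      rw [← hid]; exact 𝔪.mul_mem_left _ hPm
    exact Ideal.pow_mem_pow (h𝔪.mem_of_pow_mem _ h1) 12

end Three

section Two

variable (k : Type*) [Field k] [CharP k 2]

/-- **`hord`, `q = 2`, identity form.** -/
theorem s36thin_hord_id2 {R : Type*} [CommRing R] (ι : R →+* LaurentSeries k)
    (hι : Function.Injective ι) (P j h t : R) (hP : ι P = deltaS k * deltaInvS k ^ 2)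
    (hj : ι j = jqModC k) (hjh : j * h ^ 3 = (h + 27) * (h + 243) ^ 3)
    (hth : t ^ 3 = h * (t ^ 2 + 9 * t + 27))
    (𝔪 : Ideal R) [h𝔪 : 𝔪.IsPrime] (hPm : P ∈ 𝔪) :
    ∃ s : R, s ∉ 𝔪 ∧ s * P ∈ 𝔪 ^ 12 := by
  have h2k : (2 : k) = 0 := s36ts_two_eq_zero k
  have h240 : (240 : k) = 0 := by
    have : (240 : k) = 2 * 120 := by norm_num
    rw [this, h2k, zero_mul]
  have h2L : (2 : LaurentSeries k) = 0 := by
    rw [← map_ofNat (HahnSeries.C (Γ := ℤ) (R := k)) 2, h2k, map_zero]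
  have h2 : (2 : R) = 0 := by
    apply hι
    rw [map_ofNat, map_zero, h2L]
  have hPj : P = j := by
    apply hι
    rw [hP, hj]
    have := s36ts_P_eq k h240 1
    rw [pow_one] at this
    exact this
  have h3 : (3 : R) ∉ 𝔪 := by
    intro h3m
    have h1 : (1 : R) = 3 - 2 := by norm_num
    have : (1 : R) ∈ 𝔪 := by
      rw [h1, h2, sub_zero]
      exact h3m
    exact h𝔪.ne_top ((Ideal.eq_top_iff_one _).2 this)
  have hrel : (h + 27) * (t ^ 2 + 9 * t + 27) = (t + 9) ^ 3 := s36rig_t9_eq hth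
  have e2 : (h + 243 : R) = h + 27 := by
    have e1 : (h + 243 : R) = (h + 27) + 2 * 108 := by ring
    rw [e1, h2, zero_mul, add_zero]
  have hid : (h ^ 3 * (t ^ 2 + 9 * t + 27) ^ 4) * P = (t + 9) ^ 12 := by
    have hjh' : j * h ^ 3 = (h + 27) ^ 4 := by
      rw [hjh, e2]; ring
    rw [hPj]
    have : (h ^ 3 * (t ^ 2 + 9 * t + 27) ^ 4) * j =
        (t ^ 2 + 9 * t + 27) ^ 4 * (j * h ^ 3) := by ring
    rw [this, hjh']
    have : (t ^ 2 + 9 * t + 27) ^ 4 * (h + 27) ^ 4 = ((h + 27) * (t ^ 2 + 9 * t + 27)) ^ 4 := by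
      ring
    rw [this, hrel]
    ring
  have ht9 : t + 9 ∈ 𝔪 := by
    have h1 : (t + 9) ^ 12 ∈ 𝔪 := by
      rw [← hid]; exact 𝔪.mul_mem_left _ hPm
    exact h𝔪.mem_of_pow_mem _ h1
  have hh : h ∉ 𝔪 := s36rig_h3_notMem h3 hjh
  have htt : t ^ 2 + 9 * t + 27 ∉ 𝔪 := by
    intro hs
    have h4 : (3 : R) ^ 3 ∈ 𝔪 := by
      have : (3 : R) ^ 3 = (t ^ 2 + 9 * t + 27) - (t + 9) * t := by ring
      rw [this]
      exact 𝔪.sub_mem hs (𝔪.mul_mem_right _ ht9)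
    exact s36rig_three_pow_notMem h3 3 h4
  refine ⟨h ^ 3 * (t ^ 2 + 9 * t + 27) ^ 4, ?_, ?_⟩
  · intro hmem
    rcases h𝔪.mem_or_mem hmem with h1 | h1
    · exact hh (h𝔪.mem_of_pow_mem _ h1)
    · exact htt (h𝔪.mem_of_pow_mem _ h1)
  · rw [hid]
    exact Ideal.pow_mem_pow ht9 12

end Two

section Chart

variable (q : ℕ) [hq : Fact q.Prime] (k : Type*) [Field k] [CharP k q]
variable {B : Type*} [CommRing B]

/-- **`hord`, chart form, `q` odd, identity hypotheses.** -/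
theorem s36thin_hord_chart_odd' (hodd : q ≠ 2) (ρ₀ : B →+* LaurentSeries k)
    (hk : ∀ c : k, ∃ b : B, ρ₀ b = HahnSeries.C c)
    (J H T U : B) (hJ : ρ₀ J = jqModC k)
    (hHJ : ρ₀ J * ρ₀ H ^ 2 = (ρ₀ H + 256) ^ 3)
    (hTH : ρ₀ T ^ 2 = ρ₀ H * ρ₀ T + 16 * ρ₀ H)
    (hU : ρ₀ U = deltaS k * deltaInvS k ^ q)
    (𝔫 : Ideal B) [h𝔫 : 𝔫.IsPrime] (h𝔮 : RingHom.ker ρ₀ ≤ 𝔫) (hU𝔫 : U ∈ 𝔫) :
    ∃ s, s ∉ 𝔫 ∧ s * U ∈ 𝔫 ^ 12 ⊔ RingHom.ker ρ₀ := by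
  classical
  apply s36thin_hord_of_quot
  haveI hkp : (RingHom.ker ρ₀).IsPrime := RingHom.ker_isPrime ρ₀
  set mk := Ideal.Quotient.mk (RingHom.ker ρ₀) with hmk
  set ι : B ⧸ RingHom.ker ρ₀ →+* LaurentSeries k := RingHom.kerLift ρ₀ with hιdef
  have hι : Function.Injective ι := RingHom.kerLift_injective ρ₀
  have hιmk : ∀ x, ι (mk x) = ρ₀ x := fun x => RingHom.kerLift_mk ρ₀ x
  haveI h𝔪 : (𝔫.map mk).IsPrime := s36thin_map_isPrime ρ₀ 𝔫 h𝔮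
  have hid1 : mk J * mk H ^ 2 = (mk H + 256) ^ 3 := by
    apply hι
    rw [map_mul, map_pow, map_pow, map_add, map_ofNat, hιmk, hιmk]
    exact hHJ
  have hid2 : mk T ^ 2 = mk H * mk T + 16 * mk H := by
    apply hι
    rw [map_pow, map_add, map_mul, map_mul, map_ofNat, hιmk, hιmk]
    exact hTH
  by_cases h3 : q = 3
  · subst h3
    exact s36thin_hord_id3 k ι hι (mk U) (mk J) (mk H) (mk T) (by rw [hιmk, hU])
      (by rw [hιmk, hJ]) hid1 hid2 (𝔫.map mk) (Ideal.mem_map_of_mem _ hU𝔫)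
  have h5 : 5 ≤ q := by
    have h2 := hq.out.two_le
    by_contra hlt
    have h4 : q = 4 := by omega
    rw [h4] at hq
    exact absurd hq.out (by norm_num)
  -- `2 ∉ 𝔪`
  have hq0 : ((q : ℕ) : B ⧸ RingHom.ker ρ₀) = 0 := by
    apply hι
    rw [map_natCast, map_zero]
    have : ((q : ℕ) : LaurentSeries k) = HahnSeries.C ((q : ℕ) : k) := by
      rw [map_natCast]
    rw [this, CharP.cast_eq_zero k q, map_zero]
  have h2 : (2 : B ⧸ RingHom.ker ρ₀) ∉ 𝔫.map mk := by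
    intro h2m
    have hodd' : q % 2 = 1 := by
      rcases hq.out.eq_two_or_odd with h | h
      · omega
      · exact h
    have h1 : ((q : ℕ) : B ⧸ RingHom.ker ρ₀) = 2 * ((q / 2 : ℕ) : B ⧸ RingHom.ker ρ₀) + 1 := by
      have : q = 2 * (q / 2) + 1 := by omega
      conv_lhs => rw [this]
      push_cast
      ring
    have h3' : (1 : B ⧸ RingHom.ker ρ₀) ∈ 𝔫.map mk := by
      have h4 : (1 : B ⧸ RingHom.ker ρ₀) =
          ((q : ℕ) : B ⧸ RingHom.ker ρ₀) - 2 * ((q / 2 : ℕ) : B ⧸ RingHom.ker ρ₀) := by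
        rw [h1]; ring
      rw [h4, hq0, zero_sub]
      exact neg_mem (Ideal.mul_mem_right _ _ h2m)
    exact h𝔪.ne_top ((Ideal.eq_top_iff_one _).2 h3')
  refine s36tk_hord_ringHom q k h5 ι hι ?_ (mk J) (mk U) ?_ ?_ (𝔫.map mk) ?_ ?_ ?_
  · intro c
    obtain ⟨b, hb⟩ := hk c
    exact ⟨mk b, by rw [hιmk, hb]⟩
  · rw [hιmk, hJ]
  · rw [hιmk, hU]
  · exact Ideal.mem_map_of_mem _ hU𝔫
  · intro hjm
    exact s36rig_j_zero h2 hid1 hjm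
  · intro hjm
    exact s36rig_j_1728 h2 hid1 hid2 hjm

/-- **`hord`, chart form, `q = 2`, identity hypotheses.** -/
theorem s36thin_hord_chart_two' (h2 : q = 2) (ρ₀ : B →+* LaurentSeries k)
    (J H T U : B) (hJ : ρ₀ J = jqModC k)
    (hHJ : ρ₀ J * ρ₀ H ^ 3 = (ρ₀ H + 27) * (ρ₀ H + 243) ^ 3)
    (hTH : ρ₀ T ^ 3 = ρ₀ H * (ρ₀ T ^ 2 + 9 * ρ₀ T + 27))
    (hU : ρ₀ U = deltaS k * deltaInvS k ^ q)
    (𝔫 : Ideal B) [h𝔫 : 𝔫.IsPrime] (h𝔮 : RingHom.ker ρ₀ ≤ 𝔫) (hU𝔫 : U ∈ 𝔫) :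
    ∃ s, s ∉ 𝔫 ∧ s * U ∈ 𝔫 ^ 12 ⊔ RingHom.ker ρ₀ := by
  classical
  subst h2
  apply s36thin_hord_of_quot
  set mk := Ideal.Quotient.mk (RingHom.ker ρ₀) with hmk
  set ι : B ⧸ RingHom.ker ρ₀ →+* LaurentSeries k := RingHom.kerLift ρ₀ with hιdef
  have hι : Function.Injective ι := RingHom.kerLift_injective ρ₀
  have hιmk : ∀ x, ι (mk x) = ρ₀ x := fun x => RingHom.kerLift_mk ρ₀ x
  haveI h𝔪 : (𝔫.map mk).IsPrime := s36thin_map_isPrime ρ₀ 𝔫 h𝔮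
  have hid1 : mk J * mk H ^ 3 = (mk H + 27) * (mk H + 243) ^ 3 := by
    apply hι
    simp only [map_mul, map_pow, map_add, map_ofNat, hιmk]
    exact hHJ
  have hid2 : mk T ^ 3 = mk H * (mk T ^ 2 + 9 * mk T + 27) := by
    apply hι
    simp only [map_mul, map_pow, map_add, map_ofNat, hιmk]
    exact hTH
  exact s36thin_hord_id2 k ι hι (mk U) (mk J) (mk H) (mk T) (by rw [hιmk, hU])
    (by rw [hιmk, hJ]) hid1 hid2 (𝔫.map mk) (Ideal.mem_map_of_mem _ hU𝔫)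

end Chart

section NodeChart

variable (q : ℕ) [hq : Fact q.Prime] (k : Type*) [Field k] [CharP k q]
variable {B : Type*} [CommRing B] [IsDomain B] [IsNoetherianRing B] [IsIntegrallyClosed B]

/-- **The thin node, `q` odd, identity hypotheses** (chart form). -/
theorem s36thin_node_odd' (hodd : q ≠ 2) (ρ ρ₀ : B →+* LaurentSeries k)
    (hk : ∀ c : k, ∃ b : B, ρ₀ b = HahnSeries.C c)
    (𝔫 : Ideal B) [h𝔫 : 𝔫.IsPrime]
    (h𝔭 : RingHom.ker ρ ≤ 𝔫) (h𝔮 : RingHom.ker ρ₀ ≤ 𝔫)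
    {π X Y : B} (hπ : ρ π = 0) (hπ₀ : ρ₀ π = 0) (hX : ρ X = 0) (hY : ρ₀ Y = 0)
    (hsX : NodesSmoothAt ρ₀ 𝔫 X) (hsY : NodesSmoothAt ρ 𝔫 Y)
    (J H T U : B) (hJ : ρ₀ J = jqModC k)
    (hHJ : ρ₀ J * ρ₀ H ^ 2 = (ρ₀ H + 256) ^ 3)
    (hTH : ρ₀ T ^ 2 = ρ₀ H * ρ₀ T + 16 * ρ₀ H)
    (hU : ρ₀ U = deltaS k * deltaInvS k ^ q) (hρU : ρ U = 0)
    (hu : ∀ f, ρ f = 0 → U ∣ f ^ 12) :
    (∀ b, ρ b = 0 → ∃ u, u ∉ 𝔫 ∧ X ∣ u * b) ∧
      UniqueFactorizationMonoid (Localization.AtPrime 𝔫) := by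
  have hU𝔫 : U ∈ 𝔫 := h𝔭 (RingHom.mem_ker.2 hρU)
  have hU₀ : ρ₀ U ≠ 0 := by rw [hU]; exact s36thin_P_ne_zero q k
  exact s36thin_node_abs ρ ρ₀ 𝔫 h𝔭 h𝔮 hπ hπ₀ hX hY hsX hsY
    (s36thin_param_ne_zero ρ₀ 𝔫 h𝔮 hsX hU𝔫 hU₀) (by norm_num) hu
    (s36thin_hord_chart_odd' q k hodd ρ₀ hk J H T U hJ hHJ hTH hU 𝔫 h𝔮 hU𝔫)

/-- **The thin node, `q = 2`, identity hypotheses** (chart form). -/
theorem s36thin_node_two' (h2 : q = 2) (ρ ρ₀ : B →+* LaurentSeries k)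
    (𝔫 : Ideal B) [h𝔫 : 𝔫.IsPrime]
    (h𝔭 : RingHom.ker ρ ≤ 𝔫) (h𝔮 : RingHom.ker ρ₀ ≤ 𝔫)
    {π X Y : B} (hπ : ρ π = 0) (hπ₀ : ρ₀ π = 0) (hX : ρ X = 0) (hY : ρ₀ Y = 0)
    (hsX : NodesSmoothAt ρ₀ 𝔫 X) (hsY : NodesSmoothAt ρ 𝔫 Y)
    (J H T U : B) (hJ : ρ₀ J = jqModC k)
    (hHJ : ρ₀ J * ρ₀ H ^ 3 = (ρ₀ H + 27) * (ρ₀ H + 243) ^ 3)
    (hTH : ρ₀ T ^ 3 = ρ₀ H * (ρ₀ T ^ 2 + 9 * ρ₀ T + 27))
    (hU : ρ₀ U = deltaS k * deltaInvS k ^ q) (hρU : ρ U = 0)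
    (hu : ∀ f, ρ f = 0 → U ∣ f ^ 12) :
    (∀ b, ρ b = 0 → ∃ u, u ∉ 𝔫 ∧ X ∣ u * b) ∧
      UniqueFactorizationMonoid (Localization.AtPrime 𝔫) := by
  have hU𝔫 : U ∈ 𝔫 := h𝔭 (RingHom.mem_ker.2 hρU)
  have hU₀ : ρ₀ U ≠ 0 := by rw [hU]; exact s36thin_P_ne_zero q k
  exact s36thin_node_abs ρ ρ₀ 𝔫 h𝔭 h𝔮 hπ hπ₀ hX hY hsX hsY
    (s36thin_param_ne_zero ρ₀ 𝔫 h𝔮 hsX hU𝔫 hU₀) (by norm_num) hu
    (s36thin_hord_chart_two' q k h2 ρ₀ J H T U hJ hHJ hTH hU 𝔫 h𝔮 hU𝔫)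

end NodeChart

end Fermat.Agent.S36
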