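import Fermat.Agent.S36.ThinKron

/-!
# S36 (Carayol), G-thin (T3″): `hord` without a rational point (helper37)

`ThinTransfer.s36thin_hord_j` needs a rational point `j − a ∈ 𝔪`, `a ∈ k`.  Here the residue field
`k` is arbitrary: at a prime `𝔪` with `G(t) ∉ 𝔪` the contraction `𝔪 ∩ k[t] = (f)` is used instead
(`C` is separable, so `f` divides `C` exactly once).

* `s36thin_hord_irr` : `P · N(t)⁶ = G(t) · C(t)¹²`, `IsCoprime C C'`, `P ∈ 𝔪`, `G(t) ∉ 𝔪`
  `⇒ ∃ s ∉ 𝔪, s · P ∈ 𝔪¹²`.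
* `s36thin_hord_j'` : the `j`-line, any prime `𝔪 ∋ P`.
* `s36tk_hord'` : **`hord` (`q ≥ 5`)** for `ι : R →ₐ[k] k((Q))` injective, any prime `𝔪 ∋ P`.
* `s36tk_hord_ringHom` : the same for a ring homomorphism `ι : R →+* k((Q))` whose image
  contains the constants (no `k`-algebra structure on `R` is needed).
-/

set_option autoImplicit false
set_option linter.style.haveILetI false
set_option linter.unusedSectionVars false
set_option linter.unusedVariables false

noncomputable section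

namespace Fermat.Agent.S36

open Polynomial ModularCurve
open Fermat.Agent.S28 Fermat.Agent.S28.Deriv Fermat.Agent.UNIP

section Irr

variable {k : Type*} [Field k] {R : Type*} [CommRing R] [Algebra k R] [IsDomain R]

/-- **`hord` at a prime without elliptic value**, no rational point needed. -/
theorem s36thin_hord_irr (t P : R) (ht : Function.Injective (aeval (R := k) t))
    (G W B C : k[X]) (hG : G ≠ 0) (hC : C ≠ 0) (hCsep : IsCoprime C (derivative C))
    (h : P * (aeval t (W * C ^ 2 - derivative B * C + B * derivative C)) ^ 6 =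
      aeval t G * (aeval t C) ^ 12)
    (𝔪 : Ideal R) [h𝔪 : 𝔪.IsPrime] (hP : P ∈ 𝔪) (hGm : aeval t G ∉ 𝔪) :
    ∃ s : R, s ∉ 𝔪 ∧ s * P ∈ 𝔪 ^ 12 := by
  classical
  set φ : k[X] →+* R := (aeval (R := k) t : k[X] →ₐ[k] R).toRingHom with hφ
  have hφa : ∀ g : k[X], φ g = aeval t g := fun g => rfl
  set 𝔭₀ : Ideal k[X] := 𝔪.comap φ with h𝔭₀
  haveI hprime : 𝔭₀.IsPrime := Ideal.comap_isPrime φ 𝔪
  have hCm : aeval t C ∈ 𝔪 := by
    have h1 : aeval t G * aeval t C ^ 12 ∈ 𝔪 := by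
      rw [← h]; exact 𝔪.mul_mem_right _ hP
    rcases h𝔪.mem_or_mem h1 with h2 | h2
    · exact absurd h2 hGm
    · exact h𝔪.mem_of_pow_mem _ h2
  obtain ⟨f, hf⟩ : ∃ f : k[X], 𝔭₀ = Ideal.span {f} :=
    (IsPrincipalIdealRing.principal 𝔭₀).principal
  have hmem : ∀ g : k[X], aeval t g ∈ 𝔪 ↔ f ∣ g := by
    intro g
    rw [← Ideal.mem_span_singleton, ← hf]
    rfl
  have hfC : f ∣ C := (hmem C).1 hCm
  have hf0 : f ≠ 0 := by
    rintro rfl
    exact hC (zero_dvd_iff.1 hfC)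
  have hfprime : Prime f := by
    have := hprime
    rw [hf] at this
    exact (Ideal.span_singleton_prime hf0).1 this
  have hfm : aeval t f ∈ 𝔪 := (hmem f).2 dvd_rfl
  have hft0 : aeval t f ≠ 0 := by
    intro h0
    exact hf0 (ht (h0.trans (map_zero _).symm))
  obtain ⟨C₁, hC₁⟩ := hfC
  have hfC' : ¬ f ∣ derivative C := by
    intro hd
    obtain ⟨a, b, hab⟩ := hCsep
    have h1 : f ∣ a * C + b * derivative C :=
      dvd_add (Dvd.dvd.mul_left ⟨C₁, hC₁⟩ a) (Dvd.dvd.mul_left hd b)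
    rw [hab] at h1
    exact hfprime.not_isUnit (isUnit_of_dvd_one h1)
  have hfC₁ : ¬ f ∣ C₁ := by
    rintro ⟨C₂, hC₂⟩
    apply hfC'
    rw [hC₁, hC₂]
    refine ⟨derivative f * C₂ + (derivative f * C₂ + f * derivative C₂), ?_⟩
    simp only [derivative_mul]
    ring
  have hc₁m : aeval t C₁ ∉ 𝔪 := fun hm => hfC₁ ((hmem C₁).1 hm)
  by_cases hfB : f ∣ B
  · -- impossible: then `f² ∣ N` and `P` would be a unit at `𝔪`
    exfalso
    obtain ⟨B₁, hB₁⟩ := hfB
    have hN : W * C ^ 2 - derivative B * C + B * derivative C =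
        f ^ 2 * (W * C₁ ^ 2 + (B₁ * derivative C₁ - derivative B₁ * C₁)) := by
      rw [hC₁, hB₁]
      simp only [derivative_mul]
      ring
    rw [hN, hC₁] at h
    simp only [map_mul, map_pow] at h
    have h2 : aeval t f ^ 12 * (P * aeval t (W * C₁ ^ 2 +
        (B₁ * derivative C₁ - derivative B₁ * C₁)) ^ 6) =
        aeval t f ^ 12 * (aeval t G * aeval t C₁ ^ 12) := by
      linear_combination h
    have h3 := mul_left_cancel₀ (pow_ne_zero 12 hft0) h2
    have h4 : aeval t G * aeval t C₁ ^ 12 ∈ 𝔪 := by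
      rw [← h3]; exact 𝔪.mul_mem_right _ hP
    rcases h𝔪.mem_or_mem h4 with h5 | h5
    · exact hGm h5
    · exact hc₁m (h𝔪.mem_of_pow_mem _ h5)
  · -- `f ∤ N`
    have hN : ¬ f ∣ W * C ^ 2 - derivative B * C + B * derivative C := by
      intro hd
      have hfC : f ∣ C := ⟨C₁, hC₁⟩
      have h1 : f ∣ W * C ^ 2 - derivative B * C :=
        dvd_sub (Dvd.dvd.mul_left (dvd_pow hfC two_ne_zero) W) (Dvd.dvd.mul_left hfC _)
      have h2 : f ∣ B * derivative C := (dvd_add_right h1).1 hd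
      rcases hfprime.dvd_or_dvd h2 with h3 | h3
      · exact hfB h3
      · exact hfC' h3
    have hNm : aeval t (W * C ^ 2 - derivative B * C + B * derivative C) ∉ 𝔪 :=
      fun hm => hN ((hmem _).1 hm)
    refine ⟨aeval t (W * C ^ 2 - derivative B * C + B * derivative C) ^ 6,
      fun hm => hNm (h𝔪.mem_of_pow_mem _ hm), ?_⟩
    rw [mul_comm, h, hC₁, map_mul, mul_pow]
    apply Ideal.mul_mem_left
    apply Ideal.mul_mem_right
    exact Ideal.pow_mem_pow hfm 12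

/-- **`hord` on the `j`-line**, any prime `𝔪 ∋ P` (no rational point). -/
theorem s36thin_hord_j' (q : ℕ) (hq3 : ¬ 3 ∣ q) (hq2 : ¬ 2 ∣ q) (h1728 : (1728 : k) ≠ 0)
    (j P : R) (hj : Function.Injective (aeval (R := k) j))
    (B C : k[X]) (hC : C ≠ 0) (hCsep : IsCoprime C (derivative C))
    (h : P * (aeval j (X ^ (q - 1) * C ^ 2 - derivative B * C + B * derivative C)) ^ 6 =
      aeval j ((X ^ 4 * (X - Polynomial.C (1728 : k)) ^ 3) ^ (q - 1) : k[X]) * (aeval j C) ^ 12)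
    (𝔪 : Ideal R) [h𝔪 : 𝔪.IsPrime] (hP : P ∈ 𝔪)
    (hrig0 : j ∈ 𝔪 → ∃ s : R, s ∉ 𝔪 ∧ s * j ∈ 𝔪 ^ 3)
    (hrig1728 : j - 1728 ∈ 𝔪 → ∃ s : R, s ∉ 𝔪 ∧ s * (j - 1728) ∈ 𝔪 ^ 2) :
    ∃ s : R, s ∉ 𝔪 ∧ s * P ∈ 𝔪 ^ 12 := by
  by_cases h0 : j ∈ 𝔪
  · exact s36thin_hord_j q hq3 hq2 h1728 j P hj B C hC h 𝔪 0 (by simpa using h0) hP hrig0
      hrig1728
  by_cases h1 : j - 1728 ∈ 𝔪
  · exact s36thin_hord_j q hq3 hq2 h1728 j P hj B C hC h 𝔪 1728
      (by rw [map_ofNat]; exact h1) hP hrig0 hrig1728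
  · refine s36thin_hord_irr j P hj _ (X ^ (q - 1)) B C (s36thin_G_ne_zero q) hC hCsep h 𝔪 hP ?_
    simp only [map_pow, map_mul, map_sub, aeval_X, aeval_C]
    intro hm
    have h2 := h𝔪.mem_of_pow_mem _ hm
    rcases h𝔪.mem_or_mem h2 with h3 | h3
    · exact h0 (h𝔪.mem_of_pow_mem _ h3)
    · apply h1
      have := h𝔪.mem_of_pow_mem _ h3
      rwa [map_ofNat] at this

end Irr

section Kron

variable (q : ℕ) [hq : Fact q.Prime] (k : Type*) [Field k] [CharP k q]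

theorem s36tk_C_sep : IsCoprime (X ^ (q ^ 2) - X : k[X]) (derivative (X ^ (q ^ 2) - X : k[X])) := by
  have hd : derivative (X ^ (q ^ 2) - X : k[X]) = -1 := by
    rw [derivative_sub, derivative_X_pow, derivative_X]
    have : ((q ^ 2 : ℕ) : k) = 0 := by
      rw [Nat.cast_pow, CharP.cast_eq_zero k q, zero_pow two_ne_zero]
    rw [this, map_zero, zero_mul, zero_sub]
  rw [hd]
  exact (isCoprime_one_right).neg_right

/-- **`hord`, `q ≥ 5`, any prime `𝔪 ∋ P`** (no rational point, `k` arbitrary of char `q`). -/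
theorem s36tk_hord' (h5 : 5 ≤ q) {R : Type*} [CommRing R] [IsDomain R] [Algebra k R]
    (ι : R →ₐ[k] LaurentSeries k) (hι : Function.Injective ι) (j P : R)
    (hj : ι j = jqModC k) (hP : ι P = deltaS k * deltaInvS k ^ q)
    (𝔪 : Ideal R) [h𝔪 : 𝔪.IsPrime] (hPm : P ∈ 𝔪)
    (hrig0 : j ∈ 𝔪 → ∃ s : R, s ∉ 𝔪 ∧ s * j ∈ 𝔪 ^ 3)
    (hrig1728 : j - 1728 ∈ 𝔪 → ∃ s : R, s ∉ 𝔪 ∧ s * (j - 1728) ∈ 𝔪 ^ 2) :
    ∃ s : R, s ∉ 𝔪 ∧ s * P ∈ 𝔪 ^ 12 := by
  have hq3 : ¬ 3 ∣ q := by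
    intro h
    have := (Nat.prime_dvd_prime_iff_eq Nat.prime_three hq.out).1 h
    omega
  have hq2 : ¬ 2 ∣ q := by
    intro h
    have := (Nat.prime_dvd_prime_iff_eq Nat.prime_two hq.out).1 h
    omega
  have hιae : ∀ f : k[X], ι (aeval j f) = aeval (jqModC k) f := by
    intro f
    rw [← Polynomial.aeval_algHom_apply, hj]
  have hjinj : Function.Injective (aeval (R := k) j) := by
    intro f g hfg
    have := congrArg ι hfg
    rw [hιae, hιae] at this
    exact (transcendental_iff_injective.1 (red_transcendental_jqModC k)) this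
  refine s36thin_hord_j' q hq3 hq2 (s36tf_1728_ne_zero q h5) j P hjinj (s36tkB q k)
    (X ^ (q ^ 2) - X) (s36tk_C_ne_zero q k) (s36tk_C_sep q k) ?_ 𝔪 hPm hrig0 hrig1728
  apply hι
  have hs := s36tk_series q k
  rw [s36tkN] at hs
  simp only [map_mul ι, map_pow ι, hιae, hP]
  exact hs

/-- **`hord`, `q ≥ 5`, ring-homomorphism form**: `ι : R →+* k((Q))` injective whose image
contains the constants. -/
theorem s36tk_hord_ringHom (h5 : 5 ≤ q) {R : Type*} [CommRing R] [IsDomain R]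
    (ι : R →+* LaurentSeries k) (hι : Function.Injective ι)
    (hk : ∀ c : k, ∃ x : R, ι x = HahnSeries.C c) (j P : R)
    (hj : ι j = jqModC k) (hP : ι P = deltaS k * deltaInvS k ^ q)
    (𝔪 : Ideal R) [h𝔪 : 𝔪.IsPrime] (hPm : P ∈ 𝔪)
    (hrig0 : j ∈ 𝔪 → ∃ s : R, s ∉ 𝔪 ∧ s * j ∈ 𝔪 ^ 3)
    (hrig1728 : j - 1728 ∈ 𝔪 → ∃ s : R, s ∉ 𝔪 ∧ s * (j - 1728) ∈ 𝔪 ^ 2) :
    ∃ s : R, s ∉ 𝔪 ∧ s * P ∈ 𝔪 ^ 12 := by
  classical
  -- the `k`-algebra structure on `R`
  let g : k → R := fun c => Classical.choose (hk c)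
  have hg : ∀ c, ι (g c) = HahnSeries.C c := fun c => Classical.choose_spec (hk c)
  let γ : k →+* R :=
    { toFun := g
      map_one' := hι (by rw [hg, map_one, map_one])
      map_mul' := fun a b => hι (by rw [map_mul, hg, hg, hg, map_mul])
      map_zero' := hι (by rw [hg, map_zero, map_zero])
      map_add' := fun a b => hι (by rw [map_add, hg, hg, hg, map_add]) }
  letI : Algebra k R := γ.toAlgebra
  let ι' : R →ₐ[k] LaurentSeries k :=
    { ι with
      commutes' := fun c => by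
        show ι (g c) = _
        rw [hg]
        first
          | exact (LaurentSeries.algebraMap_apply c).symm
          | exact (Fermat.Agent.S28.algebraMap_eq_hahnC' c).symm }
  exact s36tk_hord' q k h5 ι' hι j P hj hP 𝔪 hPm hrig0 hrig1728

end Kron

end Fermat.Agent.S36
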