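import Fermat.Agent.S36.ThinOrd

/-!
# S36 (Carayol), G-thin (T4): transfer of the orders to a domain `R ∋ t, P` (helper37)

Mathlib + `ThinOrd`.  `R` a domain and `k`-algebra, `t, P ∈ R`, `t` transcendental over `k`,

  `P · N(t)⁶ = G(t) · C(t)¹²`  in `R`,      `N = W C² − B' C + B C'`,

`𝔪` a prime ideal of `R` with `P ∈ 𝔪` and `t − a ∈ 𝔪` (`a ∈ k`).

* `s36thin_transfer` : `∃ m s u, s ∉ 𝔪 ∧ s · P = u · (t − a)^m`, with `1 ≤ m`,
  `m ≡ rootMultiplicity a G mod 6`, and `12 ≤ m` if `G(a) ≠ 0`.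
* `s36thin_hord_j` : the `j`-line (`G = (X⁴ (X − 1728)³)^(q-1)`), with the rigidity inputs
  `j ∈ 𝔪 → ∃ s ∉ 𝔪, s · j ∈ 𝔪³` and `j − 1728 ∈ 𝔪 → ∃ s ∉ 𝔪, s · (j − 1728) ∈ 𝔪²`:
  `∃ s ∉ 𝔪, s · P ∈ 𝔪¹²`   (= `hord` of the crossing criterion after localisation).
* `s36thin_hord_generic` : any coordinate `t` without elliptic values (`G(a) ≠ 0`):
  `∃ s ∉ 𝔪, s · P ∈ 𝔪¹²`.
-/

set_option autoImplicit false
set_option linter.style.haveILetI false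
set_option linter.unusedSectionVars false
set_option linter.unusedVariables false

namespace Fermat.Agent.S36

open Polynomial

variable {k : Type*} [Field k] {R : Type*} [CommRing R] [Algebra k R]

/-- `f(t) ≡ f(a)` modulo `t − a`. -/
theorem s36thin_aeval_sub_mem (t : R) (a : k) (f : k[X]) (I : Ideal R)
    (ha : t - algebraMap k R a ∈ I) : aeval t f - algebraMap k R (f.eval a) ∈ I := by
  have h1 : aeval t f = (f.map (algebraMap k R)).eval t := by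
    rw [eval_map, aeval_def]
  have h2 : algebraMap k R (f.eval a) = (f.map (algebraMap k R)).eval (algebraMap k R a) := by
    rw [eval_map, eval₂_at_apply]
  rw [h1, h2]
  obtain ⟨c, hc⟩ := Polynomial.sub_dvd_eval_sub t (algebraMap k R a) (f.map (algebraMap k R))
  rw [hc]
  exact I.mul_mem_right _ ha

/-- `f(a) ≠ 0 ⇒ f(t) ∉ 𝔪` for a prime ideal `𝔪 ∋ t − a`. -/
theorem s36thin_aeval_not_mem (t : R) (a : k) (f : k[X]) (𝔪 : Ideal R) [h𝔪 : 𝔪.IsPrime]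
    (ha : t - algebraMap k R a ∈ 𝔪) (hf : f.eval a ≠ 0) : aeval t f ∉ 𝔪 := by
  intro hmem
  have h1 := s36thin_aeval_sub_mem t a f 𝔪 ha
  have h2 : algebraMap k R (f.eval a) ∈ 𝔪 := by
    have := 𝔪.sub_mem hmem h1
    simpa using this
  have h3 : IsUnit (algebraMap k R (f.eval a)) := (IsUnit.mk0 _ hf).map _
  exact h𝔪.ne_top (Ideal.eq_top_of_isUnit_mem _ h2 h3)

variable [IsDomain R]

/-- **Transfer.** -/
theorem s36thin_transfer (t P : R) (ht : Function.Injective (aeval (R := k) t))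
    (G W B C : k[X]) (hG : G ≠ 0) (hC : C ≠ 0)
    (h : P * (aeval t (W * C ^ 2 - derivative B * C + B * derivative C)) ^ 6 =
      aeval t G * (aeval t C) ^ 12)
    (𝔪 : Ideal R) [h𝔪 : 𝔪.IsPrime] (a : k) (ha : t - algebraMap k R a ∈ 𝔪) (hP : P ∈ 𝔪) :
    ∃ (m : ℕ) (s u : R), s ∉ 𝔪 ∧ s * P = u * (t - algebraMap k R a) ^ m ∧ 1 ≤ m ∧
      6 ∣ m + 5 * rootMultiplicity a G ∧ (G.eval a ≠ 0 → 12 ≤ m) := by
  classical
  set N : k[X] := W * C ^ 2 - derivative B * C + B * derivative C with hNdef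
  have hN : N ≠ 0 := by
    intro hN0
    rw [hN0, map_zero, zero_pow (by norm_num), mul_zero] at h
    have h0 : aeval t (G * C ^ 12) = 0 := by rw [map_mul, map_pow, ← h]
    have := ht (h0.trans (map_zero _).symm)
    exact mul_ne_zero hG (pow_ne_zero _ hC) this
  obtain ⟨N₁, hN₁, hN₁d⟩ := exists_eq_pow_rootMultiplicity_mul_and_not_dvd N hN a
  obtain ⟨C₁, hC₁, hC₁d⟩ := exists_eq_pow_rootMultiplicity_mul_and_not_dvd C hC a
  obtain ⟨G₁, hG₁, hG₁d⟩ := exists_eq_pow_rootMultiplicity_mul_and_not_dvd G hG a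
  set ν := rootMultiplicity a N with hν
  set c := rootMultiplicity a C with hc
  set γ := rootMultiplicity a G with hγ
  have hN₁a : N₁.eval a ≠ 0 := fun h0 => hN₁d ((dvd_iff_isRoot).2 h0)
  have hC₁a : C₁.eval a ≠ 0 := fun h0 => hC₁d ((dvd_iff_isRoot).2 h0)
  have hG₁a : G₁.eval a ≠ 0 := fun h0 => hG₁d ((dvd_iff_isRoot).2 h0)
  set τ : R := t - algebraMap k R a with hτ
  have hτe : aeval t (X - Polynomial.C a : k[X]) = τ := by
    rw [map_sub, aeval_X, aeval_C]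
  have hτ0 : τ ≠ 0 := by
    rw [← hτe]
    intro h0
    have := ht (h0.trans (map_zero _).symm)
    exact X_sub_C_ne_zero a this
  set n₁ := aeval t N₁ with hn₁
  set c₁ := aeval t C₁ with hc₁
  set g₁ := aeval t G₁ with hg₁
  have hn₁m : n₁ ∉ 𝔪 := s36thin_aeval_not_mem t a N₁ 𝔪 ha hN₁a
  have hc₁m : c₁ ∉ 𝔪 := s36thin_aeval_not_mem t a C₁ 𝔪 ha hC₁a
  have hg₁m : g₁ ∉ 𝔪 := s36thin_aeval_not_mem t a G₁ 𝔪 ha hG₁a
  have eN : aeval t N = τ ^ ν * n₁ := by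
    conv_lhs => rw [hN₁]
    rw [map_mul, map_pow, hτe]
  have eC : aeval t C = τ ^ c * c₁ := by
    conv_lhs => rw [hC₁]
    rw [map_mul, map_pow, hτe]
  have eG : aeval t G = τ ^ γ * g₁ := by
    conv_lhs => rw [hG₁]
    rw [map_mul, map_pow, hτe]
  rw [eN, eC, eG] at h
  -- `P τ^{6ν} n₁⁶ = τ^{γ + 12c} g₁ c₁¹²`
  have h' : τ ^ (6 * ν) * (P * n₁ ^ 6) = τ ^ (γ + 12 * c) * (g₁ * c₁ ^ 12) := by
    have e1 : τ ^ (6 * ν) = (τ ^ ν) ^ 6 := by rw [← pow_mul, mul_comm]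
    have e2 : τ ^ (γ + 12 * c) = τ ^ γ * (τ ^ c) ^ 12 := by rw [pow_add, ← pow_mul, mul_comm c 12]
    rw [e1, e2]
    linear_combination h
  have hum : g₁ * c₁ ^ 12 ∉ 𝔪 := by
    intro hmem
    rcases h𝔪.mem_or_mem hmem with h1 | h1
    · exact hg₁m h1
    · exact hc₁m (h𝔪.mem_of_pow_mem _ h1)
  have hlt : 6 * ν < γ + 12 * c := by
    by_contra hge
    have hge := Nat.le_of_not_lt hge
    obtain ⟨d, hd⟩ := Nat.exists_eq_add_of_le hge
    rw [hd, pow_add, mul_assoc] at h'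
    have h2 := mul_left_cancel₀ (pow_ne_zero _ hτ0) h'
    apply hum
    rw [← h2]
    exact 𝔪.mul_mem_left _ (𝔪.mul_mem_right _ hP)
  obtain ⟨m, hm⟩ := Nat.exists_eq_add_of_lt hlt
  -- `γ + 12 c = 6 ν + m + 1`
  have h'' : τ ^ (6 * ν) * (P * n₁ ^ 6) = τ ^ (6 * ν) * (τ ^ (m + 1) * (g₁ * c₁ ^ 12)) := by
    rw [h', hm]
    ring
  have h3 := mul_left_cancel₀ (pow_ne_zero _ hτ0) h''
  refine ⟨m + 1, n₁ ^ 6, g₁ * c₁ ^ 12, ?_, ?_, by omega, ?_, ?_⟩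
  · exact fun hmem => hn₁m (h𝔪.mem_of_pow_mem _ hmem)
  · rw [mul_comm, h3, mul_comm]
  · exact ⟨γ + 2 * c - ν, by omega⟩
  · intro hGa
    have hγ0 : γ = 0 := rootMultiplicity_eq_zero hGa
    -- `c ≥ 1`
    obtain ⟨c', hc'⟩ : ∃ c', c = c' + 1 := ⟨c - 1, by omega⟩
    have hne : ν ≠ 2 * c' + 1 := by
      intro heq
      have h1 : (X - Polynomial.C a : k[X]) ^ (2 * c' + 1) ∣ N := by
        rw [← heq]; exact pow_rootMultiplicity_dvd N a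
      have h2 := s36thin_residue W B C hC a c' hc' h1
      have h4 : 2 * c' + 2 ≤ rootMultiplicity a N := (le_rootMultiplicity_iff hN).2 h2
      omega
    omega

/-- **`hord`, any coordinate without elliptic value at the point**: `∃ s ∉ 𝔪, s · P ∈ 𝔪¹²`. -/
theorem s36thin_hord_generic (t P : R) (ht : Function.Injective (aeval (R := k) t))
    (G W B C : k[X]) (hC : C ≠ 0)
    (h : P * (aeval t (W * C ^ 2 - derivative B * C + B * derivative C)) ^ 6 =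
      aeval t G * (aeval t C) ^ 12)
    (𝔪 : Ideal R) [h𝔪 : 𝔪.IsPrime] (a : k) (ha : t - algebraMap k R a ∈ 𝔪) (hP : P ∈ 𝔪)
    (hGa : G.eval a ≠ 0) :
    ∃ s : R, s ∉ 𝔪 ∧ s * P ∈ 𝔪 ^ 12 := by
  have hG : G ≠ 0 := by
    rintro rfl
    simp at hGa
  obtain ⟨m, s, u, hs, hsu, -, -, h12⟩ := s36thin_transfer t P ht G W B C hG hC h 𝔪 a ha hP
  refine ⟨s, hs, ?_⟩
  rw [hsu]
  apply Ideal.mul_mem_left
  exact Ideal.pow_le_pow_right (h12 hGa) (Ideal.pow_mem_pow ha m)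

/-- auxiliary: `s · x ∈ 𝔪^e` and `e m ≥ 12` give `s^m · x^m ∈ 𝔪¹²`. -/
theorem s36thin_pow_mem (𝔪 : Ideal R) (s x : R) (e m : ℕ) (h : s * x ∈ 𝔪 ^ e)
    (hem : 12 ≤ e * m) : s ^ m * x ^ m ∈ 𝔪 ^ 12 := by
  rw [← mul_pow]
  have h1 : (s * x) ^ m ∈ (𝔪 ^ e) ^ m := Ideal.pow_mem_pow h m
  rw [← pow_mul] at h1
  exact Ideal.pow_le_pow_right hem h1

/-- **`hord` on the `j`-line**, with the rigidity inputs at `j = 0` and `j = 1728`. -/
theorem s36thin_hord_j (q : ℕ) (hq3 : ¬ 3 ∣ q) (hq2 : ¬ 2 ∣ q) (h1728 : (1728 : k) ≠ 0)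
    (j P : R) (hj : Function.Injective (aeval (R := k) j))
    (B C : k[X]) (hC : C ≠ 0)
    (h : P * (aeval j (X ^ (q - 1) * C ^ 2 - derivative B * C + B * derivative C)) ^ 6 =
      aeval j ((X ^ 4 * (X - Polynomial.C (1728 : k)) ^ 3) ^ (q - 1) : k[X]) * (aeval j C) ^ 12)
    (𝔪 : Ideal R) [h𝔪 : 𝔪.IsPrime] (a : k) (ha : j - algebraMap k R a ∈ 𝔪) (hP : P ∈ 𝔪)
    (hrig0 : j ∈ 𝔪 → ∃ s : R, s ∉ 𝔪 ∧ s * j ∈ 𝔪 ^ 3)
    (hrig1728 : j - 1728 ∈ 𝔪 → ∃ s : R, s ∉ 𝔪 ∧ s * (j - 1728) ∈ 𝔪 ^ 2) :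
    ∃ s : R, s ∉ 𝔪 ∧ s * P ∈ 𝔪 ^ 12 := by
  have hq0 : 0 < q := Nat.pos_of_ne_zero (fun h0 => hq3 (h0 ▸ dvd_zero 3))
  obtain ⟨m, s, u, hs, hsu, hm1, hm6, h12⟩ :=
    s36thin_transfer j P hj _ (X ^ (q - 1)) B C (s36thin_G_ne_zero q) hC h 𝔪 a ha hP
  by_cases ha0 : a = 0
  · -- `a = 0`
    subst ha0
    rw [s36thin_rootMultiplicity_G_zero q h1728] at hm6
    have hm4 : 4 ≤ m := by omega
    rw [map_zero, sub_zero] at ha hsu
    obtain ⟨s₁, hs₁, hs₁j⟩ := hrig0 ha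
    refine ⟨s₁ ^ m * s, ?_, ?_⟩
    · intro hmem
      rcases h𝔪.mem_or_mem hmem with h1 | h1
      · exact hs₁ (h𝔪.mem_of_pow_mem _ h1)
      · exact hs h1
    · rw [mul_assoc, hsu]
      have := s36thin_pow_mem 𝔪 s₁ j 3 m hs₁j (by omega)
      have e : s₁ ^ m * (u * j ^ m) = u * (s₁ ^ m * j ^ m) := by ring
      rw [e]
      exact Ideal.mul_mem_left _ _ this
  by_cases ha1 : a = 1728
  · subst ha1
    rw [s36thin_rootMultiplicity_G_1728 q h1728] at hm6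
    have hm6' : 6 ≤ m := by omega
    rw [map_ofNat] at ha hsu
    obtain ⟨s₁, hs₁, hs₁j⟩ := hrig1728 ha
    refine ⟨s₁ ^ m * s, ?_, ?_⟩
    · intro hmem
      rcases h𝔪.mem_or_mem hmem with h1 | h1
      · exact hs₁ (h𝔪.mem_of_pow_mem _ h1)
      · exact hs h1
    · rw [mul_assoc, hsu]
      have := s36thin_pow_mem 𝔪 s₁ (j - 1728) 2 m hs₁j (by omega)
      have e : s₁ ^ m * (u * (j - 1728) ^ m) = u * (s₁ ^ m * (j - 1728) ^ m) := by ring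
      rw [e]
      exact Ideal.mul_mem_left _ _ this
  · -- generic
    have hGa : ((X ^ 4 * (X - Polynomial.C (1728 : k)) ^ 3) ^ (q - 1) : k[X]).eval a ≠ 0 := by
      simp only [eval_pow, eval_mul, eval_X, eval_sub, eval_C]
      exact pow_ne_zero _ (mul_ne_zero (pow_ne_zero _ ha0) (pow_ne_zero _ (sub_ne_zero.2 ha1)))
    refine ⟨s, hs, ?_⟩
    rw [hsu]
    apply Ideal.mul_mem_left
    exact Ideal.pow_le_pow_right (h12 hGa) (Ideal.pow_mem_pow ha m)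

end Fermat.Agent.S36
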