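import Fermat.Agent.S36.ThinFormal
import Fermat.Agent.S36.ThinTransfer
import Fermat.Agent.UNIP.NodesSwapKron

/-!
# S36 (Carayol), G-thin (T3): `Ā_j ∈ k(j̄)` formally, and `hord` on the `j`-line (helper37)

`A := (j^q − j(Q^q))/q ∈ ℤ((Q))` (`s36tfFrobQuot q (jqModC ℤ)`), `Ā` its reduction to a field `k`
of characteristic `q`.

* `s36tk_kron` : Kronecker's congruence `Φ_q ≡ (X − Y^q)(X^q − Y) mod q` for the integral modular
  polynomial `Φ_q = UNIP.nodesSwapPhi q` (from `UNIP.cusp_kronecker`).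
* `s36tk_exists_psi` : `Φ_q = (X − Y^q)(X^q − Y) + q Ψ`, `Ψ ∈ ℤ[Y][X]`.
* `s36tk_frobQuot_mul` : `A · (j(Q^q)^q − j) = Ψ(j(Q^q), j)` in `ℤ((Q))`.
* `s36tk_beta` : **(β)** `Ā · (j̄^{q²} − j̄) = B(j̄)` for some `B ∈ k[X]`  (`Ā ∈ k(j̄)`, at most
  simple poles, all at points of `𝔽_{q²}`).
* `s36tk_series` : `Δ̄^{1-q} · N(j̄)⁶ = G(j̄)^{q-1} · C(j̄)¹²` in `k((Q))`, `C = X^{q²} − X`,
  `N = X^{q-1} C² − B' C + B C'`, `G = X⁴ (X − 1728)³`.
* `s36tk_hord` : **`hord`** (`q ≥ 5`): `R` a domain with an injective `k`-algebra map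
  `ι : R → k((Q))`, `ι j = j̄`, `ι P = Δ̄^{1-q}`; `𝔪` a prime ideal, `P ∈ 𝔪`, `j − a ∈ 𝔪`, and the
  rigidity inputs at `j = 0`, `j = 1728`  `⇒  ∃ s ∉ 𝔪, s · P ∈ 𝔪¹²`.
-/

set_option autoImplicit false
set_option linter.style.haveILetI false
set_option linter.unusedSectionVars false
set_option linter.unusedVariables false

noncomputable section

namespace Fermat.Agent.S36

open Polynomial ModularCurve
open Fermat.Agent.S28 Fermat.Agent.S28.Deriv Fermat.Agent.UNIP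

variable (q : ℕ) [hq : Fact q.Prime]

/-! ### Kronecker's congruence -/

/-- `(aeval x) ∘ (map ℤ → k) = evalInt x`. -/
theorem s36tk_hev {k : Type*} [Field k] (x : LaurentSeries k) :
    (((aeval x : Polynomial k →ₐ[k] LaurentSeries k) : Polynomial k →+* LaurentSeries k)).comp
      (mapRingHom (Int.castRingHom k)) = evalInt x := by
  rw [ringHom_eq_evalInt ((((aeval x : Polynomial k →ₐ[k] LaurentSeries k) :
    Polynomial k →+* LaurentSeries k)).comp (mapRingHom (Int.castRingHom k)))]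
  congr 1
  simp

/-- **Kronecker's congruence**: `Φ_q ≡ (X − Y^q)(X^q − Y) mod q`. -/
theorem s36tk_kron (k : Type*) [Field k] [CharP k q] :
    (nodesSwapPhi q hq.out).map (mapRingHom (Int.castRingHom k)) =
      (X - C (X ^ q)) * (X ^ q - C X) := by
  have hm := nodesSwapPhi_monic q hq.out
  have hT : qExpand k q (jqModC k) = jqModC k ^ q := nodesFrobU_hT_j k q
  refine cusp_kronecker q hq.out.two_le _ (hm.map _)
    (by rw [hm.natDegree_map, nodesSwapPhi_natDegree]) (jqModC k)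
    (nodesFrobU_transcendental_j k) ?_ ?_
  · rw [eval₂_map, s36tk_hev, ← hT]
    exact nodesSwapPhi_series q hq.out k
  · rw [eval₂_map, s36tk_hev, ← hT]
    exact nodesSwapPhi_series' q hq.out k

/-- a two-variable integer polynomial which vanishes modulo `q` is divisible by `q`. -/
theorem s36tk_dvd_of_map_eq_zero (P : Polynomial (Polynomial ℤ))
    (h : P.map (mapRingHom (Int.castRingHom (ZMod q))) = 0) :
    C (C (q : ℤ)) ∣ P := by
  rw [C_dvd_iff_dvd_coeff]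
  intro i
  rw [C_dvd_iff_dvd_coeff]
  intro j
  have h1 := congrArg (fun p : Polynomial (Polynomial (ZMod q)) => (p.coeff i).coeff j) h
  simp only [coeff_map, coe_mapRingHom, coeff_zero] at h1
  exact (ZMod.intCast_zmod_eq_zero_iff_dvd _ q).1 h1

/-- `Φ_q = (X − Y^q)(X^q − Y) + q Ψ`. -/
theorem s36tk_exists_psi :
    ∃ Ψ : Polynomial (Polynomial ℤ),
      nodesSwapPhi q hq.out = (X - C (X ^ q)) * (X ^ q - C X) + C (C (q : ℤ)) * Ψ := by
  have h : (nodesSwapPhi q hq.out - (X - C (X ^ q)) * (X ^ q - C X)).map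
      (mapRingHom (Int.castRingHom (ZMod q))) = 0 := by
    rw [Polynomial.map_sub, s36tk_kron q (ZMod q)]
    simp
  obtain ⟨Ψ, hΨ⟩ := s36tk_dvd_of_map_eq_zero q _ h
  exact ⟨Ψ, by rw [← hΨ]; ring⟩

/-- the polynomial `Ψ` with `Φ_q = (X − Y^q)(X^q − Y) + q Ψ`. -/
def s36tkPsi : Polynomial (Polynomial ℤ) := Classical.choose (s36tk_exists_psi q)

theorem s36tkPsi_spec :
    nodesSwapPhi q hq.out = (X - C (X ^ q)) * (X ^ q - C X) + C (C (q : ℤ)) * s36tkPsi q :=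
  Classical.choose_spec (s36tk_exists_psi q)

/-! ### `A · (j_q^q − j) = Ψ(j_q, j)` -/

theorem s36tk_frobQuot_mul :
    s36tfFrobQuot q (jqModC ℤ) * ((qExpand ℤ q (jqModC ℤ)) ^ q - jqModC ℤ) =
      (s36tkPsi q).eval₂ (evalInt (jqModC ℤ)) (qExpand ℤ q (jqModC ℤ)) := by
  have h0 := nodesSwapPhi_series q hq.out ℤ
  rw [s36tkPsi_spec q] at h0
  have hA := s36tf_frobQuot_spec q (jqModC ℤ)
  have hCq : evalInt (jqModC ℤ) (C (q : ℤ)) = (HahnSeries.C (q : ℤ) : LaurentSeries ℤ) := by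
    rw [evalInt, coe_eval₂RingHom, eval₂_C]
    simp
  simp only [eval₂_add, eval₂_mul, eval₂_sub, eval₂_X, eval₂_C, eval₂_pow, map_pow, evalInt_X,
    hCq] at h0
  have hq0 : (HahnSeries.C (q : ℤ) : LaurentSeries ℤ) ≠ 0 :=
    HahnSeries.C_ne_zero (Nat.cast_ne_zero.mpr hq.out.ne_zero)
  apply mul_left_cancel₀ hq0
  linear_combination ((qExpand ℤ q (jqModC ℤ)) ^ q - jqModC ℤ) * hA - h0

/-! ### (β) -/

section Beta

variable (k : Type*) [Field k] [CharP k q]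

/-- the numerator `B` of `Ā = B(j̄) / (j̄^{q²} − j̄)`. -/
def s36tkB : k[X] := ((s36tkPsi q).map (mapRingHom (Int.castRingHom k))).eval (X ^ q)

/-- **(β)**: `Ā · (j̄^{q²} − j̄) = B(j̄)`. -/
theorem s36tk_beta :
    coeffMap (Int.castRingHom k) (s36tfFrobQuot q (jqModC ℤ)) *
        aeval (jqModC k) (X ^ (q ^ 2) - X : k[X]) = aeval (jqModC k) (s36tkB q k) := by
  have h := congrArg (coeffMap (Int.castRingHom k)) (s36tk_frobQuot_mul q)
  rw [map_mul, map_sub, map_pow, ModularCurve.coeffMap_qExpand, coeffMap_jqModC,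
    map_eval₂_evalInt, ModularCurve.coeffMap_qExpand, coeffMap_jqModC] at h
  have hT : qExpand k q (jqModC k) = jqModC k ^ q := nodesFrobU_hT_j k q
  rw [hT] at h
  have h1 : aeval (jqModC k) (X ^ (q ^ 2) - X : k[X]) = (jqModC k ^ q) ^ q - jqModC k := by
    rw [map_sub, map_pow, aeval_X, ← pow_mul, pow_two]
  have h2 : aeval (jqModC k) (s36tkB q k) =
      (s36tkPsi q).eval₂ (evalInt (jqModC k)) (jqModC k ^ q) := by
    rw [s36tkB, ← s36tk_hev, ← eval₂_map]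
    have := Polynomial.hom_eval₂ ((s36tkPsi q).map (mapRingHom (Int.castRingHom k)))
      (RingHom.id (Polynomial k))
      ((aeval (jqModC k) : Polynomial k →ₐ[k] LaurentSeries k) : Polynomial k →+* LaurentSeries k)
      (X ^ q)
    rw [RingHom.comp_id] at this
    have hX : ((aeval (jqModC k) : Polynomial k →ₐ[k] LaurentSeries k) :
        Polynomial k →+* LaurentSeries k) (X ^ q) = jqModC k ^ q := by
      simp
    rw [hX, eval₂_id] at this
    exact this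
  rw [h1, h2]
  exact h

theorem s36tk_C_ne_zero : (X ^ (q ^ 2) - X : k[X]) ≠ 0 := by
  intro h0
  have h1 := congrArg (aeval (jqModC k)) h0
  rw [map_sub, map_pow, aeval_X, map_zero, pow_two, pow_mul, sub_eq_zero] at h1
  exact nodesFrobU_hne_j k hq.out.two_le h1

/-- the polynomial `N = X^{q-1} C² − B' C + B C'`, `C = X^{q²} − X`. -/
def s36tkN : k[X] :=
  X ^ (q - 1) * (X ^ (q ^ 2) - X) ^ 2 - derivative (s36tkB q k) * (X ^ (q ^ 2) - X) +
    s36tkB q k * derivative (X ^ (q ^ 2) - X : k[X])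

/-- **`Δ̄^{1-q} · N(j̄)⁶ = G(j̄)^{q-1} · C(j̄)¹²`** in `k((Q))`. -/
theorem s36tk_series :
    (deltaS k * deltaInvS k ^ q) * (aeval (jqModC k) (s36tkN q k)) ^ 6 =
      aeval (jqModC k) ((X ^ 4 * (X - Polynomial.C (1728 : k)) ^ 3) ^ (q - 1) : k[X]) *
        (aeval (jqModC k) (X ^ (q ^ 2) - X : k[X])) ^ 12 := by
  have hj : coeffMap (Int.castRingHom k) (jqModC ℤ) = jqModC k := coeffMap_jqModC _
  have hg := s36tf_theta_j_pow_six_field k
  have hg1 : aeval (jqModC k) (X ^ 4 * (X - Polynomial.C (1728 : k)) ^ 3 : k[X]) ≠ 0 := by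
    intro h0
    have h1 : (X ^ 4 * (X - Polynomial.C (1728 : k)) ^ 3 : k[X]) = 0 :=
      (transcendental_iff_injective.1 (red_transcendental_jqModC k)) (by rw [h0, map_zero])
    exact mul_ne_zero (pow_ne_zero _ X_ne_zero) (pow_ne_zero _ (X_sub_C_ne_zero _)) h1
  have hθ : thetaFun (jqModC k) ≠ 0 := by
    intro h0
    rw [h0] at hg
    have : aeval (jqModC k) (X ^ 4 * (X - Polynomial.C (1728 : k)) ^ 3 : k[X]) * deltaS k ≠ 0 :=
      mul_ne_zero hg1 (deltaS_ne_zero k)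
    exact this (by rw [← hg]; simp)
  have hq1 : 0 < q := hq.out.pos
  have hθA := s36tf_theta_frobQuot q k (jqModC ℤ) (s36tfFrobQuot q (jqModC ℤ))
    (s36tf_frobQuot_spec q _)
  rw [hj] at hθA
  have h2 := s36tf_H_mul_sq q hq1 (jqModC k) _ hθ hθA (s36tkB q k) (X ^ (q ^ 2) - X)
    (s36tk_beta q k)
  have hΔ : deltaS k * deltaInvS k = 1 := deltaS_mul_deltaInvS k
  have hpow : deltaS k ^ (q - 1) * deltaS k = deltaS k ^ q := by
    rw [← pow_succ, Nat.sub_add_cancel hq1]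
  have hΔq : deltaS k ^ q * deltaInvS k ^ q = 1 := by
    rw [← mul_pow, hΔ, one_pow]
  rw [s36tkN, ← h2, mul_pow, ← pow_mul, mul_comm (q - 1) 6, pow_mul, hg, mul_pow, map_pow,
    ← pow_mul]
  calc deltaS k * deltaInvS k ^ q *
        (aeval (jqModC k) (X ^ 4 * (X - Polynomial.C (1728 : k)) ^ 3 : k[X]) ^ (q - 1) *
          deltaS k ^ (q - 1) * aeval (jqModC k) (X ^ (q ^ 2) - X : k[X]) ^ (2 * 6))
      = aeval (jqModC k) (X ^ 4 * (X - Polynomial.C (1728 : k)) ^ 3 : k[X]) ^ (q - 1) *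
          aeval (jqModC k) (X ^ (q ^ 2) - X : k[X]) ^ 12 *
          ((deltaS k ^ (q - 1) * deltaS k) * deltaInvS k ^ q) := by ring
    _ = _ := by rw [hpow, hΔq, mul_one]

/-! ### `hord` on the `j`-line -/

/-- **`hord`, `q ≥ 5`.**  `R` a domain with an injective `k`-algebra homomorphism
`ι : R → k((Q))`, `j, P ∈ R` with `ι j = j̄`, `ι P = Δ̄^{1-q}`; `𝔪` a prime ideal with `P ∈ 𝔪`,
`j − a ∈ 𝔪` (`a ∈ k`); rigidity at the elliptic values.  Then `∃ s ∉ 𝔪, s · P ∈ 𝔪¹²`. -/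
theorem s36tk_hord (h5 : 5 ≤ q) {R : Type*} [CommRing R] [IsDomain R] [Algebra k R]
    (ι : R →ₐ[k] LaurentSeries k) (hι : Function.Injective ι) (j P : R)
    (hj : ι j = jqModC k) (hP : ι P = deltaS k * deltaInvS k ^ q)
    (𝔪 : Ideal R) [h𝔪 : 𝔪.IsPrime] (a : k) (ha : j - algebraMap k R a ∈ 𝔪) (hPm : P ∈ 𝔪)
    (hrig0 : j ∈ 𝔪 → ∃ s : R, s ∉ 𝔪 ∧ s * j ∈ 𝔪 ^ 3)
    (hrig1728 : j - 1728 ∈ 𝔪 → ∃ s : R, s ∉ 𝔪 ∧ s * (j - 1728) ∈ 𝔪 ^ 2) :
    ∃ s : R, s ∉ 𝔪 ∧ s * P ∈ 𝔪 ^ 12 := by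
  have hq3 : ¬ 3 ∣ q := by
    intro h
    have := (Nat.prime_dvd_prime_iff_eq Nat.prime_three hq.out).1 h
    omega
  have hq2 : ¬ 2 ∣ q := by
    intro h
    have := (Nat.prime_dvd_prime_iff_eq Nat.prime_two hq.out).1 h
    omega
  have hιae : ∀ f : k[X], ι (aeval j f) = aeval (jqModC k) f := by
    intro f
    rw [← Polynomial.aeval_algHom_apply, hj]
  have hjinj : Function.Injective (aeval (R := k) j) := by
    intro f g hfg
    have := congrArg ι hfg
    rw [hιae, hιae] at this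
    exact (transcendental_iff_injective.1 (red_transcendental_jqModC k)) this
  refine s36thin_hord_j q hq3 hq2 (s36tf_1728_ne_zero q h5) j P hjinj (s36tkB q k)
    (X ^ (q ^ 2) - X) (s36tk_C_ne_zero q k) ?_ 𝔪 a ha hPm hrig0 hrig1728
  apply hι
  have hs := s36tk_series q k
  rw [s36tkN] at hs
  simp only [map_mul ι, map_pow ι, hιae, hP]
  exact hs

end Beta

end Fermat.Agent.S36
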