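import Mathlib

/-!
# S36 (Carayol), G-thin (T3): orders of zeros of `P = Δ̄^{1-q}` — the polynomial algebra (helper37)

Mathlib only.  `k` a field, `P, G, W, B, C ∈ k[X]`, `C ≠ 0`,
`N := W · C² − B' · C + B · C'`  (so that `N / C² = W − (B / C)'`), and

  `P · N⁶ = G · C¹²`        (i.e. `P · H⁶ = G` with `H = W − (B/C)'`).

In the application `k ⊇ 𝔽_q`, `X = t̄` a coordinate (`j̄`, or a Hauptmodul), `W = X^{q-1}`,
`B / C = Ā = ((t^q − t(Q^q))/q)‾`, `H = (θ t̄)^{q-1}`, `G = g(t̄)^{q-1}` with `(θ t)⁶ = g(t) Δ`,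
`P = Δ̄^{1-q}`.

* `s36thin_residue` : **the residue of a derivative is zero**: with `c = rootMultiplicity a C ≥ 1`,
  `(X - a)^(2c-1) ∣ N → (X - a)^(2c) ∣ N`  (`H` has no simple pole).
* `s36thin_rootMultiplicity_rel` : `rm_a P + 6 · rm_a N = rm_a G + 12 · rm_a C`.
* `s36thin_pow_twelve_dvd` : `P(a) = 0`, `G(a) ≠ 0` `⇒` `(X - a)^12 ∣ P`.
* `s36thin_six_dvd_add` : `6 ∣ rm_a P + 5 * rm_a G`, i.e. `rm_a P ≡ rm_a G mod 6`.
* `s36thin_j_generic`, `s36thin_j_zero`, `s36thin_j_1728` : the `j`-line,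
  `G = (X⁴ (X − 1728)³)^(q-1)`: a zero `a ≠ 0, 1728` of `P` has order `≥ 12`, a zero at `0` has
  order `≥ 4` (`3 ∤ q`), a zero at `1728` has order `≥ 6` (`q` odd).
* `s36thin_poly_of_aeval` : the polynomial identity from the identities in a field `K ∋ t`,
  `t` transcendental over `k`.
-/

set_option autoImplicit false
set_option linter.style.haveILetI false
set_option linter.unusedSectionVars false
set_option linter.unusedVariables false

namespace Fermat.Agent.S36

open Polynomial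

variable {k : Type*} [Field k]

/-! ### power series: the coefficient of index `c` of `X f' − c f` vanishes -/

theorem s36thin_coeff_self (f : PowerSeries k) (c : ℕ) :
    PowerSeries.coeff c ((PowerSeries.X : PowerSeries k) * PowerSeries.derivative k f - c • f)
      = 0 := by
  rcases c with _ | n
  · simp
  · rw [map_sub, PowerSeries.coeff_succ_X_mul, PowerSeries.coeff_derivative, map_nsmul,
      nsmul_eq_mul]
    push_cast
    ring

theorem s36thin_ps_dvd_succ (f : PowerSeries k) (c : ℕ)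
    (h : (PowerSeries.X : PowerSeries k) ^ c ∣
      PowerSeries.X * PowerSeries.derivative k f - c • f) :
    (PowerSeries.X : PowerSeries k) ^ (c + 1) ∣
      PowerSeries.X * PowerSeries.derivative k f - c • f := by
  rw [PowerSeries.X_pow_dvd_iff] at h ⊢
  intro m hm
  rcases Nat.lt_succ_iff_lt_or_eq.1 hm with h1 | rfl
  · exact h m h1
  · exact s36thin_coeff_self f m

/-! ### polynomials at `0` -/

/-- `X ^ n ∣ p` for a polynomial iff it holds for the associated power series. -/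
theorem s36thin_X_pow_dvd_coe (p : k[X]) (n : ℕ) :
    (X : k[X]) ^ n ∣ p ↔ (PowerSeries.X : PowerSeries k) ^ n ∣ (p : PowerSeries k) := by
  rw [Polynomial.X_pow_dvd_iff, PowerSeries.X_pow_dvd_iff]
  simp only [Polynomial.coeff_coe]

/-- the key step at `0`: with `Z = X (B' C₁ − B C₁') − c B C₁`, `C₁(0) ≠ 0`:
`X^c ∣ Z → X^(c+1) ∣ Z`. -/
theorem s36thin_Z_dvd_succ (B C₁ : k[X]) (hC₁ : C₁.coeff 0 ≠ 0) (c : ℕ)
    (h : (X : k[X]) ^ c ∣
      X * (derivative B * C₁ - B * derivative C₁) - Polynomial.C (c : k) * (B * C₁)) :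
    (X : k[X]) ^ (c + 1) ∣
      X * (derivative B * C₁ - B * derivative C₁) - Polynomial.C (c : k) * (B * C₁) := by
  set γ : PowerSeries k := (C₁ : PowerSeries k) with hγdef
  have hγ : PowerSeries.constantCoeff γ ≠ 0 := by
    rw [hγdef, ← PowerSeries.coeff_zero_eq_constantCoeff_apply, Polynomial.coeff_coe]
    exact hC₁
  set f : PowerSeries k := (B : PowerSeries k) * γ⁻¹ with hfdef
  have hγi : γ⁻¹ * γ = 1 := PowerSeries.inv_mul_cancel γ hγ
  have hB : (B : PowerSeries k) = f * γ := by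
    rw [hfdef, mul_assoc, hγi, mul_one]
  have hdB : PowerSeries.derivative k (B : PowerSeries k) =
      f * PowerSeries.derivative k γ + γ * PowerSeries.derivative k f := by
    rw [hB, Derivation.leibniz, smul_eq_mul, smul_eq_mul]
  have hcast : (PowerSeries.C (c : k) : PowerSeries k) = (c : PowerSeries k) :=
    map_natCast (PowerSeries.C (R := k)) c
  have hZ : ((X * (derivative B * C₁ - B * derivative C₁) - Polynomial.C (c : k) * (B * C₁) :
      k[X]) : PowerSeries k) =
      γ ^ 2 * (PowerSeries.X * PowerSeries.derivative k f - c • f) := by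
    have h1 : ((X * (derivative B * C₁ - B * derivative C₁) - Polynomial.C (c : k) * (B * C₁) :
        k[X]) : PowerSeries k) =
        PowerSeries.X * (PowerSeries.derivative k (B : PowerSeries k) * γ -
          (B : PowerSeries k) * PowerSeries.derivative k γ) -
          (c : PowerSeries k) * ((B : PowerSeries k) * γ) := by
      rw [hγdef, PowerSeries.derivative_coe, PowerSeries.derivative_coe, ← hcast]
      simp only [Polynomial.coe_sub, Polynomial.coe_mul, Polynomial.coe_X, Polynomial.coe_C]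
    rw [h1, hdB, hB]
    simp only [nsmul_eq_mul]
    ring
  have hZ' : PowerSeries.X * PowerSeries.derivative k f - c • f =
      (γ⁻¹) ^ 2 * ((X * (derivative B * C₁ - B * derivative C₁) -
        Polynomial.C (c : k) * (B * C₁) : k[X]) : PowerSeries k) := by
    rw [hZ, ← mul_assoc, ← mul_pow, hγi, one_pow, one_mul]
  rw [s36thin_X_pow_dvd_coe] at h ⊢
  rw [hZ]
  apply Dvd.dvd.mul_left
  apply s36thin_ps_dvd_succ
  rw [hZ']
  exact Dvd.dvd.mul_left h _

/-- **Residue of a derivative is zero, at `0`.**  `C = X^(c+1) C₁`, `C₁(0) ≠ 0`,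
`N = W C² − B' C + B C'`: `X^(2c+1) ∣ N → X^(2c+2) ∣ N`. -/
theorem s36thin_residue_at_zero (W B C₁ : k[X]) (hC₁ : C₁.coeff 0 ≠ 0) (c : ℕ)
    (h : (X : k[X]) ^ (2 * c + 1) ∣
      W * (X ^ (c + 1) * C₁) ^ 2 - derivative B * (X ^ (c + 1) * C₁)
        + B * derivative (X ^ (c + 1) * C₁)) :
    (X : k[X]) ^ (2 * c + 2) ∣
      W * (X ^ (c + 1) * C₁) ^ 2 - derivative B * (X ^ (c + 1) * C₁)
        + B * derivative (X ^ (c + 1) * C₁) := by
  set Z : k[X] := X * (derivative B * C₁ - B * derivative C₁) -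
    Polynomial.C ((c + 1 : ℕ) : k) * (B * C₁) with hZdef
  have hN : W * (X ^ (c + 1) * C₁) ^ 2 - derivative B * (X ^ (c + 1) * C₁)
        + B * derivative (X ^ (c + 1) * C₁) = X ^ (2 * c + 2) * (W * C₁ ^ 2) - X ^ c * Z := by
    rw [hZdef, derivative_mul, derivative_X_pow_succ, Nat.cast_succ]
    ring
  rw [hN] at h ⊢
  -- `X^(2c+1) ∣ X^c Z`
  have h1 : (X : k[X]) ^ (2 * c + 1) ∣ X ^ c * Z := by
    have h2 : (X : k[X]) ^ (2 * c + 1) ∣ X ^ (2 * c + 2) * (W * C₁ ^ 2) :=
      Dvd.dvd.mul_right (pow_dvd_pow _ (by omega)) _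
    have := dvd_sub h2 h
    simpa using this
  have h3 : (X : k[X]) ^ (c + 1) ∣ Z := by
    have e : 2 * c + 1 = c + (c + 1) := by ring
    rw [e, pow_add] at h1
    exact (mul_dvd_mul_iff_left (pow_ne_zero _ X_ne_zero)).1 h1
  have h4 : (X : k[X]) ^ (c + 1 + 1) ∣ Z := s36thin_Z_dvd_succ B C₁ hC₁ (c + 1) h3
  have h5 : (X : k[X]) ^ (2 * c + 2) ∣ X ^ c * Z := by
    have e : 2 * c + 2 = c + (c + 1 + 1) := by ring
    rw [e, pow_add]
    exact mul_dvd_mul_left _ h4
  exact dvd_sub (Dvd.dvd.mul_right (dvd_refl _) _) h5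

/-! ### Taylor shift -/

theorem s36thin_taylor_X_sub_C (a : k) : taylor a (X - C a : k[X]) = X := by
  rw [map_sub, taylor_X, taylor_C, add_sub_cancel_right]

theorem s36thin_taylor_derivative (a : k) (p : k[X]) :
    taylor a (derivative p) = derivative (taylor a p) := by
  rw [taylor_apply, taylor_apply, derivative_comp]
  simp

theorem s36thin_dvd_iff_taylor (a : k) (p : k[X]) (n : ℕ) :
    (X - C a : k[X]) ^ n ∣ p ↔ (X : k[X]) ^ n ∣ taylor a p := by
  have e : ∀ (r : k) (p : k[X]), taylorAlgHom r p = taylor r p := fun _ _ => rfl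
  constructor
  · intro h
    have := map_dvd (taylorAlgHom a) h
    rwa [map_pow, e, e, s36thin_taylor_X_sub_C] at this
  · intro h
    have := map_dvd (taylorAlgHom (-a)) h
    rw [map_pow, e, e, taylor_taylor, neg_add_cancel, taylor_zero,
      taylor_X, C_neg, ← sub_eq_add_neg] at this
    exact this

/-- **Residue of a derivative is zero.**  `c + 1 = rootMultiplicity a C`,
`N = W C² − B' C + B C'`:  `(X - a)^(2c+1) ∣ N → (X - a)^(2c+2) ∣ N`. -/
theorem s36thin_residue (W B C : k[X]) (hC : C ≠ 0) (a : k) (c : ℕ)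
    (hc : rootMultiplicity a C = c + 1)
    (h : (X - Polynomial.C a : k[X]) ^ (2 * c + 1) ∣
      W * C ^ 2 - derivative B * C + B * derivative C) :
    (X - Polynomial.C a : k[X]) ^ (2 * c + 2) ∣
      W * C ^ 2 - derivative B * C + B * derivative C := by
  obtain ⟨C₁, hC₁, hndvd⟩ := exists_eq_pow_rootMultiplicity_mul_and_not_dvd C hC a
  rw [hc] at hC₁
  have hC₁a : (taylor a C₁).coeff 0 ≠ 0 := by
    rw [taylor_coeff_zero]
    intro h0
    exact hndvd ((dvd_iff_isRoot).2 h0)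
  have hT : taylor a C = X ^ (c + 1) * taylor a C₁ := by
    conv_lhs => rw [hC₁]
    rw [taylor_mul, taylor_pow, s36thin_taylor_X_sub_C]
  have hN : taylor a (W * C ^ 2 - derivative B * C + B * derivative C) =
      taylor a W * (X ^ (c + 1) * taylor a C₁) ^ 2
        - derivative (taylor a B) * (X ^ (c + 1) * taylor a C₁)
        + taylor a B * derivative (X ^ (c + 1) * taylor a C₁) := by
    rw [map_add, map_sub, taylor_mul, taylor_mul, taylor_mul, taylor_pow,
      s36thin_taylor_derivative, s36thin_taylor_derivative, hT]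
  rw [s36thin_dvd_iff_taylor, hN] at h ⊢
  exact s36thin_residue_at_zero (taylor a W) (taylor a B) (taylor a C₁) hC₁a c h

/-! ### root multiplicities -/

theorem s36thin_rootMultiplicity_pow (p : k[X]) (hp : p ≠ 0) (a : k) (n : ℕ) :
    rootMultiplicity a (p ^ n) = n * rootMultiplicity a p := by
  induction n with
  | zero => simp
  | succ n ih =>
    rw [pow_succ, rootMultiplicity_mul (mul_ne_zero (pow_ne_zero n hp) hp), ih]
    ring

/-- `rm_a P + 6 rm_a N = rm_a G + 12 rm_a C`. -/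
theorem s36thin_rootMultiplicity_rel {P N G C : k[X]} (hP : P ≠ 0) (hG : G ≠ 0) (hC : C ≠ 0)
    (h : P * N ^ 6 = G * C ^ 12) (a : k) :
    rootMultiplicity a P + 6 * rootMultiplicity a N =
      rootMultiplicity a G + 12 * rootMultiplicity a C := by
  have hR : G * C ^ 12 ≠ 0 := mul_ne_zero hG (pow_ne_zero _ hC)
  have hL : P * N ^ 6 ≠ 0 := h ▸ hR
  have hN : N ≠ 0 := by
    rintro rfl
    simp at hL
  have := congrArg (rootMultiplicity a) h
  rwa [rootMultiplicity_mul hL, rootMultiplicity_mul hR, s36thin_rootMultiplicity_pow N hN,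
    s36thin_rootMultiplicity_pow C hC] at this

/-- `rm_a P ≡ rm_a G mod 6`. -/
theorem s36thin_six_dvd_add {P N G C : k[X]} (hP : P ≠ 0) (hG : G ≠ 0) (hC : C ≠ 0)
    (h : P * N ^ 6 = G * C ^ 12) (a : k) :
    6 ∣ rootMultiplicity a P + 5 * rootMultiplicity a G := by
  have := s36thin_rootMultiplicity_rel hP hG hC h a
  omega

/-- **Every zero of `P` off the zeros of `G` has order `≥ 12`.** -/
theorem s36thin_pow_twelve_dvd {P G W B C : k[X]} (hC : C ≠ 0)
    (h : P * (W * C ^ 2 - derivative B * C + B * derivative C) ^ 6 = G * C ^ 12)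
    (a : k) (hPa : P.eval a = 0) (hGa : G.eval a ≠ 0) :
    (X - Polynomial.C a : k[X]) ^ 12 ∣ P := by
  by_cases hP : P = 0
  · rw [hP]; exact dvd_zero _
  have hG : G ≠ 0 := by
    rintro rfl
    simp at hGa
  set N : k[X] := W * C ^ 2 - derivative B * C + B * derivative C with hNdef
  have hrel := s36thin_rootMultiplicity_rel hP hG hC h a
  have hGm : rootMultiplicity a G = 0 := rootMultiplicity_eq_zero hGa
  have hPm : 0 < rootMultiplicity a P := (rootMultiplicity_pos hP).2 hPa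
  rw [hGm, zero_add] at hrel
  have hN : N ≠ 0 := by
    intro hN0
    rw [hN0] at h
    have : G * C ^ 12 ≠ 0 := mul_ne_zero hG (pow_ne_zero _ hC)
    apply this
    rw [← h]
    simp
  -- `rm C ≥ 1`
  obtain ⟨c, hc⟩ : ∃ c, rootMultiplicity a C = c + 1 := by
    refine ⟨rootMultiplicity a C - 1, ?_⟩
    omega
  -- `rm N ≠ 2c + 1`
  have hne : rootMultiplicity a N ≠ 2 * c + 1 := by
    intro heq
    have h1 : (X - Polynomial.C a : k[X]) ^ (2 * c + 1) ∣ N := by
      rw [← heq]; exact pow_rootMultiplicity_dvd N a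
    have h2 := s36thin_residue W B C hC a c hc h1
    have h3 : 2 * c + 2 ≤ rootMultiplicity a N := (le_rootMultiplicity_iff hN).2 h2
    omega
  have h12 : 12 ≤ rootMultiplicity a P := by omega
  exact (pow_dvd_pow _ h12).trans (pow_rootMultiplicity_dvd P a)

/-! ### the `j`-line -/

section JLine

variable (q : ℕ)

/-- a zero `a ≠ 0, 1728` of `P` has order `≥ 12`. -/
theorem s36thin_j_generic {P B C : k[X]} (hC : C ≠ 0)
    (h : P * (X ^ (q - 1) * C ^ 2 - derivative B * C + B * derivative C) ^ 6 =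
      (X ^ 4 * (X - Polynomial.C (1728 : k)) ^ 3) ^ (q - 1) * C ^ 12)
    (a : k) (hPa : P.eval a = 0) (ha0 : a ≠ 0) (ha : a ≠ 1728) :
    (X - Polynomial.C a : k[X]) ^ 12 ∣ P := by
  refine s36thin_pow_twelve_dvd hC h a hPa ?_
  simp only [eval_pow, eval_mul, eval_X, eval_sub, eval_C]
  exact pow_ne_zero _ (mul_ne_zero (pow_ne_zero _ ha0) (pow_ne_zero _ (sub_ne_zero.2 ha)))

theorem s36thin_G_ne_zero :
    ((X ^ 4 * (X - Polynomial.C (1728 : k)) ^ 3) ^ (q - 1) : k[X]) ≠ 0 :=
  pow_ne_zero _ (mul_ne_zero (pow_ne_zero _ X_ne_zero) (pow_ne_zero _ (X_sub_C_ne_zero _)))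

theorem s36thin_rootMultiplicity_G_zero (h1728 : (1728 : k) ≠ 0) :
    rootMultiplicity (0 : k) ((X ^ 4 * (X - Polynomial.C (1728 : k)) ^ 3) ^ (q - 1) : k[X]) =
      (q - 1) * 4 := by
  have hX : (X : k[X]) = X - Polynomial.C (0 : k) := by simp
  have h0 : (X ^ 4 * (X - Polynomial.C (1728 : k)) ^ 3 : k[X]) ≠ 0 :=
    mul_ne_zero (pow_ne_zero _ X_ne_zero) (pow_ne_zero _ (X_sub_C_ne_zero _))
  rw [s36thin_rootMultiplicity_pow _ h0, rootMultiplicity_mul h0]
  congr 1
  have e1 : rootMultiplicity (0 : k) ((X : k[X]) ^ 4) = 4 := by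
    conv_lhs => rw [hX]
    exact rootMultiplicity_X_sub_C_pow 0 4
  have e2 : rootMultiplicity (0 : k) ((X - Polynomial.C (1728 : k)) ^ 3 : k[X]) = 0 := by
    apply rootMultiplicity_eq_zero
    simp only [IsRoot.def, eval_pow, eval_sub, eval_X, eval_C, zero_sub]
    exact pow_ne_zero _ (neg_ne_zero.2 h1728)
  rw [e1, e2]

theorem s36thin_rootMultiplicity_G_1728 (h1728 : (1728 : k) ≠ 0) :
    rootMultiplicity (1728 : k) ((X ^ 4 * (X - Polynomial.C (1728 : k)) ^ 3) ^ (q - 1) : k[X]) =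
      (q - 1) * 3 := by
  have h0 : (X ^ 4 * (X - Polynomial.C (1728 : k)) ^ 3 : k[X]) ≠ 0 :=
    mul_ne_zero (pow_ne_zero _ X_ne_zero) (pow_ne_zero _ (X_sub_C_ne_zero _))
  rw [s36thin_rootMultiplicity_pow _ h0, rootMultiplicity_mul h0]
  congr 1
  have e1 : rootMultiplicity (1728 : k) ((X : k[X]) ^ 4) = 0 := by
    apply rootMultiplicity_eq_zero
    simp only [IsRoot.def, eval_pow, eval_X]
    exact pow_ne_zero _ h1728
  have e2 : rootMultiplicity (1728 : k) ((X - Polynomial.C (1728 : k)) ^ 3 : k[X]) = 3 :=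
    rootMultiplicity_X_sub_C_pow _ 3
  rw [e1, e2]

/-- a zero of `P` at `0` has order `≥ 4` (`q` prime to `3`, `1728 ≠ 0` in `k`). -/
theorem s36thin_j_zero {P N C : k[X]} (hP : P ≠ 0) (hC : C ≠ 0)
    (h : P * N ^ 6 = (X ^ 4 * (X - Polynomial.C (1728 : k)) ^ 3) ^ (q - 1) * C ^ 12)
    (h1728 : (1728 : k) ≠ 0) (hq3 : ¬ 3 ∣ q) (hq0 : 0 < q) (hP0 : P.eval 0 = 0) :
    (X : k[X]) ^ 4 ∣ P := by
  have hrel := s36thin_rootMultiplicity_rel hP (s36thin_G_ne_zero q) hC h 0
  rw [s36thin_rootMultiplicity_G_zero q h1728] at hrel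
  have hPm : 0 < rootMultiplicity (0 : k) P := (rootMultiplicity_pos hP).2 hP0
  have h4 : 4 ≤ rootMultiplicity (0 : k) P := by omega
  have := (pow_dvd_pow (X - Polynomial.C (0 : k)) h4).trans (pow_rootMultiplicity_dvd P 0)
  simpa using this

/-- a zero of `P` at `1728` has order `≥ 6` (`q` odd, `1728 ≠ 0` in `k`). -/
theorem s36thin_j_1728 {P N C : k[X]} (hP : P ≠ 0) (hC : C ≠ 0)
    (h : P * N ^ 6 = (X ^ 4 * (X - Polynomial.C (1728 : k)) ^ 3) ^ (q - 1) * C ^ 12)
    (h1728 : (1728 : k) ≠ 0) (hq2 : ¬ 2 ∣ q) (hP0 : P.eval 1728 = 0) :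
    (X - Polynomial.C (1728 : k) : k[X]) ^ 6 ∣ P := by
  have hrel := s36thin_rootMultiplicity_rel hP (s36thin_G_ne_zero q) hC h 1728
  rw [s36thin_rootMultiplicity_G_1728 q h1728] at hrel
  have hPm : 0 < rootMultiplicity (1728 : k) P := (rootMultiplicity_pos hP).2 hP0
  have h6 : 6 ≤ rootMultiplicity (1728 : k) P := by omega
  exact (pow_dvd_pow _ h6).trans (pow_rootMultiplicity_dvd P 1728)

end JLine

/-! ### from identities in a field `K ∋ t` to the polynomial identity -/

/-- If `t ∈ K` is transcendental over `k`, `P(t) · H⁶ = G(t)` and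
`H · C(t)² = (W C² − B' C + B C')(t)`, then `P · N⁶ = G · C¹²` in `k[X]`. -/
theorem s36thin_poly_of_aeval {K : Type*} [Field K] [Algebra k K] {t : K}
    (ht : Transcendental k t) {P G W B C : k[X]} {H : K}
    (h1 : aeval t P * H ^ 6 = aeval t G)
    (h2 : H * aeval t C ^ 2 = aeval t (W * C ^ 2 - derivative B * C + B * derivative C)) :
    P * (W * C ^ 2 - derivative B * C + B * derivative C) ^ 6 = G * C ^ 12 := by
  have hinj : Function.Injective (aeval (R := k) t) := transcendental_iff_injective.1 ht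
  apply hinj
  rw [map_mul, map_pow, ← h2, map_mul, map_pow, ← h1]
  ring

end Fermat.Agent.S36
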