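import Fermat.Agent.S36.ThinSmall

/-!
# S36 / G-thin (T3′), identity form (helper80)

The statements of `ThinSmall.lean` with IDENTITY hypotheses in the ring `R` instead of the
explicit `q`-expansions of the Hauptmoduln:

* `s36ts_hord3_id` : `char k = 3`, `ι P = Δ̄ (Δ̄⁻¹)³`, `ι j = j̄`, `j h² = (h + 256)³`,
  `t² = h t + 16 h`, `P ∈ 𝔪` ⟹ `∃ s ∉ 𝔪, s P ∈ 𝔪¹²`;
* `s36ts_hord2_id` : `char k = 2`, `ι P = Δ̄ (Δ̄⁻¹)²`, `ι j = j̄`, `j h³ = (h + 27)(h + 243)³`,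
  `t³ = h (t² + 9 t + 27)`, `P ∈ 𝔪` ⟹ `∃ s ∉ 𝔪, s P ∈ 𝔪¹²`.
-/

set_option autoImplicit false

noncomputable section

namespace Fermat.Agent.S36

open ModularCurve Fermat.Agent.INJ Fermat.Agent.S28 Fermat.Agent.ES.I2

/-- **hord for `q = 3`, identity form.** -/
theorem s36ts_hord3_id (k : Type*) [Field k] [CharP k 3] {R : Type*} [CommRing R]
    (ι : R →+* LaurentSeries k) (hι : Function.Injective ι) (P j h t : R)
    (hP : ι P = deltaS k * deltaInvS k ^ 3) (hj : ι j = jqModC k)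
    (hjh : j * h ^ 2 = (h + 256) ^ 3) (hsq : t ^ 2 = h * t + 16 * h)
    (𝔪 : Ideal R) [𝔪.IsPrime] (hPm : P ∈ 𝔪) :
    ∃ s : R, s ∉ 𝔪 ∧ s * P ∈ 𝔪 ^ 12 := by
  have h3L : (3 : LaurentSeries k) = 0 := by
    rw [← map_ofNat (HahnSeries.C (Γ := ℤ) (R := k)) 3, s36ts_three_eq_zero k, map_zero]
  have h3 : (3 : R) = 0 := by
    apply hι
    rw [map_ofNat, map_zero, h3L]
  have h240 : (240 : k) = 0 := by
    have : (240 : k) = 3 * 80 := by norm_num
    rw [this, s36ts_three_eq_zero k, zero_mul]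
  have hPj : P = j ^ 2 := by
    apply hι
    rw [hP, map_pow, hj, s36ts_P_eq k h240 2]
  have hid : P * h ^ 4 * (t + 16) ^ 6 = (t + 32) ^ 12 := by
    have e1 : (h + 256 : R) = h + 64 := by linear_combination (64 : R) * h3
    have hr : (t + 16) * (h + 64) = (t + 32) ^ 2 := by linear_combination -hsq
    rw [e1] at hjh
    calc P * h ^ 4 * (t + 16) ^ 6 = (j * h ^ 2) ^ 2 * (t + 16) ^ 6 := by rw [hPj]; ring
      _ = ((t + 16) * (h + 64)) ^ 6 := by rw [hjh]; ring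
      _ = (t + 32) ^ 12 := by rw [hr]; ring
  have hne : (1 : R) ∉ 𝔪 := fun h1 =>
    (Ideal.ne_top_iff_one 𝔪).mp (Ideal.IsPrime.ne_top inferInstance) h1
  have ht32 : t + 32 ∈ 𝔪 := by
    have : (t + 32) ^ 12 ∈ 𝔪 := by
      rw [← hid, mul_assoc]
      exact 𝔪.mul_mem_right _ hPm
    exact Ideal.IsPrime.mem_of_pow_mem inferInstance 12 this
  have h2 : (2 : R) ∉ 𝔪 := by
    intro h2
    apply hne
    have : (1 : R) = 2 * 2 - 3 := by ring
    rw [this, h3, sub_zero]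
    exact 𝔪.mul_mem_left _ h2
  have ht16 : t + 16 ∉ 𝔪 := by
    intro h16
    apply h2
    have h16' : (16 : R) ∈ 𝔪 := by
      have := 𝔪.sub_mem ht32 h16
      have e : t + 32 - (t + 16) = 16 := by ring
      rwa [e] at this
    have e : (16 : R) = 2 ^ 4 := by norm_num
    rw [e] at h16'
    exact Ideal.IsPrime.mem_of_pow_mem inferInstance 4 h16'
  have hh' : h ∉ 𝔪 := by
    intro hhm
    apply h2
    have ht2 : t ^ 2 ∈ 𝔪 := by
      rw [hsq]
      exact 𝔪.add_mem (𝔪.mul_mem_right _ hhm) (𝔪.mul_mem_left _ hhm)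
    have htm : t ∈ 𝔪 := Ideal.IsPrime.mem_of_pow_mem inferInstance 2 ht2
    have h32 : (32 : R) ∈ 𝔪 := by
      have := 𝔪.sub_mem ht32 htm
      have e : t + 32 - t = 32 := by ring
      rwa [e] at this
    have e : (32 : R) = 2 ^ 5 := by norm_num
    rw [e] at h32
    exact Ideal.IsPrime.mem_of_pow_mem inferInstance 5 h32
  refine ⟨h ^ 4 * (t + 16) ^ 6, ?_, ?_⟩
  · intro hs
    rcases Ideal.IsPrime.mem_or_mem inferInstance hs with h1 | h1
    · exact hh' (Ideal.IsPrime.mem_of_pow_mem inferInstance 4 h1)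
    · exact ht16 (Ideal.IsPrime.mem_of_pow_mem inferInstance 6 h1)
  · have e : h ^ 4 * (t + 16) ^ 6 * P = (t + 32) ^ 12 := by rw [← hid]; ring
    rw [e]
    exact Ideal.pow_mem_pow ht32 12

/-- **hord for `q = 2`, identity form.** -/
theorem s36ts_hord2_id (k : Type*) [Field k] [CharP k 2] {R : Type*} [CommRing R]
    (ι : R →+* LaurentSeries k) (hι : Function.Injective ι) (P j h t : R)
    (hP : ι P = deltaS k * deltaInvS k ^ 2) (hj : ι j = jqModC k)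
    (hjh : j * h ^ 3 = (h + 27) * (h + 243) ^ 3)
    (hcube : t ^ 3 = h * (t ^ 2 + 9 * t + 27))
    (𝔪 : Ideal R) [𝔪.IsPrime] (hPm : P ∈ 𝔪) :
    ∃ s : R, s ∉ 𝔪 ∧ s * P ∈ 𝔪 ^ 12 := by
  have h2L : (2 : LaurentSeries k) = 0 := by
    rw [← map_ofNat (HahnSeries.C (Γ := ℤ) (R := k)) 2, s36ts_two_eq_zero k, map_zero]
  have h2 : (2 : R) = 0 := by
    apply hι
    rw [map_ofNat, map_zero, h2L]
  have h240 : (240 : k) = 0 := by
    have : (240 : k) = 2 * 120 := by norm_num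
    rw [this, s36ts_two_eq_zero k, zero_mul]
  have hPj : P = j := by
    apply hι
    rw [hP, hj, s36ts_P_eq k h240 1, pow_one]
  have hid : P * h ^ 3 * (t ^ 2 + 9 * t + 27) ^ 4 = (t + 9) ^ 12 := by
    have e1 : (h + 243 : R) = h + 27 := by linear_combination (108 : R) * h2
    have hr : (h + 27) * (t ^ 2 + 9 * t + 27) = (t + 9) ^ 3 := by linear_combination -hcube
    rw [e1] at hjh
    calc P * h ^ 3 * (t ^ 2 + 9 * t + 27) ^ 4
        = (j * h ^ 3) * (t ^ 2 + 9 * t + 27) ^ 4 := by rw [hPj]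
      _ = ((h + 27) * (t ^ 2 + 9 * t + 27)) ^ 4 := by rw [hjh]; ring
      _ = (t + 9) ^ 12 := by rw [hr]; ring
  have hne : (1 : R) ∉ 𝔪 := fun h1 =>
    (Ideal.ne_top_iff_one 𝔪).mp (Ideal.IsPrime.ne_top inferInstance) h1
  have ht9 : t + 9 ∈ 𝔪 := by
    have : (t + 9) ^ 12 ∈ 𝔪 := by
      rw [← hid, mul_assoc]
      exact 𝔪.mul_mem_right _ hPm
    exact Ideal.IsPrime.mem_of_pow_mem inferInstance 12 this
  have hq : t ^ 2 + 9 * t + 27 ∉ 𝔪 := by
    intro hqm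
    apply hne
    have e : (1 : R) = (t ^ 2 + 9 * t + 27) - (t + 9) * t - 13 * 2 := by ring
    rw [e, h2, mul_zero, sub_zero]
    exact 𝔪.sub_mem hqm (𝔪.mul_mem_right _ ht9)
  have hh' : h ∉ 𝔪 := by
    intro hhm
    apply hne
    have ht3 : t ^ 3 ∈ 𝔪 := by
      rw [hcube]
      exact 𝔪.mul_mem_right _ hhm
    have htm : t ∈ 𝔪 := Ideal.IsPrime.mem_of_pow_mem inferInstance 3 ht3
    have e : (1 : R) = (t + 9) - t - 4 * 2 := by ring
    rw [e, h2, mul_zero, sub_zero]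
    exact 𝔪.sub_mem ht9 htm
  refine ⟨h ^ 3 * (t ^ 2 + 9 * t + 27) ^ 4, ?_, ?_⟩
  · intro hs
    rcases Ideal.IsPrime.mem_or_mem inferInstance hs with h1 | h1
    · exact hh' (Ideal.IsPrime.mem_of_pow_mem inferInstance 3 h1)
    · exact hq (Ideal.IsPrime.mem_of_pow_mem inferInstance 4 h1)
  · have e : h ^ 3 * (t ^ 2 + 9 * t + 27) ^ 4 * P = (t + 9) ^ 12 := by rw [← hid]; ring
    rw [e]
    exact Ideal.pow_mem_pow ht9 12

end Fermat.Agent.S36
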