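import Fermat.Agent.S28.PrimeHypMain
import Fermat.Agent.S28.IntegralJd

/-!
# S36 / G-thin (T1), part 1: the integral relations of the modular unit

`u_q = Δ(Q^q)/Δ(Q)` (`S28.uS`), `u_q⁻¹ = Δ(Q)/Δ(Q^q)` (`S28.uInvS`), `q` prime.

* `s36tuW q hq : ℤ[Y][X]`, monic of `X`-degree `q + 1`, with
  `W(q¹² u_q, j) = 0` and `W(u_q⁻¹, j(Q^q)) = 0` over every commutative ring
  (`s36tuW_series`, `s36tuW_series'`).

So `U = q¹² u_q` is integral over `ℤ[j]` and `V = u_q⁻¹` is integral over `ℤ[j(Q^q)]`, hence over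
`ℤ[j]` (modular equation).  Source: the relations of `S28/ModUnit.lean` over `ℂ`, rescaled by
`q¹²` and descended to `ℤ` (`S28.exists_descent`).
-/

set_option autoImplicit false

noncomputable section

namespace Fermat.Agent.S36

open ModularCurve Polynomial Fermat.Agent.S28

/-- The rescaled relations of the modular unit over `ℂ`. -/
theorem s36tu_unit_complex (q : ℕ) [NeZero q] (hq : q.Prime) :
    ∃ W : Polynomial (Polynomial ℂ), W.Monic ∧ W.natDegree = q + 1 ∧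
      W.eval₂ (Polynomial.aeval (R := ℂ) (jqModC ℂ)).toRingHom
        (HahnSeries.C ((q : ℂ) ^ 12) * uS ℂ q) = 0 ∧
      W.eval₂ (Polynomial.aeval (R := ℂ) (qExpand ℂ q (jqModC ℂ))).toRingHom (uInvS ℂ q) = 0 := by
  obtain ⟨U, hm, hd, h1, h2⟩ := unitHyp_complex q hq
  have hq0 : (q : ℂ) ≠ 0 := Nat.cast_ne_zero.mpr hq.ne_zero
  have hC : ∀ (y : LaurentSeries ℂ) (c : ℂ),
      (Polynomial.aeval (R := ℂ) y).toRingHom (Polynomial.C c) = HahnSeries.C c := by
    intro y c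
    simp only [AlgHom.toRingHom_eq_coe, RingHom.coe_coe, aeval_C]
    rw [algebraMap_eq_hahnC']
  refine ⟨Polynomial.scaleRoots U (Polynomial.C ((q : ℂ) ^ 12)),
    (Polynomial.monic_scaleRoots_iff _).mpr hm, by rw [Polynomial.natDegree_scaleRoots, hd], ?_, ?_⟩
  · have h := Polynomial.scaleRoots_eval₂_mul (p := U)
      (Polynomial.aeval (R := ℂ) (jqModC ℂ)).toRingHom (uS ℂ q) (Polynomial.C ((q : ℂ) ^ 12))
    rw [hC, h1, mul_zero] at h
    exact h
  · have h := Polynomial.scaleRoots_eval₂_mul (p := U)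
      (Polynomial.aeval (R := ℂ) (qExpand ℂ q (jqModC ℂ))).toRingHom
      (HahnSeries.C (((q : ℂ)⁻¹) ^ 12) * uInvS ℂ q) (Polynomial.C ((q : ℂ) ^ 12))
    rw [hC, h2, mul_zero, ← mul_assoc, ← map_mul, inv_pow,
      mul_inv_cancel₀ (pow_ne_zero _ hq0), map_one, one_mul] at h
    exact h

/-- **The integral relations of the modular unit**: a monic `W ∈ ℤ[Y][X]` of `X`-degree `q + 1`
with `W(q¹² u_q, j) = 0` and `W(u_q⁻¹, j(Q^q)) = 0` in `ℤ((Q))`. -/
theorem s36tu_unit_int (q : ℕ) [NeZero q] (hq : q.Prime) :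
    ∃ W : Polynomial (Polynomial ℤ), W.Monic ∧ W.natDegree = q + 1 ∧
      W.eval₂ (Polynomial.aeval (R := ℤ) (jqModC ℤ)).toRingHom
        (HahnSeries.C ((q : ℤ) ^ 12) * uS ℤ q) = 0 ∧
      W.eval₂ (Polynomial.aeval (R := ℤ) (qExpand ℤ q (jqModC ℤ))).toRingHom (uInvS ℤ q) = 0 := by
  obtain ⟨W, hm, hd, h1, h2⟩ := s36tu_unit_complex q hq
  obtain ⟨hlow, hunit⟩ := jqModC_lowest ℤ
  have hjι : coeffMap (Int.castRingHom ℂ) (jqModC ℤ) = jqModC ℂ := coeffMap_jqModC _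
  have huι : coeffMap (Int.castRingHom ℂ) (HahnSeries.C ((q : ℤ) ^ 12) * uS ℤ q) =
      HahnSeries.C ((q : ℂ) ^ 12) * uS ℂ q := by
    rw [map_mul, coeffMap_hahnC, coeffMap_uS, map_pow, map_natCast]
  have hu'ι : coeffMap (Int.castRingHom ℂ) (uInvS ℤ q) = uInvS ℂ q := coeffMap_uInvS q _
  have hu' : coeffMap (Int.castRingHom ℂ) (uInvS ℤ q) ≠ 0 := by
    rw [hu'ι]; exact uInvS_ne_zero q ℂ
  have hcop : IsCoprime (coeffMap (Int.castRingHom ℂ) (uInvS ℤ q)).order (q : ℤ) := by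
    rw [hu'ι, order_uInvS]; exact isCoprime_one_sub_natCast q
  obtain ⟨W', hW'm, hW'd, -, hr1, hr2⟩ :=
    exists_descent (Int.castRingHom ℂ) Int.cast_injective hq.two_le (j := jqModC ℤ)
      (u := HahnSeries.C ((q : ℤ) ^ 12) * uS ℤ q) (u' := uInvS ℤ q) (by norm_num) hlow hunit
      hu' hcop hm hd (by rw [huι, hjι]; exact h1) (by rw [hu'ι, hjι]; exact h2)
  exact ⟨W', hW'm, hW'd, hr1, hr2⟩

/-- The integral polynomial of the modular unit of prime level `q`: `W ∈ ℤ[Y][X]`. -/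
def s36tuW (q : ℕ) [NeZero q] (hq : q.Prime) : Polynomial (Polynomial ℤ) :=
  Classical.choose (s36tu_unit_int q hq)

variable (q : ℕ) [NeZero q] (hq : q.Prime)

theorem s36tuW_monic : (s36tuW q hq).Monic :=
  (Classical.choose_spec (s36tu_unit_int q hq)).1

theorem s36tuW_natDegree : (s36tuW q hq).natDegree = q + 1 :=
  (Classical.choose_spec (s36tu_unit_int q hq)).2.1

theorem s36tu_aeval_eq_evalInt (x : LaurentSeries ℤ) :
    (Polynomial.aeval (R := ℤ) x).toRingHom = evalInt x := by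
  rw [ringHom_eq_evalInt (Polynomial.aeval (R := ℤ) x).toRingHom]
  congr 1
  simp

/-- `W(q¹² u_q, j) = 0` over every commutative ring. -/
theorem s36tuW_series (R : Type*) [CommRing R] :
    (s36tuW q hq).eval₂ (evalInt (jqModC R)) (HahnSeries.C ((q : R) ^ 12) * uS R q) = 0 := by
  have h : (s36tuW q hq).eval₂ (Polynomial.aeval (R := ℤ) (jqModC ℤ)).toRingHom
      (HahnSeries.C ((q : ℤ) ^ 12) * uS ℤ q) = 0 :=
    (Classical.choose_spec (s36tu_unit_int q hq)).2.2.1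
  rw [s36tu_aeval_eq_evalInt] at h
  have h2 := congrArg (coeffMap (Int.castRingHom R)) h
  rw [map_eval₂_evalInt, map_zero, map_mul, coeffMap_hahnC, coeffMap_uS, coeffMap_jqModC,
    map_pow, map_natCast] at h2
  exact h2

/-- `W(u_q⁻¹, j(Q^q)) = 0` over every commutative ring. -/
theorem s36tuW_series' (R : Type*) [CommRing R] :
    (s36tuW q hq).eval₂ (evalInt (qExpand R q (jqModC R))) (uInvS R q) = 0 := by
  have h : (s36tuW q hq).eval₂ (Polynomial.aeval (R := ℤ) (qExpand ℤ q (jqModC ℤ))).toRingHom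
      (uInvS ℤ q) = 0 :=
    (Classical.choose_spec (s36tu_unit_int q hq)).2.2.2
  rw [s36tu_aeval_eq_evalInt] at h
  have h2 := congrArg (coeffMap (Int.castRingHom R)) h
  rw [map_eval₂_evalInt, map_zero, coeffMap_uInvS, coeffMap_qExpand, coeffMap_jqModC] at h2
  exact h2

end Fermat.Agent.S36
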