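import Fermat.Agent.S36.DescentTop
import Fermat.Agent.S36.AuxLevelAll

/-!
# S36 geometry (G36-K): the top-level wiring (deputy helper58)

`StmtCarayolKummer` (the ONLY open input of S36, `S36/Glue.lean`) from two Props:

* `StmtNormSquares`  (piece G-desc-N) : the norm squares `K₀ ↔ ℚ̄`;
* `StmtCarayolSmall` (piece G-top)    : (G36-K) over the small field `E₀ = ℚ̄^I` at the RIGID
  levels (`S36Rigid M q`: `q ∤ M`, `4 ∣ M` for `q` odd, `9 ∣ M` for `q = 2`), in the form
  `StmtCarayolSmallAt` of `S36/PlanGeo.lean`.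

`stmtCarayolKummer_of : StmtNormSquares → StmtCarayolSmall → StmtCarayolKummer`
(G-aux = `s36aux_kummer_of_rigid`, helper52; G-desc = `s36_kummerAt_of_small`, helper58).
-/

set_option autoImplicit false
set_option linter.unusedSectionVars false
set_option linter.style.haveILetI false

noncomputable section

open ModularCurve AlgebraicCurve Fermat.Agent.INJ Fermat.Agent.UNIP Fermat.Agent.STB
open Fermat.Agent.ES Fermat.Agent.ES.G2

namespace Fermat.Agent.S36

/-- the rigid levels: `q ∤ M`, and `X₀(M)` has no elliptic points (`4 ∣ M` for `q` odd,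
`9 ∣ M` for `q = 2`) -/
def S36Rigid (M q : ℕ) : Prop := ¬ q ∣ M ∧ (q ≠ 2 → 4 ∣ M) ∧ (q = 2 → 9 ∣ M)

/-- **G-desc-N**: the norm squares `K₀ ↔ ℚ̄`. -/
def StmtNormSquares : Prop :=
  ∀ (M q : ℕ) [NeZero M] [NeZero q], q.Prime → ¬ q ∣ M →
    ∀ K₀ : IntermediateField ℚ NfQb, S36NormSquares M q K₀

/-- **G-top**: (G36-K) over the small field at the rigid levels. -/
def StmtCarayolSmall : Prop :=
  ∀ (M q p : ℕ) [NeZero M] [NeZero q], q.Prime → p.Prime → p ≠ q → p ≠ 2 → S36Rigid M q →
    ∀ A : ValuationSubring Qb, A.LiesOverPrime q → StmtCarayolSmallAt M q p A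

theorem s36_kummerAt_congr {M₁ M₂ : ℕ} [NeZero M₁] [NeZero M₂] (q p : ℕ) [NeZero q]
    (e : M₁ = M₂) (h : StmtCarayolKummerAt M₁ q p) : StmtCarayolKummerAt M₂ q p := by
  subst e
  exact h

/-- **the wiring of the geometry of S36** -/
theorem stmtCarayolKummer_of (hns : StmtNormSquares) (hsmall : StmtCarayolSmall) :
    StmtCarayolKummer := by
  apply s36aux_kummer_of_rigid
  intro M₁ q p _ _ hq hp hpq hp2 hqM₁ hq2 h4 h9
  obtain ⟨M, hM⟩ := hqM₁
  have hM0 : M ≠ 0 := by
    rintro rfl
    exact NeZero.ne M₁ (by rw [hM, mul_zero])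
  haveI : NeZero M := ⟨hM0⟩
  have hqM : ¬ q ∣ M := by
    rintro ⟨k, rfl⟩
    apply hq2
    rw [hM]
    exact ⟨k, by ring⟩
  have e : M * q = M₁ := by rw [hM, mul_comm]
  have hrig : S36Rigid M q := by
    refine ⟨hqM, fun h2 => ?_, fun h2 => ?_⟩
    · have h := h4 h2
      rw [hM] at h
      have hodd : Nat.Coprime 4 q := by
        have : Nat.Coprime 2 q := by
          rw [Nat.coprime_primes Nat.prime_two hq]
          exact fun h => h2 h.symm
        exact Nat.Coprime.pow_left 2 this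
      exact hodd.dvd_of_dvd_mul_left h
    · have h := h9 h2
      rw [hM, h2] at h
      exact (by decide : Nat.Coprime 9 2).dvd_of_dvd_mul_left h
  refine s36_kummerAt_congr q p e ?_
  exact s36_kummerAt_of_small M q p hq hp.ne_zero
    (fun A _ => hns M q hq hqM (beta0Field A))
    (fun A hA => hsmall M q p hq hp hpq hp2 hrig A hA)

end Fermat.Agent.S36
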