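/-
S36 (Carayol at `q² ∥ M`), geometric clause, piece G-topA (helper84): THE ABSTRACT CHAIN.

`s36ta_main` : in the chart setting of `aq_main` (three vertical valuations `V ca, V cb, V cc` of
`F`, level `q² M'`), with the norm packages `NgDir` of the two degeneracy maps `α, β : F₁ → F`,
integer orders at the vertical valuations with the four norm–order formulas, and the per-point
input `S36PtInput` at every closed point of both charts:

  `u ≠ 0`, `Hor u` (`m = p ^ r` divides the horizontal orders of `u`),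
  `N_α u = const · f₁ ^ m`, `N_β u = const · f₂ ^ m`
      ⇒  `u ^ ((q + 1) * ((q - 1) * ((q - 1) * (q + 1)))) = const · h ^ m`.

Chain: `ng_vertical` (vertical orders of `u ^ (q+1)` are those of a constant modulo `m`) →
weak approximation `aqw_weakApprox` (`y₁ := u ^ (q+1) · π ^ (-k) · H ^ (-m)` is a unit at the
three valuations; its norms are `m`-th powers because the units of `A₀` are) → `ng_toric_pow`
(`Y₁ := y₁ ^ (q-1)` is toric) → `s36ng_trivial_gluing` (`Y := Y₁ ^ ((q-1)(q+1))` has trivial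
gluing at the triple points) → `aq_main`.
-/
import Fermat.Agent.S36.TopAbsDef
import Fermat.Agent.S36.AbstractQ2

set_option autoImplicit false
set_option linter.unusedSectionVars false
set_option linter.unusedVariables false
set_option linter.style.haveILetI false

namespace Fermat.Agent.S36

open Polynomial IntermediateField Fermat.Agent.INJ Fermat.Agent.UNIP Fermat.Agent.STB

section Ord

variable {F : Type*} [Field F]

/-- an additive order function vanishes at `1` -/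
theorem s36ta_ord_one {w : F → ℤ} (hw : ∀ x y : F, x ≠ 0 → y ≠ 0 → w (x * y) = w x + w y) :
    w 1 = 0 := by
  have := hw 1 1 one_ne_zero one_ne_zero
  rw [mul_one] at this
  linarith

theorem s36ta_ord_inv {w : F → ℤ} (hw : ∀ x y : F, x ≠ 0 → y ≠ 0 → w (x * y) = w x + w y)
    {x : F} (hx : x ≠ 0) : w x⁻¹ = -w x := by
  have := hw x x⁻¹ hx (inv_ne_zero hx)
  rw [mul_inv_cancel₀ hx, s36ta_ord_one hw] at this
  linarith

theorem s36ta_ord_pow {w : F → ℤ} (hw : ∀ x y : F, x ≠ 0 → y ≠ 0 → w (x * y) = w x + w y)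
    {x : F} (hx : x ≠ 0) (n : ℕ) : w (x ^ n) = n * w x := by
  induction n with
  | zero => simp [s36ta_ord_one hw]
  | succ n ih =>
    rw [pow_succ, hw _ _ (pow_ne_zero n hx) hx, ih]
    push_cast
    ring

theorem s36ta_ord_zpow {w : F → ℤ} (hw : ∀ x y : F, x ≠ 0 → y ≠ 0 → w (x * y) = w x + w y)
    {x : F} (hx : x ≠ 0) (n : ℤ) : w (x ^ n) = n * w x := by
  rcases n with n | n
  · simp only [Int.ofNat_eq_natCast, zpow_natCast]
    exact s36ta_ord_pow hw hx n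
  · rw [zpow_negSucc, s36ta_ord_inv hw (pow_ne_zero _ hx), s36ta_ord_pow hw hx]
    push_cast
    simp only [Int.negSucc_eq]
    ring

theorem s36ta_ord_div {w : F → ℤ} (hw : ∀ x y : F, x ≠ 0 → y ≠ 0 → w (x * y) = w x + w y)
    {x y : F} (hx : x ≠ 0) (hy : y ≠ 0) : w (x / y) = w x - w y := by
  rw [div_eq_mul_inv, hw _ _ hx (inv_ne_zero hy), s36ta_ord_inv hw hy]
  ring

end Ord

section Const

variable {A₀ E : Type*} [CommRing A₀] [IsDomain A₀] [IsDiscreteValuationRing A₀]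
  [Field E] [Algebra A₀ E] [IsFractionRing A₀ E]

/-- units of `A₀` are `p ^ r`-th powers if they are `p`-th powers -/
theorem s36ta_unit_pow {p : ℕ} (hp : 0 < p)
    (hunit : ∀ a : A₀, IsUnit a → ∃ d : A₀, d ^ p = a) (r : ℕ) :
    ∀ a : A₀, IsUnit a → ∃ d : A₀, d ^ (p ^ r) = a := by
  induction r with
  | zero => exact fun a _ => ⟨a, by simp⟩
  | succ r ih =>
    intro a ha
    obtain ⟨d, hd⟩ := hunit a ha
    have hdu : IsUnit d := by
      have : IsUnit (d ^ p) := hd ▸ ha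
      exact (isUnit_pow_iff hp.ne').mp this
    obtain ⟨d', hd'⟩ := ih d hdu
    exact ⟨d', by rw [pow_succ, pow_mul, hd', hd]⟩

/-- **constants**: an element of `E^×` whose `π`-order (measured by an additive `w` with
`w π = 1`, `w (unit) = 0`) is divisible by `m` is an `m`-th power, if the units of `A₀` are. -/
theorem s36ta_const_pow {π : A₀} (hπ : Irreducible π) {m : ℕ} (hm : 0 < m)
    (hunit : ∀ a : A₀, IsUnit a → ∃ d : A₀, d ^ m = a)
    (w : E → ℤ) (hw : ∀ x y : E, x ≠ 0 → y ≠ 0 → w (x * y) = w x + w y)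
    (hwπ : w (algebraMap A₀ E π) = 1) (hwu : ∀ a : A₀, IsUnit a → w (algebraMap A₀ E a) = 0)
    {e : E} (he : e ≠ 0) (hdvd : (m : ℤ) ∣ w e) : ∃ d : E, d ^ m = e := by
  obtain ⟨n, υ, rfl⟩ :=
    IsDiscreteValuationRing.exists_units_eq_smul_zpow_of_irreducible (K := E) hπ he
  have hπ0 : algebraMap A₀ E π ≠ 0 :=
    (map_ne_zero_iff _ (IsFractionRing.injective A₀ E)).mpr hπ.ne_zero
  have hυ0 : algebraMap A₀ E (υ : A₀) ≠ 0 :=
    (map_ne_zero_iff _ (IsFractionRing.injective A₀ E)).mpr υ.ne_zero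
  have e1 : υ • algebraMap A₀ E π ^ n = algebraMap A₀ E (υ : A₀) * algebraMap A₀ E π ^ n := by
    rw [Units.smul_def, Algebra.smul_def]
  rw [e1] at hdvd ⊢
  rw [hw _ _ hυ0 (zpow_ne_zero n hπ0), hwu _ υ.isUnit, zero_add, s36ta_ord_zpow hw hπ0, hwπ,
    mul_one] at hdvd
  obtain ⟨j, rfl⟩ := hdvd
  obtain ⟨d, hd⟩ := hunit _ υ.isUnit
  refine ⟨algebraMap A₀ E d * algebraMap A₀ E π ^ j, ?_⟩
  rw [mul_pow, ← map_pow, hd, ← zpow_natCast, ← zpow_mul, mul_comm j]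

end Const

section Point

universe uF

variable {F₁ : Type*} {F : Type uF} [Field F₁] [Field F] {κ : Type*}

/-- a nonunit of `V ⊇ O` lying in `O` is killed by the residue map of `O` -/
theorem s36ta_ngPt (O : Subring F) [IsLocalRing O] (V : ValuationSubring F)
    (hOV : ∀ x ∈ O, x ∈ V) : NgPt V O (IsLocalRing.residue O) where
  le := hOV
  ev_eq_zero := fun x hx => by
    rw [IsLocalRing.residue_eq_zero_iff]
    exact aq_trace_le O V (fun y hy => hOV y hy) ((aq_mem_trace O V _ x).mpr hx)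

/-- **The point data from the per-point input.**  `Y₁` a unit at the three valuations with
`Hor Y₁`, toric with roots `ta, tb, tc`; `Hloc` = the local part of `s36ng_trivial_gluing` at the
point; `T` the roots of `Y₁ ^ c`.  Then `AqPointData` holds for `Y₁ ^ c`. -/
theorem s36ta_pointData (Hor : F → Prop) {m : ℕ} (hm : 0 < m) (α β : F₁ →+* F)
    (Nα Nβ : F →* F₁) (ζ₁ : F₁) (V : κ → ValuationSubring F) (ca cb cc : κ)
    (hκ : ∀ c, c = ca ∨ c = cb ∨ c = cc) (hab : ca ≠ cb) (hac : ca ≠ cc) (hbc : cb ≠ cc)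
    (O : Subring F) [IsLocalRing O] (thr : κ → Prop)
    (hOV : ∀ c, thr c → ∀ x ∈ O, x ∈ V c)
    (P : S36PtInput Hor m α β Nα Nβ ζ₁ V ca cb cc O thr)
    {Y₁ ta tb tc : F} (c : ℕ) (hY₁u : ∀ c', (V c').valuation Y₁ = 1) (hHorY₁ : Hor Y₁)
    (hHorY : Hor (Y₁ ^ c))
    (hta : NgC (V ca) Y₁ (ta ^ m)) (htb : NgC (V cb) Y₁ (tb ^ m)) (htc : NgC (V cc) Y₁ (tc ^ m))
    (z : O) (hz : (z : F) = α ζ₁) (T : κ → F) {Ta Tb Tc : F}
    (hTa : T ca = Ta) (hTb : T cb = Tb) (hTc : T cc = Tc)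
    (htoric : ∀ c', NgC (V c') (Y₁ ^ c) (T c' ^ m))
    (Hloc : ∀ (Oα Oβ : Subring F₁) (K : Type uF) [CommRing K] (ev : O →+* K),
      NgPt (V ca) O ev → NgPt (V cb) O ev → NgPt (V cc) O ev →
      NgLoc α Nα (V ca) (V cc) m ζ₁ O Oα → NgLoc β Nβ (V cb) (V cc) m ζ₁ O Oβ →
      ∀ ε γ : F, ε ∈ O → ε⁻¹ ∈ O → Y₁ = ε * γ ^ m →
      ∀ z aa ab ac : O, (z : F) = α ζ₁ → IsUnit aa → IsUnit ab → IsUnit ac →
        NgC (V ca) (aa : F) (ta / γ) → NgC (V cb) (ab : F) (tb / γ) →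
        NgC (V cc) (ac : F) (tc / γ) →
        ∃ ba bb bc : O, IsUnit ba ∧ IsUnit bb ∧ IsUnit bc ∧
          NgC (V ca) (ba : F) (Ta / γ ^ c) ∧ NgC (V cb) (bb : F) (Tb / γ ^ c) ∧
          NgC (V cc) (bc : F) (Tc / γ ^ c) ∧ ev ba = ev bc ∧ ev bb = ev bc) :
    AqPointData O thr V m (Y₁ ^ c) T := by
  classical
  subst hTa hTb hTc
  have hY₁0 : Y₁ ≠ 0 := ng_ne_zero_of_val (hY₁u ca)
  rcases P.inc with ⟨c₁, hc₁, honly⟩ | ⟨ha, hb, hc, ⟨Oα, Lα⟩, ⟨Oβ, Lβ⟩, K, hcond⟩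
  · exact aq_pointData_one O thr V c₁ hc₁ honly (hOV c₁ hc₁) (P.res c₁ hc₁) hm T (htoric c₁)
      (P.fac (Y₁ ^ c) (pow_ne_zero c hY₁0) hHorY (fun c' _ => ng_val_pow (hY₁u c') c))
  · obtain ⟨γ, ε, hε, hY₁⟩ := P.fac Y₁ hY₁0 hHorY₁ (fun c' _ => hY₁u c')
    -- the branch units of `Y₁`
    have hbranch : ∀ c' (t : F), thr c' → NgC (V c') Y₁ (t ^ m) →
        ∃ a : O, IsUnit a ∧ NgC (V c') (a : F) (t / γ) := by
      intro c' t hc' ht
      obtain ⟨a, ha, hat, hva⟩ := stb_branch_unit O (V c') (hOV c' hc') (P.res c' hc') hm ε hε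
        hY₁ ht
      have hvt : (V c').valuation (t / γ) = 1 := stb_val_of_sub (V c') hva hat
      refine ⟨a, ha, NgC.of_sub hvt ?_⟩
      have := (V c').nonunits.neg_mem hat
      rwa [neg_sub] at this
    obtain ⟨aa, haa, hata⟩ := hbranch ca ta ha hta
    obtain ⟨ab, hab', hatb⟩ := hbranch cb tb hb htb
    obtain ⟨ac, hac', hatc⟩ := hbranch cc tc hc htc
    obtain ⟨ba, bb, bc, -, -, -, hNa, hNb, hNc, e1, e2⟩ :=
      Hloc Oα Oβ (IsLocalRing.ResidueField O) (IsLocalRing.residue O)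
        (s36ta_ngPt O (V ca) (hOV ca ha)) (s36ta_ngPt O (V cb) (hOV cb hb))
        (s36ta_ngPt O (V cc) (hOV cc hc)) Lα Lβ (ε : F) γ ε.2 (ng_inv_mem_of_isUnit hε) hY₁
        z aa ab ac hz haa hab' hac' hata hatb hatc
    refine ⟨γ ^ c, ε ^ c, hε.pow c, ?_,
      fun c' => if c' = ca then ba else if c' = cb then bb else bc, ?_, ?_, K, hcond⟩
    · rw [hY₁]
      push_cast
      ring
    · intro c' hc'
      have key : ∀ (b : O) (t : F), NgC (V c') (b : F) (t / γ ^ c) →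
          (b : F) * γ ^ c / t - 1 ∈ (V c').nonunits := by
        intro b t h
        have e : (b : F) * γ ^ c / t = (b : F) / (t / γ ^ c) := by
          rw [div_div_eq_mul_div]
        rw [e]
        exact h
      rcases hκ c' with rfl | rfl | rfl
      · simp only [if_true]
        exact key ba _ hNa
      · simp only [if_neg hab.symm, if_true]
        exact key bb _ hNb
      · simp only [if_neg hac.symm, if_neg hbc.symm]
        exact key bc _ hNc
    · intro c' c'' _ _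
      have hres : ∀ c₀ : κ, IsLocalRing.residue O
          (if c₀ = ca then ba else if c₀ = cb then bb else bc) = IsLocalRing.residue O bc := by
        intro c₀
        by_cases h1 : c₀ = ca
        · simp only [if_pos h1]; exact e1
        · by_cases h2 : c₀ = cb
          · simp only [if_neg h1, if_pos h2]; exact e2
          · simp only [if_neg h1, if_neg h2]
      rw [← IsLocalRing.residue_eq_zero_iff, map_sub, hres c', hres c'', sub_self]

end Point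

section Main

universe uF

variable {A₀ E : Type*} {F : Type uF} {F₁ : Type*}
  [CommRing A₀] [IsDomain A₀] [IsDiscreteValuationRing A₀]
  [Field E] [Algebra A₀ E] [IsFractionRing A₀ E] [CharZero E]
  [Field F] [Algebra E F] [Algebra A₀ F] [IsScalarTower A₀ E F]
  [Field F₁] [Algebra E F₁]
  {π : A₀} {κ : Type*}

/-- the constants lie in every local ring `atO π t i` -/
theorem s36ta_algebraMap_mem_atO (t : F) (i : AtPt (F := F) π t ⊕ AtPt (F := F) π t⁻¹)
    (d : A₀) : algebraMap A₀ F d ∈ atO π t i := by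
  have hmem : ∀ (u : F) (𝔫 : AtPt (F := F) π u), algebraMap A₀ F d ∈ atLoc 𝔫 := by
    intro u 𝔫
    haveI := 𝔫.2.1.isPrime
    exact ls_algebraMap_mem 𝔫.1
      (algebraMap A₀ ↥(zchClosure (A₀ := A₀) ({u} : Set F)) d)
  rcases i with 𝔫 | 𝔫
  · exact hmem t 𝔫
  · exact hmem t⁻¹ 𝔫

/-- the norm of an inverse -/
theorem s36ta_norm_inv (N : F →* F₁) {x : F} (hx : x ≠ 0) : N x⁻¹ = (N x)⁻¹ := by
  have h1 : N x * N x⁻¹ = 1 := by rw [← map_mul, mul_inv_cancel₀ hx, map_one]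
  exact eq_inv_of_mul_eq_one_right h1

/-- the order of a unit of `A₀` at a valuation ring containing `A₀` is `0` -/
theorem s36ta_val_unit (W : ValuationSubring F) (hAW : ∀ a : A₀, algebraMap A₀ F a ∈ W)
    {a : A₀} (ha : IsUnit a) : W.valuation (algebraMap A₀ F a) = 1 := by
  obtain ⟨b, hb⟩ := ha.exists_right_inv
  have hab : algebraMap A₀ F a * algebraMap A₀ F b = 1 := by
    rw [← map_mul, hb, map_one]
  have h0 : algebraMap A₀ F a ≠ 0 := left_ne_zero_of_mul_eq_one hab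
  have hinv : (algebraMap A₀ F a)⁻¹ = algebraMap A₀ F b := (eq_inv_of_mul_eq_one_right hab).symm
  have h1 : W.valuation (algebraMap A₀ F a) ≤ 1 := (W.valuation_le_one_iff _).2 (hAW a)
  have h2 : W.valuation (algebraMap A₀ F a)⁻¹ ≤ 1 := by
    rw [hinv]
    exact (W.valuation_le_one_iff _).2 (hAW b)
  rw [map_inv₀] at h2
  have hv0 : W.valuation (algebraMap A₀ F a) ≠ 0 := (W.valuation.ne_zero_iff).2 h0
  exact le_antisymm h1 ((inv_le_one₀ (zero_lt_iff.2 hv0)).1 h2)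

/-- two additive order functions on `E^×` with the same values at `π` and at the units of `A₀`
agree -/
theorem s36ta_const_ord_eq (hπ : Irreducible π) (w w' : E → ℤ)
    (hw : ∀ x y : E, x ≠ 0 → y ≠ 0 → w (x * y) = w x + w y)
    (hw' : ∀ x y : E, x ≠ 0 → y ≠ 0 → w' (x * y) = w' x + w' y)
    (h1 : w (algebraMap A₀ E π) = w' (algebraMap A₀ E π))
    (h2 : ∀ a : A₀, IsUnit a → w (algebraMap A₀ E a) = w' (algebraMap A₀ E a))
    {e : E} (he : e ≠ 0) : w e = w' e := by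
  obtain ⟨n, υ, rfl⟩ :=
    IsDiscreteValuationRing.exists_units_eq_smul_zpow_of_irreducible (K := E) hπ he
  have hπ0 : algebraMap A₀ E π ≠ 0 :=
    (map_ne_zero_iff _ (IsFractionRing.injective A₀ E)).mpr hπ.ne_zero
  have hυ0 : algebraMap A₀ E (υ : A₀) ≠ 0 :=
    (map_ne_zero_iff _ (IsFractionRing.injective A₀ E)).mpr υ.ne_zero
  have e1 : υ • algebraMap A₀ E π ^ n = algebraMap A₀ E (υ : A₀) * algebraMap A₀ E π ^ n := by
    rw [Units.smul_def, Algebra.smul_def]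
  rw [e1, hw _ _ hυ0 (zpow_ne_zero n hπ0), hw' _ _ hυ0 (zpow_ne_zero n hπ0),
    s36ta_ord_zpow hw hπ0, s36ta_ord_zpow hw' hπ0, h1, h2 _ υ.isUnit]

/-- **weak approximation with prescribed orders**: if `m` divides the orders of `x` at all
`V c`, then `x / H ^ m` is a unit at all `V c` for a suitable `H`. -/
theorem s36ta_exists_unit [Finite κ] (V : κ → ValuationSubring F)
    (hinc : ∀ c c', c ≠ c' → ¬ V c ≤ V c') (hA : ∀ c, StbArch (V c))
    (ord : κ → F → ℤ)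
    (hord : ∀ c (x y : F), x ≠ 0 → y ≠ 0 → ord c (x * y) = ord c x + ord c y)
    (hord0 : ∀ c (x : F), x ≠ 0 → (ord c x = 0 ↔ (V c).valuation x = 1))
    (ϖ : κ → F) (hϖ0 : ∀ c, ϖ c ≠ 0) (hϖ : ∀ c, ord c (ϖ c) = 1) {m : ℕ}
    {x : F} (hx : x ≠ 0) (hdvd : ∀ c, (m : ℤ) ∣ ord c x) :
    ∃ H : F, H ≠ 0 ∧ ∀ c, (V c).valuation (x * (H ^ m)⁻¹) = 1 := by
  choose n hn using hdvd
  obtain ⟨H, hH0, hH⟩ := aqw_weakApprox V hinc hA (fun c => ϖ c ^ n c)
    (fun c => zpow_ne_zero _ (hϖ0 c))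
  refine ⟨H, hH0, fun c => ?_⟩
  have h1 : (V c).valuation (H / ϖ c ^ n c) = 1 := pwi_val_eq_one (V c) (hH c)
  have h2 : ord c (H / ϖ c ^ n c) = 0 :=
    (hord0 c _ (div_ne_zero hH0 (zpow_ne_zero _ (hϖ0 c)))).mpr h1
  rw [s36ta_ord_div (hord c) hH0 (zpow_ne_zero _ (hϖ0 c)), s36ta_ord_zpow (hord c) (hϖ0 c),
    hϖ c, mul_one] at h2
  have hHm0 : H ^ m ≠ 0 := pow_ne_zero m hH0
  refine (hord0 c _ (mul_ne_zero hx (inv_ne_zero hHm0))).mp ?_
  rw [hord c _ _ hx (inv_ne_zero hHm0), s36ta_ord_inv (hord c) hHm0,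
    s36ta_ord_pow (hord c) hH0, hn c]
  have : ord c H = n c := by linarith
  rw [this]
  ring

/-- **the norm of the normalised function is an `m`-th power.** -/
theorem s36ta_norm_pow (hπ : Irreducible π) {m : ℕ} (hm : 0 < m)
    (hunit : ∀ a : A₀, IsUnit a → ∃ d : A₀, d ^ m = a)
    (N : F →* F₁) {q : ℕ} (hNc : ∀ e : E, N (algebraMap E F e) = algebraMap E F₁ e ^ q)
    (w : F₁ → ℤ) (hw : ∀ x y : F₁, x ≠ 0 → y ≠ 0 → w (x * y) = w x + w y)
    (hwπ : w (algebraMap E F₁ (algebraMap A₀ E π)) = 1)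
    (hwu : ∀ a : A₀, IsUnit a → w (algebraMap E F₁ (algebraMap A₀ E a)) = 0)
    {u H : F} {e₀ a : E} {f : F₁} (hu : u ≠ 0) (hH : H ≠ 0) (he₀ : e₀ ≠ 0)
    (hN : N u = algebraMap E F₁ a * f ^ m)
    (hw0 : w (N (u ^ (q + 1) * algebraMap E F e₀ * (H ^ m)⁻¹)) = 0) :
    ∃ f' : F₁, N (u ^ (q + 1) * algebraMap E F e₀ * (H ^ m)⁻¹) = f' ^ m := by
  have hNu0 : N u ≠ 0 := ng_norm_ne_zero N hu
  have ha0 : a ≠ 0 := by
    rintro rfl
    rw [map_zero, zero_mul] at hN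
    exact hNu0 hN
  have hf0 : f ≠ 0 := by
    rintro rfl
    rw [zero_pow hm.ne', mul_zero] at hN
    exact hNu0 hN
  have hNH0 : N H ≠ 0 := ng_norm_ne_zero N hH
  have hinj : Function.Injective (algebraMap E F₁) := (algebraMap E F₁).injective
  set C : E := a ^ (q + 1) * e₀ ^ q with hC
  have hC0 : C ≠ 0 := mul_ne_zero (pow_ne_zero _ ha0) (pow_ne_zero _ he₀)
  set g : F₁ := f ^ (q + 1) / N H with hg
  have hg0 : g ≠ 0 := div_ne_zero (pow_ne_zero _ hf0) hNH0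
  have key : N (u ^ (q + 1) * algebraMap E F e₀ * (H ^ m)⁻¹) = algebraMap E F₁ C * g ^ m := by
    rw [map_mul, map_mul, map_pow, s36ta_norm_inv N (pow_ne_zero m hH), map_pow, hNc, hN, hC,
      hg, map_mul, map_pow, map_pow, div_pow]
    field_simp
    ring
  rw [key] at hw0 ⊢
  have hCF : algebraMap E F₁ C ≠ 0 := (map_ne_zero_iff _ hinj).mpr hC0
  rw [hw _ _ hCF (pow_ne_zero m hg0), s36ta_ord_pow hw hg0] at hw0
  have hdvd : (m : ℤ) ∣ w (algebraMap E F₁ C) := ⟨-w g, by linarith⟩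
  obtain ⟨d, hd⟩ := s36ta_const_pow hπ hm hunit (fun e => w (algebraMap E F₁ e))
    (fun x y hx hy => by
      show w (algebraMap E F₁ (x * y)) = _
      rw [map_mul]
      exact hw _ _ ((map_ne_zero_iff _ hinj).mpr hx) ((map_ne_zero_iff _ hinj).mpr hy))
    hwπ hwu hC0 hdvd
  exact ⟨algebraMap E F₁ d * g, by rw [mul_pow, ← map_pow, hd]⟩

/-- **G-topA: the abstract chain.**  See the header of the file and NOTES/S36-topA.md. -/
theorem s36ta_main (hπ : Irreducible π) {t : F} (ht : Transcendental E t)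
    [FiniteDimensional E⟮t⟯ F]
    (hcl : ∀ x : F, IsAlgebraic E x → x ∈ (algebraMap E F).range)
    {p : ℕ} (hp : p.Prime) (hpu : IsUnit (p : A₀))
    (hunit : ∀ a : A₀, IsUnit a → ∃ d : A₀, d ^ p = a)
    {q : ℕ} (hq : q.Prime) (hqp : q ≠ p) (hqπ : π ∣ (q : A₀)) (N : ℕ)
    [Finite κ] (V : κ → ValuationSubring F) (hne : ∀ c c', c ≠ c' → V c ≠ V c')
    (hBV₁ : ∀ c (b : F), IsIntegral ↥(Algebra.adjoin A₀ {t}) b → b ∈ V c)
    (hBV₂ : ∀ c (b : F), IsIntegral ↥(Algebra.adjoin A₀ {t⁻¹}) b → b ∈ V c)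
    (hπV : ∀ c, algebraMap A₀ F π ∈ (V c).nonunits)
    (hKR : ∀ x : F, IsIntegral ↥(Algebra.adjoin A₀ {t}) (algebraMap A₀ F π * x) →
      (∀ c, x ∈ V c) → IsIntegral ↥(Algebra.adjoin A₀ {t}) x)
    (hram : ∀ c (x : F), x ∈ (V c).nonunits → ∃ z ∈ V c, x ^ (q ^ N) = algebraMap A₀ F π * z)
    (c₀ : κ)
    (hU : ∀ x : F, x ∈ (V c₀).nonunits → ∃ z ∈ V c₀, x = algebraMap A₀ F π * z)
    (hG : ∀ s : F, EIPrimeTo π t s → s ∉ (V c₀).nonunits)
    (harch : ∀ c (a x : F), a ∈ (V c).nonunits → ∃ N : ℕ, a ^ N * x ∈ (V c).nonunits)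
    -- the three components
    (ca cb cc : κ) (hκ : ∀ c, c = ca ∨ c = cb ∨ c = cc) (hab : ca ≠ cb) (hac : ca ≠ cc)
    (hbc : cb ≠ cc)
    -- the orders at the three components
    (ord : κ → F → ℤ)
    (hord : ∀ c (x y : F), x ≠ 0 → y ≠ 0 → ord c (x * y) = ord c x + ord c y)
    (hord0 : ∀ c (x : F), x ≠ 0 → (ord c x = 0 ↔ (V c).valuation x = 1))
    (hπa : ord ca (algebraMap A₀ F π) = 1) (hπb : ord cb (algebraMap A₀ F π) = 1)
    (hπc : ord cc (algebraMap A₀ F π) = (q : ℤ) - 1)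
    {ϖc : F} (hϖc0 : ϖc ≠ 0) (hϖc : ord cc ϖc = 1)
    -- the level `q M'`
    (α β : F₁ →+* F) (Nα Nβ : F →* F₁)
    (hαc : ∀ e : E, α (algebraMap E F₁ e) = algebraMap E F e)
    (hβc : ∀ e : E, β (algebraMap E F₁ e) = algebraMap E F e)
    (hNαc : ∀ e : E, Nα (algebraMap E F e) = algebraMap E F₁ e ^ q)
    (hNβc : ∀ e : E, Nβ (algebraMap E F e) = algebraMap E F₁ e ^ q)
    (Winf W0 : ValuationSubring F₁)
    (Dα : NgDir α Nα Winf (V ca) (V cc) (V cb) (q - 1) q)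
    (Dβ : NgDir β Nβ W0 (V cb) (V cc) (V ca) (q - 1) q)
    (winf w0 : F₁ → ℤ)
    (hwinf : ∀ x y : F₁, x ≠ 0 → y ≠ 0 → winf (x * y) = winf x + winf y)
    (hw0 : ∀ x y : F₁, x ≠ 0 → y ≠ 0 → w0 (x * y) = w0 x + w0 y)
    (hαinf : ∀ x : F, x ≠ 0 → winf (Nα x) = ord ca x + ord cc x)
    (hα0 : ∀ x : F, x ≠ 0 → w0 (Nα x) = q * ord cb x)
    (hβinf : ∀ x : F, x ≠ 0 → winf (Nβ x) = q * ord ca x)
    (hβ0 : ∀ x : F, x ≠ 0 → w0 (Nβ x) = ord cc x + ord cb x)
    -- the exponent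
    (r : ℕ) {ζm : A₀} (hζm : IsPrimitiveRoot ζm (p ^ r))
    -- the horizontal orders
    (Hor : F → Prop) (hHmul : ∀ x y : F, Hor x → Hor y → Hor (x * y))
    (hHinv : ∀ x : F, Hor x → Hor x⁻¹)
    (hHconst : ∀ e : E, e ≠ 0 → Hor (algebraMap E F e))
    (hHpow : ∀ x : F, x ≠ 0 → Hor (x ^ (p ^ r)))
    -- the closed points
    (hpts : ∀ i : AtPt (F := F) π t ⊕ AtPt (F := F) π t⁻¹,
      @S36PtInput F₁ F _ _ κ Hor (p ^ r) α β Nα Nβ (algebraMap E F₁ (algebraMap A₀ E ζm)) V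
        ca cb cc (atO π t i) (stb_atO_isLocalRing (π := π) t i) (atInc π t V i))
    {u : F} (hu : u ≠ 0) (hHu : Hor u)
    (hNα : ∃ (a : E) (f : F₁), Nα u = algebraMap E F₁ a * f ^ (p ^ r))
    (hNβ : ∃ (a : E) (f : F₁), Nβ u = algebraMap E F₁ a * f ^ (p ^ r)) :
    ∃ (a : E) (h : F),
      u ^ ((q + 1) * ((q - 1) * ((q - 1) * (q + 1)))) = algebraMap E F a * h ^ (p ^ r) := by
  classical
  -- the trivial case
  rcases Nat.eq_zero_or_pos r with hr | hr
  · subst hr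
    exact ⟨1, u ^ ((q + 1) * ((q - 1) * ((q - 1) * (q + 1)))), by simp⟩
  have hm : 0 < p ^ r := pow_pos hp.pos r
  have hQ : 0 < q := hq.pos
  have hqZ : (q : ℤ) ≠ 0 := by exact_mod_cast hQ.ne'
  have hQm : Nat.Coprime q (p ^ r) :=
    Nat.Coprime.pow_right r ((Nat.coprime_primes hq hp).mpr hqp)
  have hπ0 : algebraMap A₀ F π ≠ 0 :=
    (map_ne_zero_iff _ (zch_algebraMap_injective (A₀ := A₀) (E := E) (L := F))).mpr hπ.ne_zero
  have hπE0 : algebraMap A₀ E π ≠ 0 :=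
    (map_ne_zero_iff _ (IsFractionRing.injective A₀ E)).mpr hπ.ne_zero
  have hAV : ∀ c (a : A₀), algebraMap A₀ F a ∈ V c := fun c a =>
    hBV₁ c _ (mem_zchClosure.mp ((zchClosure (A₀ := A₀) ({t} : Set F)).algebraMap_mem a))
  have hinj₁ : Function.Injective (algebraMap E F₁) := (algebraMap E F₁).injective
  have hinjF : Function.Injective (algebraMap E F) := (algebraMap E F).injective
  have htower : ∀ a : A₀, algebraMap E F (algebraMap A₀ E a) = algebraMap A₀ F a := fun a =>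
    (IsScalarTower.algebraMap_apply A₀ E F a).symm
  have hunitm := s36ta_unit_pow hp.pos hunit r
  -- `ζ` of order `p`
  have hζ : IsPrimitiveRoot (ζm ^ (p ^ (r - 1))) p := by
    have h := hζm.pow_of_dvd (pow_ne_zero (r - 1) hp.pos.ne') (pow_dvd_pow p (Nat.sub_le r 1))
    have e : p ^ r / p ^ (r - 1) = p := by
      rw [Nat.pow_div (Nat.sub_le r 1) hp.pos]
      have : r - (r - 1) = 1 := by omega
      rw [this, pow_one]
    rwa [e] at h
  -- orders of the constants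
  have hordu : ∀ c (a : A₀), IsUnit a → ord c (algebraMap A₀ F a) = 0 := fun c a ha =>
    (hord0 c _ (ng_ne_zero_of_val (s36ta_val_unit (V c) (hAV c) ha))).mpr
      (s36ta_val_unit (V c) (hAV c) ha)
  have hconstα : ∀ e : E, e ≠ 0 → (q : ℤ) * winf (algebraMap E F₁ e)
      = ord ca (algebraMap E F e) + ord cc (algebraMap E F e) := by
    intro e he
    rw [← hαinf _ ((map_ne_zero_iff _ hinjF).mpr he), hNαc,
      s36ta_ord_pow hwinf ((map_ne_zero_iff _ hinj₁).mpr he)]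
  have hconstα0 : ∀ e : E, e ≠ 0 → (q : ℤ) * w0 (algebraMap E F₁ e)
      = q * ord cb (algebraMap E F e) := by
    intro e he
    rw [← hα0 _ ((map_ne_zero_iff _ hinjF).mpr he), hNαc,
      s36ta_ord_pow hw0 ((map_ne_zero_iff _ hinj₁).mpr he)]
  have hwinfπ : winf (algebraMap E F₁ (algebraMap A₀ E π)) = 1 := by
    have h := hconstα _ hπE0
    rw [htower, hπa, hπc] at h
    have h2 : (q : ℤ) * winf (algebraMap E F₁ (algebraMap A₀ E π)) = q * 1 := by
      rw [h]; ring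
    exact mul_left_cancel₀ hqZ h2
  have hwinfu : ∀ a : A₀, IsUnit a → winf (algebraMap E F₁ (algebraMap A₀ E a)) = 0 := by
    intro a ha
    have ha0 : algebraMap A₀ E a ≠ 0 :=
      (map_ne_zero_iff _ (IsFractionRing.injective A₀ E)).mpr ha.ne_zero
    have h := hconstα _ ha0
    rw [htower, hordu ca a ha, hordu cc a ha, add_zero] at h
    exact (mul_eq_zero.mp h).resolve_left hqZ
  have hw0π : w0 (algebraMap E F₁ (algebraMap A₀ E π)) = 1 := by
    have h := hconstα0 _ hπE0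
    rw [htower, hπb] at h
    exact mul_left_cancel₀ hqZ h
  have hw0u : ∀ a : A₀, IsUnit a → w0 (algebraMap E F₁ (algebraMap A₀ E a)) = 0 := by
    intro a ha
    have ha0 : algebraMap A₀ E a ≠ 0 :=
      (map_ne_zero_iff _ (IsFractionRing.injective A₀ E)).mpr ha.ne_zero
    have h := hconstα0 _ ha0
    rw [htower, hordu cb a ha, mul_zero] at h
    exact (mul_eq_zero.mp h).resolve_left hqZ
  have hwconst : ∀ e : E, e ≠ 0 → winf (algebraMap E F₁ e) = w0 (algebraMap E F₁ e) := by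
    intro e he
    refine s36ta_const_ord_eq hπ (fun e => winf (algebraMap E F₁ e))
      (fun e => w0 (algebraMap E F₁ e)) ?_ ?_ (hwinfπ.trans hw0π.symm)
      (fun a ha => (hwinfu a ha).trans (hw0u a ha).symm) he
    · intro x y hx hy
      show winf (algebraMap E F₁ (x * y)) = _
      rw [map_mul]
      exact hwinf _ _ ((map_ne_zero_iff _ hinj₁).mpr hx) ((map_ne_zero_iff _ hinj₁).mpr hy)
    · intro x y hx hy
      show w0 (algebraMap E F₁ (x * y)) = _
      rw [map_mul]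
      exact hw0 _ _ ((map_ne_zero_iff _ hinj₁).mpr hx) ((map_ne_zero_iff _ hinj₁).mpr hy)
  -- STEP 1: the vertical orders
  obtain ⟨a₁, f₁, hN₁⟩ := hNα
  obtain ⟨a₂, f₂, hN₂⟩ := hNβ
  have ha₁0 : a₁ ≠ 0 := by
    rintro rfl
    rw [map_zero, zero_mul] at hN₁
    exact ng_norm_ne_zero Nα hu hN₁
  have ha₂0 : a₂ ≠ 0 := by
    rintro rfl
    rw [map_zero, zero_mul] at hN₂
    exact ng_norm_ne_zero Nβ hu hN₂
  obtain ⟨k, hka, hkb, hkc⟩ := ng_vertical (va := ord ca) (vb := ord cb) (vc := ord cc) hm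
    hwinf hw0 hαinf hα0 hβinf hβ0 hu (hwconst a₁ ha₁0) (hwconst a₂ ha₂0)
    ((map_ne_zero_iff _ hinj₁).mpr ha₁0) ((map_ne_zero_iff _ hinj₁).mpr ha₂0) hN₁ hN₂
  set e₀ : E := algebraMap A₀ E π ^ (-k) with he₀
  have he₀0 : e₀ ≠ 0 := zpow_ne_zero _ hπE0
  have he₀F : algebraMap E F e₀ = algebraMap A₀ F π ^ (-k) := by
    rw [he₀, map_zpow₀, htower]
  set x₁ : F := u ^ (q + 1) * algebraMap E F e₀ with hx₁
  have hx₁0 : x₁ ≠ 0 := mul_ne_zero (pow_ne_zero _ hu) ((map_ne_zero_iff _ hinjF).mpr he₀0)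
  have hordx : ∀ c, ord c x₁ = ((q : ℤ) + 1) * ord c u - k * ord c (algebraMap A₀ F π) := by
    intro c
    rw [hx₁, hord c _ _ (pow_ne_zero _ hu) ((map_ne_zero_iff _ hinjF).mpr he₀0),
      s36ta_ord_pow (hord c) hu, he₀F, s36ta_ord_zpow (hord c) hπ0]
    push_cast
    ring
  have hdvd : ∀ c, ((p ^ r : ℕ) : ℤ) ∣ ord c x₁ := by
    intro c
    rw [hordx c]
    rcases hκ c with rfl | rfl | rfl
    · rw [hπa, mul_one]; exact hka
    · rw [hπb, mul_one]; exact hkb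
    · rw [hπc, mul_comm k]; exact hkc
  have hA : ∀ c, StbArch (V c) := by
    intro c x z hz
    obtain ⟨N, hN⟩ := harch c z x hz
    exact ⟨N, by rwa [mul_comm] at hN⟩
  have hinc : ∀ c c', c ≠ c' → ¬ V c ≤ V c' := fun c c' hcc' =>
    stb_not_le_of_ne (hA c) hπ0 (hπV c') (hne c c' hcc')
  obtain ⟨H, hH0, hHu⟩ := s36ta_exists_unit V hinc hA ord hord hord0
    (fun c => if c = cc then ϖc else algebraMap A₀ F π)
    (fun c => by by_cases h : c = cc <;> simp [h, hϖc0, hπ0])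
    (fun c => by
      rcases hκ c with rfl | rfl | rfl
      · simp only [if_neg hac]; exact hπa
      · simp only [if_neg hbc]; exact hπb
      · simp only [if_true]; exact hϖc)
    hx₁0 hdvd
  set y₁ : F := x₁ * (H ^ (p ^ r))⁻¹ with hy₁
  have hy₁0 : y₁ ≠ 0 := ng_ne_zero_of_val (hHu ca)
  have hordy : ∀ c, ord c y₁ = 0 := fun c => (hord0 c _ hy₁0).mpr (hHu c)
  have hHory₁ : Hor y₁ := by
    refine hHmul _ _ (hHmul _ _ ?_ (hHconst e₀ he₀0)) (hHinv _ (hHpow H hH0))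
    clear hx₁ hy₁ hordx hdvd hHu
    induction (q + 1) with
    | zero =>
      have := hHconst 1 one_ne_zero
      simpa using this
    | succ n ih => rw [pow_succ]; exact hHmul _ _ ih hHu
  -- the norms of `y₁` are `m`-th powers
  obtain ⟨g₁, hg₁⟩ := s36ta_norm_pow hπ hm hunitm Nα hNαc winf hwinf hwinfπ hwinfu hu hH0 he₀0
    hN₁ (by
      have := hαinf y₁ hy₁0
      rw [hordy ca, hordy cc, add_zero] at this
      exact this)
  obtain ⟨g₂, hg₂⟩ := s36ta_norm_pow hπ hm hunitm Nβ hNβc w0 hw0 hw0π hw0u hu hH0 he₀0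
    hN₂ (by
      have := hβ0 y₁ hy₁0
      rw [hordy cc, hordy cb, add_zero] at this
      exact this)
  -- STEP 2: toric
  obtain ⟨ta, tb, tc, hta, htb, htc, hNY₁α, hNY₁β⟩ :=
    ng_toric_pow Dα Dβ hQm hQ hm (hHu ca) (hHu cb) (hHu cc) hg₁ hg₂
  set Y₁ : F := y₁ ^ (q - 1) with hY₁
  have hY₁u : ∀ c, (V c).valuation Y₁ = 1 := fun c => ng_val_pow (hHu c) _
  have hHpowNat : ∀ (x : F) (n : ℕ), Hor x → Hor (x ^ n) := by
    intro x n hx
    induction n with
    | zero =>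
      have := hHconst 1 one_ne_zero
      simpa using this
    | succ n ih => rw [pow_succ]; exact hHmul _ _ ih hx
  have hHorY₁ : Hor Y₁ := hHpowNat _ _ hHory₁
  -- STEP 3: trivial gluing
  set ζ₁ : F₁ := algebraMap E F₁ (algebraMap A₀ E ζm) with hζ₁def
  have hζ₁ : IsPrimitiveRoot ζ₁ (p ^ r) :=
    (hζm.map_of_injective (IsFractionRing.injective A₀ E)).map_of_injective hinj₁
  have hαβ : α ζ₁ = β ζ₁ := by rw [hζ₁def, hαc, hβc]
  obtain ⟨na, nb, hTa, hTb, hTc, Hloc⟩ := s36ng_trivial_gluing.{_, _, uF} Dα Dβ hQ hm hζ₁ hαβ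
    (hY₁u ca) (hY₁u cb) (hY₁u cc) hNY₁α hNY₁β hta htb htc
  set cexp : ℕ := (q - 1) * (q + 1) with hcexp
  set T : κ → F := fun c => if c = ca then α ζ₁ ^ na * ta ^ cexp
    else if c = cb then α ζ₁ ^ nb * tb ^ cexp else tc ^ cexp with hT
  have hTca : T ca = α ζ₁ ^ na * ta ^ cexp := by simp only [hT, if_true]
  have hTcb : T cb = α ζ₁ ^ nb * tb ^ cexp := by simp only [hT, if_neg hab.symm, if_true]
  have hTcc : T cc = tc ^ cexp := by simp only [hT, if_neg hac.symm, if_neg hbc.symm]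
  have htoric : ∀ c, NgC (V c) (Y₁ ^ cexp) (T c ^ (p ^ r)) := by
    intro c
    rcases hκ c with rfl | rfl | rfl
    · rw [hTca]; exact hTa
    · rw [hTcb]; exact hTb
    · rw [hTcc]; exact hTc
  -- STEP 4: the abstract theorem
  have hαζ : α ζ₁ = algebraMap A₀ F ζm := by rw [hζ₁def, hαc, htower]
  obtain ⟨h₀, hh₀⟩ := aq_main hπ ht hcl hp hpu hζ hunit hq hqp hqπ N V hne hBV₁ hBV₂ hπV hKR
    hram c₀ hU hG harch r T (fun c => htoric c) (fun i => by
      haveI := stb_atO_isLocalRing (π := π) t i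
      exact s36ta_pointData Hor hm α β Nα Nβ ζ₁ V ca cb cc hκ hab hac hbc (atO π t i)
        (atInc π t V i) (fun c hc => stb_atO_le V hBV₁ hBV₂ i c hc) (hpts i) cexp hY₁u hHorY₁
        (hHpowNat _ _ hHorY₁) hta htb htc
        ⟨algebraMap A₀ F ζm, s36ta_algebraMap_mem_atO t i ζm⟩ hαζ.symm T hTca hTcb hTcc htoric
        (fun Oα Oβ K _ ev => Hloc (atO π t i) Oα Oβ K ev))
  -- STEP 5: conclusion
  refine ⟨(e₀⁻¹) ^ ((q - 1) * cexp), h₀ * H ^ ((q - 1) * cexp), ?_⟩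
  have hce0 : algebraMap E F e₀ ≠ 0 := (map_ne_zero_iff _ hinjF).mpr he₀0
  have hHm0 : H ^ (p ^ r) ≠ 0 := pow_ne_zero _ hH0
  have e1 : u ^ (q + 1) = y₁ * (algebraMap E F e₀)⁻¹ * H ^ (p ^ r) := by
    rw [hy₁, hx₁]
    field_simp
  have e2 : y₁ ^ ((q - 1) * cexp) = h₀ ^ (p ^ r) := by
    rw [hh₀, hY₁, ← pow_mul]
  rw [pow_mul, e1, mul_pow, mul_pow, e2, map_pow, map_inv₀, mul_pow, ← pow_mul, ← pow_mul,
    mul_comm (p ^ r) ((q - 1) * cexp)]
  ring

end Main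

end Fermat.Agent.S36
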